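/-
S41 side project "BRIDGE", row FD-AN (helper70): the analytic half of the Frobenius density theorem,
prime-degree-free form.  In a Galois extension `L/K` of number fields of degree `n ≥ 2` there are
infinitely many degree-one primes of `K` that do NOT split completely in `L`.

Proof: otherwise (all but finitely many degree-one primes split completely)
`log ζ_K(s) ≤ (1/n) log ζ_L(s) + C` on `(1,2]`, because
* `log ζ_K(s) ≤ ∑_v N v ^ (-s) + 2 ∑_v N v ^ (-2)`,
* `∑_v N v ^ (-s) ≤ ∑_{v split} N v ^ (-s) + ∑_{deg v ≥ 2} 1 / N v + #exceptions`,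
  and `∑_{deg v ≥ 2} 1 / N v ≤ [K:ℚ] ∑_p p ^ (-2) < ∞`,
* `n ∑_{v split} N v ^ (-s) ≤ ∑_w N w ^ (-s) ≤ log ζ_L(s)`;
hence `ζ_K(s) ≤ e^C ζ_L(s)^(1/n)`, contradicting the simple poles (`fgc_le_of_dedekindZeta`).

Prefix `fdan_`; main theorem `brfd_nf_infinite_nonsplit` (= the statement of
`S41x/BridgeSpec.lean`, same name in the namespace `Fermat.Agent.S41x`).
-/
import Mathlib
import Fermat.Agent.S14x.Defs
import Fermat.Agent.S14x.FIZetaSplitFinal
import Fermat.Agent.S14x.FIGCoreZeta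

set_option autoImplicit false

namespace Fermat.Agent.S41x

open NumberField IsDedekindDomain Fermat.Agent.S14x

section Deg2

variable (K : Type) [Field K] [NumberField K]

/-- the rational prime below a finite prime -/
noncomputable def fdanP (w : Pl K) : ℕ := Ideal.absNorm (Ideal.under ℤ w.asIdeal)

theorem fdan_P_prime (w : Pl K) : (fdanP K w).Prime := by
  have : NeZero w.asIdeal := ⟨w.ne_bot⟩
  exact Nat.absNorm_under_prime w.asIdeal

theorem fdan_liesOver (w : Pl K) : w.asIdeal.LiesOver (Ideal.span {((fdanP K w : ℕ) : ℤ)}) :=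
  Int.liesOver_span_absNorm w.asIdeal

theorem fdan_plNorm_eq (w : Pl K) : ∃ f : ℕ, plNorm w = fdanP K w ^ f := by
  have hp := fdan_P_prime K w
  have := fdan_liesOver K w
  exact ⟨_, Ideal.absNorm_eq_pow_inertiaDeg' w.asIdeal hp⟩

/-- a prime whose norm is not a prime number has norm `≥ p ^ 2`. -/
theorem fdan_sq_le_plNorm (w : Pl K) (hw : ¬ (plNorm w).Prime) : fdanP K w ^ 2 ≤ plNorm w := by
  obtain ⟨f, hf⟩ := fdan_plNorm_eq K w
  have hp := fdan_P_prime K w
  have h2 : (2 : ℝ) ≤ plNorm w := fzs_two_le_plNorm w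
  have h2' : 2 ≤ plNorm w := by exact_mod_cast h2
  have hf2 : 2 ≤ f := by
    by_contra hlt
    have : f = 0 ∨ f = 1 := by omega
    rcases this with rfl | rfl
    · rw [pow_zero] at hf; omega
    · rw [pow_one] at hf; exact hw (hf ▸ hp)
  rw [hf]
  exact Nat.pow_le_pow_right hp.pos hf2

theorem fdan_fiber (p : ℕ) :
    Finite {w : Pl K // fdanP K w = p} ∧
      Nat.card {w : Pl K // fdanP K w = p} ≤ Module.finrank ℚ K := by
  by_cases hp : p.Prime
  · have : Fact p.Prime := ⟨hp⟩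
    set P : Ideal ℤ := Ideal.span {(p : ℤ)} with hP
    have hPprime : P.IsPrime := (Int.ideal_span_isMaximal_of_prime p).isPrime
    have hfin : (P.primesOver (𝓞 K)).Finite := Algebra.QuasiFinite.finite_primesOver P
    let _ : Fintype (P.primesOver (𝓞 K)) := hfin.fintype
    have hsum := Ideal.sum_ramification_inertia_eq_finrank P (𝓞 K)
    rw [RingOfIntegers.rank] at hsum
    let φ : {w : Pl K // fdanP K w = p} → P.primesOver (𝓞 K) := fun w =>
      ⟨w.1.asIdeal, w.1.isPrime, by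
        have := fdan_liesOver K w.1
        rw [w.2] at this
        exact this⟩
    have hφ : Function.Injective φ := by
      intro a b hab
      have : a.1.asIdeal = b.1.asIdeal := congrArg (fun x => x.1) hab
      exact Subtype.ext (HeightOneSpectrum.ext this)
    refine ⟨Finite.of_injective φ hφ, ?_⟩
    calc Nat.card {w : Pl K // fdanP K w = p} ≤ Nat.card (P.primesOver (𝓞 K)) :=
          Nat.card_le_card_of_injective φ hφ
      _ = ∑ _q : P.primesOver (𝓞 K), 1 := by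
          rw [Nat.card_eq_fintype_card]; simp
      _ ≤ ∑ q : P.primesOver (𝓞 K), q.1.ramificationIdx ℤ * q.1.inertiaDeg ℤ := by
          refine Finset.sum_le_sum fun q _ => ?_
          have := q.2.1
          exact Nat.one_le_iff_ne_zero.mpr (Nat.mul_ne_zero (Ideal.ramificationIdx_pos q.1 ℤ).ne'
            (Ideal.inertiaDeg_pos q.1 ℤ).ne')
      _ = Module.finrank ℚ K := hsum
  · have hempty : IsEmpty {w : Pl K // fdanP K w = p} :=
      ⟨fun w => hp (w.2 ▸ fdan_P_prime K w.1)⟩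
    refine ⟨inferInstance, ?_⟩
    rw [Nat.card_of_isEmpty]
    exact Nat.zero_le _

open Classical in
/-- the weight of the primes of degree `≥ 2`. -/
noncomputable def fdanA (w : Pl K) : ℝ := if (plNorm w).Prime then 0 else ((plNorm w : ℕ) : ℝ)⁻¹

theorem fdan_A_nonneg (w : Pl K) : 0 ≤ fdanA K w := by
  unfold fdanA
  split_ifs
  · exact le_rfl
  · positivity

theorem fdan_A_le (w : Pl K) : fdanA K w ≤ (((fdanP K w : ℕ) : ℝ) ^ 2)⁻¹ := by
  unfold fdanA
  have hp := fdan_P_prime K w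
  have hp0 : (0 : ℝ) < ((fdanP K w : ℕ) : ℝ) ^ 2 := by
    have : (0 : ℝ) < ((fdanP K w : ℕ) : ℝ) := by exact_mod_cast hp.pos
    positivity
  split_ifs with h
  · exact (inv_pos.mpr hp0).le
  · have h1 := fdan_sq_le_plNorm K w h
    have h2 : ((fdanP K w : ℕ) : ℝ) ^ 2 ≤ ((plNorm w : ℕ) : ℝ) := by exact_mod_cast h1
    exact inv_anti₀ hp0 h2

theorem fdan_summable_A : Summable (fdanA K) := by
  rw [← (Equiv.sigmaFiberEquiv (fdanP K)).summable_iff]
  rw [summable_sigma_of_nonneg (f := fdanA K ∘ ⇑(Equiv.sigmaFiberEquiv (fdanP K)))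
    (fun x => fdan_A_nonneg K _)]
  refine ⟨fun p => ?_, ?_⟩
  · have := (fdan_fiber K p).1
    exact Summable.of_finite
  · have hsum : Summable (fun p : ℕ => (Module.finrank ℚ K : ℝ) * (((p : ℕ) : ℝ) ^ 2)⁻¹) :=
      (Real.summable_nat_pow_inv.mpr (by norm_num)).mul_left _
    refine Summable.of_nonneg_of_le (fun p => tsum_nonneg fun w => fdan_A_nonneg K _) (fun p => ?_) hsum
    have hfin := (fdan_fiber K p).1
    have hcard := (fdan_fiber K p).2
    have h1 : ∀ w : {w : Pl K // fdanP K w = p},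
        ((fdanA K) ∘ (Equiv.sigmaFiberEquiv (fdanP K))) ⟨p, w⟩ ≤ (((p : ℕ) : ℝ) ^ 2)⁻¹ := by
      intro w
      have := fdan_A_le K w.1
      rw [w.2] at this
      simpa using this
    have h2 : ∑' w : {w : Pl K // fdanP K w = p},
        ((fdanA K) ∘ (Equiv.sigmaFiberEquiv (fdanP K))) ⟨p, w⟩ ≤
        ∑' _w : {w : Pl K // fdanP K w = p}, (((p : ℕ) : ℝ) ^ 2)⁻¹ :=
      Summable.tsum_le_tsum h1 Summable.of_finite Summable.of_finite
    refine h2.trans ?_
    rw [tsum_const, nsmul_eq_mul]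
    have hnn : (0 : ℝ) ≤ (((p : ℕ) : ℝ) ^ 2)⁻¹ := by positivity
    have hc : (Nat.card {w : Pl K // fdanP K w = p} : ℝ) ≤ (Module.finrank ℚ K : ℝ) := by
      exact_mod_cast hcard
    exact mul_le_mul_of_nonneg_right hc hnn

end Deg2

section Split

variable {K L : Type} [Field K] [NumberField K] [Field L] [NumberField L] [Algebra K L]
  [IsGalois K L]

theorem fdan_card_over_of_split {v : Pl K} (hv : SplitsCompletely K L v) :
    Nat.card (fzsOver K L v) = Module.finrank K L := by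
  obtain ⟨w, hw⟩ := exists_plOver (M := L) v
  have := fzs_liesOver hw
  have h1 := Ideal.ncard_primesOver_mul_ramificationIdxIn_mul_inertiaDegIn v.asIdeal (𝓞 L)
    (L ≃ₐ[K] L)
  rw [Ideal.ramificationIdxIn_eq_ramificationIdx v.asIdeal w.asIdeal (L ≃ₐ[K] L),
    Ideal.inertiaDegIn_eq_inertiaDeg v.asIdeal w.asIdeal (L ≃ₐ[K] L), (hv w hw).1, (hv w hw).2,
    mul_one, mul_one, IsGalois.card_aut_eq_finrank] at h1
  rw [fzs_card_over]
  exact h1

open Classical in
/-- the split-prime weight. -/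
noncomputable def fdanC (K L : Type) [Field K] [NumberField K] [Field L] [NumberField L]
    [Algebra K L] (s : ℝ) (v : Pl K) : ℝ :=
  if SplitsCompletely K L v then ((plNorm v : ℕ) : ℝ) ^ (-s) else 0

omit [IsGalois K L] in
theorem fdan_C_nonneg (s : ℝ) (v : Pl K) : 0 ≤ fdanC K L s v := by
  unfold fdanC
  split_ifs
  · exact Real.rpow_nonneg (Nat.cast_nonneg _) _
  · exact le_rfl

/-- local lower bound. -/
theorem fdan_local_ge (s : ℝ) (v : Pl K) :
    (Module.finrank K L : ℝ) * fdanC K L s v ≤ ∑' w : fzsOver K L v, ((plNorm w.1 : ℕ) : ℝ) ^ (-s) := by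
  unfold fdanC
  split_ifs with hv
  · have h1 : ∀ w : fzsOver K L v, ((plNorm w.1 : ℕ) : ℝ) ^ (-s) = ((plNorm v : ℕ) : ℝ) ^ (-s) := by
      intro w
      rw [fzs_plNorm_over w.2, (hv w.1 w.2).2, pow_one]
    rw [tsum_congr h1, tsum_const, fdan_card_over_of_split hv, nsmul_eq_mul]
  · rw [mul_zero]
    exact tsum_nonneg fun w => Real.rpow_nonneg (Nat.cast_nonneg _) _

/-- global lower bound: `n * ∑_{v split} N v ^ (-s) ≤ ∑_w N w ^ (-s)`. -/
theorem fdan_tsum_ge {s : ℝ} (hLs : Summable (fun w : Pl L => ((plNorm w : ℕ) : ℝ) ^ (-s))) :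
    Summable (fdanC K L s) ∧
    (Module.finrank K L : ℝ) * ∑' v : Pl K, fdanC K L s v ≤
      ∑' w : Pl L, ((plNorm w : ℕ) : ℝ) ^ (-s) := by
  set b : Pl L → ℝ := fun w => ((plNorm w : ℕ) : ℝ) ^ (-s) with hb
  have h1 : ∑' w : Pl L, b w = ∑' x : (Σ v : Pl K, fzsOver K L v), b x.2.1 :=
    ((fzsSigmaEquiv (F := K) (M := L)).symm.tsum_eq b).symm
  have hsum' : Summable (fun x : (Σ v : Pl K, fzsOver K L v) => b x.2.1) :=
    ((fzsSigmaEquiv (F := K) (M := L)).symm.summable_iff).mpr hLs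
  have hn : (0 : ℝ) < Module.finrank K L := by
    exact_mod_cast Module.finrank_pos
  have hsumn : Summable (fun v : Pl K => (Module.finrank K L : ℝ) * fdanC K L s v) :=
    Summable.of_nonneg_of_le (fun v => mul_nonneg hn.le (fdan_C_nonneg s v))
      (fun v => fdan_local_ge s v) hsum'.sigma
  have hsumC : Summable (fdanC K L s) := by
    have := hsumn.mul_left ((Module.finrank K L : ℝ))⁻¹
    refine this.congr fun v => ?_
    field_simp
  refine ⟨hsumC, ?_⟩
  rw [h1, hsum'.tsum_sigma' (fun v => Summable.of_finite), ← tsum_mul_left]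
  exact Summable.tsum_le_tsum (fun v => fdan_local_ge s v) hsumn hsum'.sigma

end Split

section LogSum

variable (F : Type) [Field F] [NumberField F]

/-- comparison of the log-sum with the prime sum. -/
theorem fdan_logsum {s : ℝ} (hs : 1 < s) :
    Summable (fun v : Pl F => -Real.log (1 - ((plNorm v : ℕ) : ℝ) ^ (-s))) ∧
    ∑' v : Pl F, ((plNorm v : ℕ) : ℝ) ^ (-s) ≤
      ∑' v : Pl F, -Real.log (1 - ((plNorm v : ℕ) : ℝ) ^ (-s)) ∧
    ∑' v : Pl F, -Real.log (1 - ((plNorm v : ℕ) : ℝ) ^ (-s)) ≤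
      ∑' v : Pl F, ((plNorm v : ℕ) : ℝ) ^ (-s) +
        2 * ∑' v : Pl F, ((plNorm v : ℕ) : ℝ) ^ (-(2 : ℝ)) := by
  have hF2 := fzs_prime_summable F (s := 2) (by norm_num)
  have hFs := fzs_prime_summable F hs
  have hx0 : ∀ w : Pl F, (0 : ℝ) ≤ ((plNorm w : ℕ) : ℝ) ^ (-s) := fun w =>
    Real.rpow_nonneg (Nat.cast_nonneg _) _
  have hterm : ∀ w : Pl F, -Real.log (1 - ((plNorm w : ℕ) : ℝ) ^ (-s)) ≤
      ((plNorm w : ℕ) : ℝ) ^ (-s) + 2 * ((plNorm w : ℕ) : ℝ) ^ (-(2 : ℝ)) := by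
    intro w
    refine (fzs_neg_log_le (hx0 w) (fzs_rpow_le_half w hs.le)).trans ?_
    have := fzs_sq_rpow_le w hs.le
    linarith
  have hterm2 : ∀ w : Pl F, ((plNorm w : ℕ) : ℝ) ^ (-s) ≤
      -Real.log (1 - ((plNorm w : ℕ) : ℝ) ^ (-s)) := by
    intro w
    have h1 : (0 : ℝ) < 1 - ((plNorm w : ℕ) : ℝ) ^ (-s) := by
      have := fzs_rpow_le_half w hs.le
      linarith
    have := Real.log_le_sub_one_of_pos h1
    linarith
  have hsumR : Summable (fun w : Pl F =>
      ((plNorm w : ℕ) : ℝ) ^ (-s) + 2 * ((plNorm w : ℕ) : ℝ) ^ (-(2 : ℝ))) :=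
    hFs.add (hF2.mul_left 2)
  have hsumL : Summable (fun w : Pl F => -Real.log (1 - ((plNorm w : ℕ) : ℝ) ^ (-s))) :=
    Summable.of_nonneg_of_le (fun w => (hx0 w).trans (hterm2 w)) hterm hsumR
  refine ⟨hsumL, Summable.tsum_le_tsum hterm2 hFs hsumL, ?_⟩
  have h1 := Summable.tsum_le_tsum hterm hsumL hsumR
  rw [Summable.tsum_add hFs (hF2.mul_left 2), tsum_mul_left] at h1
  exact h1

end LogSum

section Main

variable (K L : Type) [Field K] [NumberField K] [Field L] [NumberField L] [Algebra K L]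
  [IsGalois K L]

omit [IsGalois K L] in
/-- pointwise decomposition. -/
theorem fdan_pointwise (S : Set (Pl K))
    (hS : ∀ v : Pl K, (plNorm v).Prime → ¬ SplitsCompletely K L v → v ∈ S) {s : ℝ} (hs : 1 ≤ s)
    (v : Pl K) :
    ((plNorm v : ℕ) : ℝ) ^ (-s) ≤ fdanC K L s v + fdanA K v + S.indicator (fun _ => (1 : ℝ)) v := by
  have hx0 : (0 : ℝ) ≤ ((plNorm v : ℕ) : ℝ) ^ (-s) := Real.rpow_nonneg (Nat.cast_nonneg _) _
  have hA := fdan_A_nonneg K v
  have hI : (0 : ℝ) ≤ S.indicator (fun _ => (1 : ℝ)) v := Set.indicator_nonneg (fun _ _ => zero_le_one) v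
  by_cases hv : SplitsCompletely K L v
  · have : fdanC K L s v = ((plNorm v : ℕ) : ℝ) ^ (-s) := by
      unfold fdanC; rw [if_pos hv]
    linarith
  · have hC : fdanC K L s v = 0 := by unfold fdanC; rw [if_neg hv]
    by_cases hp : (plNorm v).Prime
    · have hmem := hS v hp hv
      rw [Set.indicator_of_mem hmem, hC]
      have := fzs_rpow_neg_le_one v (by linarith : (0 : ℝ) ≤ s)
      linarith
    · have h1 : fdanA K v = ((plNorm v : ℕ) : ℝ)⁻¹ := by unfold fdanA; rw [if_neg hp]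
      have h2 : ((plNorm v : ℕ) : ℝ) ^ (-s) ≤ ((plNorm v : ℕ) : ℝ)⁻¹ := by
        rw [← Real.rpow_neg_one]
        exact Real.rpow_le_rpow_of_exponent_le (fzs_one_le_plNorm v) (by linarith)
      rw [hC, h1]
      linarith

theorem brfd_nf_infinite_nonsplit (hdeg : 2 ≤ Module.finrank K L) :
    {v : HeightOneSpectrum (𝓞 K) |
      (Ideal.absNorm v.asIdeal).Prime ∧
      ¬ ∀ w : HeightOneSpectrum (𝓞 L),
        w.asIdeal.under (𝓞 K) = v.asIdeal →
          Ideal.ramificationIdx w.asIdeal (𝓞 K) = 1 ∧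
          Ideal.inertiaDeg w.asIdeal (𝓞 K) = 1}.Infinite := by
  intro hfin
  set S : Set (Pl K) := {v : Pl K | (plNorm v).Prime ∧ ¬ SplitsCompletely K L v} with hSdef
  have hSfin : S.Finite := hfin
  have hSmem : ∀ v : Pl K, (plNorm v).Prime → ¬ SplitsCompletely K L v → v ∈ S :=
    fun v h1 h2 => ⟨h1, h2⟩
  set n : ℕ := Module.finrank K L with hn
  have hn0 : 0 < n := by omega
  have hnR : (0 : ℝ) < n := by exact_mod_cast hn0
  -- the indicator of `S` is summable
  have hsumI : Summable (S.indicator (fun _ : Pl K => (1 : ℝ))) := by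
    refine summable_of_hasFiniteSupport (hSfin.subset ?_)
    intro v hv
    by_contra hh
    exact hv (Set.indicator_of_notMem hh _)
  have hsumA := fdan_summable_A K
  set C : ℝ := ∑' v : Pl K, fdanA K v + ∑' v : Pl K, S.indicator (fun _ => (1 : ℝ)) v +
    2 * ∑' v : Pl K, ((plNorm v : ℕ) : ℝ) ^ (-(2 : ℝ)) with hC
  have hmain : ∀ s : ℝ, 1 < s → s ≤ 2 →
      ‖dedekindZeta K (s : ℂ)‖ ≤
        Real.exp C * (‖dedekindZeta L (s : ℂ)‖ * 1) ^ (((1 : ℕ) : ℝ) / (n : ℝ)) := by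
    intro s hs _
    obtain ⟨hKsum, -, hK2⟩ := fdan_logsum K hs
    obtain ⟨hLsum, hL1, -⟩ := fdan_logsum L hs
    have hKs := fzs_prime_summable K hs
    have hLs := fzs_prime_summable L hs
    obtain ⟨hCsum, hCge⟩ := fdan_tsum_ge (K := K) (L := L) hLs
    -- `P_K ≤ ∑ C + ∑ A + ∑ I`
    have hP : ∑' v : Pl K, ((plNorm v : ℕ) : ℝ) ^ (-s) ≤
        ∑' v : Pl K, fdanC K L s v + ∑' v : Pl K, fdanA K v +
          ∑' v : Pl K, S.indicator (fun _ => (1 : ℝ)) v := by
      have h1 := Summable.tsum_le_tsum (fdan_pointwise K L S hSmem hs.le) hKs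
        ((hCsum.add hsumA).add hsumI)
      rw [Summable.tsum_add (hCsum.add hsumA) hsumI, Summable.tsum_add hCsum hsumA] at h1
      exact h1
    -- `∑ C ≤ A_L / n`
    have hCle : ∑' v : Pl K, fdanC K L s v ≤
        (∑' w : Pl L, -Real.log (1 - ((plNorm w : ℕ) : ℝ) ^ (-s))) / n := by
      rw [le_div_iff₀ hnR, mul_comm]
      exact hCge.trans hL1
    have hexp : ∑' v : Pl K, -Real.log (1 - ((plNorm v : ℕ) : ℝ) ^ (-s)) ≤
        C + (∑' w : Pl L, -Real.log (1 - ((plNorm w : ℕ) : ℝ) ^ (-s))) / n := by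
      rw [hC]
      linarith
    rw [fzs_norm_zeta_eq K hs, fzs_norm_zeta_eq L hs, mul_one]
    refine (Real.exp_le_exp.mpr hexp).trans (le_of_eq ?_)
    rw [Real.exp_add, ← Real.exp_mul]
    congr 2
    push_cast
    ring
  have := fgc_le_of_dedekindZeta L K (h := n) (p := 1) hn0 (Real.exp_pos C) one_pos hmain
  omega

end Main
end Fermat.Agent.S41x
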