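/-
ROUTE_S42_S29 block (I1), row I1-AN (helper70): the analytic half of the FROBENIUS density theorem
for an ARBITRARY finite family of Galois extensions with multiplicative splitting behaviour
(inclusion-exclusion form; generalises `FDAnalytic.lean` / `FD2Analytic.lean`, whose union bound
`∑ 1/q < 1` fails e.g. for the primes `2, 3, 5`).

Setting: `K` a number field, `Q` a finite index set, for every `T ⊆ Q` a Galois extension `E T / K`
of degree `∏_{q ∈ T} d q` (`d q ≥ 2`) such that for all but finitely many degree-one primes `v` of `K`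
`v` splits completely in `E T` iff it splits completely in every `E {q}`, `q ∈ T`.
Then infinitely many degree-one primes of `K` split completely in NONE of the `E {q}`, `q ∈ Q`.

Proof: with `D_T(s) = ∑_{v deg 1, split in E T} N v ^ (-s)` and `Λ_T(s) = log ζ_{E T}(s)` one has
`n_T D_T ≤ Λ_T ≤ n_T D_T + C_T` on `(1, ∞)` (degree-one unramified primes of `E T` lie over split
degree-one primes of `K`; ramified primes divide the different), `Λ_T(s) + log (s-1)` is bounded
near `1` (simple pole), the inclusion-exclusion identity gives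
`∑_T (-1)^|T| D_T(s) ≤ #(exceptions)`, hence `∏ (1 - 1/d q) * (-log (s-1))` is bounded near `1`,
which is absurd.

Prefix `fdn_`; main theorem `fdn_infinite_nonsplit`.
-/
import Mathlib
import Fermat.Agent.S41x.FDAnalytic

set_option autoImplicit false

namespace Fermat.Agent.S41x

open NumberField IsDedekindDomain Fermat.Agent.S14x Filter Topology

section One

variable (K L : Type) [Field K] [NumberField K] [Field L] [NumberField L] [Algebra K L]

open Classical in
/-- the weight of the degree-one primes of `K` which split completely in `L`. -/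
noncomputable def fdnD (s : ℝ) (v : Pl K) : ℝ :=
  if (plNorm v).Prime ∧ SplitsCompletely K L v then ((plNorm v : ℕ) : ℝ) ^ (-s) else 0

theorem fdn_D_nonneg (s : ℝ) (v : Pl K) : 0 ≤ fdnD K L s v := by
  unfold fdnD
  split_ifs
  · exact Real.rpow_nonneg (Nat.cast_nonneg _) _
  · exact le_rfl

theorem fdn_D_le_C (s : ℝ) (v : Pl K) : fdnD K L s v ≤ fdanC K L s v := by
  unfold fdnD fdanC
  by_cases h : SplitsCompletely K L v
  · rw [if_pos h]
    split_ifs
    · exact le_rfl
    · exact Real.rpow_nonneg (Nat.cast_nonneg _) _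
  · rw [if_neg h, if_neg (fun hh => h hh.2)]

theorem fdn_D_le_one {s : ℝ} (hs : 0 ≤ s) (v : Pl K) : fdnD K L s v ≤ 1 := by
  unfold fdnD
  split_ifs
  · exact fzs_rpow_neg_le_one v hs
  · exact zero_le_one

theorem fdn_D_eq_of {s : ℝ} {v : Pl K} (h1 : (plNorm v).Prime) (h2 : SplitsCompletely K L v) :
    fdnD K L s v = ((plNorm v : ℕ) : ℝ) ^ (-s) := by
  unfold fdnD
  rw [if_pos ⟨h1, h2⟩]

theorem fdn_D_eq_zero_of_not_prime {s : ℝ} {v : Pl K} (h1 : ¬ (plNorm v).Prime) :
    fdnD K L s v = 0 := by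
  unfold fdnD
  rw [if_neg (fun h => h1 h.1)]

theorem fdn_D_eq_zero_of_not_split {s : ℝ} {v : Pl K} (h1 : ¬ SplitsCompletely K L v) :
    fdnD K L s v = 0 := by
  unfold fdnD
  rw [if_neg (fun h => h1 h.2)]

/-- the ramified primes of `L` (over `K`). -/
def fdnRam : Set (Pl L) := {w : Pl L | Ideal.ramificationIdx w.asIdeal (𝓞 K) ≠ 1}

theorem fdn_finite_ram : (fdnRam K L).Finite := by
  have hbadW : {w : Pl L | w.asIdeal ∣ differentIdeal (𝓞 K) (𝓞 L)}.Finite :=
    Ideal.finite_factors differentIdeal_ne_bot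
  refine hbadW.subset ?_
  intro w hw
  simp only [Set.mem_ofPred_eq]
  by_contra hcon
  apply hw
  have h1 : Algebra.IsUnramifiedAt (𝓞 K) w.asIdeal := not_dvd_differentIdeal_iff.mp hcon
  exact Ideal.ramificationIdx_eq_one_of_isUnramifiedAt

open Classical in
/-- the weight of the degree-one primes of `L` which are unramified over `K`. -/
noncomputable def fdnG (s : ℝ) (w : Pl L) : ℝ :=
  if (plNorm w).Prime ∧ Ideal.ramificationIdx w.asIdeal (𝓞 K) = 1 then
    ((plNorm w : ℕ) : ℝ) ^ (-s) else 0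

theorem fdn_G_nonneg (s : ℝ) (w : Pl L) : 0 ≤ fdnG K L s w := by
  unfold fdnG
  split_ifs
  · exact Real.rpow_nonneg (Nat.cast_nonneg _) _
  · exact le_rfl

theorem fdn_G_le (s : ℝ) (w : Pl L) : fdnG K L s w ≤ ((plNorm w : ℕ) : ℝ) ^ (-s) := by
  unfold fdnG
  split_ifs
  · exact le_rfl
  · exact Real.rpow_nonneg (Nat.cast_nonneg _) _

/-- pointwise decomposition upstairs. -/
theorem fdn_pointwise_up {s : ℝ} (hs : 1 ≤ s) (w : Pl L) :
    ((plNorm w : ℕ) : ℝ) ^ (-s) ≤
      fdnG K L s w + fdanA L w + (fdnRam K L).indicator (fun _ => (1 : ℝ)) w := by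
  have hx0 : (0 : ℝ) ≤ ((plNorm w : ℕ) : ℝ) ^ (-s) := Real.rpow_nonneg (Nat.cast_nonneg _) _
  have hA := fdan_A_nonneg L w
  have hG := fdn_G_nonneg K L s w
  have hI : (0 : ℝ) ≤ (fdnRam K L).indicator (fun _ => (1 : ℝ)) w :=
    Set.indicator_nonneg (fun _ _ => zero_le_one) w
  by_cases hp : (plNorm w).Prime
  · by_cases he : Ideal.ramificationIdx w.asIdeal (𝓞 K) = 1
    · have : fdnG K L s w = ((plNorm w : ℕ) : ℝ) ^ (-s) := by
        unfold fdnG; rw [if_pos ⟨hp, he⟩]
      linarith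
    · have hmem : w ∈ fdnRam K L := he
      rw [Set.indicator_of_mem hmem]
      have := fzs_rpow_neg_le_one w (by linarith : (0 : ℝ) ≤ s)
      linarith
  · have h1 : fdanA L w = ((plNorm w : ℕ) : ℝ)⁻¹ := by unfold fdanA; rw [if_neg hp]
    have h2 : ((plNorm w : ℕ) : ℝ) ^ (-s) ≤ ((plNorm w : ℕ) : ℝ)⁻¹ := by
      rw [← Real.rpow_neg_one]
      exact Real.rpow_le_rpow_of_exponent_le (fzs_one_le_plNorm w) (by linarith)
    rw [h1]
    linarith

end One

section Sigma

variable (K L : Type) [Field K] [NumberField K] [Field L] [NumberField L] [Algebra K L]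

/-- summation over the primes of `L` by fibres over the primes of `K` (abstract summand). -/
theorem fdn_tsum_sigma (b : Pl L → ℝ) (hb : Summable b) :
    ∑' w : Pl L, b w = ∑' v : Pl K, ∑' w : fzsOver K L v, b w.1 ∧
    Summable (fun v : Pl K => ∑' w : fzsOver K L v, b w.1) := by
  have h1 : ∑' w : Pl L, b w = ∑' x : (Σ v : Pl K, fzsOver K L v), b x.2.1 :=
    ((fzsSigmaEquiv (F := K) (M := L)).symm.tsum_eq b).symm
  have hsum' : Summable (fun x : (Σ v : Pl K, fzsOver K L v) => b x.2.1) :=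
    ((fzsSigmaEquiv (F := K) (M := L)).symm.summable_iff).mpr hb
  refine ⟨?_, hsum'.sigma⟩
  rw [h1, hsum'.tsum_sigma' (fun v => Summable.of_finite)]

end Sigma

section Fiber

variable {K L : Type} [Field K] [NumberField K] [Field L] [NumberField L] [Algebra K L]
  [IsGalois K L]

/-- a degree-one prime of `L`, unramified over `K`, lies over a degree-one prime of `K` which
splits completely. -/
theorem fdn_split_of_deg_one {v : Pl K} {w : Pl L} (hw : PlOver K L w v)
    (hp : (plNorm w).Prime) (he : Ideal.ramificationIdx w.asIdeal (𝓞 K) = 1) :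
    (plNorm v).Prime ∧ SplitsCompletely K L v ∧ Ideal.inertiaDeg w.asIdeal (𝓞 K) = 1 := by
  have hN := fzs_plNorm_over hw
  have hf : Ideal.inertiaDeg w.asIdeal (𝓞 K) = 1 := by
    rw [hN] at hp
    exact Nat.Prime.eq_one_of_pow hp
  have hvp : (plNorm v).Prime := by
    rw [hN, hf, pow_one] at hp
    exact hp
  refine ⟨hvp, ?_, hf⟩
  intro w' hw'
  have i1 := fzs_liesOver hw
  have i2 := fzs_liesOver hw'
  refine ⟨?_, ?_⟩
  · rw [← Ideal.ramificationIdxIn_eq_ramificationIdx v.asIdeal w'.asIdeal (L ≃ₐ[K] L),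
      Ideal.ramificationIdxIn_eq_ramificationIdx v.asIdeal w.asIdeal (L ≃ₐ[K] L), he]
  · rw [← Ideal.inertiaDegIn_eq_inertiaDeg v.asIdeal w'.asIdeal (L ≃ₐ[K] L),
      Ideal.inertiaDegIn_eq_inertiaDeg v.asIdeal w.asIdeal (L ≃ₐ[K] L), hf]

/-- fibrewise upper bound. -/
theorem fdn_fiber_le (s : ℝ) (v : Pl K) :
    ∑' w : fzsOver K L v, fdnG K L s w.1 ≤ (Module.finrank K L : ℝ) * fdnD K L s v := by
  by_cases hex : ∃ w : fzsOver K L v, (plNorm w.1).Prime ∧
      Ideal.ramificationIdx w.1.asIdeal (𝓞 K) = 1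
  · obtain ⟨w, hp, he⟩ := hex
    obtain ⟨hvp, hsplit, -⟩ := fdn_split_of_deg_one w.2 hp he
    rw [fdn_D_eq_of K L hvp hsplit]
    have h1 : ∀ w' : fzsOver K L v, fdnG K L s w'.1 ≤ ((plNorm v : ℕ) : ℝ) ^ (-s) := by
      intro w'
      refine (fdn_G_le K L s w'.1).trans (le_of_eq ?_)
      rw [fzs_plNorm_over w'.2, (hsplit w'.1 w'.2).2, pow_one]
    have h2 : ∑' w' : fzsOver K L v, fdnG K L s w'.1 ≤
        ∑' _w' : fzsOver K L v, ((plNorm v : ℕ) : ℝ) ^ (-s) :=
      Summable.tsum_le_tsum h1 Summable.of_finite Summable.of_finite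
    refine h2.trans (le_of_eq ?_)
    rw [tsum_const, fdan_card_over_of_split hsplit, nsmul_eq_mul]
  · push Not at hex
    have h0 : ∀ w : fzsOver K L v, fdnG K L s w.1 = 0 := by
      intro w
      unfold fdnG
      rw [if_neg]
      rintro ⟨hp, he⟩
      exact hex w hp he
    rw [tsum_congr h0, tsum_zero]
    exact mul_nonneg (Nat.cast_nonneg _) (fdn_D_nonneg K L s v)

end Fiber

section TwoSided

variable (K L : Type) [Field K] [NumberField K] [Field L] [NumberField L] [Algebra K L]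
  [IsGalois K L]

/-- the constant of the two-sided bound. -/
noncomputable def fdnConst : ℝ :=
  ∑' w : Pl L, fdanA L w + ∑' w : Pl L, (fdnRam K L).indicator (fun _ => (1 : ℝ)) w +
    2 * ∑' w : Pl L, ((plNorm w : ℕ) : ℝ) ^ (-(2 : ℝ))

/-- **two-sided bound**: `n D(s) ≤ Λ_L(s) ≤ n D(s) + C` for `s > 1`. -/
theorem fdn_two_sided {s : ℝ} (hs : 1 < s) :
    Summable (fdnD K L s) ∧
    (Module.finrank K L : ℝ) * ∑' v : Pl K, fdnD K L s v ≤
      ∑' w : Pl L, -Real.log (1 - ((plNorm w : ℕ) : ℝ) ^ (-s)) ∧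
    ∑' w : Pl L, -Real.log (1 - ((plNorm w : ℕ) : ℝ) ^ (-s)) ≤
      (Module.finrank K L : ℝ) * ∑' v : Pl K, fdnD K L s v + fdnConst K L := by
  have hLs := fzs_prime_summable L hs
  obtain ⟨hLsum, hL1, hL2⟩ := fdan_logsum L hs
  obtain ⟨hCsum, hCge⟩ := fdan_tsum_ge (K := K) (L := L) hLs
  have hn : (0 : ℝ) ≤ Module.finrank K L := Nat.cast_nonneg _
  have hDsum : Summable (fdnD K L s) :=
    Summable.of_nonneg_of_le (fdn_D_nonneg K L s) (fdn_D_le_C K L s) hCsum
  refine ⟨hDsum, ?_, ?_⟩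
  · have h1 : ∑' v : Pl K, fdnD K L s v ≤ ∑' v : Pl K, fdanC K L s v :=
      Summable.tsum_le_tsum (fdn_D_le_C K L s) hDsum hCsum
    calc (Module.finrank K L : ℝ) * ∑' v : Pl K, fdnD K L s v
        ≤ (Module.finrank K L : ℝ) * ∑' v : Pl K, fdanC K L s v :=
          mul_le_mul_of_nonneg_left h1 hn
      _ ≤ ∑' w : Pl L, ((plNorm w : ℕ) : ℝ) ^ (-s) := hCge
      _ ≤ _ := hL1
  · -- lower bound
    have hsumI : Summable ((fdnRam K L).indicator (fun _ : Pl L => (1 : ℝ))) := by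
      refine summable_of_hasFiniteSupport ((fdn_finite_ram K L).subset ?_)
      intro w hw
      by_contra hh
      exact hw (Set.indicator_of_notMem hh _)
    have hsumA := fdan_summable_A L
    have hGsum : Summable (fdnG K L s) :=
      Summable.of_nonneg_of_le (fdn_G_nonneg K L s) (fdn_G_le K L s) hLs
    -- `P_L ≤ ∑ G + ∑ A + ∑ I`
    have hP : ∑' w : Pl L, ((plNorm w : ℕ) : ℝ) ^ (-s) ≤
        ∑' w : Pl L, fdnG K L s w + ∑' w : Pl L, fdanA L w +
          ∑' w : Pl L, (fdnRam K L).indicator (fun _ => (1 : ℝ)) w := by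
      have h1 := Summable.tsum_le_tsum (fdn_pointwise_up K L hs.le) hLs
        ((hGsum.add hsumA).add hsumI)
      rw [Summable.tsum_add (hGsum.add hsumA) hsumI, Summable.tsum_add hGsum hsumA] at h1
      exact h1
    -- `∑ G ≤ n ∑ D`
    have hG : ∑' w : Pl L, fdnG K L s w ≤
        (Module.finrank K L : ℝ) * ∑' v : Pl K, fdnD K L s v := by
      obtain ⟨h1, h3⟩ := fdn_tsum_sigma K L (fdnG K L s) hGsum
      have h4 : Summable (fun v : Pl K => (Module.finrank K L : ℝ) * fdnD K L s v) :=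
        hDsum.mul_left _
      rw [h1, ← tsum_mul_left]
      exact Summable.tsum_le_tsum (fun v => fdn_fiber_le s v) h3 h4
    unfold fdnConst
    linarith

end TwoSided

section Asymp

variable (F : Type) [Field F] [NumberField F]

/-- `Λ_F(s) + log (s - 1)` is bounded near `1` (simple pole of `ζ_F`). -/
theorem fdn_Lambda_asymp :
    ∃ C : ℝ, ∀ᶠ s in 𝓝[>] (1 : ℝ),
      |∑' w : Pl F, -Real.log (1 - ((plNorm w : ℕ) : ℝ) ^ (-s)) + Real.log (s - 1)| ≤ C := by
  have hρ := dedekindZeta_residue_pos F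
  have h0 := fgc_tendsto_norm_dedekindZeta F
  have h1 : Tendsto (fun s : ℝ => Real.log ((s - 1) * ‖dedekindZeta F (s : ℂ)‖)) (𝓝[>] 1)
      (𝓝 (Real.log (dedekindZeta_residue F))) :=
    (Real.continuousAt_log hρ.ne').tendsto.comp h0
  refine ⟨|Real.log (dedekindZeta_residue F)| + 1, ?_⟩
  have h2 := Metric.tendsto_nhds.mp h1 1 one_pos
  have h4 : ∀ᶠ s in 𝓝[>] (1 : ℝ), 1 < s := eventually_mem_nhdsWithin
  filter_upwards [h2, h4] with s hs2 hs
  rw [fzs_norm_zeta_eq F hs, Real.log_mul (sub_pos.2 hs).ne' (Real.exp_pos _).ne', Real.log_exp,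
    Real.dist_eq] at hs2
  have h5 := abs_sub_abs_le_abs_sub
    (Real.log (s - 1) + ∑' w : Pl F, -Real.log (1 - ((plNorm w : ℕ) : ℝ) ^ (-s)))
    (Real.log (dedekindZeta_residue F))
  rw [add_comm]
  linarith

end Asymp

section InclExcl

variable {ι : Type} [DecidableEq ι] (K : Type) [Field K] [NumberField K] (Q : Finset ι)
  (E : Finset ι → Type) [∀ T, Field (E T)] [∀ T, NumberField (E T)] [∀ T, Algebra K (E T)]

open Classical in
/-- inclusion-exclusion at one prime. -/
theorem fdn_incl_excl (v : Pl K)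
    (hsplit : ∀ T, T ⊆ Q →
      (SplitsCompletely K (E T) v ↔ ∀ q ∈ T, SplitsCompletely K (E {q}) v)) :
    ∑ T ∈ Q.powerset, (-1 : ℝ) ^ T.card * (if SplitsCompletely K (E T) v then 1 else 0) =
      if ∀ q ∈ Q, ¬ SplitsCompletely K (E {q}) v then 1 else 0 := by
  have h1 : ∀ T ∈ Q.powerset,
      (-1 : ℝ) ^ T.card * (if SplitsCompletely K (E T) v then (1 : ℝ) else 0) =
      (-1) ^ T.card * (∏ _q ∈ Q \ T, (1 : ℝ)) *
        ∏ q ∈ T, (if SplitsCompletely K (E {q}) v then (1 : ℝ) else 0) := by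
    intro T hT
    rw [Finset.prod_const_one, mul_one, Finset.prod_boole]
    congr 1
    exact if_congr (hsplit T (Finset.mem_powerset.mp hT)) rfl rfl
  rw [Finset.sum_congr rfl h1, ← Finset.prod_sub]
  have h2 : ∀ q ∈ Q, (1 : ℝ) - (if SplitsCompletely K (E {q}) v then (1 : ℝ) else 0) =
      if ¬ SplitsCompletely K (E {q}) v then (1 : ℝ) else 0 := by
    intro q _
    by_cases h : SplitsCompletely K (E {q}) v
    · simp [h]
    · simp [h]
  rw [Finset.prod_congr rfl h2, Finset.prod_boole]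

/-- the exceptional-free set. -/
def fdnB : Set (Pl K) :=
  {v : Pl K | (plNorm v).Prime ∧ ∀ q ∈ Q, ¬ SplitsCompletely K (E {q}) v}

/-- pointwise inequality. -/
theorem fdn_pointwise (S₀ : Set (Pl K))
    (hsplit : ∀ T, T ⊆ Q → ∀ v : Pl K, v ∉ S₀ → (plNorm v).Prime →
      (SplitsCompletely K (E T) v ↔ ∀ q ∈ T, SplitsCompletely K (E {q}) v))
    {s : ℝ} (hs : 0 ≤ s) (v : Pl K) :
    ∑ T ∈ Q.powerset, (-1 : ℝ) ^ T.card * fdnD K (E T) s v ≤
      (fdnB K Q E).indicator (fun _ => (1 : ℝ)) v +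
        (2 : ℝ) ^ Q.card * S₀.indicator (fun _ => (1 : ℝ)) v := by
  classical
  have hI1 : (0 : ℝ) ≤ (fdnB K Q E).indicator (fun _ => (1 : ℝ)) v :=
    Set.indicator_nonneg (fun _ _ => zero_le_one) v
  have hI2 : (0 : ℝ) ≤ (2 : ℝ) ^ Q.card * S₀.indicator (fun _ => (1 : ℝ)) v :=
    mul_nonneg (by positivity) (Set.indicator_nonneg (fun _ _ => zero_le_one) v)
  by_cases hp : (plNorm v).Prime
  · by_cases hv : v ∈ S₀
    · -- crude bound
      rw [Set.indicator_of_mem hv, mul_one]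
      have h1 : ∀ T ∈ Q.powerset, (-1 : ℝ) ^ T.card * fdnD K (E T) s v ≤ 1 := by
        intro T _
        have h0 := fdn_D_nonneg K (E T) s v
        have h1 := fdn_D_le_one K (E T) hs v
        rcases neg_one_pow_eq_or ℝ T.card with h | h
        · rw [h, one_mul]; exact h1
        · rw [h]; linarith
      have h2 := Finset.sum_le_sum h1
      rw [Finset.sum_const, Finset.card_powerset, nsmul_eq_mul, mul_one] at h2
      push_cast at h2
      linarith
    · have h1 : ∀ T ∈ Q.powerset, (-1 : ℝ) ^ T.card * fdnD K (E T) s v =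
          ((plNorm v : ℕ) : ℝ) ^ (-s) *
            ((-1 : ℝ) ^ T.card * (if SplitsCompletely K (E T) v then 1 else 0)) := by
        intro T _
        by_cases h : SplitsCompletely K (E T) v
        · rw [fdn_D_eq_of K (E T) hp h, if_pos h]; ring
        · rw [fdn_D_eq_zero_of_not_split K (E T) h, if_neg h]; ring
      rw [Finset.sum_congr rfl h1, ← Finset.mul_sum,
        fdn_incl_excl K Q E v (fun T hT => hsplit T hT v hv hp)]
      by_cases hB : ∀ q ∈ Q, ¬ SplitsCompletely K (E {q}) v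
      · have hmem : v ∈ fdnB K Q E := ⟨hp, hB⟩
        rw [if_pos hB, mul_one, Set.indicator_of_mem hmem]
        have := fzs_rpow_neg_le_one v hs
        linarith
      · rw [if_neg hB, mul_zero]
        linarith
  · have h1 : ∀ T ∈ Q.powerset, (-1 : ℝ) ^ T.card * fdnD K (E T) s v = 0 := by
      intro T _
      rw [fdn_D_eq_zero_of_not_prime K (E T) hp, mul_zero]
    rw [Finset.sum_eq_zero h1]
    linarith

end InclExcl

section Main

variable {ι : Type} [DecidableEq ι] (K : Type) [Field K] [NumberField K] (Q : Finset ι)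
  (E : Finset ι → Type) [∀ T, Field (E T)] [∀ T, NumberField (E T)] [∀ T, Algebra K (E T)]
  [∀ T, IsGalois K (E T)]

/-- the density constant `∑_T (-1)^|T| / n_T = ∏ (1 - 1/d q) > 0`. -/
theorem fdn_density_pos (d : ι → ℕ) (hd : ∀ q ∈ Q, 2 ≤ d q) :
    0 < ∑ T ∈ Q.powerset, (-1 : ℝ) ^ T.card * (((∏ q ∈ T, d q : ℕ) : ℝ))⁻¹ := by
  have h1 : ∑ T ∈ Q.powerset, (-1 : ℝ) ^ T.card * (((∏ q ∈ T, d q : ℕ) : ℝ))⁻¹ =
      ∏ q ∈ Q, ((1 : ℝ) - ((d q : ℕ) : ℝ)⁻¹) := by
    rw [Finset.prod_sub]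
    refine Finset.sum_congr rfl fun T _ => ?_
    rw [Finset.prod_const_one, mul_one, Nat.cast_prod, Finset.prod_inv_distrib]
  rw [h1]
  refine Finset.prod_pos fun q hq => ?_
  have h2 : (2 : ℝ) ≤ d q := by exact_mod_cast hd q hq
  have h3 : ((d q : ℕ) : ℝ)⁻¹ ≤ (2 : ℝ)⁻¹ := inv_anti₀ (by norm_num) h2
  have : (2 : ℝ)⁻¹ < 1 := by norm_num
  linarith

/-- **I1-AN**: infinitely many degree-one primes of `K` split completely in none of the
`E {q}`, `q ∈ Q`. -/
theorem fdn_infinite_nonsplit (d : ι → ℕ) (hd : ∀ q ∈ Q, 2 ≤ d q)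
    (hdeg : ∀ T, T ⊆ Q → Module.finrank K (E T) = ∏ q ∈ T, d q)
    (S₀ : Set (Pl K)) (hS₀ : S₀.Finite)
    (hsplit : ∀ T, T ⊆ Q → ∀ v : Pl K, v ∉ S₀ → (plNorm v).Prime →
      (SplitsCompletely K (E T) v ↔ ∀ q ∈ T, SplitsCompletely K (E {q}) v)) :
    {v : Pl K | (plNorm v).Prime ∧ ∀ q ∈ Q, ¬ SplitsCompletely K (E {q}) v}.Infinite := by
  intro hfin
  have hBfin : (fdnB K Q E).Finite := hfin
  -- notation
  set P := Q.powerset with hP
  set n : Finset ι → ℝ := fun T => (Module.finrank K (E T) : ℝ) with hn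
  have hn0 : ∀ T, 0 < n T := fun T => by
    simp only [hn]; exact_mod_cast Module.finrank_pos
  set D : Finset ι → ℝ → ℝ := fun T s => ∑' v : Pl K, fdnD K (E T) s v with hD
  set Λ : Finset ι → ℝ → ℝ := fun T s =>
    ∑' w : Pl (E T), -Real.log (1 - ((plNorm w : ℕ) : ℝ) ^ (-s)) with hΛ
  -- the indicators are summable
  have hsumB : Summable ((fdnB K Q E).indicator (fun _ : Pl K => (1 : ℝ))) := by
    refine summable_of_hasFiniteSupport (hBfin.subset ?_)
    intro v hv
    by_contra hh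
    exact hv (Set.indicator_of_notMem hh _)
  have hsumS : Summable (S₀.indicator (fun _ : Pl K => (1 : ℝ))) := by
    refine summable_of_hasFiniteSupport (hS₀.subset ?_)
    intro v hv
    by_contra hh
    exact hv (Set.indicator_of_notMem hh _)
  set C₀ : ℝ := ∑' v : Pl K, (fdnB K Q E).indicator (fun _ => (1 : ℝ)) v +
    (2 : ℝ) ^ Q.card * ∑' v : Pl K, S₀.indicator (fun _ => (1 : ℝ)) v with hC₀
  -- step 1: `∑_T (-1)^|T| D_T(s) ≤ C₀` for `s > 1`
  have hstep1 : ∀ s : ℝ, 1 < s → ∑ T ∈ P, (-1 : ℝ) ^ T.card * D T s ≤ C₀ := by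
    intro s hs
    have hDs : ∀ T ∈ P, Summable (fun v : Pl K => (-1 : ℝ) ^ T.card * fdnD K (E T) s v) :=
      fun T _ => (fdn_two_sided K (E T) hs).1.mul_left _
    have h1 : ∑ T ∈ P, (-1 : ℝ) ^ T.card * D T s =
        ∑' v : Pl K, ∑ T ∈ P, (-1 : ℝ) ^ T.card * fdnD K (E T) s v := by
      rw [Summable.tsum_finsetSum hDs]
      refine Finset.sum_congr rfl fun T _ => ?_
      simp only [hD]
      rw [tsum_mul_left]
    rw [h1]
    have h2 := Summable.tsum_le_tsum
      (fdn_pointwise K Q E S₀ hsplit (by linarith : (0 : ℝ) ≤ s))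
      (summable_sum hDs) (hsumB.add (hsumS.mul_left _))
    rw [Summable.tsum_add hsumB (hsumS.mul_left _), tsum_mul_left] at h2
    exact h2
  -- step 2: two-sided bounds
  have hstep2 : ∀ T, ∀ s : ℝ, 1 < s →
      n T * D T s ≤ Λ T s ∧ Λ T s ≤ n T * D T s + fdnConst K (E T) := by
    intro T s hs
    exact (fdn_two_sided K (E T) hs).2
  -- step 3: asymptotics of `Λ_T`
  have hasym := fun T : Finset ι => fdn_Lambda_asymp (E T)
  choose C' hC' using hasym
  -- the final constant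
  set c : ℝ := ∑ T ∈ P, (-1 : ℝ) ^ T.card * (n T)⁻¹ with hc
  have hcpos : 0 < c := by
    have h1 : c = ∑ T ∈ Q.powerset, (-1 : ℝ) ^ T.card * (((∏ q ∈ T, d q : ℕ) : ℝ))⁻¹ := by
      rw [hc]
      refine Finset.sum_congr rfl fun T hT => ?_
      simp only [hn]
      rw [hdeg T (Finset.mem_powerset.mp hT)]
    rw [h1]
    exact fdn_density_pos Q d hd
  set M : ℝ := C₀ + ∑ T ∈ P, (|fdnConst K (E T)| + C' T) * (n T)⁻¹ with hM
  -- eventually `c * (-log (s-1)) ≤ M`
  have hev : ∀ᶠ s in 𝓝[>] (1 : ℝ), c * (-Real.log (s - 1)) ≤ M := by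
    have h4 : ∀ᶠ s in 𝓝[>] (1 : ℝ), 1 < s := eventually_mem_nhdsWithin
    have h5 : ∀ᶠ s in 𝓝[>] (1 : ℝ), ∀ T ∈ P,
        |Λ T s + Real.log (s - 1)| ≤ C' T :=
      (Filter.eventually_all_finset P).mpr fun T _ => hC' T
    filter_upwards [h4, h5] with s hs hs5
    have h6 : ∀ T ∈ P, (-1 : ℝ) ^ T.card * ((n T)⁻¹ * (-Real.log (s - 1))) ≤
        (-1 : ℝ) ^ T.card * D T s + (|fdnConst K (E T)| + C' T) * (n T)⁻¹ := by
      intro T hT
      obtain ⟨ha, hb⟩ := hstep2 T s hs
      have hc5 := hs5 T hT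
      have hnT := hn0 T
      have hinv : 0 < (n T)⁻¹ := inv_pos.mpr hnT
      -- `|n D - ℓ| ≤ |C| + C'`
      have habs : |n T * D T s - (-Real.log (s - 1))| ≤ |fdnConst K (E T)| + C' T := by
        have e1 : n T * D T s - (-Real.log (s - 1)) =
            (n T * D T s - Λ T s) + (Λ T s + Real.log (s - 1)) := by ring
        rw [e1]
        refine (abs_add_le _ _).trans (add_le_add ?_ hc5)
        rw [abs_le]
        have := le_abs_self (fdnConst K (E T))
        have := neg_abs_le (fdnConst K (E T))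
        constructor <;> linarith
      -- divide by `n T`
      have hdiv : |D T s - (n T)⁻¹ * (-Real.log (s - 1))| ≤
          (|fdnConst K (E T)| + C' T) * (n T)⁻¹ := by
        have e2 : D T s - (n T)⁻¹ * (-Real.log (s - 1)) =
            (n T * D T s - (-Real.log (s - 1))) * (n T)⁻¹ := by
          field_simp
        rw [e2, abs_mul, abs_of_pos hinv]
        exact mul_le_mul_of_nonneg_right habs hinv.le
      rw [abs_le] at hdiv
      rcases neg_one_pow_eq_or ℝ T.card with h | h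
      · rw [h, one_mul, one_mul]; linarith [hdiv.1]
      · rw [h]; linarith [hdiv.2]
    have h7 := Finset.sum_le_sum h6
    rw [Finset.sum_add_distrib] at h7
    have h8 : c * (-Real.log (s - 1)) =
        ∑ T ∈ P, (-1 : ℝ) ^ T.card * ((n T)⁻¹ * (-Real.log (s - 1))) := by
      rw [hc, Finset.sum_mul]
      refine Finset.sum_congr rfl fun T _ => ?_
      ring
    rw [h8, hM]
    have := hstep1 s hs
    linarith
  -- but `-log (s-1) → ∞`
  have hlog : Tendsto (fun s : ℝ => c * (-Real.log (s - 1))) (𝓝[>] 1) atTop := by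
    have h1 : Tendsto (fun s : ℝ => s - 1) (𝓝[>] 1) (𝓝[>] 0) := by
      refine tendsto_nhdsWithin_of_tendsto_nhds_of_eventually_within _ ?_ ?_
      · have : Tendsto (fun s : ℝ => s - 1) (𝓝 1) (𝓝 (1 - 1)) :=
          (continuous_id.sub continuous_const).tendsto 1
        rw [sub_self] at this
        exact this.mono_left nhdsWithin_le_nhds
      · filter_upwards [eventually_mem_nhdsWithin] with s hs
        have hs' : (1 : ℝ) < s := hs
        exact Set.mem_Ioi.mpr (sub_pos.mpr hs')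
    have h2 : Tendsto (fun s : ℝ => Real.log (s - 1)) (𝓝[>] 1) atBot :=
      Real.tendsto_log_nhdsGT_zero.comp h1
    have h3 : Tendsto (fun s : ℝ => -Real.log (s - 1)) (𝓝[>] 1) atTop :=
      tendsto_neg_atBot_atTop.comp h2
    exact h3.const_mul_atTop hcpos
  have hgt := hlog.eventually_gt_atTop M
  obtain ⟨s, hs1, hs2⟩ := (hev.and hgt).exists
  linarith

end Main

end Fermat.Agent.S41x
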