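/-
S41 bridge, row FD-DI (shadow / second squad, helper90): the dictionary

  FD-AN (infinitely many degree-one non-split primes in a Galois extension of number fields)
    ==>  `brfd_exists_frobenius` of `S41x/BridgeSpec.lean`.

`fddib_exists_frobenius_of (hAN : fddib_ANStatement)` has EXACTLY the conclusion of
`BridgeSpec.brfd_exists_frobenius`; `fddib_ANStatement` is a verbatim copy of the statement of
`BridgeSpec.brfd_nf_infinite_nonsplit` (row FD-AN).

Route: `K' = L^<g>` as `FixedPoints.intermediateField (zpowers (g|L))`; FD-AN gives a degree one prime `v` of `K'`,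
not split in `L`, of residue characteristic `l` prime to `M * disc L`; `w | v` is unramified over `ℤ`
(`NumberField.not_dvd_discr_iff_forall_mem`), hence `f(w|v) ≠ 1`; Mathlib's `IsArithFrobAt.exists_of_isInvariant`
for `zpowers (g|L)` acting on `𝓞 L` over `𝓞 K'` gives a Frobenius `(g|L)^k` at `w`, nontrivial because `f(w|v) ≠ 1`;
a prime `Q` of the ring of all algebraic integers above `w` carries a Frobenius `φ` of `G_ℚ` (proof of
`S54x.exists_frob_B` for a given prime) and `S54x.exists_valuationSubring_isFrobeniusAt` turns `(Q, φ)` into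
`(A, φ)`; finally `φ|L = (g|L)^k` by uniqueness of Frobenius elements at unramified primes
(`AlgHom.IsArithFrobAt.eq_of_isUnramifiedAt`).
-/
import Mathlib
import Fermat.Prelude.Def_EllipticCurve_FrobeniusTrace
import Fermat.Agent.S54x.FrobExists
import Fermat.Agent.S54x.ValSubring

set_option autoImplicit false

namespace Fermat.Agent.S41x

open NumberField IsDedekindDomain Fermat.Agent.S54x

noncomputable section

local notation "K̄" => AlgebraicClosure ℚ
local notation "Γ" => (AlgebraicClosure ℚ ≃ₐ[ℚ] AlgebraicClosure ℚ)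
local notation "𝓑" => integralClosure ℤ (AlgebraicClosure ℚ)

open scoped Pointwise

/-- Frobenius element for a GIVEN prime `Q` of the ring of all algebraic integers. -/
theorem fddib_exists_frob_of_prime (ℓ : ℕ) (hℓ : ℓ.Prime) (Q : Ideal 𝓑) [hQprime : Q.IsPrime]
    (hQP : Q.comap (algebraMap ℤ 𝓑) = Ideal.span {(ℓ : ℤ)}) :
    ∃ σ : Γ, σ • Q = Q ∧ ∀ b : 𝓑, σ • b - b ^ ℓ ∈ Q := by
  have := isGalois_Qbar
  have := isInvariant_B
  have : Fact ℓ.Prime := ⟨hℓ⟩
  have hℓ' : Prime (ℓ : ℤ) := Nat.prime_iff_prime_int.mp hℓ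
  let P : Ideal ℤ := Ideal.span {(ℓ : ℤ)}
  have hPmax : P.IsMaximal := PrincipalIdealRing.isMaximal_of_irreducible hℓ'.irreducible
  have hQlies : Q.LiesOver P := ⟨hQP.symm⟩
  have hQmax : Q.IsMaximal :=
    Ideal.isMaximal_of_isIntegral_of_isMaximal_comap Q (by rw [hQP]; exact hPmax)
  let _ : TopologicalSpace 𝓑 := ⊥
  have : DiscreteTopology 𝓑 := ⟨rfl⟩
  have : ContinuousSMul Γ 𝓑 := continuousSMul_iff_stabilizer_isOpen.mpr stabilizer_isOpen_B
  have hsurj := Ideal.Quotient.stabilizerHom_surjective_of_profinite (G := Γ) P Q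
  let _ : Field (𝓑 ⧸ Q) := Ideal.Quotient.field Q
  let _ : Field (ℤ ⧸ P) := Ideal.Quotient.field P
  have hℓQ : (ℓ : 𝓑) ∈ Q := by
    have : (ℓ : ℤ) ∈ Q.comap (algebraMap ℤ 𝓑) := by
      rw [hQP]; exact Ideal.mem_span_singleton_self _
    simpa using this
  have : CharP (𝓑 ⧸ Q) ℓ := by
    rw [CharP.charP_iff_prime_eq_zero hℓ]
    have : ((ℓ : 𝓑) : 𝓑 ⧸ Q) = 0 := Ideal.Quotient.eq_zero_iff_mem.mpr hℓQ
    simpa using this
  let frobHom : (𝓑 ⧸ Q) →ₐ[ℤ ⧸ P] (𝓑 ⧸ Q) :=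
    { frobenius (𝓑 ⧸ Q) ℓ with
      commutes' := by
        intro r
        have : (frobenius (𝓑 ⧸ Q) ℓ).comp (algebraMap (ℤ ⧸ P) (𝓑 ⧸ Q)) =
            algebraMap (ℤ ⧸ P) (𝓑 ⧸ Q) := by
          apply Ideal.Quotient.ringHom_ext
          exact RingHom.ext_int _ _
        exact RingHom.congr_fun this r }
  have : Algebra.IsAlgebraic (ℤ ⧸ P) (𝓑 ⧸ Q) := Algebra.IsIntegral.isAlgebraic
  have hbij : Function.Bijective frobHom := Algebra.IsAlgebraic.algHom_bijective frobHom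
  obtain ⟨⟨σ, hσQ⟩, hσ⟩ := hsurj (AlgEquiv.ofBijective frobHom hbij)
  refine ⟨σ, hσQ, fun b => ?_⟩
  have h1 := DFunLike.congr_fun hσ (Ideal.Quotient.mk Q b)
  rw [Ideal.Quotient.stabilizerHom_apply] at h1
  rw [← Ideal.Quotient.eq]
  have h2 : (⟨σ, hσQ⟩ : MulAction.stabilizer Γ Q) • b = σ • b := rfl
  rw [← h2, h1]
  simp [frobHom, frobenius_def]


/-- the FD-AN statement (copy of `BridgeSpec.brfd_nf_infinite_nonsplit`) as a proposition -/
def fddib_ANStatement : Prop :=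
  ∀ (K L : Type) [Field K] [NumberField K] [Field L] [NumberField L] [Algebra K L]
    [IsGalois K L] (_ : 2 ≤ Module.finrank K L),
    {v : IsDedekindDomain.HeightOneSpectrum (NumberField.RingOfIntegers K) |
      (Ideal.absNorm v.asIdeal).Prime ∧
      ¬ ∀ w : IsDedekindDomain.HeightOneSpectrum (NumberField.RingOfIntegers L),
        w.asIdeal.under (NumberField.RingOfIntegers K) = v.asIdeal →
          Ideal.ramificationIdx w.asIdeal (NumberField.RingOfIntegers K) = 1 ∧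
          Ideal.inertiaDeg w.asIdeal (NumberField.RingOfIntegers K) = 1}.Infinite

/-- finitely many height one primes have norm dividing a given nonzero number -/
theorem fddib_finite_absNorm_dvd (K : Type) [Field K] [NumberField K] (D : ℕ) (hD : D ≠ 0) :
    {v : HeightOneSpectrum (𝓞 K) | Ideal.absNorm v.asIdeal ∣ D}.Finite := by
  have h1 : {I : Ideal (𝓞 K) | Ideal.absNorm I ∣ D}.Finite := by
    have : {I : Ideal (𝓞 K) | Ideal.absNorm I ∣ D} =
        ⋃ n ∈ D.divisors, {I : Ideal (𝓞 K) | Ideal.absNorm I = n} := by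
      ext I
      simp only [Set.mem_ofPred_eq, Set.mem_iUnion, Nat.mem_divisors, exists_prop]
      constructor
      · intro h; exact ⟨_, ⟨h, hD⟩, rfl⟩
      · rintro ⟨n, ⟨h, -⟩, rfl⟩; exact h
    rw [this]
    exact Set.Finite.biUnion (Finset.finite_toSet _) fun n _ => Ideal.finite_setOfPred_absNorm_eq n
  refine Set.Finite.preimage (f := HeightOneSpectrum.asIdeal) ?_ h1
  intro v _ v' _ h
  exact HeightOneSpectrum.ext h

/-- in a finite field where every element satisfies `y ^ ℓ = y` there are at most `ℓ` elements -/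
theorem fddib_card_le_of_pow_eq {F : Type*} [Field F] [Finite F] (ℓ : ℕ) (hℓ : 1 < ℓ)
    (h : ∀ y : F, y ^ ℓ = y) : Nat.card F ≤ ℓ := by
  classical
  have := Fintype.ofFinite F
  rw [Nat.card_eq_fintype_card]
  have hdeg : (Polynomial.X ^ ℓ - Polynomial.X : Polynomial F).natDegree = ℓ :=
    FiniteField.X_pow_card_sub_X_natDegree_eq F hℓ
  have hne : (Polynomial.X ^ ℓ - Polynomial.X : Polynomial F) ≠ 0 :=
    FiniteField.X_pow_card_sub_X_ne_zero F hℓ
  have hsub : (Finset.univ : Finset F).val ⊆ (Polynomial.X ^ ℓ - Polynomial.X : Polynomial F).roots := by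
    intro y _
    rw [Polynomial.mem_roots hne]
    simp [h y]
  have := Polynomial.card_le_degree_of_subset_roots hsub
  rw [hdeg] at this
  simpa using this


theorem fddib_core (hAN : fddib_ANStatement) (L : Type) [Field L] [NumberField L] [IsGalois ℚ L]
    (σ : L ≃ₐ[ℚ] L) (r : ℕ) (hr : r.Prime) (hσr : σ ^ r = 1) (hσ1 : σ ≠ 1) (M : ℕ) (hM : 0 < M) :
    ∃ (ℓ : ℕ) (w : HeightOneSpectrum (𝓞 L)) (k : ℕ), ℓ.Prime ∧ ¬ ℓ ∣ M ∧ (ℓ : 𝓞 L) ∈ w.asIdeal ∧
      Algebra.IsUnramifiedAt ℤ w.asIdeal ∧ ¬ r ∣ k ∧ ∀ x : 𝓞 L, (σ ^ k) • x - x ^ ℓ ∈ w.asIdeal := by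
  classical
  have := Fact.mk hr
  let H : Subgroup (L ≃ₐ[ℚ] L) := Subgroup.zpowers σ
  let K' : IntermediateField ℚ L := FixedPoints.intermediateField H
  have i1 : IsGaloisGroup H K' L := inferInstance
  have i4 : NumberField K' := inferInstance
  have i2 : IsGaloisGroup H (𝓞 K') (𝓞 L) := IsGaloisGroup.of_isFractionRing H (𝓞 K') (𝓞 L) K' L
  have i3 : IsGalois K' L := IsGaloisGroup.isGalois H K' L
  have hord : orderOf σ = r := orderOf_eq_prime hσr hσ1
  have hcard : Nat.card H = r := by rw [Nat.card_zpowers, hord]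
  have i5 : Module.finrank K' L = r := by
    rw [IsGaloisGroup.finrank_fixedPoints_eq_card_subgroup _ _ _ H, hcard]
  have hinf := hAN K' L (by rw [i5]; exact hr.two_le)
  -- the bad set
  set D : ℕ := M * (discr L).natAbs with hD
  have hD0 : D ≠ 0 := Nat.mul_ne_zero hM.ne' (Int.natAbs_ne_zero.mpr (discr_ne_zero L))
  obtain ⟨v, hv, hvbad⟩ := hinf.exists_notMem_finite (fddib_finite_absNorm_dvd K' D hD0)
  obtain ⟨hvprime, hvns⟩ := hv
  set ℓ : ℕ := Ideal.absNorm v.asIdeal with hℓdef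
  have hℓD : ¬ ℓ ∣ D := hvbad
  have hℓM : ¬ ℓ ∣ M := fun h => hℓD (Dvd.dvd.mul_right h _)
  have hℓdisc : ¬ (ℓ : ℤ) ∣ discr L := by
    intro h
    apply hℓD
    have : ℓ ∣ (discr L).natAbs := Int.natCast_dvd.mp h
    exact Dvd.dvd.mul_left this _
  push Not at hvns
  obtain ⟨w, hwv, hwef⟩ := hvns
  have hwprime : w.asIdeal.IsPrime := w.isPrime
  have hℓv : (ℓ : 𝓞 K') ∈ v.asIdeal := Ideal.absNorm_mem v.asIdeal
  have hℓw : (ℓ : 𝓞 L) ∈ w.asIdeal := by
    rw [← hwv, Ideal.under_def, Ideal.mem_comap, map_natCast] at hℓv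
    exact hℓv
  have hpℤ : Prime (ℓ : ℤ) := Nat.prime_iff_prime_int.mp hvprime
  have hunr : Algebra.IsUnramifiedAt ℤ w.asIdeal :=
    (NumberField.not_dvd_discr_iff_forall_mem L (𝓞 L) hpℤ).mp hℓdisc w.asIdeal hwprime
      (by simpa using hℓw)
  -- unramified over `𝓞 K'`
  have hunr' : Algebra.IsUnramifiedAt (𝓞 K') w.asIdeal :=
    Algebra.IsUnramifiedAt.of_restrictScalars (R := ℤ) (A := 𝓞 K') w.asIdeal
  have he : Ideal.ramificationIdx w.asIdeal (𝓞 K') = 1 := Ideal.ramificationIdx_eq_one w.asIdeal (𝓞 K')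
  have hf : Ideal.inertiaDeg w.asIdeal (𝓞 K') ≠ 1 := fun h => hwef he h
  -- the relative Frobenius
  have hfinw : Finite (𝓞 L ⧸ w.asIdeal) := Ideal.finiteQuotientOfFreeOfNeBot w.asIdeal w.ne_bot
  have hcomm : SMulCommClass H (𝓞 K') (𝓞 L) := i2.commutes
  have hinv : Algebra.IsInvariant (𝓞 K') (𝓞 L) H := i2.isInvariant
  have hHfin : Finite H := Nat.finite_of_card_ne_zero (by rw [hcard]; exact hr.ne_zero)
  obtain ⟨τ, hτ⟩ := IsArithFrobAt.exists_of_isInvariant (𝓞 K') H w.asIdeal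
  have hcardv : Nat.card (𝓞 K' ⧸ w.asIdeal.under (𝓞 K')) = ℓ := by
    rw [hwv, hℓdef, Ideal.absNorm_apply, Submodule.cardQuot_apply]
  have hτ' : ∀ x : 𝓞 L, τ • x - x ^ ℓ ∈ w.asIdeal := by
    intro x
    have := hτ x
    rw [hcardv] at this
    exact this
  -- `τ` is a power of `σ`
  have hσfin : IsOfFinOrder σ := isOfFinOrder_of_finite σ
  obtain ⟨k, hk⟩ := (Submonoid.mem_powers_iff (τ : L ≃ₐ[ℚ] L) σ).mp (mem_powers_iff_mem_zpowers.mpr τ.2)
  refine ⟨ℓ, w, k, hvprime, hℓM, hℓw, hunr, ?_, ?_⟩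
  · intro hrk
    have hk1 : σ ^ k = 1 := by
      rw [← hord] at hrk
      exact orderOf_dvd_iff_pow_eq_one.mp hrk
    have hτ1 : ∀ x : 𝓞 L, x - x ^ ℓ ∈ w.asIdeal := by
      intro x
      have := hτ' x
      have hτx : τ • x = x := by
        show (τ : L ≃ₐ[ℚ] L) • x = x
        rw [← hk, hk1, one_smul]
      rwa [hτx] at this
    -- count
    have hwmax : w.asIdeal.IsMaximal := w.isMaximal
    have hvmax : v.asIdeal.IsMaximal := v.isMaximal
    have hlies : w.asIdeal.LiesOver v.asIdeal := ⟨hwv.symm⟩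
    have hcount := Ideal.cardQuot_pow_inertiaDeg v.asIdeal w.asIdeal
    have hcv : Submodule.cardQuot v.asIdeal = ℓ := by
      rw [hℓdef, Ideal.absNorm_apply]
    rw [hcv, Submodule.cardQuot_apply] at hcount
    let _ : Field (𝓞 L ⧸ w.asIdeal) := Ideal.Quotient.field w.asIdeal
    have hle : Nat.card (𝓞 L ⧸ w.asIdeal) ≤ ℓ := by
      apply fddib_card_le_of_pow_eq ℓ hvprime.one_lt
      intro y
      obtain ⟨x, rfl⟩ := Ideal.Quotient.mk_surjective y
      rw [← map_pow, eq_comm, Ideal.Quotient.eq]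
      exact hτ1 x
    have hfpos : 0 < Ideal.inertiaDeg w.asIdeal (𝓞 K') := Ideal.inertiaDeg_pos w.asIdeal (𝓞 K')
    have hf2 : 2 ≤ Ideal.inertiaDeg w.asIdeal (𝓞 K') := by omega
    have : ℓ ^ 2 ≤ ℓ ^ Ideal.inertiaDeg w.asIdeal (𝓞 K') := Nat.pow_le_pow_right hvprime.pos hf2
    have h2 : ℓ < ℓ ^ 2 := by
      have := hvprime.one_lt
      nlinarith
    omega
  · intro x
    have := hτ' x
    have hτx : τ • x = (σ ^ k) • x := by
      show (τ : L ≃ₐ[ℚ] L) • x = _
      rw [← hk]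
    rwa [hτx] at this


/-- the inclusion of the ring of integers of a subfield of `ℚ̄` into the ring of all algebraic integers -/
def fddib_iota (L : IntermediateField ℚ K̄) : 𝓞 L →+* 𝓑 where
  toFun x := ⟨((x : L) : K̄), by
    have hx : IsIntegral ℤ (x : L) := x.2
    exact hx.map (IsScalarTower.toAlgHom ℤ L K̄)⟩
  map_one' := rfl
  map_mul' _ _ := rfl
  map_zero' := rfl
  map_add' _ _ := rfl

theorem fddib_iota_coe (L : IntermediateField ℚ K̄) (x : 𝓞 L) :
    ((fddib_iota L x : 𝓑) : K̄) = ((x : L) : K̄) := rfl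

theorem fddib_iota_injective (L : IntermediateField ℚ K̄) : Function.Injective (fddib_iota L) := by
  intro x y h
  have := congrArg (fun b : 𝓑 => (b : K̄)) h
  simp only [fddib_iota_coe] at this
  exact RingOfIntegers.ext (Subtype.ext this)

/-- lying over: every prime of `𝓞 L` is the contraction of a prime of the ring of all algebraic integers -/
theorem fddib_exists_prime_over (L : IntermediateField ℚ K̄) (w : Ideal (𝓞 L)) [w.IsPrime] :
    ∃ Q : Ideal 𝓑, Q.IsPrime ∧ Q.comap (fddib_iota L) = w := by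
  let _ : Algebra (𝓞 L) 𝓑 := (fddib_iota L).toAlgebra
  have hint : Algebra.IsIntegral (𝓞 L) 𝓑 := by
    refine ⟨fun b => ?_⟩
    have hb : IsIntegral ℤ b := by
      have := b.2
      exact (isIntegral_algebraMap_iff (B := K̄) Subtype.val_injective).mp this
    exact hb.tower_top
  have halg : algebraMap (𝓞 L) 𝓑 = fddib_iota L := rfl
  obtain ⟨Q, -, hQ, hQw⟩ := Ideal.exists_ideal_over_prime_of_isIntegral w (⊥ : Ideal 𝓑) (by
    rw [halg, Ideal.comap_bot_of_injective _ (fddib_iota_injective L)]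
    exact bot_le)
  exact ⟨Q, hQ, by rw [← halg]; exact hQw⟩


/-- restriction of an automorphism of `ℚ̄` to a stable subfield, by hand (avoids `Algebra ℚ` diamonds) -/
def fddib_res (L : IntermediateField ℚ K̄) (hnorm : ∀ σ : Γ, ∀ x ∈ L, σ x ∈ L) : Γ →* (L ≃ₐ[ℚ] L) where
  toFun τ := RingEquiv.toRatAlgEquiv
    { toFun := fun x => ⟨τ x, hnorm τ x x.2⟩
      invFun := fun x => ⟨τ⁻¹ x, hnorm τ⁻¹ x x.2⟩
      left_inv := fun x => Subtype.ext (by simp)
      right_inv := fun x => Subtype.ext (by simp)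
      map_mul' := fun x y => Subtype.ext (by simp)
      map_add' := fun x y => Subtype.ext (by simp) }
  map_one' := by ext x; rfl
  map_mul' τ τ' := by ext x; rfl

theorem fddib_res_apply (L : IntermediateField ℚ K̄) (hnorm : ∀ σ : Γ, ∀ x ∈ L, σ x ∈ L) (τ : Γ) (x : L) :
    ((fddib_res L hnorm τ x : L) : K̄) = τ (x : K̄) := rfl

theorem fddib_res_eq_one_iff (L : IntermediateField ℚ K̄) (hnorm : ∀ σ : Γ, ∀ x ∈ L, σ x ∈ L) (τ : Γ) :
    fddib_res L hnorm τ = 1 ↔ τ ∈ L.fixingSubgroup := by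
  rw [IntermediateField.mem_fixingSubgroup_iff]
  constructor
  · intro h x hx
    have := congrArg (fun e : L ≃ₐ[ℚ] L => ((e ⟨x, hx⟩ : L) : K̄)) h
    simpa [fddib_res_apply] using this
  · intro h
    ext x
    rw [fddib_res_apply]
    exact h x x.2

theorem fddib_isGalois (L : IntermediateField ℚ K̄) (hnorm : ∀ σ : Γ, ∀ x ∈ L, σ x ∈ L) :
    IsGalois ℚ L := by
  have h : (IntermediateField.algebra' L : Algebra ℚ L) = DivisionRing.toRatAlgebra :=
    Subsingleton.elim _ _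
  have := isGalois_Qbar
  have inorm' : @Normal ℚ L _ _ (IntermediateField.algebra' L) := by
    rw [IntermediateField.normal_iff_forall_map_le']
    intro σ x hx
    obtain ⟨y, hy, rfl⟩ := hx
    exact hnorm σ y hy
  have inorm : Normal ℚ L := h ▸ inorm'
  exact ⟨⟩


theorem fddib_exists_frobenius_of (hAN : fddib_ANStatement)
    (L : IntermediateField ℚ K̄) (hfd : FiniteDimensional ℚ L)
    (hnorm : ∀ σ : Γ, ∀ x ∈ L, σ x ∈ L)
    (g : Γ) (r : ℕ) (hr : r.Prime) (hgr : g ^ r ∈ L.fixingSubgroup) (hg : g ∉ L.fixingSubgroup)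
    (M : ℕ) (hM : 0 < M) :
    ∃ (ℓ : ℕ) (A : ValuationSubring K̄) (φ : Γ) (k : ℕ), ℓ.Prime ∧ ¬ ℓ ∣ M ∧ A.LiesOverPrime ℓ ∧
      A.IsFrobeniusAt φ ℓ ∧ ¬ r ∣ k ∧ φ⁻¹ * g ^ k ∈ L.fixingSubgroup := by
  classical
  have inf : NumberField L := { to_charZero := inferInstance, to_finiteDimensional := hfd }
  have igal : IsGalois ℚ L := fddib_isGalois L hnorm
  set res := fddib_res L hnorm with hres
  set σ : L ≃ₐ[ℚ] L := res g with hσ
  have hσr : σ ^ r = 1 := by rw [hσ, ← map_pow, hres, fddib_res_eq_one_iff]; exact hgr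
  have hσ1 : σ ≠ 1 := fun h => hg ((fddib_res_eq_one_iff L hnorm g).mp h)
  obtain ⟨ℓ, w, k, hℓ, hℓM, hℓw, hunr, hrk, hfrob⟩ := fddib_core hAN L σ r hr hσr hσ1 M hM
  -- a prime of `𝓑` above `w`
  obtain ⟨Q, hQprime, hQw⟩ := fddib_exists_prime_over L w.asIdeal
  have hℓQ : (ℓ : 𝓑) ∈ Q := by
    have : (ℓ : 𝓞 L) ∈ Q.comap (fddib_iota L) := by rw [hQw]; exact hℓw
    rw [Ideal.mem_comap, map_natCast] at this
    exact this
  have hQP : Q.comap (algebraMap ℤ 𝓑) = Ideal.span {(ℓ : ℤ)} := by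
    have hℓ' : Prime (ℓ : ℤ) := Nat.prime_iff_prime_int.mp hℓ
    have hPmax : (Ideal.span {(ℓ : ℤ)}).IsMaximal :=
      PrincipalIdealRing.isMaximal_of_irreducible hℓ'.irreducible
    symm
    apply hPmax.eq_of_le (Ideal.comap_ne_top _ hQprime.ne_top)
    rw [Ideal.span_singleton_le_iff_mem, Ideal.mem_comap]
    simpa using hℓQ
  obtain ⟨φ, hφQ, hφ⟩ := fddib_exists_frob_of_prime ℓ hℓ Q hQP
  obtain ⟨A, hA, hAfrob⟩ := exists_valuationSubring_isFrobeniusAt ℓ hℓ Q hℓQ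
  have hAφ : A.IsFrobeniusAt φ ℓ := by
    apply hAfrob
    intro b
    refine ⟨φ • b - b ^ ℓ, hφ b, ?_⟩
    show φ (b : K̄) = (b : K̄) ^ ℓ + ((φ • b - b ^ ℓ : 𝓑) : K̄)
    have : ((φ • b - b ^ ℓ : 𝓑) : K̄) = φ (b : K̄) - (b : K̄) ^ ℓ := rfl
    rw [this]; ring
  refine ⟨ℓ, A, φ, k, hℓ, hℓM, hA, hAφ, hrk, ?_⟩
  -- the restriction of `φ` is a Frobenius at `w`
  set φL : L ≃ₐ[ℚ] L := res φ with hφL
  have hφLfrob : ∀ x : 𝓞 L, φL • x - x ^ ℓ ∈ w.asIdeal := by
    intro x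
    rw [← hQw, Ideal.mem_comap]
    have h1 : fddib_iota L (φL • x - x ^ ℓ) = φ • (fddib_iota L x) - (fddib_iota L x) ^ ℓ := by
      apply Subtype.ext
      rfl
    rw [h1]
    exact hφ _
  -- uniqueness of Frobenius at an unramified prime
  have hG : IsGaloisGroup (L ≃ₐ[ℚ] L) ℤ (𝓞 L) := inferInstance
  have hcomm : SMulCommClass (L ≃ₐ[ℚ] L) ℤ (𝓞 L) := hG.commutes
  have hcardℤ : Nat.card (ℤ ⧸ w.asIdeal.under ℤ) = ℓ := by
    have hunder : w.asIdeal.under ℤ = Ideal.span {(ℓ : ℤ)} := by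
      have hℓ' : Prime (ℓ : ℤ) := Nat.prime_iff_prime_int.mp hℓ
      have hPmax : (Ideal.span {(ℓ : ℤ)}).IsMaximal :=
        PrincipalIdealRing.isMaximal_of_irreducible hℓ'.irreducible
      symm
      apply hPmax.eq_of_le (Ideal.comap_ne_top _ w.isPrime.ne_top)
      rw [Ideal.span_singleton_le_iff_mem, Ideal.mem_comap]
      simpa using hℓw
    rw [hunder, Nat.card_congr (Int.quotientSpanNatEquivZMod ℓ).toEquiv, Nat.card_zmod]
  have hF1 : (MulSemiringAction.toAlgHom ℤ (𝓞 L) (σ ^ k)).IsArithFrobAt w.asIdeal := by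
    intro x
    rw [hcardℤ]
    exact hfrob x
  have hF2 : (MulSemiringAction.toAlgHom ℤ (𝓞 L) φL).IsArithFrobAt w.asIdeal := by
    intro x
    rw [hcardℤ]
    exact hφLfrob x
  have hwcompl : w.asIdeal.primeCompl ≤ nonZeroDivisors (𝓞 L) := by
    intro x hx
    apply mem_nonZeroDivisors_of_ne_zero
    rintro rfl
    exact hx w.asIdeal.zero_mem
  have heq := hF1.eq_of_isUnramifiedAt hF2 hwcompl
  have hσφ : σ ^ k = φL := by
    apply hG.faithful.eq_of_smul_eq_smul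
    intro x
    exact DFunLike.congr_fun heq x
  -- conclude
  rw [IntermediateField.mem_fixingSubgroup_iff]
  intro x hx
  have h2 : ((res (g ^ k) ⟨x, hx⟩ : L) : K̄) = ((res φ ⟨x, hx⟩ : L) : K̄) := by
    rw [map_pow, ← hσ, hσφ]
  rw [hres, fddib_res_apply, fddib_res_apply] at h2
  show φ⁻¹ ((g ^ k) x) = x
  simp only at h2
  rw [h2]
  simp


end

end Fermat.Agent.S41x
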