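/-
S41 BRIDGE-prime, row BP-DI (helper90): Frobenius density dictionary for a cyclic group of order `r * p`
(two distinct primes), on top of BP-AN.

`fd2di_exists_frobenius2_of (hAN : fd2di_ANStatement)` has EXACTLY the conclusion of
`BridgePrimeSpec.bpdi_exists_frobenius2`; `fd2di_ANStatement` is a verbatim copy of the statement of
`BridgePrimeSpec.bpan_infinite_nonsplit2` (row BP-AN).

Route (same as `FDDictB`, whose helper lemmas are imported): `H = zpowers (g|L)` of order `r p` acts on `L` with fixed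
field `K'`; `N₁ = zpowers ((g|L)^r)`, `N₂ = zpowers ((g|L)^p)` with fixed fields `F₁` (degree `r` over `K'`), `F₂` (degree
`p`), Galois over `K'` by Mathlib's `IsGaloisGroup` quotient instance. BP-AN gives a degree-one prime `v` of `K'` of
residue characteristic prime to `M disc(L) disc(F₁) disc(F₂)`, split completely in neither `F₁` nor `F₂`; primes
`W₁, W₂` of `L` above the two witnesses are `H`-conjugate, `H` is commutative, so ONE element `τ = (g|L)^k` of `H` is a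
Frobenius at both; acting trivially on `F_i` would force residue degree one there (`fd2di_frob_notMem`), hence
`τ ∉ N₁ ∪ N₂`, i.e. `r ∤ k`, `p ∤ k`.  `fd2di_finish` (second half of `fddib_exists_frobenius_of`, now a lemma) lifts
`τ` to a Frobenius pair `(A, φ)` of `G_ℚ` with `φ|L = (g|L)^k`.
-/
import Mathlib
import Fermat.Agent.S41x.FDDictB

set_option autoImplicit false

namespace Fermat.Agent.S41x

open NumberField IsDedekindDomain Fermat.Agent.S54x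

noncomputable section

local notation "K̄" => AlgebraicClosure ℚ
local notation "Γ" => (AlgebraicClosure ℚ ≃ₐ[ℚ] AlgebraicClosure ℚ)
local notation "𝓑" => integralClosure ℤ (AlgebraicClosure ℚ)

open scoped Pointwise

/-- the BP-AN statement (copy of `BridgePrimeSpec.bpan_infinite_nonsplit2`) as a proposition -/
def fd2di_ANStatement : Prop :=
  ∀ (K L₁ L₂ : Type) [Field K] [NumberField K] [Field L₁] [NumberField L₁]
    [Field L₂] [NumberField L₂] [Algebra K L₁] [Algebra K L₂] [IsGalois K L₁] [IsGalois K L₂]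
    (_ : 2 ≤ Module.finrank K L₁) (_ : 3 ≤ Module.finrank K L₂),
    {v : IsDedekindDomain.HeightOneSpectrum (NumberField.RingOfIntegers K) |
      (Ideal.absNorm v.asIdeal).Prime ∧
      (¬ ∀ w : IsDedekindDomain.HeightOneSpectrum (NumberField.RingOfIntegers L₁),
        w.asIdeal.under (NumberField.RingOfIntegers K) = v.asIdeal →
          Ideal.ramificationIdx w.asIdeal (NumberField.RingOfIntegers K) = 1 ∧
          Ideal.inertiaDeg w.asIdeal (NumberField.RingOfIntegers K) = 1) ∧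
      (¬ ∀ w : IsDedekindDomain.HeightOneSpectrum (NumberField.RingOfIntegers L₂),
        w.asIdeal.under (NumberField.RingOfIntegers K) = v.asIdeal →
          Ideal.ramificationIdx w.asIdeal (NumberField.RingOfIntegers K) = 1 ∧
          Ideal.inertiaDeg w.asIdeal (NumberField.RingOfIntegers K) = 1)}.Infinite

/-- **Key step**: a Frobenius element acting trivially on an intermediate field `F` forces residue degree one
in `F`. -/
theorem fd2di_frob_notMem {K L : Type} [Field K] [NumberField K] [Field L] [NumberField L] [Algebra K L]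
    {G : Type} [Group G] [MulSemiringAction G L]
    (N : Subgroup G) (F : IntermediateField K L) (hF : ∀ n ∈ N, ∀ x ∈ F, n • x = x)
    (v : Ideal (𝓞 K)) [v.IsMaximal] (wF : Ideal (𝓞 F)) [wF.IsMaximal] [wF.LiesOver v]
    (w' : Ideal (𝓞 L)) (hw' : w'.under (𝓞 F) = wF)
    (ℓ : ℕ) (hℓ : ℓ.Prime) (hcard : Nat.card (𝓞 K ⧸ v) = ℓ)
    (hf : Ideal.inertiaDeg wF (𝓞 K) ≠ 1)
    (τ : G) (hτ : ∀ y : 𝓞 L, τ • y - y ^ ℓ ∈ w') : τ ∉ N := by
  intro hτN
  have h1 : ∀ x : 𝓞 F, x - x ^ ℓ ∈ wF := by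
    intro x
    rw [← hw', Ideal.under_def, Ideal.mem_comap, map_sub, map_pow]
    have hfix : τ • (algebraMap (𝓞 F) (𝓞 L) x) = algebraMap (𝓞 F) (𝓞 L) x := by
      apply RingOfIntegers.ext
      show τ • ((algebraMap (𝓞 F) (𝓞 L) x : 𝓞 L) : L) = _
      exact hF τ hτN _ (x : F).2
    have := hτ (algebraMap (𝓞 F) (𝓞 L) x)
    rwa [hfix] at this
  have hcount := Ideal.cardQuot_pow_inertiaDeg v wF
  rw [Submodule.cardQuot_apply, Submodule.cardQuot_apply, hcard] at hcount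
  let _ : Field (𝓞 F ⧸ wF) := Ideal.Quotient.field wF
  have hfin : Finite (𝓞 F ⧸ wF) := by
    apply Nat.finite_of_card_ne_zero
    rw [← hcount]
    exact pow_ne_zero _ hℓ.ne_zero
  have hle : Nat.card (𝓞 F ⧸ wF) ≤ ℓ := by
    apply fddib_card_le_of_pow_eq ℓ hℓ.one_lt
    intro y
    obtain ⟨x, rfl⟩ := Ideal.Quotient.mk_surjective y
    rw [← map_pow, eq_comm, Ideal.Quotient.eq]
    exact h1 x
  have hfpos : 0 < Ideal.inertiaDeg wF (𝓞 K) := Ideal.inertiaDeg_pos wF (𝓞 K)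
  have hf2 : 2 ≤ Ideal.inertiaDeg wF (𝓞 K) := by omega
  have : ℓ ^ 2 ≤ ℓ ^ Ideal.inertiaDeg wF (𝓞 K) := Nat.pow_le_pow_right hℓ.pos hf2
  have h2 : ℓ < ℓ ^ 2 := by
    have := hℓ.one_lt
    nlinarith
  omega


/-- order of an element from its powers (two distinct primes) -/
theorem fd2di_orderOf {G : Type*} [Group G] (σ : G) {r p : ℕ} (hr : r.Prime) (hp : p.Prime) (hrp : r ≠ p)
    (hσrp : σ ^ (r * p) = 1) (hσr : σ ^ r ≠ 1) (hσp : σ ^ p ≠ 1) : orderOf σ = r * p := by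
  have hd : orderOf σ ∣ r * p := orderOf_dvd_of_pow_eq_one hσrp
  have hcop : Nat.Coprime r p := (Nat.coprime_primes hr hp).mpr hrp
  have h1 : r ∣ orderOf σ := by
    by_contra h
    have hc : Nat.Coprime (orderOf σ) r := (Nat.Coprime.symm ((Nat.Prime.coprime_iff_not_dvd hr).mpr h))
    have : orderOf σ ∣ p := hc.dvd_of_dvd_mul_left hd
    exact hσp (orderOf_dvd_iff_pow_eq_one.mp this)
  have h2 : p ∣ orderOf σ := by
    by_contra h
    have hc : Nat.Coprime (orderOf σ) p := (Nat.Coprime.symm ((Nat.Prime.coprime_iff_not_dvd hp).mpr h))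
    have : orderOf σ ∣ r := hc.dvd_of_dvd_mul_right hd
    exact hσr (orderOf_dvd_iff_pow_eq_one.mp this)
  exact Nat.dvd_antisymm hd (hcop.mul_dvd_of_dvd_of_dvd h1 h2)


/-- a prime of `F` over a degree-one prime `v` of `K` of residue characteristic prime to `disc F`, which is not
"`e = f = 1`", has residue degree `≠ 1`. -/
theorem fd2di_inertiaDeg_ne_one (K F : Type) [Field K] [NumberField K] [Field F] [NumberField F]
    [Algebra K F] (v : HeightOneSpectrum (𝓞 K)) (wF : HeightOneSpectrum (𝓞 F))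
    (hwv : wF.asIdeal.under (𝓞 K) = v.asIdeal) (hprime : (Ideal.absNorm v.asIdeal).Prime)
    (hdisc : ¬ ((Ideal.absNorm v.asIdeal : ℕ) : ℤ) ∣ discr F)
    (hef : ¬ (Ideal.ramificationIdx wF.asIdeal (𝓞 K) = 1 ∧ Ideal.inertiaDeg wF.asIdeal (𝓞 K) = 1)) :
    Ideal.inertiaDeg wF.asIdeal (𝓞 K) ≠ 1 := by
  set ℓ : ℕ := Ideal.absNorm v.asIdeal with hℓdef
  have hℓv : (ℓ : 𝓞 K) ∈ v.asIdeal := Ideal.absNorm_mem v.asIdeal
  have hℓw : (ℓ : 𝓞 F) ∈ wF.asIdeal := by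
    rw [← hwv, Ideal.under_def, Ideal.mem_comap, map_natCast] at hℓv
    exact hℓv
  have hpℤ : Prime (ℓ : ℤ) := Nat.prime_iff_prime_int.mp hprime
  have hwprime : wF.asIdeal.IsPrime := wF.isPrime
  have hunr : Algebra.IsUnramifiedAt ℤ wF.asIdeal :=
    (NumberField.not_dvd_discr_iff_forall_mem F (𝓞 F) hpℤ).mp hdisc wF.asIdeal hwprime
      (by simpa using hℓw)
  have hunr' : Algebra.IsUnramifiedAt (𝓞 K) wF.asIdeal :=
    Algebra.IsUnramifiedAt.of_restrictScalars (R := ℤ) (A := 𝓞 K) wF.asIdeal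
  have he : Ideal.ramificationIdx wF.asIdeal (𝓞 K) = 1 := Ideal.ramificationIdx_eq_one wF.asIdeal (𝓞 K)
  exact fun h => hef ⟨he, h⟩


theorem fd2di_core (hAN : fd2di_ANStatement) (L : Type) [Field L] [NumberField L] [IsGalois ℚ L]
    (σ : L ≃ₐ[ℚ] L) (r p : ℕ) (hr : r.Prime) (hp : p.Prime) (hrp : r ≠ p)
    (hσrp : σ ^ (r * p) = 1) (hσr : σ ^ r ≠ 1) (hσp : σ ^ p ≠ 1) (M : ℕ) (hM : 0 < M) :
    ∃ (ℓ : ℕ) (w : HeightOneSpectrum (𝓞 L)) (k : ℕ), ℓ.Prime ∧ ¬ ℓ ∣ M ∧ (ℓ : 𝓞 L) ∈ w.asIdeal ∧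
      Algebra.IsUnramifiedAt ℤ w.asIdeal ∧ ¬ r ∣ k ∧ ¬ p ∣ k ∧
      ∀ x : 𝓞 L, (σ ^ k) • x - x ^ ℓ ∈ w.asIdeal := by
  classical
  have hord : orderOf σ = r * p := fd2di_orderOf σ hr hp hrp hσrp hσr hσp
  let H : Subgroup (L ≃ₐ[ℚ] L) := Subgroup.zpowers σ
  let K' : IntermediateField ℚ L := FixedPoints.intermediateField H
  have i1 : IsGaloisGroup H K' L := inferInstance
  have i4 : NumberField K' := inferInstance
  have i2 : IsGaloisGroup H (𝓞 K') (𝓞 L) := IsGaloisGroup.of_isFractionRing H (𝓞 K') (𝓞 L) K' L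
  have hcard : Nat.card H = r * p := by rw [Nat.card_zpowers, hord]
  have hHfin : Finite H := Nat.finite_of_card_ne_zero (by
    rw [hcard]; exact Nat.mul_ne_zero hr.ne_zero hp.ne_zero)
  have hKL : Module.finrank K' L = r * p := by
    rw [IsGaloisGroup.finrank_fixedPoints_eq_card_subgroup _ _ _ H, hcard]
  have hcomm : ∀ a b : H, a * b = b * a := by
    intro a b
    obtain ⟨a, ha⟩ := a
    obtain ⟨b, hb⟩ := b
    obtain ⟨m, rfl⟩ := Subgroup.mem_zpowers_iff.mp ha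
    obtain ⟨n, rfl⟩ := Subgroup.mem_zpowers_iff.mp hb
    apply Subtype.ext
    show σ ^ m * σ ^ n = σ ^ n * σ ^ m
    rw [← zpow_add, ← zpow_add, add_comm]
  have hnormal : ∀ N : Subgroup H, N.Normal := fun N => ⟨fun n hn g => by
    have : g * n * g⁻¹ = n := by rw [hcomm g n, mul_inv_cancel_right]
    rw [this]; exact hn⟩
  let σH : H := ⟨σ, Subgroup.mem_zpowers σ⟩
  have hordH : orderOf σH = r * p := by
    rw [← hord]; exact Subgroup.orderOf_mk σ _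
  -- the two subgroups and their fixed fields
  let N₁ : Subgroup H := Subgroup.zpowers (σH ^ r)
  let N₂ : Subgroup H := Subgroup.zpowers (σH ^ p)
  have hN₁n : N₁.Normal := hnormal N₁
  have hN₂n : N₂.Normal := hnormal N₂
  let F₁ : IntermediateField K' L := FixedPoints.intermediateField N₁
  let F₂ : IntermediateField K' L := FixedPoints.intermediateField N₂
  have hcN₁ : Nat.card N₁ = p := by
    rw [Nat.card_zpowers, orderOf_pow' _ hr.ne_zero, hordH, Nat.gcd_mul_right_left,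
      Nat.mul_div_cancel_left _ hr.pos]
  have hcN₂ : Nat.card N₂ = r := by
    rw [Nat.card_zpowers, orderOf_pow' _ hp.ne_zero, hordH, Nat.gcd_mul_left_left,
      Nat.mul_div_cancel _ hp.pos]
  have hF₁L : Module.finrank F₁ L = p := by
    rw [IsGaloisGroup.finrank_fixedPoints_eq_card_subgroup _ _ _ N₁, hcN₁]
  have hF₂L : Module.finrank F₂ L = r := by
    rw [IsGaloisGroup.finrank_fixedPoints_eq_card_subgroup _ _ _ N₂, hcN₂]
  have hKF₁ : Module.finrank K' F₁ = r := by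
    have := Module.finrank_mul_finrank K' F₁ L
    rw [hF₁L, hKL] at this
    exact Nat.eq_of_mul_eq_mul_right hp.pos this
  have hKF₂ : Module.finrank K' F₂ = p := by
    have := Module.finrank_mul_finrank K' F₂ L
    rw [hF₂L, hKL, mul_comm r p] at this
    exact Nat.eq_of_mul_eq_mul_right hr.pos this
  have g1 : IsGalois K' F₁ := IsGaloisGroup.isGalois (H ⧸ N₁) K' F₁
  have g2 : IsGalois K' F₂ := IsGaloisGroup.isGalois (H ⧸ N₂) K' F₂
  -- the infinite set of good primes of `K'`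
  have hinf : {v : HeightOneSpectrum (𝓞 K') | (Ideal.absNorm v.asIdeal).Prime ∧
      (¬ ∀ w : HeightOneSpectrum (𝓞 F₁), w.asIdeal.under (𝓞 K') = v.asIdeal →
          Ideal.ramificationIdx w.asIdeal (𝓞 K') = 1 ∧ Ideal.inertiaDeg w.asIdeal (𝓞 K') = 1) ∧
      (¬ ∀ w : HeightOneSpectrum (𝓞 F₂), w.asIdeal.under (𝓞 K') = v.asIdeal →
          Ideal.ramificationIdx w.asIdeal (𝓞 K') = 1 ∧
          Ideal.inertiaDeg w.asIdeal (𝓞 K') = 1)}.Infinite := by
    rcases Nat.lt_or_gt_of_ne hrp with hlt | hlt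
    · exact hAN K' F₁ F₂ (by rw [hKF₁]; exact hr.two_le)
        (by rw [hKF₂]; have := hr.two_le; omega)
    · refine Set.Infinite.mono ?_ (hAN K' F₂ F₁ (by rw [hKF₂]; exact hp.two_le)
        (by rw [hKF₁]; have := hp.two_le; omega))
      intro v hv
      exact ⟨hv.1, hv.2.2, hv.2.1⟩
  -- the bad set
  set D : ℕ := M * (discr L).natAbs * (discr F₁).natAbs * (discr F₂).natAbs with hD
  have hD0 : D ≠ 0 := by
    refine Nat.mul_ne_zero (Nat.mul_ne_zero (Nat.mul_ne_zero hM.ne' ?_) ?_) ?_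
    · exact Int.natAbs_ne_zero.mpr (discr_ne_zero L)
    · exact Int.natAbs_ne_zero.mpr (discr_ne_zero F₁)
    · exact Int.natAbs_ne_zero.mpr (discr_ne_zero F₂)
  obtain ⟨v, hv, hvbad⟩ := hinf.exists_notMem_finite (fddib_finite_absNorm_dvd K' D hD0)
  obtain ⟨hvprime, hvns₁, hvns₂⟩ := hv
  set ℓ : ℕ := Ideal.absNorm v.asIdeal with hℓdef
  have hℓD : ¬ ℓ ∣ D := hvbad
  have hℓM : ¬ ℓ ∣ M := fun h => hℓD (Dvd.dvd.mul_right (Dvd.dvd.mul_right (Dvd.dvd.mul_right h _) _) _)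
  have hℓdiscL : ¬ (ℓ : ℤ) ∣ discr L := by
    intro h
    apply hℓD
    have : ℓ ∣ (discr L).natAbs := Int.natCast_dvd.mp h
    exact Dvd.dvd.mul_right (Dvd.dvd.mul_right (Dvd.dvd.mul_left this _) _) _
  have hℓdisc₁ : ¬ (ℓ : ℤ) ∣ discr F₁ := by
    intro h
    apply hℓD
    have : ℓ ∣ (discr F₁).natAbs := Int.natCast_dvd.mp h
    exact Dvd.dvd.mul_right (Dvd.dvd.mul_left this _) _
  have hℓdisc₂ : ¬ (ℓ : ℤ) ∣ discr F₂ := by
    intro h
    apply hℓD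
    have : ℓ ∣ (discr F₂).natAbs := Int.natCast_dvd.mp h
    exact Dvd.dvd.mul_left this _
  push Not at hvns₁ hvns₂
  obtain ⟨w₁, hw₁v, hw₁ef⟩ := hvns₁
  obtain ⟨w₂, hw₂v, hw₂ef⟩ := hvns₂
  have hpℤ : Prime (ℓ : ℤ) := Nat.prime_iff_prime_int.mp hvprime
  have hℓv : (ℓ : 𝓞 K') ∈ v.asIdeal := Ideal.absNorm_mem v.asIdeal
  have hf₁ : Ideal.inertiaDeg w₁.asIdeal (𝓞 K') ≠ 1 :=
    fd2di_inertiaDeg_ne_one K' F₁ v w₁ hw₁v hvprime hℓdisc₁ (fun h => hw₁ef h.1 h.2)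
  have hf₂ : Ideal.inertiaDeg w₂.asIdeal (𝓞 K') ≠ 1 :=
    fd2di_inertiaDeg_ne_one K' F₂ v w₂ hw₂v hvprime hℓdisc₂ (fun h => hw₂ef h.1 h.2)
  -- primes of `L` above `w₁`, `w₂`
  have hw₁prime : w₁.asIdeal.IsPrime := w₁.isPrime
  have hw₂prime : w₂.asIdeal.IsPrime := w₂.isPrime
  obtain ⟨W₁, -, hW₁prime, hW₁w⟩ := Ideal.exists_ideal_over_prime_of_isIntegral w₁.asIdeal
    (⊥ : Ideal (𝓞 L)) (by
      rw [Ideal.comap_bot_of_injective _ (FaithfulSMul.algebraMap_injective (𝓞 F₁) (𝓞 L))]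
      exact bot_le)
  obtain ⟨W₂, -, hW₂prime, hW₂w⟩ := Ideal.exists_ideal_over_prime_of_isIntegral w₂.asIdeal
    (⊥ : Ideal (𝓞 L)) (by
      rw [Ideal.comap_bot_of_injective _ (FaithfulSMul.algebraMap_injective (𝓞 F₂) (𝓞 L))]
      exact bot_le)
  have hW₁v : W₁.under (𝓞 K') = v.asIdeal := by
    rw [← hw₁v, ← hW₁w]
    exact (Ideal.under_under (A := 𝓞 K') (B := 𝓞 F₁) W₁).symm
  have hW₂v : W₂.under (𝓞 K') = v.asIdeal := by
    rw [← hw₂v, ← hW₂w]
    exact (Ideal.under_under (A := 𝓞 K') (B := 𝓞 F₂) W₂).symm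
  have hℓW₁ : (ℓ : 𝓞 L) ∈ W₁ := by
    have := hℓv
    rw [← hW₁v, Ideal.under_def, Ideal.mem_comap, map_natCast] at this
    exact this
  have hW₁bot : W₁ ≠ ⊥ := by
    intro h
    rw [h, Ideal.mem_bot] at hℓW₁
    exact hvprime.ne_zero (by exact_mod_cast hℓW₁)
  have hunr : Algebra.IsUnramifiedAt ℤ W₁ :=
    (NumberField.not_dvd_discr_iff_forall_mem L (𝓞 L) hpℤ).mp hℓdiscL W₁ hW₁prime
      (by simpa using hℓW₁)
  -- the Frobenius at `W₁`
  have hfinW : Finite (𝓞 L ⧸ W₁) := Ideal.finiteQuotientOfFreeOfNeBot W₁ hW₁bot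
  have hcommc : SMulCommClass H (𝓞 K') (𝓞 L) := i2.commutes
  have hinv : Algebra.IsInvariant (𝓞 K') (𝓞 L) H := i2.isInvariant
  obtain ⟨τ, hτ⟩ := IsArithFrobAt.exists_of_isInvariant (𝓞 K') H W₁
  have hcardv : Nat.card (𝓞 K' ⧸ v.asIdeal) = ℓ := by
    rw [hℓdef, Ideal.absNorm_apply, Submodule.cardQuot_apply]
  have hτ₁ : ∀ x : 𝓞 L, τ • x - x ^ ℓ ∈ W₁ := by
    intro x
    have := hτ x
    rw [hW₁v, hcardv] at this
    exact this
  -- the same `τ` is a Frobenius at `W₂`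
  obtain ⟨ρ, hρ⟩ := Algebra.IsInvariant.exists_smul_of_under_eq (𝓞 K') (𝓞 L) H W₁ W₂
    (hW₁v.trans hW₂v.symm)
  have hτ₂ : ∀ x : 𝓞 L, τ • x - x ^ ℓ ∈ W₂ := by
    intro x
    have hconj := hτ.conj ρ
    have hρτ : ρ * τ * ρ⁻¹ = τ := by rw [hcomm ρ τ, mul_inv_cancel_right]
    rw [hρτ, ← hρ] at hconj
    have := hconj x
    rw [hW₂v, hcardv] at this
    exact this
  -- `τ` lies in neither subgroup
  have hvmax : v.asIdeal.IsMaximal := v.isMaximal
  have hw₁max : w₁.asIdeal.IsMaximal := w₁.isMaximal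
  have hw₂max : w₂.asIdeal.IsMaximal := w₂.isMaximal
  have hlies₁ : w₁.asIdeal.LiesOver v.asIdeal := ⟨hw₁v.symm⟩
  have hlies₂ : w₂.asIdeal.LiesOver v.asIdeal := ⟨hw₂v.symm⟩
  have hτN₁ : τ ∉ N₁ := by
    refine fd2di_frob_notMem (K := K') (L := L) (G := H) N₁ F₁ ?_ v.asIdeal w₁.asIdeal W₁ hW₁w ℓ hvprime
      hcardv hf₁ τ hτ₁
    intro n hn x hx
    exact hx ⟨n, hn⟩
  have hτN₂ : τ ∉ N₂ := by
    refine fd2di_frob_notMem (K := K') (L := L) (G := H) N₂ F₂ ?_ v.asIdeal w₂.asIdeal W₂ hW₂w ℓ hvprime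
      hcardv hf₂ τ hτ₂
    intro n hn x hx
    exact hx ⟨n, hn⟩
  -- `τ` is a power of `σ`
  have hσfin : IsOfFinOrder σ := isOfFinOrder_of_finite σ
  obtain ⟨k, hk⟩ := (Submonoid.mem_powers_iff (τ : L ≃ₐ[ℚ] L) σ).mp
    (mem_powers_iff_mem_zpowers.mpr τ.2)
  have hτk : τ = σH ^ k := Subtype.ext (by rw [← hk]; rfl)
  refine ⟨ℓ, ⟨W₁, hW₁prime, hW₁bot⟩, k, hvprime, hℓM, hℓW₁, hunr, ?_, ?_, ?_⟩
  · rintro ⟨c, rfl⟩
    apply hτN₁
    rw [hτk, pow_mul]
    exact Subgroup.pow_mem _ (Subgroup.mem_zpowers _) c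
  · rintro ⟨c, rfl⟩
    apply hτN₂
    rw [hτk, pow_mul]
    exact Subgroup.pow_mem _ (Subgroup.mem_zpowers _) c
  · intro x
    have := hτ₁ x
    have hτx : τ • x = (σ ^ k) • x := by
      show (τ : L ≃ₐ[ℚ] L) • x = _
      rw [← hk]
    rwa [hτx] at this


/-- from a Frobenius element `(g|L)^k` at an unramified prime `w` of `L` to a Frobenius pair `(A, φ)` of `G_ℚ`
with `φ|L = (g|L)^k` (second half of the proof of `fddib_exists_frobenius_of`, as a reusable lemma). -/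
theorem fd2di_finish (L : IntermediateField ℚ K̄) (hfd : FiniteDimensional ℚ L)
    (hnorm : ∀ σ : Γ, ∀ x ∈ L, σ x ∈ L) (g : Γ) (ℓ : ℕ) (hℓ : ℓ.Prime)
    (w : HeightOneSpectrum (𝓞 L)) (hℓw : (ℓ : 𝓞 L) ∈ w.asIdeal)
    (hunr : Algebra.IsUnramifiedAt ℤ w.asIdeal) (k : ℕ)
    (hfrob : ∀ x : 𝓞 L, ((fddib_res L hnorm g) ^ k) • x - x ^ ℓ ∈ w.asIdeal) :
    ∃ (A : ValuationSubring K̄) (φ : Γ), A.LiesOverPrime ℓ ∧ A.IsFrobeniusAt φ ℓ ∧
      φ⁻¹ * g ^ k ∈ L.fixingSubgroup := by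
  classical
  have inf : NumberField L := { to_charZero := inferInstance, to_finiteDimensional := hfd }
  have igal : IsGalois ℚ L := fddib_isGalois L hnorm
  set res := fddib_res L hnorm with hres
  set σ : L ≃ₐ[ℚ] L := res g with hσ
  obtain ⟨Q, hQprime, hQw⟩ := fddib_exists_prime_over L w.asIdeal
  have hℓQ : (ℓ : 𝓑) ∈ Q := by
    have : (ℓ : 𝓞 L) ∈ Q.comap (fddib_iota L) := by rw [hQw]; exact hℓw
    rw [Ideal.mem_comap, map_natCast] at this
    exact this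
  have hQP : Q.comap (algebraMap ℤ 𝓑) = Ideal.span {(ℓ : ℤ)} := by
    have hℓ' : Prime (ℓ : ℤ) := Nat.prime_iff_prime_int.mp hℓ
    have hPmax : (Ideal.span {(ℓ : ℤ)}).IsMaximal :=
      PrincipalIdealRing.isMaximal_of_irreducible hℓ'.irreducible
    symm
    apply hPmax.eq_of_le (Ideal.comap_ne_top _ hQprime.ne_top)
    rw [Ideal.span_singleton_le_iff_mem, Ideal.mem_comap]
    simpa using hℓQ
  obtain ⟨φ, hφQ, hφ⟩ := fddib_exists_frob_of_prime ℓ hℓ Q hQP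
  obtain ⟨A, hA, hAfrob⟩ := exists_valuationSubring_isFrobeniusAt ℓ hℓ Q hℓQ
  have hAφ : A.IsFrobeniusAt φ ℓ := by
    apply hAfrob
    intro b
    refine ⟨φ • b - b ^ ℓ, hφ b, ?_⟩
    show φ (b : K̄) = (b : K̄) ^ ℓ + ((φ • b - b ^ ℓ : 𝓑) : K̄)
    have : ((φ • b - b ^ ℓ : 𝓑) : K̄) = φ (b : K̄) - (b : K̄) ^ ℓ := rfl
    rw [this]; ring
  refine ⟨A, φ, hA, hAφ, ?_⟩
  set φL : L ≃ₐ[ℚ] L := res φ with hφL
  have hφLfrob : ∀ x : 𝓞 L, φL • x - x ^ ℓ ∈ w.asIdeal := by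
    intro x
    rw [← hQw, Ideal.mem_comap]
    have h1 : fddib_iota L (φL • x - x ^ ℓ) = φ • (fddib_iota L x) - (fddib_iota L x) ^ ℓ := by
      apply Subtype.ext
      rfl
    rw [h1]
    exact hφ _
  have hG : IsGaloisGroup (L ≃ₐ[ℚ] L) ℤ (𝓞 L) := inferInstance
  have hcomm : SMulCommClass (L ≃ₐ[ℚ] L) ℤ (𝓞 L) := hG.commutes
  have hcardℤ : Nat.card (ℤ ⧸ w.asIdeal.under ℤ) = ℓ := by
    have hunder : w.asIdeal.under ℤ = Ideal.span {(ℓ : ℤ)} := by
      have hℓ' : Prime (ℓ : ℤ) := Nat.prime_iff_prime_int.mp hℓ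
      have hPmax : (Ideal.span {(ℓ : ℤ)}).IsMaximal :=
        PrincipalIdealRing.isMaximal_of_irreducible hℓ'.irreducible
      symm
      apply hPmax.eq_of_le (Ideal.comap_ne_top _ w.isPrime.ne_top)
      rw [Ideal.span_singleton_le_iff_mem, Ideal.mem_comap]
      simpa using hℓw
    rw [hunder, Nat.card_congr (Int.quotientSpanNatEquivZMod ℓ).toEquiv, Nat.card_zmod]
  have hF1 : (MulSemiringAction.toAlgHom ℤ (𝓞 L) (σ ^ k)).IsArithFrobAt w.asIdeal := by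
    intro x
    rw [hcardℤ]
    exact hfrob x
  have hF2 : (MulSemiringAction.toAlgHom ℤ (𝓞 L) φL).IsArithFrobAt w.asIdeal := by
    intro x
    rw [hcardℤ]
    exact hφLfrob x
  have hwcompl : w.asIdeal.primeCompl ≤ nonZeroDivisors (𝓞 L) := by
    intro x hx
    apply mem_nonZeroDivisors_of_ne_zero
    rintro rfl
    exact hx w.asIdeal.zero_mem
  have heq := hF1.eq_of_isUnramifiedAt hF2 hwcompl
  have hσφ : σ ^ k = φL := by
    apply hG.faithful.eq_of_smul_eq_smul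
    intro x
    exact DFunLike.congr_fun heq x
  rw [IntermediateField.mem_fixingSubgroup_iff]
  intro x hx
  have h2 : ((res (g ^ k) ⟨x, hx⟩ : L) : K̄) = ((res φ ⟨x, hx⟩ : L) : K̄) := by
    rw [map_pow, ← hσ, hσφ]
  rw [hres, fddib_res_apply, fddib_res_apply] at h2
  show φ⁻¹ ((g ^ k) x) = x
  simp only at h2
  rw [h2]
  simp


/-- **BP-DI** modulo BP-AN: exact conclusion of `BridgePrimeSpec.bpdi_exists_frobenius2`. -/
theorem fd2di_exists_frobenius2_of (hAN : fd2di_ANStatement)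
    (L : IntermediateField ℚ K̄) (hfd : FiniteDimensional ℚ L)
    (hnorm : ∀ σ : Γ, ∀ x ∈ L, σ x ∈ L)
    (g : Γ) (r p : ℕ) (hr : r.Prime) (hp : p.Prime) (hrp : r ≠ p)
    (hgrp : g ^ (r * p) ∈ L.fixingSubgroup) (hgr : g ^ r ∉ L.fixingSubgroup)
    (hgp : g ^ p ∉ L.fixingSubgroup) (M : ℕ) (hM : 0 < M) :
    ∃ (ℓ : ℕ) (A : ValuationSubring K̄) (φ : Γ) (k : ℕ), ℓ.Prime ∧ ¬ ℓ ∣ M ∧ A.LiesOverPrime ℓ ∧
      A.IsFrobeniusAt φ ℓ ∧ ¬ r ∣ k ∧ ¬ p ∣ k ∧ φ⁻¹ * g ^ k ∈ L.fixingSubgroup := by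
  classical
  have inf : NumberField L := { to_charZero := inferInstance, to_finiteDimensional := hfd }
  have igal : IsGalois ℚ L := fddib_isGalois L hnorm
  set σ : L ≃ₐ[ℚ] L := fddib_res L hnorm g with hσ
  have hσrp : σ ^ (r * p) = 1 := by rw [hσ, ← map_pow, fddib_res_eq_one_iff]; exact hgrp
  have hσr : σ ^ r ≠ 1 := by
    rw [hσ, ← map_pow]
    exact fun h => hgr ((fddib_res_eq_one_iff L hnorm _).mp h)
  have hσp : σ ^ p ≠ 1 := by
    rw [hσ, ← map_pow]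
    exact fun h => hgp ((fddib_res_eq_one_iff L hnorm _).mp h)
  obtain ⟨ℓ, w, k, hℓ, hℓM, hℓw, hunr, hrk, hpk, hfrob⟩ :=
    fd2di_core hAN L σ r p hr hp hrp hσrp hσr hσp M hM
  obtain ⟨A, φ, hA, hAφ, hfix⟩ := fd2di_finish L hfd hnorm g ℓ hℓ w hℓw hunr k hfrob
  exact ⟨ℓ, A, φ, k, hℓ, hℓM, hA, hAφ, hrk, hpk, hfix⟩


end

end Fermat.Agent.S41x
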