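/-
ROUTE S42/S29, block (I1-DI) (helper90): Frobenius density dictionary for an ARBITRARY cyclic subgroup.

`fdndi_exists_frobenius_of (hAN : fdndi_ANStatement)` has EXACTLY the conclusion of (I1-TOP) in docs
`I1_SPEC_helper70`; `fdndi_ANStatement` is a verbatim copy of the statement (I1-AN) `fdn_infinite_nonsplit`.

Route (same as `FD2Dict`): `H = zpowers (g|L)` of order `n` acts on `L` with fixed field `K'`; for a set `T` of prime
divisors of `n`, `N_T = zpowers ((g|L)^(∏ T))` with fixed field `E T` (degree `∏ T` over `K'`).  For a degree-one prime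
`v` of `K'` of residue characteristic prime to all discriminants and a Frobenius `τ ∈ H` at a prime `W | v` of `L`:
`v` splits completely in `L^N` iff `τ ∈ N` (`fdndi_split_of_mem`, `fdndi_mem_of_split`), which turns the splitting
hypothesis of (I1-AN) into `d_T ∣ k ↔ ∀ q ∈ T, q ∣ k`.  (I1-AN) then gives `v` with `τ = (g|L)^k`, `k` prime to `n`;
`fd2di_finish` lifts `τ` to a Frobenius pair `(A, φ)` of `G_ℚ` and `g|L` is a power of `φ|L`.
-/
import Mathlib
import Fermat.Agent.S14x.Defs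
import Fermat.Agent.S41x.FD2Dict

set_option autoImplicit false

namespace Fermat.Agent.S41x

open NumberField IsDedekindDomain Fermat.Agent.S54x Fermat.Agent.S14x

noncomputable section

local notation "K̄" => AlgebraicClosure ℚ
local notation "Γ" => (AlgebraicClosure ℚ ≃ₐ[ℚ] AlgebraicClosure ℚ)
local notation "𝓑" => integralClosure ℤ (AlgebraicClosure ℚ)

open scoped Pointwise

/-- the (I1-AN) statement (copy of `fdn_infinite_nonsplit`, docs `I1_SPEC_helper70`) as a proposition -/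
def fdndi_ANStatement : Prop :=
  ∀ {ι : Type} [DecidableEq ι] (K : Type) [Field K] [NumberField K] (Q : Finset ι)
    (E : Finset ι → Type) [∀ T, Field (E T)] [∀ T, NumberField (E T)] [∀ T, Algebra K (E T)]
    [∀ T, IsGalois K (E T)]
    (d : ι → ℕ) (_ : ∀ q ∈ Q, 2 ≤ d q)
    (_ : ∀ T, T ⊆ Q → Module.finrank K (E T) = ∏ q ∈ T, d q)
    (S₀ : Set (Pl K)) (_ : S₀.Finite)
    (_ : ∀ T, T ⊆ Q → ∀ v : Pl K, v ∉ S₀ → (plNorm v).Prime →
      (SplitsCompletely K (E T) v ↔ ∀ q ∈ T, SplitsCompletely K (E {q}) v)),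
    {v : Pl K | (plNorm v).Prime ∧ ∀ q ∈ Q, ¬ SplitsCompletely K (E {q}) v}.Infinite

/-- membership in the subgroup generated by a power, for an element of finite order -/
theorem fdndi_pow_mem_zpowers_iff {G : Type*} [Group G] (σ : G) {d : ℕ}
    (hd : d ∣ orderOf σ) (k : ℕ) : σ ^ k ∈ Subgroup.zpowers (σ ^ d) ↔ d ∣ k := by
  constructor
  · intro h
    obtain ⟨z, hz⟩ := Subgroup.mem_zpowers_iff.mp h
    have h1 : σ ^ ((k : ℤ) - (d : ℤ) * z) = 1 := by
      rw [zpow_sub, zpow_natCast, zpow_mul, zpow_natCast, hz, mul_inv_cancel]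
    have h2 : ((orderOf σ : ℕ) : ℤ) ∣ (k : ℤ) - (d : ℤ) * z := orderOf_dvd_iff_zpow_eq_one.mpr h1
    have h3 : (d : ℤ) ∣ (k : ℤ) - (d : ℤ) * z := (Int.natCast_dvd_natCast.mpr hd).trans h2
    have h4 : (d : ℤ) ∣ (k : ℤ) := by
      have := dvd_add h3 (Dvd.intro z rfl : (d : ℤ) ∣ (d : ℤ) * z)
      simpa using this
    exact Int.natCast_dvd_natCast.mp h4
  · rintro ⟨m, rfl⟩
    rw [pow_mul]
    exact Subgroup.pow_mem _ (Subgroup.mem_zpowers _) m

/-- a product of distinct primes divides `k` iff each of them does -/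
theorem fdndi_prod_dvd_iff (T : Finset ℕ) (hT : ∀ q ∈ T, q.Prime) (k : ℕ) :
    (∏ q ∈ T, q) ∣ k ↔ ∀ q ∈ T, q ∣ k := by
  constructor
  · intro h q hq
    exact (Finset.dvd_prod_of_mem _ hq).trans h
  · intro h
    exact Finset.prod_primes_dvd k (fun q hq => Nat.prime_iff.mp (hT q hq)) h

/-- **Frobenius criterion, (⇐)**: if a Frobenius at `W | v` lies in `N` (and `G` is commutative), the degree-one
prime `v` splits completely in `L^N`. -/
theorem fdndi_split_of_mem {K L : Type} [Field K] [NumberField K] [Field L] [NumberField L] [Algebra K L]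
    {G : Type} [Group G] [Finite G] [MulSemiringAction G L] [IsGaloisGroup G K L]
    (hcomm : ∀ a b : G, a * b = b * a)
    (N : Subgroup G) (v : Pl K) (ℓ : ℕ) (hℓ : ℓ.Prime) (hnorm : plNorm v = ℓ)
    (hdisc : ¬ (ℓ : ℤ) ∣ discr (FixedPoints.intermediateField N : IntermediateField K L))
    (W : Ideal (𝓞 L)) [W.IsPrime] (hWv : W.under (𝓞 K) = v.asIdeal)
    (τ : G) (hτ : ∀ x : 𝓞 L, τ • x - x ^ ℓ ∈ W) (hτN : τ ∈ N) :
    SplitsCompletely K (FixedPoints.intermediateField N : IntermediateField K L) v := by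
  classical
  set F : IntermediateField K L := FixedPoints.intermediateField N with hF
  intro w hwv
  by_contra hef
  have hwv' : w.asIdeal.under (𝓞 K) = v.asIdeal := hwv
  have hprime : (Ideal.absNorm v.asIdeal).Prime := by
    have : Ideal.absNorm v.asIdeal = ℓ := hnorm
    rw [this]; exact hℓ
  have hnorm' : Ideal.absNorm v.asIdeal = ℓ := hnorm
  have hf : Ideal.inertiaDeg w.asIdeal (𝓞 K) ≠ 1 :=
    fd2di_inertiaDeg_ne_one K F v w hwv' hprime (by rw [hnorm']; exact hdisc) hef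
  have i2 : IsGaloisGroup G (𝓞 K) (𝓞 L) := IsGaloisGroup.of_isFractionRing G (𝓞 K) (𝓞 L) K L
  have hwprime : w.asIdeal.IsPrime := w.isPrime
  obtain ⟨W', -, hW'prime, hW'w⟩ := Ideal.exists_ideal_over_prime_of_isIntegral w.asIdeal
    (⊥ : Ideal (𝓞 L)) (by
      rw [Ideal.comap_bot_of_injective _ (FaithfulSMul.algebraMap_injective (𝓞 F) (𝓞 L))]
      exact bot_le)
  have hW'v : W'.under (𝓞 K) = v.asIdeal := by
    rw [← hwv', ← hW'w]
    exact (Ideal.under_under (A := 𝓞 K) (B := 𝓞 F) W').symm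
  have hcommc : SMulCommClass G (𝓞 K) (𝓞 L) := i2.commutes
  have hinv : Algebra.IsInvariant (𝓞 K) (𝓞 L) G := i2.isInvariant
  obtain ⟨ρ, hρ⟩ := Algebra.IsInvariant.exists_smul_of_under_eq (𝓞 K) (𝓞 L) G W W'
    (hWv.trans hW'v.symm)
  have hτ' : ∀ x : 𝓞 L, τ • x - x ^ ℓ ∈ W' := by
    intro x
    have h1 := hτ (ρ⁻¹ • x)
    have h2 : ρ • (τ • (ρ⁻¹ • x) - (ρ⁻¹ • x) ^ ℓ) ∈ ρ • W := Ideal.smul_mem_pointwise_smul_iff.mpr h1
    rw [hρ]
    have h3 : ρ • (τ • (ρ⁻¹ • x) - (ρ⁻¹ • x) ^ ℓ) = τ • x - x ^ ℓ := by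
      rw [smul_sub, smul_pow', smul_inv_smul, smul_smul, smul_smul, hcomm ρ τ, mul_assoc,
        mul_inv_cancel, mul_one]
    rwa [h3] at h2
  have hvmax : v.asIdeal.IsMaximal := v.isMaximal
  have hwmax : w.asIdeal.IsMaximal := w.isMaximal
  have hlies : w.asIdeal.LiesOver v.asIdeal := ⟨hwv'.symm⟩
  have hcardv : Nat.card (𝓞 K ⧸ v.asIdeal) = ℓ := by
    rw [← hnorm', Ideal.absNorm_apply, Submodule.cardQuot_apply]
  refine fd2di_frob_notMem (K := K) (L := L) (G := G) N F ?_ v.asIdeal w.asIdeal W' hW'w ℓ hℓ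
    hcardv hf τ hτ' hτN
  intro n hn x hx
  exact hx ⟨n, hn⟩

/-- **Frobenius criterion, (⇒)**: if the degree-one prime `v` splits completely in `L^N`, a Frobenius at `W | v`
lies in `N`. -/
theorem fdndi_mem_of_split {K L : Type} [Field K] [NumberField K] [Field L] [NumberField L] [Algebra K L]
    {G : Type} [Group G] [Finite G] [MulSemiringAction G L] [IsGaloisGroup G K L]
    (N : Subgroup G) [N.Normal] (v : Pl K) (ℓ : ℕ) (hℓ : ℓ.Prime) (hnorm : plNorm v = ℓ)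
    (hdisc : ¬ (ℓ : ℤ) ∣ discr (FixedPoints.intermediateField N : IntermediateField K L))
    (W : Ideal (𝓞 L)) [W.IsPrime] (hWv : W.under (𝓞 K) = v.asIdeal)
    (τ : G) (hτ : ∀ x : 𝓞 L, τ • x - x ^ ℓ ∈ W)
    (hsplit : SplitsCompletely K (FixedPoints.intermediateField N : IntermediateField K L) v) :
    τ ∈ N := by
  classical
  set F : IntermediateField K L := FixedPoints.intermediateField N with hF
  have hgal : IsGalois K F := IsGaloisGroup.isGalois (G ⧸ N) K F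
  -- the prime `w = W ∩ 𝓞 F`
  set w : Ideal (𝓞 F) := W.under (𝓞 F) with hw
  have hwprime : w.IsPrime := inferInstance
  have hwv : w.under (𝓞 K) = v.asIdeal := by
    rw [← hWv, hw]
    exact Ideal.under_under (A := 𝓞 K) (B := 𝓞 F) W
  have hℓv : (ℓ : 𝓞 K) ∈ v.asIdeal := by
    rw [← hnorm]; exact Ideal.absNorm_mem v.asIdeal
  have hℓw : (ℓ : 𝓞 F) ∈ w := by
    rw [← hwv, Ideal.under_def, Ideal.mem_comap, map_natCast] at hℓv
    exact hℓv
  have hwbot : w ≠ ⊥ := by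
    intro h
    rw [h, Ideal.mem_bot] at hℓw
    exact hℓ.ne_zero (by exact_mod_cast hℓw)
  obtain ⟨he, hf⟩ := hsplit ⟨w, hwprime, hwbot⟩ hwv
  have hpℤ : Prime (ℓ : ℤ) := Nat.prime_iff_prime_int.mp hℓ
  have hunr : Algebra.IsUnramifiedAt ℤ w :=
    (NumberField.not_dvd_discr_iff_forall_mem F (𝓞 F) hpℤ).mp hdisc w hwprime (by simpa using hℓw)
  have hunr' : Algebra.IsUnramifiedAt (𝓞 K) w :=
    Algebra.IsUnramifiedAt.of_restrictScalars (R := ℤ) (A := 𝓞 K) w
  -- residue field of `w` has `ℓ` elements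
  have hvmax : v.asIdeal.IsMaximal := v.isMaximal
  have hwmax : w.IsMaximal := Ring.DimensionLEOne.maximalOfPrime hwbot hwprime
  have hlies : w.LiesOver v.asIdeal := ⟨hwv.symm⟩
  have hcardv : Nat.card (𝓞 K ⧸ v.asIdeal) = ℓ := by
    rw [← hnorm, plNorm, Ideal.absNorm_apply, Submodule.cardQuot_apply]
  have hcardw : Nat.card (𝓞 F ⧸ w) = ℓ := by
    have hcount := Ideal.cardQuot_pow_inertiaDeg v.asIdeal w
    rw [Submodule.cardQuot_apply, Submodule.cardQuot_apply, hcardv] at hcount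
    have hf' : Ideal.inertiaDeg w (𝓞 K) = 1 := hf
    rw [hf', pow_one] at hcount
    exact hcount.symm
  let _ : Field (𝓞 F ⧸ w) := Ideal.Quotient.field w
  have hfin : Finite (𝓞 F ⧸ w) := Nat.finite_of_card_ne_zero (by rw [hcardw]; exact hℓ.ne_zero)
  have hpow : ∀ x : 𝓞 F, x - x ^ ℓ ∈ w := by
    intro x
    have := Fintype.ofFinite (𝓞 F ⧸ w)
    have h1 : (Ideal.Quotient.mk w x) ^ ℓ = Ideal.Quotient.mk w x := by
      have := FiniteField.pow_card (Ideal.Quotient.mk w x)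
      rwa [← Nat.card_eq_fintype_card, hcardw] at this
    rw [← Ideal.Quotient.eq, map_pow, h1]
  -- the two Galois groups on rings of integers
  have i2 : IsGaloisGroup G (𝓞 K) (𝓞 L) := IsGaloisGroup.of_isFractionRing G (𝓞 K) (𝓞 L) K L
  have i3 : IsGaloisGroup (F ≃ₐ[K] F) (𝓞 K) (𝓞 F) :=
    IsGaloisGroup.of_isFractionRing (F ≃ₐ[K] F) (𝓞 K) (𝓞 F) K F
  set τF : F ≃ₐ[K] F := IsGaloisGroup.restrictHom G (F ≃ₐ[K] F) (𝓞 K) (𝓞 F) (𝓞 L) τ with hτF
  have hτFx : ∀ x : 𝓞 F, algebraMap (𝓞 F) (𝓞 L) (τF • x) = τ • algebraMap (𝓞 F) (𝓞 L) x := fun x =>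
    IsGaloisGroup.algebraMap_restrictHom_smul G (F ≃ₐ[K] F) (𝓞 K) (𝓞 F) (𝓞 L) τ x
  have hcardK : Nat.card (𝓞 K ⧸ w.under (𝓞 K)) = ℓ := by rw [hwv, hcardv]
  have hF1 : (MulSemiringAction.toAlgHom (𝓞 K) (𝓞 F) τF).IsArithFrobAt w := by
    intro x
    rw [hcardK]
    show τF • x - x ^ ℓ ∈ w
    rw [hw, Ideal.under_def, Ideal.mem_comap, map_sub, map_pow, hτFx]
    exact hτ _
  have hF2 : (MulSemiringAction.toAlgHom (𝓞 K) (𝓞 F) (1 : F ≃ₐ[K] F)).IsArithFrobAt w := by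
    intro x
    rw [hcardK]
    show (1 : F ≃ₐ[K] F) • x - x ^ ℓ ∈ w
    rw [one_smul]
    exact hpow x
  have hwcompl : w.primeCompl ≤ nonZeroDivisors (𝓞 F) := by
    intro x hx
    apply mem_nonZeroDivisors_of_ne_zero
    rintro rfl
    exact hx w.zero_mem
  have heq := hF1.eq_of_isUnramifiedAt hF2 hwcompl
  have hτF1 : τF = 1 := by
    apply i3.faithful.eq_of_smul_eq_smul
    intro x
    exact DFunLike.congr_fun heq x
  -- `τ` fixes `𝓞 F`, hence `F`, pointwise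
  have hfixO : ∀ x : 𝓞 F, τ • algebraMap (𝓞 F) (𝓞 L) x = algebraMap (𝓞 F) (𝓞 L) x := by
    intro x
    rw [← hτFx, hτF1, one_smul]
  have hmem : τ ∈ fixingSubgroup G ((F : IntermediateField K L) : Set L) := by
    rw [mem_fixingSubgroup_iff]
    intro y hy
    obtain ⟨a, b, hb, hab⟩ := IsFractionRing.div_surjective (A := 𝓞 F) (⟨y, hy⟩ : F)
    have hy' : y = ((a : F) : L) / ((b : F) : L) := by
      have := congrArg (fun z : F => (z : L)) hab
      simpa using this.symm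
    have ha : τ • ((a : F) : L) = ((a : F) : L) := by
      have := congrArg (fun z : 𝓞 L => (z : L)) (hfixO a)
      exact this
    have hb' : τ • ((b : F) : L) = ((b : F) : L) := by
      have := congrArg (fun z : 𝓞 L => (z : L)) (hfixO b)
      exact this
    rw [hy', smul_div₀', ha, hb']
  rwa [hF, IsGaloisGroup.fixingSubgroup_fixedPoints G K L N] at hmem

/-- **Core**: a Frobenius element at an unramified prime of `L` which is a GENERATOR-power `σ^k`, `gcd(k, ord σ) = 1`,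
of the cyclic group generated by `σ`. -/
theorem fdndi_core (hAN : fdndi_ANStatement) (L : Type) [Field L] [NumberField L] [IsGalois ℚ L]
    (σ : L ≃ₐ[ℚ] L) (M : ℕ) (hM : 0 < M) :
    ∃ (ℓ : ℕ) (w : HeightOneSpectrum (𝓞 L)) (k : ℕ), ℓ.Prime ∧ ¬ ℓ ∣ M ∧ (ℓ : 𝓞 L) ∈ w.asIdeal ∧
      Algebra.IsUnramifiedAt ℤ w.asIdeal ∧ Nat.Coprime k (orderOf σ) ∧
      ∀ x : 𝓞 L, (σ ^ k) • x - x ^ ℓ ∈ w.asIdeal := by
  classical
  let H : Subgroup (L ≃ₐ[ℚ] L) := Subgroup.zpowers σ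
  let K' : IntermediateField ℚ L := FixedPoints.intermediateField H
  have i1 : IsGaloisGroup H K' L := inferInstance
  have i4 : NumberField K' := inferInstance
  have i2 : IsGaloisGroup H (𝓞 K') (𝓞 L) := IsGaloisGroup.of_isFractionRing H (𝓞 K') (𝓞 L) K' L
  have hσfin : IsOfFinOrder σ := isOfFinOrder_of_finite σ
  set n : ℕ := orderOf σ with hn
  have hnpos : 0 < n := hσfin.orderOf_pos
  have hcard : Nat.card H = n := Nat.card_zpowers σ
  have hHfin : Finite H := Nat.finite_of_card_ne_zero (by rw [hcard]; exact hnpos.ne')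
  have hKL : Module.finrank K' L = n := by
    rw [IsGaloisGroup.finrank_fixedPoints_eq_card_subgroup _ _ _ H, hcard]
  have hcomm : ∀ a b : H, a * b = b * a := by
    intro a b
    obtain ⟨a, ha⟩ := a
    obtain ⟨b, hb⟩ := b
    obtain ⟨m, rfl⟩ := Subgroup.mem_zpowers_iff.mp ha
    obtain ⟨m', rfl⟩ := Subgroup.mem_zpowers_iff.mp hb
    apply Subtype.ext
    show σ ^ m * σ ^ m' = σ ^ m' * σ ^ m
    rw [← zpow_add, ← zpow_add, add_comm]
  have hnormal : ∀ N : Subgroup H, N.Normal := fun N => ⟨fun a ha g => by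
    have : g * a * g⁻¹ = a := by rw [hcomm g a, mul_inv_cancel_right]
    rw [this]; exact ha⟩
  let σH : H := ⟨σ, Subgroup.mem_zpowers σ⟩
  have hordH : orderOf σH = n := Subgroup.orderOf_mk σ _
  -- the family of subgroups and fixed fields
  let dT : Finset ℕ → ℕ := fun T => ∏ q ∈ T, q
  let NT : Finset ℕ → Subgroup H := fun T => Subgroup.zpowers (σH ^ dT T)
  let ET : Finset ℕ → IntermediateField K' L := fun T => FixedPoints.intermediateField (NT T)
  let Q : Finset ℕ := n.primeFactors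
  have hQprime : ∀ q ∈ Q, q.Prime := fun q hq => Nat.prime_of_mem_primeFactors hq
  have hdvd : ∀ T, T ⊆ Q → dT T ∣ n := fun T hT =>
    (Finset.prod_dvd_prod_of_subset T Q (fun q => q) hT).trans (Nat.prod_primeFactors_dvd n)
  have hdTpos : ∀ T, T ⊆ Q → 0 < dT T := fun T hT => Nat.pos_of_dvd_of_pos (hdvd T hT) hnpos
  have hcardNT : ∀ T, T ⊆ Q → Nat.card (NT T) = n / dT T := by
    intro T hT
    rw [Nat.card_zpowers, orderOf_pow' _ (hdTpos T hT).ne', hordH, Nat.gcd_eq_right (hdvd T hT)]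
  have hdeg : ∀ T, T ⊆ Q → Module.finrank K' (ET T) = ∏ q ∈ T, q := by
    intro T hT
    have h1 : Module.finrank (ET T) L = n / dT T := by
      rw [IsGaloisGroup.finrank_fixedPoints_eq_card_subgroup _ _ _ (NT T), hcardNT T hT]
    have h2 := Module.finrank_mul_finrank K' (ET T) L
    rw [h1, hKL] at h2
    obtain ⟨c, hc⟩ := hdvd T hT
    have hcpos : 0 < c := by
      rcases Nat.eq_zero_or_pos c with h | h
      · rw [h, mul_zero] at hc; omega
      · exact h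
    rw [hc, Nat.mul_div_cancel_left _ (hdTpos T hT)] at h2
    exact Nat.eq_of_mul_eq_mul_right hcpos h2
  have hgalT : ∀ T, IsGalois K' (ET T) := fun T =>
    haveI := hnormal (NT T)
    IsGaloisGroup.isGalois (H ⧸ NT T) K' (ET T)
  -- the bad set
  set D : ℕ := M * (discr L).natAbs * ∏ T ∈ Q.powerset, (discr (ET T)).natAbs with hD
  have hD0 : D ≠ 0 := by
    refine Nat.mul_ne_zero (Nat.mul_ne_zero hM.ne' ?_) ?_
    · exact Int.natAbs_ne_zero.mpr (discr_ne_zero L)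
    · exact Finset.prod_ne_zero_iff.mpr fun T _ => Int.natAbs_ne_zero.mpr (discr_ne_zero (ET T))
  let S₀ : Set (Pl K') := {v | plNorm v ∣ D}
  have hS₀ : S₀.Finite := fddib_finite_absNorm_dvd K' D hD0
  -- Frobenius elements and the splitting criterion
  have hkey : ∀ v : Pl K', v ∉ S₀ → (plNorm v).Prime →
      ∃ (W : Ideal (𝓞 L)) (_ : W.IsPrime) (τ : H), W.under (𝓞 K') = v.asIdeal ∧ W ≠ ⊥ ∧
        Algebra.IsUnramifiedAt ℤ W ∧
        (∀ x : 𝓞 L, τ • x - x ^ plNorm v ∈ W) ∧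
        ∀ T, T ⊆ Q → (SplitsCompletely K' (ET T) v ↔ τ ∈ NT T) := by
    intro v hv hvprime
    have hℓD : ¬ plNorm v ∣ D := hv
    have hvprime' : v.asIdeal.IsPrime := v.isPrime
    obtain ⟨W, -, hWprime, hWv⟩ := Ideal.exists_ideal_over_prime_of_isIntegral v.asIdeal
      (⊥ : Ideal (𝓞 L)) (by
        rw [Ideal.comap_bot_of_injective _ (FaithfulSMul.algebraMap_injective (𝓞 K') (𝓞 L))]
        exact bot_le)
    have hWv' : W.under (𝓞 K') = v.asIdeal := hWv
    have hℓv : (plNorm v : 𝓞 K') ∈ v.asIdeal := Ideal.absNorm_mem v.asIdeal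
    have hℓW : (plNorm v : 𝓞 L) ∈ W := by
      have := hℓv
      rw [← hWv', Ideal.under_def, Ideal.mem_comap, map_natCast] at this
      exact this
    have hWbot : W ≠ ⊥ := by
      intro h
      rw [h, Ideal.mem_bot] at hℓW
      exact hvprime.ne_zero (by exact_mod_cast hℓW)
    have hpℤ : Prime (plNorm v : ℤ) := Nat.prime_iff_prime_int.mp hvprime
    have hℓdiscL : ¬ (plNorm v : ℤ) ∣ discr L := by
      intro h
      apply hℓD
      have : plNorm v ∣ (discr L).natAbs := Int.natCast_dvd.mp h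
      exact Dvd.dvd.mul_right (Dvd.dvd.mul_left this _) _
    have hunr : Algebra.IsUnramifiedAt ℤ W :=
      (NumberField.not_dvd_discr_iff_forall_mem L (𝓞 L) hpℤ).mp hℓdiscL W hWprime
        (by simpa using hℓW)
    have hfinW : Finite (𝓞 L ⧸ W) := Ideal.finiteQuotientOfFreeOfNeBot W hWbot
    have hcommc : SMulCommClass H (𝓞 K') (𝓞 L) := i2.commutes
    have hinv : Algebra.IsInvariant (𝓞 K') (𝓞 L) H := i2.isInvariant
    obtain ⟨τ, hτ⟩ := IsArithFrobAt.exists_of_isInvariant (𝓞 K') H W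
    have hcardv : Nat.card (𝓞 K' ⧸ v.asIdeal) = plNorm v := by
      rw [plNorm, Ideal.absNorm_apply, Submodule.cardQuot_apply]
    have hτ₁ : ∀ x : 𝓞 L, τ • x - x ^ plNorm v ∈ W := by
      intro x
      have := hτ x
      rw [hWv', hcardv] at this
      exact this
    refine ⟨W, hWprime, τ, hWv', hWbot, hunr, hτ₁, ?_⟩
    intro T hT
    have hdiscT : ¬ (plNorm v : ℤ) ∣ discr (ET T) := by
      intro h
      apply hℓD
      have h1 : plNorm v ∣ (discr (ET T)).natAbs := Int.natCast_dvd.mp h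
      have h2 : (discr (ET T)).natAbs ∣ ∏ T ∈ Q.powerset, (discr (ET T)).natAbs :=
        Finset.dvd_prod_of_mem _ (Finset.mem_powerset.mpr hT)
      exact Dvd.dvd.mul_left (h1.trans h2) _
    have := hnormal (NT T)
    exact ⟨fun hs => fdndi_mem_of_split (K := K') (L := L) (G := H) (NT T) v (plNorm v) hvprime rfl
        hdiscT W hWv' τ hτ₁ hs,
      fun hm => fdndi_split_of_mem (K := K') (L := L) (G := H) hcomm (NT T) v (plNorm v) hvprime rfl
        hdiscT W hWv' τ hτ₁ hm⟩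
  -- membership in `N_T` in terms of exponents
  have hmemNT : ∀ T, T ⊆ Q → ∀ k : ℕ, σH ^ k ∈ NT T ↔ ∀ q ∈ T, q ∣ k := by
    intro T hT k
    rw [fdndi_pow_mem_zpowers_iff σH (by rw [hordH]; exact hdvd T hT) k]
    exact fdndi_prod_dvd_iff T (fun q hq => hQprime q (hT hq)) k
  have hpowers : ∀ τ : H, ∃ k : ℕ, τ = σH ^ k := by
    intro τ
    obtain ⟨k, hk⟩ := (Submonoid.mem_powers_iff (τ : L ≃ₐ[ℚ] L) σ).mp
      (mem_powers_iff_mem_zpowers.mpr τ.2)
    exact ⟨k, Subtype.ext (by rw [← hk]; rfl)⟩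
  have hsingle : ∀ q ∈ Q, ({q} : Finset ℕ) ⊆ Q := fun q hq => Finset.singleton_subset_iff.mpr hq
  -- the splitting hypothesis of (I1-AN)
  have hsplit : ∀ T, T ⊆ Q → ∀ v : Pl K', v ∉ S₀ → (plNorm v).Prime →
      (SplitsCompletely K' (ET T) v ↔ ∀ q ∈ T, SplitsCompletely K' (ET {q}) v) := by
    intro T hT v hv hvprime
    obtain ⟨W, hWprime, τ, -, -, -, -, hcrit⟩ := hkey v hv hvprime
    obtain ⟨k, rfl⟩ := hpowers τ
    rw [hcrit T hT, hmemNT T hT k]
    refine forall₂_congr fun q hq => ?_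
    rw [hcrit {q} (hsingle q (hT hq)), hmemNT {q} (hsingle q (hT hq)) k]
    simp
  have : ∀ T, IsGalois K' (ET T) := hgalT
  have hinf := hAN (ι := ℕ) K' Q (fun T => ↥(ET T)) (fun q => q) (fun q hq => (hQprime q hq).two_le)
    hdeg S₀ hS₀ hsplit
  obtain ⟨v, ⟨hvprime, hvns⟩, hvbad⟩ := hinf.exists_notMem_finite hS₀
  obtain ⟨W, hWprime, τ, hWv, hWbot, hunr, hτ₁, hcrit⟩ := hkey v hvbad hvprime
  obtain ⟨k, rfl⟩ := hpowers τ
  have hℓD : ¬ plNorm v ∣ D := hvbad
  have hℓM : ¬ plNorm v ∣ M := fun h => hℓD (Dvd.dvd.mul_right (Dvd.dvd.mul_right h _) _)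
  have hℓW : (plNorm v : 𝓞 L) ∈ W := by
    have hℓv : (plNorm v : 𝓞 K') ∈ v.asIdeal := Ideal.absNorm_mem v.asIdeal
    rw [← hWv, Ideal.under_def, Ideal.mem_comap, map_natCast] at hℓv
    exact hℓv
  have hcop : Nat.Coprime k n := by
    apply Nat.Coprime.symm
    apply Nat.coprime_of_dvd
    intro q hq hqn hqk
    have hqQ : q ∈ Q := Nat.mem_primeFactors.mpr ⟨hq, hqn, hnpos.ne'⟩
    apply hvns q hqQ
    rw [hcrit {q} (hsingle q hqQ), hmemNT {q} (hsingle q hqQ) k]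
    simpa using hqk
  refine ⟨plNorm v, ⟨W, hWprime, hWbot⟩, k, hvprime, hℓM, hℓW, hunr, hcop, ?_⟩
  intro x
  exact hτ₁ x

/-- **(I1-TOP)** modulo (I1-AN): exact conclusion of `fdndi_exists_frobenius` (docs `I1_SPEC_helper70`). -/
theorem fdndi_exists_frobenius_of (hAN : fdndi_ANStatement)
    (L : IntermediateField ℚ K̄) (hfd : FiniteDimensional ℚ L)
    (hnorm : ∀ σ : Γ, ∀ x ∈ L, σ x ∈ L) (g : Γ) (M : ℕ) (hM : 0 < M) :
    ∃ (ℓ : ℕ) (A : ValuationSubring K̄) (φ : Γ) (j : ℕ), ℓ.Prime ∧ ¬ ℓ ∣ M ∧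
      A.LiesOverPrime ℓ ∧ A.IsFrobeniusAt φ ℓ ∧ g⁻¹ * φ ^ j ∈ L.fixingSubgroup := by
  classical
  have inf : NumberField L := { to_charZero := inferInstance, to_finiteDimensional := hfd }
  have igal : IsGalois ℚ L := fddib_isGalois L hnorm
  set σ : L ≃ₐ[ℚ] L := fddib_res L hnorm g with hσ
  obtain ⟨ℓ, w, k, hℓ, hℓM, hℓw, hunr, hcop, hfrob⟩ := fdndi_core hAN L σ M hM
  obtain ⟨A, φ, hA, hAφ, hfix⟩ := fd2di_finish L hfd hnorm g ℓ hℓ w hℓw hunr k hfrob
  obtain ⟨j, hj⟩ := exists_pow_eq_self_of_coprime hcop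
  refine ⟨ℓ, A, φ, j, hℓ, hℓM, hA, hAφ, ?_⟩
  have h1 : fddib_res L hnorm (φ⁻¹ * g ^ k) = 1 := (fddib_res_eq_one_iff L hnorm _).mpr hfix
  have h2 : fddib_res L hnorm φ = σ ^ k := by
    rw [map_mul, map_inv, map_pow, ← hσ, inv_mul_eq_one] at h1
    exact h1
  rw [← fddib_res_eq_one_iff L hnorm, map_mul, map_inv, map_pow, h2, ← hσ, hj, inv_mul_cancel]

end

end Fermat.Agent.S41x
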