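/-
ROUTE S42/S29, block B9 = (I1), FINAL wiring (helper70): the FROBENIUS density theorem for an
arbitrary cyclic subgroup, (I1-TOP) of docs `I1_SPEC_helper70`:
`fdndi_exists_frobenius` = helper90's `FDnDict.fdndi_exists_frobenius_of` fed with
`FDnAnalytic.fdn_infinite_nonsplit` (I1-AN).

For a finite normal `L/ℚ` inside `ℚ̄`, any `g ∈ G_ℚ` and any `M > 0` there are a prime `ℓ ∤ M`,
a place `A | ℓ` of `ℚ̄`, a Frobenius lift `φ` at `A` and `j` with `g = φ ^ j` on `L`.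
-/
import Fermat.Agent.S41x.FDnDict
import Fermat.Agent.S41x.FDnAnalytic

set_option autoImplicit false

namespace Fermat.Agent.S41x

theorem fdndi_ANStatement_holds : fdndi_ANStatement := by
  intro ι _ K _ _ Q E _ _ _ _ d hd hdeg S₀ hS₀ hsplit
  exact fdn_infinite_nonsplit K Q E d hd hdeg S₀ hS₀ hsplit

/-- **(I1-TOP) Frobenius density, arbitrary cyclic subgroup**: every element of `G_ℚ` acts on a
finite normal `L` as a power of a Frobenius lift at a prime `ℓ ∤ M`. -/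
theorem fdndi_exists_frobenius (L : IntermediateField ℚ (AlgebraicClosure ℚ))
    (hfd : FiniteDimensional ℚ L)
    (hnorm : ∀ σ : AlgebraicClosure ℚ ≃ₐ[ℚ] AlgebraicClosure ℚ, ∀ x ∈ L, σ x ∈ L)
    (g : AlgebraicClosure ℚ ≃ₐ[ℚ] AlgebraicClosure ℚ) (M : ℕ) (hM : 0 < M) :
    ∃ (ℓ : ℕ) (A : ValuationSubring (AlgebraicClosure ℚ))
      (φ : AlgebraicClosure ℚ ≃ₐ[ℚ] AlgebraicClosure ℚ) (j : ℕ), ℓ.Prime ∧ ¬ ℓ ∣ M ∧
      A.LiesOverPrime ℓ ∧ A.IsFrobeniusAt φ ℓ ∧ g⁻¹ * φ ^ j ∈ L.fixingSubgroup :=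
  fdndi_exists_frobenius_of fdndi_ANStatement_holds L hfd hnorm g M hM

end Fermat.Agent.S41x
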