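/-
S41 bridge, row CYC (helper13): a Frobenius element at `ℓ ∤ M0` raises every primitive `M0`-th root of unity
to the `ℓ`-th power; in particular if it fixes one then `ℓ ≡ 1 mod M0`.
-/
import Mathlib
import Fermat.Prelude.Def_EllipticCurve_FrobeniusTrace

set_option autoImplicit false

namespace Fermat.Agent.S41x

open ValuationSubring

section local_ring

variable {L : Type*} [Field L]

/-- an element of a field with `x ^ n = 1` (`n ≠ 0`) lies in every valuation subring. -/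
theorem brcy_mem_of_pow_eq_one (A : ValuationSubring L) {x : L} {n : ℕ} (hn : n ≠ 0) (hx : x ^ n = 1) :
    x ∈ A := by
  rw [← A.valuation_le_one_iff]
  have h1 : (A.valuation x) ^ n = 1 := by rw [← map_pow, hx, map_one]
  rcases pow_eq_one_iff.1 h1 with h | h
  · exact le_of_eq h
  · exact absurd h hn

/-- in a local domain in which `ℓ` is a nonunit and `ℓ ∤ M`, a root of unity `w` of order dividing `M`
with `w - 1` a nonunit is `1`. -/
theorem brcy_eq_one_of_sub_one_mem {R : Type*} [CommRing R] [IsDomain R] [IsLocalRing R]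
    {ℓ M : ℕ} (hcop : Nat.Coprime M ℓ) (hℓ : (ℓ : R) ∈ IsLocalRing.maximalIdeal R)
    {w : R} (hw : w ^ M = 1) (hw1 : w - 1 ∈ IsLocalRing.maximalIdeal R) : w = 1 := by
  by_contra hne
  have hsum : (∑ i ∈ Finset.range M, w ^ i) = 0 := by
    have h := geom_sum_mul w M
    rw [hw, sub_self] at h
    rcases mul_eq_zero.1 h with h | h
    · exact h
    · exact absurd (sub_eq_zero.1 h) hne
  have hM : (M : R) ∈ IsLocalRing.maximalIdeal R := by
    have h1 : (M : R) = ∑ i ∈ Finset.range M, (1 - w ^ i) := by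
      rw [Finset.sum_sub_distrib, hsum, sub_zero]
      simp
    rw [h1]
    refine Ideal.sum_mem _ fun i _ => ?_
    have h2 : 1 - w ^ i = -((∑ j ∈ Finset.range i, w ^ j) * (w - 1)) := by
      rw [geom_sum_mul]; ring
    rw [h2]
    exact Ideal.neg_mem_iff _ |>.2 (Ideal.mul_mem_left _ _ hw1)
  -- `1` is an integer combination of `M` and `ℓ`
  have hone : (1 : R) ∈ IsLocalRing.maximalIdeal R := by
    have hb : ((Nat.gcd M ℓ : ℕ) : ℤ) = (M : ℤ) * Nat.gcdA M ℓ + (ℓ : ℤ) * Nat.gcdB M ℓ := Nat.gcd_eq_gcd_ab M ℓ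
    rw [hcop] at hb
    have hb' : (1 : R) = (M : R) * ((Nat.gcdA M ℓ : ℤ) : R) + (ℓ : R) * ((Nat.gcdB M ℓ : ℤ) : R) := by
      have := congrArg (fun z : ℤ => (z : R)) hb
      simpa using this
    rw [hb']
    exact Ideal.add_mem _ (Ideal.mul_mem_right _ _ hM) (Ideal.mul_mem_right _ _ hℓ)
  exact (IsLocalRing.maximalIdeal R).ne_top_iff_one.1 (IsLocalRing.maximalIdeal.isMaximal R).ne_top hone

end local_ring

section frob

abbrev brcy_Qb := AlgebraicClosure ℚ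
abbrev brcy_GQ := brcy_Qb ≃ₐ[ℚ] brcy_Qb

/-- **CYC**: a Frobenius element at `ℓ ∤ M0` acts on primitive `M0`-th roots of unity as `ζ ↦ ζ ^ ℓ`. -/
theorem brcy_frobenius_apply_root {M0 ℓ : ℕ} (hℓ : ℓ.Prime) (hℓM : ¬ ℓ ∣ M0)
    (A : ValuationSubring brcy_Qb) (hA : A.LiesOverPrime ℓ) (φ : brcy_GQ) (hφ : A.IsFrobeniusAt φ ℓ)
    {ζ : brcy_Qb} (hζ : IsPrimitiveRoot ζ M0) : φ ζ = ζ ^ ℓ := by
  have hM0 : M0 ≠ 0 := by
    rintro rfl
    exact hℓM (dvd_zero ℓ)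
  have : NeZero M0 := ⟨hM0⟩
  have hcop : Nat.Coprime M0 ℓ := (Nat.Coprime.symm ((Nat.Prime.coprime_iff_not_dvd hℓ).2 hℓM))
  -- `ζ ∈ A`
  have hζA : ζ ∈ A := brcy_mem_of_pow_eq_one A hM0 hζ.pow_eq_one
  -- `φ ζ = ζ ^ k`
  have hφζ : (φ ζ) ^ M0 = 1 := by rw [← map_pow, hζ.pow_eq_one, map_one]
  obtain ⟨k, -, hk⟩ := hζ.eq_pow_of_pow_eq_one hφζ
  rw [← hk]
  -- work in the local ring `A`
  set z : A := ⟨ζ, hζA⟩ with hz
  have hzM : z ^ M0 = 1 := Subtype.ext (by simpa using hζ.pow_eq_one)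
  have hφmem := hφ.mem_decompositionSubgroup
  have hres := hφ.smul_residue_eq (IsLocalRing.residue A z)
  have hact : ((⟨φ, hφmem⟩ : A.decompositionSubgroup ℚ) • z : A) = z ^ k := by
    apply Subtype.ext
    change φ ζ = _
    rw [← hk]; simp [hz]
  have hres' : IsLocalRing.residue A (z ^ k) = IsLocalRing.residue A (z ^ ℓ) := by
    rw [map_pow _ z ℓ, ← hres, ← hact]
    rfl
  have hmem : z ^ k - z ^ ℓ ∈ IsLocalRing.maximalIdeal A := by
    rw [← IsLocalRing.residue_eq_zero_iff, map_sub, hres', sub_self]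
  -- `ℓ ∈ 𝔪`
  have hℓm : ((ℓ : ℕ) : A) ∈ IsLocalRing.maximalIdeal A := by
    obtain ⟨ha, hm⟩ := mem_nonunits_iff_exists_mem_maximalIdeal.1 hA
    have : (⟨(ℓ : brcy_Qb), ha⟩ : A) = ((ℓ : ℕ) : A) := Subtype.ext (by simp)
    rwa [this] at hm
  -- `w = z ^ (k + (M0 - 1) * ℓ)` is a root of unity with `w - 1 ∈ 𝔪`
  set w : A := z ^ (k + (M0 - 1) * ℓ) with hw
  have hzw : z ^ ℓ * w = z ^ k := by
    rw [hw, ← pow_add]
    have : ℓ + (k + (M0 - 1) * ℓ) = k + M0 * ℓ := by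
      have : M0 = (M0 - 1) + 1 := (Nat.sub_add_cancel (Nat.pos_of_ne_zero hM0)).symm
      nlinarith [this]
    rw [this, pow_add, pow_mul, hzM, one_pow, mul_one]
  have hwM : w ^ M0 = 1 := by
    rw [hw, ← pow_mul, mul_comm, pow_mul, hzM, one_pow]
  have hunit : IsUnit (z ^ ℓ) := by
    have : IsUnit z := IsUnit.of_mul_eq_one (z ^ (M0 - 1)) (by
      rw [← pow_succ', Nat.sub_add_cancel (Nat.pos_of_ne_zero hM0), hzM])
    exact this.pow ℓ
  have hw1 : w - 1 ∈ IsLocalRing.maximalIdeal A := by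
    have h1 : z ^ k - z ^ ℓ = z ^ ℓ * (w - 1) := by rw [mul_sub, hzw, mul_one]
    rw [h1] at hmem
    rcases (IsLocalRing.maximalIdeal.isMaximal A).isPrime.mem_or_mem hmem with h | h
    · exact absurd hunit ((IsLocalRing.mem_maximalIdeal _).1 h)
    · exact h
  have hw_one : w = 1 := brcy_eq_one_of_sub_one_mem hcop hℓm hwM hw1
  rw [hw_one, mul_one] at hzw
  have := congrArg (fun a : A => (a : brcy_Qb)) hzw
  simpa [hz] using this.symm

/-- **CYC**, consequence: a Frobenius element at `ℓ ∤ M0` fixing a primitive `M0`-th root of unity has `ℓ ≡ 1 mod M0`. -/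
theorem brcy_modEq_one_of_fixes {M0 ℓ : ℕ} (hℓ : ℓ.Prime) (hℓM : ¬ ℓ ∣ M0)
    (A : ValuationSubring brcy_Qb) (hA : A.LiesOverPrime ℓ) (φ : brcy_GQ) (hφ : A.IsFrobeniusAt φ ℓ)
    {ζ : brcy_Qb} (hζ : IsPrimitiveRoot ζ M0) (hfix : φ ζ = ζ) : ℓ ≡ 1 [MOD M0] := by
  have h := brcy_frobenius_apply_root hℓ hℓM A hA φ hφ hζ
  rw [hfix] at h
  have hM0 : M0 ≠ 0 := by
    rintro rfl
    exact hℓM (dvd_zero ℓ)
  have hζ0 : ζ ≠ 0 := hζ.ne_zero hM0
  have h1 : ζ ^ (ℓ - 1) = 1 := by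
    have h2 : ζ ^ (ℓ - 1) * ζ = 1 * ζ := by
      rw [← pow_succ, Nat.sub_add_cancel hℓ.one_lt.le, one_mul]; exact h.symm
    exact mul_right_cancel₀ hζ0 h2
  have hdvd : M0 ∣ ℓ - 1 := hζ.dvd_of_pow_eq_one _ h1
  exact ((Nat.modEq_iff_dvd' hℓ.one_lt.le).2 hdvd).symm

end frob

end Fermat.Agent.S41x
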