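/-
S41 project (level raising), block B (COH-LEVEL), module B2 (helper27):
the four composition identities `β ∘ α = [[q+1, T_q],[T_q, q+1]]` for the degeneracy
correspondences of `CohLevel.lean` between `Γ₀(N q)` and `Γ₀(N)`:
* `lrl_cores_res`       : `cores ∘ res       = (q+1) • id`;
* `lrl_coresEta_resEta` : `coresEta ∘ resEta = (q+1) • id`;
* `lrl_cores_resEta`    : `cores ∘ resEta    = T_q` (`S16x.cohT N q`);
* `lrl_coresEta_res`    : `coresEta ∘ res    = T_q`.
-/
import Fermat.Agent.S41x.CohLevel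

set_option autoImplicit false

namespace Fermat.Agent.S41x

open scoped MatrixGroups
open Fermat.Agent.S16x CongruenceSubgroup Matrix.SpecialLinearGroup

section comp

variable (N q : ℕ) [Fact q.Prime] (hqN : ¬ q ∣ N) {B : Type*} [AddCommGroup B]

/-- the identity correspondence of `Γ₀(N)` -/
def lrl_id : lrc_Corr (Gamma0 N) (Gamma0 N) Unit := lrc_res le_rfl

theorem lrl_id_op (ψ : Additive (Gamma0 N) →+ B) : (lrl_id N).op ψ = ψ := by
  refine AddMonoidHom.ext fun γ => ?_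
  obtain ⟨γ, rfl⟩ := Additive.ofMul.surjective γ
  exact lrc_res_op_apply le_rfl ψ γ

theorem lrl_card_filter_unit :
    ∀ x₀ : Unit, (Finset.univ.filter fun p : Unit × OnePoint (ZMod q) => (fun _ => ()) p = x₀).card
      = q + 1 := by
  have : NeZero q := ⟨(Fact.out : q.Prime).ne_zero⟩
  intro x₀
  rw [Finset.filter_true_of_mem (fun _ _ => rfl), Finset.card_univ, Fintype.card_prod,
    Fintype.card_unit, one_mul]
  show Fintype.card (Option (ZMod q)) = q + 1
  rw [Fintype.card_option, ZMod.card]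

/-- `cores ∘ res = (q+1) • id` -/
theorem lrl_cores_res (ψ : Additive (Gamma0 N) →+ B) :
    (lrl_cores N q hqN).op ((lrl_res N q).op ψ) = (q + 1) • ψ := by
  have h := lrc_comp_eq_smul (lrl_res N q) (lrl_cores N q hqN) (lrl_id N) (fun _ => ())
    (fun p => lrl_g N q hqN p.2)
    (fun p => by
      show (1 : Matrix (Fin 2) (Fin 2) ℤ) * cohMat (lrl_g N q hqN p.2) =
        cohMat (lrl_g N q hqN p.2) * 1
      rw [Matrix.one_mul, Matrix.mul_one])
    (q + 1) (lrl_card_filter_unit q) ψ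
  rw [h, lrl_id_op]

/-- the identity correspondence of `Γ₀(N)` with the scalar matrix `q` -/
def lrl_idScalar : lrc_Corr (Gamma0 N) (Gamma0 N) Unit :=
  lrc_conj ((q : ℤ) • (1 : Matrix (Fin 2) (Fin 2) ℤ))
    (by
      rw [Matrix.det_smul, Matrix.det_one, mul_one]
      exact pow_ne_zero _ (by exact_mod_cast (Fact.out : q.Prime).ne_zero))
    (fun γ => ⟨γ, by rw [Matrix.mul_smul, Matrix.smul_mul, Matrix.mul_one, Matrix.one_mul]⟩)

theorem lrl_idScalar_op (ψ : Additive (Gamma0 N) →+ B) : (lrl_idScalar N q).op ψ = ψ := by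
  refine AddMonoidHom.ext fun γ => ?_
  obtain ⟨γ, rfl⟩ := Additive.ofMul.surjective γ
  exact lrc_conj_op_apply _ _ _ ψ
    (by rw [Matrix.mul_smul, Matrix.smul_mul, Matrix.mul_one, Matrix.one_mul])

theorem lrl_cohMatInf_mul_cohMatFin_zero :
    cohMatInf q * cohMatFin q 0 = (q : ℤ) • (1 : Matrix (Fin 2) (Fin 2) ℤ) := by
  rw [lrl_cohMatFin_zero, cohMatInf, Matrix.mul_fin_two]
  ext i j
  fin_cases i <;> fin_cases j <;> simp

/-- `coresEta ∘ resEta = (q+1) • id` -/
theorem lrl_coresEta_resEta (ψ : Additive (Gamma0 N) →+ B) :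
    (lrl_coresEta N q hqN).op ((lrl_resEta N q).op ψ) = (q + 1) • ψ := by
  have h := lrc_comp_eq_smul (lrl_resEta N q) (lrl_coresEta N q hqN) (lrl_idScalar N q)
    (fun _ => ()) (fun p => lrl_s N q hqN p.2)
    (fun p => by
      show cohMatInf q * lrl_AEta N q hqN p.2 =
        cohMat (lrl_s N q hqN p.2) * ((q : ℤ) • (1 : Matrix (Fin 2) (Fin 2) ℤ))
      rw [lrl_AEta_eq, ← Matrix.mul_assoc, lrl_cohMatInf_mul_cohMatFin_zero, Matrix.smul_mul,
        Matrix.one_mul, Matrix.mul_smul, Matrix.mul_one])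
    (q + 1) (lrl_card_filter_unit q) ψ
  rw [h, lrl_idScalar_op]

/-! ### `coresEta ∘ res = T_q` -/

/-- `δ_∞ = [[1,v],[N,qu]]` -/
noncomputable def lrl_deltaInf : Gamma0 N :=
  lrl_g0 N 1 (lrl_v N q hqN) (N : ℤ) ((q : ℤ) * lrl_u N q hqN)
    (by have := lrl_uv N q hqN; linear_combination this) dvd_rfl

/-- `coresEta ∘ res = T_q` -/
theorem lrl_coresEta_res (ψ : Additive (Gamma0 N) →+ B) :
    (lrl_coresEta N q hqN).op ((lrl_res N q).op ψ) = cohT N q hqN ψ := by
  have h := lrc_comp_eq (lrl_res N q) (lrl_coresEta N q hqN) (lrc_ofDatum (cohDatumT N q hqN))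
    (fun p => p.2)
    ⟨fun p p' h => Prod.ext rfl h, fun y => ⟨((), y), rfl⟩⟩
    (fun p => p.2.elim (lrl_deltaInf N q hqN) (fun _ => 1))
    (fun p => by
      obtain ⟨⟨⟩, y⟩ := p
      show (1 : Matrix (Fin 2) (Fin 2) ℤ) * lrl_AEta N q hqN y = _ * cohMatT q y
      rw [Matrix.one_mul]
      induction y using OnePoint.rec with
      | infty =>
        show _ = cohMat (lrl_deltaInf N q hqN) * cohMatInf q
        rw [lrl_AEta_infty, lrl_deltaInf, lrl_cohMat_g0, cohMatInf, Matrix.mul_fin_two]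
        refine lrl_mat_eq ?_ ?_ ?_ ?_ <;> ring
      | coe j =>
        show _ = cohMat (1 : Gamma0 N) * cohMatFin q j
        rw [cohMat_one, Matrix.one_mul, lrl_AEta_coe])
    ψ
  rw [h, lrc_ofDatum_op]
  rfl

/-! ### `cores ∘ resEta = T_q` -/

/-- the index bijection `j ↦ 1/(N j)` of `ℙ¹(𝔽_q)` (`0 ↦ ∞`, `∞ ↦ 0`) -/
noncomputable def lrl_y (x : OnePoint (ZMod q)) : OnePoint (ZMod q) :=
  x.elim ((0 : ZMod q) : OnePoint (ZMod q))
    (fun j => if j = 0 then OnePoint.infty else ((((N : ZMod q) * j)⁻¹ : ZMod q) : OnePoint (ZMod q)))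

include hqN in
theorem lrl_N_ne_zero : (N : ZMod q) ≠ 0 := by
  rw [Ne, ZMod.natCast_eq_zero_iff]
  exact hqN

include hqN in
theorem lrl_y_involutive : Function.Involutive (lrl_y N q) := by
  have hq : q.Prime := Fact.out
  have hN := lrl_N_ne_zero N q hqN
  intro x
  induction x using OnePoint.rec with
  | infty => simp [lrl_y]
  | coe j =>
    by_cases hj : j = 0
    · simp [lrl_y, hj]
    · have h1 : ((N : ZMod q) * j)⁻¹ ≠ 0 := inv_ne_zero (mul_ne_zero hN hj)
      simp only [lrl_y, OnePoint.elim_some, if_neg hj, if_neg h1]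
      congr 1
      field_simp

/-- the left factors `δ_x ∈ Γ₀(N)` with `η g_x = δ_x * t_{y(x)}` -/
theorem lrl_exists_delta (x : OnePoint (ZMod q)) :
    ∃ δ : Gamma0 N, cohMatInf q * cohMat (lrl_g N q hqN x) = cohMat δ * cohMatT q (lrl_y N q x) := by
  have hq : q.Prime := Fact.out
  have : NeZero q := ⟨hq.ne_zero⟩
  have hN := lrl_N_ne_zero N q hqN
  have huv := lrl_uv N q hqN
  induction x using OnePoint.rec with
  | infty =>
    refine ⟨lrl_g0 N ((q : ℤ) * lrl_u N q hqN) (lrl_v N q hqN) (N : ℤ) 1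
      (by linear_combination huv) dvd_rfl, ?_⟩
    show cohMatInf q * cohMat (lrl_gInf N q hqN) = _ * cohMatFin q 0
    rw [lrl_cohMat_gInf, lrl_cohMat_g0, lrl_cohMatFin_zero, cohMatInf, Matrix.mul_fin_two,
      Matrix.mul_fin_two]
    refine lrl_mat_eq ?_ ?_ ?_ ?_ <;> ring
  | coe j =>
    by_cases hj : j = 0
    · refine ⟨1, ?_⟩
      have hy : lrl_y N q (j : OnePoint (ZMod q)) = OnePoint.infty := by simp [lrl_y, hj]
      rw [hy, cohMat_one, Matrix.one_mul, cohMatT_infty, lrl_g_coe, lrl_cohMat_gFin, hj,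
        ZMod.val_zero, cohMatInf, Matrix.mul_fin_two]
      refine lrl_mat_eq ?_ ?_ ?_ ?_ <;> simp
    · set k : ZMod q := ((N : ZMod q) * j)⁻¹ with hk
      have hy : lrl_y N q (j : OnePoint (ZMod q)) = (k : OnePoint (ZMod q)) := by
        simp [lrl_y, hj, hk]
      have hdvd : (q : ℤ) ∣ 1 - (N : ℤ) * (j.val : ℤ) * (k.val : ℤ) := by
        rw [← ZMod.intCast_zmod_eq_zero_iff_dvd]
        push_cast
        rw [ZMod.natCast_zmod_val, ZMod.natCast_zmod_val, hk,
          mul_inv_cancel₀ (mul_ne_zero hN hj), sub_self]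
      obtain ⟨m, hm⟩ := hdvd
      refine ⟨lrl_g0 N (q : ℤ) (-(k.val : ℤ)) ((N : ℤ) * (j.val : ℤ)) m
        (by linear_combination -hm) (Dvd.intro _ rfl), ?_⟩
      rw [hy, cohMatT_coe, lrl_g_coe, lrl_cohMat_gFin, lrl_cohMat_g0, cohMatInf, cohMatFin,
        Matrix.mul_fin_two, Matrix.mul_fin_two]
      refine lrl_mat_eq ?_ ?_ ?_ ?_
      · ring
      · ring
      · ring
      · linear_combination hm

/-- `cores ∘ resEta = T_q` -/
theorem lrl_cores_resEta (ψ : Additive (Gamma0 N) →+ B) :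
    (lrl_cores N q hqN).op ((lrl_resEta N q).op ψ) = cohT N q hqN ψ := by
  have h := lrc_comp_eq (lrl_resEta N q) (lrl_cores N q hqN) (lrc_ofDatum (cohDatumT N q hqN))
    (fun p => lrl_y N q p.2)
    ⟨fun p p' h => Prod.ext rfl ((lrl_y_involutive N q hqN).injective h),
      fun y => ⟨((), lrl_y N q y), lrl_y_involutive N q hqN y⟩⟩
    (fun p => (lrl_exists_delta N q hqN p.2).choose)
    (fun p => (lrl_exists_delta N q hqN p.2).choose_spec)
    ψ
  rw [h, lrc_ofDatum_op]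
  rfl

end comp

end Fermat.Agent.S41x
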