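/-
S41 project, block B0: bridge between `S16x.CohDatum` (helper95's one-group Hecke data, used by
`cohOpGen` and by the Hecke-equivariance of the Eichler–Shimura map) and the two-group
correspondences of `CorrBasic`/`CorrMatrix`.  (helper54)

* `corr_ofCohDatum D : corr_MatFamily Γ Γ I` (same matrices);
* `corr_ofCohDatum_op : (corr_ofCohDatum D).datum.op = D.op`;
* `corr_cohOpGen_eq` : `cohOpGen N ℓ` is the operator of the family `heckeReps N ℓ`.
-/
import Fermat.Agent.S41x.CorrMatrix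
import Fermat.Agent.S16x.CohHecke

set_option autoImplicit false

namespace Fermat.Agent.S41x

open scoped MatrixGroups
open Fermat.Agent.S16x

theorem corr_mat_eq_cohMat {Γ : Subgroup SL(2, ℤ)} (γ : Γ) : corr_mat γ = cohMat γ := rfl

/-- a `CohDatum` as a two-group matrix family -/
def corr_ofCohDatum {Γ : Subgroup SL(2, ℤ)} {I : Type} (D : CohDatum Γ I) :
    corr_MatFamily Γ Γ I where
  A := D.A
  det_ne := D.det_ne
  rel := D.rel
  distinct := D.distinct

@[simp] theorem corr_ofCohDatum_A {Γ : Subgroup SL(2, ℤ)} {I : Type} (D : CohDatum Γ I) :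
    (corr_ofCohDatum D).A = D.A := rfl

theorem corr_ofCohDatum_op {Γ : Subgroup SL(2, ℤ)} {I : Type} [Fintype I] (D : CohDatum Γ I)
    {B : Type*} [AddCommGroup B] (ψ : Additive Γ →+ B) :
    (corr_ofCohDatum D).datum.op ψ = D.op ψ := by
  refine AddMonoidHom.ext fun g => ?_
  obtain ⟨g, rfl⟩ := Additive.ofMul.surjective g
  rw [CohDatum.op_apply]
  exact (corr_ofCohDatum D).op_apply_of ψ (τ := D.idx g) (h := D.elt g) (fun i => D.elt_spec g i)

/-- `cohOpGen N ℓ` (`T_ℓ` / `U_ℓ` on `Hom(Γ₀(N), B)`) as the operator of a matrix family -/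
theorem corr_cohOpGen_eq (N : ℕ) [NeZero N] (ℓ : Nat.Primes) {B : Type*} [AddCommGroup B]
    (ψ : Additive (CongruenceSubgroup.Gamma0 N) →+ B) :
    (corr_ofCohDatum (cohDatumGen N ℓ)).datum.op ψ = cohOpGen N ℓ ψ :=
  corr_ofCohDatum_op (cohDatumGen N ℓ) ψ

end Fermat.Agent.S41x
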