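/-
S41 project (level raising), block B (COH-LEVEL), module B0 (helper27):
Hecke CORRESPONDENCES between two subgroups `Γ' , Γ ≤ SL(2,ℤ)` acting on `Hom(-, B)` (first
cohomology with trivial coefficients).  Two-group generalisation of helper95's `S16x.CohDatum`.

A correspondence `D : lrc_Corr Γ' Γ I` is a finite family of integer matrices `A i` (nonzero
determinant) such that the cosets `Γ' A i` are pairwise distinct and permuted by right
multiplication by `Γ`.  It induces `D.op : Hom(Γ', B) →+ Hom(Γ, B)`,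
`(D.op ψ)(γ) = ∑ i, ψ (γ'_i)` where `γ'_i * A (σ i) = A i * γ`, `γ'_i ∈ Γ'`.

* restriction      `Γ ≤ Γ'`, `I = Unit`, `A = 1`;
* twisted restriction `A = η` with `η Γ η⁻¹ ≤ Γ'`;
* corestriction (transfer) `Γ' ≤ Γ`, `A i` = right coset representatives of `Γ'` in `Γ`;
* Hecke operators (`Γ' = Γ`, `S16x.CohDatum`).

Main results:
* `lrc_Corr.op_apply_of`     : computation lemma (any relation family computes `op`);
* `lrc_Corr.comp_apply`      : formula for the composite of two correspondences;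
* `lrc_Corr.comp_eq_sum_of_factor` : if the products `A i * B j = δ_{ij} * E (x (i,j))` with
  `δ_{ij} ∈ Γ''`, the composite is `γ ↦ ∑_{(i,j)} ψ (E.elt γ (x (i,j)))` (the `δ`-terms
  telescope);
* `lrc_Corr.comp_eq_smul`    : constant multiplicity `m` ⇒ composite `= m • E.op`;
* `lrc_Corr.comp_eq`         : `x` bijective ⇒ composite `= E.op`.
-/
import Fermat.Agent.S16x.CohDatum

set_option autoImplicit false

namespace Fermat.Agent.S41x

open scoped MatrixGroups
open Fermat.Agent.S16x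

/-- Data for a Hecke correspondence `Hom(Γ', B) → Hom(Γ, B)`. -/
structure lrc_Corr (Γ' Γ : Subgroup SL(2, ℤ)) (I : Type) where
  /-- the coset representatives -/
  A : I → Matrix (Fin 2) (Fin 2) ℤ
  det_ne : ∀ i, (A i).det ≠ 0
  rel : ∀ (γ : Γ) (i : I), ∃ (i' : I) (γ' : Γ'), cohMat γ' * A i' = A i * cohMat γ
  distinct : ∀ (i i' : I) (γ' : Γ'), cohMat γ' * A i' = A i → i = i'

namespace lrc_Corr

variable {Γ' Γ : Subgroup SL(2, ℤ)} {I : Type} (D : lrc_Corr Γ' Γ I)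

/-- uniqueness of the pair `(i', γ')` in `rel` -/
theorem unique_rel {γ : Γ} {i i₁ i₂ : I} {γ₁ γ₂ : Γ'}
    (h₁ : cohMat γ₁ * D.A i₁ = D.A i * cohMat γ) (h₂ : cohMat γ₂ * D.A i₂ = D.A i * cohMat γ) :
    i₁ = i₂ ∧ γ₁ = γ₂ := by
  have h : cohMat (γ₂⁻¹ * γ₁) * D.A i₁ = D.A i₂ := by
    rw [cohMat_mul, Matrix.mul_assoc, h₁, ← h₂, ← Matrix.mul_assoc, cohMat_inv_mul, Matrix.one_mul]
  have hi : i₂ = i₁ := D.distinct i₂ i₁ _ h
  subst hi
  refine ⟨rfl, ?_⟩
  apply cohMat_injective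
  exact coh_mul_right_cancel (D.det_ne i₂) (h₁.trans h₂.symm)

/-- the index `σ_γ(i)` -/
noncomputable def idx (γ : Γ) (i : I) : I := (D.rel γ i).choose

/-- the element `γ'_i ∈ Γ'` -/
noncomputable def elt (γ : Γ) (i : I) : Γ' := (D.rel γ i).choose_spec.choose

theorem elt_spec (γ : Γ) (i : I) :
    cohMat (D.elt γ i) * D.A (D.idx γ i) = D.A i * cohMat γ :=
  (D.rel γ i).choose_spec.choose_spec

theorem idx_eq_of {γ : Γ} {i i' : I} {γ' : Γ'} (h : cohMat γ' * D.A i' = D.A i * cohMat γ) :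
    D.idx γ i = i' :=
  (D.unique_rel (D.elt_spec γ i) h).1

theorem elt_eq_of {γ : Γ} {i i' : I} {γ' : Γ'} (h : cohMat γ' * D.A i' = D.A i * cohMat γ) :
    D.elt γ i = γ' :=
  (D.unique_rel (D.elt_spec γ i) h).2

theorem idx_mul (γ δ : Γ) (i : I) : D.idx (γ * δ) i = D.idx δ (D.idx γ i) := by
  apply D.idx_eq_of (γ' := D.elt γ i * D.elt δ (D.idx γ i))
  rw [cohMat_mul, Matrix.mul_assoc, D.elt_spec, ← Matrix.mul_assoc, D.elt_spec, Matrix.mul_assoc,
    ← cohMat_mul]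

theorem elt_mul (γ δ : Γ) (i : I) :
    D.elt (γ * δ) i = D.elt γ i * D.elt δ (D.idx γ i) := by
  apply D.elt_eq_of (i' := D.idx δ (D.idx γ i))
  rw [cohMat_mul, Matrix.mul_assoc, D.elt_spec, ← Matrix.mul_assoc, D.elt_spec, Matrix.mul_assoc,
    ← cohMat_mul]

@[simp] theorem idx_one (i : I) : D.idx 1 i = i := by
  apply D.idx_eq_of (γ' := 1)
  simp

@[simp] theorem elt_one (i : I) : D.elt 1 i = 1 := by
  apply D.elt_eq_of (i' := i)
  simp

/-- `σ_γ` as a permutation of `I` -/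
noncomputable def perm (γ : Γ) : Equiv.Perm I where
  toFun := D.idx γ
  invFun := D.idx γ⁻¹
  left_inv i := by rw [← D.idx_mul, mul_inv_cancel, D.idx_one]
  right_inv i := by rw [← D.idx_mul, inv_mul_cancel, D.idx_one]

@[simp] theorem perm_apply (γ : Γ) (i : I) : D.perm γ i = D.idx γ i := rfl

variable [Fintype I] {B : Type*} [AddCommGroup B]

/-- the operator `Hom(Γ', B) → Hom(Γ, B)` of the correspondence -/
noncomputable def op : (Additive Γ' →+ B) →+ (Additive Γ →+ B) where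
  toFun ψ := AddMonoidHom.mk' (fun γ => ∑ i, ψ (Additive.ofMul (D.elt (Additive.toMul γ) i)))
    (by
      intro γ δ
      simp only [toMul_add, D.elt_mul, ofMul_mul, map_add, Finset.sum_add_distrib]
      congr 1
      exact Equiv.sum_comp (D.perm (Additive.toMul γ))
        (fun i => ψ (Additive.ofMul (D.elt (Additive.toMul δ) i))))
  map_zero' := by
    refine AddMonoidHom.ext fun γ => ?_
    simp
  map_add' ψ φ := by
    refine AddMonoidHom.ext fun γ => ?_
    simp [Finset.sum_add_distrib]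

theorem op_apply (ψ : Additive Γ' →+ B) (γ : Γ) :
    D.op ψ (Additive.ofMul γ) = ∑ i, ψ (Additive.ofMul (D.elt γ i)) := rfl

/-- COMPUTATION LEMMA: the operator can be computed with any relation family. -/
theorem op_apply_of (ψ : Additive Γ' →+ B) {γ : Γ} {τ : I → I} {h : I → Γ'}
    (hrel : ∀ i, cohMat (h i) * D.A (τ i) = D.A i * cohMat γ) :
    D.op ψ (Additive.ofMul γ) = ∑ i, ψ (Additive.ofMul (h i)) := by
  rw [op_apply]
  refine Finset.sum_congr rfl fun i _ => ?_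
  rw [D.elt_eq_of (hrel i)]

/-- functoriality in the coefficient group -/
theorem op_comp_coeff {B' : Type*} [AddCommGroup B'] (φ : B →+ B') (ψ : Additive Γ' →+ B) :
    D.op (φ.comp ψ) = φ.comp (D.op ψ) := by
  refine AddMonoidHom.ext fun γ => ?_
  obtain ⟨γ, rfl⟩ := Additive.ofMul.surjective γ
  simp [op_apply]

theorem op_smul {R : Type*} [Semiring R] [Module R B] (c : R) (ψ : Additive Γ' →+ B) :
    D.op (c • ψ) = c • D.op ψ := by
  refine AddMonoidHom.ext fun γ => ?_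
  obtain ⟨γ, rfl⟩ := Additive.ofMul.surjective γ
  simp [op_apply, Finset.smul_sum]

/-- the operator as an `R`-linear map -/
noncomputable def opLin (R : Type*) [Semiring R] [Module R B] :
    (Additive Γ' →+ B) →ₗ[R] (Additive Γ →+ B) where
  toFun := D.op
  map_add' := map_add _
  map_smul' c ψ := D.op_smul c ψ

@[simp] theorem opLin_apply (R : Type*) [Semiring R] [Module R B] (ψ : Additive Γ' →+ B) :
    D.opLin R ψ = D.op ψ := rfl

end lrc_Corr

/-! ## composition of correspondences -/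

section comp

variable {Γ'' Γ' Γ : Subgroup SL(2, ℤ)} {I J X : Type}
  (D₁ : lrc_Corr Γ'' Γ' I) (D₂ : lrc_Corr Γ' Γ J)

/-- the element of `Γ''` attached to `γ ∈ Γ` and the pair `(i, j)` in the composite -/
noncomputable def lrc_compElt (γ : Γ) (p : I × J) : Γ'' := D₁.elt (D₂.elt γ p.2) p.1

/-- the permutation of pairs attached to `γ ∈ Γ` in the composite -/
noncomputable def lrc_compIdx (γ : Γ) (p : I × J) : I × J :=
  (D₁.idx (D₂.elt γ p.2) p.1, D₂.idx γ p.2)

theorem lrc_compElt_spec (γ : Γ) (p : I × J) :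
    cohMat (lrc_compElt D₁ D₂ γ p) *
        (D₁.A (lrc_compIdx D₁ D₂ γ p).1 * D₂.A (lrc_compIdx D₁ D₂ γ p).2) =
      D₁.A p.1 * D₂.A p.2 * cohMat γ := by
  unfold lrc_compElt lrc_compIdx
  rw [← Matrix.mul_assoc, D₁.elt_spec, Matrix.mul_assoc, D₂.elt_spec, Matrix.mul_assoc]

theorem lrc_compIdx_injective (γ : Γ) : Function.Injective (lrc_compIdx D₁ D₂ γ) := by
  rintro ⟨i, j⟩ ⟨i', j'⟩ h
  simp only [lrc_compIdx, Prod.mk.injEq] at h
  obtain ⟨h1, h2⟩ := h
  have hj : j = j' := (D₂.perm γ).injective h2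
  subst hj
  have hi : i = i' := (D₁.perm (D₂.elt γ j)).injective h1
  subst hi
  rfl

variable [Fintype I] [Fintype J] {B : Type*} [AddCommGroup B]

theorem lrc_compIdx_bijective (γ : Γ) : Function.Bijective (lrc_compIdx D₁ D₂ γ) :=
  (Finite.injective_iff_bijective).mp (lrc_compIdx_injective D₁ D₂ γ)

/-- formula for the composite of two correspondences -/
theorem lrc_comp_apply (ψ : Additive Γ'' →+ B) (γ : Γ) :
    D₂.op (D₁.op ψ) (Additive.ofMul γ) =
      ∑ p : I × J, ψ (Additive.ofMul (lrc_compElt D₁ D₂ γ p)) := by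
  rw [lrc_Corr.op_apply, Fintype.sum_prod_type_right]
  refine Finset.sum_congr rfl fun j _ => ?_
  rw [lrc_Corr.op_apply]
  rfl

/-- FACTORISATION LEMMA: if every product `A i * B j` is `δ_{ij} * E (x (i,j))` with
`δ_{ij} ∈ Γ''`, the composite is computed by `E` (with multiplicities given by the fibres of
`x`): the `δ`-terms telescope. -/
theorem lrc_comp_eq_sum_of_factor (E : lrc_Corr Γ'' Γ X) (x : I × J → X) (δ : I × J → Γ'')
    (hfac : ∀ p : I × J, D₁.A p.1 * D₂.A p.2 = cohMat (δ p) * E.A (x p))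
    (ψ : Additive Γ'' →+ B) (γ : Γ) :
    D₂.op (D₁.op ψ) (Additive.ofMul γ) = ∑ p : I × J, ψ (Additive.ofMul (E.elt γ (x p))) := by
  rw [lrc_comp_apply]
  have key : ∀ p : I × J, lrc_compElt D₁ D₂ γ p =
      δ p * E.elt γ (x p) * (δ (lrc_compIdx D₁ D₂ γ p))⁻¹ := by
    intro p
    have h1 := lrc_compElt_spec D₁ D₂ γ p
    rw [hfac p, hfac (lrc_compIdx D₁ D₂ γ p)] at h1
    have h2 : cohMat ((δ p)⁻¹ * lrc_compElt D₁ D₂ γ p * δ (lrc_compIdx D₁ D₂ γ p)) *
        E.A (x (lrc_compIdx D₁ D₂ γ p)) = E.A (x p) * cohMat γ := by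
      rw [cohMat_mul, cohMat_mul, Matrix.mul_assoc, Matrix.mul_assoc, h1,
        ← Matrix.mul_assoc, ← Matrix.mul_assoc, cohMat_inv_mul, Matrix.one_mul]
    have h3 := E.elt_eq_of h2
    rw [h3]
    group
  have hsum : ∑ p : I × J, ψ (Additive.ofMul (δ (lrc_compIdx D₁ D₂ γ p))) =
      ∑ p : I × J, ψ (Additive.ofMul (δ p)) :=
    Function.Bijective.sum_comp (lrc_compIdx_bijective D₁ D₂ γ)
      (fun p => ψ (Additive.ofMul (δ p)))
  calc ∑ p : I × J, ψ (Additive.ofMul (lrc_compElt D₁ D₂ γ p))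
      = ∑ p : I × J, (ψ (Additive.ofMul (δ p)) + ψ (Additive.ofMul (E.elt γ (x p))) -
          ψ (Additive.ofMul (δ (lrc_compIdx D₁ D₂ γ p)))) := by
        refine Finset.sum_congr rfl fun p _ => ?_
        rw [key p, ofMul_mul, ofMul_mul, ofMul_inv, map_add, map_add, map_neg]
        abel
    _ = ∑ p : I × J, ψ (Additive.ofMul (E.elt γ (x p))) := by
        rw [Finset.sum_sub_distrib, Finset.sum_add_distrib, hsum]
        abel

variable [Fintype X]

/-- constant multiplicity `m`: the composite is `m • E.op`. -/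
theorem lrc_comp_eq_smul [DecidableEq X] (E : lrc_Corr Γ'' Γ X) (x : I × J → X)
    (δ : I × J → Γ'')
    (hfac : ∀ p : I × J, D₁.A p.1 * D₂.A p.2 = cohMat (δ p) * E.A (x p))
    (m : ℕ) (hm : ∀ x₀ : X, (Finset.univ.filter fun p : I × J => x p = x₀).card = m)
    (ψ : Additive Γ'' →+ B) :
    D₂.op (D₁.op ψ) = m • E.op ψ := by
  refine AddMonoidHom.ext fun γ => ?_
  obtain ⟨γ, rfl⟩ := Additive.ofMul.surjective γ
  rw [lrc_comp_eq_sum_of_factor D₁ D₂ E x δ hfac, AddMonoidHom.smul_apply, lrc_Corr.op_apply,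
    Finset.smul_sum, ← Finset.sum_fiberwise (s := Finset.univ) (g := x)]
  refine Finset.sum_congr rfl fun x₀ _ => ?_
  rw [Finset.sum_congr rfl (g := fun _ => ψ (Additive.ofMul (E.elt γ x₀)))
    (fun p hp => by rw [(Finset.mem_filter.mp hp).2]), Finset.sum_const, hm x₀]

/-- bijective index map: the composite is `E.op`. -/
theorem lrc_comp_eq (E : lrc_Corr Γ'' Γ X) (x : I × J → X) (hx : Function.Bijective x)
    (δ : I × J → Γ'')
    (hfac : ∀ p : I × J, D₁.A p.1 * D₂.A p.2 = cohMat (δ p) * E.A (x p))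
    (ψ : Additive Γ'' →+ B) :
    D₂.op (D₁.op ψ) = E.op ψ := by
  refine AddMonoidHom.ext fun γ => ?_
  obtain ⟨γ, rfl⟩ := Additive.ofMul.surjective γ
  rw [lrc_comp_eq_sum_of_factor D₁ D₂ E x δ hfac, lrc_Corr.op_apply]
  exact Function.Bijective.sum_comp hx (fun x₀ => ψ (Additive.ofMul (E.elt γ x₀)))

end comp

/-! ## basic correspondences -/

section basic

variable {Γ' Γ : Subgroup SL(2, ℤ)}

/-- a Hecke datum of `S16x` is a correspondence from `Γ` to itself -/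
def lrc_ofDatum {I : Type} (D : CohDatum Γ I) : lrc_Corr Γ Γ I where
  A := D.A
  det_ne := D.det_ne
  rel := D.rel
  distinct := D.distinct

theorem lrc_ofDatum_op {I : Type} [Fintype I] {B : Type*} [AddCommGroup B] (D : CohDatum Γ I)
    (ψ : Additive Γ →+ B) : (lrc_ofDatum D).op ψ = D.op ψ := by
  refine AddMonoidHom.ext fun γ => ?_
  obtain ⟨γ, rfl⟩ := Additive.ofMul.surjective γ
  rw [CohDatum.op_apply]
  exact (lrc_ofDatum D).op_apply_of ψ (τ := D.idx γ) (h := D.elt γ) (fun i => D.elt_spec γ i)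

/-- CONJUGATED RESTRICTION: for an integer matrix `η` (nonzero determinant) such that every
`γ ∈ Γ` satisfies `η γ = γ' η` with `γ' ∈ Γ'` (i.e. `η Γ η⁻¹ ≤ Γ'`), the one-coset
correspondence `ψ ↦ (γ ↦ ψ (η γ η⁻¹))`. -/
def lrc_conj (η : Matrix (Fin 2) (Fin 2) ℤ) (hη : η.det ≠ 0)
    (hconj : ∀ γ : Γ, ∃ γ' : Γ', cohMat γ' * η = η * cohMat γ) : lrc_Corr Γ' Γ Unit where
  A := fun _ => η
  det_ne := fun _ => hη
  rel := fun γ _ => ⟨(), hconj γ⟩
  distinct := fun _ _ _ _ => rfl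

theorem lrc_conj_op_apply {B : Type*} [AddCommGroup B] (η : Matrix (Fin 2) (Fin 2) ℤ)
    (hη : η.det ≠ 0) (hconj : ∀ γ : Γ, ∃ γ' : Γ', cohMat γ' * η = η * cohMat γ)
    (ψ : Additive Γ' →+ B) {γ : Γ} {γ' : Γ'} (h : cohMat γ' * η = η * cohMat γ) :
    (lrc_conj η hη hconj).op ψ (Additive.ofMul γ) = ψ (Additive.ofMul γ') := by
  rw [(lrc_conj η hη hconj).op_apply_of ψ (τ := id) (h := fun _ => γ') (fun _ => h)]
  simp

/-- RESTRICTION along `Γ ≤ Γ'` -/
def lrc_res (hle : Γ ≤ Γ') : lrc_Corr Γ' Γ Unit :=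
  lrc_conj 1 (by simp) (fun γ => ⟨⟨γ.1, hle γ.2⟩, by simp [cohMat]⟩)

theorem lrc_res_op_apply {B : Type*} [AddCommGroup B] (hle : Γ ≤ Γ') (ψ : Additive Γ' →+ B)
    (γ : Γ) :
    (lrc_res hle).op ψ (Additive.ofMul γ) = ψ (Additive.ofMul (⟨γ.1, hle γ.2⟩ : Γ')) :=
  lrc_conj_op_apply 1 _ _ ψ (by simp [cohMat])

/-- SUM of two correspondences with disjoint coset families -/
def lrc_sum {X Y : Type} (E₁ : lrc_Corr Γ' Γ X) (E₂ : lrc_Corr Γ' Γ Y)
    (hdisj : ∀ (x : X) (y : Y) (γ' : Γ'), cohMat γ' * E₂.A y ≠ E₁.A x) :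
    lrc_Corr Γ' Γ (X ⊕ Y) where
  A := Sum.elim E₁.A E₂.A
  det_ne := by
    rintro (x | y)
    · exact E₁.det_ne x
    · exact E₂.det_ne y
  rel := by
    rintro γ (x | y)
    · obtain ⟨x', γ', h⟩ := E₁.rel γ x
      exact ⟨Sum.inl x', γ', h⟩
    · obtain ⟨y', γ', h⟩ := E₂.rel γ y
      exact ⟨Sum.inr y', γ', h⟩
  distinct := by
    rintro (x | y) (x' | y') γ' h
    · rw [E₁.distinct x x' γ' h]
    · exact (hdisj x y' γ' h).elim
    · exfalso
      refine hdisj x' y γ'⁻¹ ?_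
      simp only [Sum.elim_inl, Sum.elim_inr] at h
      rw [← h, ← Matrix.mul_assoc, cohMat_inv_mul, Matrix.one_mul]
    · rw [E₂.distinct y y' γ' h]

theorem lrc_sum_op {X Y : Type} [Fintype X] [Fintype Y] {B : Type*} [AddCommGroup B]
    (E₁ : lrc_Corr Γ' Γ X) (E₂ : lrc_Corr Γ' Γ Y)
    (hdisj : ∀ (x : X) (y : Y) (γ' : Γ'), cohMat γ' * E₂.A y ≠ E₁.A x)
    (ψ : Additive Γ' →+ B) :
    (lrc_sum E₁ E₂ hdisj).op ψ = E₁.op ψ + E₂.op ψ := by
  refine AddMonoidHom.ext fun γ => ?_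
  obtain ⟨γ, rfl⟩ := Additive.ofMul.surjective γ
  rw [(lrc_sum E₁ E₂ hdisj).op_apply_of ψ
    (τ := Sum.elim (fun x => Sum.inl (E₁.idx γ x)) (fun y => Sum.inr (E₂.idx γ y)))
    (h := Sum.elim (E₁.elt γ) (E₂.elt γ))
    (by
      rintro (x | y)
      · exact E₁.elt_spec γ x
      · exact E₂.elt_spec γ y),
    Fintype.sum_sum_type, AddMonoidHom.add_apply, lrc_Corr.op_apply, lrc_Corr.op_apply]
  rfl

end basic

end Fermat.Agent.S41x
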