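/-
S41 project (level raising), block B0 (abstract layer, matrix form): correspondences between two
subgroups `Γ₁ Γ₂ ≤ SL(2,ℤ)` built from a finite family of integer matrices `A i` (nonzero
determinant) with `Γ₁ A i` permuted by right multiplication by `Γ₂`.  (helper54)

* `corr_mat γ` : the integer matrix of `γ : Γ`;
* `corr_Compat D A` : `mat (D.elt g i) * A (D.perm g i) = A i * mat g` (NO distinctness required);
* `corr_MatFamily Γ₁ Γ₂ I` (`A`, `det_ne`, `rel`, `distinct`) and its datum `corr_MatFamily.datum`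
  (compatible with `A`; two-group version of `S16x.CohDatum`), with the computation lemma
  `corr_MatFamily.op_apply_of`;
* `corr_Compat.comp` : the composite is compatible with the PRODUCT family `A i * B j`;
* `corr_Compat.op_eq_of_cosets` : COMPARISON in matrix form (same left cosets up to scalars, any
  order, any representatives; the target family has distinct cosets);
* `corr_Compat.op_eq_card_smul` : all matrices of the form `m • mat (s i)` ⇒ `op = card I • id`.
-/
import Fermat.Agent.S41x.CorrBasic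

set_option autoImplicit false

namespace Fermat.Agent.S41x

open scoped MatrixGroups

/-- the integer matrix of an element of a subgroup of `SL(2,ℤ)` -/
def corr_mat {Γ : Subgroup SL(2, ℤ)} (γ : Γ) : Matrix (Fin 2) (Fin 2) ℤ :=
  ((γ : SL(2, ℤ)) : Matrix (Fin 2) (Fin 2) ℤ)

section mat

variable {Γ : Subgroup SL(2, ℤ)}

@[simp] theorem corr_mat_one : corr_mat (1 : Γ) = 1 := by
  simp [corr_mat]

@[simp] theorem corr_mat_mul (γ δ : Γ) : corr_mat (γ * δ) = corr_mat γ * corr_mat δ := by
  simp [corr_mat]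

theorem corr_mat_inv_mul (γ : Γ) : corr_mat γ⁻¹ * corr_mat γ = 1 := by
  rw [← corr_mat_mul, inv_mul_cancel, corr_mat_one]

theorem corr_mat_mul_inv (γ : Γ) : corr_mat γ * corr_mat γ⁻¹ = 1 := by
  rw [← corr_mat_mul, mul_inv_cancel, corr_mat_one]

theorem corr_mat_det (γ : Γ) : (corr_mat γ).det = 1 := (γ : SL(2, ℤ)).2

theorem corr_mat_injective : Function.Injective (corr_mat : Γ → Matrix (Fin 2) (Fin 2) ℤ) := by
  intro γ δ h
  apply Subtype.ext
  apply Subtype.ext
  exact h

/-- right cancellation of an integer matrix with nonzero determinant -/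
theorem corr_mul_right_cancel {M M' A : Matrix (Fin 2) (Fin 2) ℤ} (hA : A.det ≠ 0)
    (h : M * A = M' * A) : M = M' := by
  have h2 : M * A * A.adjugate = M' * A * A.adjugate := by rw [h]
  rw [Matrix.mul_assoc, Matrix.mul_assoc, Matrix.mul_adjugate] at h2
  ext i j
  have h3 := congrFun (congrFun h2 i) j
  simp only [Matrix.mul_smul, Matrix.mul_one, Matrix.smul_apply, smul_eq_mul] at h3
  exact mul_left_cancel₀ hA h3

/-- cancellation of a nonzero integer scalar -/
theorem corr_smul_cancel {M M' : Matrix (Fin 2) (Fin 2) ℤ} {m : ℤ} (hm : m ≠ 0)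
    (h : m • M = m • M') : M = M' := by
  ext i j
  have h3 := congrFun (congrFun h i) j
  simp only [Matrix.smul_apply, smul_eq_mul] at h3
  exact mul_left_cancel₀ hm h3

end mat

/-- A correspondence is COMPATIBLE with a family of integer matrices. -/
def corr_Compat {Γ₁ Γ₂ : Subgroup SL(2, ℤ)} {I : Type*} (D : corr_Datum Γ₁ Γ₂ I)
    (A : I → Matrix (Fin 2) (Fin 2) ℤ) : Prop :=
  ∀ (g : Γ₂) (i : I), corr_mat (D.elt g i) * A (D.perm g i) = A i * corr_mat g

/-- A family of integer matrices whose left `Γ₁`-cosets are distinct and permuted by `Γ₂`. -/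
structure corr_MatFamily (Γ₁ Γ₂ : Subgroup SL(2, ℤ)) (I : Type*) where
  /-- the coset representatives -/
  A : I → Matrix (Fin 2) (Fin 2) ℤ
  det_ne : ∀ i, (A i).det ≠ 0
  rel : ∀ (g : Γ₂) (i : I), ∃ (i' : I) (g' : Γ₁), corr_mat g' * A i' = A i * corr_mat g
  distinct : ∀ (i i' : I) (g' : Γ₁), corr_mat g' * A i' = A i → i = i'

namespace corr_MatFamily

variable {Γ₁ Γ₂ : Subgroup SL(2, ℤ)} {I : Type*} (F : corr_MatFamily Γ₁ Γ₂ I)

/-- uniqueness of the pair `(i', g')` in `rel` -/
theorem unique_rel {g : Γ₂} {i i₁ i₂ : I} {g₁ g₂ : Γ₁}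
    (h₁ : corr_mat g₁ * F.A i₁ = F.A i * corr_mat g)
    (h₂ : corr_mat g₂ * F.A i₂ = F.A i * corr_mat g) : i₁ = i₂ ∧ g₁ = g₂ := by
  have h : corr_mat (g₂⁻¹ * g₁) * F.A i₁ = F.A i₂ := by
    rw [corr_mat_mul, Matrix.mul_assoc, h₁, ← h₂, ← Matrix.mul_assoc, corr_mat_inv_mul,
      Matrix.one_mul]
  have hi : i₂ = i₁ := F.distinct i₂ i₁ _ h
  subst hi
  refine ⟨rfl, ?_⟩
  apply corr_mat_injective
  exact corr_mul_right_cancel (F.det_ne i₂) (h₁.trans h₂.symm)

/-- the index `σ_g(i)` -/
noncomputable def idx (g : Γ₂) (i : I) : I := (F.rel g i).choose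

/-- the element `g'_i ∈ Γ₁` -/
noncomputable def elt (g : Γ₂) (i : I) : Γ₁ := (F.rel g i).choose_spec.choose

theorem elt_spec (g : Γ₂) (i : I) :
    corr_mat (F.elt g i) * F.A (F.idx g i) = F.A i * corr_mat g :=
  (F.rel g i).choose_spec.choose_spec

theorem idx_eq_of {g : Γ₂} {i i' : I} {g' : Γ₁} (h : corr_mat g' * F.A i' = F.A i * corr_mat g) :
    F.idx g i = i' :=
  (F.unique_rel (F.elt_spec g i) h).1

theorem elt_eq_of {g : Γ₂} {i i' : I} {g' : Γ₁} (h : corr_mat g' * F.A i' = F.A i * corr_mat g) :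
    F.elt g i = g' :=
  (F.unique_rel (F.elt_spec g i) h).2

theorem idx_mul (g h : Γ₂) (i : I) : F.idx (g * h) i = F.idx h (F.idx g i) := by
  apply F.idx_eq_of (g' := F.elt g i * F.elt h (F.idx g i))
  rw [corr_mat_mul, Matrix.mul_assoc, F.elt_spec, ← Matrix.mul_assoc, F.elt_spec, Matrix.mul_assoc,
    ← corr_mat_mul]

theorem elt_mul (g h : Γ₂) (i : I) :
    F.elt (g * h) i = F.elt g i * F.elt h (F.idx g i) := by
  apply F.elt_eq_of (i' := F.idx h (F.idx g i))
  rw [corr_mat_mul, Matrix.mul_assoc, F.elt_spec, ← Matrix.mul_assoc, F.elt_spec, Matrix.mul_assoc,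
    ← corr_mat_mul]

@[simp] theorem idx_one (i : I) : F.idx 1 i = i := by
  apply F.idx_eq_of (g' := 1)
  simp

/-- the correspondence of a matrix family -/
noncomputable def datum : corr_Datum Γ₁ Γ₂ I where
  perm g :=
    { toFun := F.idx g
      invFun := F.idx g⁻¹
      left_inv := fun i => by rw [← F.idx_mul, mul_inv_cancel, F.idx_one]
      right_inv := fun i => by rw [← F.idx_mul, inv_mul_cancel, F.idx_one] }
  elt := F.elt
  perm_mul g h i := F.idx_mul g h i
  elt_mul g h i := F.elt_mul g h i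

@[simp] theorem datum_elt (g : Γ₂) (i : I) : F.datum.elt g i = F.elt g i := rfl

@[simp] theorem datum_perm (g : Γ₂) (i : I) : F.datum.perm g i = F.idx g i := rfl

theorem datum_compat : corr_Compat F.datum F.A := fun g i => F.elt_spec g i

/-- a correspondence compatible with a family with distinct cosets is determined by it -/
theorem eq_of_compat {D : corr_Datum Γ₁ Γ₂ I} (hD : corr_Compat D F.A) (g : Γ₂) (i : I) :
    D.perm g i = F.idx g i ∧ D.elt g i = F.elt g i := by
  have h := F.unique_rel (hD g i) (F.elt_spec g i)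
  exact h

variable [Fintype I] {B : Type*} [AddCommGroup B]

/-- COMPUTATION LEMMA: the operator can be computed with any relation family. -/
theorem op_apply_of (ψ : Additive Γ₁ →+ B) {g : Γ₂} {τ : I → I} {h : I → Γ₁}
    (hrel : ∀ i, corr_mat (h i) * F.A (τ i) = F.A i * corr_mat g) :
    F.datum.op ψ (Additive.ofMul g) = ∑ i, ψ (Additive.ofMul (h i)) := by
  rw [corr_Datum.op_apply]
  refine Finset.sum_congr rfl fun i _ => ?_
  rw [datum_elt, F.elt_eq_of (hrel i)]

end corr_MatFamily

namespace corr_Compat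

/-- the composite is compatible with the product family -/
theorem comp {Γ₁ Γ₂ Γ₃ : Subgroup SL(2, ℤ)} {I J : Type*} {D : corr_Datum Γ₁ Γ₂ I}
    {D' : corr_Datum Γ₂ Γ₃ J} {A : I → Matrix (Fin 2) (Fin 2) ℤ}
    {A' : J → Matrix (Fin 2) (Fin 2) ℤ} (hD : corr_Compat D A) (hD' : corr_Compat D' A') :
    corr_Compat (corr_Datum.comp D D') (fun x : I × J => A x.1 * A' x.2) := by
  intro g x
  simp only [corr_Datum.comp_elt, corr_Datum.comp_perm]
  rw [← Matrix.mul_assoc, hD (D'.elt g x.2) x.1, Matrix.mul_assoc, hD' g x.2, Matrix.mul_assoc]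

/-- compatibility is stable under scaling the whole family by an integer -/
theorem smul {Γ₁ Γ₂ : Subgroup SL(2, ℤ)} {I : Type*} {D : corr_Datum Γ₁ Γ₂ I}
    {A : I → Matrix (Fin 2) (Fin 2) ℤ} (hD : corr_Compat D A) (m : ℤ) :
    corr_Compat D (fun i => m • A i) := by
  intro g i
  simp only [Matrix.mul_smul, Matrix.smul_mul, hD g i]

/-- COMPARISON LEMMA, matrix form: if the family `A` (index `I`, datum `D`) and the family `F'.A`
(index `J`, DISTINCT cosets) represent the same left `Γ₁`-cosets up to nonzero integer scalars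
`m • F'.A (e i) = m' • (mat (c i) * A i)`, then the two operators agree. -/
theorem op_eq_of_cosets {Γ₁ Γ₂ : Subgroup SL(2, ℤ)} {I J : Type*} [Fintype I] [Fintype J]
    {D : corr_Datum Γ₁ Γ₂ I} {A : I → Matrix (Fin 2) (Fin 2) ℤ} (hD : corr_Compat D A)
    (F' : corr_MatFamily Γ₁ Γ₂ J) (e : I ≃ J) (c : I → Γ₁) {m m' : ℤ} (hm : m ≠ 0)
    (hA : ∀ i, m • F'.A (e i) = m' • (corr_mat (c i) * A i))
    {B : Type*} [AddCommGroup B] :
    (F'.datum.op : (Additive Γ₁ →+ B) →+ (Additive Γ₂ →+ B)) = D.op := by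
  apply corr_Datum.op_eq_of_conj D F'.datum e c
  intro g i
  rw [corr_MatFamily.datum_elt]
  apply F'.elt_eq_of (i' := e (D.perm g i))
  apply corr_smul_cancel hm
  have hX : corr_mat (c i * D.elt g i * (c (D.perm g i))⁻¹) * corr_mat (c (D.perm g i)) =
      corr_mat (c i) * corr_mat (D.elt g i) := by
    rw [← corr_mat_mul, ← corr_mat_mul, inv_mul_cancel_right]
  calc m • (corr_mat (c i * D.elt g i * (c (D.perm g i))⁻¹) * F'.A (e (D.perm g i)))
      = corr_mat (c i * D.elt g i * (c (D.perm g i))⁻¹) * (m • F'.A (e (D.perm g i))) := by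
        rw [Matrix.mul_smul]
    _ = m' • (corr_mat (c i * D.elt g i * (c (D.perm g i))⁻¹) * corr_mat (c (D.perm g i)) *
          A (D.perm g i)) := by
        rw [hA, Matrix.mul_smul, Matrix.mul_assoc]
    _ = m' • (corr_mat (c i) * (A i * corr_mat g)) := by
        rw [hX, Matrix.mul_assoc, hD g i]
    _ = (m' • (corr_mat (c i) * A i)) * corr_mat g := by
        rw [Matrix.smul_mul, Matrix.mul_assoc]
    _ = m • (F'.A (e i) * corr_mat g) := by
        rw [← hA, Matrix.smul_mul]

/-- if all matrices of the family are integer multiples of elements of `Γ` (all left cosets equal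
to `Γ` up to a scalar) the operator is multiplication by the number of indices. -/
theorem op_eq_card_smul {Γ : Subgroup SL(2, ℤ)} {I : Type*} [Fintype I]
    {D : corr_Datum Γ Γ I} {A : I → Matrix (Fin 2) (Fin 2) ℤ} (hD : corr_Compat D A)
    (s : I → Γ) {m : ℤ} (hm : m ≠ 0) (hA : ∀ i, A i = m • corr_mat (s i))
    {B : Type*} [AddCommGroup B] (ψ : Additive Γ →+ B) : D.op ψ = Fintype.card I • ψ := by
  apply corr_Datum.op_eq_card_smul D s
  intro g i
  apply corr_mat_injective
  have h := hD g i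
  rw [hA, hA, Matrix.mul_smul, Matrix.smul_mul] at h
  have h2 := corr_smul_cancel hm h
  rw [corr_mat_mul, corr_mat_mul, ← h2, Matrix.mul_assoc, corr_mat_mul_inv, Matrix.mul_one]

end corr_Compat

end Fermat.Agent.S41x
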