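/-
S41 project, block B0: PARABOLIC STABILITY of correspondence operators.  (helper54)

If a correspondence `D : Γ₁ → Γ₂` is compatible with a family of integer matrices of nonzero
determinant, then `D.op` maps parabolic homomorphisms (Prelude's
`ModularCurve.Period.IsParabolicHom`: `ψ γ = 0` whenever `(tr γ)² = 4`) to parabolic homomorphisms.
Hence restriction, conjugated restriction, transfer, `T_ℓ`, `U_ℓ`, `W_q` and all their composites
preserve `parabolicHoms`.

Proof: decompose the index set into the cycles of `σ_g`; along a cycle of length `k` the sum of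
`ψ (elt g ·)` is `ψ (elt (g^k) i)`, and `elt (g^k) i = A i * g^k * (A i)⁻¹` has the trace of `g^k`.
-/
import Fermat.Agent.S41x.CorrMatrix
import Fermat.Prelude.Def_ModularCurve_PeriodMap

set_option autoImplicit false

namespace Fermat.Agent.S41x

open scoped MatrixGroups

/-- a sum over a finite type vanishes if it vanishes along every cycle of a permutation -/
theorem corr_sum_eq_zero_of_cycles {I : Type*} [Fintype I] {B : Type*} [AddCommMonoid B]
    (σ : Equiv.Perm I) (f : I → B)
    (h : ∀ i k, 0 < k → (σ ^ k) i = i → ∑ t ∈ Finset.range k, f ((σ ^ t) i) = 0) :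
    ∑ i, f i = 0 := by
  classical
  apply Finset.sum_cancels_of_partition_cancels (Equiv.Perm.SameCycle.setoid σ)
  intro x _
  have hper : x ∈ Function.periodicPts σ := by
    refine Function.mk_mem_periodicPts (orderOf_pos σ) ?_
    show σ^[orderOf σ] x = x
    rw [Equiv.Perm.iterate_eq_pow, pow_orderOf_eq_one]
    rfl
  have hk0 : 0 < Function.minimalPeriod σ x := Function.minimalPeriod_pos_of_mem_periodicPts hper
  have hkx : (σ ^ Function.minimalPeriod σ x) x = x := by
    have h1 := Function.isPeriodicPt_minimalPeriod σ x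
    rw [Function.IsPeriodicPt, Function.IsFixedPt, Equiv.Perm.iterate_eq_pow] at h1
    exact h1
  have himg : (Finset.univ.filter fun a => (Equiv.Perm.SameCycle.setoid σ) a x) =
      (Finset.range (Function.minimalPeriod σ x)).image (fun t => (σ ^ t) x) := by
    ext a
    simp only [Finset.mem_filter, Finset.mem_univ, true_and, Finset.mem_image, Finset.mem_range]
    constructor
    · intro ha
      have ha' : Equiv.Perm.SameCycle σ x a := Equiv.Perm.SameCycle.symm ha
      obtain ⟨n, hn⟩ := ha'.exists_nat_pow_eq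
      refine ⟨n % Function.minimalPeriod σ x, Nat.mod_lt _ hk0, ?_⟩
      rw [← hn, ← Equiv.Perm.iterate_eq_pow, ← Equiv.Perm.iterate_eq_pow]
      exact Function.iterate_mod_minimalPeriod_eq
    · rintro ⟨t, _, rfl⟩
      exact Equiv.Perm.SameCycle.symm ⟨(t : ℤ), by simp⟩
  rw [himg, Finset.sum_image]
  · exact h x _ hk0 hkx
  · intro s hs t ht hst
    simp only [Finset.coe_range, Set.mem_Iio] at hs ht
    have h2 : (σ : I → I)^[s] x = (σ : I → I)^[t] x := by
      rw [Equiv.Perm.iterate_eq_pow, Equiv.Perm.iterate_eq_pow]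
      exact hst
    exact Function.iterate_injOn_Iio_minimalPeriod hs ht h2

/-- the value of a homomorphism on `elt (g^k) i` is the sum along the `σ_g`-path of length `k` -/
theorem corr_Datum.map_elt_pow {G₁ G₂ : Type*} [Group G₁] [Group G₂] {I : Type*}
    (D : corr_Datum G₁ G₂ I) {B : Type*} [AddCommGroup B] (ψ : Additive G₁ →+ B) (g : G₂) (i : I)
    (k : ℕ) :
    ψ (Additive.ofMul (D.elt (g ^ k) i)) =
      ∑ t ∈ Finset.range k, ψ (Additive.ofMul (D.elt g ((D.perm g ^ t) i))) := by
  induction k with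
  | zero => simp
  | succ k ih =>
    rw [pow_succ, D.elt_mul, ofMul_mul, map_add, ih, Finset.sum_range_succ, D.perm_pow]

/-- trace is invariant under `X * A = A * Y` with `det A ≠ 0` -/
theorem corr_trace_eq_of_mul_eq {X Y A : Matrix (Fin 2) (Fin 2) ℤ} (hA : A.det ≠ 0)
    (h : X * A = A * Y) : X.trace = Y.trace := by
  have h1 : (X * A * A.adjugate).trace = (A * Y * A.adjugate).trace := by rw [h]
  rw [Matrix.mul_assoc, Matrix.mul_adjugate, Matrix.trace_mul_cycle, Matrix.adjugate_mul] at h1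
  simp only [Matrix.mul_smul, Matrix.smul_mul, Matrix.mul_one, Matrix.one_mul, Matrix.trace_smul,
    smul_eq_mul] at h1
  exact mul_left_cancel₀ hA h1

/-- Cayley–Hamilton for `2 × 2` integer matrices of determinant one -/
theorem corr_sq_eq {Y : Matrix (Fin 2) (Fin 2) ℤ} (hdet : Y.det = 1) :
    Y * Y = Y.trace • Y - 1 := by
  rw [Matrix.det_fin_two] at hdet
  have hY : Y = !![Y 0 0, Y 0 1; Y 1 0, Y 1 1] := Matrix.eta_fin_two Y
  rw [hY]
  simp only [Matrix.mul_fin_two, Matrix.trace_fin_two_of, Matrix.smul_of, Matrix.smul_cons,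
    Matrix.smul_empty, smul_eq_mul, Matrix.one_fin_two, Matrix.of_sub_of, Matrix.sub_cons,
    Matrix.head_cons, Matrix.tail_cons, Matrix.empty_sub_empty]
  congr 1
  ext i j
  fin_cases i <;> fin_cases j <;> simp <;> linarith

/-- powers of a determinant-one matrix with `tr² = 4` have `tr² = 4` -/
theorem corr_trace_pow_sq {Y : Matrix (Fin 2) (Fin 2) ℤ} (hdet : Y.det = 1)
    (htr : Y.trace ^ 2 = 4) (k : ℕ) : (Y ^ k).trace ^ 2 = 4 := by
  have hsq := corr_sq_eq hdet
  -- two-step recursion `t_{k+2} = t * t_{k+1} - t_k`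
  have hrec : ∀ k : ℕ, (Y ^ (k + 2)).trace = Y.trace * (Y ^ (k + 1)).trace - (Y ^ k).trace := by
    intro k
    have : Y ^ (k + 2) = Y.trace • Y ^ (k + 1) - Y ^ k := by
      rw [pow_add, pow_two, hsq, Matrix.mul_sub, Matrix.mul_smul, Matrix.mul_one, ← pow_succ]
    rw [this, Matrix.trace_sub, Matrix.trace_smul, smul_eq_mul]
  obtain ⟨ε, hε, hε2⟩ : ∃ ε : ℤ, Y.trace = 2 * ε ∧ ε ^ 2 = 1 := by
    have h4 : (Y.trace - 2) * (Y.trace + 2) = 0 := by ring_nf; linarith
    rcases mul_eq_zero.mp h4 with h | h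
    · exact ⟨1, by linarith, by norm_num⟩
    · exact ⟨-1, by linarith, by norm_num⟩
  have key : ∀ k : ℕ, (Y ^ k).trace = 2 * ε ^ k ∧ (Y ^ (k + 1)).trace = 2 * ε ^ (k + 1) := by
    intro k
    induction k with
    | zero =>
      refine ⟨by simp, by simpa using hε⟩
    | succ k ih =>
      obtain ⟨h0, h1⟩ := ih
      refine ⟨h1, ?_⟩
      rw [hrec k, h0, h1, hε]
      have : ε ^ (k + 1 + 1) = ε ^ k * ε ^ 2 := by ring
      rw [this, hε2]
      have h2 : ε ^ (k + 1) = ε ^ k * ε := by ring
      rw [h2]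
      have h3 : ε * ε = 1 := by rw [← pow_two]; exact hε2
      linear_combination (4 * ε ^ k) * h3
  rw [(key k).1]
  have : (2 * ε ^ k) ^ 2 = 4 * (ε ^ 2) ^ k := by ring
  rw [this, hε2, one_pow, mul_one]

theorem corr_mat_pow {Γ : Subgroup SL(2, ℤ)} (g : Γ) (k : ℕ) : corr_mat (g ^ k) = corr_mat g ^ k := by
  simp [corr_mat]

/-- PARABOLIC STABILITY: the operator of a correspondence compatible with a family of integer
matrices of nonzero determinant preserves parabolic homomorphisms. -/
theorem corr_Compat.isParabolicHom_op {Γ₁ Γ₂ : Subgroup SL(2, ℤ)} {I : Type*} [Fintype I]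
    {D : corr_Datum Γ₁ Γ₂ I} {A : I → Matrix (Fin 2) (Fin 2) ℤ} (hD : corr_Compat D A)
    (hA : ∀ i, (A i).det ≠ 0) {B : Type*} [AddCommGroup B] {ψ : Additive Γ₁ →+ B}
    (hψ : ModularCurve.Period.IsParabolicHom Γ₁ ψ) :
    ModularCurve.Period.IsParabolicHom Γ₂ (D.op ψ) := by
  intro g hg
  rw [corr_Datum.op_apply]
  apply corr_sum_eq_zero_of_cycles (D.perm g)
  intro i k _ hki
  rw [← D.map_elt_pow ψ g i k]
  apply hψ
  have h1 := hD (g ^ k) i
  have h3 : D.perm (g ^ k) i = i := by rw [D.perm_pow, hki]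
  rw [h3] at h1
  have h2 := corr_trace_eq_of_mul_eq (hA i) h1
  show (corr_mat (D.elt (g ^ k) i)).trace ^ 2 = 4
  rw [h2, corr_mat_pow]
  exact corr_trace_pow_sq (corr_mat_det g) hg k

/-- the operator of a matrix family preserves parabolic homomorphisms -/
theorem corr_MatFamily.isParabolicHom_op {Γ₁ Γ₂ : Subgroup SL(2, ℤ)} {I : Type*} [Fintype I]
    (F : corr_MatFamily Γ₁ Γ₂ I) {B : Type*} [AddCommGroup B] {ψ : Additive Γ₁ →+ B}
    (hψ : ModularCurve.Period.IsParabolicHom Γ₁ ψ) :
    ModularCurve.Period.IsParabolicHom Γ₂ (F.datum.op ψ) :=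
  F.datum_compat.isParabolicHom_op F.det_ne hψ

end Fermat.Agent.S41x
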