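/-
S41 project, block B0: comparison of correspondences, general form, and the bridge to helper27's
`lrc_Corr` (S41x/CohCorr.lean).  (helper54)

* `corr_Compat.toFamily` : a datum compatible with a family with distinct cosets IS the datum of
  that family (`toFamily_op`);
* `corr_Compat.op_eq_of_cosets'` : COMPARISON for two arbitrary compatible data (e.g. two
  composites), the target family having distinct cosets;
* `corr_Compat.op_eq_of_same` : two data compatible with the same distinct family have the same op;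
* `corr_ofLrc D : corr_MatFamily Γ' Γ I` and `corr_ofLrc_op : (corr_ofLrc D).datum.op = D.op`;
* `lrc_Corr.isParabolicHom_op` : every `lrc_Corr` operator preserves parabolic homomorphisms;
* `corr_lrc_comp_op` : `D₂.op (D₁.op ψ)` is the operator of the composite datum, which is compatible
  with the product family `D₁.A i * D₂.A j`.
-/
import Fermat.Agent.S41x.CorrParabolic
import Fermat.Agent.S41x.CohCorr

set_option autoImplicit false

namespace Fermat.Agent.S41x

open scoped MatrixGroups
open Fermat.Agent.S16x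

namespace corr_Compat

variable {Γ₁ Γ₂ : Subgroup SL(2, ℤ)} {J : Type*} {D' : corr_Datum Γ₁ Γ₂ J}
  {A' : J → Matrix (Fin 2) (Fin 2) ℤ}

/-- a compatible family with distinct cosets, as a `corr_MatFamily` -/
def toFamily (hD' : corr_Compat D' A') (hdet : ∀ j, (A' j).det ≠ 0)
    (hdist : ∀ (j j' : J) (γ : Γ₁), corr_mat γ * A' j' = A' j → j = j') :
    corr_MatFamily Γ₁ Γ₂ J where
  A := A'
  det_ne := hdet
  rel := fun g j => ⟨D'.perm g j, D'.elt g j, hD' g j⟩
  distinct := hdist

theorem toFamily_elt (hD' : corr_Compat D' A') (hdet : ∀ j, (A' j).det ≠ 0)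
    (hdist : ∀ (j j' : J) (γ : Γ₁), corr_mat γ * A' j' = A' j → j = j') (g : Γ₂) (j : J) :
    (hD'.toFamily hdet hdist).elt g j = D'.elt g j :=
  (hD'.toFamily hdet hdist).elt_eq_of (hD' g j)

theorem toFamily_op [Fintype J] (hD' : corr_Compat D' A') (hdet : ∀ j, (A' j).det ≠ 0)
    (hdist : ∀ (j j' : J) (γ : Γ₁), corr_mat γ * A' j' = A' j → j = j')
    {B : Type*} [AddCommGroup B] :
    ((hD'.toFamily hdet hdist).datum.op : (Additive Γ₁ →+ B) →+ (Additive Γ₂ →+ B)) = D'.op := by
  refine AddMonoidHom.ext fun ψ => AddMonoidHom.ext fun g => ?_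
  obtain ⟨g, rfl⟩ := Additive.ofMul.surjective g
  rw [corr_Datum.op_apply, corr_Datum.op_apply]
  refine Finset.sum_congr rfl fun j _ => ?_
  rw [corr_MatFamily.datum_elt, toFamily_elt]

/-- COMPARISON LEMMA, general form: `D` compatible with `A` (index `I`), `D'` compatible with `A'`
(index `J`, nonzero determinants, DISTINCT left cosets), and
`m • A' (e i) = m' • (mat (c i) * A i)`; then `D'.op = D.op`. -/
theorem op_eq_of_cosets' {I : Type*} [Fintype I] [Fintype J] {D : corr_Datum Γ₁ Γ₂ I}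
    {A : I → Matrix (Fin 2) (Fin 2) ℤ} (hD : corr_Compat D A) (hD' : corr_Compat D' A')
    (hdet : ∀ j, (A' j).det ≠ 0)
    (hdist : ∀ (j j' : J) (γ : Γ₁), corr_mat γ * A' j' = A' j → j = j')
    (e : I ≃ J) (c : I → Γ₁) {m m' : ℤ} (hm : m ≠ 0)
    (hA : ∀ i, m • A' (e i) = m' • (corr_mat (c i) * A i))
    {B : Type*} [AddCommGroup B] :
    (D'.op : (Additive Γ₁ →+ B) →+ (Additive Γ₂ →+ B)) = D.op := by
  rw [← toFamily_op hD' hdet hdist]
  exact op_eq_of_cosets hD (hD'.toFamily hdet hdist) e c hm hA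

/-- two data compatible with the same family with distinct cosets have the same operator -/
theorem op_eq_of_same [Fintype J] {D : corr_Datum Γ₁ Γ₂ J} (hD : corr_Compat D A')
    (hD' : corr_Compat D' A') (hdet : ∀ j, (A' j).det ≠ 0)
    (hdist : ∀ (j j' : J) (γ : Γ₁), corr_mat γ * A' j' = A' j → j = j')
    {B : Type*} [AddCommGroup B] :
    (D'.op : (Additive Γ₁ →+ B) →+ (Additive Γ₂ →+ B)) = D.op := by
  apply op_eq_of_cosets' hD hD' hdet hdist (Equiv.refl J) (fun _ => 1) (m := 1) (m' := 1)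
    one_ne_zero
  intro i
  simp

end corr_Compat

section lrc

variable {Γ' Γ : Subgroup SL(2, ℤ)} {I : Type}

/-- helper27's `lrc_Corr` as a `corr_MatFamily` (same fields) -/
def corr_ofLrc (D : lrc_Corr Γ' Γ I) : corr_MatFamily Γ' Γ I where
  A := D.A
  det_ne := D.det_ne
  rel := D.rel
  distinct := D.distinct

@[simp] theorem corr_ofLrc_A (D : lrc_Corr Γ' Γ I) : (corr_ofLrc D).A = D.A := rfl

theorem corr_ofLrc_elt (D : lrc_Corr Γ' Γ I) (g : Γ) (i : I) :
    (corr_ofLrc D).elt g i = D.elt g i :=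
  (corr_ofLrc D).elt_eq_of (D.elt_spec g i)

theorem corr_ofLrc_op [Fintype I] (D : lrc_Corr Γ' Γ I) {B : Type*} [AddCommGroup B]
    (ψ : Additive Γ' →+ B) : (corr_ofLrc D).datum.op ψ = D.op ψ := by
  refine AddMonoidHom.ext fun g => ?_
  obtain ⟨g, rfl⟩ := Additive.ofMul.surjective g
  rw [lrc_Corr.op_apply, corr_Datum.op_apply]
  refine Finset.sum_congr rfl fun i _ => ?_
  rw [corr_MatFamily.datum_elt, corr_ofLrc_elt]

/-- every `lrc_Corr` operator (restriction, twisted restriction, transfer, Hecke operators)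
preserves parabolic homomorphisms -/
theorem lrc_Corr.isParabolicHom_op [Fintype I] (D : lrc_Corr Γ' Γ I) {B : Type*} [AddCommGroup B]
    {ψ : Additive Γ' →+ B} (hψ : ModularCurve.Period.IsParabolicHom Γ' ψ) :
    ModularCurve.Period.IsParabolicHom Γ (D.op ψ) := by
  rw [← corr_ofLrc_op]
  exact (corr_ofLrc D).isParabolicHom_op hψ

/-- the composite of two `lrc_Corr` operators is the operator of the composite datum, which is
compatible with the product family -/
theorem corr_lrc_comp_op {Γ'' : Subgroup SL(2, ℤ)} {J : Type} [Fintype I] [Fintype J]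
    (D₁ : lrc_Corr Γ'' Γ' I) (D₂ : lrc_Corr Γ' Γ J) {B : Type*} [AddCommGroup B]
    (ψ : Additive Γ'' →+ B) :
    D₂.op (D₁.op ψ) =
      (corr_Datum.comp (corr_ofLrc D₁).datum (corr_ofLrc D₂).datum).op ψ := by
  rw [corr_Datum.op_comp, corr_ofLrc_op, corr_ofLrc_op]

theorem corr_lrc_comp_compat {Γ'' : Subgroup SL(2, ℤ)} {J : Type}
    (D₁ : lrc_Corr Γ'' Γ' I) (D₂ : lrc_Corr Γ' Γ J) :
    corr_Compat (corr_Datum.comp (corr_ofLrc D₁).datum (corr_ofLrc D₂).datum)
      (fun x : I × J => D₁.A x.1 * D₂.A x.2) :=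
  (corr_ofLrc D₁).datum_compat.comp (corr_ofLrc D₂).datum_compat

end lrc

end Fermat.Agent.S41x
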