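/-
S41 project, block B (COH-LEVEL): COMMUTATION of the Hecke operators `T_ℓ` (`ℓ ∤ N M`) with
restriction-type correspondences between `Γ₀(N)` and `Γ₀(M)`.  (helper54)

* `corr_cohOpGen_eq_cohT` : `cohOpGen N ℓ = cohT N ℓ` for `ℓ ∤ N`;
* `corr_comm_res` : a one-coset correspondence with matrix `1` (restriction) commutes with `T_ℓ`;
* `corr_comm_resEta` : a one-coset correspondence with matrix `diag(q,1)` (twisted restriction)
  commutes with `T_ℓ` (`ℓ ∤ q`).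
All statements are for ARBITRARY `lrc_Corr` data with the given matrices, so they apply to
helper27's `lrl_res`, `lrl_resEta` (S41x/CohLevel.lean).
-/
import Fermat.Agent.S41x.CorrCompare
import Fermat.Agent.S41x.CorrCoh

set_option autoImplicit false

namespace Fermat.Agent.S41x

open scoped MatrixGroups
open CongruenceSubgroup
open Fermat.Agent.S16x

section prelim

variable (N : ℕ) (ℓ : ℕ) [Fact ℓ.Prime]

/-- the `T_ℓ` datum on `Γ₀(N)` as a correspondence -/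
noncomputable def corr_TDatum (hℓN : ¬ ℓ ∣ N) :
    corr_Datum (Gamma0 N) (Gamma0 N) (OnePoint (ZMod ℓ)) :=
  (corr_ofCohDatum (cohDatumT N ℓ hℓN)).datum

theorem corr_TDatum_compat (hℓN : ¬ ℓ ∣ N) : corr_Compat (corr_TDatum N ℓ hℓN) (cohMatT ℓ) :=
  (corr_ofCohDatum (cohDatumT N ℓ hℓN)).datum_compat

theorem corr_TDatum_op (hℓN : ¬ ℓ ∣ N) {B : Type*} [AddCommGroup B]
    (ψ : Additive (Gamma0 N) →+ B) : (corr_TDatum N ℓ hℓN).op ψ = cohT N ℓ hℓN ψ :=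
  corr_ofCohDatum_op (cohDatumT N ℓ hℓN) ψ

theorem corr_cohMatT_det_ne (x : OnePoint (ZMod ℓ)) : (cohMatT ℓ x).det ≠ 0 := by
  rw [cohMatT_det]
  exact_mod_cast (Fact.out : ℓ.Prime).ne_zero

theorem corr_cohMatT_distinct (hℓN : ¬ ℓ ∣ N) (x x' : OnePoint (ZMod ℓ)) (γ : Gamma0 N)
    (h : corr_mat γ * cohMatT ℓ x' = cohMatT ℓ x) : x = x' :=
  (cohDatumT N ℓ hℓN).distinct x x' γ h

theorem corr_cohMatT_injective : Function.Injective (cohMatT ℓ) := by
  intro x x' h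
  have h1 : ¬ ℓ ∣ 1 := (Fact.out : ℓ.Prime).one_lt.ne' ∘ Nat.dvd_one.mp
  refine corr_cohMatT_distinct 1 ℓ h1 x x' 1 ?_
  rw [corr_mat_one, Matrix.one_mul, h]

end prelim

/-- `cohOpGen N ℓ = cohT N ℓ` for `ℓ ∤ N` -/
theorem corr_cohOpGen_eq_cohT (N : ℕ) [NeZero N] (ℓ : Nat.Primes) [Fact (ℓ : ℕ).Prime]
    (hℓN : ¬ (ℓ : ℕ) ∣ N) {B : Type*} [AddCommGroup B] (ψ : Additive (Gamma0 N) →+ B) :
    cohOpGen N ℓ ψ = cohT N (ℓ : ℕ) hℓN ψ := by
  have : NeZero (ℓ : ℕ) := ⟨ℓ.2.ne_zero⟩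
  rw [← corr_cohOpGen_eq, ← corr_TDatum_op]
  have hbij : Function.Bijective (fun x : OnePoint (ZMod (ℓ : ℕ)) =>
      (⟨cohMatT (ℓ : ℕ) x, cohMatT_mem_heckeReps hℓN x⟩ : ↥(heckeReps N (ℓ : ℕ)))) := by
    constructor
    · intro x x' h
      exact corr_cohMatT_injective (ℓ : ℕ) (congrArg Subtype.val h)
    · rintro ⟨A, hA⟩
      obtain ⟨x, rfl⟩ := coh_mem_heckeReps_T hℓN hA
      exact ⟨x, rfl⟩
  have h := corr_Compat.op_eq_of_cosets (corr_TDatum_compat N (ℓ : ℕ) hℓN)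
    (corr_ofCohDatum (cohDatumGen N ℓ)) (Equiv.ofBijective _ hbij) (fun _ => 1)
    (m := 1) (m' := 1) one_ne_zero (B := B) (by
      intro x
      simp)
  exact congrFun (congrArg DFunLike.coe h) ψ

section res

variable {N M : ℕ} (ℓ : ℕ) [Fact ℓ.Prime] (hℓN : ¬ ℓ ∣ N) (hℓM : ¬ ℓ ∣ M)

/-- RESTRICTION commutes with `T_ℓ`: for any one-coset correspondence `R : Γ₀(N) → Γ₀(M)` with
matrix `1`. -/
theorem corr_comm_res (R : lrc_Corr (Gamma0 N) (Gamma0 M) Unit) (hR : R.A () = 1)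
    {B : Type*} [AddCommGroup B] (ψ : Additive (Gamma0 N) →+ B) :
    R.op (cohT N ℓ hℓN ψ) = cohT M ℓ hℓM (R.op ψ) := by
  rw [← corr_TDatum_op, ← corr_TDatum_op, ← corr_ofLrc_op, ← corr_ofLrc_op,
    ← corr_Datum.op_comp, ← corr_Datum.op_comp]
  have hD : corr_Compat (corr_Datum.comp (corr_TDatum N ℓ hℓN) (corr_ofLrc R).datum)
      (fun x : OnePoint (ZMod ℓ) × Unit => cohMatT ℓ x.1 * R.A x.2) :=
    (corr_TDatum_compat N ℓ hℓN).comp (corr_ofLrc R).datum_compat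
  have hD' : corr_Compat (corr_Datum.comp (corr_ofLrc R).datum (corr_TDatum M ℓ hℓM))
      (fun x : Unit × OnePoint (ZMod ℓ) => R.A x.1 * cohMatT ℓ x.2) :=
    (corr_ofLrc R).datum_compat.comp (corr_TDatum_compat M ℓ hℓM)
  have h := corr_Compat.op_eq_of_cosets' hD hD'
    (by
      rintro ⟨⟨⟩, x⟩
      simp only [hR, Matrix.one_mul]
      exact corr_cohMatT_det_ne ℓ x)
    (by
      rintro ⟨⟨⟩, x⟩ ⟨⟨⟩, x'⟩ γ h
      simp only [hR, Matrix.one_mul] at h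
      rw [corr_cohMatT_distinct N ℓ hℓN x x' γ h])
    (Equiv.prodComm _ _) (fun _ => 1) (m := 1) (m' := 1) one_ne_zero (B := B)
    (by
      rintro ⟨x, ⟨⟩⟩
      simp [hR])
  exact (congrFun (congrArg DFunLike.coe h) ψ).symm

end res

section resEta

/-- the upper unipotent `[[1,t],[0,1]]` as an element of `Γ₀(N)` -/
def corr_upper (N : ℕ) (t : ℤ) : Gamma0 N :=
  ⟨ModularGroup.T ^ t, by
    apply coh_mem_Gamma0_of_dvd
    rw [ModularGroup.coe_T_zpow]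
    simp⟩

theorem corr_mat_upper (N : ℕ) (t : ℤ) : corr_mat (corr_upper N t) = !![1, t; 0, 1] := by
  simp [corr_mat, corr_upper, ModularGroup.coe_T_zpow]

/-- multiplication by a unit of `ZMod ℓ` on `P¹(𝔽_ℓ)`, fixing `∞` -/
noncomputable def corr_mulEquiv (ℓ : ℕ) [Fact ℓ.Prime] (u : ZMod ℓ) (hu : u ≠ 0) :
    OnePoint (ZMod ℓ) ≃ OnePoint (ZMod ℓ) where
  toFun x := x.elim OnePoint.infty (fun a => ((u * a : ZMod ℓ) : OnePoint (ZMod ℓ)))
  invFun x := x.elim OnePoint.infty (fun a => ((u⁻¹ * a : ZMod ℓ) : OnePoint (ZMod ℓ)))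
  left_inv x := by
    induction x using OnePoint.rec with
    | infty => rfl
    | coe a => simp [hu]
  right_inv x := by
    induction x using OnePoint.rec with
    | infty => rfl
    | coe a => simp [hu]

@[simp] theorem corr_mulEquiv_infty (ℓ : ℕ) [Fact ℓ.Prime] (u : ZMod ℓ) (hu : u ≠ 0) :
    corr_mulEquiv ℓ u hu OnePoint.infty = OnePoint.infty := rfl

@[simp] theorem corr_mulEquiv_coe (ℓ : ℕ) [Fact ℓ.Prime] (u : ZMod ℓ) (hu : u ≠ 0) (a : ZMod ℓ) :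
    corr_mulEquiv ℓ u hu (a : OnePoint (ZMod ℓ)) = ((u * a : ZMod ℓ) : OnePoint (ZMod ℓ)) := rfl

theorem corr_exists_val_mul (ℓ : ℕ) [NeZero ℓ] (q : ℕ) (a : ZMod ℓ) :
    ∃ t : ℤ, ((((q : ZMod ℓ) * a).val : ℕ) : ℤ) = (q : ℤ) * (a.val : ℤ) + t * (ℓ : ℤ) := by
  have h : (ℓ : ℤ) ∣ ((((q : ZMod ℓ) * a).val : ℕ) : ℤ) - (q : ℤ) * (a.val : ℤ) := by
    rw [← ZMod.intCast_zmod_eq_zero_iff_dvd]
    push_cast
    simp
  obtain ⟨t, ht⟩ := h
  exact ⟨t, by linarith [ht]⟩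

variable {N M : ℕ} (ℓ : ℕ) [Fact ℓ.Prime] (hℓN : ¬ ℓ ∣ N) (hℓM : ¬ ℓ ∣ M)

/-- TWISTED RESTRICTION commutes with `T_ℓ`: for any one-coset correspondence
`R : Γ₀(N) → Γ₀(M)` with matrix `diag(q,1)`, `ℓ ∤ q`. -/
theorem corr_comm_resEta (q : ℕ) (hℓq : ¬ ℓ ∣ q) (R : lrc_Corr (Gamma0 N) (Gamma0 M) Unit)
    (hR : R.A () = cohMatInf q)
    {B : Type*} [AddCommGroup B] (ψ : Additive (Gamma0 N) →+ B) :
    R.op (cohT N ℓ hℓN ψ) = cohT M ℓ hℓM (R.op ψ) := by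
  have : NeZero ℓ := ⟨(Fact.out : ℓ.Prime).ne_zero⟩
  have hq0 : (q : ZMod ℓ) ≠ 0 := by
    rw [Ne, ZMod.natCast_eq_zero_iff]
    exact hℓq
  have hqne : (q : ℤ) ≠ 0 := by
    intro h
    apply hℓq
    have : q = 0 := by exact_mod_cast h
    rw [this]
    exact dvd_zero ℓ
  have hηdet : (cohMatInf q).det ≠ 0 := by
    rw [cohMatInf_det]
    exact hqne
  rw [← corr_TDatum_op, ← corr_TDatum_op, ← corr_ofLrc_op, ← corr_ofLrc_op,
    ← corr_Datum.op_comp, ← corr_Datum.op_comp]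
  have hD' : corr_Compat (corr_Datum.comp (corr_TDatum N ℓ hℓN) (corr_ofLrc R).datum)
      (fun x : OnePoint (ZMod ℓ) × Unit => cohMatT ℓ x.1 * R.A x.2) :=
    (corr_TDatum_compat N ℓ hℓN).comp (corr_ofLrc R).datum_compat
  have hD : corr_Compat (corr_Datum.comp (corr_ofLrc R).datum (corr_TDatum M ℓ hℓM))
      (fun x : Unit × OnePoint (ZMod ℓ) => R.A x.1 * cohMatT ℓ x.2) :=
    (corr_ofLrc R).datum_compat.comp (corr_TDatum_compat M ℓ hℓM)
  -- the conjugating unipotents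
  choose t ht using fun a : ZMod ℓ => corr_exists_val_mul ℓ q a
  have h := corr_Compat.op_eq_of_cosets' hD hD'
    (by
      rintro ⟨x, ⟨⟩⟩
      simp only [hR, Matrix.det_mul]
      exact mul_ne_zero (corr_cohMatT_det_ne ℓ x) hηdet)
    (by
      rintro ⟨x, ⟨⟩⟩ ⟨x', ⟨⟩⟩ γ h
      simp only [hR, ← Matrix.mul_assoc] at h
      have h2 := corr_mul_right_cancel hηdet h
      rw [corr_cohMatT_distinct N ℓ hℓN x x' γ h2])
    ((Equiv.prodComm _ _).trans (Equiv.prodCongr (corr_mulEquiv ℓ (q : ZMod ℓ) hq0) (Equiv.refl _)))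
    (fun x => x.2.elim 1 (fun a => corr_upper N (t a))) (m := 1) (m' := 1) one_ne_zero (B := B)
    (by
      rintro ⟨⟨⟩, x⟩
      induction x using OnePoint.rec with
      | infty =>
        simp only [one_smul, Equiv.trans_apply, Equiv.prodComm_apply, Prod.swap_prod_mk,
          Equiv.prodCongr_apply, Equiv.coe_refl, Prod.map_apply, corr_mulEquiv_infty, id_eq, hR,
          cohMatT_infty, OnePoint.elim_infty, corr_mat_one, Matrix.one_mul]
        simp [cohMatInf]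
        ring
      | coe a =>
        simp only [one_smul, Equiv.trans_apply, Equiv.prodComm_apply, Prod.swap_prod_mk,
          Equiv.prodCongr_apply, Equiv.coe_refl, Prod.map_apply, corr_mulEquiv_coe, id_eq, hR,
          cohMatT_coe, OnePoint.elim_some, corr_mat_upper]
        simp only [cohMatInf, cohMatFin, Matrix.mul_fin_two, ht a]
        ext i j
        fin_cases i <;> fin_cases j <;> simp)
  exact congrFun (congrArg DFunLike.coe h) ψ

end resEta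

end Fermat.Agent.S41x
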