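/-
S41 (level raising), SHARED BASE DEFINITIONS for blocks B / C / D / E (helper20, architect).
Sorry-free; importable by every S41 module.

For `q ∣`-free conventions: `N q : ℕ`, the two groups are `Γ₀(N q) ⊆ Γ₀(N)`, `η = diag(q, 1)`.

* `lrIncl N q     : Γ₀(N q) →* Γ₀(N)` : the inclusion;
* `lrConjEta N q  : Γ₀(N q) →* Γ₀(N)` : `γ = [[a,b],[c,d]] ↦ η γ η⁻¹ = [[a, q b],[c / q, d]]`
  (characterised by `cohMat (lrConjEta γ) * η = η * cohMat γ`, see `lrConjEta_spec`);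
* `lrRes N q, lrResEta N q : Hom(Γ₀(N), B) →+ Hom(Γ₀(N q), B)` : precomposition with these
  (`(lrRes ψ)(γ) = ψ(γ)`, `(lrResEta ψ)(γ) = ψ(η γ η⁻¹)`), for every abelian group `B`;
* `lrT M ℓ := S16x.cohOpGen M ℓ` : the Hecke operator `T_ℓ` (`U_ℓ` if `ℓ ∣ M`) on `Hom(Γ₀(M), B)`;
* `lrL M := parabolicHoms ℤ Γ₀(M) ℤ` : the lattice `H¹_par(Γ₀(M), ℤ)`.
-/
import Fermat.Agent.S16x.CohHecke
import Fermat.Prelude.Def_ModularCurve_PeriodMap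

set_option autoImplicit false

namespace Fermat.Agent.S41x

open scoped MatrixGroups
open CongruenceSubgroup
open Fermat.Agent.S16x (cohMat cohMat_mul)

/-- `η = diag(q, 1)` -/
def lrEtaMat (q : ℕ) : Matrix (Fin 2) (Fin 2) ℤ := !![(q : ℤ), 0; 0, 1]

theorem lrEtaMat_det (q : ℕ) : (lrEtaMat q).det = q := by
  simp [lrEtaMat, Matrix.det_fin_two]

theorem lr_dvd_of_mem_Gamma0_mul {N q : ℕ} {A : SL(2, ℤ)} (hA : A ∈ Gamma0 (N * q)) :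
    ((N * q : ℕ) : ℤ) ∣ A 1 0 := by
  rw [Gamma0_mem] at hA
  exact (ZMod.intCast_zmod_eq_zero_iff_dvd _ _).mp hA

theorem lr_mem_Gamma0_of_mem_mul {N q : ℕ} {A : SL(2, ℤ)} (hA : A ∈ Gamma0 (N * q)) :
    A ∈ Gamma0 N := by
  have h := lr_dvd_of_mem_Gamma0_mul hA
  rw [Gamma0_mem]
  refine (ZMod.intCast_zmod_eq_zero_iff_dvd _ _).mpr ?_
  refine dvd_trans ?_ h
  push_cast
  exact Dvd.intro _ rfl

/-- the inclusion `Γ₀(N q) → Γ₀(N)` -/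
def lrIncl (N q : ℕ) : Gamma0 (N * q) →* Gamma0 N where
  toFun γ := ⟨γ.1, lr_mem_Gamma0_of_mem_mul γ.2⟩
  map_one' := rfl
  map_mul' _ _ := rfl

@[simp] theorem lrIncl_coe (N q : ℕ) (γ : Gamma0 (N * q)) :
    ((lrIncl N q γ : Gamma0 N) : SL(2, ℤ)) = (γ : SL(2, ℤ)) := rfl

theorem lr_q_dvd {N q : ℕ} (γ : Gamma0 (N * q)) : (q : ℤ) ∣ (γ : SL(2, ℤ)) 1 0 := by
  refine dvd_trans ?_ (lr_dvd_of_mem_Gamma0_mul γ.2)
  push_cast
  exact Dvd.intro_left _ rfl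

/-- the matrix `[[a, q b],[c / q, d]]` of `η γ η⁻¹` -/
def lrConjEtaSL (N q : ℕ) (γ : Gamma0 (N * q)) : SL(2, ℤ) :=
  ⟨!![(γ : SL(2, ℤ)) 0 0, (q : ℤ) * (γ : SL(2, ℤ)) 0 1;
      (γ : SL(2, ℤ)) 1 0 / (q : ℤ), (γ : SL(2, ℤ)) 1 1], by
    have h1 : ((γ : SL(2, ℤ)) : Matrix (Fin 2) (Fin 2) ℤ).det = 1 := (γ : SL(2, ℤ)).2
    rw [Matrix.det_fin_two] at h1
    rw [Matrix.det_fin_two_of]
    obtain ⟨c, hc⟩ := lr_q_dvd γ
    rcases Nat.eq_zero_or_pos q with hq | hq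
    · subst hq
      simp only [Nat.cast_zero, zero_mul] at hc
      have hc' : ((γ : SL(2, ℤ)) : Matrix (Fin 2) (Fin 2) ℤ) 1 0 = 0 := hc
      simp only [Nat.cast_zero, zero_mul, Int.ediv_zero, mul_zero, sub_zero]
      rw [hc'] at h1
      simpa using h1
    · have hq' : (q : ℤ) ≠ 0 := by exact_mod_cast hq.ne'
      have hc' : ((γ : SL(2, ℤ)) : Matrix (Fin 2) (Fin 2) ℤ) 1 0 = (q : ℤ) * c := hc
      have h2 : (γ : SL(2, ℤ)) 1 0 / (q : ℤ) = c := by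
        show ((γ : SL(2, ℤ)) : Matrix (Fin 2) (Fin 2) ℤ) 1 0 / (q : ℤ) = c
        rw [hc', Int.mul_ediv_cancel_left _ hq']
      rw [h2]
      rw [hc'] at h1
      linear_combination h1⟩

theorem lrConjEtaSL_spec (N q : ℕ) (γ : Gamma0 (N * q)) :
    ((lrConjEtaSL N q γ : SL(2, ℤ)) : Matrix (Fin 2) (Fin 2) ℤ) * lrEtaMat q =
      lrEtaMat q * ((γ : SL(2, ℤ)) : Matrix (Fin 2) (Fin 2) ℤ) := by
  obtain ⟨c, hc⟩ := lr_q_dvd γ
  have hc' : ((γ : SL(2, ℤ)) : Matrix (Fin 2) (Fin 2) ℤ) 1 0 = (q : ℤ) * c := hc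
  have h2 : ((γ : SL(2, ℤ)) : Matrix (Fin 2) (Fin 2) ℤ) 1 0 / (q : ℤ) * (q : ℤ)
      = ((γ : SL(2, ℤ)) : Matrix (Fin 2) (Fin 2) ℤ) 1 0 :=
    Int.ediv_mul_cancel (lr_q_dvd γ)
  ext i j
  fin_cases i <;> fin_cases j <;>
    simp [lrConjEtaSL, lrEtaMat, Matrix.mul_apply, Fin.sum_univ_two, h2, mul_comm]

theorem lrConjEtaSL_mem (N q : ℕ) [NeZero q] (γ : Gamma0 (N * q)) :
    lrConjEtaSL N q γ ∈ Gamma0 N := by
  rw [Gamma0_mem]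
  refine (ZMod.intCast_zmod_eq_zero_iff_dvd _ _).mpr ?_
  obtain ⟨c, hc⟩ := lr_dvd_of_mem_Gamma0_mul γ.2
  have hq' : (q : ℤ) ≠ 0 := by exact_mod_cast NeZero.ne q
  have h2 : (lrConjEtaSL N q γ : SL(2, ℤ)) 1 0 = (N : ℤ) * c := by
    show (γ : SL(2, ℤ)) 1 0 / (q : ℤ) = (N : ℤ) * c
    rw [hc]
    push_cast
    rw [mul_comm (N : ℤ) (q : ℤ), mul_assoc, Int.mul_ediv_cancel_left _ hq']
  rw [h2]
  exact Dvd.intro _ rfl

/-- uniqueness: an element of `SL(2,ℤ)` is determined by `A * η` (`q ≠ 0`) -/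
theorem lr_eq_of_mul_eta_eq {q : ℕ} [NeZero q] {A A' : SL(2, ℤ)}
    (h : (A : Matrix (Fin 2) (Fin 2) ℤ) * lrEtaMat q = (A' : Matrix (Fin 2) (Fin 2) ℤ) * lrEtaMat q) :
    A = A' := by
  have hq' : (q : ℤ) ≠ 0 := by exact_mod_cast NeZero.ne q
  apply Subtype.ext
  ext i j
  have h1 := congrFun (congrFun h i) j
  fin_cases j
  · have h1' : (A : Matrix (Fin 2) (Fin 2) ℤ) i 0 * (q : ℤ) = (A' : Matrix (Fin 2) (Fin 2) ℤ) i 0 * (q : ℤ) := by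
      simpa [lrEtaMat, Matrix.mul_apply, Fin.sum_univ_two] using h1
    exact mul_right_cancel₀ hq' h1'
  · simpa [lrEtaMat, Matrix.mul_apply, Fin.sum_univ_two] using h1

/-- conjugation by `η = diag(q,1)` : `Γ₀(N q) → Γ₀(N)`, `γ ↦ η γ η⁻¹` -/
def lrConjEta (N q : ℕ) [NeZero q] : Gamma0 (N * q) →* Gamma0 N where
  toFun γ := ⟨lrConjEtaSL N q γ, lrConjEtaSL_mem N q γ⟩
  map_one' := by
    apply Subtype.ext
    apply lr_eq_of_mul_eta_eq (q := q)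
    rw [lrConjEtaSL_spec]
    simp
  map_mul' γ δ := by
    apply Subtype.ext
    apply lr_eq_of_mul_eta_eq (q := q)
    rw [lrConjEtaSL_spec]
    show _ = (((lrConjEtaSL N q γ) * (lrConjEtaSL N q δ) : SL(2, ℤ)) : Matrix (Fin 2) (Fin 2) ℤ) * _
    rw [Matrix.SpecialLinearGroup.coe_mul, Matrix.mul_assoc, lrConjEtaSL_spec, ← Matrix.mul_assoc,
      lrConjEtaSL_spec, Matrix.mul_assoc]
    rfl

/-- `cohMat (η γ η⁻¹) * η = η * cohMat γ` -/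
theorem lrConjEta_spec (N q : ℕ) [NeZero q] (γ : Gamma0 (N * q)) :
    cohMat (lrConjEta N q γ) * lrEtaMat q = lrEtaMat q * cohMat γ :=
  lrConjEtaSL_spec N q γ

theorem lrConjEta_apply_00 (N q : ℕ) [NeZero q] (γ : Gamma0 (N * q)) :
    ((lrConjEta N q γ : Gamma0 N) : SL(2, ℤ)) 0 0 = (γ : SL(2, ℤ)) 0 0 := rfl

theorem lrConjEta_apply_01 (N q : ℕ) [NeZero q] (γ : Gamma0 (N * q)) :
    ((lrConjEta N q γ : Gamma0 N) : SL(2, ℤ)) 0 1 = (q : ℤ) * (γ : SL(2, ℤ)) 0 1 := rfl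

theorem lrConjEta_apply_10 (N q : ℕ) [NeZero q] (γ : Gamma0 (N * q)) :
    ((lrConjEta N q γ : Gamma0 N) : SL(2, ℤ)) 1 0 = (γ : SL(2, ℤ)) 1 0 / (q : ℤ) := rfl

theorem lrConjEta_apply_11 (N q : ℕ) [NeZero q] (γ : Gamma0 (N * q)) :
    ((lrConjEta N q γ : Gamma0 N) : SL(2, ℤ)) 1 1 = (γ : SL(2, ℤ)) 1 1 := rfl

section maps

variable (N q : ℕ) {B : Type*} [AddCommGroup B]

/-- restriction `Hom(Γ₀(N), B) → Hom(Γ₀(N q), B)` -/
def lrRes : (Additive (Gamma0 N) →+ B) →+ (Additive (Gamma0 (N * q)) →+ B) where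
  toFun ψ := ψ.comp (MonoidHom.toAdditive (lrIncl N q))
  map_zero' := rfl
  map_add' _ _ := rfl

@[simp] theorem lrRes_apply (ψ : Additive (Gamma0 N) →+ B) (γ : Gamma0 (N * q)) :
    lrRes N q ψ (Additive.ofMul γ) = ψ (Additive.ofMul (lrIncl N q γ)) := rfl

/-- `ψ ↦ (γ ↦ ψ(η γ η⁻¹))`, `η = diag(q,1)` -/
def lrResEta [NeZero q] : (Additive (Gamma0 N) →+ B) →+ (Additive (Gamma0 (N * q)) →+ B) where
  toFun ψ := ψ.comp (MonoidHom.toAdditive (lrConjEta N q))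
  map_zero' := rfl
  map_add' _ _ := rfl

@[simp] theorem lrResEta_apply [NeZero q] (ψ : Additive (Gamma0 N) →+ B) (γ : Gamma0 (N * q)) :
    lrResEta N q ψ (Additive.ofMul γ) = ψ (Additive.ofMul (lrConjEta N q γ)) := rfl

/-- naturality in the coefficients -/
theorem lrRes_comp_coeff {B' : Type*} [AddCommGroup B'] (φ : B →+ B') (ψ : Additive (Gamma0 N) →+ B) :
    lrRes N q (φ.comp ψ) = φ.comp (lrRes N q ψ) := rfl

theorem lrResEta_comp_coeff [NeZero q] {B' : Type*} [AddCommGroup B'] (φ : B →+ B')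
    (ψ : Additive (Gamma0 N) →+ B) :
    lrResEta N q (φ.comp ψ) = φ.comp (lrResEta N q ψ) := rfl

end maps

/-- the Hecke operator `T_ℓ` (`U_ℓ` if `ℓ ∣ M`) on `Hom(Γ₀(M), B)` : the one of `S16x` -/
noncomputable abbrev lrT (M : ℕ) [NeZero M] (ℓ : Nat.Primes) {B : Type*} [AddCommGroup B] :
    (Additive (Gamma0 M) →+ B) →+ (Additive (Gamma0 M) →+ B) :=
  Fermat.Agent.S16x.cohOpGen M ℓ

/-- the lattice `H¹_par(Γ₀(M), ℤ)` -/
abbrev lrL (M : ℕ) : Submodule ℤ (Additive (Gamma0 M) →+ ℤ) :=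
  ModularCurve.Period.parabolicHoms ℤ (Gamma0 M) ℤ

end Fermat.Agent.S41x
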