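/-
S41 project (level raising), block B (COH-LEVEL): OFFICIAL DEFINITIONS + row (B1) + row (B4) in the
architect's notation (LRBase.lean).  (helper27, captain B)

For `q` prime, `q ∤ N`, `B` any abelian group:
* `lrCores N q hqN, lrCoresEta N q hqN : Hom(Γ₀(N q), B) →+ Hom(Γ₀(N), B)` (transfer, twisted
  transfer `[Γ₀(N q) diag(1,q) Γ₀(N)]`), operators of `lrl_cores`, `lrl_coresEta` (CohLevel.lean);
* `lrl_res_op`, `lrl_resEta_op` : the operators of `lrl_res`, `lrl_resEta` are `lrRes`, `lrResEta`;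
* naturality in the coefficients and compatibility with scalars;
* (B1) `lrCores_lrRes`, `lrCoresEta_lrResEta` (`= (q+1) • ψ`), `lrCores_lrResEta`,
  `lrCoresEta_lrRes` (`= lrT N q ψ`);
* (B4) `lrRes`, `lrResEta`, `lrCores`, `lrCoresEta`, `lrT` preserve parabolic homomorphisms
  (through helper54's `lrc_Corr.isParabolicHom_op` / `corr_MatFamily.isParabolicHom_op`).
-/
import Fermat.Agent.S41x.CohLevelComp
import Fermat.Agent.S41x.LRBase
import Fermat.Agent.S41x.CorrComm

set_option autoImplicit false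

namespace Fermat.Agent.S41x

open scoped MatrixGroups
open Fermat.Agent.S16x CongruenceSubgroup ModularCurve.Period

section defs

variable (N q : ℕ) [Fact q.Prime] (hqN : ¬ q ∣ N) {B : Type*} [AddCommGroup B]

/-- transfer `Hom(Γ₀(N q), B) →+ Hom(Γ₀(N), B)` -/
noncomputable def lrCores :
    (Additive (Gamma0 (N * q)) →+ B) →+ (Additive (Gamma0 N) →+ B) :=
  (lrl_cores N q hqN).op

/-- twisted transfer `Hom(Γ₀(N q), B) →+ Hom(Γ₀(N), B)` (double coset of `diag(1, q)`) -/
noncomputable def lrCoresEta :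
    (Additive (Gamma0 (N * q)) →+ B) →+ (Additive (Gamma0 N) →+ B) :=
  (lrl_coresEta N q hqN).op

theorem lrCores_def (χ : Additive (Gamma0 (N * q)) →+ B) :
    lrCores N q hqN χ = (lrl_cores N q hqN).op χ := rfl

theorem lrCoresEta_def (χ : Additive (Gamma0 (N * q)) →+ B) :
    lrCoresEta N q hqN χ = (lrl_coresEta N q hqN).op χ := rfl

/-- the operator of `lrl_res` is the architect's `lrRes` -/
theorem lrl_res_op (ψ : Additive (Gamma0 N) →+ B) : (lrl_res N q).op ψ = lrRes N q ψ := by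
  refine AddMonoidHom.ext fun γ => ?_
  obtain ⟨γ, rfl⟩ := Additive.ofMul.surjective γ
  exact lrc_res_op_apply (lrl_le N q) ψ γ

/-- the operator of `lrl_resEta` is the architect's `lrResEta` -/
theorem lrl_resEta_op (ψ : Additive (Gamma0 N) →+ B) :
    (lrl_resEta N q).op ψ = lrResEta N q ψ := by
  refine AddMonoidHom.ext fun γ => ?_
  obtain ⟨γ, rfl⟩ := Additive.ofMul.surjective γ
  rw [lrResEta_apply]
  exact lrc_conj_op_apply _ _ _ ψ (lrConjEta_spec N q γ)

/-! ### naturality -/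

theorem lrCores_comp_coeff {B' : Type*} [AddCommGroup B'] (φ : B →+ B')
    (χ : Additive (Gamma0 (N * q)) →+ B) :
    lrCores N q hqN (φ.comp χ) = φ.comp (lrCores N q hqN χ) :=
  (lrl_cores N q hqN).op_comp_coeff φ χ

theorem lrCoresEta_comp_coeff {B' : Type*} [AddCommGroup B'] (φ : B →+ B')
    (χ : Additive (Gamma0 (N * q)) →+ B) :
    lrCoresEta N q hqN (φ.comp χ) = φ.comp (lrCoresEta N q hqN χ) :=
  (lrl_coresEta N q hqN).op_comp_coeff φ χ

theorem lrCores_smul {R : Type*} [Semiring R] [Module R B] (c : R)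
    (χ : Additive (Gamma0 (N * q)) →+ B) :
    lrCores N q hqN (c • χ) = c • lrCores N q hqN χ :=
  (lrl_cores N q hqN).op_smul c χ

theorem lrCoresEta_smul {R : Type*} [Semiring R] [Module R B] (c : R)
    (χ : Additive (Gamma0 (N * q)) →+ B) :
    lrCoresEta N q hqN (c • χ) = c • lrCoresEta N q hqN χ :=
  (lrl_coresEta N q hqN).op_smul c χ

/-! ### (B1) `β ∘ α` -/

theorem lrCores_lrRes (ψ : Additive (Gamma0 N) →+ B) :
    lrCores N q hqN (lrRes N q ψ) = (q + 1) • ψ := by
  rw [← lrl_res_op, lrCores_def, lrl_cores_res]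

theorem lrCoresEta_lrResEta (ψ : Additive (Gamma0 N) →+ B) :
    lrCoresEta N q hqN (lrResEta N q ψ) = (q + 1) • ψ := by
  rw [← lrl_resEta_op, lrCoresEta_def, lrl_coresEta_resEta]

/-- `q` as an element of `Nat.Primes` -/
def lrPrime : Nat.Primes := ⟨q, Fact.out⟩

theorem lrT_eq_cohT [NeZero N] (ψ : Additive (Gamma0 N) →+ B) :
    lrT N (lrPrime q) ψ = cohT N q hqN ψ := by
  have : Fact ((lrPrime q : Nat.Primes) : ℕ).Prime := inferInstanceAs (Fact q.Prime)
  exact corr_cohOpGen_eq_cohT N (lrPrime q) hqN ψ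

theorem lrCores_lrResEta [NeZero N] (ψ : Additive (Gamma0 N) →+ B) :
    lrCores N q hqN (lrResEta N q ψ) = lrT N (lrPrime q) ψ := by
  rw [← lrl_resEta_op, lrCores_def, lrl_cores_resEta, lrT_eq_cohT N q hqN]

theorem lrCoresEta_lrRes [NeZero N] (ψ : Additive (Gamma0 N) →+ B) :
    lrCoresEta N q hqN (lrRes N q ψ) = lrT N (lrPrime q) ψ := by
  rw [← lrl_res_op, lrCoresEta_def, lrl_coresEta_res, lrT_eq_cohT N q hqN]

/-! ### (B4) parabolic stability -/

theorem lrRes_isParabolicHom {ψ : Additive (Gamma0 N) →+ B} (hψ : IsParabolicHom (Gamma0 N) ψ) :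
    IsParabolicHom (Gamma0 (N * q)) (lrRes N q ψ) := by
  rw [← lrl_res_op]
  exact (lrl_res N q).isParabolicHom_op hψ

theorem lrResEta_isParabolicHom {ψ : Additive (Gamma0 N) →+ B}
    (hψ : IsParabolicHom (Gamma0 N) ψ) :
    IsParabolicHom (Gamma0 (N * q)) (lrResEta N q ψ) := by
  rw [← lrl_resEta_op]
  exact (lrl_resEta N q).isParabolicHom_op hψ

theorem lrCores_isParabolicHom {χ : Additive (Gamma0 (N * q)) →+ B}
    (hχ : IsParabolicHom (Gamma0 (N * q)) χ) :
    IsParabolicHom (Gamma0 N) (lrCores N q hqN χ) :=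
  (lrl_cores N q hqN).isParabolicHom_op hχ

theorem lrCoresEta_isParabolicHom {χ : Additive (Gamma0 (N * q)) →+ B}
    (hχ : IsParabolicHom (Gamma0 (N * q)) χ) :
    IsParabolicHom (Gamma0 N) (lrCoresEta N q hqN χ) :=
  (lrl_coresEta N q hqN).isParabolicHom_op hχ

end defs

/-- `T_ℓ` / `U_ℓ` preserve parabolic homomorphisms (any level, any prime) -/
theorem lrT_isParabolicHom (M : ℕ) [NeZero M] (ℓ : Nat.Primes) {B : Type*} [AddCommGroup B]
    {ψ : Additive (Gamma0 M) →+ B} (hψ : IsParabolicHom (Gamma0 M) ψ) :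
    IsParabolicHom (Gamma0 M) (lrT M ℓ ψ) := by
  show IsParabolicHom (Gamma0 M) (cohOpGen M ℓ ψ)
  rw [← corr_cohOpGen_eq]
  exact (corr_ofCohDatum (cohDatumGen M ℓ)).isParabolicHom_op hψ

end Fermat.Agent.S41x
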