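/-
S41 project, block E (forms end), leaf F1 (helper26, prefix `lrf26_`).

A normalised eigenform (Prelude `CuspForm.IsNormalizedEigenform`: identities between
`q`-coefficients) is an eigenvector of the Prelude Hecke operators `heckeTLin`, `heckeULin`,
`heckeFormsGen` with eigenvalue its `ℓ`-th coefficient; hence, by the Hecke-equivariance of the
Eichler–Shimura period map (`S16x.periodHomPair_heckeFormsGen`), its period class
`periodHomPair N (f, 0)` is a nonzero parabolic eigenvector of the cohomological Hecke operators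
`S16x.cohOpGen N ℓ` (all primes `ℓ`, including those dividing the level).
-/
import Fermat.Agent.S49x.ModThree
import Fermat.Agent.S16x.CohEquiv
import Fermat.Agent.S21

set_option autoImplicit false

open CongruenceSubgroup ModularFormClass UpperHalfPlane ModularCurve ModularCurve.Period CuspForm

namespace Fermat.Agent.S41x

variable {N : ℕ}

/-! ### coefficient identities of a normalised eigenform -/

/-- `a(ℓ^(r+1)) = a(ℓ) a(ℓ^r)` for `ℓ ∣ N`. -/
theorem lrf26_pow_succ_of_dvd {f : CuspForm (Gamma0 N) 2} (hf : f.IsNormalizedEigenform)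
    {ℓ : ℕ} (hℓ : ℓ.Prime) (hℓN : ℓ ∣ N) (r : ℕ) :
    qCoeff f (ℓ ^ (r + 1)) = qCoeff f ℓ * qCoeff f (ℓ ^ r) := by
  rcases r with _ | r
  · simp [hf.qCoeff_one]
  · exact hf.qCoeff_prime_pow_of_dvd ℓ r hℓ hℓN

/-- the Hecke relation `a(nℓ) + ℓ a(n/ℓ) = a(ℓ) a(n)` for `ℓ ∤ N`. -/
theorem lrf26_rel_T {f : CuspForm (Gamma0 N) 2} (hf : f.IsNormalizedEigenform)
    {ℓ : ℕ} (hℓ : ℓ.Prime) (hℓN : ¬ ℓ ∣ N) (n : ℕ) :
    qCoeff f (n * ℓ) + (if ℓ ∣ n then (ℓ : ℂ) * qCoeff f (n / ℓ) else 0) =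
      qCoeff f ℓ * qCoeff f n := by
  rcases Nat.eq_zero_or_pos n with rfl | hn
  · simp [S49x.qCoeff_zero_cuspForm f]
  obtain ⟨r, m, hm, rfl⟩ := Nat.exists_eq_pow_mul_and_not_dvd hn.ne' ℓ hℓ.ne_one
  have hcop : ∀ k : ℕ, (ℓ ^ k).Coprime m := fun k =>
    Nat.Coprime.pow_left k ((Nat.Prime.coprime_iff_not_dvd hℓ).mpr hm)
  have h1 : ℓ ^ r * m * ℓ = ℓ ^ (r + 1) * m := by ring
  rw [h1, hf.qCoeff_mul_of_coprime _ _ (hcop (r + 1)), hf.qCoeff_mul_of_coprime _ _ (hcop r)]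
  rcases r with _ | r
  · have hnd : ¬ ℓ ∣ ℓ ^ 0 * m := by simpa using hm
    rw [if_neg hnd]
    simp [hf.qCoeff_one]
  · have hd : ℓ ∣ ℓ ^ (r + 1) * m := Dvd.dvd.mul_right (dvd_pow_self ℓ (Nat.succ_ne_zero r)) m
    have hdiv : ℓ ^ (r + 1) * m / ℓ = ℓ ^ r * m := by
      rw [pow_succ, mul_assoc, mul_comm ℓ m, ← mul_assoc]
      exact Nat.mul_div_cancel _ hℓ.pos
    rw [if_pos hd, hdiv, hf.qCoeff_mul_of_coprime _ _ (hcop r),
      hf.qCoeff_prime_pow_of_not_dvd ℓ r hℓ hℓN]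
    ring

/-- the relation `a(nq) = a(q) a(n)` for `q ∣ N`. -/
theorem lrf26_rel_U {f : CuspForm (Gamma0 N) 2} (hf : f.IsNormalizedEigenform)
    {q : ℕ} (hq : q.Prime) (hqN : q ∣ N) (n : ℕ) :
    qCoeff f (n * q) = qCoeff f q * qCoeff f n := by
  rcases Nat.eq_zero_or_pos n with rfl | hn
  · simp [S49x.qCoeff_zero_cuspForm f]
  obtain ⟨r, m, hm, rfl⟩ := Nat.exists_eq_pow_mul_and_not_dvd hn.ne' q hq.ne_one
  have hcop : ∀ k : ℕ, (q ^ k).Coprime m := fun k =>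
    Nat.Coprime.pow_left k ((Nat.Prime.coprime_iff_not_dvd hq).mpr hm)
  have h1 : q ^ r * m * q = q ^ (r + 1) * m := by ring
  rw [h1, hf.qCoeff_mul_of_coprime _ _ (hcop (r + 1)), hf.qCoeff_mul_of_coprime _ _ (hcop r),
    lrf26_pow_succ_of_dvd hf hq hqN r]
  ring

/-! ### eigenvector of the Prelude Hecke operators -/

theorem lrf26_heckeTLin_eq {f : CuspForm (Gamma0 N) 2} (hf : f.IsNormalizedEigenform)
    {ℓ : ℕ} (hℓ : ℓ.Prime) (hℓN : ¬ ℓ ∣ N) :
    CuspForm.heckeTLin 2 hℓ hℓN f = qCoeff f ℓ • f := by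
  rw [← sub_eq_zero]
  refine S49x.cuspForm_eq_zero_of_qCoeff _ fun n => ?_
  rw [S49x.qCoeff_sub_cuspForm, S49x.qCoeff_heckeTLin_two f hℓ hℓN, S49x.qCoeff_smul_cuspForm,
    lrf26_rel_T hf hℓ hℓN, sub_self]

theorem lrf26_heckeULin_eq [NeZero N] {f : CuspForm (Gamma0 N) 2} (hf : f.IsNormalizedEigenform)
    {q : ℕ} (hq : q.Prime) (hqN : q ∣ N) :
    CuspForm.heckeULin 2 hqN f = qCoeff f q • f := by
  rw [← sub_eq_zero]
  refine S49x.cuspForm_eq_zero_of_qCoeff _ fun n => ?_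
  rw [S49x.qCoeff_sub_cuspForm, S49x.qCoeff_heckeULin_two f hq hqN, S49x.qCoeff_smul_cuspForm,
    lrf26_rel_U hf hq hqN, sub_self]

theorem lrf26_heckeFormsGen_eq [NeZero N] {f : CuspForm (Gamma0 N) 2}
    (hf : f.IsNormalizedEigenform) (ℓ : Nat.Primes) :
    ((heckeFormsGen N 2 ℓ : heckeAlgebra N 2 ∅) : Module.End ℂ (CuspForm (Gamma0 N) 2)) f =
      qCoeff f (ℓ : ℕ) • f := by
  by_cases hd : (ℓ : ℕ) ∣ N
  · rw [heckeFormsGen_of_dvd hd, heckeAlgebra.coe_U]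
    exact lrf26_heckeULin_eq hf ℓ.2 hd
  · rw [heckeFormsGen_of_not_dvd hd, heckeAlgebra.coe_T]
    exact lrf26_heckeTLin_eq hf ℓ.2 hd

theorem lrf26_ne_zero {f : CuspForm (Gamma0 N) 2} (hf : f.IsNormalizedEigenform) : f ≠ 0 := by
  rintro rfl
  have h := hf.qCoeff_one
  rw [S49x.qCoeff_zero_form] at h
  exact zero_ne_one h

/-! ### the period class of a normalised eigenform -/

/-- **B1 over `ℂ`**: the period class of a normalised eigenform is an eigenvector of every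
cohomological Hecke operator `cohOpGen N ℓ` (`T_ℓ` for `ℓ ∤ N`, `U_ℓ` for `ℓ ∣ N`) with
eigenvalue `a_ℓ(f)`. -/
theorem lrf26_cohOpGen_periodHomPair [NeZero N] {f : CuspForm (Gamma0 N) 2}
    (hf : f.IsNormalizedEigenform) (ℓ : Nat.Primes) :
    S16x.cohOpGen N ℓ (periodHomPair N (f, 0)) = qCoeff f (ℓ : ℕ) • periodHomPair N (f, 0) := by
  rw [← S16x.periodHomPair_heckeFormsGen, lrf26_heckeFormsGen_eq hf, map_zero, ← map_smul,
    Prod.smul_mk, smul_zero]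

theorem lrf26_periodHomPair_ne_zero [NeZero N] {f : CuspForm (Gamma0 N) 2}
    (hf : f.IsNormalizedEigenform) : periodHomPair N (f, 0) ≠ 0 := by
  intro h
  have h2 : ((f, 0) : CuspForm (Gamma0 N) 2 × CuspForm (Gamma0 N) 2) = 0 :=
    (Fermat.Agent.S21.result N).1 (by rw [h, map_zero])
  exact lrf26_ne_zero hf (congrArg Prod.fst h2)

theorem lrf26_periodHomPair_mem [NeZero N] (x : CuspForm (Gamma0 N) 2 × CuspForm (Gamma0 N) 2) :
    periodHomPair N x ∈ parabolicHoms ℂ (Gamma0 N) ℂ := by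
  rw [← (Fermat.Agent.S21.result N).2]
  exact LinearMap.mem_range_self _ x

end Fermat.Agent.S41x
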