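/-
S41 project, block E, Spec row EIG/COMM (helper26, prefix `lrf26_`).

The cohomological Hecke operators `S16x.cohOpGen M ℓ` (`= lrT M ℓ`; `T_ℓ` for `ℓ ∤ M`, `U_ℓ` for
`ℓ ∣ M`) commute on the parabolic classes `Hom_par(Γ₀(M), ℂ)` and on the lattice
`Hom_par(Γ₀(M), ℤ)`.

Proof: Eichler–Shimura (S21: `periodHomPair M` is onto the parabolic classes), the
Hecke-equivariance of the period map (`S16x.periodHomPair_heckeFormsGen`) and the commutativity of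
the Prelude Hecke operators on cusp forms (`CuspForm.heckeTLin_comm`, `heckeTLin_heckeULin_comm`,
`heckeULin_comm`); the integral statement follows by `ℤ ↪ ℂ` and functoriality in the
coefficients (`S16x.cohOpGen_comp`).
-/
import Fermat.Agent.S41x.FormsEigen
import Fermat.Prelude.Thm_CuspForm_heckeTLin_comm
import Fermat.Prelude.Thm_CuspForm_heckeTLin_heckeULin_comm
import Fermat.Prelude.Thm_CuspForm_heckeULin_comm

set_option autoImplicit false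

open CongruenceSubgroup ModularFormClass UpperHalfPlane ModularCurve ModularCurve.Period CuspForm

namespace Fermat.Agent.S41x

/-- the Prelude generators `heckeFormsGen M 2 ℓ` commute (as endomorphisms of `S₂(Γ₀(M))`). -/
theorem lrf26_heckeFormsGen_commute (M : ℕ) [NeZero M] (ℓ ℓ' : Nat.Primes) :
    Commute ((heckeFormsGen M 2 ℓ : heckeAlgebra M 2 ∅) : Module.End ℂ (CuspForm (Gamma0 M) 2))
      ((heckeFormsGen M 2 ℓ' : heckeAlgebra M 2 ∅) : Module.End ℂ (CuspForm (Gamma0 M) 2)) := by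
  by_cases hd : (ℓ : ℕ) ∣ M <;> by_cases hd' : (ℓ' : ℕ) ∣ M
  · rw [heckeFormsGen_of_dvd hd, heckeFormsGen_of_dvd hd', heckeAlgebra.coe_U, heckeAlgebra.coe_U]
    exact CuspForm.heckeULin_comm 2 hd hd'
  · rw [heckeFormsGen_of_dvd hd, heckeFormsGen_of_not_dvd hd', heckeAlgebra.coe_U,
      heckeAlgebra.coe_T]
    exact (CuspForm.heckeTLin_heckeULin_comm 2 ℓ'.2 hd' hd).symm
  · rw [heckeFormsGen_of_not_dvd hd, heckeFormsGen_of_dvd hd', heckeAlgebra.coe_T,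
      heckeAlgebra.coe_U]
    exact CuspForm.heckeTLin_heckeULin_comm 2 ℓ.2 hd hd'
  · rw [heckeFormsGen_of_not_dvd hd, heckeFormsGen_of_not_dvd hd', heckeAlgebra.coe_T,
      heckeAlgebra.coe_T]
    exact CuspForm.heckeTLin_comm 2 ℓ.2 hd ℓ'.2 hd'

theorem lrf26_heckeFormsGen_comm_apply (M : ℕ) [NeZero M] (ℓ ℓ' : Nat.Primes)
    (f : CuspForm (Gamma0 M) 2) :
    ((heckeFormsGen M 2 ℓ : heckeAlgebra M 2 ∅) : Module.End ℂ (CuspForm (Gamma0 M) 2))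
        (((heckeFormsGen M 2 ℓ' : heckeAlgebra M 2 ∅) : Module.End ℂ (CuspForm (Gamma0 M) 2)) f) =
      ((heckeFormsGen M 2 ℓ' : heckeAlgebra M 2 ∅) : Module.End ℂ (CuspForm (Gamma0 M) 2))
        (((heckeFormsGen M 2 ℓ : heckeAlgebra M 2 ∅) : Module.End ℂ (CuspForm (Gamma0 M) 2)) f) :=
  congrArg (fun T : Module.End ℂ (CuspForm (Gamma0 M) 2) => T f)
    (lrf26_heckeFormsGen_commute M ℓ ℓ').eq

/-- **COMM over `ℂ`** (Spec `eig_comm`): the operators `cohOpGen M ℓ` commute on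
`Hom_par(Γ₀(M), ℂ)`. -/
theorem lrf26_comm_C (M : ℕ) [NeZero M] (ℓ ℓ' : Nat.Primes) (w : Additive (Gamma0 M) →+ ℂ)
    (hw : w ∈ parabolicHoms ℂ (Gamma0 M) ℂ) :
    S16x.cohOpGen M ℓ (S16x.cohOpGen M ℓ' w) = S16x.cohOpGen M ℓ' (S16x.cohOpGen M ℓ w) := by
  rw [← (Fermat.Agent.S21.result M).2] at hw
  obtain ⟨⟨f, g⟩, rfl⟩ := hw
  rw [← S16x.periodHomPair_heckeFormsGen, ← S16x.periodHomPair_heckeFormsGen,
    ← S16x.periodHomPair_heckeFormsGen, ← S16x.periodHomPair_heckeFormsGen,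
    lrf26_heckeFormsGen_comm_apply M ℓ ℓ' f, lrf26_heckeFormsGen_comm_apply M ℓ ℓ' g]

/-- the coefficient map `Hom(Γ, ℤ) → Hom(Γ, ℂ)` (same as Spec `lat_toC`) -/
def lrf26_toC {Γ : Subgroup (Matrix.SpecialLinearGroup (Fin 2) ℤ)} (x : Additive Γ →+ ℤ) :
    Additive Γ →+ ℂ :=
  (Int.castAddHom ℂ).comp x

@[simp] theorem lrf26_toC_apply {Γ : Subgroup (Matrix.SpecialLinearGroup (Fin 2) ℤ)}
    (x : Additive Γ →+ ℤ) (γ : Additive Γ) : lrf26_toC x γ = ((x γ : ℤ) : ℂ) := rfl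

theorem lrf26_toC_injective {Γ : Subgroup (Matrix.SpecialLinearGroup (Fin 2) ℤ)} :
    Function.Injective (lrf26_toC : (Additive Γ →+ ℤ) → (Additive Γ →+ ℂ)) := by
  intro x y h
  refine AddMonoidHom.ext fun γ => ?_
  have := congrArg (fun φ : Additive Γ →+ ℂ => φ γ) h
  exact Int.cast_injective (α := ℂ) this

theorem lrf26_toC_mem {Γ : Subgroup (Matrix.SpecialLinearGroup (Fin 2) ℤ)}
    {x : Additive Γ →+ ℤ} (hx : x ∈ parabolicHoms ℤ Γ ℤ) :
    lrf26_toC x ∈ parabolicHoms ℂ Γ ℂ := by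
  intro γ hγ
  show ((x (Additive.ofMul γ) : ℤ) : ℂ) = 0
  rw [hx γ hγ, Int.cast_zero]

/-- the Hecke operators commute with the coefficient map -/
theorem lrf26_toC_cohOpGen (M : ℕ) [NeZero M] (ℓ : Nat.Primes) (x : Additive (Gamma0 M) →+ ℤ) :
    lrf26_toC (S16x.cohOpGen M ℓ x) = S16x.cohOpGen M ℓ (lrf26_toC x) :=
  S16x.cohOpGen_comp M ℓ (Int.castAddHom ℂ) x

/-- **COMM over `ℤ`**: the operators `cohOpGen M ℓ` commute on the lattice `Hom_par(Γ₀(M), ℤ)`. -/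
theorem lrf26_comm_Z (M : ℕ) [NeZero M] (ℓ ℓ' : Nat.Primes) (x : Additive (Gamma0 M) →+ ℤ)
    (hx : x ∈ parabolicHoms ℤ (Gamma0 M) ℤ) :
    S16x.cohOpGen M ℓ (S16x.cohOpGen M ℓ' x) = S16x.cohOpGen M ℓ' (S16x.cohOpGen M ℓ x) := by
  apply lrf26_toC_injective
  rw [lrf26_toC_cohOpGen, lrf26_toC_cohOpGen, lrf26_toC_cohOpGen, lrf26_toC_cohOpGen]
  exact lrf26_comm_C M ℓ ℓ' _ (lrf26_toC_mem hx)

end Fermat.Agent.S41x
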