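/-
S41 block E / TOP (helper20): the level raising maps and Hecke operators as `ℤ`-linear maps on the
lattices `lrL M = H¹_par(Γ₀(M), ℤ)`, built from block B (`CohLevelDefs`).
-/
import Fermat.Agent.S41x.CohLevelDefs
import Fermat.Agent.S41x.FormsComm

set_option autoImplicit false

namespace Fermat.Agent.S41x

open scoped MatrixGroups
open CongruenceSubgroup ModularCurve.Period

section

variable (N q : ℕ) [Fact q.Prime] (hqN : ¬ q ∣ N)

instance lrt_neZero_q : NeZero q := ⟨(Fact.out : q.Prime).ne_zero⟩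

/-- `res : L(N) → L(N q)` -/
def lrtRes : lrL N →ₗ[ℤ] lrL (N * q) where
  toFun x := ⟨lrRes N q x.1, mem_parabolicHoms_iff.mpr
    (lrRes_isParabolicHom N q (mem_parabolicHoms_iff.mp x.2))⟩
  map_add' x y := Subtype.ext (map_add (lrRes N q) x.1 y.1)
  map_smul' c x := Subtype.ext (map_zsmul (lrRes N q) c x.1)

/-- `res^η : L(N) → L(N q)` -/
def lrtResEta : lrL N →ₗ[ℤ] lrL (N * q) where
  toFun x := ⟨lrResEta N q x.1, mem_parabolicHoms_iff.mpr
    (lrResEta_isParabolicHom N q (mem_parabolicHoms_iff.mp x.2))⟩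
  map_add' x y := Subtype.ext (map_add (lrResEta N q) x.1 y.1)
  map_smul' c x := Subtype.ext (map_zsmul (lrResEta N q) c x.1)

/-- `cores : L(N q) → L(N)` -/
noncomputable def lrtCores : lrL (N * q) →ₗ[ℤ] lrL N where
  toFun y := ⟨lrCores N q hqN y.1, mem_parabolicHoms_iff.mpr
    (lrCores_isParabolicHom N q hqN (mem_parabolicHoms_iff.mp y.2))⟩
  map_add' x y := Subtype.ext (map_add (lrCores N q hqN) x.1 y.1)
  map_smul' c x := Subtype.ext (map_zsmul (lrCores N q hqN) c x.1)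

/-- `cores^η : L(N q) → L(N)` -/
noncomputable def lrtCoresEta : lrL (N * q) →ₗ[ℤ] lrL N where
  toFun y := ⟨lrCoresEta N q hqN y.1, mem_parabolicHoms_iff.mpr
    (lrCoresEta_isParabolicHom N q hqN (mem_parabolicHoms_iff.mp y.2))⟩
  map_add' x y := Subtype.ext (map_add (lrCoresEta N q hqN) x.1 y.1)
  map_smul' c x := Subtype.ext (map_zsmul (lrCoresEta N q hqN) c x.1)

@[simp] theorem lrtRes_coe (x : lrL N) : (lrtRes N q x : Additive (Gamma0 (N * q)) →+ ℤ) = lrRes N q x.1 := rfl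
@[simp] theorem lrtResEta_coe (x : lrL N) :
    (lrtResEta N q x : Additive (Gamma0 (N * q)) →+ ℤ) = lrResEta N q x.1 := rfl
@[simp] theorem lrtCores_coe (y : lrL (N * q)) :
    (lrtCores N q hqN y : Additive (Gamma0 N) →+ ℤ) = lrCores N q hqN y.1 := rfl
@[simp] theorem lrtCoresEta_coe (y : lrL (N * q)) :
    (lrtCoresEta N q hqN y : Additive (Gamma0 N) →+ ℤ) = lrCoresEta N q hqN y.1 := rfl

end

/-- `T_ℓ` (`U_ℓ`) on the lattice `L(M)` -/
noncomputable def lrtT (M : ℕ) [NeZero M] (ℓ : Nat.Primes) : Module.End ℤ (lrL M) where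
  toFun x := ⟨lrT M ℓ x.1, mem_parabolicHoms_iff.mpr
    (lrT_isParabolicHom M ℓ (mem_parabolicHoms_iff.mp x.2))⟩
  map_add' x y := Subtype.ext (map_add (lrT M ℓ) x.1 y.1)
  map_smul' c x := Subtype.ext (map_zsmul (lrT M ℓ) c x.1)

@[simp] theorem lrtT_coe (M : ℕ) [NeZero M] (ℓ : Nat.Primes) (x : lrL M) :
    (lrtT M ℓ x : Additive (Gamma0 M) →+ ℤ) = lrT M ℓ x.1 := rfl

theorem lrtT_comm (M : ℕ) [NeZero M] (ℓ ℓ' : Nat.Primes) : lrtT M ℓ * lrtT M ℓ' = lrtT M ℓ' * lrtT M ℓ := by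
  refine LinearMap.ext fun x => Subtype.ext ?_
  exact lrf26_comm_Z M ℓ ℓ' x.1 x.2

/-- the embedding `L(M) → Hom(Γ₀(M), ℂ)` -/
def lrtToC (M : ℕ) : lrL M →+ (Additive (Gamma0 M) →+ ℂ) where
  toFun x := lrf26_toC x.1
  map_zero' := by
    refine AddMonoidHom.ext fun γ => ?_
    simp [lrf26_toC]
  map_add' _ _ := by
    refine AddMonoidHom.ext fun γ => ?_
    simp [lrf26_toC]

@[simp] theorem lrtToC_apply (M : ℕ) (x : lrL M) : lrtToC M x = lrf26_toC x.1 := rfl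

theorem lrtToC_injective (M : ℕ) : Function.Injective (lrtToC M) := fun x y h =>
  Subtype.ext (lrf26_toC_injective (by simpa using h))

theorem lrtToC_mem (M : ℕ) (x : lrL M) : lrtToC M x ∈ parabolicHoms ℂ (Gamma0 M) ℂ := by
  rw [lrtToC_apply]; exact lrf26_toC_mem x.2

theorem lrtToC_T (M : ℕ) [NeZero M] (ℓ : Nat.Primes) (x : lrL M) :
    lrtToC M (lrtT M ℓ x) = lrT M ℓ (lrtToC M x) := by
  rw [lrtToC_apply, lrtToC_apply]
  exact lrf26_toC_cohOpGen M ℓ x.1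

/-- divisibility by `p` in `L(M)` can be tested on values -/
theorem lrt_dvd_of_values (M : ℕ) (p : ℕ) (hp : p ≠ 0) (x : lrL M)
    (h : ∀ γ, (p : ℤ) ∣ x.1 γ) : ∃ z : lrL M, x = (p : ℤ) • z := by
  have hp' : (p : ℤ) ≠ 0 := by exact_mod_cast hp
  let z0 : Additive (Gamma0 M) →+ ℤ :=
    { toFun := fun γ => x.1 γ / (p : ℤ)
      map_zero' := by simp
      map_add' := fun γ δ => by
        obtain ⟨a, ha⟩ := h γ
        obtain ⟨b, hb⟩ := h δ
        rw [map_add, ha, hb, ← mul_add, Int.mul_ediv_cancel_left _ hp',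
          Int.mul_ediv_cancel_left _ hp', Int.mul_ediv_cancel_left _ hp'] }
  have hz0 : z0 ∈ lrL M := by
    intro γ hγ
    show x.1 (Additive.ofMul γ) / (p : ℤ) = 0
    rw [x.2 γ hγ]; simp
  refine ⟨⟨z0, hz0⟩, Subtype.ext (AddMonoidHom.ext fun γ => ?_)⟩
  show x.1 γ = (p : ℤ) • (x.1 γ / (p : ℤ))
  rw [smul_eq_mul, Int.mul_ediv_cancel' (h γ)]

end Fermat.Agent.S41x
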