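import Mathlib

/-!
# S41 block E, input side (abstract part): an eigensystem occurring over `ℂ` occurs modulo `p`

`emp_exists_mod_p_eigen`: a lattice `V` (finite `ℤ`-module) with a commuting family `T i`,
an equivariant map `ι` to a complex vector space whose image spans, and a complex eigenvector
`ξ` with eigenvalues `c i` that are congruent to integers `a i` modulo a proper ideal `𝔪 ∋ p` of
the algebraic integers.  Then there is `v ∈ V ∖ pV` with `(T i - a i) v ∈ pV` for all `i`.
-/

set_option autoImplicit false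

namespace Fermat.Agent.S41x

section FiniteModule

variable {R : Type*} [CommRing R] {M : Type*} [AddCommGroup M] [Module R M]

/-- A finite module without nonzero `n`-torsion satisfies `n M = M`. -/
theorem emp_smul_top_eq_top_of_finite [Finite M] (n : Ideal R)
    (h0 : ∀ m : M, (∀ t ∈ n, t • m = 0) → m = 0) : n • (⊤ : Submodule R M) = ⊤ := by
  classical
  -- the descending chain `n ^ j • ⊤` stabilises
  let f : ℕ →o (Submodule R M)ᵒᵈ :=
    ⟨fun j => OrderDual.toDual (n ^ j • (⊤ : Submodule R M)), by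
      intro i j hij
      show n ^ j • (⊤ : Submodule R M) ≤ n ^ i • (⊤ : Submodule R M)
      exact Submodule.smul_mono_left (Ideal.pow_le_pow_right hij)⟩
  obtain ⟨j, hj⟩ := IsArtinian.monotone_stabilizes f
  have hZ : n ^ j • (⊤ : Submodule R M) = n • (n ^ j • (⊤ : Submodule R M)) := by
    have h1 : n ^ j • (⊤ : Submodule R M) = n ^ (j + 1) • (⊤ : Submodule R M) :=
      congrArg OrderDual.ofDual (hj (j + 1) (Nat.le_succ j))
    calc n ^ j • (⊤ : Submodule R M) = n ^ (j + 1) • (⊤ : Submodule R M) := h1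
      _ = n • (n ^ j • (⊤ : Submodule R M)) := by rw [pow_succ', mul_smul]
  have hfg : (n ^ j • (⊤ : Submodule R M)).FG := by
    have : Module.Finite R (n ^ j • (⊤ : Submodule R M) : Submodule R M) := Module.Finite.of_finite
    exact Module.Finite.iff_fg.mp this
  obtain ⟨r, hr1, hr⟩ :=
    Submodule.exists_sub_one_mem_and_smul_eq_zero_of_fg_of_le_smul n _ hfg hZ.le
  -- descend along the chain
  have key : ∀ i, i ≤ j → ∀ z ∈ n ^ (j - i) • (⊤ : Submodule R M), r • z = 0 := by
    intro i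
    induction i with
    | zero => intro _ z hz; exact hr z (by simpa using hz)
    | succ i ih =>
      intro hi z hz
      apply h0
      intro t ht
      rw [smul_comm]
      apply ih (by omega)
      have hk : j - i = (j - (i + 1)) + 1 := by omega
      rw [hk, pow_succ', mul_smul]
      exact Submodule.smul_mem_smul ht hz
  rw [eq_top_iff]
  intro z _
  have hz0 : r • z = 0 := key j le_rfl z (by simp)
  have : z = (1 - r) • z := by rw [sub_smul, one_smul, hz0, sub_zero]
  rw [this]
  refine Submodule.smul_mem_smul ?_ Submodule.mem_top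
  have : 1 - r = -(r - 1) := by ring
  rw [this]
  exact n.neg_mem hr1

/-- A finite module with `n M ≠ M` has a nonzero element killed by `n`. -/
theorem emp_exists_torsion_of_finite [Finite M] (n : Ideal R)
    (h : n • (⊤ : Submodule R M) ≠ ⊤) : ∃ m : M, m ≠ 0 ∧ ∀ t ∈ n, t • m = 0 := by
  by_contra hcon
  push Not at hcon
  refine h (emp_smul_top_eq_top_of_finite n fun m hm => ?_)
  by_contra hne
  obtain ⟨t, ht, htm⟩ := hcon m hne
  exact htm (hm t ht)

end FiniteModule


section Core

variable {A : Type*} [CommRing A] {V : Type*} [AddCommGroup V] [Module.Finite ℤ V]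
  {Vc : Type*} [AddCommGroup Vc] [Module ℂ Vc]

/-- Core lemma: a commutative ring `A` acting compatibly on a lattice `V` and on a complex vector
space `Vc` spanned by the image of `V`; a complex eigenvector `ξ` whose eigenvalues are algebraic
integers; a set `S ∋ p` of elements of `A` whose eigenvalues lie in a proper ideal `𝔪`.
Then some `v ∈ V ∖ pV` satisfies `x v ∈ pV` for all `x ∈ S`. -/
theorem emp_core (φ : A →+* Module.End ℤ V) (φc : A →+* Module.End ℂ Vc) (ι : V →+ Vc)
    (hι : ∀ x v, ι (φ x v) = φc x (ι v))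
    (hspan : Submodule.span ℂ (Set.range ι) = ⊤)
    (ξ : Vc) (hξ : ξ ≠ 0)
    (hint : ∀ x, ∃ z : integralClosure ℤ ℂ, φc x ξ = (z : ℂ) • ξ)
    (𝔪 : Ideal (integralClosure ℤ ℂ)) (h𝔪 : 𝔪 ≠ ⊤) {p : ℕ} (hp : p ≠ 0)
    (S : Set A) (hpS : (p : A) ∈ S)
    (hS : ∀ x ∈ S, ∃ m ∈ 𝔪, φc x ξ = ((m : integralClosure ℤ ℂ) : ℂ) • ξ) :
    ∃ v : V, (¬ ∃ w : V, v = (p : ℤ) • w) ∧ ∀ x ∈ S, ∃ w : V, φ x v = (p : ℤ) • w := by
  classical
  let _ : Module A V := Module.compHom V φ
  have hsmul : ∀ (x : A) (v : V), x • v = φ x v := fun _ _ => rfl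
  have : IsScalarTower ℤ A V := ⟨fun n x v => by
    rw [hsmul, hsmul, zsmul_eq_mul, map_mul, map_intCast, Module.End.mul_apply,
      Module.End.intCast_apply]⟩
  have : Module.Finite A V := Module.Finite.of_restrictScalars_finite ℤ A V
  have hpV : ∀ v : V, (p : A) • v = (p : ℤ) • v := fun v => by
    rw [hsmul, map_natCast, Module.End.natCast_apply, natCast_zsmul]
  set n' : Ideal A := Ideal.span S with hn'
  -- eigenvalues of elements of `n'` lie in `𝔪`
  have hn'𝔪 : ∀ x ∈ n', ∃ m ∈ 𝔪, φc x ξ = ((m : integralClosure ℤ ℂ) : ℂ) • ξ := by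
    intro x hx
    induction hx using Submodule.span_induction with
    | mem x hx => exact hS x hx
    | zero => exact ⟨0, 𝔪.zero_mem, by simp⟩
    | add x y _ _ hx hy =>
      obtain ⟨m, hm, hmx⟩ := hx
      obtain ⟨m', hm', hmy⟩ := hy
      refine ⟨m + m', 𝔪.add_mem hm hm', ?_⟩
      rw [map_add, LinearMap.add_apply, hmx, hmy, ← add_smul]
      simp
    | smul y x _ hx =>
      obtain ⟨m, hm, hmx⟩ := hx
      obtain ⟨z, hz⟩ := hint y
      refine ⟨z * m, 𝔪.mul_mem_left z hm, ?_⟩
      rw [smul_eq_mul, map_mul, Module.End.mul_apply, hmx, map_smul, hz, smul_smul]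
      congr 1
      simp [mul_comm]
  -- `n' V ≠ V` by Nakayama
  have hne : n' • (⊤ : Submodule A V) ≠ ⊤ := by
    intro htop
    obtain ⟨r, hr1, hr⟩ := Submodule.exists_sub_one_mem_and_smul_eq_zero_of_fg_of_le_smul n'
      (⊤ : Submodule A V) Module.Finite.fg_top (by rw [htop])
    have hr0 : φc r = 0 := by
      apply LinearMap.ext_on hspan
      rintro _ ⟨v, rfl⟩
      rw [← hι, ← hsmul, hr v Submodule.mem_top, map_zero, LinearMap.zero_apply]
    obtain ⟨m, hm, hmx⟩ := hn'𝔪 _ hr1
    rw [map_sub, hr0, map_one, zero_sub, LinearMap.neg_apply, Module.End.one_apply] at hmx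
    have h1 : ((1 + m : integralClosure ℤ ℂ) : ℂ) • ξ = 0 := by
      have : ((1 + m : integralClosure ℤ ℂ) : ℂ) = 1 + (m : ℂ) := by simp
      rw [this, add_smul, one_smul, ← hmx, add_neg_cancel]
    have h2 : ((1 + m : integralClosure ℤ ℂ) : ℂ) = 0 := by
      rcases smul_eq_zero.mp h1 with h | h
      · exact h
      · exact absurd h hξ
    have h3 : (1 + m : integralClosure ℤ ℂ) = 0 := by
      apply Subtype.ext
      simpa using h2
    apply h𝔪
    rw [Ideal.eq_top_iff_one]
    have : (1 : integralClosure ℤ ℂ) = -m := by linear_combination h3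
    rw [this]
    exact 𝔪.neg_mem hm
  -- pass to `V / pV`
  let pV : Submodule A V := LinearMap.range (LinearMap.lsmul A V (p : A))
  have hmem_pV : ∀ v : V, v ∈ pV ↔ ∃ w : V, v = (p : ℤ) • w := by
    intro v
    constructor
    · rintro ⟨w, hw⟩
      exact ⟨w, by rw [← hw, LinearMap.lsmul_apply, hpV]⟩
    · rintro ⟨w, rfl⟩
      exact ⟨w, by rw [LinearMap.lsmul_apply, hpV]⟩
  have : Finite (V ⧸ pV) := by
    have : Module.Finite ℤ (V ⧸ pV) :=
      Module.Finite.of_surjective (pV.mkQ.toAddMonoidHom.toIntLinearMap)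
        (Submodule.mkQ_surjective pV)
    apply Module.finite_of_fg_torsion
    intro x
    induction x using Submodule.Quotient.induction_on with
    | _ v =>
      refine ⟨⟨(p : ℤ), ?_⟩, ?_⟩
      · rw [mem_nonZeroDivisors_iff_ne_zero]
        exact_mod_cast hp
      · show (p : ℤ) • (pV.mkQ v : V ⧸ pV) = 0
        rw [← map_zsmul, Submodule.mkQ_apply, Submodule.Quotient.mk_eq_zero, hmem_pV]
        exact ⟨v, rfl⟩
  have hneQ : n' • (⊤ : Submodule A (V ⧸ pV)) ≠ ⊤ := by
    intro htop
    apply hne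
    rw [eq_top_iff]
    intro v _
    have hv : pV.mkQ v ∈ n' • (⊤ : Submodule A (V ⧸ pV)) := by rw [htop]; exact Submodule.mem_top
    have hmap : n' • (⊤ : Submodule A (V ⧸ pV)) = Submodule.map pV.mkQ (n' • (⊤ : Submodule A V)) := by
      rw [Submodule.map_smul'', Submodule.map_top, Submodule.range_mkQ]
    rw [hmap] at hv
    obtain ⟨u, hu, huv⟩ := hv
    have hd : v - u ∈ pV := by
      rw [← Submodule.Quotient.mk_eq_zero, Submodule.Quotient.mk_sub]
      rw [Submodule.mkQ_apply, Submodule.mkQ_apply] at huv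
      rw [huv, sub_self]
    obtain ⟨w, hw⟩ := hd
    have : v = u + (p : A) • w := by
      rw [LinearMap.lsmul_apply] at hw
      rw [hw]; abel
    rw [this]
    exact Submodule.add_mem _ hu
      (Submodule.smul_mem_smul (Ideal.subset_span hpS) Submodule.mem_top)
  obtain ⟨mbar, hmbar0, hmbar⟩ := emp_exists_torsion_of_finite n' hneQ
  obtain ⟨v, rfl⟩ := Submodule.mkQ_surjective pV mbar
  refine ⟨v, ?_, ?_⟩
  · rw [← hmem_pV]
    intro hv
    apply hmbar0
    rw [Submodule.mkQ_apply, Submodule.Quotient.mk_eq_zero]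
    exact hv
  · intro x hx
    rw [← hmem_pV, ← hsmul, ← Submodule.Quotient.mk_eq_zero, Submodule.Quotient.mk_smul]
    exact hmbar x (Ideal.subset_span hx)

end Core

section Main

variable {I : Type*} {V : Type*} [AddCommGroup V] [Module.Finite ℤ V]
  {Vc : Type*} [AddCommGroup Vc] [Module ℂ Vc]

open scoped IsMulCommutative in
/-- **An eigensystem occurring over `ℂ` occurs modulo `p` in the lattice.**
`V` a finite `ℤ`-module with a commuting family `T i`; `ι : V → Vc` an equivariant additive map to a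
complex vector space whose image spans; `ξ ≠ 0` a simultaneous eigenvector of the `Tc i` with
eigenvalues `c i`, each congruent to an integer `a i` modulo a proper ideal `𝔪 ∋ p` of the
algebraic integers.  Then there is `v ∈ V ∖ pV` with `T i v - a i • v ∈ pV` for all `i`. -/
theorem emp_exists_mod_p_eigen
    (T : I → Module.End ℤ V) (hcomm : ∀ i j, T i * T j = T j * T i)
    (Tc : I → Module.End ℂ Vc)
    (ι : V →+ Vc) (hι : ∀ i v, ι (T i v) = Tc i (ι v))
    (hspan : Submodule.span ℂ (Set.range ι) = ⊤)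
    (ξ : Vc) (hξ : ξ ≠ 0) (c : I → ℂ) (heig : ∀ i, Tc i ξ = c i • ξ)
    (𝔪 : Ideal (integralClosure ℤ ℂ)) (h𝔪 : 𝔪 ≠ ⊤) {p : ℕ} (hp : p ≠ 0)
    (hp𝔪 : (p : integralClosure ℤ ℂ) ∈ 𝔪)
    (a : I → ℤ)
    (hcong : ∀ i, ∃ b : integralClosure ℤ ℂ, (b : ℂ) = c i ∧
      b - (a i : integralClosure ℤ ℂ) ∈ 𝔪) :
    ∃ v : V, (¬ ∃ w : V, v = (p : ℤ) • w) ∧ ∀ i, ∃ w : V, T i v - a i • v = (p : ℤ) • w := by
  classical
  -- the `Tc i` commute
  have hcommC : ∀ i j, Tc i * Tc j = Tc j * Tc i := by
    intro i j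
    apply LinearMap.ext_on hspan
    rintro _ ⟨v, rfl⟩
    simp only [Module.End.mul_apply]
    rw [← hι, ← hι, ← hι, ← hι, ← Module.End.mul_apply, hcomm, Module.End.mul_apply]
  let gen : I → Module.End ℤ V × Module.End ℂ Vc := fun i => (T i, Tc i)
  have hgc : ∀ x ∈ Set.range gen, ∀ y ∈ Set.range gen, x * y = y * x := by
    rintro _ ⟨i, rfl⟩ _ ⟨j, rfl⟩
    exact Prod.ext (hcomm i j) (hcommC i j)
  have hmc := Algebra.isMulCommutative_adjoin ℤ hgc
  let φ : Algebra.adjoin ℤ (Set.range gen) →+* Module.End ℤ V :=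
    (RingHom.fst _ _).comp (Algebra.adjoin ℤ (Set.range gen)).val.toRingHom
  let φc : Algebra.adjoin ℤ (Set.range gen) →+* Module.End ℂ Vc :=
    (RingHom.snd _ _).comp (Algebra.adjoin ℤ (Set.range gen)).val.toRingHom
  have hφ : ∀ x : Algebra.adjoin ℤ (Set.range gen), φ x = (x : Module.End ℤ V × Module.End ℂ Vc).1 :=
    fun _ => rfl
  have hφc : ∀ x : Algebra.adjoin ℤ (Set.range gen),
      φc x = (x : Module.End ℤ V × Module.End ℂ Vc).2 := fun _ => rfl
  choose b hbc hb𝔪 using hcong
  -- equivariance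
  have hequiv : ∀ x ∈ Algebra.adjoin ℤ (Set.range gen), ∀ v, ι (x.1 v) = x.2 (ι v) := by
    intro x hx
    induction hx using Algebra.adjoin_induction with
    | mem x hx =>
      obtain ⟨i, rfl⟩ := hx
      exact hι i
    | algebraMap r =>
      intro v
      simp only [Prod.algebraMap_apply, Module.algebraMap_end_apply, map_zsmul]
    | add x y _ _ hx hy =>
      intro v
      simp only [Prod.fst_add, Prod.snd_add, LinearMap.add_apply, map_add, hx v, hy v]
    | mul x y _ _ hx hy =>
      intro v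
      simp only [Prod.fst_mul, Prod.snd_mul, Module.End.mul_apply, hx, hy]
  -- integrality of eigenvalues
  have hint : ∀ x ∈ Algebra.adjoin ℤ (Set.range gen),
      ∃ z : integralClosure ℤ ℂ, x.2 ξ = (z : ℂ) • ξ := by
    intro x hx
    induction hx using Algebra.adjoin_induction with
    | mem x hx =>
      obtain ⟨i, rfl⟩ := hx
      exact ⟨b i, by rw [hbc i]; exact heig i⟩
    | algebraMap r =>
      refine ⟨(r : integralClosure ℤ ℂ), ?_⟩
      simp only [Prod.algebraMap_apply, Module.algebraMap_end_apply]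
      rw [← Int.cast_smul_eq_zsmul ℂ r ξ]
      simp
    | add x y _ _ hx hy =>
      obtain ⟨z, hz⟩ := hx
      obtain ⟨z', hz'⟩ := hy
      refine ⟨z + z', ?_⟩
      rw [Prod.snd_add, LinearMap.add_apply, hz, hz', ← add_smul]
      simp
    | mul x y _ _ hx hy =>
      obtain ⟨z, hz⟩ := hx
      obtain ⟨z', hz'⟩ := hy
      refine ⟨z' * z, ?_⟩
      rw [Prod.snd_mul, Module.End.mul_apply, hz', map_smul, hz, smul_smul]
      simp
  let genA : I → Algebra.adjoin ℤ (Set.range gen) :=
    fun i => ⟨gen i, Algebra.subset_adjoin ⟨i, rfl⟩⟩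
  let S : Set (Algebra.adjoin ℤ (Set.range gen)) :=
    insert ((p : ℕ) : Algebra.adjoin ℤ (Set.range gen))
      (Set.range fun i => genA i - algebraMap ℤ _ (a i))
  have hφgen : ∀ i, φ (genA i - algebraMap ℤ _ (a i)) = T i - algebraMap ℤ _ (a i) := by
    intro i
    rw [map_sub, hφ, hφ]
    simp [genA, gen]
  have hφcgen : ∀ i, φc (genA i - algebraMap ℤ _ (a i)) = Tc i - algebraMap ℤ _ (a i) := by
    intro i
    rw [map_sub, hφc, hφc]
    simp [genA, gen]
  obtain ⟨v, hv0, hv⟩ := emp_core φ φc ι (fun x v => by rw [hφ, hφc]; exact hequiv _ x.2 v) hspan ξ hξ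
    (fun x => by rw [hφc]; exact hint _ x.2) 𝔪 h𝔪 hp S (Set.mem_insert _ _) (by
      intro x hx
      rcases hx with rfl | ⟨i, rfl⟩
      · refine ⟨(p : integralClosure ℤ ℂ), hp𝔪, ?_⟩
        rw [map_natCast, Module.End.natCast_apply, ← Nat.cast_smul_eq_nsmul ℂ p ξ]
        simp
      · refine ⟨b i - (a i : integralClosure ℤ ℂ), hb𝔪 i, ?_⟩
        rw [hφcgen, LinearMap.sub_apply, Module.algebraMap_end_apply, heig,
          ← Int.cast_smul_eq_zsmul ℂ (a i) ξ, ← sub_smul]
        congr 1
        simp [hbc i])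
  refine ⟨v, hv0, fun i => ?_⟩
  obtain ⟨w, hw⟩ := hv _ (Set.mem_insert_of_mem _ ⟨i, rfl⟩)
  refine ⟨w, ?_⟩
  rw [← hw, hφgen, LinearMap.sub_apply, Module.algebraMap_end_apply]

end Main

end Fermat.Agent.S41x
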