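import Mathlib
import Fermat.Prelude.Def_ModularCurve_PeriodMap

/-!
# S41 block E, input side (lattice part)

For a finitely generated subgroup `Γ ≤ SL(2, ℤ)` (e.g. `Gamma0 N`, `N ≠ 0`):
* `emp_finite_parabolicHoms`: `parabolicHoms ℤ Γ ℤ` is a finite `ℤ`-module;
* `emp_span_parabolicHoms`: its image in `parabolicHoms ℂ Γ ℂ` spans over `ℂ`.
-/

set_option autoImplicit false

open scoped MatrixGroups
open ModularCurve.Period

namespace Fermat.Agent.S41x

section General

variable {G : Type*} [Group G]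

/-- Additive maps out of `Additive G` agreeing on a generating set are equal. -/
theorem emp_hom_ext_of_closure {B : Type*} [AddCommGroup B] {S : Set G}
    (hS : Subgroup.closure S = ⊤) {φ ψ : Additive G →+ B}
    (h : ∀ s ∈ S, φ (Additive.ofMul s) = ψ (Additive.ofMul s)) : φ = ψ := by
  have h2 : (AddMonoidHom.toMultiplicativeRight φ : G →* Multiplicative B) =
      AddMonoidHom.toMultiplicativeRight ψ := by
    apply MonoidHom.eq_of_eqOn_dense hS
    intro s hs
    exact congrArg Multiplicative.ofAdd (h s hs)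
  exact AddMonoidHom.toMultiplicativeRight.injective h2

/-- `Hom(G, ℤ)` is a noetherian `ℤ`-module when `G` is finitely generated. -/
theorem emp_isNoetherian_hom [Group.FG G] : IsNoetherian ℤ (Additive G →+ ℤ) := by
  classical
  obtain ⟨S, hS⟩ := Group.fg_def.mp (inferInstance : Group.FG G)
  let ev : (Additive G →+ ℤ) →ₗ[ℤ] (S → ℤ) :=
    { toFun := fun φ s => φ (Additive.ofMul s.1)
      map_add' := fun _ _ => rfl
      map_smul' := fun _ _ => rfl }
  have hinj : Function.Injective ev := by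
    intro φ ψ h
    apply emp_hom_ext_of_closure hS
    intro s hs
    exact congrFun h ⟨s, hs⟩
  exact isNoetherian_of_injective ev hinj

/-- Change of coefficients `ℤ → ℂ` on homomorphisms. -/
noncomputable def emp_castHom (φ : Additive G →+ ℤ) : Additive G →+ ℂ :=
  (Int.castAddHom ℂ).comp φ

@[simp] theorem emp_castHom_apply (φ : Additive G →+ ℤ) (g : Additive G) :
    emp_castHom φ g = ((φ g : ℤ) : ℂ) := rfl

/-- **Integral decomposition of a complex-valued homomorphism** of a finitely generated group: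
`φ = ∑ j, λ j • (φ_j : G → ℤ)`, where each `φ_j` vanishes wherever `φ` does. -/
theorem emp_exists_integral_decomposition [Group.FG G] (φ : Additive G →+ ℂ) :
    ∃ (J : Type) (_ : Fintype J) (lam : J → ℂ) (φj : J → (Additive G →+ ℤ)),
      (∀ g, φ g = ∑ j, lam j * ((φj j g : ℤ) : ℂ)) ∧
      (∀ g, φ g = 0 → ∀ j, φj j g = 0) := by
  classical
  -- the image lattice
  have : Module.Finite ℤ φ.range := Module.Finite.iff_addGroup_fg.mpr inferInstance
  have : Module.Free ℤ φ.range := inferInstance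
  let b := Module.Free.chooseBasis ℤ φ.range
  let φΛ : Additive G →+ φ.range := φ.rangeRestrict
  have hφΛ : ∀ g, ((φΛ g : φ.range) : ℂ) = φ g := fun _ => rfl
  let φj : Module.Free.ChooseBasisIndex ℤ φ.range → (Additive G →+ ℤ) := fun j =>
    ((Finsupp.applyAddHom j : (Module.Free.ChooseBasisIndex ℤ φ.range →₀ ℤ) →+ ℤ).comp
      (b.repr.toLinearMap.toAddMonoidHom.comp φΛ))
  have hφj : ∀ j g, φj j g = b.repr (φΛ g) j := fun _ _ => rfl
  refine ⟨Module.Free.ChooseBasisIndex ℤ φ.range, inferInstance, fun j => ((b j : φ.range) : ℂ),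
    φj, ?_, ?_⟩
  · intro g
    have h1 := b.sum_repr (φΛ g)
    have h2 := congrArg (fun x : φ.range => (x : ℂ)) h1
    simp only [hφΛ] at h2
    rw [← h2, AddSubgroup.val_finsetSum]
    refine Finset.sum_congr rfl fun j _ => ?_
    rw [hφj, AddSubgroup.coe_zsmul, zsmul_eq_mul, mul_comm]
  · intro g hg j
    have h0 : φΛ g = 0 := Subtype.ext (by rw [hφΛ, hg]; rfl)
    rw [hφj, h0, map_zero, Finsupp.zero_apply]

end General


section Parabolic

theorem emp_fg_SL2Z : Group.FG SL(2, ℤ) := by
  classical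
  rw [Group.fg_def]
  exact ⟨{ModularGroup.S, ModularGroup.T}, by
    rw [Finset.coe_insert, Finset.coe_singleton]
    exact SpecialLinearGroup.SL2Z_generators⟩

theorem emp_fg_Gamma0 (N : ℕ) [NeZero N] : Group.FG (CongruenceSubgroup.Gamma0 N) := by
  have := emp_fg_SL2Z
  exact Subgroup.fg_of_index_ne_zero _

variable (Γ : Subgroup SL(2, ℤ))

/-- Change of coefficients `ℤ → ℂ` on parabolic homomorphisms. -/
noncomputable def emp_castPar : parabolicHoms ℤ Γ ℤ →+ parabolicHoms ℂ Γ ℂ where
  toFun φ := ⟨emp_castHom φ.1, fun γ hγ => by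
    rw [emp_castHom_apply, φ.2 γ hγ, Int.cast_zero]⟩
  map_zero' := by
    apply Subtype.ext
    refine DFunLike.ext _ _ fun g => ?_
    simp
  map_add' φ ψ := by
    apply Subtype.ext
    refine DFunLike.ext _ _ fun g => ?_
    simp

@[simp] theorem emp_castPar_apply (φ : parabolicHoms ℤ Γ ℤ) (g : Additive Γ) :
    (emp_castPar Γ φ).1 g = ((φ.1 g : ℤ) : ℂ) := rfl

theorem emp_castPar_injective : Function.Injective (emp_castPar Γ) := by
  intro φ ψ h
  apply Subtype.ext
  refine DFunLike.ext _ _ fun g => ?_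
  have := congrArg (fun x : parabolicHoms ℂ Γ ℂ => x.1 g) h
  simpa using this

/-- `Hom_par(Γ, ℤ)` is a finite `ℤ`-module for finitely generated `Γ`. -/
theorem emp_finite_parabolicHoms [Group.FG Γ] : Module.Finite ℤ (parabolicHoms ℤ Γ ℤ) := by
  have := emp_isNoetherian_hom (G := Γ)
  infer_instance

/-- `Hom_par(Γ, ℤ)` spans `Hom_par(Γ, ℂ)` over `ℂ` for finitely generated `Γ`. -/
theorem emp_span_parabolicHoms [Group.FG Γ] :
    Submodule.span ℂ (Set.range (emp_castPar Γ)) = ⊤ := by
  classical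
  rw [eq_top_iff]
  rintro ψ -
  obtain ⟨J, _, lam, φj, hsum, hvan⟩ := emp_exists_integral_decomposition ψ.1
  have hpar : ∀ j, φj j ∈ parabolicHoms ℤ Γ ℤ := fun j γ hγ => hvan _ (ψ.2 γ hγ) j
  have hψ : ψ = ∑ j, lam j • emp_castPar Γ ⟨φj j, hpar j⟩ := by
    apply Subtype.ext
    refine DFunLike.ext _ _ fun g => ?_
    rw [hsum g, Submodule.coe_sum, AddMonoidHom.finsetSum_apply]
    refine Finset.sum_congr rfl fun j _ => ?_
    rw [Submodule.coe_smul, AddMonoidHom.smul_apply, emp_castPar_apply, smul_eq_mul]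
  rw [hψ]
  exact Submodule.sum_mem _ fun j _ =>
    Submodule.smul_mem _ _ (Submodule.subset_span ⟨_, rfl⟩)

end Parabolic

end Fermat.Agent.S41x
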