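/-
S41 project (level raising), block E / TOP, STEP 1-2: THE LEVEL-RAISING VECTOR.
(helper92; prefix `emq_`; shape = `LRTopSpec.top_step12` of helper20.)

From the frozen hypotheses of S41 (normalised eigenform `f` of level `N`, maximal ideal `𝔪 ∋ p` of
`ℤ̄`, congruences `a_ℓ(f) ≡ a_ℓ(W) (mod 𝔪)` and `a_q(f)² ≡ (q+1)² (mod 𝔪)`) we produce

  `ε = ±1` and `v ∈ lrL N = H¹_par(Γ₀(N), ℤ)`, `v ∉ p · lrL N`, with
  `lrtT N ℓ v ≡ a_ℓ(W) v`, `lrtT N q v ≡ ε (q+1) v  (mod p · lrL N)`.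

This is step 2 of the Spec proof (`S41x/LRSpec.lean`, header), the input `v, hv, hvT, hvq` of the
abstract Ribet lemma.  Ingredients: helper73 `emp_exists_mod_p_eigen`, `emp_span_parabolicHoms`
(EigenModP / EigenModPSpan), helper26 `lrf26_*` (FormsEigen / FormsComm), helper27
`lrT_isParabolicHom` (CohLevelDefs), helper20 `lrtT`, `lrtT_comm` (LRTopDefs).

Exports:
* `emq_lrT_smul`             : `lrT M ℓ (c • ψ) = c • lrT M ℓ ψ` (any semiring acting on the coefficients);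
* `emq_TC M ℓ`               : `lrT M ℓ` restricted to `parabolicHoms ℂ Γ₀(M) ℂ` (a `ℂ`-linear endomorphism);
* `emq_exists_eps`           : `a² - (q+1)² ∈ 𝔪` ⟹ `a - ε (q+1) ∈ 𝔪` for some `ε = ±1`;
* `emq_exists_modp_eigen`    : general version at level `M` for an arbitrary family of primes/integers;
* `emq_levelRaising_vector`  : `q' : ℕ` with `hq' : q'.Prime`; eigen-congruences for ALL good `ℓ ∤ N`, `ℓ ≠ p`;
* `emq_levelRaising_vector'` : the same with bare homs `v : Additive Γ₀(N) →+ ℤ` and `lrT N ℓ`;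
* `emq_top_step12`           : EXACTLY the shape `LRTopSpec.top_step12` (`[Fact q.Prime]`, `lrPrime q`,
                               `topGood W (N * q) p ℓ` unfolded as
                               `W.IsGoodPrimeFor ℓ ∧ ¬ (ℓ : ℕ) ∣ N * q ∧ (ℓ : ℕ) ≠ p`).
-/
import Fermat.Agent.S41x.EigenModP
import Fermat.Agent.S41x.EigenModPSpan
import Fermat.Agent.S41x.LRTopDefs
import Fermat.Prelude.Def_FLTPrelim_ModularRep

set_option autoImplicit false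

namespace Fermat.Agent.S41x

open scoped MatrixGroups
open CongruenceSubgroup ModularFormClass ModularCurve ModularCurve.Period

section ops

variable (M : ℕ) [NeZero M]

/-- the Hecke operators commute with scalars acting on the coefficient group -/
theorem emq_lrT_smul {R : Type*} [Semiring R] {B : Type*} [AddCommGroup B] [Module R B]
    (ℓ : Nat.Primes) (c : R) (ψ : Additive (Gamma0 M) →+ B) :
    lrT M ℓ (c • ψ) = c • lrT M ℓ ψ :=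
  (S16x.cohOpGen_comp M ℓ (DistribSMul.toAddMonoidHom B c) ψ).symm

/-- `T_ℓ` (`U_ℓ` if `ℓ ∣ M`) on `Hom_par(Γ₀(M), ℂ)` -/
noncomputable def emq_TC (ℓ : Nat.Primes) : Module.End ℂ (parabolicHoms ℂ (Gamma0 M) ℂ) where
  toFun x := ⟨lrT M ℓ x.1, lrT_isParabolicHom M ℓ x.2⟩
  map_add' x y := Subtype.ext (map_add (lrT M ℓ) x.1 y.1)
  map_smul' c x := Subtype.ext (emq_lrT_smul M ℓ c x.1)

@[simp] theorem emq_TC_coe (ℓ : Nat.Primes) (x : parabolicHoms ℂ (Gamma0 M) ℂ) :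
    ((emq_TC M ℓ x : parabolicHoms ℂ (Gamma0 M) ℂ) : Additive (Gamma0 M) →+ ℂ) = lrT M ℓ x.1 := rfl

/-- the coefficient map `lrL M → Hom_par(Γ₀(M), ℂ)` is Hecke equivariant -/
theorem emq_castPar_lrtT (ℓ : Nat.Primes) (x : lrL M) :
    emp_castPar (Gamma0 M) (lrtT M ℓ x) = emq_TC M ℓ (emp_castPar (Gamma0 M) x) := by
  apply Subtype.ext
  exact lrf26_toC_cohOpGen M ℓ x.1

end ops

/-- `a² ≡ (q+1)² (mod 𝔪)`, `𝔪` prime ⟹ `a ≡ ε (q+1) (mod 𝔪)` for a sign `ε`. -/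
theorem emq_exists_eps {A : Type*} [CommRing A] (𝔪 : Ideal A) [𝔪.IsPrime] (a : A) (q : ℕ)
    (h : a ^ 2 - ((q : A) + 1) ^ 2 ∈ 𝔪) :
    ∃ ε : ℤ, (ε = 1 ∨ ε = -1) ∧ a - ((ε * ((q : ℤ) + 1) : ℤ) : A) ∈ 𝔪 := by
  have hfact : (a - ((q : A) + 1)) * (a + ((q : A) + 1)) ∈ 𝔪 := by
    have h1 : (a - ((q : A) + 1)) * (a + ((q : A) + 1)) = a ^ 2 - ((q : A) + 1) ^ 2 := by ring
    rw [h1]
    exact h
  rcases Ideal.IsPrime.mem_or_mem ‹_› hfact with h | h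
  · refine ⟨1, Or.inl rfl, ?_⟩
    have h1 : a - (((1 : ℤ) * ((q : ℤ) + 1) : ℤ) : A) = a - ((q : A) + 1) := by
      push_cast; ring
    rw [h1]
    exact h
  · refine ⟨-1, Or.inr rfl, ?_⟩
    have h1 : a - (((-1 : ℤ) * ((q : ℤ) + 1) : ℤ) : A) = a + ((q : A) + 1) := by
      push_cast; ring
    rw [h1]
    exact h

/-- **General mod-`p` eigenvector in the lattice.**  `f` a normalised eigenform of level `M`,
`(ℓ_i)` any family of primes and `(a_i)` integers with `a_{ℓ_i}(f) ≡ a_i (mod 𝔪)`, `p ∈ 𝔪 ≠ ⊤`: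
there is `v ∈ lrL M ∖ p · lrL M` with `T_{ℓ_i} v ≡ a_i v (mod p · lrL M)` for all `i`. -/
theorem emq_exists_modp_eigen {M : ℕ} [NeZero M] (f : CuspForm (Gamma0 M) 2)
    (hf : f.IsNormalizedEigenform) (𝔪 : Ideal (integralClosure ℤ ℂ)) (h𝔪 : 𝔪 ≠ ⊤)
    {p : ℕ} (hp : p ≠ 0) (hpm : (p : integralClosure ℤ ℂ) ∈ 𝔪)
    {I : Type*} (idx : I → Nat.Primes) (a : I → ℤ)
    (hcong : ∀ i, ∃ b : integralClosure ℤ ℂ, (b : ℂ) = qCoeff f (idx i : ℕ) ∧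
      b - (a i : integralClosure ℤ ℂ) ∈ 𝔪) :
    ∃ v : lrL M, (¬ ∃ z : lrL M, v = (p : ℤ) • z) ∧
      ∀ i, ∃ z : lrL M, lrtT M (idx i) v - a i • v = (p : ℤ) • z := by
  have hfg := emp_fg_Gamma0 M
  have hfin : Module.Finite ℤ (lrL M) := emp_finite_parabolicHoms (Gamma0 M)
  refine emp_exists_mod_p_eigen (V := lrL M) (Vc := parabolicHoms ℂ (Gamma0 M) ℂ)
    (fun i => lrtT M (idx i)) (fun i j => lrtT_comm M (idx i) (idx j))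
    (fun i => emq_TC M (idx i)) (emp_castPar (Gamma0 M))
    (fun i x => emq_castPar_lrtT M (idx i) x) (emp_span_parabolicHoms (Gamma0 M))
    ⟨periodHomPair M (f, 0), lrf26_periodHomPair_mem (f, 0)⟩ ?_
    (fun i => qCoeff f (idx i : ℕ)) ?_ 𝔪 h𝔪 hp hpm a hcong
  · intro h
    exact lrf26_periodHomPair_ne_zero hf (congrArg Subtype.val h)
  · intro i
    apply Subtype.ext
    exact lrf26_cohOpGen_periodHomPair hf (idx i)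

/-- **The level-raising vector** (step 2 of the Spec proof of S41), subtype form; the
eigen-congruences hold for ALL good primes `ℓ ∤ N`, `ℓ ≠ p`. -/
theorem emq_levelRaising_vector
    {W : WeierstrassCurve ℤ} {p N q' : ℕ} [NeZero N] (hp : p.Prime) (hq' : q'.Prime)
    (f : CuspForm (Gamma0 N) 2) (𝔪 : Ideal (integralClosure ℤ ℂ))
    (hf : f.IsNormalizedEigenform) (hmax : 𝔪.IsMaximal) (hpm : (p : integralClosure ℤ ℂ) ∈ 𝔪)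
    (hcong : ∀ ℓ : ℕ, ℓ.Prime → W.IsGoodPrimeFor ℓ → ¬ ℓ ∣ N → ℓ ≠ p →
      ∃ a : integralClosure ℤ ℂ, (a : ℂ) = qCoeff f ℓ ∧
        a - ((W.apOfModel ℓ : ℤ) : integralClosure ℤ ℂ) ∈ 𝔪)
    (hLR : ∃ a : integralClosure ℤ ℂ, (a : ℂ) = qCoeff f q' ∧
      a ^ 2 - ((q' : integralClosure ℤ ℂ) + 1) ^ 2 ∈ 𝔪) :
    ∃ (ε : ℤ) (v : lrL N), (ε = 1 ∨ ε = -1) ∧ (¬ ∃ z : lrL N, v = (p : ℤ) • z) ∧
      (∀ ℓ : Nat.Primes, W.IsGoodPrimeFor ℓ → ¬ (ℓ : ℕ) ∣ N → (ℓ : ℕ) ≠ p →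
        ∃ z : lrL N, lrtT N ℓ v - W.apOfModel ℓ • v = (p : ℤ) • z) ∧
      ∃ z : lrL N, lrtT N ⟨q', hq'⟩ v - (ε * ((q' : ℤ) + 1)) • v = (p : ℤ) • z := by
  classical
  obtain ⟨aq, haq, haqm⟩ := hLR
  have : 𝔪.IsPrime := hmax.isPrime
  obtain ⟨ε, hε, hεm⟩ := emq_exists_eps 𝔪 aq q' haqm
  let S := {ℓ : Nat.Primes // W.IsGoodPrimeFor ℓ ∧ ¬ (ℓ : ℕ) ∣ N ∧ (ℓ : ℕ) ≠ p}
  let idx : Option S → Nat.Primes := fun i => i.elim ⟨q', hq'⟩ (fun s => s.1)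
  let a : Option S → ℤ := fun i => i.elim (ε * ((q' : ℤ) + 1)) (fun s => W.apOfModel s.1)
  obtain ⟨v, hv0, hv⟩ := emq_exists_modp_eigen f hf 𝔪 hmax.ne_top hp.ne_zero hpm idx a (by
    intro i
    cases i with
    | none => exact ⟨aq, haq, hεm⟩
    | some s => exact hcong s.1 s.1.2 s.2.1 s.2.2.1 s.2.2.2)
  refine ⟨ε, v, hε, hv0, fun ℓ h1 h2 h3 => ?_, ?_⟩
  · exact hv (some ⟨ℓ, h1, h2, h3⟩)
  · exact hv none

/-- **The level-raising vector**, bare form (`v : Hom(Γ₀(N), ℤ)`, operators `lrT N ℓ`). -/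
theorem emq_levelRaising_vector'
    {W : WeierstrassCurve ℤ} {p N q' : ℕ} [NeZero N] (hp : p.Prime) (hq' : q'.Prime)
    (f : CuspForm (Gamma0 N) 2) (𝔪 : Ideal (integralClosure ℤ ℂ))
    (hf : f.IsNormalizedEigenform) (hmax : 𝔪.IsMaximal) (hpm : (p : integralClosure ℤ ℂ) ∈ 𝔪)
    (hcong : ∀ ℓ : ℕ, ℓ.Prime → W.IsGoodPrimeFor ℓ → ¬ ℓ ∣ N → ℓ ≠ p →
      ∃ a : integralClosure ℤ ℂ, (a : ℂ) = qCoeff f ℓ ∧
        a - ((W.apOfModel ℓ : ℤ) : integralClosure ℤ ℂ) ∈ 𝔪)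
    (hLR : ∃ a : integralClosure ℤ ℂ, (a : ℂ) = qCoeff f q' ∧
      a ^ 2 - ((q' : integralClosure ℤ ℂ) + 1) ^ 2 ∈ 𝔪) :
    ∃ (ε : ℤ) (v : Additive (Gamma0 N) →+ ℤ), (ε = 1 ∨ ε = -1) ∧ v ∈ lrL N ∧
      (¬ ∃ z ∈ lrL N, v = (p : ℤ) • z) ∧
      (∀ ℓ : Nat.Primes, W.IsGoodPrimeFor ℓ → ¬ (ℓ : ℕ) ∣ N → (ℓ : ℕ) ≠ p →
        ∃ z ∈ lrL N, lrT N ℓ v - W.apOfModel ℓ • v = (p : ℤ) • z) ∧
      ∃ z ∈ lrL N, lrT N ⟨q', hq'⟩ v - (ε * ((q' : ℤ) + 1)) • v = (p : ℤ) • z := by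
  obtain ⟨ε, v, hε, hv0, hvT, hvq⟩ := emq_levelRaising_vector hp hq' f 𝔪 hf hmax hpm hcong hLR
  refine ⟨ε, v.1, hε, v.2, ?_, fun ℓ h1 h2 h3 => ?_, ?_⟩
  · rintro ⟨z, hz, h⟩
    exact hv0 ⟨⟨z, hz⟩, Subtype.ext h⟩
  · obtain ⟨z, hz⟩ := hvT ℓ h1 h2 h3
    exact ⟨z.1, z.2, congrArg Subtype.val hz⟩
  · obtain ⟨z, hz⟩ := hvq
    exact ⟨z.1, z.2, congrArg Subtype.val hz⟩

/-- **STEP 1-2 of E-TOP**, EXACTLY the shape `LRTopSpec.top_step12`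
(`topGood W (N * q) p ℓ` is, by definition, `W.IsGoodPrimeFor ℓ ∧ ¬ (ℓ : ℕ) ∣ N * q ∧ (ℓ : ℕ) ≠ p`). -/
theorem emq_top_step12 {W : WeierstrassCurve ℤ}
    {p N q : ℕ} [NeZero N] [Fact q.Prime] (hp : p.Prime)
    (f : CuspForm (Gamma0 N) 2) (𝔪 : Ideal (integralClosure ℤ ℂ))
    (hf : f.IsNormalizedEigenform) (hmax : 𝔪.IsMaximal) (hpm : (p : integralClosure ℤ ℂ) ∈ 𝔪)
    (hcong : ∀ ℓ : ℕ, ℓ.Prime → W.IsGoodPrimeFor ℓ → ¬ ℓ ∣ N → ℓ ≠ p →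
      ∃ a : integralClosure ℤ ℂ, (a : ℂ) = ModularFormClass.qCoeff f ℓ ∧
        a - ((W.apOfModel ℓ : ℤ) : integralClosure ℤ ℂ) ∈ 𝔪)
    (hLR : ∃ a : integralClosure ℤ ℂ, (a : ℂ) = ModularFormClass.qCoeff f q ∧
      a ^ 2 - ((q : integralClosure ℤ ℂ) + 1) ^ 2 ∈ 𝔪) :
    ∃ (ε : ℤ) (v : lrL N), (ε = 1 ∨ ε = -1) ∧ (¬ ∃ w : lrL N, v = (p : ℤ) • w) ∧
      (∀ ℓ : Nat.Primes, (W.IsGoodPrimeFor ℓ ∧ ¬ (ℓ : ℕ) ∣ N * q ∧ (ℓ : ℕ) ≠ p) →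
        ∃ w : lrL N, lrtT N ℓ v - (W.apOfModel ℓ : ℤ) • v = (p : ℤ) • w) ∧
      ∃ w : lrL N, lrtT N (lrPrime q) v - (ε * ((q : ℤ) + 1)) • v = (p : ℤ) • w := by
  obtain ⟨ε, v, hε, hv0, hvT, hvq⟩ :=
    emq_levelRaising_vector hp (Fact.out : q.Prime) f 𝔪 hf hmax hpm hcong hLR
  refine ⟨ε, v, hε, hv0, fun ℓ h => ?_, hvq⟩
  exact hvT ℓ h.1 (fun hd => h.2.1 (Dvd.dvd.mul_right hd q)) h.2.2

end Fermat.Agent.S41x
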