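/-
S41 project (level raising), block E, row LAT (helper95): lattices of homomorphisms.
EXACT Spec shapes of `LRSpec` row LAT: `lhb_finite_par`, `lhb_span_par_C`, `lhb_modp`.

For a group `G` and a field `K` of characteristic zero:

* `lhb_cast K : Hom(G, ℤ) →ₗ[ℤ] Hom(G, K)`  (post-composition with `ℤ → K`);
* `lhb_linearIndependent_fun / lhb_linearIndependent` : `ℤ`-linearly independent families of
  integer-valued functions / homomorphisms stay linearly independent over `K`;
* `lhb_iota K L : K ⊗[ℤ] L →ₗ[K] Hom(G, K)`, `c ⊗ ψ ↦ c • cast ψ`, for a `ℤ`-submodule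
  `L ≤ Hom(G, ℤ)`; `lhb_iota_injective` (for `L` free);
* `lhb_exists_coords` : for `G` finitely generated every `φ : G → K` is a `K`-combination of
  integer-valued homomorphisms vanishing wherever `φ` vanishes;
* `lhb_finite`, `lhb_free` : for `G` finitely generated every submodule of `Hom(G, ℤ)` is a
  finite free `ℤ`-module;
* `lhb_div` : divisibility (saturation) `cast_p ψ = 0 ⇒ ψ = p • ψ'`.
-/
import Mathlib
import Fermat.Prelude.Def_ModularCurve_PeriodMap

set_option autoImplicit false

namespace Fermat.Agent.S41x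

open scoped TensorProduct

section functions

variable {X : Type*} {K : Type*} [Field K] [CharZero K]

/-- **Key lemma**: `ℤ`-linearly independent integer-valued functions are `K`-linearly
independent. -/
theorem lhb_linearIndependent_fun {ι : Type*} (v : ι → X → ℤ) (hv : LinearIndependent ℤ v) :
    LinearIndependent K (fun i => fun x => ((v i x : ℤ) : K)) := by
  classical
  rw [linearIndependent_iff']
  intro s c hc i₀ hi₀
  -- the `ℤ`-span of the coefficients is a finite free `ℤ`-module
  set Λ : Submodule ℤ K := Submodule.span ℤ (c '' (s : Set ι)) with hΛ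
  have hfin : Module.Finite ℤ Λ :=
    Module.Finite.span_of_finite ℤ ((Finset.finite_toSet s).image c)
  obtain ⟨n, d⟩ : Σ n : ℕ, Module.Basis (Fin n) ℤ Λ := Module.basisOfFiniteTypeTorsionFree'
  have hmem : ∀ i ∈ s, c i ∈ Λ := fun i hi =>
    Submodule.subset_span (Set.mem_image_of_mem c hi)
  -- integer coordinates
  let m : ι → Fin n → ℤ := fun i k => if hi : i ∈ s then d.repr ⟨c i, hmem i hi⟩ k else 0
  have hcm : ∀ i ∈ s, c i = ∑ k, (m i k : K) * (d k : K) := by
    intro i hi
    have h1 := d.sum_repr ⟨c i, hmem i hi⟩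
    have h2 := congrArg (Subtype.val : Λ → K) h1
    simp only [Submodule.coe_sum, Submodule.coe_smul, zsmul_eq_mul] at h2
    rw [← h2]
    refine Finset.sum_congr rfl fun k _ => ?_
    simp only [m, dif_pos hi]
  -- the `d k` are `ℤ`-linearly independent in `K`
  have hdK : LinearIndependent ℤ (fun k => (d k : K)) :=
    d.linearIndependent.map' Λ.subtype (Submodule.ker_subtype Λ)
  -- for every point, the combination vanishes
  have hpt : ∀ x : X, ∀ k : Fin n, ∑ i ∈ s, m i k * v i x = 0 := by
    intro x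
    have h1 := congrFun hc x
    simp only [Finset.sum_apply, Pi.smul_apply, smul_eq_mul, Pi.zero_apply] at h1
    have h2 : ∑ k, ((∑ i ∈ s, m i k * v i x : ℤ)) • (d k : K) = 0 := by
      rw [← h1]
      simp only [zsmul_eq_mul, Int.cast_sum, Int.cast_mul, Finset.sum_mul]
      rw [Finset.sum_comm]
      refine Finset.sum_congr rfl fun i hi => ?_
      rw [hcm i hi, Finset.sum_mul]
      refine Finset.sum_congr rfl fun k _ => ?_
      ring
    have h3 := (Fintype.linearIndependent_iff.mp hdK) (fun k => ∑ i ∈ s, m i k * v i x) h2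
    exact h3
  -- hence all integer coordinates vanish
  have hm0 : ∀ k : Fin n, ∀ i ∈ s, m i k = 0 := by
    intro k
    have h1 : ∑ i ∈ s, m i k • v i = 0 := by
      funext x
      simp only [Finset.sum_apply, Pi.smul_apply, smul_eq_mul, Pi.zero_apply]
      exact hpt x k
    exact (linearIndependent_iff'.mp hv) s (fun i => m i k) h1
  rw [hcm i₀ hi₀]
  refine Finset.sum_eq_zero fun k _ => ?_
  rw [hm0 k i₀ hi₀]
  simp

end functions

section homs

variable {G : Type*} [Group G]

/-- post-composition with `ℤ → R` -/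
def lhb_cast (R : Type*) [Ring R] : (Additive G →+ ℤ) →ₗ[ℤ] (Additive G →+ R) where
  toFun ψ := (Int.castAddHom R).comp ψ
  map_add' ψ₁ ψ₂ := by
    refine AddMonoidHom.ext fun a => ?_
    simp
  map_smul' n ψ := by
    refine AddMonoidHom.ext fun a => ?_
    simp

@[simp] theorem lhb_cast_apply (R : Type*) [Ring R] (ψ : Additive G →+ ℤ) (a : Additive G) :
    lhb_cast R ψ a = ((ψ a : ℤ) : R) := rfl

theorem lhb_cast_injective (R : Type*) [Ring R] [CharZero R] :
    Function.Injective (lhb_cast (G := G) R) := by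
  intro ψ₁ ψ₂ h
  refine AddMonoidHom.ext fun a => ?_
  have := DFunLike.congr_fun h a
  simpa using this

variable (K : Type*) [Field K] [CharZero K]

/-- `ℤ`-linearly independent integer-valued homomorphisms are `K`-linearly independent. -/
theorem lhb_linearIndependent {ι : Type*} (v : ι → (Additive G →+ ℤ))
    (hv : LinearIndependent ℤ v) : LinearIndependent K (fun i => lhb_cast K (v i)) := by
  -- evaluate as functions
  let ev : (Additive G →+ ℤ) →ₗ[ℤ] (Additive G → ℤ) :=
    { toFun := fun ψ => ψ, map_add' := fun _ _ => rfl, map_smul' := fun _ _ => rfl }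
  let evK : (Additive G →+ K) →ₗ[K] (Additive G → K) :=
    { toFun := fun ψ => ψ, map_add' := fun _ _ => rfl, map_smul' := fun _ _ => rfl }
  have hev : LinearMap.ker ev = ⊥ := by
    rw [LinearMap.ker_eq_bot]
    intro ψ₁ ψ₂ h
    exact DFunLike.coe_injective h
  have h1 : LinearIndependent ℤ (fun i => (v i : Additive G → ℤ)) := hv.map' ev hev
  have h2 := lhb_linearIndependent_fun (K := K) (fun i => (v i : Additive G → ℤ)) h1
  exact LinearIndependent.of_comp evK h2

/-- the comparison map `K ⊗ L → Hom(G, K)`, `c ⊗ ψ ↦ c • cast ψ` -/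
noncomputable def lhb_iota (L : Submodule ℤ (Additive G →+ ℤ)) :
    K ⊗[ℤ] L →ₗ[K] (Additive G →+ K) :=
  ((lhb_cast K).comp L.subtype).liftBaseChange K

omit [CharZero K] in
@[simp] theorem lhb_iota_tmul (L : Submodule ℤ (Additive G →+ ℤ)) (c : K) (ψ : L) :
    lhb_iota K L (c ⊗ₜ ψ) = c • lhb_cast K (ψ : Additive G →+ ℤ) := rfl

omit [CharZero K] in
theorem lhb_iota_tmul_apply (L : Submodule ℤ (Additive G →+ ℤ)) (c : K) (ψ : L)
    (a : Additive G) :
    lhb_iota K L (c ⊗ₜ ψ) a = c * (((ψ : Additive G →+ ℤ) a : ℤ) : K) := rfl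

/-- the comparison map is injective (for `L` free) -/
theorem lhb_iota_injective (L : Submodule ℤ (Additive G →+ ℤ)) [Module.Free ℤ L] :
    Function.Injective (lhb_iota K L) := by
  classical
  let b := Module.Free.chooseBasis ℤ L
  have hb : LinearIndependent ℤ (fun i => ((b i : L) : Additive G →+ ℤ)) :=
    b.linearIndependent.map' L.subtype (Submodule.ker_subtype L)
  have hK := lhb_linearIndependent K _ hb
  let bK := Algebra.TensorProduct.basis K b
  have himg : (fun i => lhb_iota K L (bK i)) =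
      fun i => lhb_cast K ((b i : L) : Additive G →+ ℤ) := by
    funext i
    rw [Algebra.TensorProduct.basis_apply, lhb_iota_tmul, one_smul]
  rw [← LinearMap.ker_eq_bot]
  apply LinearMap.ker_eq_bot_of_injective
  rw [injective_iff_map_eq_zero]
  intro x hx
  have hx' : ∑ i ∈ (bK.repr x).support, (bK.repr x i) • lhb_iota K L (bK i) = 0 := by
    rw [← hx]
    conv_rhs => rw [← bK.linearCombination_repr x]
    rw [Finsupp.linearCombination_apply, Finsupp.sum, map_sum]
    simp
  have h0 := (linearIndependent_iff'.mp (himg ▸ hK)) (bK.repr x).support (fun i => bK.repr x i) hx'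
  have : bK.repr x = 0 := by
    ext i
    by_cases hi : i ∈ (bK.repr x).support
    · exact h0 i hi
    · simpa using hi
  exact (bK.repr.map_eq_zero_iff).mp this

/-- divisibility: an integral class whose reduction mod `n` vanishes is `n` times an integral
class, vanishing wherever the original one does -/
theorem lhb_div (n : ℕ) [NeZero n] (ψ : Additive G →+ ℤ) (h : lhb_cast (ZMod n) ψ = 0) :
    ∃ ψ' : Additive G →+ ℤ, ψ = (n : ℤ) • ψ' ∧ ∀ a, ψ a = 0 → ψ' a = 0 := by
  have hn : (n : ℤ) ≠ 0 := by exact_mod_cast NeZero.ne n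
  have hdvd : ∀ a, (n : ℤ) ∣ ψ a := by
    intro a
    have := DFunLike.congr_fun h a
    rw [lhb_cast_apply] at this
    exact (ZMod.intCast_zmod_eq_zero_iff_dvd _ _).mp this
  refine ⟨AddMonoidHom.mk' (fun a => ψ a / (n : ℤ)) ?_, ?_, ?_⟩
  · intro a b
    rw [map_add]
    exact Int.add_ediv_of_dvd_left (hdvd a)
  · refine AddMonoidHom.ext fun a => ?_
    simp only [AddMonoidHom.smul_apply, AddMonoidHom.mk'_apply, smul_eq_mul]
    rw [Int.mul_ediv_cancel' (hdvd a)]
  · intro a ha
    simp [ha]

variable [hG : Group.FG G]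

/-- for `G` finitely generated, the `ℤ`-span of the values of a homomorphism on a finite
generating set contains all its values -/
theorem lhb_exists_finite_span {A : Type*} [AddCommGroup A] (φ : Additive G →+ A) :
    ∃ S : Set A, S.Finite ∧ ∀ a, φ a ∈ Submodule.span ℤ S := by
  obtain ⟨S, hS, hfin⟩ := Group.fg_iff.mp hG
  refine ⟨(fun g => φ (Additive.ofMul g)) '' S, hfin.image _, ?_⟩
  intro a
  obtain ⟨g, rfl⟩ := Additive.ofMul.surjective a
  have hg : g ∈ Subgroup.closure S := by rw [hS]; trivial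
  induction hg using Subgroup.closure_induction with
  | mem x hx => exact Submodule.subset_span ⟨x, hx, rfl⟩
  | one => simp
  | mul x y _ _ hx hy =>
    rw [ofMul_mul, map_add]
    exact Submodule.add_mem _ hx hy
  | inv x _ hx =>
    rw [ofMul_inv, map_neg]
    exact Submodule.neg_mem _ hx

/-- for `G` finitely generated, every `φ : G → K` is a `K`-combination of integer-valued
homomorphisms, each of which vanishes wherever `φ` does -/
theorem lhb_exists_coords (φ : Additive G →+ K) :
    ∃ (n : ℕ) (c : Fin n → K) (ψ : Fin n → (Additive G →+ ℤ)),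
      φ = ∑ k, c k • lhb_cast K (ψ k) ∧ ∀ a, φ a = 0 → ∀ k, ψ k a = 0 := by
  obtain ⟨S, hSfin, hS⟩ := lhb_exists_finite_span φ
  set Λ : Submodule ℤ K := Submodule.span ℤ S with hΛ
  have hfin : Module.Finite ℤ Λ := Module.Finite.span_of_finite ℤ hSfin
  obtain ⟨n, d⟩ : Σ n : ℕ, Module.Basis (Fin n) ℤ Λ := Module.basisOfFiniteTypeTorsionFree'
  -- `φ` as a map into `Λ`
  let φΛ : Additive G →+ Λ :=
    { toFun := fun a => ⟨φ a, hS a⟩
      map_zero' := by ext; simp
      map_add' := fun a b => by ext; simp }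
  refine ⟨n, fun k => (d k : K),
    fun k => ((d.coord k : Λ →ₗ[ℤ] ℤ).toAddMonoidHom).comp φΛ, ?_, ?_⟩
  · refine AddMonoidHom.ext fun a => ?_
    have h1 := d.sum_repr (φΛ a)
    have h2 := congrArg (Subtype.val : Λ → K) h1
    simp only [Submodule.coe_sum, Submodule.coe_smul, zsmul_eq_mul] at h2
    rw [AddMonoidHom.finsetSum_apply]
    simp only [AddMonoidHom.smul_apply, lhb_cast_apply, AddMonoidHom.comp_apply, smul_eq_mul]
    rw [show φ a = ((φΛ a : Λ) : K) from rfl, ← h2]
    refine Finset.sum_congr rfl fun k _ => ?_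
    rw [mul_comm]
    rfl
  · intro a ha k
    have : φΛ a = 0 := Subtype.ext ha
    simp only [AddMonoidHom.comp_apply, this]
    simp

omit hG in
theorem lhb_isTorsionFree : Module.IsTorsionFree ℤ (Additive G →+ ℤ) := by
  apply Module.IsTorsionFree.of_smul_eq_zero
  intro r ψ h
  by_cases hr : r = 0
  · exact Or.inl hr
  · right
    refine AddMonoidHom.ext fun a => ?_
    have := DFunLike.congr_fun h a
    simp only [AddMonoidHom.smul_apply, smul_eq_mul, AddMonoidHom.zero_apply, mul_eq_zero] at this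
    exact this.resolve_left hr

/-- `Hom(G, ℤ)` is a finite `ℤ`-module for `G` finitely generated -/
theorem lhb_finite_top : Module.Finite ℤ (Additive G →+ ℤ) := by
  obtain ⟨S, hS, hfin⟩ := Group.fg_iff.mp hG
  have : Finite S := hfin
  let ev : (Additive G →+ ℤ) →ₗ[ℤ] (S → ℤ) :=
    { toFun := fun ψ s => ψ (Additive.ofMul (s : G))
      map_add' := fun _ _ => rfl
      map_smul' := fun _ _ => rfl }
  have hev : Function.Injective ev := by
    intro ψ₁ ψ₂ h
    refine AddMonoidHom.ext fun a => ?_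
    obtain ⟨g, rfl⟩ := Additive.ofMul.surjective a
    have hg : g ∈ Subgroup.closure S := by rw [hS]; trivial
    induction hg using Subgroup.closure_induction with
    | mem x hx => exact congrFun h ⟨x, hx⟩
    | one => simp
    | mul x y _ _ hx hy => rw [ofMul_mul, map_add, map_add, hx, hy]
    | inv x _ hx => rw [ofMul_inv, map_neg, map_neg, hx]
  exact Module.Finite.of_injective ev hev

/-- every submodule of `Hom(G, ℤ)` is a finite `ℤ`-module (`G` finitely generated) -/
theorem lhb_finite (L : Submodule ℤ (Additive G →+ ℤ)) : Module.Finite ℤ L := by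
  haveI := lhb_finite_top (G := G)
  exact Module.Finite.of_injective L.subtype (Submodule.injective_subtype L)

/-- every submodule of `Hom(G, ℤ)` is a free `ℤ`-module (`G` finitely generated) -/
theorem lhb_free (L : Submodule ℤ (Additive G →+ ℤ)) : Module.Free ℤ L := by
  haveI := lhb_finite L
  haveI : Module.IsTorsionFree ℤ (Additive G →+ ℤ) := lhb_isTorsionFree
  haveI : Module.IsTorsionFree ℤ L :=
    Function.Injective.moduleIsTorsionFree L.subtype (Submodule.injective_subtype L)
      (fun _ _ => rfl)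
  exact Module.free_of_finite_type_torsion_free'

end homs

/-! ## parabolic classes of a finite index subgroup of `SL(2, ℤ)`
(exact shapes of the row LAT of `LRSpec`) -/

section parabolic

open scoped MatrixGroups
open ModularCurve.Period

/-- `SL(2, ℤ)` is finitely generated -/
theorem lhb_fg_SL2Z : Group.FG SL(2, ℤ) := by
  rw [Group.fg_iff]
  exact ⟨{ModularGroup.S, ModularGroup.T}, SpecialLinearGroup.SL2Z_generators, by simp⟩

/-- a finite index subgroup of `SL(2, ℤ)` is finitely generated -/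
theorem lhb_fg_of_finiteIndex (Γ : Subgroup SL(2, ℤ)) [Γ.FiniteIndex] : Group.FG Γ := by
  haveI := lhb_fg_SL2Z
  exact Subgroup.fg_of_index_ne_zero Γ

variable (Γ : Subgroup SL(2, ℤ))

/-- LAT: `Hom_par(Γ, ℤ)` is a finite `ℤ`-module -/
theorem lhb_finite_par [Γ.FiniteIndex] : Module.Finite ℤ (parabolicHoms ℤ Γ ℤ) := by
  haveI := lhb_fg_of_finiteIndex Γ
  exact lhb_finite _

/-- LAT: `Hom_par(Γ, ℤ)` is a free `ℤ`-module -/
theorem lhb_free_par [Γ.FiniteIndex] : Module.Free ℤ (parabolicHoms ℤ Γ ℤ) := by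
  haveI := lhb_fg_of_finiteIndex Γ
  exact lhb_free _

/-- the cast of a parabolic class is parabolic -/
theorem lhb_cast_mem_par (R : Type*) [Ring R] {ψ : Additive Γ →+ ℤ}
    (hψ : ψ ∈ parabolicHoms ℤ Γ ℤ) : lhb_cast R ψ ∈ parabolicHoms R Γ R := by
  intro γ hγ
  rw [lhb_cast_apply, hψ γ hγ, Int.cast_zero]

/-- LAT: `Hom_par(Γ, K)` is spanned over `K` by `Hom_par(Γ, ℤ)` (`K` a field of characteristic
zero; this is `LRSpec.lat_span` for `K = ℂ`, `lat_toC = lhb_cast ℂ` definitionally) -/
theorem lhb_span_par [Γ.FiniteIndex] (K : Type*) [Field K] [CharZero K] (φ : Additive Γ →+ K)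
    (hφ : φ ∈ parabolicHoms K Γ K) :
    φ ∈ Submodule.span K (Set.range fun x : parabolicHoms ℤ Γ ℤ => lhb_cast K x.1) := by
  haveI := lhb_fg_of_finiteIndex Γ
  obtain ⟨n, c, ψ, hsum, hvan⟩ := lhb_exists_coords K φ
  have hpar : ∀ k, ψ k ∈ parabolicHoms ℤ Γ ℤ := fun k γ hγ => hvan _ (hφ γ hγ) k
  rw [hsum]
  refine Submodule.sum_mem _ fun k _ => Submodule.smul_mem _ _ ?_
  exact Submodule.subset_span ⟨⟨ψ k, hpar k⟩, rfl⟩

/-- `lat_span` of `LRSpec`, verbatim shape (with `(Int.castAddHom ℂ).comp`) -/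
theorem lhb_span_par_C [Γ.FiniteIndex] (φ : Additive Γ →+ ℂ) (hφ : φ ∈ parabolicHoms ℂ Γ ℂ) :
    φ ∈ Submodule.span ℂ
      (Set.range fun x : parabolicHoms ℤ Γ ℤ => (Int.castAddHom ℂ).comp x.1) :=
  lhb_span_par Γ ℂ φ hφ

/-- LAT: `Hom_par(Γ, ℤ) / p ↪ Hom(Γ, ℤ/p)` (`LRSpec.lat_modp`) -/
theorem lhb_modp (p : ℕ) (hp : p ≠ 0) (x : Additive Γ →+ ℤ) (hx : x ∈ parabolicHoms ℤ Γ ℤ)
    (h : ∀ γ, (p : ℤ) ∣ x γ) : ∃ x' ∈ parabolicHoms ℤ Γ ℤ, x = (p : ℤ) • x' := by
  haveI : NeZero p := ⟨hp⟩
  have h0 : lhb_cast (ZMod p) x = 0 := by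
    refine AddMonoidHom.ext fun a => ?_
    rw [lhb_cast_apply]
    exact (ZMod.intCast_zmod_eq_zero_iff_dvd _ _).mpr (h a)
  obtain ⟨x', hx', hvan⟩ := lhb_div p x h0
  exact ⟨x', fun γ hγ => hvan _ (hx γ hγ), hx'⟩

/-- the comparison map `K ⊗ Hom_par(Γ, ℤ) → Hom_par(Γ, K)` is injective with range the parabolic
classes -/
theorem lhb_iota_par [Γ.FiniteIndex] (K : Type*) [Field K] [CharZero K] :
    Function.Injective (lhb_iota K (parabolicHoms ℤ Γ ℤ)) ∧
      LinearMap.range (lhb_iota K (parabolicHoms ℤ Γ ℤ)) = parabolicHoms K Γ K := by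
  haveI := lhb_fg_of_finiteIndex Γ
  haveI := lhb_free (parabolicHoms ℤ Γ ℤ)
  refine ⟨lhb_iota_injective K _, le_antisymm ?_ ?_⟩
  · rintro _ ⟨x, rfl⟩
    induction x using TensorProduct.induction_on with
    | zero => simp
    | tmul c ψ =>
      rw [lhb_iota_tmul]
      exact Submodule.smul_mem _ _ (lhb_cast_mem_par Γ K ψ.2)
    | add x y hx hy =>
      rw [map_add]
      exact Submodule.add_mem _ hx hy
  · intro φ hφ
    have h := lhb_span_par Γ K φ hφ
    refine (Submodule.span_le.mpr ?_) h
    rintro _ ⟨ψ, rfl⟩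
    exact ⟨(1 : K) ⊗ₜ ψ, by rw [lhb_iota_tmul, one_smul]⟩

end parabolic

end Fermat.Agent.S41x
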