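/-
S41 project (level raising), block B (COH-LEVEL), module B1 (helper27):
the four degeneracy correspondences between `Γ₀(N q)` and `Γ₀(N)` (`q` prime, `q ∤ N`) on
`Hom(-, B)`:
* `lrl_res`      : `Hom(Γ₀(N), B) → Hom(Γ₀(N q), B)`, restriction (`A = 1`);
* `lrl_resEta`   : `Hom(Γ₀(N), B) → Hom(Γ₀(N q), B)`, `ψ ↦ (γ ↦ ψ (η γ η⁻¹))`, `η = diag(q, 1)`;
* `lrl_cores`    : `Hom(Γ₀(N q), B) → Hom(Γ₀(N), B)`, transfer (coset reps `g_x`, `x ∈ ℙ¹(𝔽_q)`);
* `lrl_coresEta` : `Hom(Γ₀(N q), B) → Hom(Γ₀(N), B)`, twisted transfer (reps `diag(1,q) s_x`).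
-/
import Fermat.Agent.S41x.CohCorr
import Fermat.Agent.S16x.CohGamma0

set_option autoImplicit false

namespace Fermat.Agent.S41x

open scoped MatrixGroups
open Fermat.Agent.S16x CongruenceSubgroup Matrix.SpecialLinearGroup

/-! ## constructing elements of `Γ₀(N)` from entries -/

/-- the element `[[a,b],[c,d]]` of `SL(2,ℤ)` -/
def lrl_sl (a b c d : ℤ) (hdet : a * d - b * c = 1) : SL(2, ℤ) :=
  ⟨!![a, b; c, d], by rw [Matrix.det_fin_two_of]; exact hdet⟩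

@[simp] theorem lrl_sl_coe (a b c d : ℤ) (hdet : a * d - b * c = 1) :
    ((lrl_sl a b c d hdet : SL(2, ℤ)) : Matrix (Fin 2) (Fin 2) ℤ) = !![a, b; c, d] := rfl

/-- the element `[[a,b],[c,d]]` of `Γ₀(N)`, `N ∣ c` -/
def lrl_g0 (N : ℕ) (a b c d : ℤ) (hdet : a * d - b * c = 1) (hc : (N : ℤ) ∣ c) : Gamma0 N :=
  ⟨lrl_sl a b c d hdet, coh_mem_Gamma0_of_dvd N (by simpa [lrl_sl] using hc)⟩

@[simp] theorem lrl_cohMat_g0 (N : ℕ) (a b c d : ℤ) (hdet : a * d - b * c = 1)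
    (hc : (N : ℤ) ∣ c) : cohMat (lrl_g0 N a b c d hdet hc) = !![a, b; c, d] := rfl

theorem lrl_cohMat_eq (N : ℕ) (γ : Gamma0 N) :
    cohMat γ = !![(γ : SL(2, ℤ)) 0 0, (γ : SL(2, ℤ)) 0 1; (γ : SL(2, ℤ)) 1 0, (γ : SL(2, ℤ)) 1 1] := by
  ext i j
  fin_cases i <;> fin_cases j <;> rfl

theorem lrl_det (N : ℕ) (γ : Gamma0 N) :
    (γ : SL(2, ℤ)) 0 0 * (γ : SL(2, ℤ)) 1 1 - (γ : SL(2, ℤ)) 0 1 * (γ : SL(2, ℤ)) 1 0 = 1 :=
  coh_det_eq (γ : SL(2, ℤ))

theorem lrl_dvd (N : ℕ) (γ : Gamma0 N) : (N : ℤ) ∣ (γ : SL(2, ℤ)) 1 0 :=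
  coh_dvd_of_mem_Gamma0 N γ.2

theorem lrl_cohMat_det {Γ : Subgroup SL(2, ℤ)} (γ : Γ) : (cohMat γ).det = 1 :=
  (γ : SL(2, ℤ)).det_coe

theorem lrl_mat_eq {a b c d a' b' c' d' : ℤ} (h1 : a = a') (h2 : b = b') (h3 : c = c')
    (h4 : d = d') : (!![a, b; c, d] : Matrix (Fin 2) (Fin 2) ℤ) = !![a', b'; c', d'] := by
  subst h1 h2 h3 h4; rfl

theorem lrl_mat_inj {a b c d a' b' c' d' : ℤ}
    (h : (!![a, b; c, d] : Matrix (Fin 2) (Fin 2) ℤ) = !![a', b'; c', d']) :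
    a = a' ∧ b = b' ∧ c = c' ∧ d = d' := by
  refine ⟨?_, ?_, ?_, ?_⟩
  · simpa using congrFun (congrFun h 0) 0
  · simpa using congrFun (congrFun h 0) 1
  · simpa using congrFun (congrFun h 1) 0
  · simpa using congrFun (congrFun h 1) 1

/-! ## Bezout data for `q ∤ N` -/

theorem lrl_exists_bezout (N q : ℕ) [Fact q.Prime] (hqN : ¬ q ∣ N) :
    ∃ u v : ℤ, u * q - v * N = 1 := by
  have hcop : Nat.Coprime q N := (Nat.Prime.coprime_iff_not_dvd Fact.out).mpr hqN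
  have h := Int.gcd_eq_gcd_ab (q : ℤ) (N : ℤ)
  have hg : Int.gcd (q : ℤ) (N : ℤ) = 1 := by
    rw [Int.gcd_natCast_natCast]; exact hcop
  rw [hg] at h
  refine ⟨Int.gcdA q N, -Int.gcdB q N, ?_⟩
  push_cast at h
  linarith

/-- Bezout coefficient `u` (`u q - v N = 1`) -/
noncomputable def lrl_u (N q : ℕ) [Fact q.Prime] (hqN : ¬ q ∣ N) : ℤ :=
  (lrl_exists_bezout N q hqN).choose

/-- Bezout coefficient `v` (`u q - v N = 1`) -/
noncomputable def lrl_v (N q : ℕ) [Fact q.Prime] (hqN : ¬ q ∣ N) : ℤ :=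
  (lrl_exists_bezout N q hqN).choose_spec.choose

theorem lrl_uv (N q : ℕ) [Fact q.Prime] (hqN : ¬ q ∣ N) :
    lrl_u N q hqN * q - lrl_v N q hqN * N = 1 :=
  (lrl_exists_bezout N q hqN).choose_spec.choose_spec

/-! ## the coset representatives of `Γ₀(N q)` in `Γ₀(N)` -/

section reps

variable (N q : ℕ) [Fact q.Prime] (hqN : ¬ q ∣ N)

/-- `g_j = [[1,0],[N j,1]]` -/
def lrl_gFin (j : ZMod q) : Gamma0 N :=
  lrl_g0 N 1 0 ((N : ℤ) * (j.val : ℤ)) 1 (by ring) (Dvd.intro _ rfl)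

/-- `g_∞ = [[u,v],[N,q]]` -/
noncomputable def lrl_gInf : Gamma0 N :=
  lrl_g0 N (lrl_u N q hqN) (lrl_v N q hqN) (N : ℤ) (q : ℤ) (lrl_uv N q hqN) dvd_rfl

/-- the coset representatives `g_x`, `x ∈ ℙ¹(𝔽_q)` -/
noncomputable def lrl_g (x : OnePoint (ZMod q)) : Gamma0 N :=
  x.elim (lrl_gInf N q hqN) (lrl_gFin N q)

@[simp] theorem lrl_g_infty : lrl_g N q hqN OnePoint.infty = lrl_gInf N q hqN := rfl

@[simp] theorem lrl_g_coe (j : ZMod q) : lrl_g N q hqN (j : OnePoint (ZMod q)) = lrl_gFin N q j := rfl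

theorem lrl_cohMat_gFin (j : ZMod q) :
    cohMat (lrl_gFin N q j) = !![1, 0; (N : ℤ) * (j.val : ℤ), 1] := rfl

theorem lrl_cohMat_gInf :
    cohMat (lrl_gInf N q hqN) = !![lrl_u N q hqN, lrl_v N q hqN; (N : ℤ), (q : ℤ)] := rfl

/-- DECOMPOSITION: every `M ∈ Γ₀(N)` is `γ' * g_x` with `γ' ∈ Γ₀(N q)`. -/
theorem lrl_exists_decomp (M : Gamma0 N) :
    ∃ (x : OnePoint (ZMod q)) (γ' : Gamma0 (N * q)),
      cohMat γ' * cohMat (lrl_g N q hqN x) = cohMat M := by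
  have hq : q.Prime := Fact.out
  set a := (M : SL(2, ℤ)) 0 0 with ha
  set b := (M : SL(2, ℤ)) 0 1 with hb
  set c := (M : SL(2, ℤ)) 1 0 with hc
  set d := (M : SL(2, ℤ)) 1 1 with hd
  have hdet : a * d - b * c = 1 := lrl_det N M
  obtain ⟨c', hc'⟩ : (N : ℤ) ∣ c := lrl_dvd N M
  have hM : cohMat M = !![a, b; c, d] := lrl_cohMat_eq N M
  have huv := lrl_uv N q hqN
  set u := lrl_u N q hqN with hu
  set v := lrl_v N q hqN with hv
  by_cases hqd : (q : ℤ) ∣ d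
  · -- the coset of `g_∞`
    obtain ⟨d', hd'⟩ := hqd
    refine ⟨OnePoint.infty, lrl_g0 (N * q) (a * q - b * N) (-a * v + b * u) (c * q - d * N)
      (-c * v + d * u) ?_ ?_, ?_⟩
    · linear_combination (u * q - v * N) * hdet + huv
    · refine ⟨c' - d', ?_⟩
      rw [hc', hd']; push_cast; ring
    · rw [lrl_cohMat_g0, lrl_g_infty, lrl_cohMat_gInf, hM, Matrix.mul_fin_two]
      refine lrl_mat_eq ?_ ?_ ?_ ?_
      · linear_combination a * huv
      · linear_combination b * huv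
      · linear_combination c * huv
      · linear_combination d * huv
  · -- the coset of `g_j`, `j = c' / d`
    have : NeZero q := ⟨hq.ne_zero⟩
    have hd0 : (d : ZMod q) ≠ 0 := by
      rwa [Ne, ZMod.intCast_zmod_eq_zero_iff_dvd]
    set j : ZMod q := (c' : ZMod q) * (d : ZMod q)⁻¹ with hj
    have hjq : (q : ℤ) ∣ c' - d * (j.val : ℤ) := by
      rw [← ZMod.intCast_zmod_eq_zero_iff_dvd]
      push_cast
      rw [ZMod.natCast_val, ZMod.cast_id', id_eq, hj, mul_comm (c' : ZMod q), ← mul_assoc,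
        mul_inv_cancel₀ hd0, one_mul, sub_self]
    obtain ⟨e, he⟩ := hjq
    refine ⟨(j : OnePoint (ZMod q)), lrl_g0 (N * q) (a - b * N * (j.val : ℤ)) b
      (c - d * N * (j.val : ℤ)) d ?_ ?_, ?_⟩
    · linear_combination hdet
    · refine ⟨e, ?_⟩
      rw [hc']; push_cast
      linear_combination (N : ℤ) * he
    · rw [lrl_cohMat_g0, lrl_g_coe, lrl_cohMat_gFin, hM, Matrix.mul_fin_two]
      refine lrl_mat_eq ?_ ?_ ?_ ?_ <;> ring

/-- DISTINCTNESS of the cosets `Γ₀(N q) g_x`. -/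
theorem lrl_g_distinct (x x' : OnePoint (ZMod q)) (γ' : Gamma0 (N * q))
    (h : cohMat γ' * cohMat (lrl_g N q hqN x') = cohMat (lrl_g N q hqN x)) : x = x' := by
  have hq : q.Prime := Fact.out
  have : NeZero q := ⟨hq.ne_zero⟩
  obtain ⟨e, he⟩ : ((N * q : ℕ) : ℤ) ∣ (γ' : SL(2, ℤ)) 1 0 := lrl_dvd (N * q) γ'
  have hqc : (q : ℤ) ∣ (γ' : SL(2, ℤ)) 1 0 := ⟨N * e, by rw [he]; push_cast; ring⟩
  have hqN' : ¬ (q : ℤ) ∣ (N : ℤ) := fun h => hqN (Int.natCast_dvd_natCast.mp h)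
  rw [lrl_cohMat_eq (N * q) γ'] at h
  induction x using OnePoint.rec with
  | infty =>
    induction x' using OnePoint.rec with
    | infty => rfl
    | coe j' =>
      exfalso
      rw [lrl_g_infty, lrl_g_coe, lrl_cohMat_gInf, lrl_cohMat_gFin, Matrix.mul_fin_two] at h
      obtain ⟨-, -, h10, h11⟩ := lrl_mat_inj h
      apply hqN'
      obtain ⟨t, ht⟩ := hqc
      refine ⟨t + N * (j'.val : ℤ), ?_⟩
      linear_combination -h10 + ht + (N : ℤ) * (j'.val : ℤ) * h11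
  | coe j =>
    induction x' using OnePoint.rec with
    | infty =>
      exfalso
      rw [lrl_g_infty, lrl_g_coe, lrl_cohMat_gInf, lrl_cohMat_gFin, Matrix.mul_fin_two] at h
      obtain ⟨-, -, -, h11⟩ := lrl_mat_inj h
      obtain ⟨t, ht⟩ := hqc
      have : (q : ℤ) ∣ 1 := ⟨t * lrl_v N q hqN + (γ' : SL(2, ℤ)) 1 1, by rw [ht] at h11; linear_combination -h11⟩
      have h1 : (q : ℤ) ≤ 1 := Int.le_of_dvd one_pos this
      have := hq.two_le
      omega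
    | coe j' =>
      rw [lrl_g_coe, lrl_g_coe, lrl_cohMat_gFin, lrl_cohMat_gFin, Matrix.mul_fin_two] at h
      obtain ⟨-, -, h10, h11⟩ := lrl_mat_inj h
      rw [mul_zero, zero_add, mul_one] at h11
      rw [h11, mul_one, one_mul] at h10
      have hdvd : (q : ℤ) ∣ (N : ℤ) * ((j.val : ℤ) - (j'.val : ℤ)) := by
        obtain ⟨t, ht⟩ := hqc
        exact ⟨t, by rw [← ht]; linear_combination -h10⟩
      have hdvd' : (q : ℤ) ∣ (j.val : ℤ) - (j'.val : ℤ) :=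
        (Int.Prime.dvd_mul' hq hdvd).resolve_left hqN'
      have hz : ((j.val : ℤ) : ZMod q) = ((j'.val : ℤ) : ZMod q) := by
        rw [← sub_eq_zero, ← Int.cast_sub, ZMod.intCast_zmod_eq_zero_iff_dvd]
        exact hdvd'
      push_cast at hz
      rw [ZMod.natCast_zmod_val, ZMod.natCast_zmod_val] at hz
      rw [hz]

end reps

/-! ## restriction and transfer -/

section corr

variable (N q : ℕ) [Fact q.Prime] (hqN : ¬ q ∣ N)

theorem lrl_le : Gamma0 (N * q) ≤ Gamma0 N := by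
  intro g hg
  refine coh_mem_Gamma0_of_dvd N ?_
  have h := coh_dvd_of_mem_Gamma0 (N * q) hg
  exact (Dvd.intro _ (by push_cast; rfl)).trans h

/-- restriction `Hom(Γ₀(N), B) → Hom(Γ₀(N q), B)` -/
def lrl_res : lrc_Corr (Gamma0 N) (Gamma0 (N * q)) Unit := lrc_res (lrl_le N q)

/-- transfer `Hom(Γ₀(N q), B) → Hom(Γ₀(N), B)` -/
noncomputable def lrl_cores : lrc_Corr (Gamma0 (N * q)) (Gamma0 N) (OnePoint (ZMod q)) where
  A x := cohMat (lrl_g N q hqN x)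
  det_ne x := by rw [lrl_cohMat_det]; exact one_ne_zero
  rel γ x := by
    obtain ⟨x', γ', h⟩ := lrl_exists_decomp N q hqN (lrl_g N q hqN x * γ)
    exact ⟨x', γ', by rw [h, cohMat_mul]⟩
  distinct x x' γ' h := lrl_g_distinct N q hqN x x' γ' h

/-- twisted restriction `Hom(Γ₀(N), B) → Hom(Γ₀(N q), B)`, `ψ ↦ (γ ↦ ψ (η γ η⁻¹))`,
`η = diag(q, 1)` -/
def lrl_resEta : lrc_Corr (Gamma0 N) (Gamma0 (N * q)) Unit :=
  lrc_conj (cohMatInf q)
    (by rw [cohMatInf_det]; exact_mod_cast (Fact.out : q.Prime).ne_zero)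
    (fun γ => by
      obtain ⟨e, he⟩ : ((N * q : ℕ) : ℤ) ∣ (γ : SL(2, ℤ)) 1 0 := lrl_dvd (N * q) γ
      have hdet := lrl_det (N * q) γ
      refine ⟨lrl_g0 N ((γ : SL(2, ℤ)) 0 0) ((q : ℤ) * (γ : SL(2, ℤ)) 0 1) ((N : ℤ) * e)
        ((γ : SL(2, ℤ)) 1 1) ?_ (Dvd.intro _ rfl), ?_⟩
      · rw [he] at hdet; push_cast at hdet; linear_combination hdet
      · rw [lrl_cohMat_g0, lrl_cohMat_eq (N * q) γ, cohMatInf, Matrix.mul_fin_two,
          Matrix.mul_fin_two]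
        refine lrl_mat_eq ?_ ?_ ?_ ?_
        · ring
        · ring
        · rw [he]; push_cast; ring
        · ring)

/-- the representatives `s_x` of `(Γ₀(N) ∩ Γ⁰(q)) \ Γ₀(N)`: `s_j = [[1,j],[0,1]]`,
`s_∞ = [[q,v],[N,u]]` -/
noncomputable def lrl_s (x : OnePoint (ZMod q)) : Gamma0 N :=
  x.elim (lrl_g0 N (q : ℤ) (lrl_v N q hqN) (N : ℤ) (lrl_u N q hqN)
      (by have := lrl_uv N q hqN; linear_combination this) dvd_rfl)
    (fun j => lrl_g0 N 1 (j.val : ℤ) 0 1 (by ring) (dvd_zero _))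

/-- the matrices of the twisted transfer: `A_j = [[1,j],[0,q]]`, `A_∞ = [[q,v],[qN,qu]]` -/
noncomputable def lrl_AEta (x : OnePoint (ZMod q)) : Matrix (Fin 2) (Fin 2) ℤ :=
  x.elim !![(q : ℤ), lrl_v N q hqN; (q : ℤ) * N, (q : ℤ) * lrl_u N q hqN] (cohMatFin q)

@[simp] theorem lrl_AEta_infty : lrl_AEta N q hqN OnePoint.infty =
    !![(q : ℤ), lrl_v N q hqN; (q : ℤ) * N, (q : ℤ) * lrl_u N q hqN] := rfl

@[simp] theorem lrl_AEta_coe (j : ZMod q) :
    lrl_AEta N q hqN (j : OnePoint (ZMod q)) = cohMatFin q j := rfl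

theorem lrl_AEta_eq (x : OnePoint (ZMod q)) :
    lrl_AEta N q hqN x = cohMatFin q 0 * cohMat (lrl_s N q hqN x) := by
  have hq : q.Prime := Fact.out
  have : NeZero q := ⟨hq.ne_zero⟩
  induction x using OnePoint.rec with
  | infty =>
    rw [lrl_AEta_infty]
    show _ = cohMatFin q 0 * !![(q : ℤ), lrl_v N q hqN; (N : ℤ), lrl_u N q hqN]
    rw [cohMatFin, Matrix.mul_fin_two]
    refine lrl_mat_eq ?_ ?_ ?_ ?_ <;> simp
  | coe j =>
    rw [lrl_AEta_coe]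
    show _ = cohMatFin q 0 * !![1, (j.val : ℤ); 0, 1]
    rw [cohMatFin, cohMatFin, Matrix.mul_fin_two]
    refine lrl_mat_eq ?_ ?_ ?_ ?_ <;> simp

theorem lrl_cohMatFin_zero : cohMatFin q 0 = !![1, 0; 0, (q : ℤ)] := by
  have : NeZero q := ⟨(Fact.out : q.Prime).ne_zero⟩
  simp [cohMatFin]

/-- DECOMPOSITION for the twisted transfer: `diag(1,q) M = γ' A_x`, `γ' ∈ Γ₀(N q)`. -/
theorem lrl_exists_decompEta (M : Gamma0 N) :
    ∃ (x : OnePoint (ZMod q)) (γ' : Gamma0 (N * q)),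
      cohMat γ' * lrl_AEta N q hqN x = cohMatFin q 0 * cohMat M := by
  have hq : q.Prime := Fact.out
  have : NeZero q := ⟨hq.ne_zero⟩
  set a := (M : SL(2, ℤ)) 0 0 with ha
  set b := (M : SL(2, ℤ)) 0 1 with hb
  set c := (M : SL(2, ℤ)) 1 0 with hc
  set d := (M : SL(2, ℤ)) 1 1 with hd
  have hdet : a * d - b * c = 1 := lrl_det N M
  obtain ⟨c', hc'⟩ : (N : ℤ) ∣ c := lrl_dvd N M
  have hM : cohMat M = !![a, b; c, d] := lrl_cohMat_eq N M
  have huv := lrl_uv N q hqN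
  set u := lrl_u N q hqN with hu
  set v := lrl_v N q hqN with hv
  rw [hM, lrl_cohMatFin_zero, Matrix.mul_fin_two]
  by_cases hqa : (q : ℤ) ∣ a
  · obtain ⟨a₁, ha₁⟩ := hqa
    refine ⟨OnePoint.infty, lrl_g0 (N * q) (a * u - b * N) (-a₁ * v + b) ((q : ℤ) * (c * u - d * N))
      (-c * v + d * q) ?_ ?_, ?_⟩
    · rw [ha₁] at hdet ⊢
      linear_combination (u * q - v * N) * hdet + huv
    · refine ⟨c' * u - d, ?_⟩
      rw [hc']; push_cast; ring
    · rw [lrl_cohMat_g0, lrl_AEta_infty, Matrix.mul_fin_two]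
      refine lrl_mat_eq ?_ ?_ ?_ ?_
      · rw [ha₁]; linear_combination (q : ℤ) * a₁ * huv
      · rw [ha₁]; linear_combination b * huv
      · linear_combination (q : ℤ) * c * huv
      · linear_combination (q : ℤ) * d * huv
  · have ha0 : (a : ZMod q) ≠ 0 := by
      rwa [Ne, ZMod.intCast_zmod_eq_zero_iff_dvd]
    set j : ZMod q := (b : ZMod q) * (a : ZMod q)⁻¹ with hj
    have hjq : (q : ℤ) ∣ b - a * (j.val : ℤ) := by
      rw [← ZMod.intCast_zmod_eq_zero_iff_dvd]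
      push_cast
      rw [ZMod.natCast_zmod_val, hj, mul_comm (b : ZMod q), ← mul_assoc,
        mul_inv_cancel₀ ha0, one_mul, sub_self]
    obtain ⟨m, hm⟩ := hjq
    refine ⟨(j : OnePoint (ZMod q)), lrl_g0 (N * q) a m ((q : ℤ) * c) (d - c * (j.val : ℤ))
      ?_ ?_, ?_⟩
    · linear_combination hdet + c * hm
    · refine ⟨c', ?_⟩
      rw [hc']; push_cast; ring
    · rw [lrl_cohMat_g0, lrl_AEta_coe, cohMatFin, Matrix.mul_fin_two]
      refine lrl_mat_eq ?_ ?_ ?_ ?_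
      · ring
      · linear_combination -hm
      · ring
      · ring

/-- DISTINCTNESS of the cosets `Γ₀(N q) A_x`. -/
theorem lrl_AEta_distinct (x x' : OnePoint (ZMod q)) (γ' : Gamma0 (N * q))
    (h : cohMat γ' * lrl_AEta N q hqN x' = lrl_AEta N q hqN x) : x = x' := by
  have hq : q.Prime := Fact.out
  have : NeZero q := ⟨hq.ne_zero⟩
  have huv := lrl_uv N q hqN
  have hq1 : ¬ (q : ℤ) ∣ 1 := fun hd => by
    have h1 : (q : ℤ) ≤ 1 := Int.le_of_dvd one_pos hd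
    have := hq.two_le
    omega
  rw [lrl_cohMat_eq (N * q) γ'] at h
  induction x using OnePoint.rec with
  | infty =>
    induction x' using OnePoint.rec with
    | infty => rfl
    | coe j' =>
      exfalso
      rw [lrl_AEta_infty, lrl_AEta_coe, cohMatFin, Matrix.mul_fin_two] at h
      obtain ⟨h00, h01, -, -⟩ := lrl_mat_inj h
      -- `a' = q`, `a' j' + b' q = v`, so `q ∣ v`, contradiction with `u q - v N = 1`
      apply hq1
      refine ⟨lrl_u N q hqN - ((j'.val : ℤ) + (γ' : SL(2, ℤ)) 0 1) * N, ?_⟩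
      linear_combination -huv + (N : ℤ) * h01 - (N : ℤ) * (j'.val : ℤ) * h00
  | coe j =>
    induction x' using OnePoint.rec with
    | infty =>
      exfalso
      rw [lrl_AEta_infty, lrl_AEta_coe, cohMatFin, Matrix.mul_fin_two] at h
      obtain ⟨h00, -, -, -⟩ := lrl_mat_inj h
      apply hq1
      exact ⟨(γ' : SL(2, ℤ)) 0 0 + (γ' : SL(2, ℤ)) 0 1 * N, by linear_combination -h00⟩
    | coe j' =>
      rw [lrl_AEta_coe, lrl_AEta_coe, cohMatFin, cohMatFin, Matrix.mul_fin_two] at h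
      obtain ⟨h00, h01, -, -⟩ := lrl_mat_inj h
      have hdvd' : (q : ℤ) ∣ (j.val : ℤ) - (j'.val : ℤ) :=
        ⟨(γ' : SL(2, ℤ)) 0 1, by linear_combination -h01 + (j'.val : ℤ) * h00⟩
      have hz : ((j.val : ℤ) : ZMod q) = ((j'.val : ℤ) : ZMod q) := by
        rw [← sub_eq_zero, ← Int.cast_sub, ZMod.intCast_zmod_eq_zero_iff_dvd]
        exact hdvd'
      push_cast at hz
      rw [ZMod.natCast_zmod_val, ZMod.natCast_zmod_val] at hz
      rw [hz]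

/-- twisted transfer `Hom(Γ₀(N q), B) → Hom(Γ₀(N), B)` -/
noncomputable def lrl_coresEta : lrc_Corr (Gamma0 (N * q)) (Gamma0 N) (OnePoint (ZMod q)) where
  A := lrl_AEta N q hqN
  det_ne x := by
    rw [lrl_AEta_eq, Matrix.det_mul, lrl_cohMat_det, mul_one, cohMatFin_det]
    exact_mod_cast (Fact.out : q.Prime).ne_zero
  rel γ x := by
    obtain ⟨x', γ', h⟩ := lrl_exists_decompEta N q hqN (lrl_s N q hqN x * γ)
    refine ⟨x', γ', ?_⟩
    rw [h, cohMat_mul, ← Matrix.mul_assoc, ← lrl_AEta_eq]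
  distinct x x' γ' h := lrl_AEta_distinct N q hqN x x' γ' h

end corr

end Fermat.Agent.S41x
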