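/-
S41 project (level raising), block C (DUAL), prerequisites for rows C-TRF(ii) / C-FIN (helper36):
the group `Γ'' = Γ₀(N) ⊓ Γ⁰(q)`, the isomorphism `θ = (γ ↦ η γ η⁻¹) : Γ₀(N q) ≃* Γ''` (`η = diag(q,1)`),
and the coset facts for the representatives `s_x = lrl_s N q hqN x` of `Γ'' \ Γ₀(N)` which identify block
B's twisted transfer `lrl_coresEta` with the transfer from `Γ''` (right cosets `Γ'' s_x`; left cosets
`s_x⁻¹ Γ''`) precomposed with `θ⁻¹`.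

Main statements (prefix `deg_`):
* `deg_Gam N q`, `deg_mem_iff`, `deg_le`, `deg_neg_one_mem`, `deg_finiteIndex`
* `deg_theta N q : Γ₀(N q) ≃* deg_Gam N q`, `deg_theta_coe` (`= lrConjEta`), `deg_theta_spec`
  (`cohMat (θ γ) * η = η * cohMat γ`), `deg_theta_specD` (`cohMat γ * diag(1,q) = diag(1,q) * cohMat (θ γ)`)
* `deg_exists_decomp` : every `M ∈ Γ₀(N)` is `δ * s_x`, `δ ∈ Γ''`;  `deg_s_distinct`
* `deg_elt_spec` : `θ (elt γ x) * s_{idx γ x} = s_x * γ` for `lrl_coresEta`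
* `deg_coresEta_apply` : `(lrl_coresEta.op χ) γ = ∑ x, (χ ∘ θ⁻¹) (s_x γ s_{idx γ x}⁻¹)`
* `deg_fibre_bijective` : `x ↦ s_x⁻¹ Γ''` is a bijection onto the fibre of `SL₂(ℤ)/Γ'' → SL₂(ℤ)/Γ₀(N)` over the
  base coset.
-/
import Fermat.Agent.S41x.LRBase
import Fermat.Agent.S41x.CohLevel

set_option autoImplicit false

namespace Fermat.Agent.S41x

open scoped MatrixGroups
open Fermat.Agent.S16x CongruenceSubgroup Matrix.SpecialLinearGroup

/-! ## the group `Γ₀(N) ⊓ Γ⁰(q)` -/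

theorem deg_mul_01 (g h : SL(2, ℤ)) : (g * h) 0 1 = g 0 0 * h 0 1 + g 0 1 * h 1 1 := by
  rw [Matrix.SpecialLinearGroup.coe_mul, Matrix.mul_apply, Fin.sum_univ_two]

theorem deg_inv_01 (g : SL(2, ℤ)) : (g⁻¹) 0 1 = - g 0 1 := by
  rw [Matrix.SpecialLinearGroup.SL2_inv_expl]
  simp

/-- `Γ'' = Γ₀(N) ⊓ Γ⁰(q)` : lower left entry divisible by `N`, upper right entry divisible by `q`. -/
def deg_Gam (N q : ℕ) : Subgroup SL(2, ℤ) where
  carrier := {g | g ∈ Gamma0 N ∧ (q : ℤ) ∣ g 0 1}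
  one_mem' := ⟨one_mem _, by simp⟩
  mul_mem' := by
    rintro g h ⟨hg, hg'⟩ ⟨hh, hh'⟩
    refine ⟨mul_mem hg hh, ?_⟩
    rw [deg_mul_01]
    exact dvd_add (Dvd.dvd.mul_left hh' _) (Dvd.dvd.mul_right hg' _)
  inv_mem' := by
    rintro g ⟨hg, hg'⟩
    refine ⟨inv_mem hg, ?_⟩
    rw [deg_inv_01]
    exact (dvd_neg).mpr hg'

theorem deg_mem_iff {N q : ℕ} {g : SL(2, ℤ)} :
    g ∈ deg_Gam N q ↔ g ∈ Gamma0 N ∧ (q : ℤ) ∣ g 0 1 := Iff.rfl

theorem deg_le (N q : ℕ) : deg_Gam N q ≤ Gamma0 N := fun _ h => h.1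

theorem deg_neg_one_mem (N q : ℕ) : (-1 : SL(2, ℤ)) ∈ deg_Gam N q := by
  refine ⟨?_, ?_⟩
  · rw [Gamma0_mem]; simp
  · simp

theorem deg_Gamma_le (N q : ℕ) : Gamma (N * q) ≤ deg_Gam N q := by
  intro g hg
  rw [Gamma_mem] at hg
  obtain ⟨-, h01, h10, -⟩ := hg
  refine ⟨?_, ?_⟩
  · rw [Gamma0_mem]
    have h1 : ((N * q : ℕ) : ℤ) ∣ g 1 0 := (ZMod.intCast_zmod_eq_zero_iff_dvd _ _).mp h10
    refine (ZMod.intCast_zmod_eq_zero_iff_dvd _ _).mpr (dvd_trans ?_ h1)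
    push_cast
    exact Dvd.intro _ rfl
  · have h1 : ((N * q : ℕ) : ℤ) ∣ g 0 1 := (ZMod.intCast_zmod_eq_zero_iff_dvd _ _).mp h01
    refine dvd_trans ?_ h1
    push_cast
    exact Dvd.intro_left _ rfl

instance deg_finiteIndex (N q : ℕ) [NeZero N] [NeZero q] : (deg_Gam N q).FiniteIndex :=
  Subgroup.finiteIndex_of_le (deg_Gamma_le N q)

/-! ## the isomorphism `θ : Γ₀(N q) ≃* Γ''` -/

section theta

variable (N q : ℕ) [NeZero q]

theorem deg_conj_mem (γ : Gamma0 (N * q)) : ((lrConjEta N q γ : Gamma0 N) : SL(2, ℤ)) ∈ deg_Gam N q :=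
  ⟨(lrConjEta N q γ).2, by rw [lrConjEta_apply_01]; exact Dvd.intro _ rfl⟩

/-- `θ` as a monoid hom into `Γ''`. -/
def deg_thetaHom : Gamma0 (N * q) →* deg_Gam N q where
  toFun γ := ⟨((lrConjEta N q γ : Gamma0 N) : SL(2, ℤ)), deg_conj_mem N q γ⟩
  map_one' := by
    apply Subtype.ext
    simp
  map_mul' γ δ := by
    apply Subtype.ext
    simp

theorem deg_thetaHom_coe (γ : Gamma0 (N * q)) :
    ((deg_thetaHom N q γ : deg_Gam N q) : SL(2, ℤ)) = ((lrConjEta N q γ : Gamma0 N) : SL(2, ℤ)) := rfl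

theorem deg_thetaHom_spec (γ : Gamma0 (N * q)) :
    cohMat (deg_thetaHom N q γ) * lrEtaMat q = lrEtaMat q * cohMat γ :=
  lrConjEta_spec N q γ

theorem deg_thetaHom_injective : Function.Injective (deg_thetaHom N q) := by
  intro γ δ h
  have h1 : lrEtaMat q * cohMat γ = lrEtaMat q * cohMat δ := by
    rw [← deg_thetaHom_spec, ← deg_thetaHom_spec, h]
  have hdet : (lrEtaMat q).det ≠ 0 := by
    rw [lrEtaMat_det]; exact_mod_cast NeZero.ne q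
  apply cohMat_injective
  have h2 : (lrEtaMat q).adjugate * (lrEtaMat q * cohMat γ) =
      (lrEtaMat q).adjugate * (lrEtaMat q * cohMat δ) := by rw [h1]
  rw [← Matrix.mul_assoc, ← Matrix.mul_assoc, Matrix.adjugate_mul] at h2
  ext i j
  have h3 := congrFun (congrFun h2 i) j
  simp only [Matrix.smul_mul, Matrix.one_mul, Matrix.smul_apply, smul_eq_mul] at h3
  exact mul_left_cancel₀ hdet h3

theorem deg_thetaHom_surjective : Function.Surjective (deg_thetaHom N q) := by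
  rintro ⟨δ, hδN, b, hb⟩
  have hq' : (q : ℤ) ≠ 0 := by exact_mod_cast NeZero.ne q
  obtain ⟨c, hc⟩ : (N : ℤ) ∣ δ 1 0 := coh_dvd_of_mem_Gamma0 N hδN
  have hdet : δ 0 0 * δ 1 1 - δ 0 1 * δ 1 0 = 1 := coh_det_eq δ
  refine ⟨lrl_g0 (N * q) (δ 0 0) b ((q : ℤ) * δ 1 0) (δ 1 1) ?_ ?_, ?_⟩
  · rw [hb] at hdet; linear_combination hdet
  · refine ⟨c, ?_⟩
    rw [hc]; push_cast; ring
  · apply Subtype.ext
    apply Subtype.ext
    rw [deg_thetaHom_coe]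
    ext i j
    fin_cases i <;> fin_cases j
    · rfl
    · show (q : ℤ) * b = δ 0 1
      exact hb.symm
    · show (q : ℤ) * δ 1 0 / (q : ℤ) = δ 1 0
      exact Int.mul_ediv_cancel_left _ hq'
    · rfl

/-- `θ : Γ₀(N q) ≃* Γ'' = Γ₀(N) ⊓ Γ⁰(q)`, `γ ↦ η γ η⁻¹`. -/
noncomputable def deg_theta : Gamma0 (N * q) ≃* deg_Gam N q :=
  MulEquiv.ofBijective (deg_thetaHom N q) ⟨deg_thetaHom_injective N q, deg_thetaHom_surjective N q⟩

theorem deg_theta_coe (γ : Gamma0 (N * q)) :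
    ((deg_theta N q γ : deg_Gam N q) : SL(2, ℤ)) = ((lrConjEta N q γ : Gamma0 N) : SL(2, ℤ)) := rfl

/-- `cohMat (θ γ) * η = η * cohMat γ`, `η = diag(q,1)` (the `hθ` shape of C-ISO, `α = lrEtaMat q`). -/
theorem deg_theta_spec (γ : Gamma0 (N * q)) :
    cohMat (deg_theta N q γ) * lrEtaMat q = lrEtaMat q * cohMat γ :=
  lrConjEta_spec N q γ

/-- `cohMat γ * diag(1,q) = diag(1,q) * cohMat (θ γ)`. -/
theorem deg_theta_specD (γ : Gamma0 (N * q)) :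
    cohMat γ * cohMatFin q 0 = cohMatFin q 0 * cohMat (deg_theta N q γ) := by
  have h2 : ((γ : SL(2, ℤ)) : Matrix (Fin 2) (Fin 2) ℤ) 1 0 / (q : ℤ) * (q : ℤ)
      = ((γ : SL(2, ℤ)) : Matrix (Fin 2) (Fin 2) ℤ) 1 0 :=
    Int.ediv_mul_cancel (lr_q_dvd γ)
  have hD : cohMatFin q 0 = !![1, 0; 0, (q : ℤ)] := by simp [cohMatFin]
  rw [hD, lrl_cohMat_eq (N * q) γ]
  have hθ : cohMat (deg_theta N q γ) = !![(γ : SL(2, ℤ)) 0 0, (q : ℤ) * (γ : SL(2, ℤ)) 0 1;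
      (γ : SL(2, ℤ)) 1 0 / (q : ℤ), (γ : SL(2, ℤ)) 1 1] := rfl
  rw [hθ, Matrix.mul_fin_two, Matrix.mul_fin_two]
  refine lrl_mat_eq ?_ ?_ ?_ ?_
  · ring
  · ring
  · have : (γ : SL(2, ℤ)) 1 0 / (q : ℤ) * (q : ℤ) = (γ : SL(2, ℤ)) 1 0 := h2
    linear_combination -this
  · ring

end theta

/-! ## coset facts for `s_x` -/

section cosets

variable (N q : ℕ) [Fact q.Prime] (hqN : ¬ q ∣ N)

local instance deg_neZero_q : NeZero q := ⟨(Fact.out : q.Prime).ne_zero⟩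

theorem deg_D_det_ne : (cohMatFin q 0).det ≠ 0 := by
  rw [cohMatFin_det]; exact_mod_cast (Fact.out : q.Prime).ne_zero

/-- left cancellation of an integer matrix with nonzero determinant -/
theorem deg_mul_left_cancel {M M' A : Matrix (Fin 2) (Fin 2) ℤ} (hA : A.det ≠ 0)
    (h : A * M = A * M') : M = M' := by
  have h2 : A.adjugate * (A * M) = A.adjugate * (A * M') := by rw [h]
  rw [← Matrix.mul_assoc, ← Matrix.mul_assoc, Matrix.adjugate_mul] at h2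
  ext i j
  have h3 := congrFun (congrFun h2 i) j
  simp only [Matrix.smul_mul, Matrix.one_mul, Matrix.smul_apply, smul_eq_mul] at h3
  exact mul_left_cancel₀ hA h3

/-- DECOMPOSITION: every `M ∈ Γ₀(N)` is `δ * s_x` with `δ ∈ Γ''`. -/
theorem deg_exists_decomp (M : Gamma0 N) :
    ∃ (x : OnePoint (ZMod q)) (δ : deg_Gam N q),
      (δ : SL(2, ℤ)) * ((lrl_s N q hqN x : Gamma0 N) : SL(2, ℤ)) = (M : SL(2, ℤ)) := by
  obtain ⟨x, γ', h⟩ := lrl_exists_decompEta N q hqN M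
  refine ⟨x, deg_theta N q γ', ?_⟩
  apply Subtype.ext
  rw [Matrix.SpecialLinearGroup.coe_mul]
  apply deg_mul_left_cancel (deg_D_det_ne q)
  rw [lrl_AEta_eq, ← Matrix.mul_assoc, deg_theta_specD, Matrix.mul_assoc] at h
  exact h

/-- DISTINCTNESS of the cosets `Γ'' s_x`. -/
theorem deg_s_distinct (x x' : OnePoint (ZMod q)) (δ : deg_Gam N q)
    (h : (δ : SL(2, ℤ)) * ((lrl_s N q hqN x' : Gamma0 N) : SL(2, ℤ)) =
      ((lrl_s N q hqN x : Gamma0 N) : SL(2, ℤ))) : x = x' := by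
  obtain ⟨γ', rfl⟩ := (deg_theta N q).surjective δ
  apply lrl_AEta_distinct N q hqN x x' γ'
  rw [lrl_AEta_eq, lrl_AEta_eq, ← Matrix.mul_assoc, deg_theta_specD, Matrix.mul_assoc]
  congr 1
  have := congrArg (fun g : SL(2, ℤ) => (g : Matrix (Fin 2) (Fin 2) ℤ)) h
  simp only [Matrix.SpecialLinearGroup.coe_mul] at this
  exact this

/-- the defining relation of `lrl_coresEta`, transported to `Γ''`:
`θ (elt γ x) * s_{idx γ x} = s_x * γ`. -/
theorem deg_elt_spec (γ : Gamma0 N) (x : OnePoint (ZMod q)) :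
    ((deg_theta N q ((lrl_coresEta N q hqN).elt γ x) : deg_Gam N q) : SL(2, ℤ)) *
        ((lrl_s N q hqN ((lrl_coresEta N q hqN).idx γ x) : Gamma0 N) : SL(2, ℤ)) =
      ((lrl_s N q hqN x : Gamma0 N) : SL(2, ℤ)) * (γ : SL(2, ℤ)) := by
  have h := (lrl_coresEta N q hqN).elt_spec γ x
  change cohMat _ * lrl_AEta N q hqN _ = lrl_AEta N q hqN x * cohMat γ at h
  rw [lrl_AEta_eq, lrl_AEta_eq, ← Matrix.mul_assoc, deg_theta_specD, Matrix.mul_assoc,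
    Matrix.mul_assoc] at h
  have h' := deg_mul_left_cancel (deg_D_det_ne q) h
  apply Subtype.ext
  rw [Matrix.SpecialLinearGroup.coe_mul, Matrix.SpecialLinearGroup.coe_mul]
  exact h'

/-- `s_x γ s_{idx γ x}⁻¹ ∈ Γ''` and equals `θ (elt γ x)`. -/
theorem deg_theta_elt_eq (γ : Gamma0 N) (x : OnePoint (ZMod q)) :
    ((deg_theta N q ((lrl_coresEta N q hqN).elt γ x) : deg_Gam N q) : SL(2, ℤ)) =
      ((lrl_s N q hqN x : Gamma0 N) : SL(2, ℤ)) * (γ : SL(2, ℤ)) *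
        (((lrl_s N q hqN ((lrl_coresEta N q hqN).idx γ x) : Gamma0 N) : SL(2, ℤ)))⁻¹ := by
  rw [← deg_elt_spec, mul_assoc, mul_inv_cancel, mul_one]

/-- **C-TRF(ii), coset form**: block B's twisted transfer is the transfer from `Γ''` (right coset
representatives `s_x`) precomposed with `θ⁻¹`. -/
theorem deg_coresEta_apply {B : Type*} [AddCommGroup B] (χ : Additive (Gamma0 (N * q)) →+ B)
    (γ : Gamma0 N) :
    (lrl_coresEta N q hqN).op χ (Additive.ofMul γ) =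
      ∑ x : OnePoint (ZMod q),
        χ (Additive.ofMul ((deg_theta N q).symm
          ⟨((lrl_s N q hqN x : Gamma0 N) : SL(2, ℤ)) * (γ : SL(2, ℤ)) *
            (((lrl_s N q hqN ((lrl_coresEta N q hqN).idx γ x) : Gamma0 N) : SL(2, ℤ)))⁻¹,
           by rw [← deg_theta_elt_eq]; exact Subtype.mem _⟩)) := by
  rw [lrc_Corr.op_apply]
  refine Finset.sum_congr rfl fun x _ => ?_
  congr 2
  rw [MulEquiv.eq_symm_apply]
  apply Subtype.ext
  exact deg_theta_elt_eq N q hqN γ x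

/-- the left cosets `s_x⁻¹ Γ''` are exactly the fibre of `SL₂(ℤ)/Γ'' → SL₂(ℤ)/Γ₀(N)` over the base
coset: injectivity. -/
theorem deg_fibre_injective :
    Function.Injective (fun x : OnePoint (ZMod q) =>
      ((((lrl_s N q hqN x : Gamma0 N) : SL(2, ℤ))⁻¹ : SL(2, ℤ)) : SL(2, ℤ) ⧸ deg_Gam N q)) := by
  intro x x' h
  rw [QuotientGroup.eq, inv_inv] at h
  exact deg_s_distinct N q hqN x x' ⟨_, h⟩ (by simp)

/-- surjectivity onto the fibre: every `g ∈ Γ₀(N)` has `g Γ'' = s_x⁻¹ Γ''` for some `x`. -/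
theorem deg_fibre_surjective (g : SL(2, ℤ)) (hg : g ∈ Gamma0 N) :
    ∃ x : OnePoint (ZMod q),
      ((((lrl_s N q hqN x : Gamma0 N) : SL(2, ℤ))⁻¹ : SL(2, ℤ)) : SL(2, ℤ) ⧸ deg_Gam N q) =
        (g : SL(2, ℤ) ⧸ deg_Gam N q) := by
  obtain ⟨x, δ, h⟩ := deg_exists_decomp N q hqN (⟨g, hg⟩⁻¹ : Gamma0 N)
  refine ⟨x, ?_⟩
  rw [QuotientGroup.eq, inv_inv]
  -- `s_x * g = δ⁻¹`
  have h1 : ((lrl_s N q hqN x : Gamma0 N) : SL(2, ℤ)) * g = ((δ⁻¹ : deg_Gam N q) : SL(2, ℤ)) := by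
    have h2 : (δ : SL(2, ℤ)) * ((lrl_s N q hqN x : Gamma0 N) : SL(2, ℤ)) = g⁻¹ := h
    have h3 : ((lrl_s N q hqN x : Gamma0 N) : SL(2, ℤ)) = (δ : SL(2, ℤ))⁻¹ * g⁻¹ := by
      rw [← h2, inv_mul_cancel_left]
    rw [h3, mul_assoc, inv_mul_cancel, mul_one]
    rfl
  rw [h1]
  exact Subtype.mem _

end cosets

end Fermat.Agent.S41x
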