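/-
S41 project (level raising), block C (DUAL), leaf "PARABOLIC TRANSPORT" (helper91, prefix `dep_`).

For `Γ₁ Γ₂ ≤ SL(2,ℤ)`, a group isomorphism `θ : Γ₁ ≃* Γ₂` which is conjugation by an integer matrix
`α` of nonzero determinant (`cohMat (θ γ) * α = α * cohMat γ`):
* `dep_trace_eq`      : `trace (θ γ) = trace γ`;
* `dep_par_comp`      : `f ∈ parabolicHoms R Γ₂ B → f ∘ θ ∈ parabolicHoms R Γ₁ B`;
* `dep_par_comp_symm` : `g ∈ parabolicHoms R Γ₁ B → g ∘ θ⁻¹ ∈ parabolicHoms R Γ₂ B`;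
* `dep_par_comp_iff`;
* `dep_par_res`       : the restriction of a parabolic hom to a smaller subgroup is parabolic;
* `dep_par_comp_hom`  : more generally for a monoid hom `θ : Γ₁ →* Γ₂` preserving `trace ^ 2 = 4`.
-/
import Fermat.Agent.S16x.CohDatum
import Fermat.Prelude.Def_ModularCurve_PeriodMap

set_option autoImplicit false

namespace Fermat.Agent.S41x

open scoped MatrixGroups
open Fermat.Agent.S16x ModularCurve.Period

/-- conjugate integer matrices have the same trace -/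
theorem dep_trace_eq_of_mul {n : Type*} [Fintype n] [DecidableEq n]
    {M M' α : Matrix n n ℤ} (hα : α.det ≠ 0) (h : M' * α = α * M) : M'.trace = M.trace := by
  have h1 : M' * α * α.adjugate = α * M * α.adjugate := by rw [h]
  rw [Matrix.mul_assoc, Matrix.mul_adjugate] at h1
  have h2 := congrArg Matrix.trace h1
  rw [Matrix.mul_smul, Matrix.mul_one, Matrix.trace_smul, Matrix.trace_mul_comm, ← Matrix.mul_assoc,
    Matrix.adjugate_mul, Matrix.smul_mul, Matrix.one_mul, Matrix.trace_smul, smul_eq_mul,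
    smul_eq_mul] at h2
  exact mul_left_cancel₀ hα h2

section transport

variable {Γ₁ Γ₂ : Subgroup SL(2, ℤ)}

/-- (a) `trace (θ γ) = trace γ` when `θ γ = α γ α⁻¹` -/
theorem dep_trace_eq {α : Matrix (Fin 2) (Fin 2) ℤ} (hα : α.det ≠ 0) {γ : Γ₁} {δ : Γ₂}
    (h : cohMat δ * α = α * cohMat γ) :
    ((δ : SL(2, ℤ)) : Matrix (Fin 2) (Fin 2) ℤ).trace
      = ((γ : SL(2, ℤ)) : Matrix (Fin 2) (Fin 2) ℤ).trace :=
  dep_trace_eq_of_mul hα h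

variable {B : Type*} [AddCommGroup B]

/-- pull-back of a parabolic hom along a monoid hom preserving `trace ^ 2 = 4` -/
theorem dep_isParabolicHom_comp_hom (θ : Γ₁ →* Γ₂)
    (hθ : ∀ γ : Γ₁, ((γ : SL(2, ℤ)) : Matrix (Fin 2) (Fin 2) ℤ).trace ^ 2 = 4 →
      (((θ γ : Γ₂) : SL(2, ℤ)) : Matrix (Fin 2) (Fin 2) ℤ).trace ^ 2 = 4)
    {f : Additive Γ₂ →+ B} (hf : IsParabolicHom Γ₂ f) :
    IsParabolicHom Γ₁ (f.comp (MonoidHom.toAdditive θ)) := by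
  intro γ hγ
  exact hf (θ γ) (hθ γ hγ)

variable (R : Type*) [Semiring R] [Module R B]

theorem dep_par_comp_hom (θ : Γ₁ →* Γ₂)
    (hθ : ∀ γ : Γ₁, ((γ : SL(2, ℤ)) : Matrix (Fin 2) (Fin 2) ℤ).trace ^ 2 = 4 →
      (((θ γ : Γ₂) : SL(2, ℤ)) : Matrix (Fin 2) (Fin 2) ℤ).trace ^ 2 = 4)
    {f : Additive Γ₂ →+ B} (hf : f ∈ parabolicHoms R Γ₂ B) :
    f.comp (MonoidHom.toAdditive θ) ∈ parabolicHoms R Γ₁ B :=
  dep_isParabolicHom_comp_hom θ hθ hf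

/-- (b) `f ∈ parabolicHoms R Γ₂ B → f ∘ θ ∈ parabolicHoms R Γ₁ B` -/
theorem dep_par_comp (θ : Γ₁ ≃* Γ₂) {α : Matrix (Fin 2) (Fin 2) ℤ} (hα : α.det ≠ 0)
    (hθ : ∀ γ : Γ₁, cohMat (θ γ) * α = α * cohMat γ)
    {f : Additive Γ₂ →+ B} (hf : f ∈ parabolicHoms R Γ₂ B) :
    f.comp (MonoidHom.toAdditive θ.toMonoidHom) ∈ parabolicHoms R Γ₁ B := by
  refine dep_par_comp_hom R θ.toMonoidHom (fun γ hγ => ?_) hf
  show (((θ γ : Γ₂) : SL(2, ℤ)) : Matrix (Fin 2) (Fin 2) ℤ).trace ^ 2 = 4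
  rw [dep_trace_eq hα (hθ γ)]
  exact hγ

/-- (b') `g ∈ parabolicHoms R Γ₁ B → g ∘ θ⁻¹ ∈ parabolicHoms R Γ₂ B` -/
theorem dep_par_comp_symm (θ : Γ₁ ≃* Γ₂) {α : Matrix (Fin 2) (Fin 2) ℤ} (hα : α.det ≠ 0)
    (hθ : ∀ γ : Γ₁, cohMat (θ γ) * α = α * cohMat γ)
    {g : Additive Γ₁ →+ B} (hg : g ∈ parabolicHoms R Γ₁ B) :
    g.comp (MonoidHom.toAdditive θ.symm.toMonoidHom) ∈ parabolicHoms R Γ₂ B := by
  refine dep_par_comp_hom R θ.symm.toMonoidHom (fun δ hδ => ?_) hg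
  show (((θ.symm δ : Γ₁) : SL(2, ℤ)) : Matrix (Fin 2) (Fin 2) ℤ).trace ^ 2 = 4
  have h := hθ (θ.symm δ)
  rw [MulEquiv.apply_symm_apply] at h
  rw [← dep_trace_eq hα h]
  exact hδ

theorem dep_par_comp_iff (θ : Γ₁ ≃* Γ₂) {α : Matrix (Fin 2) (Fin 2) ℤ} (hα : α.det ≠ 0)
    (hθ : ∀ γ : Γ₁, cohMat (θ γ) * α = α * cohMat γ) (f : Additive Γ₂ →+ B) :
    f.comp (MonoidHom.toAdditive θ.toMonoidHom) ∈ parabolicHoms R Γ₁ B
      ↔ f ∈ parabolicHoms R Γ₂ B := by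
  refine ⟨fun h => ?_, fun h => dep_par_comp R θ hα hθ h⟩
  have h1 := dep_par_comp_symm R θ hα hθ h
  have e : (f.comp (MonoidHom.toAdditive θ.toMonoidHom)).comp
      (MonoidHom.toAdditive θ.symm.toMonoidHom) = f := by
    refine AddMonoidHom.ext fun δ => ?_
    obtain ⟨δ, rfl⟩ := Additive.ofMul.surjective δ
    show f (Additive.ofMul (θ (θ.symm δ))) = f (Additive.ofMul δ)
    rw [MulEquiv.apply_symm_apply]
  rwa [e] at h1

/-- (c) the restriction of a parabolic hom to a smaller subgroup is parabolic -/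
theorem dep_par_res (hle : Γ₁ ≤ Γ₂) {f : Additive Γ₂ →+ B} (hf : f ∈ parabolicHoms R Γ₂ B) :
    f.comp (MonoidHom.toAdditive (Subgroup.inclusion hle)) ∈ parabolicHoms R Γ₁ B :=
  dep_par_comp_hom R (Subgroup.inclusion hle) (fun _ hγ => hγ) hf

/-- (c') pointwise form: any `f'` on `Γ₁` agreeing with `f` on `Γ₁ ≤ Γ₂` is parabolic -/
theorem dep_par_of_eq_res (hle : Γ₁ ≤ Γ₂) {f : Additive Γ₂ →+ B} (hf : f ∈ parabolicHoms R Γ₂ B)
    {f' : Additive Γ₁ →+ B}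
    (h : ∀ γ (hγ : γ ∈ Γ₁), f' (Additive.ofMul ⟨γ, hγ⟩) = f (Additive.ofMul ⟨γ, hle hγ⟩)) :
    f' ∈ parabolicHoms R Γ₁ B := by
  intro γ hγ
  rw [show γ = ⟨γ.1, γ.2⟩ from rfl, h γ.1 γ.2]
  exact hf ⟨γ.1, hle γ.2⟩ hγ

end transport

end Fermat.Agent.S41x
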