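import Fermat.Agent.S41x.DualDictSL2

/-!
# S41x / DualDictGlue: the form `dds_form` computed on normalised cocycles

Glue between the dictionary (`dd_`, `dds_`) and the intrinsic cusp formula (`dint_bridge`):
if `φ, ψ` are the restrictions to `Γ` (at the base coset) of cocycles `F, F'` with `F S = 0`,
`F (S T) = ∂v`, `(v, w) ∈ dm_Z`, then `dds_form φ ψ = dm_b (v, w) (v', w')`; and every parabolic
hom arises in this way.
-/

set_option autoImplicit false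

open ModularGroup ModularCurve.Period
open scoped MatrixGroups

namespace Fermat.Agent.S41x

section Generic

variable {R : Type*} [CommRing R] [IsDomain R] [IsPrincipalIdealRing R]
variable {G : Type*} [Group G] {E : Type*} [MulAction G E] [Fintype E] [DecidableEq E]
  [MulAction.IsPretransitive G E]
variable (Y : dd_Sys G E) (x₀ : E) {Γ : Subgroup G} (hΓ : ∀ g : G, g ∈ Γ ↔ g • x₀ = x₀)
variable (h2 : (2 : R) ≠ 0) (h3 : (3 : R) ≠ 0)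

include hΓ in
omit [IsDomain R] [IsPrincipalIdealRing R] [Fintype E] [DecidableEq E] in
/-- The induced cocycle of the restriction of a normalised cocycle is represented by `v`. -/
theorem ddg_rep_of_coc {F : G → E → R} (hF : dd_IsCoc F) {v : E → R}
    (hFσ : ∀ x, F Y.σ x = 0) (hFτ : ∀ x, F Y.τ x = dd_cob v Y.τ x)
    (φ : Additive Γ →+ R) (hφ : ∀ γ (h : γ ∈ Γ), φ (Additive.ofMul ⟨γ, h⟩) = F γ x₀) :
    dd_Rep Y (dd_ind x₀ Γ φ) v := by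
  refine ⟨fun y => F (dd_sec G x₀ y) y, fun x => ?_, fun x => ?_⟩
  · rw [dd_ind_of_coc x₀ hΓ hF φ hφ, hFσ, zero_add]
  · rw [dd_ind_of_coc x₀ hΓ hF φ hφ, hFτ, add_comm]

include hΓ h2 h3 in
theorem ddg_theta_of_coc {F : G → E → R} (hF : dd_IsCoc F) {v : E → R}
    (hFσ : ∀ x, F Y.σ x = 0) (hFτ : ∀ x, F Y.τ x = dd_cob v Y.τ x)
    (φ : Additive Γ →+ R) (hφ : ∀ γ (h : γ ∈ Γ), φ (Additive.ofMul ⟨γ, h⟩) = F γ x₀) :
    dd_theta Y x₀ hΓ h2 h3 φ = Submodule.Quotient.mk v :=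
  dd_theta_eq Y x₀ hΓ h2 h3 (ddg_rep_of_coc Y x₀ hΓ hF hFσ hFτ φ hφ)

include hΓ in
omit [IsDomain R] [IsPrincipalIdealRing R] [Fintype E] [DecidableEq E]
  [MulAction.IsPretransitive G E] in
/-- The restriction of a cocycle to the stabiliser, evaluated at the base point, is a hom. -/
theorem ddg_exists_homOf {F : G → E → R} (hF : dd_IsCoc F) :
    ∃ φ : Additive Γ →+ R, ∀ γ (h : γ ∈ Γ), φ (Additive.ofMul ⟨γ, h⟩) = F γ x₀ := by
  have hfix : ∀ γ : Γ, (γ : G)⁻¹ • x₀ = x₀ := fun γ => by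
    rw [inv_smul_eq_iff, ((hΓ γ).mp γ.2)]
  exact ⟨{ toFun := fun γ => F ((Additive.toMul γ : Γ) : G) x₀
           map_zero' := hF.map_one x₀
           map_add' := fun γ δ => by
             show F (((Additive.toMul γ * Additive.toMul δ : Γ)) : G) x₀ = _
             rw [Subgroup.coe_mul, hF, hfix] }, fun γ h => rfl⟩

include hΓ h2 h3 in
/-- Every parabolic hom is the restriction of a normalised cocycle with `(v, w) ∈ dm_Z`. -/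
theorem ddg_exists_coc_gen [CharZero R] (hUP : dd_UP R Y) {φ : Additive Γ →+ R}
    (hφ : φ ∈ dd_Par (R := R) Y Γ) :
    ∃ (v w : E → R) (F : G → E → R), (v, w) ∈ dm_Z (R := R) (dd_D Y) ∧ dd_IsCoc F ∧
      (∀ x, F Y.σ x = 0) ∧ (∀ x, F Y.τ x = dd_cob v Y.τ x) ∧
      ∀ γ (h : γ ∈ Γ), φ (Additive.ofMul ⟨γ, h⟩) = F γ x₀ := by
  obtain ⟨v, hv, e⟩ := dd_theta_rep Y x₀ hΓ h2 h3 φ
  obtain ⟨w, hw⟩ := dd_exists_Z_of_par Y x₀ hΓ hφ hv
  obtain ⟨F, hF, hFσ, hFτ⟩ := hUP v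
  obtain ⟨φ', hφ'⟩ := ddg_exists_homOf (R := R) x₀ hΓ hF
  have e' := ddg_theta_of_coc Y x₀ hΓ h2 h3 hF hFσ hFτ φ' hφ'
  have : φ' = φ := by
    apply dd_thetaL_injective Y x₀ hΓ h2 h3
    rw [dd_thetaL_apply, dd_thetaL_apply, e, e']
  subst this
  exact ⟨v, w, F, hw, hF, hFσ, hFτ, hφ'⟩

end Generic

section SL2

attribute [local instance] Subgroup.fintypeQuotientOfFiniteIndex
attribute [local instance] Classical.propDecidable

variable {Γ : Subgroup SL(2, ℤ)} [Γ.FiniteIndex]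
variable {R : Type*} [CommRing R] [IsDomain R] [IsPrincipalIdealRing R] [CharZero R]

/-- `dds_equiv φ` is the class of `v` when `φ` is the restriction of a cocycle normalised by `v`. -/
theorem ddg_equiv_eq (hneg : (-1 : SL(2, ℤ)) ∈ Γ) {F : SL(2, ℤ) → (SL(2, ℤ) ⧸ Γ) → R}
    (hF : dd_IsCoc F) {v w : (SL(2, ℤ) ⧸ Γ) → R}
    (hz : (v, w) ∈ dm_Z (R := R) (dd_D (dds_Y hneg)))
    (hFS : ∀ x, F S x = 0) (hFτ : ∀ x, F (S * T) x = dd_cob v (S * T : SL(2, ℤ)) x)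
    (φ : parabolicHoms R Γ R)
    (hφ : ∀ γ (h : γ ∈ Γ), φ.1 (Additive.ofMul ⟨γ, h⟩) = F γ (dds_x0 Γ)) :
    dds_equiv (R := R) hneg φ = ⟨dp_q R (dd_D (dds_Y hneg)) ⟨(v, w), hz⟩, ⟨⟨(v, w), hz⟩, rfl⟩⟩ := by
  apply Subtype.ext
  rw [dds_equiv_apply]
  exact ddg_theta_of_coc (dds_Y hneg) (dds_x0 Γ) (dds_mem_iff Γ) dds_two_ne dds_three_ne hF
    hFS hFτ φ.1 hφ

/-- **Glue**: `dds_form` on restrictions of normalised cocycles is `dm_b` on the model data. -/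
theorem ddg_form_eq_b (hneg : (-1 : SL(2, ℤ)) ∈ Γ) {F F' : SL(2, ℤ) → (SL(2, ℤ) ⧸ Γ) → R}
    (hF : dd_IsCoc F) (hF' : dd_IsCoc F') {v w v' w' : (SL(2, ℤ) ⧸ Γ) → R}
    (hz : (v, w) ∈ dm_Z (R := R) (dd_D (dds_Y hneg)))
    (hz' : (v', w') ∈ dm_Z (R := R) (dd_D (dds_Y hneg)))
    (hFS : ∀ x, F S x = 0) (hFτ : ∀ x, F (S * T) x = dd_cob v (S * T : SL(2, ℤ)) x)
    (hFS' : ∀ x, F' S x = 0) (hFτ' : ∀ x, F' (S * T) x = dd_cob v' (S * T : SL(2, ℤ)) x)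
    (φ ψ : parabolicHoms R Γ R)
    (hφ : ∀ γ (h : γ ∈ Γ), φ.1 (Additive.ofMul ⟨γ, h⟩) = F γ (dds_x0 Γ))
    (hψ : ∀ γ (h : γ ∈ Γ), ψ.1 (Additive.ofMul ⟨γ, h⟩) = F' γ (dds_x0 Γ)) :
    dds_form (R := R) hneg φ ψ = dm_b (dd_D (dds_Y hneg)) (v, w) (v', w') := by
  rw [dds_form_apply, ddg_equiv_eq hneg hF hz hFS hFτ φ hφ,
    ddg_equiv_eq hneg hF' hz' hFS' hFτ' ψ hψ]
  exact dp_pair_q (dd_D (dds_Y hneg)) dds_two_ne dds_three_ne ⟨(v, w), hz⟩ ⟨(v', w'), hz'⟩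

/-- Every parabolic hom is the restriction of a normalised cocycle with `(v, w) ∈ dm_Z`. -/
theorem ddg_exists_coc (hneg : (-1 : SL(2, ℤ)) ∈ Γ) (φ : parabolicHoms R Γ R) :
    ∃ (v w : (SL(2, ℤ) ⧸ Γ) → R) (F : SL(2, ℤ) → (SL(2, ℤ) ⧸ Γ) → R),
      (v, w) ∈ dm_Z (R := R) (dd_D (dds_Y hneg)) ∧ dd_IsCoc F ∧
      (∀ x, F S x = 0) ∧ (∀ x, F (S * T) x = dd_cob v (S * T : SL(2, ℤ)) x) ∧
      ∀ γ (h : γ ∈ Γ), φ.1 (Additive.ofMul ⟨γ, h⟩) = F γ (dds_x0 Γ) := by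
  have hφ : φ.1 ∈ dd_Par (R := R) (dds_Y hneg) Γ := by
    rw [← dds_par_eq (R := R) dds_two_ne hneg]; exact φ.2
  exact ddg_exists_coc_gen (dds_Y hneg) (dds_x0 Γ) (dds_mem_iff Γ) dds_two_ne dds_three_ne
    (dds_UP hneg R) hφ

end SL2

end Fermat.Agent.S41x
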