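/-
S41 project, block C (duality), row C-EXK (helper46): existence of `3`-twisted primitives in
helper52's normalisation (`F S = 0`, used by `dint_bridge` of `DualIntrC` and by `DualDictGlue`).

If `F, F'` are crossed homs with `F S = 0` (and `F (-1) = F' (-1) = 0`, automatic when `2 ≠ 0` in a
domain), then there is `H` with `dint_IsTw 3 F F' H`, `H S = 0` and
`H (S T) = p · τp' + τp · τ²p' + p · τ²p'`  (`p = F (S T)`, `p' = F' (S T)`).
-/
import Fermat.Agent.S41x.DualIntrE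

set_option autoImplicit false

open scoped MatrixGroups
open ModularGroup

namespace Fermat.Agent.S41x

open Finset

section exist3

variable {E : Type*} [MulAction SL(2, ℤ) E] {R : Type*} [CommRing R]
variable {F F' : SL(2, ℤ) → E → R}

/-- **existence, helper52's normalisation** (`n = 3`). -/
theorem dint_exists_tw_three (hneg : ∀ y : E, (-1 : SL(2, ℤ)) • y = y)
    (hF : dint_IsCross F) (hF' : dint_IsCross F')
    (hFneg : ∀ y, F (-1) y = 0) (hFneg' : ∀ y, F' (-1) y = 0)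
    (hFS : ∀ y, F S y = 0) :
    ∃ H : SL(2, ℤ) → E → R, dint_IsTw 3 F F' H ∧ (∀ y, H S y = 0) := by
  have hcube : (S * T : SL(2, ℤ)) * (S * T) * (S * T) = -1 := by
    rw [← slp55_ST_cube, pow_succ, pow_two]
  have hτ3 := dint_ST_cube_smul (E := E) hneg
  -- the norm relations for `p = F τ`, `p' = F' τ`
  have hp : ∀ y, F (S * T) y + F (S * T) ((S * T : SL(2, ℤ))⁻¹ • y)
      + F (S * T) ((S * T : SL(2, ℤ))⁻¹ • (S * T : SL(2, ℤ))⁻¹ • y) = 0 := by
    intro y
    have h1 := dint_cross_cube hF (S * T) y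
    rw [hcube, hFneg] at h1
    exact h1.symm
  have hp' : ∀ y, F' (S * T) y + F' (S * T) ((S * T : SL(2, ℤ))⁻¹ • y)
      + F' (S * T) ((S * T : SL(2, ℤ))⁻¹ • (S * T : SL(2, ℤ))⁻¹ • y) = 0 := by
    intro y
    have h1 := dint_cross_cube hF' (S * T) y
    rw [hcube, hFneg'] at h1
    exact h1.symm
  obtain ⟨H, hH, hHS, _⟩ := dint_exists_tw hneg hF hF' hFneg hFneg' 3 (fun _ => 0)
    (fun y => F (S * T) y * F' (S * T) ((S * T : SL(2, ℤ))⁻¹ • y)
      + F (S * T) ((S * T : SL(2, ℤ))⁻¹ • y)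
        * F' (S * T) ((S * T : SL(2, ℤ))⁻¹ • (S * T : SL(2, ℤ))⁻¹ • y)
      + F (S * T) y * F' (S * T) ((S * T : SL(2, ℤ))⁻¹ • (S * T : SL(2, ℤ))⁻¹ • y))
    (by
      intro y
      show (0 : R) + (0 - 3 * F S y * F' S ((S : SL(2, ℤ))⁻¹ • y)) = 0
      rw [hFS]
      ring)
    (by
      intro y
      simp only [hτ3]
      have a := hp y
      have b := hp' y
      linear_combination
        (F' (S * T) y - F' (S * T) ((S * T : SL(2, ℤ))⁻¹ • (S * T : SL(2, ℤ))⁻¹ • y)) * a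
        + (F (S * T) ((S * T : SL(2, ℤ))⁻¹ • (S * T : SL(2, ℤ))⁻¹ • y) - F (S * T) y) * b)
  exact ⟨H, hH, hHS⟩

/-- same with the vanishing at `-1` derived from `2 ≠ 0`. -/
theorem dint_exists_tw_three' [IsDomain R] (h2 : (2 : R) ≠ 0)
    (hneg : ∀ y : E, (-1 : SL(2, ℤ)) • y = y)
    (hF : dint_IsCross F) (hF' : dint_IsCross F') (hFS : ∀ y, F S y = 0) :
    ∃ H : SL(2, ℤ) → E → R, dint_IsTw 3 F F' H :=
  let ⟨H, hH, _⟩ := dint_exists_tw_three hneg hF hF'
    (dint_cross_neg_one_of_two h2 hneg hF) (dint_cross_neg_one_of_two h2 hneg hF') hFS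
  ⟨H, hH⟩

end exist3

end Fermat.Agent.S41x
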