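/-
S41 project, block C (duality), item (e1): the INTRINSIC cusp formula, abstract part (helper46).

For a group `Γ`, additive homs `f g : Additive Γ →+ R` and `n : R`, a *primitive* of `n • (f ∪ g)` is
a function `h : Γ → R` with `h (a b) = h a + h b - n f(a) g(b)`.  For a finite family `t : ι → Γ`
("oriented cusp generators") on which `f` and `g` vanish, the number `∑ i, h (t i)`
* does not change when every `t i` is replaced by a conjugate (up to a permutation of `ι`),
* does not depend on the primitive `h` if the family is *balanced* (`∑ i, k (t i) = 0` for all homs),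
* is natural with respect to group homomorphisms `θ : Γ₁ →* Γ₂` carrying the family of `Γ₁` to
  conjugates of the family of `Γ₂`.
This is what makes the Poincaré pairing invariant under conjugation by `GL₂⁺(ℚ)`.
-/
import Mathlib

set_option autoImplicit false

namespace Fermat.Agent.S41x

open Finset

section basic

variable {Γ : Type*} [Group Γ] {R : Type*} [CommRing R]

/-- `h` is a primitive of `n • (f ∪ g)`:  `h (a b) = h a + h b - n f(a) g(b)`. -/
def dint_IsPrim (n : R) (f g : Additive Γ →+ R) (h : Γ → R) : Prop :=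
  ∀ a b : Γ, h (a * b) = h a + h b - n * f (Additive.ofMul a) * g (Additive.ofMul b)

theorem dint_hom_one (f : Additive Γ →+ R) : f (Additive.ofMul (1 : Γ)) = 0 := by
  rw [ofMul_one, map_zero]

theorem dint_hom_mul (f : Additive Γ →+ R) (a b : Γ) :
    f (Additive.ofMul (a * b)) = f (Additive.ofMul a) + f (Additive.ofMul b) := by
  rw [ofMul_mul, map_add]

theorem dint_hom_inv (f : Additive Γ →+ R) (a : Γ) :
    f (Additive.ofMul a⁻¹) = - f (Additive.ofMul a) := by
  rw [ofMul_inv, map_neg]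

theorem dint_hom_conj (f : Additive Γ →+ R) (x t : Γ) :
    f (Additive.ofMul (x * t * x⁻¹)) = f (Additive.ofMul t) := by
  rw [dint_hom_mul, dint_hom_mul, dint_hom_inv]; ring

variable {n : R} {f g : Additive Γ →+ R} {h : Γ → R}

theorem dint_prim_one (hh : dint_IsPrim n f g h) : h 1 = 0 := by
  have := hh 1 1
  rw [mul_one, dint_hom_one, mul_zero, zero_mul, sub_zero] at this
  linear_combination -this

theorem dint_prim_inv (hh : dint_IsPrim n f g h) (a : Γ) :
    h a⁻¹ = - h a - n * f (Additive.ofMul a) * g (Additive.ofMul a) := by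
  have h1 := hh a a⁻¹
  rw [mul_inv_cancel, dint_prim_one hh, dint_hom_inv] at h1
  linear_combination -h1

/-- a primitive is invariant under conjugation on elements killed by `f` and `g`. -/
theorem dint_prim_conj (hh : dint_IsPrim n f g h) (x t : Γ)
    (hf : f (Additive.ofMul t) = 0) (hg : g (Additive.ofMul t) = 0) :
    h (x * t * x⁻¹) = h t := by
  have h1 := hh (x * t) x⁻¹
  have h2 := hh x t
  have h3 := dint_prim_inv hh x
  rw [h1, h2, h3, dint_hom_mul, dint_hom_inv, hf, hg]
  ring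

/-- the cusp sum is unchanged if the family is replaced by conjugates, up to a bijection. -/
theorem dint_sum_conj (hh : dint_IsPrim n f g h) {ι ι' : Type*} [Fintype ι] [Fintype ι']
    (t : ι → Γ) (t' : ι' → Γ) (e : ι' ≃ ι) (x : ι' → Γ)
    (hconj : ∀ i, t' i = x i * t (e i) * (x i)⁻¹)
    (hf : ∀ i, f (Additive.ofMul (t i)) = 0) (hg : ∀ i, g (Additive.ofMul (t i)) = 0) :
    ∑ i, h (t' i) = ∑ i, h (t i) := by
  rw [← Equiv.sum_comp e (fun i => h (t i))]
  apply Finset.sum_congr rfl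
  intro i _
  rw [hconj i, dint_prim_conj hh _ _ (hf _) (hg _)]

/-- two primitives differ by an additive hom. -/
theorem dint_prim_sub {h' : Γ → R} (hh : dint_IsPrim n f g h) (hh' : dint_IsPrim n f g h') :
    ∃ k : Additive Γ →+ R, ∀ a : Γ, k (Additive.ofMul a) = h a - h' a := by
  refine ⟨AddMonoidHom.mk' (fun a => h (Additive.toMul a) - h' (Additive.toMul a)) ?_, ?_⟩
  · intro a b
    have h1 := hh (Additive.toMul a) (Additive.toMul b)
    have h2 := hh' (Additive.toMul a) (Additive.toMul b)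
    show h (Additive.toMul a * Additive.toMul b) - h' (Additive.toMul a * Additive.toMul b) = _
    rw [h1, h2]; ring
  · intro a; rfl

/-- for a balanced family the cusp sum does not depend on the primitive. -/
theorem dint_sum_indep {h' : Γ → R} (hh : dint_IsPrim n f g h) (hh' : dint_IsPrim n f g h')
    {ι : Type*} [Fintype ι] (t : ι → Γ)
    (hbal : ∀ k : Additive Γ →+ R, ∑ i, k (Additive.ofMul (t i)) = 0) :
    ∑ i, h (t i) = ∑ i, h' (t i) := by
  obtain ⟨k, hk⟩ := dint_prim_sub hh hh'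
  have := hbal k
  simp only [hk, Finset.sum_sub_distrib] at this
  linear_combination this

/-- bilinearity helpers: primitives add up in the first variable. -/
theorem dint_prim_add_left {f' : Additive Γ →+ R} {h' : Γ → R} (hh : dint_IsPrim n f g h)
    (hh' : dint_IsPrim n f' g h') : dint_IsPrim n (f + f') g (fun a => h a + h' a) := by
  intro a b
  show h (a * b) + h' (a * b) = _
  rw [hh a b, hh' a b, AddMonoidHom.add_apply]; ring

theorem dint_prim_add_right {g' : Additive Γ →+ R} {h' : Γ → R} (hh : dint_IsPrim n f g h)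
    (hh' : dint_IsPrim n f g' h') : dint_IsPrim n f (g + g') (fun a => h a + h' a) := by
  intro a b
  show h (a * b) + h' (a * b) = _
  rw [hh a b, hh' a b, AddMonoidHom.add_apply]; ring

theorem dint_prim_smul_left (r : R) (hh : dint_IsPrim n f g h) :
    dint_IsPrim n (r • f) g (fun a => r * h a) := by
  intro a b
  show r * h (a * b) = _
  rw [hh a b, AddMonoidHom.smul_apply, smul_eq_mul]; ring

theorem dint_prim_smul_right (r : R) (hh : dint_IsPrim n f g h) :
    dint_IsPrim n f (r • g) (fun a => r * h a) := by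
  intro a b
  show r * h (a * b) = _
  rw [hh a b, AddMonoidHom.smul_apply, smul_eq_mul]; ring

end basic

section natural

variable {Γ₁ Γ₂ : Type*} [Group Γ₁] [Group Γ₂] {R : Type*} [CommRing R]

/-- pull back an additive hom along a group hom. -/
def dint_pull (θ : Γ₁ →* Γ₂) (f : Additive Γ₂ →+ R) : Additive Γ₁ →+ R :=
  f.comp (MonoidHom.toAdditive θ)

@[simp] theorem dint_pull_apply (θ : Γ₁ →* Γ₂) (f : Additive Γ₂ →+ R) (a : Γ₁) :
    dint_pull θ f (Additive.ofMul a) = f (Additive.ofMul (θ a)) := rfl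

theorem dint_prim_pull (θ : Γ₁ →* Γ₂) {n : R} {f g : Additive Γ₂ →+ R} {h : Γ₂ → R}
    (hh : dint_IsPrim n f g h) :
    dint_IsPrim n (dint_pull θ f) (dint_pull θ g) (fun a => h (θ a)) := by
  intro a b
  show h (θ (a * b)) = _
  rw [map_mul, hh (θ a) (θ b)]; rfl

/-- NATURALITY of the cusp sum: if `θ` carries the family `t₁` of `Γ₁` to conjugates of the family
`t₂` of `Γ₂` (up to a bijection of the index sets), then the cusp sum of the pulled-back primitive
on `Γ₁` equals the cusp sum on `Γ₂`. -/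
theorem dint_sum_pull (θ : Γ₁ →* Γ₂) {n : R} {f g : Additive Γ₂ →+ R} {h : Γ₂ → R}
    (hh : dint_IsPrim n f g h) {ι₁ ι₂ : Type*} [Fintype ι₁] [Fintype ι₂]
    (t₁ : ι₁ → Γ₁) (t₂ : ι₂ → Γ₂) (e : ι₁ ≃ ι₂) (x : ι₁ → Γ₂)
    (hconj : ∀ i, θ (t₁ i) = x i * t₂ (e i) * (x i)⁻¹)
    (hf : ∀ j, f (Additive.ofMul (t₂ j)) = 0) (hg : ∀ j, g (Additive.ofMul (t₂ j)) = 0) :
    ∑ i, h (θ (t₁ i)) = ∑ j, h (t₂ j) :=
  dint_sum_conj hh t₂ (fun i => θ (t₁ i)) e x hconj hf hg

/-- **Invariance principle.**  Suppose that on `Γ₁` and on `Γ₂` some numbers `B₁`, `B₂` are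
computed by cusp sums of primitives (`c * B = ∑ h (t i)` for SOME primitive), the family of `Γ₁` is
balanced, and `θ` carries `t₁` to conjugates of `t₂`.  Then `c * B₁ = c * B₂`. -/
theorem dint_invariance (θ : Γ₁ →* Γ₂) {n c : R} {f g : Additive Γ₂ →+ R}
    {ι₁ ι₂ : Type*} [Fintype ι₁] [Fintype ι₂]
    (t₁ : ι₁ → Γ₁) (t₂ : ι₂ → Γ₂) (e : ι₁ ≃ ι₂) (x : ι₁ → Γ₂)
    (hconj : ∀ i, θ (t₁ i) = x i * t₂ (e i) * (x i)⁻¹)
    (hf : ∀ j, f (Additive.ofMul (t₂ j)) = 0) (hg : ∀ j, g (Additive.ofMul (t₂ j)) = 0)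
    (hbal : ∀ k : Additive Γ₁ →+ R, ∑ i, k (Additive.ofMul (t₁ i)) = 0)
    {B₁ B₂ : R}
    (h₁ : ∃ h : Γ₁ → R, dint_IsPrim n (dint_pull θ f) (dint_pull θ g) h ∧ ∑ i, h (t₁ i) = c * B₁)
    (h₂ : ∃ h : Γ₂ → R, dint_IsPrim n f g h ∧ ∑ j, h (t₂ j) = c * B₂) :
    c * B₁ = c * B₂ := by
  obtain ⟨k₁, hk₁, hs₁⟩ := h₁
  obtain ⟨k₂, hk₂, hs₂⟩ := h₂
  rw [← hs₁, ← hs₂]
  rw [dint_sum_indep hk₁ (dint_prim_pull θ hk₂) t₁ hbal]
  exact dint_sum_pull θ hk₂ t₁ t₂ e x hconj hf hg

end natural

end Fermat.Agent.S41x
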