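/-
S41 project, block C (duality), item (e2), part 1: crossed homs and twisted primitives on the
action groupoid of `SL(2,ℤ)` on a set `E` (helper46).  Pure algebra, no choices of sections.

`F : SL(2,ℤ) → E → R` is a *crossed hom* if `F (g h) x = F g x + F h (g⁻¹ • x)` (the module is
`Map(E,R)` with `(g • v) x = v (g⁻¹ • x)`); `H` is an `n`-*twisted primitive* of `(F, F')` if
`H (g h) x = H g x + H h (g⁻¹ • x) - n F g x F' h (g⁻¹ • x)`.
Restricted to the stabiliser of a point `x₀` and evaluated at `x₀` these give additive homs and a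
primitive in the sense of `dint_IsPrim`; on a parabolic loop `g⁻¹ T^e g` the value of the primitive
is an orbit sum along the `T`-orbit.
-/
import Fermat.Agent.S41x.DualIntrA

set_option autoImplicit false

open scoped MatrixGroups
open ModularGroup

namespace Fermat.Agent.S41x

open Finset

section cross

variable {E : Type*} [MulAction SL(2, ℤ) E] {R : Type*} [CommRing R]

/-- crossed homs `SL(2,ℤ) → Map(E,R)` (left action `(g • v) x = v (g⁻¹ • x)`). -/
def dint_IsCross (F : SL(2, ℤ) → E → R) : Prop :=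
  ∀ (g h : SL(2, ℤ)) (x : E), F (g * h) x = F g x + F h (g⁻¹ • x)

/-- `n`-twisted primitives of the cup product of two crossed homs. -/
def dint_IsTw (n : R) (F F' H : SL(2, ℤ) → E → R) : Prop :=
  ∀ (g h : SL(2, ℤ)) (x : E),
    H (g * h) x = H g x + H h (g⁻¹ • x) - n * F g x * F' h (g⁻¹ • x)

variable {F F' H : SL(2, ℤ) → E → R} {n : R}

theorem dint_cross_one (hF : dint_IsCross F) (x : E) : F 1 x = 0 := by
  have := hF 1 1 x
  rw [mul_one, inv_one, one_smul] at this
  linear_combination -this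

theorem dint_cross_inv (hF : dint_IsCross F) (g : SL(2, ℤ)) (x : E) :
    F g⁻¹ x = - F g (g • x) := by
  have := hF g⁻¹ g x
  rw [inv_mul_cancel, dint_cross_one hF, inv_inv] at this
  linear_combination -this

theorem dint_tw_one (hF : dint_IsCross F) (hH : dint_IsTw n F F' H) (x : E) : H 1 x = 0 := by
  have := hH 1 1 x
  rw [mul_one, inv_one, one_smul, dint_cross_one hF] at this
  linear_combination -this

theorem dint_tw_inv (hF : dint_IsCross F) (hH : dint_IsTw n F F' H) (g : SL(2, ℤ)) (x : E) :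
    H g⁻¹ x = - H g (g • x) - n * F g (g • x) * F' g (g • x) := by
  have := hH g⁻¹ g x
  rw [inv_mul_cancel, dint_tw_one hF hH, inv_inv, dint_cross_inv hF] at this
  linear_combination -this

/-- value of a crossed hom on a conjugate loop. -/
theorem dint_cross_conj (hF : dint_IsCross F) (g τ : SL(2, ℤ)) {x₀ x : E}
    (hg : g • x₀ = x) (hτ : τ • x = x) :
    F (g⁻¹ * τ * g) x₀ = F τ x := by
  have hτ' : τ⁻¹ • x = x := by
    conv_lhs => rw [← hτ]
    rw [inv_smul_smul]
  have e1 : (g⁻¹ * τ)⁻¹ • x₀ = x := by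
    rw [mul_inv_rev, inv_inv, mul_smul, hg, hτ']
  rw [hF (g⁻¹ * τ) g x₀, e1, hF g⁻¹ τ x₀, inv_inv, hg, dint_cross_inv hF, hg]
  ring

/-- value of a twisted primitive on a conjugate loop. -/
theorem dint_tw_conj (hF : dint_IsCross F) (_hF' : dint_IsCross F') (hH : dint_IsTw n F F' H)
    (g τ : SL(2, ℤ)) {x₀ x : E} (hg : g • x₀ = x) (hτ : τ • x = x) :
    H (g⁻¹ * τ * g) x₀ = H τ x - n * F τ x * F' g x + n * F g x * F' τ x := by
  have hτ' : τ⁻¹ • x = x := by
    conv_lhs => rw [← hτ]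
    rw [inv_smul_smul]
  have e1 : (g⁻¹ * τ)⁻¹ • x₀ = x := by
    rw [mul_inv_rev, inv_inv, mul_smul, hg, hτ']
  rw [hH (g⁻¹ * τ) g x₀, e1, hH g⁻¹ τ x₀, hF g⁻¹ τ x₀, inv_inv, hg, dint_tw_inv hF hH,
    dint_cross_inv hF, hg]
  ring

end cross

section stab

variable {E : Type*} [MulAction SL(2, ℤ) E] {R : Type*} [CommRing R]
variable {F F' H : SL(2, ℤ) → E → R} {n : R}

/-- the additive hom `γ ↦ F γ x₀` on a subgroup fixing `x₀`. -/
def dint_homOf (F : SL(2, ℤ) → E → R) (hF : dint_IsCross F) (x₀ : E) (Γ : Subgroup SL(2, ℤ))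
    (hΓ : ∀ γ ∈ Γ, γ • x₀ = x₀) : Additive Γ →+ R :=
  AddMonoidHom.mk' (fun a => F ((Additive.toMul a : Γ) : SL(2, ℤ)) x₀) (by
    intro a b
    have hfix : ((Additive.toMul a : Γ) : SL(2, ℤ))⁻¹ • x₀ = x₀ := by
      have := hΓ _ (Additive.toMul a : Γ).2
      conv_lhs => rw [← this]
      rw [inv_smul_smul]
    show F (((Additive.toMul a * Additive.toMul b : Γ)) : SL(2, ℤ)) x₀ = _
    rw [Subgroup.coe_mul, hF, hfix])

@[simp] theorem dint_homOf_apply (hF : dint_IsCross F) (x₀ : E) (Γ : Subgroup SL(2, ℤ))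
    (hΓ : ∀ γ ∈ Γ, γ • x₀ = x₀) (γ : Γ) :
    dint_homOf F hF x₀ Γ hΓ (Additive.ofMul γ) = F (γ : SL(2, ℤ)) x₀ := rfl

/-- the restriction of a twisted primitive to a subgroup fixing `x₀` is a primitive. -/
theorem dint_prim_of_tw (hF : dint_IsCross F) (hF' : dint_IsCross F') (hH : dint_IsTw n F F' H)
    (x₀ : E) (Γ : Subgroup SL(2, ℤ)) (hΓ : ∀ γ ∈ Γ, γ • x₀ = x₀) :
    dint_IsPrim n (dint_homOf F hF x₀ Γ hΓ) (dint_homOf F' hF' x₀ Γ hΓ)
      (fun γ : Γ => H (γ : SL(2, ℤ)) x₀) := by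
  intro a b
  have hfix : ((a : Γ) : SL(2, ℤ))⁻¹ • x₀ = x₀ := by
    have := hΓ _ a.2
    conv_lhs => rw [← this]
    rw [inv_smul_smul]
  show H ((a * b : Γ) : SL(2, ℤ)) x₀ = _
  rw [Subgroup.coe_mul, hH, hfix]
  rfl

end stab

section powers

variable {E : Type*} [MulAction SL(2, ℤ) E] {R : Type*} [CommRing R]
variable {F F' H : SL(2, ℤ) → E → R} {n : R}

/-- the permutation `y ↦ T⁻¹ • y` of `E`. -/
def dint_sig (E : Type*) [MulAction SL(2, ℤ) E] (y : E) : E := (T : SL(2, ℤ))⁻¹ • y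

theorem dint_pow_inv_smul (k : ℕ) (y : E) :
    ((T : SL(2, ℤ)) ^ k)⁻¹ • y = (dint_sig E)^[k] y := by
  induction k with
  | zero => simp
  | succ k ih =>
    rw [pow_succ, mul_inv_rev, mul_smul, ih, Function.iterate_succ_apply']
    rfl

/-- if `F T = (T - 1) u`, then `F (T^k) = (T^k - 1) u`. -/
theorem dint_cross_pow (hF : dint_IsCross F) (u : E → R)
    (hu : ∀ y, u (dint_sig E y) - u y = F T y) (k : ℕ) (y : E) :
    F (T ^ k) y = u ((dint_sig E)^[k] y) - u y := by
  induction k with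
  | zero => simp [dint_cross_one hF]
  | succ k ih =>
    rw [pow_succ, hF, ih, dint_pow_inv_smul, ← hu, Function.iterate_succ_apply']
    ring

/-- expansion of a twisted primitive on `T^k`. -/
theorem dint_tw_pow (hF : dint_IsCross F) (hH : dint_IsTw n F F' H) (u : E → R)
    (hu : ∀ y, u (dint_sig E y) - u y = F T y) (k : ℕ) (y : E) :
    H (T ^ k) y = ∑ i ∈ range k, (H T ((dint_sig E)^[i] y)
      - n * (u ((dint_sig E)^[i] y) - u y) * F' T ((dint_sig E)^[i] y)) := by
  induction k with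
  | zero => simp [dint_tw_one hF hH]
  | succ k ih =>
    rw [pow_succ, hH, ih, dint_pow_inv_smul, dint_cross_pow hF u hu, Finset.sum_range_succ]
    ring

/-- sum of `F' T` along a closed `T`-orbit vanishes when `F' T = (T-1) u'`. -/
theorem dint_sum_orbit_eq_zero (_hF' : dint_IsCross F') (u' : E → R)
    (hu' : ∀ y, u' (dint_sig E y) - u' y = F' T y) (e : ℕ) (x : E)
    (hx : (dint_sig E)^[e] x = x) :
    ∑ i ∈ range e, F' T ((dint_sig E)^[i] x) = 0 := by
  have h1 : ∀ k : ℕ, ∑ i ∈ range k, F' T ((dint_sig E)^[i] x)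
      = u' ((dint_sig E)^[k] x) - u' x := by
    intro k
    induction k with
    | zero => simp
    | succ k ih =>
      rw [Finset.sum_range_succ, ih, ← hu', Function.iterate_succ_apply']
      ring
  rw [h1 e, hx, sub_self]

/-- **value on a parabolic loop.**  If `F T = (T-1)u`, `F' T = (T-1)u'`, `g • x₀ = x` and the
`T`-orbit of `x` closes up after `e` steps, then the twisted primitive evaluated on the loop
`g⁻¹ T^e g` at `x₀` is the orbit sum of `A = H T - n u F' T`. -/
theorem dint_tw_loop (hF : dint_IsCross F) (hF' : dint_IsCross F') (hH : dint_IsTw n F F' H)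
    (u u' : E → R) (hu : ∀ y, u (dint_sig E y) - u y = F T y)
    (hu' : ∀ y, u' (dint_sig E y) - u' y = F' T y)
    (g : SL(2, ℤ)) {x₀ x : E} (hg : g • x₀ = x) (e : ℕ) (hx : (dint_sig E)^[e] x = x) :
    H (g⁻¹ * T ^ e * g) x₀ = ∑ i ∈ range e, (H T ((dint_sig E)^[i] x)
      - n * u ((dint_sig E)^[i] x) * F' T ((dint_sig E)^[i] x)) := by
  have hτ : ((T : SL(2, ℤ)) ^ e) • x = x := by
    have h1 := dint_pow_inv_smul (E := E) e x
    rw [hx] at h1
    conv_lhs => rw [← h1]
    rw [smul_inv_smul]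
  have hFe : F (T ^ e) x = 0 := by rw [dint_cross_pow hF u hu, hx, sub_self]
  have hFe' : F' (T ^ e) x = 0 := by rw [dint_cross_pow hF' u' hu', hx, sub_self]
  rw [dint_tw_conj hF hF' hH g (T ^ e) hg hτ, hFe, hFe', dint_tw_pow hF hH u hu]
  have h0 := dint_sum_orbit_eq_zero hF' u' hu' e x hx
  have : ∑ i ∈ range e, (H T ((dint_sig E)^[i] x)
      - n * (u ((dint_sig E)^[i] x) - u x) * F' T ((dint_sig E)^[i] x))
      = ∑ i ∈ range e, (H T ((dint_sig E)^[i] x)
      - n * u ((dint_sig E)^[i] x) * F' T ((dint_sig E)^[i] x))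
        + n * u x * ∑ i ∈ range e, F' T ((dint_sig E)^[i] x) := by
    rw [Finset.mul_sum, ← Finset.sum_add_distrib]
    apply Finset.sum_congr rfl
    intro i _
    ring
  rw [this, h0]
  ring

/-- same for the crossed hom itself: it vanishes on parabolic loops. -/
theorem dint_cross_loop (hF : dint_IsCross F) (u : E → R)
    (hu : ∀ y, u (dint_sig E y) - u y = F T y)
    (g : SL(2, ℤ)) {x₀ x : E} (hg : g • x₀ = x) (e : ℕ) (hx : (dint_sig E)^[e] x = x) :
    F (g⁻¹ * T ^ e * g) x₀ = 0 := by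
  have hτ : ((T : SL(2, ℤ)) ^ e) • x = x := by
    have h1 := dint_pow_inv_smul (E := E) e x
    rw [hx] at h1
    conv_lhs => rw [← h1]
    rw [smul_inv_smul]
  rw [dint_cross_conj hF g (T ^ e) hg hτ, dint_cross_pow hF u hu, hx, sub_self]

end powers

section orbits

variable {E : Type*} [Fintype E] {R : Type*} [AddCommMonoid R]

/-- **orbit decomposition of a sum.**  `σ` an injective self-map of a finite type, `xc : ι → E` a
system of representatives of its orbits.  Then a sum over `E` is the sum over the representatives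
of the sums along the orbits. -/
theorem dint_sum_orbits (σ : E → E) (hσ : Function.Injective σ) {ι : Type*} [Fintype ι]
    (xc : ι → E) (hrep : ∀ y : E, ∃! i : ι, ∃ k : ℕ, σ^[k] (xc i) = y) (A : E → R) :
    ∑ y, A y = ∑ i, ∑ k ∈ range (Function.minimalPeriod σ (xc i)), A (σ^[k] (xc i)) := by
  classical
  rw [Finset.sum_sigma']
  symm
  apply Finset.sum_bij (fun (p : Σ _ : ι, ℕ) _ => σ^[p.2] (xc p.1))
  · intro p _; exact Finset.mem_univ _
  · rintro ⟨i, k⟩ hik ⟨i', k'⟩ hik' heq
    simp only [Finset.mem_sigma, Finset.mem_univ, true_and, Finset.mem_range] at hik hik'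
    simp only at heq
    have hi : i = i' := by
      obtain ⟨j, _, hj⟩ := hrep (σ^[k] (xc i))
      have h1 := hj i ⟨k, rfl⟩
      have h2 := hj i' ⟨k', heq.symm⟩
      rw [h1, h2]
    subst hi
    have := Function.iterate_injOn_Iio_minimalPeriod (f := σ) (x := xc i)
      (Set.mem_Iio.2 hik) (Set.mem_Iio.2 hik') heq
    rw [this]
  · intro y _
    obtain ⟨i, ⟨k, hk⟩, _⟩ := hrep y
    have hper : xc i ∈ Function.periodicPts σ := hσ.mem_periodicPts (xc i)
    have hpos := Function.minimalPeriod_pos_of_mem_periodicPts hper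
    refine ⟨⟨i, k % Function.minimalPeriod σ (xc i)⟩, ?_, ?_⟩
    · simp only [Finset.mem_sigma, Finset.mem_univ, true_and, Finset.mem_range]
      exact Nat.mod_lt _ hpos
    · simp only
      rw [Function.iterate_mod_minimalPeriod_eq, hk]
  · intro p _; rfl

end orbits

end Fermat.Agent.S41x
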