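import Fermat.Agent.S41x.DualCob

/-!
# S41x / DualModel: the period-polynomial model of `H^1_par` and its perfect alternating form

`E` a finite set with permutations `s` (`s^2 = 1`) and `t` (`t^3 = 1`), jointly transitive
(`E = Γ \ PSL₂(ℤ)`, `s = S`, `t = ST`, so that `x ↦ t (s x)` is the translation).
`R` a PID with `2, 3 ≠ 0`.  `V = E → R`.

* `dm_U = V^s + V^t`, `Q = V / dm_U` (`= H^1(PSL₂(ℤ), V) = Hom(Γ, R)`);
* `dm_W = ker(1+s) ∩ ker(1+t+t^2)` (period polynomials, `= H^1_c`);
* `dm_Z = {(v, w) | (T - 1) w = (s - 1) v}` (parabolic classes with a trivialisation at the cusps);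
* `dm_b z z' = ⟨(1 - t) z.2, z'.1⟩`.

Main results: `dm_b` is alternating, depends only on the classes of `z.1, z'.1` in `Q`, and is
perfect on `dm_Lpar = {[z.1] | z ∈ dm_Z} ⊆ Q`.
-/

namespace Fermat.Agent.S41x

open Finset

variable {R : Type*} [CommRing R]
variable {E : Type*} [Fintype E]

/-- Two permutations with `s^2 = 1`, `t^3 = 1`. -/
structure dm_Data (E : Type*) where
  s : Equiv.Perm E
  t : Equiv.Perm E
  hs : ∀ x, s (s x) = x
  ht : ∀ x, t (t (t x)) = x

/-- Joint transitivity of `s, t`. -/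
def dm_Conn (D : dm_Data E) : Prop :=
  ∀ A : Set E, A.Nonempty → (∀ x ∈ A, D.s x ∈ A) → (∀ x ∈ A, D.t x ∈ A) → A = Set.univ

variable (D : dm_Data E)

/-- `s`-invariant functions. -/
def dm_Vs : Submodule R (E → R) where
  carrier := {f | ∀ x, f (D.s x) = f x}
  add_mem' := by intro f g hf hg x; simp [hf x, hg x]
  zero_mem' := by intro x; rfl
  smul_mem' := by intro r f hf x; simp [hf x]

/-- `t`-invariant functions. -/
def dm_Vt : Submodule R (E → R) where
  carrier := {f | ∀ x, f (D.t x) = f x}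
  add_mem' := by intro f g hf hg x; simp [hf x, hg x]
  zero_mem' := by intro x; rfl
  smul_mem' := by intro r f hf x; simp [hf x]

/-- `V^s + V^t`. -/
def dm_U : Submodule R (E → R) := dm_Vs D ⊔ dm_Vt D

/-- Period polynomials. -/
def dm_W : Submodule R (E → R) where
  carrier := {P | (∀ x, P x + P (D.s x) = 0) ∧ (∀ x, P x + P (D.t x) + P (D.t (D.t x)) = 0)}
  add_mem' := by
    rintro P P' ⟨h1, h2⟩ ⟨h1', h2'⟩
    refine ⟨fun x => ?_, fun x => ?_⟩
    · have := h1 x; have := h1' x; simp only [Pi.add_apply]; linear_combination h1 x + h1' x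
    · simp only [Pi.add_apply]; linear_combination h2 x + h2' x
  zero_mem' := ⟨fun x => by simp, fun x => by simp⟩
  smul_mem' := by
    rintro r P ⟨h1, h2⟩
    refine ⟨fun x => ?_, fun x => ?_⟩
    · simp only [Pi.smul_apply, smul_eq_mul]; linear_combination r * h1 x
    · simp only [Pi.smul_apply, smul_eq_mul]; linear_combination r * h2 x

theorem dm_mem_Vs (f : E → R) : f ∈ dm_Vs D ↔ ∀ x, f (D.s x) = f x := Iff.rfl
theorem dm_mem_Vt (f : E → R) : f ∈ dm_Vt D ↔ ∀ x, f (D.t x) = f x := Iff.rfl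
theorem dm_mem_W (P : E → R) : P ∈ dm_W D ↔
    (∀ x, P x + P (D.s x) = 0) ∧ (∀ x, P x + P (D.t x) + P (D.t (D.t x)) = 0) := Iff.rfl

/-- Pairs `(v, w)` with `(T - 1) w = (s - 1) v`. -/
def dm_Z : Submodule R ((E → R) × (E → R)) where
  carrier := {z | ∀ x, z.2 (D.t (D.s x)) - z.2 x = z.1 (D.s x) - z.1 x}
  add_mem' := by
    intro z z' hz hz' x
    simp only [Prod.fst_add, Prod.snd_add, Pi.add_apply]
    linear_combination hz x + hz' x
  zero_mem' := by intro x; simp
  smul_mem' := by
    intro r z hz x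
    simp only [Prod.smul_fst, Prod.smul_snd, Pi.smul_apply, smul_eq_mul]
    linear_combination r * hz x

theorem dm_mem_Z (z : (E → R) × (E → R)) : z ∈ dm_Z D ↔
    ∀ x, z.2 (D.t (D.s x)) - z.2 x = z.1 (D.s x) - z.1 x := Iff.rfl

/-- The period polynomial `(1 - t) w` of `z = (v, w)`. -/
def dm_P (z : (E → R) × (E → R)) : E → R := fun x => z.2 x - z.2 (D.t x)

/-- The form `⟨(1 - t) w, v'⟩`. -/
def dm_b (z z' : (E → R) × (E → R)) : R := dl_form (dm_P D z) z'.1

theorem dm_P_add (z z' : (E → R) × (E → R)) : dm_P D (z + z') = dm_P D z + dm_P D z' := by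
  funext x; simp only [dm_P, Prod.snd_add, Pi.add_apply]; ring

theorem dm_P_smul (r : R) (z : (E → R) × (E → R)) : dm_P D (r • z) = r • dm_P D z := by
  funext x; simp only [dm_P, Prod.smul_snd, Pi.smul_apply, smul_eq_mul]; ring

theorem dm_P_mem_W {z : (E → R) × (E → R)} (hz : z ∈ dm_Z D) : dm_P D z ∈ dm_W D := by
  refine ⟨fun x => ?_, fun x => ?_⟩
  · have h1 := hz x
    have h2 := hz (D.s x)
    rw [D.hs x] at h2
    simp only [dm_P]
    linear_combination (-1 : R) * h1 - h2
  · simp only [dm_P, D.ht x]; ring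

/-- `(1 - t) w = (s - 1)(v - w)` for `(v, w) ∈ Z`. -/
theorem dm_P_eq {z : (E → R) × (E → R)} (hz : z ∈ dm_Z D) (x : E) :
    dm_P D z x = (z.1 (D.s x) - z.2 (D.s x)) - (z.1 x - z.2 x) := by
  have h2 := hz (D.s x)
  rw [D.hs x] at h2
  simp only [dm_P]
  linear_combination (-1 : R) * h2

/-! ### Orthogonality `W = U^⊥` -/

section Orth

variable [IsDomain R]

theorem dm_form_W_Vs (h2 : (2 : R) ≠ 0) {P f : E → R} (hP : P ∈ dm_W D) (hf : f ∈ dm_Vs D) :
    dl_form P f = 0 := by
  have h := dl_form_comp_perm D.s P f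
  have h' : dl_form P f + dl_form (fun x => P (D.s x)) (fun x => f (D.s x)) = 0 := by
    unfold dl_form
    rw [← Finset.sum_add_distrib]
    apply Finset.sum_eq_zero
    intro x _
    beta_reduce
    rw [hf x]
    linear_combination f x * hP.1 x
  rw [h] at h'
  have h'' : (2 : R) * dl_form P f = 0 := by linear_combination h'
  exact (mul_eq_zero.mp h'').resolve_left h2

theorem dm_form_W_Vt (h3 : (3 : R) ≠ 0) {P f : E → R} (hP : P ∈ dm_W D) (hf : f ∈ dm_Vt D) :
    dl_form P f = 0 := by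
  have h := dl_form_comp_perm D.t P f
  have hh := dl_form_comp_perm D.t (fun x => P (D.t x)) (fun x => f (D.t x))
  have h' : dl_form P f + dl_form (fun x => P (D.t x)) (fun x => f (D.t x))
      + dl_form (fun x => P (D.t (D.t x))) (fun x => f (D.t (D.t x))) = 0 := by
    unfold dl_form
    rw [← Finset.sum_add_distrib, ← Finset.sum_add_distrib]
    apply Finset.sum_eq_zero
    intro x _
    beta_reduce
    rw [hf (D.t x), hf x]
    linear_combination f x * hP.2 x
  rw [hh, h] at h'
  have h'' : (3 : R) * dl_form P f = 0 := by linear_combination h'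
  exact (mul_eq_zero.mp h'').resolve_left h3

theorem dm_form_W_U (h2 : (2 : R) ≠ 0) (h3 : (3 : R) ≠ 0) {P u : E → R}
    (hP : P ∈ dm_W D) (hu : u ∈ dm_U D) : dl_form P u = 0 := by
  obtain ⟨f, hf, g, hg, rfl⟩ := Submodule.mem_sup.1 hu
  rw [dl_form_add_right, dm_form_W_Vs D h2 hP hf, dm_form_W_Vt D h3 hP hg, add_zero]

end Orth

section OrthConverse

variable [DecidableEq E]

omit [Fintype E] in
theorem dm_single_perm (c : Equiv.Perm E) (x y : E) :
    (Pi.single (c x) (1 : R) : E → R) (c y) = (Pi.single x (1 : R) : E → R) y := by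
  by_cases h : y = x
  · subst h; simp
  · have : c y ≠ c x := fun h' => h (c.injective h')
    simp [Pi.single_apply, h, this]

theorem dm_mem_W_of_orth {P : E → R} (hP : ∀ u ∈ dm_U (R := R) D, dl_form P u = 0) :
    P ∈ dm_W D := by
  refine ⟨fun x => ?_, fun x => ?_⟩
  · -- u = δ_x + δ_{s x}
    have hu : (Pi.single x (1 : R) + Pi.single (D.s x) (1 : R) : E → R) ∈ dm_U (R := R) D := by
      apply Submodule.mem_sup_left
      intro y
      simp only [Pi.add_apply]
      have e1 : (Pi.single x (1 : R) : E → R) (D.s y) = (Pi.single (D.s x) (1 : R) : E → R) y := by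
        have := dm_single_perm (R := R) D.s (D.s x) y
        rwa [D.hs x] at this
      have e2 := dm_single_perm (R := R) D.s x y
      rw [e1, e2, add_comm]
    have := hP _ hu
    rw [dl_form_add_right, dl_form_comm P, dl_form_single_left, dl_form_comm P,
      dl_form_single_left] at this
    exact this
  · have hu : (Pi.single x (1 : R) + Pi.single (D.t x) (1 : R) + Pi.single (D.t (D.t x)) (1 : R)
        : E → R) ∈ dm_U (R := R) D := by
      apply Submodule.mem_sup_right
      intro y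
      simp only [Pi.add_apply]
      have e1 : (Pi.single x (1 : R) : E → R) (D.t y)
          = (Pi.single (D.t (D.t x)) (1 : R) : E → R) y := by
        have := dm_single_perm (R := R) D.t (D.t (D.t x)) y
        rwa [D.ht x] at this
      have e2 := dm_single_perm (R := R) D.t x y
      have e3 := dm_single_perm (R := R) D.t (D.t x) y
      rw [e1, e2, e3]; ring
    have := hP _ hu
    rw [dl_form_add_right, dl_form_add_right, dl_form_comm P, dl_form_single_left,
      dl_form_comm P, dl_form_single_left, dl_form_comm P, dl_form_single_left] at this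
    exact this

end OrthConverse

/-! ### Saturation -/

section Sat

variable [IsDomain R] [IsPrincipalIdealRing R]

theorem dm_W_sat : dl_Sat (dm_W (R := R) D) := by
  intro r P hr hP
  refine ⟨fun x => ?_, fun x => ?_⟩
  · have := hP.1 x
    simp only [Pi.smul_apply, smul_eq_mul] at this
    have h : r * (P x + P (D.s x)) = 0 := by linear_combination this
    exact (mul_eq_zero.mp h).resolve_left hr
  · have := hP.2 x
    simp only [Pi.smul_apply, smul_eq_mul] at this
    have h : r * (P x + P (D.t x) + P (D.t (D.t x))) = 0 := by linear_combination this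
    exact (mul_eq_zero.mp h).resolve_left hr

theorem dm_U_sat (hconn : dm_Conn D) : dl_Sat (dm_U (R := R) D) := by
  classical
  apply dl_sat_of_prime
  intro p hp v hv
  have hp0 : p ≠ 0 := hp.ne_zero
  obtain ⟨f, hf, h, hh, hfh⟩ := Submodule.mem_sup.1 hv
  rcases isEmpty_or_nonempty E with hE | ⟨⟨x₀⟩⟩
  · have : v = 0 := funext fun x => (hE.false x).elim
    rw [this]; exact zero_mem _
  have hpt : ∀ x, p * v x = f x + h x := fun x => by
    have := congrFun hfh x
    simp only [Pi.add_apply, Pi.smul_apply, smul_eq_mul] at this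
    exact this.symm
  have hA : {x | p ∣ f x - f x₀} = Set.univ := by
    apply hconn
    · exact ⟨x₀, by simp⟩
    · intro x hx
      simp only [Set.mem_ofPred_eq] at hx ⊢
      rwa [hf x]
    · intro x hx
      simp only [Set.mem_ofPred_eq] at hx ⊢
      have e : f (D.t x) - f x₀ = (f x - f x₀) + p * (v (D.t x) - v x) := by
        have h1 := hpt (D.t x)
        have h2 := hpt x
        have h3 := hh x
        linear_combination (-1 : R) * h1 + h2 - h3
      rw [e]
      exact dvd_add hx (dvd_mul_right _ _)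
  have hdiv : ∀ x, p ∣ f x - f x₀ := fun x => by
    have : x ∈ {x | p ∣ f x - f x₀} := by rw [hA]; trivial
    exact this
  choose f₁ hf₁ using hdiv
  have hv' : v = f₁ + (v - f₁) := by abel
  rw [hv']
  apply Submodule.add_mem
  · apply Submodule.mem_sup_left
    intro x
    apply mul_left_cancel₀ hp0
    rw [← hf₁ (D.s x), ← hf₁ x, hf x]
  · apply Submodule.mem_sup_right
    intro x
    apply mul_left_cancel₀ hp0
    simp only [Pi.sub_apply]
    have h1 := hpt (D.t x)
    have h2 := hpt x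
    have h3 := hh x
    have h4 := hf₁ (D.t x)
    have h5 := hf₁ x
    linear_combination h1 - h2 + h3 + h4 - h5

end Sat

/-! ### Antisymmetry -/

section Anti

variable [IsDomain R]

/-- `⟨(s - 1) a, Q⟩ = -2 ⟨a, Q⟩` for `Q ∈ W`. -/
theorem dm_form_cob_s {a Q : E → R} (hQ : Q ∈ dm_W D) :
    dl_form (fun x => a (D.s x) - a x) Q = -2 * dl_form a Q := by
  have e1 : (fun x => a (D.s x) - a x) = (fun x => a (D.s x)) - a := rfl
  rw [e1, dl_form_sub_left]
  have e2 : dl_form (fun x => a (D.s x)) Q = - dl_form a Q := by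
    have hQ' : Q = - (fun x => Q (D.s x)) := by
      funext x
      simp only [Pi.neg_apply]
      linear_combination hQ.1 x
    conv_lhs => rw [hQ']
    rw [dl_form_neg_right, dl_form_comp_perm]
  rw [e2]; ring

/-- `⟨(1 - t) w, w'⟩ + ⟨(1 - t) w', w⟩ = ⟨(1 - t) w, (1 - t) w'⟩`. -/
theorem dm_form_cob_t (w w' : E → R) :
    dl_form (fun x => w x - w (D.t x)) w' + dl_form (fun x => w' x - w' (D.t x)) w
      = dl_form (fun x => w x - w (D.t x)) (fun x => w' x - w' (D.t x)) := by
  have e1 : (fun x => w x - w (D.t x)) = w - (fun x => w (D.t x)) := rfl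
  have e2 : (fun x => w' x - w' (D.t x)) = w' - (fun x => w' (D.t x)) := rfl
  rw [e1, e2]
  simp only [dl_form_sub_left, dl_form_sub_right]
  rw [dl_form_comp_perm D.t w w', dl_form_comm w' w, dl_form_comm (fun x => w' (D.t x)) w]
  ring

theorem dm_b_antisymm (h2 : (2 : R) ≠ 0) {z z' : (E → R) × (E → R)}
    (hz : z ∈ dm_Z D) (hz' : z' ∈ dm_Z D) : dm_b D z z' + dm_b D z' z = 0 := by
  have hP := dm_P_mem_W D hz
  have hP' := dm_P_mem_W D hz'
  -- decompose v = a + w
  have hv : z.1 = (z.1 - z.2) + z.2 := by abel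
  have hv' : z'.1 = (z'.1 - z'.2) + z'.2 := by abel
  have ePa : dm_P D z = fun x => (z.1 - z.2) (D.s x) - (z.1 - z.2) x := by
    funext x; rw [dm_P_eq D hz x]; simp
  have ePa' : dm_P D z' = fun x => (z'.1 - z'.2) (D.s x) - (z'.1 - z'.2) x := by
    funext x; rw [dm_P_eq D hz' x]; simp
  have k1 : dl_form (dm_P D z) (dm_P D z') = -2 * dl_form (z.1 - z.2) (dm_P D z') := by
    conv_lhs => rw [ePa]
    exact dm_form_cob_s D hP'
  have k2 : dl_form (dm_P D z') (dm_P D z) = -2 * dl_form (z'.1 - z'.2) (dm_P D z) := by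
    conv_lhs => rw [ePa']
    exact dm_form_cob_s D hP
  have k3 : dl_form (dm_P D z) z'.2 + dl_form (dm_P D z') z.2
      = dl_form (dm_P D z) (dm_P D z') := dm_form_cob_t D z.2 z'.2
  have k4 : dm_b D z z' = dl_form (dm_P D z) (z'.1 - z'.2) + dl_form (dm_P D z) z'.2 := by
    unfold dm_b; conv_lhs => rw [hv']
    rw [dl_form_add_right]
  have k5 : dm_b D z' z = dl_form (dm_P D z') (z.1 - z.2) + dl_form (dm_P D z') z.2 := by
    unfold dm_b; conv_lhs => rw [hv]
    rw [dl_form_add_right]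
  have k6 := dl_form_comm (dm_P D z) (z'.1 - z'.2)
  have k7 := dl_form_comm (dm_P D z') (z.1 - z.2)
  have k8 := dl_form_comm (dm_P D z') (dm_P D z)
  have h : (2 : R) * (dm_b D z z' + dm_b D z' z) = 0 := by
    rw [k4, k5, k6, k7]
    linear_combination k1 + k2 + 2 * k3 - k8
  exact (mul_eq_zero.mp h).resolve_left h2

theorem dm_b_self (h2 : (2 : R) ≠ 0) {z : (E → R) × (E → R)} (hz : z ∈ dm_Z D) :
    dm_b D z z = 0 := by
  have h := dm_b_antisymm D h2 hz hz
  have h' : (2 : R) * dm_b D z z = 0 := by linear_combination h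
  exact (mul_eq_zero.mp h').resolve_left h2

theorem dm_b_eq_zero_of_right (h2 : (2 : R) ≠ 0) (h3 : (3 : R) ≠ 0)
    {z z' : (E → R) × (E → R)} (hz : z ∈ dm_Z D) (hz' : z'.1 ∈ dm_U D) : dm_b D z z' = 0 :=
  dm_form_W_U D h2 h3 (dm_P_mem_W D hz) hz'

theorem dm_b_eq_zero_of_left (h2 : (2 : R) ≠ 0) (h3 : (3 : R) ≠ 0)
    {z z' : (E → R) × (E → R)} (hz : z ∈ dm_Z D) (hz' : z' ∈ dm_Z D) (hzU : z.1 ∈ dm_U D) :
    dm_b D z z' = 0 := by
  have h := dm_b_antisymm D h2 hz hz'
  rw [dm_b_eq_zero_of_right D h2 h3 hz' hzU, add_zero] at h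
  exact h

end Anti

/-! ### Surjectivity of `z ↦ (1 - t) z.2` onto `W`, kernel, and extension to `Z` -/

section Perfect

variable [IsDomain R] [IsPrincipalIdealRing R] [DecidableEq E]

theorem dm_exists_Z_of_W (h2 : (2 : R) ≠ 0) (h3 : (3 : R) ≠ 0) {P : E → R} (hP : P ∈ dm_W D) :
    ∃ z ∈ dm_Z D, dm_P D z = P := by
  obtain ⟨a, ha⟩ := dc_exists_cob D.s P (fun u hu => by
    rw [dl_form_comm]; exact dm_form_W_Vs D h2 hP hu)
  obtain ⟨b, hb⟩ := dc_exists_cob D.t P (fun u hu => by
    rw [dl_form_comm]; exact dm_form_W_Vt D h3 hP hu)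
  refine ⟨(a - b, -b), ?_, ?_⟩
  · intro x
    simp only [Pi.sub_apply, Pi.neg_apply]
    have h1 := hb (D.s x)
    have h4 := ha x
    have h5 := hP.1 x
    linear_combination (-1 : R) * h1 - h4 - h5
  · funext x
    simp only [dm_P, Pi.neg_apply]
    linear_combination hb x

theorem dm_fst_mem_U_of_P_eq_zero {z : (E → R) × (E → R)} (hz : z ∈ dm_Z D)
    (h0 : dm_P D z = 0) : z.1 ∈ dm_U D := by
  have hv : z.1 = (z.1 - z.2) + z.2 := by abel
  rw [hv]
  apply Submodule.add_mem
  · apply Submodule.mem_sup_left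
    intro x
    have := dm_P_eq D hz x
    rw [h0] at this
    simp only [Pi.zero_apply] at this
    simp only [Pi.sub_apply]
    linear_combination (-1 : R) * this
  · apply Submodule.mem_sup_right
    intro x
    have := congrFun h0 x
    simp only [dm_P, Pi.zero_apply] at this
    linear_combination (-1 : R) * this

/-- A vector whose `(s-1)`-image is orthogonal to all translation-invariant functions
extends to an element of `Z`. -/
theorem dm_exists_Z_of_orth (v : E → R)
    (hv : ∀ u : E → R, (∀ x, u (D.t (D.s x)) = u x) →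
      dl_form u (fun x => v (D.s x) - v x) = 0) :
    ∃ w : E → R, (v, w) ∈ dm_Z D := by
  obtain ⟨w, hw⟩ := dc_exists_cob (D.t * D.s) (fun x => v (D.s x) - v x) (fun u hu => by
    apply hv u
    intro x
    have := hu x
    rwa [Equiv.Perm.mul_apply] at this)
  refine ⟨w, fun x => ?_⟩
  have := hw x
  rwa [Equiv.Perm.mul_apply] at this

/-- For translation-invariant `u`, `(0, -u) ∈ Z` and its period polynomial is `(s - 1) u`. -/
theorem dm_eis_mem_Z {u : E → R} (hu : ∀ x, u (D.t (D.s x)) = u x) :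
    ((0 : E → R), -u) ∈ dm_Z D := by
  intro x
  simp only [Pi.neg_apply, Pi.zero_apply, hu x]
  ring

theorem dm_eis_P {u : E → R} (hu : ∀ x, u (D.t (D.s x)) = u x) (x : E) :
    dm_P D ((0 : E → R), -u) x = u (D.s x) - u x := by
  have := hu (D.s x)
  rw [D.hs x] at this
  simp only [dm_P, Pi.neg_apply, this]
  ring

/-- Nondegeneracy: if `b z z' = 0` for all `z ∈ Z` then `z'.1 ∈ U`. -/
theorem dm_b_nondeg (h2 : (2 : R) ≠ 0) (h3 : (3 : R) ≠ 0) (hconn : dm_Conn D)
    {z' : (E → R) × (E → R)} (h : ∀ z ∈ dm_Z D, dm_b D z z' = 0) : z'.1 ∈ dm_U D := by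
  apply dl_mem_of_forall_form (dm_U D) (dm_U_sat D hconn)
  intro P hP
  have hPW := dm_mem_W_of_orth D hP
  obtain ⟨z, hz, rfl⟩ := dm_exists_Z_of_W D h2 h3 hPW
  exact h z hz

/-- Surjectivity: every functional on `Z` vanishing on `{z | z.1 ∈ U}` is `b z₀ ·`. -/
theorem dm_b_surj (h2 : (2 : R) ≠ 0) (h3 : (3 : R) ≠ 0)
    (lam : dm_Z (R := R) D →ₗ[R] R) (hlam : ∀ z : dm_Z (R := R) D, z.1.1 ∈ dm_U D → lam z = 0) :
    ∃ z₀ ∈ dm_Z D, ∀ z : dm_Z (R := R) D, lam z = dm_b D z₀ z.1 := by
  classical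
  -- the map 𝒫 : Z → W
  let PP : dm_Z (R := R) D →ₗ[R] dm_W (R := R) D :=
    { toFun := fun z => ⟨dm_P D z.1, dm_P_mem_W D z.2⟩
      map_add' := fun z z' => Subtype.ext (dm_P_add D z.1 z'.1)
      map_smul' := fun r z => Subtype.ext (dm_P_smul D r z.1) }
  have hPPsurj : Function.Surjective PP := by
    rintro ⟨P, hP⟩
    obtain ⟨z, hz, hzP⟩ := dm_exists_Z_of_W D h2 h3 hP
    exact ⟨⟨z, hz⟩, Subtype.ext hzP⟩
  have hker : LinearMap.ker PP ≤ LinearMap.ker lam := by
    intro z hz
    rw [LinearMap.mem_ker] at hz ⊢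
    apply hlam
    apply dm_fst_mem_U_of_P_eq_zero D z.2
    exact congrArg Subtype.val hz
  -- factor -lam through PP
  let ell : dm_W (R := R) D →ₗ[R] R :=
    ((LinearMap.ker PP).liftQ (-lam) (by
      intro z hz
      have := hker hz
      rw [LinearMap.mem_ker] at this ⊢
      rw [LinearMap.neg_apply, this, neg_zero])) ∘ₗ
      (LinearMap.quotKerEquivOfSurjective PP hPPsurj).symm.toLinearMap
  have hell : ∀ z : dm_Z (R := R) D, ell (PP z) = - lam z := by
    intro z
    simp only [ell, LinearMap.comp_apply, LinearEquiv.coe_coe]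
    have : (LinearMap.quotKerEquivOfSurjective PP hPPsurj).symm (PP z)
        = Submodule.Quotient.mk z := by
      rw [LinearEquiv.symm_apply_eq]
      rfl
    rw [this, Submodule.liftQ_apply, LinearMap.neg_apply]
  obtain ⟨v, hv⟩ := dl_exists_repr (dm_W (R := R) D) (dm_W_sat D) ell
  -- v extends to Z
  obtain ⟨w, hw⟩ := dm_exists_Z_of_orth D v (fun u hu => by
    have hz := dm_eis_mem_Z (R := R) D hu
    have h1 := hell ⟨_, hz⟩
    have h2' : lam ⟨((0 : E → R), -u), hz⟩ = 0 := by
      apply hlam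
      exact zero_mem _
    rw [h2', neg_zero, hv] at h1
    have h3' : ((PP ⟨((0 : E → R), -u), hz⟩ : dm_W (R := R) D) : E → R)
        = fun x => u (D.s x) - u x := by
      funext x; exact dm_eis_P D hu x
    rw [h3'] at h1
    -- ⟨(s-1)u, v⟩ = ⟨u, (s-1) v⟩
    have e1 : (fun x => u (D.s x) - u x) = (fun x => u (D.s x)) - u := rfl
    have e2 : (fun x => v (D.s x) - v x) = (fun x => v (D.s x)) - v := rfl
    rw [e1, dl_form_sub_left] at h1
    rw [e2, dl_form_sub_right]
    have e3 : dl_form (fun x => u (D.s x)) v = dl_form u (fun x => v (D.s x)) := by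
      have := dl_form_comp_perm D.s u (fun x => v (D.s x))
      simp only [D.hs] at this
      exact this
    rw [← e3]; exact h1.symm ▸ rfl)
  refine ⟨(v, w), hw, fun z => ?_⟩
  -- lam z = b (v,w) z = - b z (v,w) = - ⟨P_z, v⟩ = - ell (PP z) = lam z
  have h1 := dm_b_antisymm D h2 hw z.2
  have h2' : dm_b D z.1 (v, w) = dl_form (dm_P D z.1) v := rfl
  have h3' := hv (PP z)
  have h4 := hell z
  have h5 : ((PP z : dm_W (R := R) D) : E → R) = dm_P D z.1 := rfl
  rw [h5] at h3'
  linear_combination h4 - h1 + h2' - h3'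

end Perfect

end Fermat.Agent.S41x
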