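/-
S41x/SL2Presentation.lean (helper55).  Mathlib only.

`PSL(2,ℤ) = C₂ * C₃` in the form of a UNIVERSAL PROPERTY of `SL(2,ℤ)`:

* `slp55_lift_injective` : the free product `C₂ * C₃ → Perm ℍ` (`σ ↦ S•`, `τ ↦ (S*T)•`) is
  injective (ping-pong with the half planes `Re > 0`, `Re < 0`).
* `slp55_exists_hom` : for every group `H` and `s t : H` with `s ^ 2 = 1`, `t ^ 3 = 1` there is a
  monoid hom `Φ : SL(2,ℤ) →* H` with `Φ S = s`, `Φ (S * T) = t`.
* `slp55_hom_ext` : such a hom is unique.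
-/
import Mathlib

set_option autoImplicit false

open scoped MatrixGroups Pointwise
open UpperHalfPlane ModularGroup Monoid

namespace Fermat.Agent.S41x

/-- the hom `C_n → G` attached to an element of order dividing `n` -/
noncomputable def slp55_cycHom {G : Type*} [Group G] (n : ℕ) (g : G) (hg : g ^ n = 1) :
    Multiplicative (ZMod n) →* G :=
  AddMonoidHom.toMultiplicativeLeft (ZMod.lift n
    ⟨zmultiplesHom (Additive G) (Additive.ofMul g), by
      change ((n : ℤ) • Additive.ofMul g) = 0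
      rw [natCast_zsmul, ← ofMul_pow, hg]; rfl⟩)

theorem slp55_cycHom_apply {G : Type*} [Group G] (n : ℕ) (g : G) (hg : g ^ n = 1) (k : ℤ) :
    slp55_cycHom n g hg (Multiplicative.ofAdd (k : ZMod n)) = g ^ k := by
  unfold slp55_cycHom
  simp only [AddMonoidHom.coe_toMultiplicativeLeft, Function.comp_apply, toAdd_ofAdd,
    ZMod.lift_coe]
  rfl


/-! ### The two generators and their action on `ℍ` -/

theorem slp55_S_sq : (S : SL(2, ℤ)) ^ 2 = -1 := by
  apply Subtype.ext
  ext i j
  fin_cases i <;> fin_cases j <;>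
    simp [pow_two, Matrix.one_fin_two]

theorem slp55_ST_cube : ((S : SL(2, ℤ)) * T) ^ 3 = -1 := by
  apply Subtype.ext
  ext i j
  fin_cases i <;> fin_cases j <;>
    simp [pow_succ, Matrix.one_fin_two]

/-- the action hom `SL(2,ℤ) → Perm ℍ` -/
noncomputable def slp55_rho : SL(2, ℤ) →* Equiv.Perm ℍ := MulAction.toPermHom SL(2, ℤ) ℍ

theorem slp55_rho_apply (g : SL(2, ℤ)) (z : ℍ) : slp55_rho g z = g • z := rfl

theorem slp55_rho_neg_one : slp55_rho (-1) = 1 := by
  ext z
  have h := SL_neg_smul 1 z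
  rw [one_smul] at h
  exact congrArg _ h

/-- the generators `S`, `S * T` -/
def slp55_gen : Fin 2 → SL(2, ℤ) := ![S, S * T]

theorem slp55_gen_pow (i : Fin 2) : slp55_rho (slp55_gen i) ^ (i.val + 2) = 1 := by
  fin_cases i
  · show slp55_rho S ^ 2 = 1
    rw [← map_pow, slp55_S_sq, slp55_rho_neg_one]
  · show slp55_rho (S * T) ^ 3 = 1
    rw [← map_pow, slp55_ST_cube, slp55_rho_neg_one]

/-- the family `C₂`, `C₃` -/
abbrev slp55_H (i : Fin 2) : Type := Multiplicative (ZMod (i.val + 2))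

/-- the homs `C₂ → Perm ℍ`, `C₃ → Perm ℍ` -/
noncomputable def slp55_f (i : Fin 2) : slp55_H i →* Equiv.Perm ℍ :=
  slp55_cycHom (i.val + 2) (slp55_rho (slp55_gen i)) (slp55_gen_pow i)

/-- the ping-pong half planes -/
def slp55_X : Fin 2 → Set ℍ := ![{z | 0 < z.re}, {z | z.re < 0}]


theorem slp55_re_S_smul (z : ℍ) : (S • z).re = - z.re / Complex.normSq z := by
  rw [modular_S_smul]
  show ((-(z : ℂ))⁻¹).re = _
  rw [Complex.inv_re, Complex.neg_re, Complex.normSq_neg]
  rfl

theorem slp55_re_T_smul (z : ℍ) : (T • z).re = z.re + 1 := by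
  rw [modular_T_smul, UpperHalfPlane.vadd_re, add_comm]

theorem slp55_re_T_inv_smul (z : ℍ) : (T⁻¹ • z).re = z.re - 1 := by
  have h := modular_T_zpow_smul z (-1)
  rw [zpow_neg_one] at h
  rw [h, UpperHalfPlane.vadd_re]
  push_cast
  ring

theorem slp55_normSq_pos (z : ℍ) : 0 < Complex.normSq z :=
  Complex.normSq_pos.mpr z.ne_zero

/-- `S` maps the left half plane into the right half plane -/
theorem slp55_pp_S {z : ℍ} (hz : z.re < 0) : 0 < (S • z).re := by
  rw [slp55_re_S_smul]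
  exact div_pos (by linarith) (slp55_normSq_pos z)

/-- `S T` maps the right half plane into the left half plane -/
theorem slp55_pp_ST {z : ℍ} (hz : 0 < z.re) : ((S * T) • z).re < 0 := by
  rw [mul_smul, slp55_re_S_smul, slp55_re_T_smul]
  exact div_neg_of_neg_of_pos (by linarith) (slp55_normSq_pos _)

/-- `(S T)⁻¹` maps the right half plane into the left half plane -/
theorem slp55_pp_ST_inv {z : ℍ} (hz : 0 < z.re) : ((S * T)⁻¹ • z).re < 0 := by
  have hS : (S : SL(2, ℤ))⁻¹ • z = S • z := by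
    have h1 : (S : SL(2, ℤ))⁻¹ = -S := by
      rw [inv_eq_iff_mul_eq_one, mul_neg, ← pow_two, slp55_S_sq, neg_neg]
    rw [h1, SL_neg_smul]
  rw [mul_inv_rev, mul_smul, hS, slp55_re_T_inv_smul, slp55_re_S_smul]
  have : - z.re / Complex.normSq z < 0 :=
    div_neg_of_neg_of_pos (by linarith) (slp55_normSq_pos _)
  linarith


theorem slp55_H0_cases (h : Multiplicative (ZMod 2)) (hne : h ≠ 1) :
    h = Multiplicative.ofAdd ((1 : ℤ) : ZMod 2) := by
  revert h; decide

theorem slp55_H1_cases (h : Multiplicative (ZMod 3)) (hne : h ≠ 1) :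
    h = Multiplicative.ofAdd ((1 : ℤ) : ZMod 3) ∨ h = Multiplicative.ofAdd ((-1 : ℤ) : ZMod 3) := by
  revert h; decide

theorem slp55_f0_apply (h : slp55_H 0) (hne : h ≠ 1) (z : ℍ) :
    slp55_f 0 h z = S • z := by
  have h1 : h = Multiplicative.ofAdd ((1 : ℤ) : ZMod 2) := slp55_H0_cases h hne
  subst h1
  have := slp55_cycHom_apply 2 (slp55_rho (slp55_gen 0)) (slp55_gen_pow 0) 1
  rw [zpow_one] at this
  show slp55_cycHom 2 (slp55_rho (slp55_gen 0)) (slp55_gen_pow 0) _ z = _
  rw [this]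
  rfl

theorem slp55_f1_apply (h : slp55_H 1) (hne : h ≠ 1) (z : ℍ) :
    slp55_f 1 h z = (S * T) • z ∨ slp55_f 1 h z = (S * T)⁻¹ • z := by
  rcases slp55_H1_cases h hne with h1 | h1
  · left
    subst h1
    have := slp55_cycHom_apply 3 (slp55_rho (slp55_gen 1)) (slp55_gen_pow 1) 1
    rw [zpow_one] at this
    show slp55_cycHom 3 (slp55_rho (slp55_gen 1)) (slp55_gen_pow 1) _ z = _
    rw [this]
    rfl
  · right
    subst h1
    have := slp55_cycHom_apply 3 (slp55_rho (slp55_gen 1)) (slp55_gen_pow 1) (-1)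
    rw [zpow_neg_one, ← map_inv] at this
    show slp55_cycHom 3 (slp55_rho (slp55_gen 1)) (slp55_gen_pow 1) _ z = _
    rw [this]
    rfl

/-- PING-PONG: the free product `C₂ * C₃ → Perm ℍ` is injective. -/
theorem slp55_lift_injective : Function.Injective (CoprodI.lift slp55_f) := by
  apply CoprodI.lift_injective_of_ping_pong slp55_f (X := slp55_X)
  · right
    refine ⟨1, ?_⟩
    show (3 : Cardinal) ≤ Cardinal.mk (Multiplicative (ZMod 3))
    rw [Cardinal.mk_fintype]
    simp [ZMod.card]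
  · intro i
    fin_cases i
    · exact ⟨⟨⟨1, 1⟩, by norm_num⟩, by show (0:ℝ) < 1; norm_num⟩
    · exact ⟨⟨⟨-1, 1⟩, by norm_num⟩, by show (-1:ℝ) < 0; norm_num⟩
  · intro i j hij
    fin_cases i <;> fin_cases j
    · exact absurd rfl hij
    · rw [Function.onFun, Set.disjoint_left]
      intro z (h1 : 0 < z.re) (h2 : z.re < 0)
      linarith
    · rw [Function.onFun, Set.disjoint_left]
      intro z (h1 : z.re < 0) (h2 : 0 < z.re)
      linarith
    · exact absurd rfl hij
  · intro i j hij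
    fin_cases i <;> fin_cases j
    · exact absurd rfl hij
    · intro h hne
      rintro _ ⟨z, (hz : z.re < 0), rfl⟩
      show 0 < (slp55_f 0 h z).re
      rw [slp55_f0_apply h hne]
      exact slp55_pp_S hz
    · intro h hne
      rintro _ ⟨z, (hz : 0 < z.re), rfl⟩
      show (slp55_f 1 h z).re < 0
      rcases slp55_f1_apply h hne z with h1 | h1
      · rw [h1]; exact slp55_pp_ST hz
      · rw [h1]; exact slp55_pp_ST_inv hz
    · exact absurd rfl hij


/-! ### The universal property of `SL(2,ℤ)` -/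

/-- the generator of `C₂` resp. `C₃` inside the free product -/
noncomputable def slp55_g (i : Fin 2) : CoprodI slp55_H :=
  CoprodI.of (M := slp55_H) (i := i) (Multiplicative.ofAdd (((1 : ℤ) : ZMod (i.val + 2))))

theorem slp55_lift_g (i : Fin 2) : CoprodI.lift slp55_f (slp55_g i) = slp55_rho (slp55_gen i) := by
  unfold slp55_g
  rw [CoprodI.lift_of]
  have := slp55_cycHom_apply (i.val + 2) (slp55_rho (slp55_gen i)) (slp55_gen_pow i) 1
  rw [zpow_one] at this
  exact this

theorem slp55_rho_mem_range (g : SL(2, ℤ)) : slp55_rho g ∈ (CoprodI.lift slp55_f).range := by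
  have hS : slp55_rho S ∈ (CoprodI.lift slp55_f).range := ⟨slp55_g 0, slp55_lift_g 0⟩
  have hST : slp55_rho (S * T) ∈ (CoprodI.lift slp55_f).range := ⟨slp55_g 1, slp55_lift_g 1⟩
  have hT : slp55_rho T ∈ (CoprodI.lift slp55_f).range := by
    have : slp55_rho T = (slp55_rho S)⁻¹ * slp55_rho (S * T) := by
      rw [← map_inv, ← map_mul, inv_mul_cancel_left]
    rw [this]
    exact mul_mem (inv_mem hS) hST
  have hg : g ∈ Subgroup.closure ({S, T} : Set SL(2, ℤ)) := by
    rw [SpecialLinearGroup.SL2Z_generators]; trivial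
  have hle : Subgroup.closure ({S, T} : Set SL(2, ℤ)) ≤
      (CoprodI.lift slp55_f).range.comap slp55_rho := by
    rw [Subgroup.closure_le]
    rintro x (rfl | rfl)
    · exact hS
    · exact hT
  exact hle hg

/-- the inverse map `SL(2,ℤ) → C₂ * C₃` -/
noncomputable def slp55_Psi : SL(2, ℤ) →* CoprodI slp55_H :=
  (MonoidHom.ofInjective slp55_lift_injective).symm.toMonoidHom.comp
    (slp55_rho.codRestrict (CoprodI.lift slp55_f).range slp55_rho_mem_range)

theorem slp55_lift_Psi (g : SL(2, ℤ)) : CoprodI.lift slp55_f (slp55_Psi g) = slp55_rho g := by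
  unfold slp55_Psi
  simp only [MonoidHom.coe_comp, MulEquiv.coe_toMonoidHom, Function.comp_apply]
  have := MonoidHom.apply_ofInjective_symm slp55_lift_injective
    (slp55_rho.codRestrict (CoprodI.lift slp55_f).range slp55_rho_mem_range g)
  rw [this]
  rfl

theorem slp55_Psi_gen (i : Fin 2) : slp55_Psi (slp55_gen i) = slp55_g i := by
  apply slp55_lift_injective
  rw [slp55_lift_Psi, slp55_lift_g]

/-- EXISTENCE: for every group `H` and `s t : H` with `s ^ 2 = 1`, `t ^ 3 = 1` there is a hom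
`SL(2,ℤ) →* H` with `S ↦ s`, `S * T ↦ t`. -/
theorem slp55_exists_hom {H : Type*} [Group H] (s t : H) (hs : s ^ 2 = 1) (ht : t ^ 3 = 1) :
    ∃ Φ : SL(2, ℤ) →* H, Φ S = s ∧ Φ (S * T) = t := by
  have hpow : ∀ i : Fin 2, (![s, t] i) ^ (i.val + 2) = 1 := by
    intro i; fin_cases i
    · exact hs
    · exact ht
  let k : ∀ i : Fin 2, slp55_H i →* H := fun i => slp55_cycHom (i.val + 2) (![s, t] i) (hpow i)
  have hk : ∀ i : Fin 2, CoprodI.lift k (slp55_g i) = ![s, t] i := by
    intro i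
    unfold slp55_g
    rw [CoprodI.lift_of]
    have := slp55_cycHom_apply (i.val + 2) (![s, t] i) (hpow i) 1
    rw [zpow_one] at this
    exact this
  refine ⟨(CoprodI.lift k).comp slp55_Psi, ?_, ?_⟩
  · have := slp55_Psi_gen 0
    show CoprodI.lift k (slp55_Psi S) = s
    rw [show (S : SL(2, ℤ)) = slp55_gen 0 from rfl, this, hk 0]
    rfl
  · have := slp55_Psi_gen 1
    show CoprodI.lift k (slp55_Psi (S * T)) = t
    rw [show (S * T : SL(2, ℤ)) = slp55_gen 1 from rfl, this, hk 1]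
    rfl

/-- UNIQUENESS: a hom out of `SL(2,ℤ)` is determined by its values at `S` and `S * T`. -/
theorem slp55_hom_ext {H : Type*} [Group H] {Φ Φ' : SL(2, ℤ) →* H}
    (hS : Φ S = Φ' S) (hST : Φ (S * T) = Φ' (S * T)) : Φ = Φ' := by
  have hT : Φ T = Φ' T := by
    have e : ∀ Θ : SL(2, ℤ) →* H, Θ T = (Θ S)⁻¹ * Θ (S * T) := by
      intro Θ
      rw [← map_inv, ← map_mul, inv_mul_cancel_left]
    rw [e Φ, e Φ', hS, hST]
  apply MonoidHom.eq_of_eqOn_dense (s := ({S, T} : Set SL(2, ℤ)))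
  · exact SpecialLinearGroup.SL2Z_generators
  · rintro x (rfl | rfl)
    · exact hS
    · exact hT


/-! ### Crossed homomorphisms are freely determined on the generators -/

/-- CROSSED HOMS: if `-1` acts trivially on `V`, then for `a b : V` with `(1 + S) a = 0` and
`(1 + ST + (ST)²) b = 0` there is a crossed homomorphism `z` with `z S = a`, `z (S T) = b`. -/
theorem slp55_exists_crossedHom {V : Type*} [AddCommGroup V] [DistribMulAction SL(2, ℤ) V]
    (hneg : ∀ v : V, (-1 : SL(2, ℤ)) • v = v) (a b : V)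
    (ha : a + S • a = 0) (hb : b + (S * T) • b + (S * T) • (S * T) • b = 0) :
    ∃ z : SL(2, ℤ) → V, (∀ g h, z (g * h) = z g + g • z h) ∧ z S = a ∧ z (S * T) = b := by
  classical
  -- the affine permutations
  have hSS : ∀ v : V, (S : SL(2, ℤ)) • (S : SL(2, ℤ)) • v = v := by
    intro v
    rw [← mul_smul, ← pow_two, slp55_S_sq, hneg]
  have hTTT : ∀ v : V, (S * T : SL(2, ℤ)) • (S * T : SL(2, ℤ)) • (S * T : SL(2, ℤ)) • v = v := by
    intro v
    have h3 : (S * T : SL(2, ℤ)) * (S * T) * (S * T) = (S * T) ^ 3 := by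
      rw [pow_succ, pow_two]
    rw [smul_smul, smul_smul, h3, slp55_ST_cube, hneg]
  let sP : Equiv.Perm V :=
    { toFun := fun v => (S : SL(2, ℤ)) • v + a
      invFun := fun v => (S : SL(2, ℤ)) • v + a
      left_inv := fun v => by
        show (S : SL(2, ℤ)) • ((S : SL(2, ℤ)) • v + a) + a = v
        rw [smul_add, hSS, add_assoc, add_comm (S • a) a, ha, add_zero]
      right_inv := fun v => by
        show (S : SL(2, ℤ)) • ((S : SL(2, ℤ)) • v + a) + a = v
        rw [smul_add, hSS, add_assoc, add_comm (S • a) a, ha, add_zero] }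
  let tP : Equiv.Perm V :=
    { toFun := fun v => (S * T : SL(2, ℤ)) • v + b
      invFun := fun v => (S * T : SL(2, ℤ))⁻¹ • (v - b)
      left_inv := fun v => by
        show (S * T : SL(2, ℤ))⁻¹ • ((S * T : SL(2, ℤ)) • v + b - b) = v
        rw [add_sub_cancel_right, inv_smul_smul]
      right_inv := fun v => by
        show (S * T : SL(2, ℤ)) • ((S * T : SL(2, ℤ))⁻¹ • (v - b)) + b = v
        rw [smul_inv_smul, sub_add_cancel] }
  have hs2 : sP ^ 2 = 1 := by
    ext v
    show (S : SL(2, ℤ)) • ((S : SL(2, ℤ)) • v + a) + a = v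
    rw [smul_add, hSS, add_assoc, add_comm (S • a) a, ha, add_zero]
  have ht3 : tP ^ 3 = 1 := by
    ext v
    show (S * T : SL(2, ℤ)) • ((S * T : SL(2, ℤ)) • ((S * T : SL(2, ℤ)) • v + b) + b) + b = v
    rw [smul_add, smul_add, smul_add, hTTT]
    have : (S * T : SL(2, ℤ)) • (S * T : SL(2, ℤ)) • b + (S * T : SL(2, ℤ)) • b + b = 0 := by
      rw [← hb]; abel
    rw [add_assoc, add_assoc, ← add_assoc ((S * T : SL(2, ℤ)) • (S * T : SL(2, ℤ)) • b), this,
      add_zero]
  obtain ⟨Φ, hΦS, hΦT⟩ := slp55_exists_hom sP tP hs2 ht3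
  -- every `Φ g` is affine with linear part `g`
  let P : Subgroup SL(2, ℤ) :=
    { carrier := {g | ∃ c : V, ∀ v : V, Φ g v = g • v + c}
      one_mem' := ⟨0, fun v => by rw [map_one, one_smul, add_zero]; rfl⟩
      mul_mem' := by
        rintro g h ⟨c, hc⟩ ⟨d, hd⟩
        refine ⟨g • d + c, fun v => ?_⟩
        rw [map_mul, Equiv.Perm.mul_apply, hd, hc, smul_add, mul_smul, add_assoc]
      inv_mem' := by
        rintro g ⟨c, hc⟩
        refine ⟨- (g⁻¹ • c), fun v => ?_⟩
        have h1 : Φ g (g⁻¹ • v + - (g⁻¹ • c)) = v := by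
          rw [hc, smul_add, smul_inv_smul, smul_neg, smul_inv_smul, neg_add_cancel_right]
        rw [map_inv, Equiv.Perm.inv_eq_iff_eq, h1] }
  have hPS : (S : SL(2, ℤ)) ∈ P := ⟨a, fun v => by rw [hΦS]; rfl⟩
  have hPST : (S * T : SL(2, ℤ)) ∈ P := ⟨b, fun v => by rw [hΦT]; rfl⟩
  have hPT : (T : SL(2, ℤ)) ∈ P := by
    have : (T : SL(2, ℤ)) = S⁻¹ * (S * T) := by rw [inv_mul_cancel_left]
    rw [this]
    exact P.mul_mem (P.inv_mem hPS) hPST
  have hP : ∀ g : SL(2, ℤ), g ∈ P := by
    intro g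
    have hg : g ∈ Subgroup.closure ({S, T} : Set SL(2, ℤ)) := by
      rw [SpecialLinearGroup.SL2Z_generators]; trivial
    have hle : Subgroup.closure ({S, T} : Set SL(2, ℤ)) ≤ P := by
      rw [Subgroup.closure_le]
      rintro x (rfl | rfl)
      · exact hPS
      · exact hPT
    exact hle hg
  have haff : ∀ (g : SL(2, ℤ)) (v : V), Φ g v = g • v + Φ g 0 := by
    intro g v
    obtain ⟨c, hc⟩ := hP g
    have h0 := hc 0
    rw [smul_zero, zero_add] at h0
    rw [hc, h0]
  refine ⟨fun g => Φ g 0, ?_, ?_, ?_⟩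
  · intro g h
    show Φ (g * h) 0 = Φ g 0 + g • Φ h 0
    rw [map_mul, Equiv.Perm.mul_apply, haff g (Φ h 0), add_comm]
  · show Φ S 0 = a
    rw [hΦS]
    show (S : SL(2, ℤ)) • (0 : V) + a = a
    rw [smul_zero, zero_add]
  · show Φ (S * T) 0 = b
    rw [hΦT]
    show (S * T : SL(2, ℤ)) • (0 : V) + b = b
    rw [smul_zero, zero_add]


/-! ### Manin's theorem: the 2- and 3-term relations are the only ones -/

/-- even functions on `SL(2,ℤ)` -/
def slp55_Even (M : Type*) [AddCommGroup M] : AddSubgroup (SL(2, ℤ) → M) where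
  carrier := {F | ∀ g, F (-g) = F g}
  zero_mem' := fun _ => rfl
  add_mem' := by
    intro F F' hF hF' g
    show F (-g) + F' (-g) = F g + F' g
    rw [hF, hF']
  neg_mem' := by
    intro F hF g
    show - F (-g) = - F g
    rw [hF]

noncomputable instance slp55_Even_action (M : Type*) [AddCommGroup M] :
    DistribMulAction SL(2, ℤ) (slp55_Even M) where
  smul h F := ⟨fun g => F.1 (g * h), fun g => by
    show F.1 (-g * h) = F.1 (g * h)
    rw [neg_mul]; exact F.2 _⟩
  one_smul F := by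
    apply Subtype.ext; funext g
    show F.1 (g * 1) = F.1 g
    rw [mul_one]
  mul_smul h₁ h₂ F := by
    apply Subtype.ext; funext g
    show F.1 (g * (h₁ * h₂)) = F.1 (g * h₁ * h₂)
    rw [mul_assoc]
  smul_zero h := rfl
  smul_add h F F' := rfl

theorem slp55_Even_smul_apply {M : Type*} [AddCommGroup M] (h : SL(2, ℤ)) (F : slp55_Even M)
    (g : SL(2, ℤ)) : (h • F).1 g = F.1 (g * h) := rfl

/-- MANIN'S THEOREM (cusp-free form).  A function `θ` on oriented Farey edges `g ↦ (g∞ → g0)`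
which is even, odd under edge reversal (`g ↦ g S`) and satisfies the triangle relation is the
coboundary `θ g = c (g S) - c g` of a function `c` on cusps (`c (g T) = c g`, `c (-g) = c g`,
i.e. `c g` only depends on `g ∞`). -/
theorem slp55_manin {M : Type*} [AddCommGroup M] (θ : SL(2, ℤ) → M)
    (hneg : ∀ g, θ (-g) = θ g) (hS : ∀ g, θ (g * S) = - θ g)
    (hτ : ∀ g, θ g + θ (g * (S * T)) + θ (g * (S * T) * (S * T)) = 0) :
    ∃ c : SL(2, ℤ) → M, (∀ g, c (g * T) = c g) ∧ (∀ g, c (-g) = c g) ∧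
      ∀ g, θ g = c (g * S) - c g := by
  let Θ : slp55_Even M := ⟨θ, hneg⟩
  have h1 : ∀ v : slp55_Even M, (-1 : SL(2, ℤ)) • v = v := by
    intro v
    apply Subtype.ext; funext g
    show v.1 (g * -1) = v.1 g
    rw [mul_neg, mul_one]; exact v.2 g
  have ha : Θ + (S : SL(2, ℤ)) • Θ = 0 := by
    apply Subtype.ext; funext g
    show θ g + θ (g * S) = 0
    rw [hS, add_neg_cancel]
  have hb : Θ + (S * T : SL(2, ℤ)) • Θ + (S * T : SL(2, ℤ)) • (S * T : SL(2, ℤ)) • Θ = 0 := by
    apply Subtype.ext; funext g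
    show θ g + θ (g * (S * T)) + θ (g * (S * T) * (S * T)) = 0
    exact hτ g
  obtain ⟨z, hz, hzS, hzT⟩ := slp55_exists_crossedHom h1 Θ Θ ha hb
  -- `z 1 = 0`
  have hz1 : z 1 = 0 := by
    have := hz 1 1
    rw [mul_one, one_smul] at this
    exact left_eq_add.mp this
  -- `z T = 0`
  have hzTT : z T = 0 := by
    have e1 : z (S * T) = z S + (S : SL(2, ℤ)) • z T := hz S T
    rw [hzS, hzT] at e1
    have e2 : (S : SL(2, ℤ)) • z T = 0 := left_eq_add.mp e1
    have := congrArg (fun v => (S : SL(2, ℤ))⁻¹ • v) e2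
    simpa using this
  -- `z (-1) = 0`
  have hzneg : z (-1) = 0 := by
    have e : z (S * S) = z S + (S : SL(2, ℤ)) • z S := hz S S
    rw [hzS, ha] at e
    rwa [← pow_two, slp55_S_sq] at e
  -- the potential
  refine ⟨fun g => (z g).1 1, ?_, ?_, ?_⟩
  · intro g
    show (z (g * T)).1 1 = (z g).1 1
    rw [hz g T, hzTT, smul_zero, add_zero]
  · intro g
    show (z (-g)).1 1 = (z g).1 1
    have : -g = g * -1 := by rw [mul_neg, mul_one]
    rw [this, hz g (-1), hzneg, smul_zero, add_zero]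
  · intro g
    show θ g = (z (g * S)).1 1 - (z g).1 1
    rw [hz g S, hzS]
    show θ g = (z g).1 1 + (g • Θ).1 1 - (z g).1 1
    rw [slp55_Even_smul_apply, one_mul, add_sub_cancel_left]

end Fermat.Agent.S41x
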