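/-
S41 project, block C (duality), item [BRG] (helper46): the BRIDGE between the intrinsic cusp sum
of a twisted primitive and the period-polynomial form `dm_b` of `DualModel`.

Conventions (= helper52's `DualDict`): `SL(2,ℤ)` acts on the finite set `E`, `-1` acts trivially,
`D.s x = S⁻¹ • x`, `D.t x = (S * T)⁻¹ • x`; crossed homs `F, F'` with `F S = 0`,
`F (S * T) = (τ - 1) v`, where `z = (v, w) ∈ dm_Z D`, `z' = (v', w') ∈ dm_Z D`; `H` an `n`-twisted
primitive of `(F, F')`.  Then the sum over the cusps (= `T`-orbits on `E`) of the values of `H`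
on the parabolic loops is `n * dm_b D z z'`  (`dint_bridge`).
-/
import Fermat.Agent.S41x.DualIntrB
import Fermat.Agent.S41x.DualModel
import Fermat.Agent.S41x.SL2Presentation

set_option autoImplicit false

open scoped MatrixGroups
open ModularGroup

namespace Fermat.Agent.S41x

open Finset

section grp

variable {E : Type*} [MulAction SL(2, ℤ) E]

theorem dint_S_mul_S : (S : SL(2, ℤ)) * S = -1 := by
  rw [← pow_two, slp55_S_sq]

theorem dint_neg_one_mul_self : (-1 : SL(2, ℤ)) * -1 = 1 := by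
  rw [neg_mul_neg, one_mul]

theorem dint_S_inv : (S : SL(2, ℤ))⁻¹ = -1 * S := by
  apply inv_eq_of_mul_eq_one_right
  rw [neg_mul, one_mul, mul_neg, dint_S_mul_S, neg_neg]

theorem dint_S_inv_smul (hneg : ∀ y : E, (-1 : SL(2, ℤ)) • y = y) (y : E) :
    (S : SL(2, ℤ))⁻¹ • y = (S : SL(2, ℤ)) • y := by
  rw [dint_S_inv, mul_smul, hneg]

theorem dint_T_eq : (T : SL(2, ℤ)) = S⁻¹ * (S * T) := by
  rw [inv_mul_cancel_left]

theorem dint_sig_eq (hneg : ∀ y : E, (-1 : SL(2, ℤ)) • y = y) (y : E) :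
    dint_sig E y = (S * T : SL(2, ℤ))⁻¹ • ((S : SL(2, ℤ))⁻¹ • y) := by
  unfold dint_sig
  conv_lhs => rw [dint_T_eq, mul_inv_rev, inv_inv, mul_smul]
  rw [dint_S_inv_smul hneg]

theorem dint_ST_cube_smul (hneg : ∀ y : E, (-1 : SL(2, ℤ)) • y = y) (y : E) :
    (S * T : SL(2, ℤ))⁻¹ • (S * T : SL(2, ℤ))⁻¹ • (S * T : SL(2, ℤ))⁻¹ • y = y := by
  have h : ((S * T : SL(2, ℤ)) ^ 3) • y = y := by rw [slp55_ST_cube, hneg]
  have gen : ∀ g : SL(2, ℤ), g⁻¹ • g⁻¹ • g⁻¹ • (g ^ 3) • y = y := by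
    intro g
    rw [pow_succ', pow_two, mul_smul, mul_smul, inv_smul_smul, inv_smul_smul, inv_smul_smul]
  have := gen (S * T)
  rwa [h] at this

end grp

section kappa

variable {E : Type*} [Fintype E] [MulAction SL(2, ℤ) E] {R : Type*} [CommRing R]
variable {F F' H : SL(2, ℤ) → E → R} {n : R}

/-- total mass of a twisted primitive. -/
def dint_kap (H : SL(2, ℤ) → E → R) (g : SL(2, ℤ)) : R := ∑ y, H g y

theorem dint_sum_smul (g : SL(2, ℤ)) (A : E → R) : ∑ y, A (g • y) = ∑ y, A y :=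
  Equiv.sum_comp (MulAction.toPerm g) A

theorem dint_kap_mul (hH : dint_IsTw n F F' H) (g h : SL(2, ℤ)) :
    dint_kap H (g * h)
      = dint_kap H g + dint_kap H h - n * ∑ y, F g y * F' h (g⁻¹ • y) := by
  unfold dint_kap
  have := dint_sum_smul g⁻¹ (H h)
  rw [← this, Finset.mul_sum, ← Finset.sum_add_distrib, ← Finset.sum_sub_distrib]
  apply Finset.sum_congr rfl
  intro y _
  rw [hH]; ring

theorem dint_kap_mul_of_left (hH : dint_IsTw n F F' H) (g h : SL(2, ℤ))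
    (hg : ∀ y, F g y = 0) : dint_kap H (g * h) = dint_kap H g + dint_kap H h := by
  rw [dint_kap_mul hH]
  have : ∑ y, F g y * F' h (g⁻¹ • y) = 0 := by
    apply Finset.sum_eq_zero
    intro y _
    rw [hg, zero_mul]
  rw [this]; ring

theorem dint_kap_one (hF : dint_IsCross F) (hH : dint_IsTw n F F' H) : dint_kap H 1 = 0 := by
  unfold dint_kap
  apply Finset.sum_eq_zero
  intro y _
  exact dint_tw_one hF hH y

omit [Fintype E] in
theorem dint_cross_neg_one (hF : dint_IsCross F) (hFS : ∀ y, F S y = 0) (y : E) :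
    F (-1) y = 0 := by
  rw [← dint_S_mul_S, hF, hFS, hFS, add_zero]

omit [Fintype E] in
theorem dint_cross_S_inv (hF : dint_IsCross F) (hFS : ∀ y, F S y = 0) (y : E) :
    F S⁻¹ y = 0 := by
  rw [dint_cross_inv hF, hFS, neg_zero]

variable [IsDomain R]

theorem dint_kap_neg_one (h2 : (2 : R) ≠ 0) (hF : dint_IsCross F) (hH : dint_IsTw n F F' H)
    (hFS : ∀ y, F S y = 0) : dint_kap H (-1) = 0 := by
  have h := dint_kap_mul_of_left hH (-1) (-1) (dint_cross_neg_one hF hFS)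
  rw [dint_neg_one_mul_self, dint_kap_one hF hH] at h
  have h' : (2 : R) * dint_kap H (-1) = 0 := by linear_combination -h
  exact (mul_eq_zero.mp h').resolve_left h2

theorem dint_kap_S (h2 : (2 : R) ≠ 0) (hF : dint_IsCross F) (hH : dint_IsTw n F F' H)
    (hFS : ∀ y, F S y = 0) : dint_kap H S = 0 := by
  have h := dint_kap_mul_of_left hH S S hFS
  rw [dint_S_mul_S, dint_kap_neg_one h2 hF hH hFS] at h
  have h' : (2 : R) * dint_kap H S = 0 := by linear_combination -h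
  exact (mul_eq_zero.mp h').resolve_left h2

theorem dint_kap_S_inv (h2 : (2 : R) ≠ 0) (hF : dint_IsCross F) (hH : dint_IsTw n F F' H)
    (hFS : ∀ y, F S y = 0) : dint_kap H S⁻¹ = 0 := by
  have h := dint_kap_mul_of_left hH S S⁻¹ hFS
  rw [mul_inv_cancel, dint_kap_one hF hH, dint_kap_S h2 hF hH hFS] at h
  linear_combination -h

omit [MulAction SL(2, ℤ) E] [IsDomain R] in
/-- the reindexing identity behind `κ(τ)`: for a permutation `t` of order 3. -/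
theorem dint_cube_identity (t : E → E) (hsum : ∀ A : E → R, ∑ y, A (t y) = ∑ y, A y)
    (ht : ∀ y, t (t (t y)) = y) (v v' : E → R) :
    ∑ y, (v (t y) - v y) * (v' (t (t y)) - v' (t y))
      + ∑ y, (v (t (t y)) - v y) * (v' y - v' (t (t y)))
      = 3 * ∑ y, v y * (v' (t y) - v' y) := by
  have e1 : ∑ y, v (t y) * v' (t (t y)) = ∑ y, v y * v' (t y) :=
    hsum (fun y => v y * v' (t y))
  have e2 : ∑ y, v (t y) * v' (t y) = ∑ y, v y * v' y := hsum (fun y => v y * v' y)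
  have e3 : ∑ y, v (t (t y)) * v' y = ∑ y, v y * v' (t y) := by
    rw [← hsum (fun y => v (t (t y)) * v' y)]
    apply Finset.sum_congr rfl
    intro y _
    rw [ht]
  have e4 : ∑ y, v (t (t y)) * v' (t (t y)) = ∑ y, v y * v' y := by
    rw [← hsum (fun y => v y * v' y), ← hsum (fun y => v (t y) * v' (t y))]
  have x1 : ∑ y, (v (t y) - v y) * (v' (t (t y)) - v' (t y))
      = ∑ y, v (t y) * v' (t (t y)) - ∑ y, v (t y) * v' (t y)
        - ∑ y, v y * v' (t (t y)) + ∑ y, v y * v' (t y) := by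
    rw [← Finset.sum_sub_distrib, ← Finset.sum_sub_distrib, ← Finset.sum_add_distrib]
    apply Finset.sum_congr rfl
    intro y _
    ring
  have x2 : ∑ y, (v (t (t y)) - v y) * (v' y - v' (t (t y)))
      = ∑ y, v (t (t y)) * v' y - ∑ y, v (t (t y)) * v' (t (t y))
        - ∑ y, v y * v' y + ∑ y, v y * v' (t (t y)) := by
    rw [← Finset.sum_sub_distrib, ← Finset.sum_sub_distrib, ← Finset.sum_add_distrib]
    apply Finset.sum_congr rfl
    intro y _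
    ring
  have x3 : ∑ y, v y * (v' (t y) - v' y) = ∑ y, v y * v' (t y) - ∑ y, v y * v' y := by
    rw [← Finset.sum_sub_distrib]
    apply Finset.sum_congr rfl
    intro y _
    ring
  rw [x1, x2, x3, e1, e2, e3, e4]
  ring

theorem dint_kap_tau_aux (h2 : (2 : R) ≠ 0) (h3 : (3 : R) ≠ 0)
    (hF : dint_IsCross F) (hH : dint_IsTw n F F' H)
    (hFS : ∀ y, F S y = 0) (v v' : E → R) (τ : SL(2, ℤ)) (hcube : τ * τ * τ = -1)
    (hτ3 : ∀ y : E, τ⁻¹ • τ⁻¹ • τ⁻¹ • y = y)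
    (hFτ : ∀ y, F τ y = v (τ⁻¹ • y) - v y)
    (hFτ' : ∀ y, F' τ y = v' (τ⁻¹ • y) - v' y) :
    dint_kap H τ = n * ∑ y, v y * (v' (τ⁻¹ • y) - v' y) := by
  have k2 := dint_kap_mul hH τ τ
  have k3 := dint_kap_mul hH (τ * τ) τ
  rw [hcube, dint_kap_neg_one h2 hF hH hFS] at k3
  have hid := dint_cube_identity (fun y => τ⁻¹ • y) (fun A => dint_sum_smul τ⁻¹ A)
    hτ3 v v'
  have s1 : ∑ y, F τ y * F' τ (τ⁻¹ • y)
      = ∑ y, (v (τ⁻¹ • y) - v y) * (v' (τ⁻¹ • τ⁻¹ • y) - v' (τ⁻¹ • y)) := by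
    apply Finset.sum_congr rfl
    intro y _
    rw [hFτ, hFτ']
  have s2 : ∑ y, F (τ * τ) y * F' τ ((τ * τ)⁻¹ • y)
      = ∑ y, (v (τ⁻¹ • τ⁻¹ • y) - v y) * (v' y - v' (τ⁻¹ • τ⁻¹ • y)) := by
    apply Finset.sum_congr rfl
    intro y _
    rw [hF, hFτ, hFτ, mul_inv_rev, mul_smul, hFτ', hτ3]
    ring
  rw [s1] at k2
  rw [s2] at k3
  have h' : (3 : R) * (dint_kap H τ
      - n * ∑ y, v y * (v' (τ⁻¹ • y) - v' y)) = 0 := by
    linear_combination -k3 - k2 + n * hid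
  have := (mul_eq_zero.mp h').resolve_left h3
  linear_combination this

/-- `κ(τ) = n ⟨v, (τ - 1) v'⟩`. -/
theorem dint_kap_tau (h2 : (2 : R) ≠ 0) (h3 : (3 : R) ≠ 0)
    (hneg : ∀ y : E, (-1 : SL(2, ℤ)) • y = y)
    (hF : dint_IsCross F) (hH : dint_IsTw n F F' H)
    (hFS : ∀ y, F S y = 0) (v v' : E → R)
    (hFτ : ∀ y, F (S * T) y = v ((S * T : SL(2, ℤ))⁻¹ • y) - v y)
    (hFτ' : ∀ y, F' (S * T) y = v' ((S * T : SL(2, ℤ))⁻¹ • y) - v' y) :
    dint_kap H (S * T)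
      = n * ∑ y, v y * (v' ((S * T : SL(2, ℤ))⁻¹ • y) - v' y) := by
  apply dint_kap_tau_aux h2 h3 hF hH hFS v v' (S * T) _ (dint_ST_cube_smul hneg) hFτ hFτ'
  rw [← slp55_ST_cube, pow_succ, pow_two]

/-- `κ(T) = n ⟨v, (τ - 1) v'⟩`. -/
theorem dint_kap_T (h2 : (2 : R) ≠ 0) (h3 : (3 : R) ≠ 0)
    (hneg : ∀ y : E, (-1 : SL(2, ℤ)) • y = y)
    (hF : dint_IsCross F) (hH : dint_IsTw n F F' H)
    (hFS : ∀ y, F S y = 0) (v v' : E → R)
    (hFτ : ∀ y, F (S * T) y = v ((S * T : SL(2, ℤ))⁻¹ • y) - v y)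
    (hFτ' : ∀ y, F' (S * T) y = v' ((S * T : SL(2, ℤ))⁻¹ • y) - v' y) :
    dint_kap H T
      = n * ∑ y, v y * (v' ((S * T : SL(2, ℤ))⁻¹ • y) - v' y) := by
  have h := dint_kap_mul_of_left hH S⁻¹ (S * T) (dint_cross_S_inv hF hFS)
  rw [← dint_T_eq, dint_kap_S_inv h2 hF hH hFS, zero_add] at h
  rw [h, dint_kap_tau h2 h3 hneg hF hH hFS v v' hFτ hFτ']

end kappa

section b4

variable {E : Type*} [Fintype E] {R : Type*} [CommRing R]

/-- **the algebraic identity (B4)**: for `z = (v, w)`, `z' = (v', w')` in `dm_Z`, `u = v - w`,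
`u' = v' - w'`:  `⟨v, (τ-1) v'⟩ - ⟨u, (T-1) u'⟩ = dm_b z z'`. -/
theorem dint_b4 (D : dm_Data E) {z z' : (E → R) × (E → R)} (hz : z ∈ dm_Z D)
    (hz' : z' ∈ dm_Z D) :
    ∑ y, z.1 y * (z'.1 (D.t y) - z'.1 y)
      - ∑ y, (z.1 y - z.2 y)
          * ((z'.1 (D.t (D.s y)) - z'.2 (D.t (D.s y))) - (z'.1 y - z'.2 y))
      = dm_b D z z' := by
  -- step 1 + 2: reindex the second sum by `s`
  have e2 : ∑ y, (z.1 y - z.2 y)
          * ((z'.1 (D.t (D.s y)) - z'.2 (D.t (D.s y))) - (z'.1 y - z'.2 y))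
      = ∑ y, (z.1 (D.s y) - z.2 (D.s y)) * (z'.1 (D.t y) - z'.1 y) := by
    rw [← Equiv.sum_comp D.s
      (fun y => (z.1 (D.s y) - z.2 (D.s y)) * (z'.1 (D.t y) - z'.1 y))]
    apply Finset.sum_congr rfl
    intro y _
    rw [D.hs]
    have := hz' y
    linear_combination (z.1 y - z.2 y) * (-this)
  -- step 3
  have e3 : ∑ y, z.1 y * (z'.1 (D.t y) - z'.1 y)
      - ∑ y, (z.1 (D.s y) - z.2 (D.s y)) * (z'.1 (D.t y) - z'.1 y)
      = ∑ y, z.2 (D.t y) * (z'.1 (D.t y) - z'.1 y) := by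
    rw [← Finset.sum_sub_distrib]
    apply Finset.sum_congr rfl
    intro y _
    have := hz (D.s y)
    rw [D.hs] at this
    linear_combination -(z'.1 (D.t y) - z'.1 y) * this
  -- step 4
  have e4 : ∑ y, z.2 (D.t y) * z'.1 (D.t y) = ∑ y, z.2 y * z'.1 y :=
    Equiv.sum_comp D.t (fun y => z.2 y * z'.1 y)
  rw [e2, e3]
  unfold dm_b dl_form dm_P
  have e5 : ∑ y, z.2 (D.t y) * (z'.1 (D.t y) - z'.1 y)
      = ∑ y, z.2 (D.t y) * z'.1 (D.t y) - ∑ y, z.2 (D.t y) * z'.1 y := by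
    rw [← Finset.sum_sub_distrib]
    apply Finset.sum_congr rfl
    intro y _
    ring
  rw [e5, e4, ← Finset.sum_sub_distrib]
  apply Finset.sum_congr rfl
  intro y _
  ring

end b4

section bridge

variable {E : Type*} [Fintype E] [MulAction SL(2, ℤ) E] {R : Type*} [CommRing R] [IsDomain R]
variable {F F' H : SL(2, ℤ) → E → R} {n : R}

omit [Fintype E] [IsDomain R] in
/-- `F T = S⁻¹ • F τ` when `F S = 0`. -/
theorem dint_cross_T (hF : dint_IsCross F) (hFS : ∀ y, F S y = 0) (y : E) :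
    F T y = F (S * T) ((S : SL(2, ℤ)) • y) := by
  conv_lhs => rw [dint_T_eq]
  rw [hF, dint_cross_S_inv hF hFS, inv_inv, zero_add]

omit [Fintype E] [IsDomain R] in
/-- `F T = (T - 1)(v - w)` for `(v, w) ∈ dm_Z`. -/
theorem dint_cross_T_eq (hneg : ∀ y : E, (-1 : SL(2, ℤ)) • y = y)
    (D : dm_Data E) (hDs : ∀ x, D.s x = (S : SL(2, ℤ))⁻¹ • x)
    (hDt : ∀ x, D.t x = (S * T : SL(2, ℤ))⁻¹ • x)
    (hF : dint_IsCross F) (hFS : ∀ y, F S y = 0)
    {z : (E → R) × (E → R)} (hz : z ∈ dm_Z D)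
    (hFτ : ∀ y, F (S * T) y = z.1 (D.t y) - z.1 y) (y : E) :
    (z.1 (dint_sig E y) - z.2 (dint_sig E y)) - (z.1 y - z.2 y) = F T y := by
  have hσ : dint_sig E y = D.t (D.s y) := by
    rw [dint_sig_eq hneg, hDt, hDs]
  have hS : (S : SL(2, ℤ)) • y = D.s y := by
    rw [hDs, dint_S_inv_smul hneg]
  rw [dint_cross_T hF hFS, hS, hFτ, hσ]
  have := hz y
  linear_combination -this

/-- **total sum.**  `∑_y (H T - n u F' T)(y) = n * dm_b z z'`. -/
theorem dint_total (h2 : (2 : R) ≠ 0) (h3 : (3 : R) ≠ 0)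
    (hneg : ∀ y : E, (-1 : SL(2, ℤ)) • y = y)
    (D : dm_Data E) (hDs : ∀ x, D.s x = (S : SL(2, ℤ))⁻¹ • x)
    (hDt : ∀ x, D.t x = (S * T : SL(2, ℤ))⁻¹ • x)
    (hF : dint_IsCross F) (hF' : dint_IsCross F') (hH : dint_IsTw n F F' H)
    {z z' : (E → R) × (E → R)} (hz : z ∈ dm_Z D) (hz' : z' ∈ dm_Z D)
    (hFS : ∀ y, F S y = 0) (hFτ : ∀ y, F (S * T) y = z.1 (D.t y) - z.1 y)
    (hFS' : ∀ y, F' S y = 0) (hFτ' : ∀ y, F' (S * T) y = z'.1 (D.t y) - z'.1 y) :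
    ∑ y, (H T y - n * (z.1 y - z.2 y) * F' T y) = n * dm_b D z z' := by
  have hk := dint_kap_T h2 h3 hneg hF hH hFS z.1 z'.1
    (fun y => by rw [hFτ, hDt]) (fun y => by rw [hFτ', hDt])
  unfold dint_kap at hk
  rw [Finset.sum_sub_distrib, hk, ← dint_b4 D hz hz', mul_sub, Finset.mul_sum, Finset.mul_sum,
    Finset.mul_sum]
  congr 1
  · apply Finset.sum_congr rfl
    intro y _
    rw [hDt]
  · apply Finset.sum_congr rfl
    intro y _
    rw [← dint_cross_T_eq hneg D hDs hDt hF' hFS' hz' hFτ' y, dint_sig_eq hneg, ← hDs, ← hDt]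
    ring

/-- **THE BRIDGE.**  The sum over the cusps of the values of the twisted primitive on the
parabolic loops `g_c⁻¹ T^{e_c} g_c` (evaluated at the base point `x₀`) equals `n * dm_b z z'`. -/
theorem dint_bridge (h2 : (2 : R) ≠ 0) (h3 : (3 : R) ≠ 0)
    (hneg : ∀ y : E, (-1 : SL(2, ℤ)) • y = y)
    (D : dm_Data E) (hDs : ∀ x, D.s x = (S : SL(2, ℤ))⁻¹ • x)
    (hDt : ∀ x, D.t x = (S * T : SL(2, ℤ))⁻¹ • x)
    (hF : dint_IsCross F) (hF' : dint_IsCross F') (hH : dint_IsTw n F F' H)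
    {z z' : (E → R) × (E → R)} (hz : z ∈ dm_Z D) (hz' : z' ∈ dm_Z D)
    (hFS : ∀ y, F S y = 0) (hFτ : ∀ y, F (S * T) y = z.1 (D.t y) - z.1 y)
    (hFS' : ∀ y, F' S y = 0) (hFτ' : ∀ y, F' (S * T) y = z'.1 (D.t y) - z'.1 y)
    {ι : Type*} [Fintype ι] (xc : ι → E)
    (hrep : ∀ y : E, ∃! i : ι, ∃ k : ℕ, (dint_sig E)^[k] (xc i) = y)
    (x₀ : E) (gc : ι → SL(2, ℤ)) (hgc : ∀ i, gc i • x₀ = xc i) :
    ∑ i, H ((gc i)⁻¹ * T ^ (Function.minimalPeriod (dint_sig E) (xc i)) * gc i) x₀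
      = n * dm_b D z z' := by
  rw [← dint_total h2 h3 hneg D hDs hDt hF hF' hH hz hz' hFS hFτ hFS' hFτ']
  have hinj : Function.Injective (dint_sig E) := by
    intro a b hab
    unfold dint_sig at hab
    exact (MulAction.injective _) hab
  rw [dint_sum_orbits (dint_sig E) hinj xc hrep
    (fun y => H T y - n * (z.1 y - z.2 y) * F' T y)]
  apply Finset.sum_congr rfl
  intro i _
  exact dint_tw_loop hF hF' hH (fun y => z.1 y - z.2 y) (fun y => z'.1 y - z'.2 y)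
    (dint_cross_T_eq hneg D hDs hDt hF hFS hz hFτ)
    (dint_cross_T_eq hneg D hDs hDt hF' hFS' hz' hFτ')
    (gc i) (hgc i) _ (Function.iterate_minimalPeriod)

end bridge

end Fermat.Agent.S41x
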