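import Fermat.Agent.S41x.DualFunct

/-!
# S41x / DualFunctL: restriction and corestriction on parabolic classes, adjointness

`df_res R φ : dp_Lpar D → dp_Lpar D'` and `df_cores R φ : dp_Lpar D' → dp_Lpar D` induced by pull-back
and push-forward along an equivariant map `φ : E' → E`, with
`dp_pair D' (res y) y' = dp_pair D y (cores y')` and `cores (res y) = n • y` for fibre size `n`.
-/

namespace Fermat.Agent.S41x

open Finset

variable {R : Type*} [CommRing R]
variable {E : Type*} [Fintype E] {E' : Type*} [Fintype E']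
variable {D' : dm_Data E'} {D : dm_Data E} (φ : df_Hom D' D)

/-- Restriction on `Q = V / U`. -/
def df_resQ (R : Type*) [CommRing R] {E : Type*} [Fintype E] {E' : Type*} [Fintype E']
    {D' : dm_Data E'} {D : dm_Data E} (φ : df_Hom D' D) : ((E → R) ⧸ dm_U (R := R) D) →ₗ[R] ((E' → R) ⧸ dm_U (R := R) D') :=
  Submodule.mapQ (dm_U (R := R) D) (dm_U (R := R) D') (df_pull φ)
    (fun _ hf => df_pull_mem_U φ hf)

theorem df_resQ_mk (f : E → R) :
    df_resQ R φ (Submodule.Quotient.mk f : (E → R) ⧸ dm_U (R := R) D)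
      = Submodule.Quotient.mk (df_pull φ f) := rfl

theorem df_resQ_mem {y : (E → R) ⧸ dm_U (R := R) D} (hy : y ∈ dp_Lpar (R := R) D) :
    df_resQ R φ y ∈ dp_Lpar (R := R) D' := by
  obtain ⟨z, rfl⟩ := hy
  exact ⟨⟨df_pullZ φ z.1, df_pullZ_mem φ z.2⟩, rfl⟩

/-- Restriction on parabolic classes. -/
def df_res (R : Type*) [CommRing R] {E : Type*} [Fintype E] {E' : Type*} [Fintype E']
    {D' : dm_Data E'} {D : dm_Data E} (φ : df_Hom D' D) : dp_Lpar (R := R) D →ₗ[R] dp_Lpar (R := R) D' :=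
  (df_resQ R φ).restrict (fun _ hy => df_resQ_mem φ hy)

theorem df_res_q (z : dm_Z (R := R) D) :
    df_res R φ ⟨dp_q R D z, ⟨z, rfl⟩⟩
      = ⟨dp_q R D' ⟨df_pullZ φ z.1, df_pullZ_mem φ z.2⟩, ⟨_, rfl⟩⟩ := rfl

variable [DecidableEq E]

/-- Corestriction on `Q' = V' / U'`. -/
def df_coresQ (R : Type*) [CommRing R] {E : Type*} [Fintype E] [DecidableEq E] {E' : Type*} [Fintype E']
    {D' : dm_Data E'} {D : dm_Data E} (φ : df_Hom D' D) : ((E' → R) ⧸ dm_U (R := R) D') →ₗ[R] ((E → R) ⧸ dm_U (R := R) D) :=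
  Submodule.mapQ (dm_U (R := R) D') (dm_U (R := R) D) (df_push φ)
    (fun _ hf => df_push_mem_U φ hf)

theorem df_coresQ_mk (g : E' → R) :
    df_coresQ R φ (Submodule.Quotient.mk g : (E' → R) ⧸ dm_U (R := R) D')
      = Submodule.Quotient.mk (df_push φ g) := rfl

theorem df_coresQ_mem {y : (E' → R) ⧸ dm_U (R := R) D'} (hy : y ∈ dp_Lpar (R := R) D') :
    df_coresQ R φ y ∈ dp_Lpar (R := R) D := by
  obtain ⟨z, rfl⟩ := hy
  exact ⟨⟨df_pushZ φ z.1, df_pushZ_mem φ z.2⟩, rfl⟩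

/-- Corestriction on parabolic classes. -/
def df_cores (R : Type*) [CommRing R] {E : Type*} [Fintype E] [DecidableEq E] {E' : Type*} [Fintype E']
    {D' : dm_Data E'} {D : dm_Data E} (φ : df_Hom D' D) : dp_Lpar (R := R) D' →ₗ[R] dp_Lpar (R := R) D :=
  (df_coresQ R φ).restrict (fun _ hy => df_coresQ_mem φ hy)

theorem df_cores_q (z : dm_Z (R := R) D') :
    df_cores R φ ⟨dp_q R D' z, ⟨z, rfl⟩⟩
      = ⟨dp_q R D ⟨df_pushZ φ z.1, df_pushZ_mem φ z.2⟩, ⟨_, rfl⟩⟩ := rfl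

/-- **Adjointness of restriction and corestriction** for the duality pairings. -/
theorem df_pair_adj [IsDomain R] (h2 : (2 : R) ≠ 0) (h3 : (3 : R) ≠ 0)
    (y : dp_Lpar (R := R) D) (y' : dp_Lpar (R := R) D') :
    dp_pair D' h2 h3 (df_res R φ y) y' = dp_pair D h2 h3 y (df_cores R φ y') := by
  obtain ⟨_, z, rfl⟩ := y
  obtain ⟨_, z', rfl⟩ := y'
  rw [df_res_q, df_cores_q, dp_pair_q, dp_pair_q]
  exact df_b_adj φ z.1 z'.1

/-- `cores ∘ res = n` for constant fibre size `n`. -/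
theorem df_cores_res (n : ℕ) (hn : ∀ x : E, (univ.filter (fun x' => φ.π x' = x)).card = n)
    (y : dp_Lpar (R := R) D) : df_cores R φ (df_res R φ y) = (n : R) • y := by
  obtain ⟨_, z, rfl⟩ := y
  apply Subtype.ext
  show df_coresQ R φ (df_resQ R φ (dp_q R D z)) = (n : R) • dp_q R D z
  rw [dp_q_apply, df_resQ_mk, df_coresQ_mk, df_push_pull φ n hn, Submodule.Quotient.mk_smul]

end Fermat.Agent.S41x
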