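/-
S41x/DualShapiro.lean (helper50).  The Shapiro / Mayer-Vietoris dictionary between the
period-polynomial model of helper52 (`DualModel`, `DualPairing`) and homomorphisms `Γ → R`.

`X` a finite transitive `SL(2,ℤ)`-set on which `-1` acts trivially, `x₀ : X`,
`Γ = MulAction.stabilizer SL(2,ℤ) x₀`.  `V = X → R` with `(g • f) x = f (g⁻¹ • x)`.
For `v : V` there is a unique cocycle `z_v` with `z_v S = S • v - v`, `z_v (S T) = 0`
(helper55's `slp55_exists_crossedHom`), and `ψ_v γ := z_v γ x₀` is a homomorphism `Γ → R`.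
`v ↦ ψ_v` is onto with kernel `dm_U = V^s + V^t`, and `ψ_v` kills the parabolic elements
`g T^k g⁻¹ ∈ Γ` iff `[v]` is a parabolic class (`dp_Lpar`).
-/
import Fermat.Agent.S41x.DualFunctL
import Fermat.Agent.S41x.SL2Presentation

set_option autoImplicit false

open scoped MatrixGroups
open ModularGroup

namespace Fermat.Agent.S41x

section Cocycle

variable {R : Type*} [CommRing R] {X : Type*} [MulAction SL(2, ℤ) X]

/-- the left regular action on functions: `(g • f) x = f (g⁻¹ • x)` -/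
@[reducible] def ds50_dma (R : Type*) [CommRing R] (X : Type*) [MulAction SL(2, ℤ) X] :
    DistribMulAction SL(2, ℤ) (X → R) where
  smul g f := fun x => f (g⁻¹ • x)
  one_smul f := by
    funext x
    show f ((1 : SL(2, ℤ))⁻¹ • x) = f x
    rw [inv_one, one_smul]
  mul_smul g h f := by
    funext x
    show f ((g * h)⁻¹ • x) = f (h⁻¹ • g⁻¹ • x)
    rw [mul_inv_rev, mul_smul]
  smul_zero g := rfl
  smul_add g f f' := rfl

/-- cocycles, pointwise form -/
def ds50_IsCoc (z : SL(2, ℤ) → X → R) : Prop :=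
  ∀ (g h : SL(2, ℤ)) (x : X), z (g * h) x = z g x + z h (g⁻¹ • x)

theorem ds50_IsCoc.map_one {z : SL(2, ℤ) → X → R} (hz : ds50_IsCoc z) (x : X) : z 1 x = 0 := by
  have h := hz 1 1 x
  rw [one_mul, inv_one, one_smul] at h
  exact left_eq_add.mp h

theorem ds50_IsCoc.map_inv {z : SL(2, ℤ) → X → R} (hz : ds50_IsCoc z) (g : SL(2, ℤ)) (x : X) :
    z g⁻¹ x = - z g (g • x) := by
  have h := hz g⁻¹ g x
  rw [inv_mul_cancel, hz.map_one, inv_inv] at h
  exact eq_neg_of_add_eq_zero_left h.symm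

theorem ds50_IsCoc.sub {z z' : SL(2, ℤ) → X → R} (hz : ds50_IsCoc z) (hz' : ds50_IsCoc z') :
    ds50_IsCoc (fun g x => z g x - z' g x) := by
  intro g h x
  simp only [hz g h x, hz' g h x]
  ring

theorem ds50_IsCoc.add {z z' : SL(2, ℤ) → X → R} (hz : ds50_IsCoc z) (hz' : ds50_IsCoc z') :
    ds50_IsCoc (fun g x => z g x + z' g x) := by
  intro g h x
  simp only [hz g h x, hz' g h x]
  ring

theorem ds50_IsCoc.smul {z : SL(2, ℤ) → X → R} (hz : ds50_IsCoc z) (r : R) :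
    ds50_IsCoc (fun g x => r * z g x) := by
  intro g h x
  simp only [hz g h x]
  ring

/-- a cocycle vanishing at `S` and `S * T` vanishes -/
theorem ds50_IsCoc.eq_zero {z : SL(2, ℤ) → X → R} (hz : ds50_IsCoc z)
    (hS : ∀ x, z S x = 0) (hST : ∀ x, z (S * T) x = 0) (g : SL(2, ℤ)) (x : X) : z g x = 0 := by
  have hT : ∀ x, z T x = 0 := by
    intro x
    have e : (T : SL(2, ℤ)) = S⁻¹ * (S * T) := by rw [inv_mul_cancel_left]
    rw [e, hz, hz.map_inv, hS, hST, neg_zero, add_zero]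
  have hg : g ∈ Subgroup.closure ({S, T} : Set SL(2, ℤ)) := by
    rw [SpecialLinearGroup.SL2Z_generators]; trivial
  revert x
  induction hg using Subgroup.closure_induction with
  | mem y hy =>
    rcases hy with rfl | rfl
    · exact hS
    · exact hT
  | one => exact hz.map_one
  | mul a b _ _ ha hb => intro x; rw [hz a b x, ha, hb, add_zero]
  | inv a _ ha => intro x; rw [hz.map_inv, ha, neg_zero]

theorem ds50_IsCoc.ext {z z' : SL(2, ℤ) → X → R} (hz : ds50_IsCoc z) (hz' : ds50_IsCoc z')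
    (hS : ∀ x, z S x = z' S x) (hST : ∀ x, z (S * T) x = z' (S * T) x) : z = z' := by
  funext g x
  have := (hz.sub hz').eq_zero (fun x => by simp only [hS x, sub_self])
    (fun x => by simp only [hST x, sub_self]) g x
  exact sub_eq_zero.mp this

/-- coboundaries -/
theorem ds50_isCoc_cob (v : X → R) : ds50_IsCoc (fun g x => v (g⁻¹ • x) - v x) := by
  intro g h x
  simp only [mul_inv_rev, mul_smul]
  ring

variable (hneg : ∀ x : X, (-1 : SL(2, ℤ)) • x = x)

include hneg in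
theorem ds50_S_smul_S_smul (x : X) : (S : SL(2, ℤ)) • (S : SL(2, ℤ)) • x = x := by
  rw [← mul_smul, ← pow_two, slp55_S_sq, hneg]

include hneg in
theorem ds50_S_inv_smul (x : X) : (S : SL(2, ℤ))⁻¹ • x = (S : SL(2, ℤ)) • x := by
  rw [inv_smul_eq_iff, ds50_S_smul_S_smul hneg]

include hneg in
theorem ds50_ST_cube_smul (x : X) :
    (S * T : SL(2, ℤ)) • (S * T : SL(2, ℤ)) • (S * T : SL(2, ℤ)) • x = x := by
  have h3 : (S * T : SL(2, ℤ)) * (S * T) * (S * T) = (S * T) ^ 3 := by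
    rw [pow_succ, pow_two]
  rw [smul_smul, smul_smul, h3, slp55_ST_cube, hneg]

set_option linter.style.haveILetI false in
include hneg in
/-- EXISTENCE of the normalised cocycle of `v`. -/
theorem ds50_exists_coc (v : X → R) :
    ∃ z : SL(2, ℤ) → X → R, ds50_IsCoc z ∧ (∀ x, z S x = v ((S : SL(2, ℤ))⁻¹ • x) - v x) ∧
      ∀ x, z (S * T) x = 0 := by
  letI := ds50_dma R X
  have hsm : ∀ (g : SL(2, ℤ)) (f : X → R) (x : X), (g • f) x = f (g⁻¹ • x) := fun _ _ _ => rfl
  have hn : ∀ f : X → R, (-1 : SL(2, ℤ)) • f = f := by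
    intro f
    funext x
    rw [hsm]
    congr 1
    rw [inv_smul_eq_iff, hneg]
  obtain ⟨z, hz, hzS, hzST⟩ := slp55_exists_crossedHom (V := X → R) hn
    (fun x => v ((S : SL(2, ℤ))⁻¹ • x) - v x) 0
    (by
      funext x
      show v ((S : SL(2, ℤ))⁻¹ • x) - v x + (v ((S : SL(2, ℤ))⁻¹ • (S : SL(2, ℤ))⁻¹ • x)
        - v ((S : SL(2, ℤ))⁻¹ • x)) = 0
      rw [ds50_S_inv_smul hneg, ds50_S_inv_smul hneg, ds50_S_smul_S_smul hneg]
      ring)
    (by simp)
  refine ⟨z, ?_, ?_, ?_⟩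
  · intro g h x
    rw [hz g h]
    rfl
  · intro x; rw [hzS]
  · intro x; rw [hzST]; rfl

/-- the normalised cocycle of `v` -/
noncomputable def ds50_coc (v : X → R) : SL(2, ℤ) → X → R :=
  Classical.choose (ds50_exists_coc hneg v)

theorem ds50_coc_isCoc (v : X → R) : ds50_IsCoc (ds50_coc hneg v) :=
  (Classical.choose_spec (ds50_exists_coc hneg v)).1

theorem ds50_coc_S (v : X → R) (x : X) :
    ds50_coc hneg v S x = v ((S : SL(2, ℤ))⁻¹ • x) - v x :=
  (Classical.choose_spec (ds50_exists_coc hneg v)).2.1 x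

theorem ds50_coc_ST (v : X → R) (x : X) : ds50_coc hneg v (S * T) x = 0 :=
  (Classical.choose_spec (ds50_exists_coc hneg v)).2.2 x

/-- characterisation of the normalised cocycle -/
theorem ds50_coc_eq {v : X → R} {z : SL(2, ℤ) → X → R} (hz : ds50_IsCoc z)
    (hS : ∀ x, z S x = v ((S : SL(2, ℤ))⁻¹ • x) - v x) (hST : ∀ x, z (S * T) x = 0) :
    ds50_coc hneg v = z :=
  (ds50_coc_isCoc hneg v).ext hz (fun x => by rw [ds50_coc_S, hS])
    (fun x => by rw [ds50_coc_ST, hST])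

theorem ds50_coc_add (v v' : X → R) (g : SL(2, ℤ)) (x : X) :
    ds50_coc hneg (v + v') g x = ds50_coc hneg v g x + ds50_coc hneg v' g x := by
  have := ds50_coc_eq hneg (v := v + v')
    ((ds50_coc_isCoc hneg v).add (ds50_coc_isCoc hneg v'))
    (fun x => by simp only [ds50_coc_S, Pi.add_apply]; ring)
    (fun x => by simp only [ds50_coc_ST, add_zero])
  rw [this]

theorem ds50_coc_smul (r : R) (v : X → R) (g : SL(2, ℤ)) (x : X) :
    ds50_coc hneg (r • v) g x = r * ds50_coc hneg v g x := by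
  have := ds50_coc_eq hneg (v := r • v)
    ((ds50_coc_isCoc hneg v).smul r)
    (fun x => by simp only [ds50_coc_S, Pi.smul_apply, smul_eq_mul]; ring)
    (fun x => by simp only [ds50_coc_ST, mul_zero])
  rw [this]

/-- the value at `T` -/
theorem ds50_coc_T (v : X → R) (x : X) :
    ds50_coc hneg v T x = v ((S : SL(2, ℤ))⁻¹ • x) - v x := by
  have e : (T : SL(2, ℤ)) = S⁻¹ * (S * T) := by rw [inv_mul_cancel_left]
  have hz := ds50_coc_isCoc hneg v
  rw [e, hz, hz.map_inv, ds50_coc_S, ds50_coc_ST, inv_smul_smul, add_zero,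
    ds50_S_inv_smul hneg]
  ring

/-- for `s`-invariant `v` the cocycle vanishes -/
theorem ds50_coc_of_S_inv {v : X → R} (hv : ∀ x, v ((S : SL(2, ℤ))⁻¹ • x) = v x) :
    ds50_coc hneg v = fun _ _ => 0 :=
  ds50_coc_eq hneg (fun _ _ _ => by simp) (fun x => by rw [hv, sub_self]) (fun _ => rfl)

/-- for `t`-invariant `v` the cocycle is the coboundary of `v` -/
theorem ds50_coc_of_ST_inv {v : X → R} (hv : ∀ x, v ((S * T : SL(2, ℤ))⁻¹ • x) = v x) :
    ds50_coc hneg v = fun g x => v (g⁻¹ • x) - v x :=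
  ds50_coc_eq hneg (ds50_isCoc_cob v) (fun _ => rfl) (fun x => by rw [hv, sub_self])

end Cocycle

section Data

variable {X : Type*} [MulAction SL(2, ℤ) X] (hneg : ∀ x : X, (-1 : SL(2, ℤ)) • x = x)

/-- the `(s,t)`-data of an `SL(2,ℤ)`-set on which `-1` acts trivially: `s = S⁻¹ •`,
`t = (S T)⁻¹ •`, so that `f ↦ f ∘ s`, `f ↦ f ∘ t` are the module actions of `S`, `S T`. -/
def ds50_data : dm_Data X where
  s := MulAction.toPerm (S : SL(2, ℤ))⁻¹
  t := MulAction.toPerm (S * T : SL(2, ℤ))⁻¹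
  hs x := by
    show (S : SL(2, ℤ))⁻¹ • (S : SL(2, ℤ))⁻¹ • x = x
    rw [ds50_S_inv_smul hneg, ds50_S_inv_smul hneg, ds50_S_smul_S_smul hneg]
  ht x := by
    show (S * T : SL(2, ℤ))⁻¹ • (S * T : SL(2, ℤ))⁻¹ • (S * T : SL(2, ℤ))⁻¹ • x = x
    rw [inv_smul_eq_iff, inv_smul_eq_iff, inv_smul_eq_iff, ds50_ST_cube_smul hneg]

theorem ds50_data_s (x : X) : (ds50_data hneg).s x = (S : SL(2, ℤ))⁻¹ • x := rfl

theorem ds50_data_t (x : X) : (ds50_data hneg).t x = (S * T : SL(2, ℤ))⁻¹ • x := rfl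

theorem ds50_data_ts (x : X) :
    (ds50_data hneg).t ((ds50_data hneg).s x) = (T : SL(2, ℤ))⁻¹ • x := by
  rw [ds50_data_s, ds50_data_t, ds50_S_inv_smul hneg, inv_smul_eq_iff, mul_smul, smul_inv_smul]

/-- joint transitivity of `s, t` from transitivity of the action -/
theorem ds50_conn [MulAction.IsPretransitive SL(2, ℤ) X] : dm_Conn (ds50_data hneg) := by
  intro A hA hsA htA
  obtain ⟨a, ha⟩ := hA
  let H : Subgroup SL(2, ℤ) :=
    { carrier := {g | ∀ x, x ∈ A ↔ g • x ∈ A}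
      one_mem' := fun x => by rw [one_smul]
      mul_mem' := by
        intro g h hg hh x
        rw [mul_smul, ← hg, ← hh]
      inv_mem' := by
        intro g hg x
        rw [hg (g⁻¹ • x), smul_inv_smul] }
  have hSi : (S : SL(2, ℤ))⁻¹ ∈ H := by
    intro x
    constructor
    · intro hx; exact hsA x hx
    · intro hx
      have := hsA _ hx
      have e : (ds50_data hneg).s ((S : SL(2, ℤ))⁻¹ • x) = x := (ds50_data hneg).hs x
      rwa [e] at this
  have hSTi : (S * T : SL(2, ℤ))⁻¹ ∈ H := by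
    intro x
    constructor
    · intro hx; exact htA x hx
    · intro hx
      have := htA _ (htA _ hx)
      have e : (ds50_data hneg).t ((ds50_data hneg).t ((S * T : SL(2, ℤ))⁻¹ • x)) = x :=
        (ds50_data hneg).ht x
      rwa [e] at this
  have hS : (S : SL(2, ℤ)) ∈ H := by
    have := H.inv_mem hSi
    rwa [inv_inv] at this
  have hST : (S * T : SL(2, ℤ)) ∈ H := by
    have := H.inv_mem hSTi
    rwa [inv_inv] at this
  have hT : (T : SL(2, ℤ)) ∈ H := by
    have e : (T : SL(2, ℤ)) = S⁻¹ * (S * T) := by rw [inv_mul_cancel_left]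
    rw [e]
    exact H.mul_mem hSi hST
  have htop : ∀ g : SL(2, ℤ), g ∈ H := by
    intro g
    have hg : g ∈ Subgroup.closure ({S, T} : Set SL(2, ℤ)) := by
      rw [SpecialLinearGroup.SL2Z_generators]; trivial
    have hle : Subgroup.closure ({S, T} : Set SL(2, ℤ)) ≤ H := by
      rw [Subgroup.closure_le]
      rintro x (rfl | rfl)
      · exact hS
      · exact hT
    exact hle hg
  apply Set.eq_univ_of_forall
  intro y
  obtain ⟨g, rfl⟩ := MulAction.exists_smul_eq SL(2, ℤ) a y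
  exact (htop g a).1 ha

end Data

section Psi

variable {R : Type*} [CommRing R] {X : Type*} [MulAction SL(2, ℤ) X]
variable (hneg : ∀ x : X, (-1 : SL(2, ℤ)) • x = x) (x₀ : X)

/-- the homomorphism `Γ = Stab(x₀) → R` attached to `v`: `γ ↦ z_v γ x₀`. -/
noncomputable def ds50_psi (v : X → R) :
    Additive (MulAction.stabilizer SL(2, ℤ) x₀) →+ R where
  toFun γ := ds50_coc hneg v (Additive.toMul γ).1 x₀
  map_zero' := (ds50_coc_isCoc hneg v).map_one x₀
  map_add' γ γ' := by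
    show ds50_coc hneg v ((Additive.toMul γ).1 * (Additive.toMul γ').1) x₀ = _
    rw [ds50_coc_isCoc hneg v]
    congr 2
    rw [inv_smul_eq_iff]
    exact ((Additive.toMul γ).2).symm

theorem ds50_psi_apply (v : X → R) (γ : MulAction.stabilizer SL(2, ℤ) x₀) :
    ds50_psi hneg x₀ v (Additive.ofMul γ) = ds50_coc hneg v γ.1 x₀ := rfl

/-- the Shapiro map `V → Hom(Γ, R)` -/
noncomputable def ds50_Psi :
    (X → R) →ₗ[R] (Additive (MulAction.stabilizer SL(2, ℤ) x₀) →+ R) where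
  toFun v := ds50_psi hneg x₀ v
  map_add' v v' := by
    ext γ
    show ds50_coc hneg (v + v') _ x₀ = ds50_coc hneg v _ x₀ + ds50_coc hneg v' _ x₀
    rw [ds50_coc_add]
  map_smul' r v := by
    ext γ
    show ds50_coc hneg (r • v) _ x₀ = r • ds50_coc hneg v _ x₀
    rw [ds50_coc_smul, smul_eq_mul]

theorem ds50_Psi_apply (v : X → R) (γ : MulAction.stabilizer SL(2, ℤ) x₀) :
    ds50_Psi hneg x₀ v (Additive.ofMul γ) = ds50_coc hneg v γ.1 x₀ := rfl

/-- `V^s + V^t` is killed by the Shapiro map -/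
theorem ds50_Psi_of_mem_U {v : X → R} (hv : v ∈ dm_U (R := R) (ds50_data hneg)) :
    ds50_Psi hneg x₀ v = 0 := by
  obtain ⟨a, ha, b, hb, rfl⟩ := Submodule.mem_sup.1 hv
  rw [map_add]
  have h1 : ds50_Psi hneg x₀ a = 0 := by
    ext γ
    show ds50_coc hneg a _ x₀ = 0
    rw [ds50_coc_of_S_inv hneg (fun x => ha x)]
  have h2 : ds50_Psi hneg x₀ b = 0 := by
    ext γ
    show ds50_coc hneg b (Additive.toMul γ).1 x₀ = 0
    rw [ds50_coc_of_ST_inv hneg (fun x => hb x)]
    have : ((Additive.toMul γ).1)⁻¹ • x₀ = x₀ := by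
      rw [inv_smul_eq_iff]; exact ((Additive.toMul γ).2).symm
    show b (((Additive.toMul γ).1)⁻¹ • x₀) - b x₀ = 0
    rw [this, sub_self]
  rw [h1, h2, add_zero]

/-- a cocycle whose restriction to `Γ` vanishes at `x₀` is a coboundary (Shapiro injectivity) -/
theorem ds50_exists_cob_of_vanish [MulAction.IsPretransitive SL(2, ℤ) X]
    {z : SL(2, ℤ) → X → R} (hz : ds50_IsCoc z)
    (h0 : ∀ γ : SL(2, ℤ), γ • x₀ = x₀ → z γ x₀ = 0) :
    ∃ u : X → R, ∀ (g : SL(2, ℤ)) (x : X), z g x = u (g⁻¹ • x) - u x := by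
  classical
  let σ : X → SL(2, ℤ) := fun x => Classical.choose (MulAction.exists_smul_eq SL(2, ℤ) x₀ x)
  have hσ : ∀ x, σ x • x₀ = x := fun x =>
    Classical.choose_spec (MulAction.exists_smul_eq SL(2, ℤ) x₀ x)
  let u : X → R := fun x => z (σ x)⁻¹ x₀
  have key : ∀ k : SL(2, ℤ), z k x₀ = u (k⁻¹ • x₀) := by
    intro k
    set x := k⁻¹ • x₀ with hx
    have hγ : (k * σ x) • x₀ = x₀ := by
      rw [mul_smul, hσ x, hx, smul_inv_smul]
    have hk : k = (k * σ x) * (σ x)⁻¹ := by rw [mul_inv_cancel_right]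
    have h1 : z k x₀ = z (k * σ x) x₀ + z (σ x)⁻¹ ((k * σ x)⁻¹ • x₀) := by
      conv_lhs => rw [hk]
      exact hz _ _ _
    have h2 : (k * σ x)⁻¹ • x₀ = x₀ := by rw [inv_smul_eq_iff, hγ]
    rw [h1, h0 _ hγ, h2, zero_add]
  refine ⟨u, fun g x => ?_⟩
  have h1 := hz (σ x)⁻¹ g x₀
  rw [inv_inv, hσ x] at h1
  have h2 := key ((σ x)⁻¹ * g)
  have h3 := key (σ x)⁻¹
  rw [inv_inv, hσ x] at h3
  rw [mul_inv_rev, inv_inv, mul_smul, hσ x] at h2
  rw [h2, h3] at h1
  linear_combination -h1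

/-- kernel of the Shapiro map -/
theorem ds50_mem_U_of_Psi_eq_zero [MulAction.IsPretransitive SL(2, ℤ) X] {v : X → R}
    (h : ds50_Psi hneg x₀ v = 0) : v ∈ dm_U (R := R) (ds50_data hneg) := by
  have h0 : ∀ γ : SL(2, ℤ), γ • x₀ = x₀ → ds50_coc hneg v γ x₀ = 0 := by
    intro γ hγ
    have := DFunLike.congr_fun h (Additive.ofMul (⟨γ, hγ⟩ : MulAction.stabilizer SL(2, ℤ) x₀))
    exact this
  obtain ⟨u, hu⟩ := ds50_exists_cob_of_vanish x₀ (ds50_coc_isCoc hneg v) h0
  have hv : v = (v - u) + u := by abel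
  rw [hv]
  apply Submodule.add_mem
  · apply Submodule.mem_sup_left
    intro x
    have h1 := hu S x
    rw [ds50_coc_S] at h1
    show (v - u) ((S : SL(2, ℤ))⁻¹ • x) = (v - u) x
    simp only [Pi.sub_apply]
    linear_combination h1
  · apply Submodule.mem_sup_right
    intro x
    have h1 := hu (S * T) x
    rw [ds50_coc_ST] at h1
    show u ((S * T : SL(2, ℤ))⁻¹ • x) = u x
    linear_combination -h1

theorem ds50_ker_Psi [MulAction.IsPretransitive SL(2, ℤ) X] :
    LinearMap.ker (ds50_Psi (R := R) hneg x₀) = dm_U (R := R) (ds50_data hneg) := by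
  ext v
  rw [LinearMap.mem_ker]
  exact ⟨ds50_mem_U_of_Psi_eq_zero hneg x₀, ds50_Psi_of_mem_U hneg x₀⟩

end Psi

section Surj

variable {R : Type*} [CommRing R] {X : Type*} [MulAction SL(2, ℤ) X]
variable (hneg : ∀ x : X, (-1 : SL(2, ℤ)) • x = x) (x₀ : X)

open Classical in
/-- extension by zero of a homomorphism on `Γ = Stab(x₀)` -/
noncomputable def ds50_ext (φ : Additive (MulAction.stabilizer SL(2, ℤ) x₀) →+ R)
    (g : SL(2, ℤ)) : R :=
  if h : g • x₀ = x₀ then φ (Additive.ofMul (⟨g, h⟩ : MulAction.stabilizer SL(2, ℤ) x₀)) else 0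

theorem ds50_ext_of_mem (φ : Additive (MulAction.stabilizer SL(2, ℤ) x₀) →+ R)
    {g : SL(2, ℤ)} (h : g • x₀ = x₀) :
    ds50_ext x₀ φ g = φ (Additive.ofMul (⟨g, h⟩ : MulAction.stabilizer SL(2, ℤ) x₀)) := by
  rw [ds50_ext, dif_pos h]

theorem ds50_ext_mul (φ : Additive (MulAction.stabilizer SL(2, ℤ) x₀) →+ R)
    {a b : SL(2, ℤ)} (ha : a • x₀ = x₀) (hb : b • x₀ = x₀) :
    ds50_ext x₀ φ (a * b) = ds50_ext x₀ φ a + ds50_ext x₀ φ b := by
  have hab : (a * b) • x₀ = x₀ := by rw [mul_smul, hb, ha]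
  rw [ds50_ext_of_mem x₀ φ ha, ds50_ext_of_mem x₀ φ hb, ds50_ext_of_mem x₀ φ hab, ← map_add]
  rfl

include hneg in
theorem ds50_ext_neg_one [IsDomain R] (h2 : (2 : R) ≠ 0)
    (φ : Additive (MulAction.stabilizer SL(2, ℤ) x₀) →+ R) :
    ds50_ext x₀ φ (-1) = 0 := by
  have h1 : (-1 : SL(2, ℤ)) • x₀ = x₀ := hneg x₀
  have h := ds50_ext_mul x₀ φ h1 h1
  have e : (-1 : SL(2, ℤ)) * (-1) = 1 := by simp
  have h11 : ds50_ext x₀ φ 1 = 0 := by
    rw [ds50_ext_of_mem x₀ φ (one_smul _ x₀)]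
    exact map_zero φ
  rw [e, h11] at h
  have : (2 : R) * ds50_ext x₀ φ (-1) = 0 := by linear_combination -h
  exact (mul_eq_zero.mp this).resolve_left h2

variable [MulAction.IsPretransitive SL(2, ℤ) X]

open Classical in
/-- a section of `g ↦ g • x₀` with `σ x₀ = 1` -/
noncomputable def ds50_sec (x : X) : SL(2, ℤ) :=
  if x = x₀ then 1 else Classical.choose (MulAction.exists_smul_eq SL(2, ℤ) x₀ x)

theorem ds50_sec_smul (x : X) : ds50_sec x₀ x • x₀ = x := by
  unfold ds50_sec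
  split_ifs with h
  · rw [one_smul, h]
  · exact Classical.choose_spec (MulAction.exists_smul_eq SL(2, ℤ) x₀ x)

theorem ds50_sec_base : ds50_sec x₀ x₀ = 1 := by
  unfold ds50_sec
  rw [if_pos rfl]

/-- the induced cocycle of `φ` -/
noncomputable def ds50_ind (φ : Additive (MulAction.stabilizer SL(2, ℤ) x₀) →+ R)
    (g : SL(2, ℤ)) (x : X) : R :=
  ds50_ext x₀ φ ((ds50_sec x₀ x)⁻¹ * g * ds50_sec x₀ (g⁻¹ • x))

theorem ds50_ind_mem (g : SL(2, ℤ)) (x : X) :
    ((ds50_sec x₀ x)⁻¹ * g * ds50_sec x₀ (g⁻¹ • x)) • x₀ = x₀ := by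
  rw [mul_smul, mul_smul, ds50_sec_smul, smul_inv_smul, inv_smul_eq_iff, ds50_sec_smul]

theorem ds50_ind_isCoc (φ : Additive (MulAction.stabilizer SL(2, ℤ) x₀) →+ R) :
    ds50_IsCoc (ds50_ind x₀ φ) := by
  intro g h x
  unfold ds50_ind
  rw [← ds50_ext_mul x₀ φ (ds50_ind_mem x₀ g x) (ds50_ind_mem x₀ h (g⁻¹ • x))]
  congr 1
  rw [mul_inv_rev, mul_smul]
  group

theorem ds50_ind_base (φ : Additive (MulAction.stabilizer SL(2, ℤ) x₀) →+ R)
    (γ : MulAction.stabilizer SL(2, ℤ) x₀) :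
    ds50_ind x₀ φ γ.1 x₀ = φ (Additive.ofMul γ) := by
  unfold ds50_ind
  have h1 : (γ.1)⁻¹ • x₀ = x₀ := by rw [inv_smul_eq_iff]; exact (γ.2).symm
  rw [h1, ds50_sec_base, inv_one, one_mul, mul_one, ds50_ext_of_mem x₀ φ γ.2]

include hneg in
theorem ds50_ind_neg_one [IsDomain R] (h2 : (2 : R) ≠ 0)
    (φ : Additive (MulAction.stabilizer SL(2, ℤ) x₀) →+ R) (x : X) :
    ds50_ind x₀ φ (-1) x = 0 := by
  unfold ds50_ind
  have h1 : (-1 : SL(2, ℤ))⁻¹ • x = x := by rw [inv_smul_eq_iff, hneg]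
  rw [h1]
  have e : (ds50_sec x₀ x)⁻¹ * (-1) * ds50_sec x₀ x = -1 := by
    rw [mul_neg, mul_one, neg_mul, inv_mul_cancel]
  rw [e, ds50_ext_neg_one hneg x₀ h2]

/-- Shapiro surjectivity: every homomorphism `Γ → R` is `ψ_v` for some `v`. -/
theorem ds50_Psi_surjective [Fintype X] [DecidableEq X] [IsDomain R] [IsPrincipalIdealRing R]
    (h2 : (2 : R) ≠ 0) (h3 : (3 : R) ≠ 0) :
    Function.Surjective (ds50_Psi (R := R) hneg x₀) := by
  intro φ
  set D := ds50_data hneg with hD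
  set c := ds50_ind x₀ φ with hc
  have hcoc : ds50_IsCoc c := ds50_ind_isCoc x₀ φ
  have hcneg : ∀ x, c (-1) x = 0 := ds50_ind_neg_one hneg x₀ h2 φ
  -- norm relation for `S T`
  have hN3 : ∀ x, c (S * T) x + c (S * T) (D.t x) + c (S * T) (D.t (D.t x)) = 0 := by
    intro x
    have e : (-1 : SL(2, ℤ)) = (S * T) * ((S * T) * (S * T)) := by
      rw [← slp55_ST_cube, pow_succ, pow_two, mul_assoc]
    have h := hcneg x
    rw [e] at h
    have h1 := hcoc (S * T) ((S * T) * (S * T)) x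
    have h2' := hcoc (S * T) (S * T) ((S * T : SL(2, ℤ))⁻¹ • x)
    rw [h1, h2'] at h
    rw [hD, ds50_data_t, ds50_data_t]
    linear_combination h
  -- `c (S T)` is a `t`-coboundary
  obtain ⟨b, hb⟩ := dc_exists_cob D.t (c (S * T)) (fun u hu => by
    have e1 := dl_form_comp_perm D.t u (c (S * T))
    have e2 := dl_form_comp_perm D.t (fun x => u (D.t x)) (fun x => c (S * T) (D.t x))
    have hu1 : (fun x => u (D.t x)) = u := funext hu
    have hu2 : (fun x => u (D.t (D.t x))) = u := funext (fun x => by rw [hu, hu])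
    rw [hu1] at e1
    rw [hu2, hu1] at e2
    have hsum : dl_form u (c (S * T)) + dl_form u (fun x => c (S * T) (D.t x))
        + dl_form u (fun x => c (S * T) (D.t (D.t x))) = 0 := by
      unfold dl_form
      rw [← Finset.sum_add_distrib, ← Finset.sum_add_distrib]
      apply Finset.sum_eq_zero
      intro x _
      have := hN3 x
      linear_combination u x * this
    rw [e2, e1] at hsum
    have : (3 : R) * dl_form u (c (S * T)) = 0 := by linear_combination hsum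
    exact (mul_eq_zero.mp this).resolve_left h3)
  -- subtract the coboundary of `b`
  set c' : SL(2, ℤ) → X → R := fun g x => c g x - (b (g⁻¹ • x) - b x) with hc'
  have hcoc' : ds50_IsCoc c' := hcoc.sub (ds50_isCoc_cob b)
  have hc'ST : ∀ x, c' (S * T) x = 0 := by
    intro x
    have := hb x
    rw [hD, ds50_data_t] at this
    simp only [hc']
    linear_combination -this
  have hc'neg : ∀ x, c' (-1) x = 0 := by
    intro x
    have h1 : (-1 : SL(2, ℤ))⁻¹ • x = x := by rw [inv_smul_eq_iff, hneg]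
    simp only [hc', hcneg x, h1]
    ring
  have hN2 : ∀ x, c' S x + c' S (D.s x) = 0 := by
    intro x
    have e : (-1 : SL(2, ℤ)) = S * S := by rw [← slp55_S_sq, pow_two]
    have h := hc'neg x
    rw [e, hcoc'] at h
    rw [← h]
    rfl
  obtain ⟨v, hv⟩ := dc_exists_cob D.s (c' S) (fun u hu => by
    have e1 := dl_form_comp_perm D.s u (c' S)
    have hu1 : (fun x => u (D.s x)) = u := funext hu
    rw [hu1] at e1
    have hsum : dl_form u (c' S) + dl_form u (fun x => c' S (D.s x)) = 0 := by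
      unfold dl_form
      rw [← Finset.sum_add_distrib]
      apply Finset.sum_eq_zero
      intro x _
      have := hN2 x
      linear_combination u x * this
    rw [e1] at hsum
    have : (2 : R) * dl_form u (c' S) = 0 := by linear_combination hsum
    exact (mul_eq_zero.mp this).resolve_left h2)
  refine ⟨v, ?_⟩
  have hcv : ds50_coc hneg v = c' :=
    ds50_coc_eq hneg hcoc' (fun x => by
      have := hv x
      rw [hD, ds50_data_s] at this
      rw [this]) hc'ST
  ext γ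
  show ds50_coc hneg v (Additive.toMul γ).1 x₀ = φ γ
  rw [hcv]
  have h1 : ((Additive.toMul γ).1)⁻¹ • x₀ = x₀ := by
    rw [inv_smul_eq_iff]; exact ((Additive.toMul γ).2).symm
  simp only [hc', h1, sub_self, sub_zero]
  exact ds50_ind_base x₀ φ (Additive.toMul γ)

end Surj

section Par

variable {R : Type*} [CommRing R] {X : Type*} [MulAction SL(2, ℤ) X]
variable (hneg : ∀ x : X, (-1 : SL(2, ℤ)) • x = x) (x₀ : X)

theorem ds50_IsCoc.pow_eq_zero {z : SL(2, ℤ) → X → R} (hz : ds50_IsCoc z) {g : SL(2, ℤ)}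
    (hg : ∀ x, z g x = 0) (n : ℕ) (x : X) : z (g ^ n) x = 0 := by
  induction n generalizing x with
  | zero => rw [pow_zero]; exact hz.map_one x
  | succ n ih => rw [pow_succ, hz, ih, hg, add_zero]

theorem ds50_IsCoc.zpow_eq_zero {z : SL(2, ℤ) → X → R} (hz : ds50_IsCoc z) {g : SL(2, ℤ)}
    (hg : ∀ x, z g x = 0) (k : ℤ) (x : X) : z (g ^ k) x = 0 := by
  rcases Int.eq_nat_or_neg k with ⟨n, rfl | rfl⟩
  · rw [zpow_natCast]; exact hz.pow_eq_zero hg n x
  · rw [zpow_neg, zpow_natCast, hz.map_inv, hz.pow_eq_zero hg n, neg_zero]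

/-- evaluation of a cocycle at a conjugate fixing the base point -/
theorem ds50_IsCoc.conj_eval {z : SL(2, ℤ) → X → R} (hz : ds50_IsCoc z) (g a : SL(2, ℤ))
    (ha : a⁻¹ • g⁻¹ • x₀ = g⁻¹ • x₀) : z (g * a * g⁻¹) x₀ = z a (g⁻¹ • x₀) := by
  rw [hz (g * a) g⁻¹ x₀, hz g a x₀, mul_inv_rev, mul_smul, ha, hz.map_inv, smul_inv_smul]
  ring

/-- power sums of a cocycle -/
theorem ds50_IsCoc.pow_eval {z : SL(2, ℤ) → X → R} (hz : ds50_IsCoc z) (g : SL(2, ℤ)) (n : ℕ)
    (x : X) : z (g ^ n) x = ∑ i ∈ Finset.range n, z g ((g ^ i)⁻¹ • x) := by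
  induction n with
  | zero => rw [pow_zero, Finset.sum_range_zero]; exact hz.map_one x
  | succ n ih => rw [pow_succ, hz, ih, Finset.sum_range_succ]

/-- parabolic homomorphisms: those killing all conjugates of powers of `T` lying in `Γ` -/
def ds50_IsPar (φ : Additive (MulAction.stabilizer SL(2, ℤ) x₀) →+ R) : Prop :=
  ∀ (g : SL(2, ℤ)) (k : ℤ) (h : (g * T ^ k * g⁻¹) • x₀ = x₀),
    φ (Additive.ofMul (⟨g * T ^ k * g⁻¹, h⟩ : MulAction.stabilizer SL(2, ℤ) x₀)) = 0

/-- parabolic classes give parabolic homomorphisms -/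
theorem ds50_isPar_of_mem_Z {v w : X → R} (hvw : (v, w) ∈ dm_Z (R := R) (ds50_data hneg)) :
    ds50_IsPar x₀ (ds50_Psi hneg x₀ v) := by
  intro g k h
  rw [ds50_Psi_apply]
  show ds50_coc hneg v (g * T ^ k * g⁻¹) x₀ = 0
  set z := ds50_coc hneg v with hz
  have hzc : ds50_IsCoc z := ds50_coc_isCoc hneg v
  have hfix : (T ^ k : SL(2, ℤ))⁻¹ • g⁻¹ • x₀ = g⁻¹ • x₀ := by
    rw [inv_smul_eq_iff]
    have : (g⁻¹ * (g * T ^ k * g⁻¹)) • x₀ = g⁻¹ • x₀ := by rw [mul_smul, h]
    have e : g⁻¹ * (g * T ^ k * g⁻¹) = T ^ k * g⁻¹ := by group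
    rw [e, mul_smul] at this
    exact this.symm
  rw [hzc.conj_eval x₀ g (T ^ k) hfix]
  -- `z - dw` vanishes at `T`, hence at `T ^ k`
  have hd : ds50_IsCoc (fun g x => z g x - (w (g⁻¹ • x) - w x)) := hzc.sub (ds50_isCoc_cob w)
  have hdT : ∀ x, (fun g x => z g x - (w (g⁻¹ • x) - w x)) T x = 0 := by
    intro x
    have h1 := hvw x
    simp only at h1
    rw [ds50_data_ts, ds50_data_s] at h1
    show z T x - (w ((T : SL(2, ℤ))⁻¹ • x) - w x) = 0
    rw [hz, ds50_coc_T, h1, sub_self]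
  have := hd.zpow_eq_zero hdT k (g⁻¹ • x₀)
  simp only [hfix, sub_self, sub_zero] at this
  exact this

end Par

end Fermat.Agent.S41x
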