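/-
S41x/DualShapiroPar.lean (helper50).  Second half of the Shapiro dictionary:
`ψ_v` is parabolic iff `[v]` is a parabolic class; the linear equivalence
`dp_Lpar ≃ Hom_par(Γ, R)` and the transported perfect alternating form on `Hom_par(Γ, R)`.
-/
import Fermat.Agent.S41x.DualShapiro

set_option autoImplicit false

open scoped MatrixGroups
open ModularGroup

namespace Fermat.Agent.S41x

section ParConv

variable {R : Type*} [CommRing R] {X : Type*} [MulAction SL(2, ℤ) X]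
variable (hneg : ∀ x : X, (-1 : SL(2, ℤ)) • x = x) (x₀ : X)

/-- the translation permutation `x ↦ T⁻¹ • x` -/
def ds50_tau (X : Type*) [MulAction SL(2, ℤ) X] : Equiv.Perm X :=
  MulAction.toPerm (T : SL(2, ℤ))⁻¹

theorem ds50_tau_apply (x : X) : ds50_tau X x = (T : SL(2, ℤ))⁻¹ • x := rfl

theorem ds50_tau_pow (i : ℕ) (x : X) : (ds50_tau X ^ i) x = ((T : SL(2, ℤ)) ^ i)⁻¹ • x := by
  induction i generalizing x with
  | zero => simp
  | succ i ih =>
    rw [pow_succ', Equiv.Perm.mul_apply, ih, ds50_tau_apply, pow_succ, mul_inv_rev, mul_smul]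

variable [Fintype X] [DecidableEq X] [MulAction.IsPretransitive SL(2, ℤ) X]

/-- a parabolic homomorphism comes from a parabolic class -/
theorem ds50_mem_Z_of_isPar [IsDomain R] [IsPrincipalIdealRing R] [CharZero R] {v : X → R}
    (hpar : ds50_IsPar x₀ (ds50_Psi hneg x₀ v)) :
    ∃ w : X → R, (v, w) ∈ dm_Z (R := R) (ds50_data hneg) := by
  set D := ds50_data hneg with hD
  set z := ds50_coc hneg v with hz
  have hzc : ds50_IsCoc z := ds50_coc_isCoc hneg v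
  set τ := ds50_tau X with hτ
  set n := orderOf τ with hn
  have hnpos : 0 < n := orderOf_pos τ
  have hτn : ∀ x : X, ((T : SL(2, ℤ)) ^ n)⁻¹ • x = x := by
    intro x
    rw [← ds50_tau_pow, ← hτ, hn, pow_orderOf_eq_one]
    rfl
  -- `z (T ^ n)` vanishes
  have hzTn : ∀ x, z (T ^ n) x = 0 := by
    intro x
    obtain ⟨σ, hσ⟩ := MulAction.exists_smul_eq SL(2, ℤ) x₀ x
    have hx : (σ⁻¹)⁻¹ • x₀ = x := by rw [inv_inv, hσ]
    have hfix : ((T : SL(2, ℤ)) ^ n)⁻¹ • (σ⁻¹)⁻¹ • x₀ = (σ⁻¹)⁻¹ • x₀ := hτn _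
    have hmem : (σ⁻¹ * T ^ (n : ℤ) * (σ⁻¹)⁻¹) • x₀ = x₀ := by
      rw [zpow_natCast, mul_smul, mul_smul, hx]
      have : ((T : SL(2, ℤ)) ^ n) • x = x := by
        conv_lhs => rw [← hτn x]
        rw [smul_inv_smul]
      rw [this, ← hσ, inv_smul_smul]
    have h1 := hpar σ⁻¹ n hmem
    rw [ds50_Psi_apply] at h1
    have h2 := hzc.conj_eval x₀ σ⁻¹ (T ^ n) hfix
    rw [hx] at h2
    rw [← h2]
    have e : σ⁻¹ * T ^ (n : ℤ) * (σ⁻¹)⁻¹ = σ⁻¹ * T ^ n * (σ⁻¹)⁻¹ := by rw [zpow_natCast]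
    rw [← e]
    exact h1
  have hzT : ∀ x, z T x = v (D.s x) - v x := fun x => ds50_coc_T hneg v x
  have hsum : ∀ x, ∑ i ∈ Finset.range n, z T ((τ ^ i) x) = 0 := by
    intro x
    rw [← hzTn x, hzc.pow_eval]
    refine Finset.sum_congr rfl (fun i _ => ?_)
    rw [hτ, ds50_tau_pow]
  apply dm_exists_Z_of_orth D v
  intro u hu
  have huτ : ∀ x, u (τ x) = u x := by
    intro x
    rw [hτ, ds50_tau_apply, ← ds50_data_ts hneg]
    exact hu x
  have huτi : ∀ (i : ℕ) (x : X), u ((τ ^ i) x) = u x := by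
    intro i
    induction i with
    | zero => intro x; simp
    | succ i ih => intro x; rw [pow_succ', Equiv.Perm.mul_apply, huτ, ih]
  have hfun : (fun x => v (D.s x) - v x) = z T := funext (fun x => (hzT x).symm)
  rw [hfun]
  have h1 : ∀ i : ℕ, dl_form u (z T) = dl_form u (fun x => z T ((τ ^ i) x)) := by
    intro i
    have := dl_form_comp_perm (τ ^ i) u (z T)
    rw [← this]
    congr 1
    funext x
    exact huτi i x
  have h2 : (n : R) * dl_form u (z T) = 0 := by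
    have : (n : R) * dl_form u (z T) = ∑ i ∈ Finset.range n, dl_form u (z T) := by
      rw [Finset.sum_const, Finset.card_range, nsmul_eq_mul]
    rw [this, Finset.sum_congr rfl (fun i _ => h1 i)]
    unfold dl_form
    rw [Finset.sum_comm]
    apply Finset.sum_eq_zero
    intro x _
    rw [← Finset.mul_sum, hsum x, mul_zero]
  have hn0 : (n : R) ≠ 0 := Nat.cast_ne_zero.mpr hnpos.ne'
  exact (mul_eq_zero.mp h2).resolve_left hn0

theorem ds50_isPar_iff [IsDomain R] [IsPrincipalIdealRing R] [CharZero R] (v : X → R) :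
    ds50_IsPar x₀ (ds50_Psi hneg x₀ v) ↔ ∃ w : X → R, (v, w) ∈ dm_Z (R := R) (ds50_data hneg) :=
  ⟨ds50_mem_Z_of_isPar hneg x₀, fun ⟨_, hw⟩ => ds50_isPar_of_mem_Z hneg x₀ hw⟩

end ParConv

section Equiv

variable {R : Type*} [CommRing R] {X : Type*} [MulAction SL(2, ℤ) X]
variable (hneg : ∀ x : X, (-1 : SL(2, ℤ)) • x = x) (x₀ : X)

/-- parabolic homomorphisms `Γ → R` as a submodule of all homomorphisms -/
def ds50_HomPar (R : Type*) [CommRing R] {X : Type*} [MulAction SL(2, ℤ) X] (x₀ : X) :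
    Submodule R (Additive (MulAction.stabilizer SL(2, ℤ) x₀) →+ R) where
  carrier := {φ | ds50_IsPar x₀ φ}
  add_mem' := by
    intro φ ψ hφ hψ g k h
    show φ _ + ψ _ = 0
    rw [hφ g k h, hψ g k h, add_zero]
  zero_mem' := fun _ _ _ => rfl
  smul_mem' := by
    intro r φ hφ g k h
    show r • φ _ = 0
    rw [hφ g k h, smul_zero]

theorem ds50_mem_HomPar (φ : Additive (MulAction.stabilizer SL(2, ℤ) x₀) →+ R) :
    φ ∈ ds50_HomPar R x₀ ↔ ds50_IsPar x₀ φ := Iff.rfl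

variable [MulAction.IsPretransitive SL(2, ℤ) X]

/-- the Shapiro map on `Q = V / (V^s + V^t)` -/
noncomputable def ds50_PsiQ :
    ((X → R) ⧸ dm_U (R := R) (ds50_data hneg)) →ₗ[R]
      (Additive (MulAction.stabilizer SL(2, ℤ) x₀) →+ R) :=
  (dm_U (R := R) (ds50_data hneg)).liftQ (ds50_Psi hneg x₀) (by rw [ds50_ker_Psi])

theorem ds50_PsiQ_mk (v : X → R) :
    ds50_PsiQ (R := R) hneg x₀ (Submodule.Quotient.mk v) = ds50_Psi hneg x₀ v := rfl

theorem ds50_PsiQ_injective : Function.Injective (ds50_PsiQ (R := R) hneg x₀) := by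
  rw [← LinearMap.ker_eq_bot]
  exact Submodule.ker_liftQ_eq_bot _ _ _ (by rw [ds50_ker_Psi])

variable [Fintype X] [DecidableEq X] [IsDomain R] [IsPrincipalIdealRing R]

theorem ds50_PsiQ_surjective (h2 : (2 : R) ≠ 0) (h3 : (3 : R) ≠ 0) :
    Function.Surjective (ds50_PsiQ (R := R) hneg x₀) := by
  intro φ
  obtain ⟨v, hv⟩ := ds50_Psi_surjective hneg x₀ h2 h3 φ
  exact ⟨Submodule.Quotient.mk v, hv⟩

/-- `V / (V^s + V^t) ≃ Hom(Γ, R)` -/
noncomputable def ds50_equivQ (h2 : (2 : R) ≠ 0) (h3 : (3 : R) ≠ 0) :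
    ((X → R) ⧸ dm_U (R := R) (ds50_data hneg)) ≃ₗ[R]
      (Additive (MulAction.stabilizer SL(2, ℤ) x₀) →+ R) :=
  LinearEquiv.ofBijective (ds50_PsiQ hneg x₀)
    ⟨ds50_PsiQ_injective hneg x₀, ds50_PsiQ_surjective hneg x₀ h2 h3⟩

theorem ds50_equivQ_mk (h2 : (2 : R) ≠ 0) (h3 : (3 : R) ≠ 0) (v : X → R) :
    ds50_equivQ hneg x₀ h2 h3 (Submodule.Quotient.mk v) = ds50_Psi hneg x₀ v := rfl

variable [CharZero R]

/-- parabolic classes correspond to parabolic homomorphisms -/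
theorem ds50_map_Lpar (h2 : (2 : R) ≠ 0) (h3 : (3 : R) ≠ 0) :
    (dp_Lpar (R := R) (ds50_data hneg)).map
      (ds50_equivQ hneg x₀ h2 h3 : ((X → R) ⧸ dm_U (R := R) (ds50_data hneg)) →ₗ[R]
        (Additive (MulAction.stabilizer SL(2, ℤ) x₀) →+ R)) = ds50_HomPar R x₀ := by
  ext φ
  constructor
  · rintro ⟨y, ⟨z, rfl⟩, rfl⟩
    show ds50_IsPar x₀ (ds50_Psi hneg x₀ z.1.1)
    exact ds50_isPar_of_mem_Z hneg x₀ (w := z.1.2) z.2
  · intro hφ
    obtain ⟨v, rfl⟩ := ds50_Psi_surjective hneg x₀ h2 h3 φ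
    obtain ⟨w, hw⟩ := ds50_mem_Z_of_isPar hneg x₀ hφ
    exact ⟨Submodule.Quotient.mk v, ⟨⟨(v, w), hw⟩, rfl⟩, rfl⟩

/-- **Shapiro dictionary**: parabolic classes of the model `≃` parabolic homomorphisms of `Γ`. -/
noncomputable def ds50_equiv (h2 : (2 : R) ≠ 0) (h3 : (3 : R) ≠ 0) :
    dp_Lpar (R := R) (ds50_data hneg) ≃ₗ[R] ds50_HomPar R x₀ :=
  ((ds50_equivQ hneg x₀ h2 h3).submoduleMap (dp_Lpar (R := R) (ds50_data hneg))).trans
    (LinearEquiv.ofEq _ _ (ds50_map_Lpar hneg x₀ h2 h3))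

theorem ds50_equiv_apply (h2 : (2 : R) ≠ 0) (h3 : (3 : R) ≠ 0)
    (z : dm_Z (R := R) (ds50_data hneg)) :
    ((ds50_equiv hneg x₀ h2 h3 ⟨dp_q R (ds50_data hneg) z, ⟨z, rfl⟩⟩ : ds50_HomPar R x₀) :
      Additive (MulAction.stabilizer SL(2, ℤ) x₀) →+ R) = ds50_Psi hneg x₀ z.1.1 := rfl

/-- the perfect alternating form transported to `Hom_par(Γ, R)` -/
noncomputable def ds50_pair (h2 : (2 : R) ≠ 0) (h3 : (3 : R) ≠ 0) :
    ds50_HomPar R x₀ →ₗ[R] ds50_HomPar R x₀ →ₗ[R] R :=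
  (dp_pair (R := R) (ds50_data hneg) h2 h3).compl₁₂
    (ds50_equiv hneg x₀ h2 h3).symm.toLinearMap (ds50_equiv hneg x₀ h2 h3).symm.toLinearMap

theorem ds50_pair_apply (h2 : (2 : R) ≠ 0) (h3 : (3 : R) ≠ 0) (φ ψ : ds50_HomPar R x₀) :
    ds50_pair hneg x₀ h2 h3 φ ψ = dp_pair (ds50_data hneg) h2 h3
      ((ds50_equiv hneg x₀ h2 h3).symm φ) ((ds50_equiv hneg x₀ h2 h3).symm ψ) := rfl

/-- the form computed on lifts `(v,w), (v',w') ∈ dm_Z` -/
theorem ds50_pair_Psi (h2 : (2 : R) ≠ 0) (h3 : (3 : R) ≠ 0)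
    (z z' : dm_Z (R := R) (ds50_data hneg)) :
    ds50_pair hneg x₀ h2 h3
      (ds50_equiv hneg x₀ h2 h3 ⟨dp_q R (ds50_data hneg) z, ⟨z, rfl⟩⟩)
      (ds50_equiv hneg x₀ h2 h3 ⟨dp_q R (ds50_data hneg) z', ⟨z', rfl⟩⟩)
      = dm_b (ds50_data hneg) z.1 z'.1 := by
  rw [ds50_pair_apply, LinearEquiv.symm_apply_apply, LinearEquiv.symm_apply_apply, dp_pair_q]

theorem ds50_pair_self (h2 : (2 : R) ≠ 0) (h3 : (3 : R) ≠ 0) (φ : ds50_HomPar R x₀) :
    ds50_pair hneg x₀ h2 h3 φ φ = 0 := by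
  rw [ds50_pair_apply, dp_pair_self]

theorem ds50_pair_antisymm (h2 : (2 : R) ≠ 0) (h3 : (3 : R) ≠ 0) (φ ψ : ds50_HomPar R x₀) :
    ds50_pair hneg x₀ h2 h3 φ ψ + ds50_pair hneg x₀ h2 h3 ψ φ = 0 := by
  rw [ds50_pair_apply, ds50_pair_apply, dp_pair_antisymm]

/-- **Poincaré duality on `Hom_par(Γ, R)`**: the transported form is perfect. -/
theorem ds50_pair_bijective (h2 : (2 : R) ≠ 0) (h3 : (3 : R) ≠ 0) :
    Function.Bijective (ds50_pair (R := R) hneg x₀ h2 h3) := by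
  have hb := dp_pair_bijective (R := R) (ds50_data hneg) h2 h3 (ds50_conn hneg)
  set e := ds50_equiv (R := R) hneg x₀ h2 h3 with he
  constructor
  · rw [injective_iff_map_eq_zero]
    intro φ hφ
    have h0 : dp_pair (ds50_data hneg) h2 h3 (e.symm φ) = 0 := by
      apply LinearMap.ext
      intro y
      have := LinearMap.congr_fun hφ (e y)
      rw [ds50_pair_apply, LinearEquiv.symm_apply_apply] at this
      exact this
    have h1 : e.symm φ = 0 := (injective_iff_map_eq_zero _).1 hb.1 _ h0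
    have := congrArg e h1
    rwa [LinearEquiv.apply_symm_apply, map_zero] at this
  · intro μ
    obtain ⟨y₀, hy₀⟩ := hb.2 (μ ∘ₗ e.toLinearMap)
    refine ⟨e y₀, ?_⟩
    apply LinearMap.ext
    intro ψ
    rw [ds50_pair_apply, LinearEquiv.symm_apply_apply, hy₀]
    show μ (e (e.symm ψ)) = μ ψ
    rw [LinearEquiv.apply_symm_apply]

end Equiv

end Fermat.Agent.S41x
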