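/-
S41 project, block C (duality), row C-8 part 1 (helper50): GLUE between the Shapiro dictionary
(`DualShapiro`, `DualShapiroPar`, prefix `ds50_`) and the intrinsic cusp formula
(`DualIntrA/B/C`, prefix `dint_`).

Setting: `SL(2,ℤ)` acts on a finite set `X`, `-1` acts trivially, `x₀ : X`, `Γ = Stab(x₀)`.

* `dtop_F hneg v` : the crossed hom `cob(v) - z_v` in helper46's normalisation
  (`F S = 0`, `F (S T) = (t - 1) v`); its restriction to `Γ` at `x₀` is `- ds50_Psi v`.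
* `dtop_Cusps x₀ ι` : model cusp data (representatives `xc i` of the `T`-orbits on `X` and
  `gc i` with `gc i • x₀ = xc i`); `dtop_Cusps.t i = (gc i)⁻¹ T^{e_i} (gc i) ∈ Γ`.
  `dtop_exists_cusps` : such data exist.
* `dtop_balanced` : every homomorphism `Γ → R` has cusp sum `0`.
* `dtop_model_formula` : a twisted primitive `H` of `(F_v, F_v')` has cusp sum `n * dm_b z z'`
  and restricts to a primitive of `n • Psi v ∪ Psi v'`.
* `dtop_intrinsic` : **intrinsic characterisation of the pairing**: for parabolic `φ ψ` and ANY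
  primitive `h` of `n • φ ∪ ψ` on `Γ`, `∑ i, h (t i) = n * ds50_pair φ ψ`  (given existence of
  twisted primitives `dtop_EXK`).
-/
import Fermat.Agent.S41x.DualShapiroPar
import Fermat.Agent.S41x.DualIntrC

set_option autoImplicit false

open scoped MatrixGroups
open ModularGroup

namespace Fermat.Agent.S41x

section Glue

variable {R : Type*} [CommRing R] {X : Type*} [MulAction SL(2, ℤ) X]
variable (hneg : ∀ x : X, (-1 : SL(2, ℤ)) • x = x) (x₀ : X)

/-- the crossed hom `cob(v) - z_v` (helper46's normalisation of the class of `v`) -/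
noncomputable def dtop_F (v : X → R) (g : SL(2, ℤ)) (x : X) : R :=
  (v (g⁻¹ • x) - v x) - ds50_coc hneg v g x

theorem dtop_F_cross (v : X → R) : dint_IsCross (dtop_F hneg v) :=
  (ds50_isCoc_cob v).sub (ds50_coc_isCoc hneg v)

theorem dtop_F_S (v : X → R) (y : X) : dtop_F hneg v S y = 0 := by
  unfold dtop_F
  rw [ds50_coc_S]
  ring

theorem dtop_F_ST (v : X → R) (y : X) :
    dtop_F hneg v (S * T) y = v ((ds50_data hneg).t y) - v y := by
  unfold dtop_F
  rw [ds50_coc_ST, ds50_data_t]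
  ring

theorem dtop_stab_fix (γ : SL(2, ℤ)) (h : γ ∈ MulAction.stabilizer SL(2, ℤ) x₀) : γ • x₀ = x₀ := h

theorem dtop_F_base (v : X → R) (γ : MulAction.stabilizer SL(2, ℤ) x₀) :
    dtop_F hneg v γ.1 x₀ = - ds50_Psi hneg x₀ v (Additive.ofMul γ) := by
  unfold dtop_F
  have h1 : (γ.1)⁻¹ • x₀ = x₀ := by rw [inv_smul_eq_iff]; exact (γ.2).symm
  rw [h1, ds50_Psi_apply]
  ring

theorem dtop_homOf (v : X → R) :
    dint_homOf (dtop_F hneg v) (dtop_F_cross hneg v) x₀ (MulAction.stabilizer SL(2, ℤ) x₀)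
      (dtop_stab_fix x₀) = - ds50_Psi hneg x₀ v := by
  refine AddMonoidHom.ext fun γ => ?_
  obtain ⟨γ, rfl⟩ := Additive.ofMul.surjective γ
  exact dtop_F_base hneg x₀ v γ

end Glue

section PrimNeg

variable {Γ : Type*} [Group Γ] {R : Type*} [CommRing R]

theorem dtop_prim_neg {n : R} {f g : Additive Γ →+ R} {h : Γ → R}
    (hh : dint_IsPrim n (-f) (-g) h) : dint_IsPrim n f g h := by
  intro a b
  have := hh a b
  simp only [AddMonoidHom.neg_apply] at this
  rw [this]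
  ring

end PrimNeg

/-- model cusp data for `(X, x₀)`: representatives of the `T`-orbits and elements carrying the
base point to them -/
structure dtop_Cusps {X : Type*} [MulAction SL(2, ℤ) X] (x₀ : X) (ι : Type*) where
  xc : ι → X
  hrep : ∀ y : X, ∃! i : ι, ∃ k : ℕ, (dint_sig X)^[k] (xc i) = y
  gc : ι → SL(2, ℤ)
  hgc : ∀ i, gc i • x₀ = xc i

namespace dtop_Cusps

variable {X : Type*} [MulAction SL(2, ℤ) X] {x₀ : X} {ι : Type*} (C : dtop_Cusps x₀ ι)

/-- the width of the `i`-th cusp -/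
noncomputable def e (i : ι) : ℕ := Function.minimalPeriod (dint_sig X) (C.xc i)

theorem iterate_e (i : ι) : (dint_sig X)^[C.e i] (C.xc i) = C.xc i :=
  Function.iterate_minimalPeriod

theorem T_pow_e_smul (i : ι) : ((T : SL(2, ℤ)) ^ C.e i) • C.xc i = C.xc i := by
  have h1 := dint_pow_inv_smul (E := X) (C.e i) (C.xc i)
  rw [C.iterate_e i, inv_smul_eq_iff] at h1
  exact h1.symm

theorem t_mem (i : ι) :
    (C.gc i)⁻¹ * T ^ C.e i * C.gc i ∈ MulAction.stabilizer SL(2, ℤ) x₀ := by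
  show ((C.gc i)⁻¹ * T ^ C.e i * C.gc i) • x₀ = x₀
  rw [mul_smul, mul_smul, C.hgc, C.T_pow_e_smul, ← C.hgc i, inv_smul_smul]

/-- the oriented generator of the stabiliser of the `i`-th cusp: `(gc i)⁻¹ T^{e_i} (gc i)` -/
noncomputable def t (i : ι) : MulAction.stabilizer SL(2, ℤ) x₀ :=
  ⟨(C.gc i)⁻¹ * T ^ C.e i * C.gc i, C.t_mem i⟩

theorem t_coe (i : ι) : ((C.t i : MulAction.stabilizer SL(2, ℤ) x₀) : SL(2, ℤ)) =
    (C.gc i)⁻¹ * T ^ C.e i * C.gc i := rfl

end dtop_Cusps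

section Exists

universe u

variable {X : Type u} [MulAction SL(2, ℤ) X] [Finite X] (x₀ : X)
  [MulAction.IsPretransitive SL(2, ℤ) X]

/-- model cusp data exist (index set: the cycles of `y ↦ T⁻¹ • y`) -/
theorem dtop_exists_cusps :
    ∃ (ι : Type u) (_ : Fintype ι), Nonempty (dtop_Cusps x₀ ι) := by
  classical
  let σ : Equiv.Perm X := ds50_tau X
  let ι := Quotient (Equiv.Perm.SameCycle.setoid σ)
  have hfin : Finite ι := Quotient.finite _
  have hσ : ∀ (k : ℕ) (y : X), (dint_sig X)^[k] y = (σ ^ k) y := by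
    intro k y
    rw [← Equiv.Perm.iterate_eq_pow]
    rfl
  refine ⟨ι, Fintype.ofFinite ι, ⟨{
    xc := fun i => Quotient.out i
    hrep := ?_
    gc := fun i => ds50_sec x₀ (Quotient.out i)
    hgc := fun i => ds50_sec_smul x₀ _ }⟩⟩
  intro y
  refine ⟨Quotient.mk _ y, ?_, ?_⟩
  · have h : σ.SameCycle (Quotient.out (Quotient.mk (Equiv.Perm.SameCycle.setoid σ) y)) y :=
      Quotient.exact (s := Equiv.Perm.SameCycle.setoid σ)
        (Quotient.out_eq (Quotient.mk (Equiv.Perm.SameCycle.setoid σ) y))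
    obtain ⟨k, hk⟩ := h.exists_nat_pow_eq
    exact ⟨k, by rw [hσ, hk]⟩
  · rintro j ⟨k, hk⟩
    rw [hσ] at hk
    have h : σ.SameCycle (Quotient.out j) y := ⟨k, by rw [zpow_natCast, hk]⟩
    have := Quotient.sound (s := Equiv.Perm.SameCycle.setoid σ) h
    rw [Quotient.out_eq] at this
    exact this

end Exists

section Balanced

variable {R : Type*} [CommRing R] {X : Type*} [MulAction SL(2, ℤ) X]
variable (hneg : ∀ x : X, (-1 : SL(2, ℤ)) • x = x) (x₀ : X)
variable {ι : Type*} (C : dtop_Cusps x₀ ι)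

/-- value of the Shapiro homomorphism on a cusp generator -/
theorem dtop_Psi_t (u : X → R) (i : ι) :
    ds50_Psi hneg x₀ u (Additive.ofMul (C.t i)) =
      ∑ k ∈ Finset.range (C.e i),
        (u ((S : SL(2, ℤ))⁻¹ • (dint_sig X)^[k] (C.xc i)) - u ((dint_sig X)^[k] (C.xc i))) := by
  rw [ds50_Psi_apply, C.t_coe]
  have hz : dint_IsCross (ds50_coc hneg u) := ds50_coc_isCoc hneg u
  rw [dint_cross_conj hz (C.gc i) (T ^ C.e i) (C.hgc i) (C.T_pow_e_smul i),
    (ds50_coc_isCoc hneg u).pow_eval]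
  refine Finset.sum_congr rfl fun k _ => ?_
  rw [dint_pow_inv_smul, ds50_coc_T]

variable [Fintype ι] [Fintype X]

/-- every coboundary-type class `Psi u` has cusp sum zero -/
theorem dtop_balanced_Psi (u : X → R) :
    ∑ i, ds50_Psi hneg x₀ u (Additive.ofMul (C.t i)) = 0 := by
  have hinj : Function.Injective (dint_sig X) := by
    intro a b hab
    unfold dint_sig at hab
    exact (MulAction.injective _) hab
  have h := dint_sum_orbits (dint_sig X) hinj C.xc C.hrep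
    (fun y => u ((S : SL(2, ℤ))⁻¹ • y) - u y)
  have h0 : ∑ y, (u ((S : SL(2, ℤ))⁻¹ • y) - u y) = 0 := by
    rw [Finset.sum_sub_distrib, dint_sum_smul (S : SL(2, ℤ))⁻¹ u, sub_self]
  rw [h0] at h
  rw [h]
  refine Finset.sum_congr rfl fun i _ => ?_
  exact dtop_Psi_t hneg x₀ C u i

variable [DecidableEq X] [MulAction.IsPretransitive SL(2, ℤ) X] [IsDomain R]
  [IsPrincipalIdealRing R]

include hneg in
/-- **BALANCED**: every homomorphism `Γ → R` has cusp sum zero. -/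
theorem dtop_balanced (h2 : (2 : R) ≠ 0) (h3 : (3 : R) ≠ 0)
    (k : Additive (MulAction.stabilizer SL(2, ℤ) x₀) →+ R) :
    ∑ i, k (Additive.ofMul (C.t i)) = 0 := by
  obtain ⟨u, rfl⟩ := ds50_Psi_surjective hneg x₀ h2 h3 k
  exact dtop_balanced_Psi hneg x₀ C u

end Balanced

section Intrinsic

variable {R : Type*} [CommRing R] {X : Type*} [MulAction SL(2, ℤ) X]
variable (hneg : ∀ x : X, (-1 : SL(2, ℤ)) • x = x) (x₀ : X)
variable {ι : Type*} [Fintype ι] (C : dtop_Cusps x₀ ι)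

/-- existence of `n`-twisted primitives on `SL(2,ℤ)` for crossed homs normalised by `F S = 0` -/
def dtop_EXK (R : Type*) [CommRing R] (X : Type*) [MulAction SL(2, ℤ) X] (n : R) : Prop :=
  ∀ F F' : SL(2, ℤ) → X → R, dint_IsCross F → dint_IsCross F' → (∀ y, F S y = 0) →
    (∀ y, F' S y = 0) → ∃ H : SL(2, ℤ) → X → R, dint_IsTw n F F' H

variable [Fintype X] [IsDomain R]

/-- the model formula: a twisted primitive of `(F_v, F_v')` restricts to a primitive of
`n • Psi v ∪ Psi v'` on `Γ` whose cusp sum is `n * dm_b z z'` -/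
theorem dtop_model_formula (h2 : (2 : R) ≠ 0) (h3 : (3 : R) ≠ 0) {n : R}
    {z z' : (X → R) × (X → R)} (hz : z ∈ dm_Z (ds50_data hneg)) (hz' : z' ∈ dm_Z (ds50_data hneg))
    {H : SL(2, ℤ) → X → R} (hH : dint_IsTw n (dtop_F hneg z.1) (dtop_F hneg z'.1) H) :
    dint_IsPrim n (ds50_Psi hneg x₀ z.1) (ds50_Psi hneg x₀ z'.1)
        (fun γ : MulAction.stabilizer SL(2, ℤ) x₀ => H (γ : SL(2, ℤ)) x₀) ∧
      ∑ i, H ((C.t i : MulAction.stabilizer SL(2, ℤ) x₀) : SL(2, ℤ)) x₀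
        = n * dm_b (ds50_data hneg) z z' := by
  constructor
  · apply dtop_prim_neg
    have := dint_prim_of_tw (dtop_F_cross hneg z.1) (dtop_F_cross hneg z'.1) hH x₀
      (MulAction.stabilizer SL(2, ℤ) x₀) (dtop_stab_fix x₀)
    rwa [dtop_homOf, dtop_homOf] at this
  · exact dint_bridge h2 h3 hneg (ds50_data hneg) (fun _ => rfl) (fun _ => rfl)
      (dtop_F_cross hneg z.1) (dtop_F_cross hneg z'.1) hH hz hz'
      (dtop_F_S hneg z.1) (dtop_F_ST hneg z.1) (dtop_F_S hneg z'.1) (dtop_F_ST hneg z'.1)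
      C.xc C.hrep x₀ C.gc C.hgc

variable [DecidableEq X] [MulAction.IsPretransitive SL(2, ℤ) X] [IsPrincipalIdealRing R]
  [CharZero R]

/-- every parabolic homomorphism is `Psi` of the first component of an element of `dm_Z` -/
theorem dtop_exists_lift (h2 : (2 : R) ≠ 0) (h3 : (3 : R) ≠ 0) (φ : ds50_HomPar R x₀) :
    ∃ z : dm_Z (R := R) (ds50_data hneg),
      ds50_equiv hneg x₀ h2 h3 ⟨dp_q R (ds50_data hneg) z, ⟨z, rfl⟩⟩ = φ := by
  obtain ⟨⟨l, z, rfl⟩, hl⟩ := (ds50_equiv hneg x₀ h2 h3).surjective φ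
  exact ⟨z, hl⟩

/-- **INTRINSIC CHARACTERISATION** of the pairing on `Hom_par(Γ, R)`: for ANY primitive `h` of
`n • φ ∪ ψ` on `Γ = Stab(x₀)`, the cusp sum of `h` is `n * ⟨φ, ψ⟩`. -/
theorem dtop_intrinsic (h2 : (2 : R) ≠ 0) (h3 : (3 : R) ≠ 0) {n : R} (hEXK : dtop_EXK R X n)
    (φ ψ : ds50_HomPar R x₀) {h : MulAction.stabilizer SL(2, ℤ) x₀ → R}
    (hh : dint_IsPrim n (φ : Additive (MulAction.stabilizer SL(2, ℤ) x₀) →+ R) ψ h) :
    ∑ i, h (C.t i) = n * ds50_pair hneg x₀ h2 h3 φ ψ := by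
  obtain ⟨z, rfl⟩ := dtop_exists_lift hneg x₀ h2 h3 φ
  obtain ⟨z', rfl⟩ := dtop_exists_lift hneg x₀ h2 h3 ψ
  rw [ds50_pair_Psi]
  rw [ds50_equiv_apply, ds50_equiv_apply] at hh
  obtain ⟨H, hH⟩ := hEXK (dtop_F hneg z.1.1) (dtop_F hneg z'.1.1) (dtop_F_cross hneg _)
    (dtop_F_cross hneg _) (dtop_F_S hneg _) (dtop_F_S hneg _)
  obtain ⟨hp, hs⟩ := dtop_model_formula hneg x₀ C h2 h3 z.2 z'.2 hH
  rw [← hs]
  exact dint_sum_indep hh hp C.t (dtop_balanced hneg x₀ C h2 h3)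

end Intrinsic

end Fermat.Agent.S41x
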