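/-
S41x/ParIntr.lean (helper99).  Mathlib only.

ABSTRACT INTRINSIC LAYER for the duality item (C) of S41.

For a group `Γ`, additive functions `f g : Γ → R` and a scalar `n : R`, a function `k : Γ → R`
with `k (a * b) = k a + k b - n * (f a * g b)` ("`k` trivialises `n • f ∪ g`") is
* normalised (`k 1 = 0`), has `k a⁻¹ = - k a - n * (f a * g a)`,
* CONJUGATION INVARIANT on the common kernel of `f` and `g` (`pi9_Cob.conj`),
* additive along powers of elements killed by `g` (or by `f`).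

A *cusp system* for a set `P ⊆ Γ` (think: positive primitive parabolic elements) is a family
`t : C → Γ` meeting every `Γ`-conjugacy class of `P` exactly once.  Two cusp systems give the same
sum `∑ c, k (t c)` (`pi9_cuspSum_eq`), and the sum is transported by group isomorphisms carrying
`P₁` onto `P₂` (`pi9_cuspSum_transport`).  This is the mechanism behind the invariance of the
Poincaré pairing on `Hom_par(Γ, R)` under conjugation by `GL₂⁺(ℚ)`.
-/
import Mathlib

set_option autoImplicit false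

namespace Fermat.Agent.S41x

variable {Γ : Type*} [Group Γ] {R : Type*} [CommRing R]

/-! ### Additive functions on a group -/

/-- `f : Γ → R` is additive (a homomorphism into the additive group of `R`). -/
def pi9_IsAdd (f : Γ → R) : Prop := ∀ a b : Γ, f (a * b) = f a + f b

theorem pi9_IsAdd.one {f : Γ → R} (hf : pi9_IsAdd f) : f 1 = 0 := by
  have h := hf 1 1
  rw [mul_one] at h
  exact left_eq_add.mp h

theorem pi9_IsAdd.inv {f : Γ → R} (hf : pi9_IsAdd f) (a : Γ) : f a⁻¹ = - f a := by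
  have h := hf a a⁻¹
  rw [mul_inv_cancel, hf.one] at h
  exact eq_neg_of_add_eq_zero_right h.symm

theorem pi9_IsAdd.conj {f : Γ → R} (hf : pi9_IsAdd f) (x t : Γ) : f (x * t * x⁻¹) = f t := by
  rw [hf, hf, hf.inv]; ring

theorem pi9_IsAdd.pow {f : Γ → R} (hf : pi9_IsAdd f) (t : Γ) (m : ℕ) : f (t ^ m) = m * f t := by
  induction m with
  | zero => simp [hf.one]
  | succ m ih => rw [pow_succ, hf, ih]; push_cast; ring

theorem pi9_IsAdd.comp {Γ' : Type*} [Group Γ'] {f : Γ → R} (hf : pi9_IsAdd f) (θ : Γ' →* Γ) :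
    pi9_IsAdd (fun a => f (θ a)) := by
  intro a b
  show f (θ (a * b)) = f (θ a) + f (θ b)
  rw [map_mul, hf]

theorem pi9_IsAdd.add {f f' : Γ → R} (hf : pi9_IsAdd f) (hf' : pi9_IsAdd f') :
    pi9_IsAdd (fun a => f a + f' a) := by
  intro a b
  show f (a * b) + f' (a * b) = f a + f' a + (f b + f' b)
  rw [hf, hf']; ring

theorem pi9_IsAdd.smul {f : Γ → R} (hf : pi9_IsAdd f) (r : R) :
    pi9_IsAdd (fun a => r * f a) := by
  intro a b
  show r * f (a * b) = r * f a + r * f b
  rw [hf]; ring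

theorem pi9_isAdd_of_addMonoidHom (φ : Additive Γ →+ R) :
    pi9_IsAdd (fun a : Γ => φ (Additive.ofMul a)) := by
  intro a b
  show φ (Additive.ofMul (a * b)) = _
  rw [ofMul_mul, map_add]

/-! ### Trivialisations of `n • f ∪ g` -/

/-- `k` trivialises the 2-cocycle `(a, b) ↦ n * (f a * g b)`. -/
structure pi9_Cob (n : R) (f g k : Γ → R) : Prop where
  hf : pi9_IsAdd f
  hg : pi9_IsAdd g
  hk : ∀ a b : Γ, k (a * b) = k a + k b - n * (f a * g b)

namespace pi9_Cob

variable {n : R} {f g k : Γ → R}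

theorem one (h : pi9_Cob n f g k) : k 1 = 0 := by
  have h1 := h.hk 1 1
  rw [mul_one, h.hf.one] at h1
  have : k 1 = k 1 + k 1 := by linear_combination h1
  exact left_eq_add.mp this

theorem inv (h : pi9_Cob n f g k) (a : Γ) : k a⁻¹ = - k a - n * (f a * g a) := by
  have h1 := h.hk a a⁻¹
  rw [mul_inv_cancel, h.one, h.hg.inv] at h1
  linear_combination (-1 : R) * h1

/-- right multiplication by an element killed by `g` -/
theorem mul_right (h : pi9_Cob n f g k) (a t : Γ) (hgt : g t = 0) : k (a * t) = k a + k t := by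
  rw [h.hk, hgt]; ring

/-- left multiplication by an element killed by `f` -/
theorem mul_left (h : pi9_Cob n f g k) (t a : Γ) (hft : f t = 0) : k (t * a) = k t + k a := by
  rw [h.hk, hft]; ring

/-- CONJUGATION INVARIANCE on the common kernel of `f` and `g`. -/
theorem conj (h : pi9_Cob n f g k) (x t : Γ) (hft : f t = 0) (hgt : g t = 0) :
    k (x * t * x⁻¹) = k t := by
  rw [h.hk, h.hk, h.inv, h.hf x t, h.hg.inv, hft, hgt]; ring

theorem conj' (h : pi9_Cob n f g k) (x t : Γ) (hft : f t = 0) (hgt : g t = 0) :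
    k (x⁻¹ * t * x) = k t := by
  have := h.conj x⁻¹ t hft hgt
  rwa [inv_inv] at this

theorem pow_of_right (h : pi9_Cob n f g k) (t : Γ) (hgt : g t = 0) (m : ℕ) :
    k (t ^ m) = m * k t := by
  induction m with
  | zero => simp [h.one]
  | succ m ih => rw [pow_succ, h.mul_right _ _ hgt, ih]; push_cast; ring

theorem pow_of_left (h : pi9_Cob n f g k) (t : Γ) (hft : f t = 0) (m : ℕ) :
    k (t ^ m) = m * k t := by
  induction m with
  | zero => simp [h.one]
  | succ m ih => rw [pow_succ', h.mul_left _ _ hft, ih]; push_cast; ring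

/-- Two trivialisations differ by an additive function. -/
theorem sub_isAdd {k' : Γ → R} (h : pi9_Cob n f g k) (h' : pi9_Cob n f g k') :
    pi9_IsAdd (fun a => k a - k' a) := by
  intro a b
  show k (a * b) - k' (a * b) = k a - k' a + (k b - k' b)
  rw [h.hk, h'.hk]; ring

/-- Adding an additive function to a trivialisation. -/
theorem add_isAdd {χ : Γ → R} (h : pi9_Cob n f g k) (hχ : pi9_IsAdd χ) :
    pi9_Cob n f g (fun a => k a + χ a) :=
  ⟨h.hf, h.hg, fun a b => by
    show k (a * b) + χ (a * b) = k a + χ a + (k b + χ b) - n * (f a * g b)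
    rw [h.hk, hχ]; ring⟩

/-- Pullback along a group homomorphism. -/
theorem comp {Γ' : Type*} [Group Γ'] (h : pi9_Cob n f g k) (θ : Γ' →* Γ) :
    pi9_Cob n (fun a => f (θ a)) (fun a => g (θ a)) (fun a => k (θ a)) :=
  ⟨h.hf.comp θ, h.hg.comp θ, fun a b => by
    show k (θ (a * b)) = k (θ a) + k (θ b) - n * (f (θ a) * g (θ b))
    rw [map_mul, h.hk]⟩

/-- Linearity in the first variable. -/
theorem add_left {f' k' : Γ → R} (h : pi9_Cob n f g k) (h' : pi9_Cob n f' g k') :
    pi9_Cob n (fun a => f a + f' a) g (fun a => k a + k' a) :=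
  ⟨h.hf.add h'.hf, h.hg, fun a b => by
    show k (a * b) + k' (a * b) = k a + k' a + (k b + k' b) - n * ((f a + f' a) * g b)
    rw [h.hk, h'.hk]; ring⟩

/-- Linearity in the second variable. -/
theorem add_right {g' k' : Γ → R} (h : pi9_Cob n f g k) (h' : pi9_Cob n f g' k') :
    pi9_Cob n f (fun a => g a + g' a) (fun a => k a + k' a) :=
  ⟨h.hf, h.hg.add h'.hg, fun a b => by
    show k (a * b) + k' (a * b) = k a + k' a + (k b + k' b) - n * (f a * (g b + g' b))
    rw [h.hk, h'.hk]; ring⟩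

theorem smul_left (h : pi9_Cob n f g k) (r : R) :
    pi9_Cob n (fun a => r * f a) g (fun a => r * k a) :=
  ⟨h.hf.smul r, h.hg, fun a b => by
    show r * k (a * b) = r * k a + r * k b - n * (r * f a * g b)
    rw [h.hk]; ring⟩

theorem smul_right (h : pi9_Cob n f g k) (r : R) :
    pi9_Cob n f (fun a => r * g a) (fun a => r * k a) :=
  ⟨h.hf, h.hg.smul r, fun a b => by
    show r * k (a * b) = r * k a + r * k b - n * (f a * (r * g b))
    rw [h.hk]; ring⟩

/-- Change of the scalar. -/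
theorem scale (h : pi9_Cob n f g k) (r : R) :
    pi9_Cob (r * n) f g (fun a => r * k a) :=
  ⟨h.hf, h.hg, fun a b => by
    show r * k (a * b) = r * k a + r * k b - r * n * (f a * g b)
    rw [h.hk]; ring⟩

/-- An element of order two (e.g. `-1`) has `k = 0` when `R` has no 2-torsion. -/
theorem eq_zero_of_sq_eq_one [IsDomain R] (h2 : (2 : R) ≠ 0) (h : pi9_Cob n f g k) (e : Γ)
    (he : e * e = 1) : k e = 0 := by
  have hfe : f e = 0 := by
    have h1 := h.hf e e
    rw [he, h.hf.one] at h1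
    have : (2 : R) * f e = 0 := by linear_combination (-1 : R) * h1
    exact (mul_eq_zero.mp this).resolve_left h2
  have h1 := h.hk e e
  rw [he, h.one, hfe] at h1
  have : (2 : R) * k e = 0 := by linear_combination (-1 : R) * h1
  exact (mul_eq_zero.mp this).resolve_left h2

end pi9_Cob

/-! ### Cusp systems -/

/-- A family `t : C → Γ` meeting every `Γ`-conjugacy class of the set `P` exactly once. -/
structure pi9_CuspSys (P : Set Γ) (C : Type*) where
  t : C → Γ
  mem : ∀ c, t c ∈ P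
  surj : ∀ u ∈ P, ∃ c, ∃ x : Γ, u = x * t c * x⁻¹
  inj : ∀ (c c' : C) (x : Γ), t c' = x * t c * x⁻¹ → c = c'

/-- Two cusp systems give the same sum of a function that is conjugation invariant on `P`. -/
theorem pi9_cuspSum_eq {P : Set Γ} {C C' : Type*} [Fintype C] [Fintype C'] {M : Type*}
    [AddCommMonoid M] (A : pi9_CuspSys P C) (B : pi9_CuspSys P C') (φ : Γ → M)
    (hφ : ∀ u ∈ P, ∀ x : Γ, φ (x * u * x⁻¹) = φ u) :
    ∑ c, φ (A.t c) = ∑ c', φ (B.t c') := by
  classical
  have hex : ∀ c, ∃ c', ∃ x : Γ, A.t c = x * B.t c' * x⁻¹ := fun c => B.surj _ (A.mem c)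
  choose σ x hx using hex
  have hinj : Function.Injective σ := by
    intro c₁ c₂ h12
    apply A.inj c₁ c₂ (x c₂ * (x c₁)⁻¹)
    have e1 : B.t (σ c₁) = (x c₁)⁻¹ * A.t c₁ * x c₁ := by
      rw [hx c₁]; group
    rw [hx c₂, ← h12, e1]; group
  have hsurj : Function.Surjective σ := by
    intro c'
    obtain ⟨c, y, hy⟩ := A.surj _ (B.mem c')
    refine ⟨c, ?_⟩
    apply B.inj (σ c) c' (y * x c)
    rw [hy, hx c]; group
  have hbij : Function.Bijective σ := ⟨hinj, hsurj⟩
  apply Fintype.sum_bijective σ hbij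
  intro c
  rw [hx c, hφ _ (B.mem _)]

/-- Transport of a cusp system along a group isomorphism. -/
def pi9_CuspSys.map {Γ' : Type*} [Group Γ'] {P : Set Γ} {P' : Set Γ'} {C : Type*}
    (A : pi9_CuspSys P C) (θ : Γ ≃* Γ') (hθ : ∀ u, u ∈ P ↔ θ u ∈ P') : pi9_CuspSys P' C where
  t := fun c => θ (A.t c)
  mem := fun c => (hθ _).1 (A.mem c)
  surj := by
    intro u hu
    have hu' : θ.symm u ∈ P := by rw [hθ, MulEquiv.apply_symm_apply]; exact hu
    obtain ⟨c, x, hx⟩ := A.surj _ hu'
    refine ⟨c, θ x, ?_⟩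
    have := congrArg θ hx
    rw [MulEquiv.apply_symm_apply] at this
    rw [this, map_mul, map_mul, map_inv]
  inj := by
    intro c c' x hx
    apply A.inj c c' (θ.symm x)
    apply θ.injective
    rw [hx, map_mul, map_mul, map_inv, MulEquiv.apply_symm_apply]

theorem pi9_CuspSys.map_t {Γ' : Type*} [Group Γ'] {P : Set Γ} {P' : Set Γ'} {C : Type*}
    (A : pi9_CuspSys P C) (θ : Γ ≃* Γ') (hθ : ∀ u, u ∈ P ↔ θ u ∈ P') (c : C) :
    (A.map θ hθ).t c = θ (A.t c) := rfl

/-- **Transport of cusp sums.**  Let `θ : Γ₁ ≃* Γ₂` carry `P₁` onto `P₂`, let `k` trivialise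
`n • f ∪ g` on `Γ₂` with `f, g` vanishing on `P₂`.  Then the cusp sum of `k ∘ θ` over any cusp
system of `(Γ₁, P₁)` equals the cusp sum of `k` over any cusp system of `(Γ₂, P₂)`. -/
theorem pi9_cuspSum_transport {Γ₁ Γ₂ : Type*} [Group Γ₁] [Group Γ₂] {P₁ : Set Γ₁} {P₂ : Set Γ₂}
    {C₁ C₂ : Type*} [Fintype C₁] [Fintype C₂] (A₁ : pi9_CuspSys P₁ C₁) (A₂ : pi9_CuspSys P₂ C₂)
    (θ : Γ₁ ≃* Γ₂) (hθ : ∀ u, u ∈ P₁ ↔ θ u ∈ P₂) {n : R} {f g k : Γ₂ → R}
    (h : pi9_Cob n f g k) (hfP : ∀ u ∈ P₂, f u = 0) (hgP : ∀ u ∈ P₂, g u = 0) :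
    ∑ c, k (θ (A₁.t c)) = ∑ c, k (A₂.t c) := by
  have := pi9_cuspSum_eq (A₁.map θ hθ) A₂ k
    (fun u hu x => h.conj x u (hfP u hu) (hgP u hu))
  simpa [pi9_CuspSys.map_t] using this

/-- Independence of the trivialisation: if every additive function has cusp sum zero, the cusp
sum of a trivialisation depends only on `(n, f, g)`. -/
theorem pi9_cuspSum_indep {P : Set Γ} {C : Type*} [Fintype C] (A : pi9_CuspSys P C)
    (hsurf : ∀ χ : Γ → R, pi9_IsAdd χ → ∑ c, χ (A.t c) = 0)
    {n : R} {f g k k' : Γ → R} (h : pi9_Cob n f g k) (h' : pi9_Cob n f g k') :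
    ∑ c, k (A.t c) = ∑ c, k' (A.t c) := by
  have := hsurf _ (h.sub_isAdd h')
  rw [Finset.sum_sub_distrib] at this
  exact sub_eq_zero.mp this

end Fermat.Agent.S41x
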