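/-
S41x/ParOrient.lean (helper99).  Mathlib only.

UNIPOTENT ELEMENTS of `SL(2,ℤ)` and their ORIENTATION (duality item C of S41).

* `pi9_conj_T_zpow` : the entries of `h * T ^ m * h⁻¹`.
* `pi9_unip_exists_conj` : every `u ∈ SL(2,ℤ)` of trace `2` is `h * T ^ m * h⁻¹`.
* `pi9_conj_T_eq` : `h * T ^ w * h⁻¹ = T ^ w'` with `w ≠ 0` forces `h = ± T ^ i` (and `w' = w`).
* `pi9_orient` : if `A` is an integral `2 × 2` matrix of POSITIVE determinant and `A * u = u' * A`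
  with `u, u'` in `SL(2,ℤ)`, then `u` positive unipotent (`trace = 2`, `0 < u 0 1 - u 1 0`)
  implies `u'` positive unipotent.
-/
import Mathlib

set_option autoImplicit false

open Matrix ModularGroup
open scoped MatrixGroups

namespace Fermat.Agent.S41x

/-- determinant relation of an element of `SL(2,ℤ)` -/
theorem pi9_det_eq (h : SL(2, ℤ)) : h 0 0 * h 1 1 - h 0 1 * h 1 0 = 1 := by
  have := h.2
  rwa [Matrix.det_fin_two] at this

theorem pi9_inv_coe (h : SL(2, ℤ)) : (h⁻¹).1 = !![h 1 1, -h 0 1; -h 1 0, h 0 0] := by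
  rw [SpecialLinearGroup.SL2_inv_expl h]; rfl

/-- `u` is unipotent: trace `2`. -/
def pi9_IsUnip (u : SL(2, ℤ)) : Prop := u 0 0 + u 1 1 = 2

/-- `u` is a positive unipotent (conjugate to `T ^ m`, `m > 0`). -/
def pi9_IsPosUnip (u : SL(2, ℤ)) : Prop := u 0 0 + u 1 1 = 2 ∧ 0 < u 0 1 - u 1 0

theorem pi9_unip_sq (u : SL(2, ℤ)) (hu : pi9_IsUnip u) :
    (u 0 0 - 1) ^ 2 + u 0 1 * u 1 0 = 0 := by
  have hd := pi9_det_eq u
  unfold pi9_IsUnip at hu
  have : u 1 1 = 2 - u 0 0 := by linarith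
  rw [this] at hd
  linear_combination (-1 : ℤ) * hd

/-- The entries of `h * T ^ m * h⁻¹`. -/
theorem pi9_conj_T_zpow (h : SL(2, ℤ)) (m : ℤ) :
    (h * T ^ m * h⁻¹).1 =
      !![1 - m * h 0 0 * h 1 0, m * h 0 0 ^ 2; - m * h 1 0 ^ 2, 1 + m * h 0 0 * h 1 0] := by
  have hd := pi9_det_eq h
  have e1 : (h * T ^ m * h⁻¹).1 = h.1 * (T ^ m).1 * (h⁻¹).1 := rfl
  rw [e1, coe_T_zpow, pi9_inv_coe]
  nth_rewrite 1 [Matrix.eta_fin_two h.1]
  rw [Matrix.mul_fin_two, Matrix.mul_fin_two]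
  congrm !![?_, ?_; ?_, ?_]
  · linear_combination (1 : ℤ) * hd
  · ring
  · ring
  · linear_combination (1 : ℤ) * hd

theorem pi9_conj_T_zpow_00 (h : SL(2, ℤ)) (m : ℤ) :
    (h * T ^ m * h⁻¹) 0 0 = 1 - m * h 0 0 * h 1 0 := by
  show (h * T ^ m * h⁻¹).1 0 0 = _
  rw [pi9_conj_T_zpow]; rfl

theorem pi9_conj_T_zpow_01 (h : SL(2, ℤ)) (m : ℤ) :
    (h * T ^ m * h⁻¹) 0 1 = m * h 0 0 ^ 2 := by
  show (h * T ^ m * h⁻¹).1 0 1 = _
  rw [pi9_conj_T_zpow]; rfl

theorem pi9_conj_T_zpow_10 (h : SL(2, ℤ)) (m : ℤ) :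
    (h * T ^ m * h⁻¹) 1 0 = - m * h 1 0 ^ 2 := by
  show (h * T ^ m * h⁻¹).1 1 0 = _
  rw [pi9_conj_T_zpow]; rfl

theorem pi9_conj_T_zpow_11 (h : SL(2, ℤ)) (m : ℤ) :
    (h * T ^ m * h⁻¹) 1 1 = 1 + m * h 0 0 * h 1 0 := by
  show (h * T ^ m * h⁻¹).1 1 1 = _
  rw [pi9_conj_T_zpow]; rfl

theorem pi9_conj_T_zpow_unip (h : SL(2, ℤ)) (m : ℤ) : pi9_IsUnip (h * T ^ m * h⁻¹) := by
  unfold pi9_IsUnip
  rw [pi9_conj_T_zpow_00, pi9_conj_T_zpow_11]; ring

theorem pi9_conj_T_zpow_orient (h : SL(2, ℤ)) (m : ℤ) :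
    (h * T ^ m * h⁻¹ : SL(2, ℤ)) 0 1 - (h * T ^ m * h⁻¹ : SL(2, ℤ)) 1 0
      = m * (h 0 0 ^ 2 + h 1 0 ^ 2) := by
  rw [pi9_conj_T_zpow_01, pi9_conj_T_zpow_10]; ring

theorem pi9_col_sq_pos (h : SL(2, ℤ)) : 0 < h 0 0 ^ 2 + h 1 0 ^ 2 := by
  have hd := pi9_det_eq h
  by_contra hcon
  have h1 : h 0 0 ^ 2 + h 1 0 ^ 2 = 0 := le_antisymm (not_lt.mp hcon) (by positivity)
  have h00 : h 0 0 = 0 := by nlinarith [sq_nonneg (h 0 0), sq_nonneg (h 1 0)]
  have h10 : h 1 0 = 0 := by nlinarith [sq_nonneg (h 0 0), sq_nonneg (h 1 0)]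
  rw [h00, h10] at hd
  simp at hd

/-- `h * T ^ m * h⁻¹` is positive iff `m > 0`. -/
theorem pi9_conj_T_zpow_pos_iff (h : SL(2, ℤ)) (m : ℤ) :
    pi9_IsPosUnip (h * T ^ m * h⁻¹) ↔ 0 < m := by
  unfold pi9_IsPosUnip
  rw [pi9_conj_T_zpow_orient]
  have hpos := pi9_col_sq_pos h
  constructor
  · rintro ⟨_, h2⟩
    by_contra hm
    have : m * (h 0 0 ^ 2 + h 1 0 ^ 2) ≤ 0 :=
      mul_nonpos_of_nonpos_of_nonneg (not_lt.mp hm) hpos.le
    linarith
  · intro hm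
    exact ⟨pi9_conj_T_zpow_unip h m, mul_pos hm hpos⟩

/-- A primitive integral kernel vector of `u - 1` for a unipotent `u`. -/
theorem pi9_unip_exists_kernel (u : SL(2, ℤ)) (hu : pi9_IsUnip u) :
    ∃ p r : ℤ, IsCoprime p r ∧ (u 0 0 - 1) * p + u 0 1 * r = 0 ∧
      u 1 0 * p - (u 0 0 - 1) * r = 0 := by
  have hsq := pi9_unip_sq u hu
  by_cases hg : 0 < Int.gcd (u 0 0 - 1) (u 0 1)
  · obtain ⟨a', b', hcop, ha, hb⟩ := Int.exists_gcd_one hg
    have hg0 : ((Int.gcd (u 0 0 - 1) (u 0 1) : ℕ) : ℤ) ≠ 0 := by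
      have : (0 : ℤ) < ((Int.gcd (u 0 0 - 1) (u 0 1) : ℕ) : ℤ) := by exact_mod_cast hg
      exact this.ne'
    generalize ((Int.gcd (u 0 0 - 1) (u 0 1) : ℕ) : ℤ) = g at ha hb hg0
    refine ⟨b', -a', ?_, ?_, ?_⟩
    · rw [Int.isCoprime_iff_gcd_eq_one, Int.gcd_neg, Int.gcd_comm]
      exact hcop
    · rw [ha, hb]; ring
    · have : g * (u 1 0 * b' - (u 0 0 - 1) * -a') = 0 := by
        have e1 : g * (u 1 0 * b' - (u 0 0 - 1) * -a')
            = u 1 0 * (b' * g) + (u 0 0 - 1) * (a' * g) := by ring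
        rw [e1, ← ha, ← hb]
        linear_combination hsq
      exact (mul_eq_zero.mp this).resolve_left hg0
  · have h0 : Int.gcd (u 0 0 - 1) (u 0 1) = 0 := by omega
    rw [Int.gcd_eq_zero_iff] at h0
    refine ⟨0, 1, isCoprime_zero_left.mpr isUnit_one, ?_, ?_⟩
    · rw [h0.1, h0.2]; ring
    · rw [h0.1]; ring

/-- CLASSIFICATION: every unipotent element of `SL(2,ℤ)` is conjugate to a power of `T`. -/
theorem pi9_unip_exists_conj (u : SL(2, ℤ)) (hu : pi9_IsUnip u) :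
    ∃ (h : SL(2, ℤ)) (m : ℤ), u = h * T ^ m * h⁻¹ := by
  obtain ⟨p, r, hcop, hk1, hk2⟩ := pi9_unip_exists_kernel u hu
  obtain ⟨h, hp, hr⟩ := hcop.exists_SL2_col 0
  have hd := pi9_det_eq h
  rw [hp, hr] at hd
  unfold pi9_IsUnip at hu
  have h11 : u 1 1 = 2 - u 0 0 := by linarith
  refine ⟨h, 2 * (u 0 0 - 1) * h 0 1 * h 1 1 + u 0 1 * h 1 1 ^ 2 - u 1 0 * h 0 1 ^ 2, ?_⟩
  have key : h⁻¹ * u * h
      = T ^ (2 * (u 0 0 - 1) * h 0 1 * h 1 1 + u 0 1 * h 1 1 ^ 2 - u 1 0 * h 0 1 ^ 2) := by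
    apply Subtype.ext
    have e1 : (h⁻¹ * u * h).1 = (h⁻¹).1 * u.1 * h.1 := rfl
    have hM := Matrix.eta_fin_two h.1
    have uM := Matrix.eta_fin_two u.1
    have iM := pi9_inv_coe h
    rw [e1, coe_T_zpow]
    rw [hp, hr] at hM iM
    rw [h11] at uM
    generalize h 0 1 = q at *
    generalize h 1 1 = s at *
    generalize u 0 0 = a at *
    generalize u 0 1 = b at *
    generalize u 1 0 = c at *
    rw [iM, uM, hM, Matrix.mul_fin_two, Matrix.mul_fin_two]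
    congrm !![?_, ?_; ?_, ?_]
    · linear_combination s * hk1 - q * hk2 + hd
    · ring
    · linear_combination (-r) * hk1 + p * hk2
    · linear_combination (-s) * hk1 + q * hk2 + hd
  rw [← key]; group

/-- A positive unipotent is `h * T ^ m * h⁻¹` with `m > 0`. -/
theorem pi9_posUnip_exists_conj (u : SL(2, ℤ)) (hu : pi9_IsPosUnip u) :
    ∃ (h : SL(2, ℤ)) (m : ℤ), 0 < m ∧ u = h * T ^ m * h⁻¹ := by
  obtain ⟨h, m, rfl⟩ := pi9_unip_exists_conj u hu.1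
  exact ⟨h, m, (pi9_conj_T_zpow_pos_iff h m).1 hu, rfl⟩

/-- If `h * T ^ w * h⁻¹ = T ^ w'` with `w ≠ 0` then `h` is upper triangular, `w' = w`, and
`h = ± T ^ i`. -/
theorem pi9_conj_T_eq (h : SL(2, ℤ)) (w w' : ℤ) (hw : w ≠ 0) (hh : h * T ^ w * h⁻¹ = T ^ w') :
    w' = w ∧ ∃ i : ℤ, h = T ^ i ∨ h = - T ^ i := by
  have e10 := pi9_conj_T_zpow_10 h w
  have e01 := pi9_conj_T_zpow_01 h w
  rw [hh] at e10 e01
  have t10 : (T ^ w' : SL(2, ℤ)) 1 0 = 0 := by
    show (T ^ w').1 1 0 = 0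
    rw [coe_T_zpow]; rfl
  have t01 : (T ^ w' : SL(2, ℤ)) 0 1 = w' := by
    show (T ^ w').1 0 1 = w'
    rw [coe_T_zpow]; rfl
  rw [t10] at e10
  rw [t01] at e01
  have hr : h 1 0 = 0 := by
    have : w * h 1 0 ^ 2 = 0 := by linarith
    rcases mul_eq_zero.mp this with h1 | h1
    · exact absurd h1 hw
    · exact pow_eq_zero_iff (two_ne_zero) |>.mp h1
  have hd := pi9_det_eq h
  rw [hr, mul_zero, sub_zero] at hd
  have hps : (h 0 0 = 1 ∧ h 1 1 = 1) ∨ (h 0 0 = -1 ∧ h 1 1 = -1) :=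
    Int.eq_one_or_neg_one_of_mul_eq_one' hd
  have hp2 : h 0 0 ^ 2 = 1 := by
    rcases hps with ⟨h1, _⟩ | ⟨h1, _⟩ <;> rw [h1] <;> norm_num
  refine ⟨by rw [e01, hp2, mul_one], ?_⟩
  have hM := Matrix.eta_fin_two h.1
  rcases hps with ⟨h1, h2⟩ | ⟨h1, h2⟩
  · refine ⟨h 0 1, Or.inl ?_⟩
    apply Subtype.ext
    rw [coe_T_zpow]
    rw [h1, h2, hr] at hM
    exact hM
  · refine ⟨- h 0 1, Or.inr ?_⟩
    apply Subtype.ext
    have e2 : (-(T ^ (-h 0 1)) : SL(2, ℤ)).1 = - (T ^ (-h 0 1) : SL(2, ℤ)).1 := rfl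
    rw [e2, coe_T_zpow]
    rw [h1, h2, hr] at hM
    rw [hM]
    ext i j
    fin_cases i <;> fin_cases j <;> simp

/-! ### Orientation is preserved by conjugation with positive determinant -/

/-- Pure algebra: a nilpotent `N = [[a, b], [c, -a]]` with `b ≥ 0 ≥ c` defines a negative
semidefinite form `c x² + 2 a x y - b y²`. -/
theorem pi9_form_nonpos {a b c : ℤ} (hsq : a ^ 2 + b * c = 0) (hb : 0 ≤ b) (hc : c ≤ 0)
    (x y : ℤ) : c * x ^ 2 + 2 * a * x * y - b * y ^ 2 ≤ 0 := by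
  rcases hc.lt_or_eq with hc' | hc'
  · -- c < 0 : c * expr = (c x + a y)^2 ≥ 0
    have h1 : c * (c * x ^ 2 + 2 * a * x * y - b * y ^ 2) = (c * x + a * y) ^ 2 := by
      linear_combination (-(y ^ 2)) * hsq
    have h2 : 0 ≤ c * (c * x ^ 2 + 2 * a * x * y - b * y ^ 2) := by
      rw [h1]; positivity
    by_contra hcon
    have h3 : c * (c * x ^ 2 + 2 * a * x * y - b * y ^ 2) < 0 :=
      mul_neg_of_neg_of_pos hc' (not_le.mp hcon)
    linarith
  · -- c = 0 : a = 0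
    subst hc'
    have ha : a = 0 := by
      have : a ^ 2 = 0 := by linarith
      exact pow_eq_zero_iff (two_ne_zero) |>.mp this
    subst ha
    have : 0 ≤ b * y ^ 2 := mul_nonneg hb (sq_nonneg y)
    linarith

/-- signs of the off-diagonal entries of a positive unipotent -/
theorem pi9_posUnip_signs (u : SL(2, ℤ)) (hu : pi9_IsPosUnip u) : 0 ≤ u 0 1 ∧ u 1 0 ≤ 0 := by
  have hsq := pi9_unip_sq u hu.1
  have hpos := hu.2
  have hbc : u 0 1 * u 1 0 ≤ 0 := by nlinarith [sq_nonneg (u 0 0 - 1)]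
  constructor
  · by_contra hb
    push Not at hb
    have hc : u 1 0 < 0 := by linarith
    have : 0 < u 0 1 * u 1 0 := mul_pos_of_neg_of_neg hb hc
    linarith
  · by_contra hc
    push Not at hc
    have hb : 0 < u 0 1 := by linarith
    have : 0 < u 0 1 * u 1 0 := mul_pos hb hc
    linarith

/-- ORIENTATION LEMMA.  Let `A` be an integral matrix of positive determinant with
`A * u = u' * A` for `u, u' ∈ SL(2,ℤ)`.  If `u` is a positive unipotent then so is `u'`. -/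
theorem pi9_orient (A : Matrix (Fin 2) (Fin 2) ℤ) (hA : 0 < A.det) (u u' : SL(2, ℤ))
    (hconj : A * u.1 = u'.1 * A) (hu : pi9_IsPosUnip u) : pi9_IsPosUnip u' := by
  obtain ⟨hb, hc⟩ := pi9_posUnip_signs u hu
  have hsq := pi9_unip_sq u hu.1
  have htr : u 0 0 + u 1 1 = 2 := hu.1
  have hpos := hu.2
  rw [Matrix.det_fin_two] at hA
  have e00 := congrFun (congrFun hconj 0) 0
  have e01 := congrFun (congrFun hconj 0) 1
  have e10 := congrFun (congrFun hconj 1) 0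
  have e11 := congrFun (congrFun hconj 1) 1
  simp only [Matrix.mul_apply, Fin.sum_univ_two] at e00 e01 e10 e11
  have hu11 : u 1 1 = 2 - u 0 0 := by linarith
  have hsq' := pi9_det_eq u'
  change u.1 1 1 = 2 - u.1 0 0 at hu11
  change 0 ≤ u.1 0 1 at hb
  change u.1 1 0 ≤ 0 at hc
  change (u.1 0 0 - 1) ^ 2 + u.1 0 1 * u.1 1 0 = 0 at hsq
  change 0 < u.1 0 1 - u.1 1 0 at hpos
  change u'.1 0 0 * u'.1 1 1 - u'.1 0 1 * u'.1 1 0 = 1 at hsq'
  show u'.1 0 0 + u'.1 1 1 = 2 ∧ 0 < u'.1 0 1 - u'.1 1 0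
  rw [hu11] at e01 e11
  generalize A 0 0 = p at *
  generalize A 0 1 = q at *
  generalize A 1 0 = r at *
  generalize A 1 1 = s at *
  generalize u.1 0 0 = a1 at *
  generalize u.1 0 1 = b at *
  generalize u.1 1 0 = c at *
  generalize u'.1 0 0 = a1' at *
  generalize u'.1 0 1 = b' at *
  generalize u'.1 1 0 = c' at *
  generalize u'.1 1 1 = d' at *
  -- trace of u'
  have htr' : (p * s - q * r) * (a1' + d') = (p * s - q * r) * 2 := by
    linear_combination (-s) * e00 + r * e01 + q * e10 - p * e11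
  have htr'' : a1' + d' = 2 := mul_left_cancel₀ hA.ne' htr'
  refine ⟨htr'', ?_⟩
  -- det * c' = Q(s, -r) ≤ 0,  det * b' = - Q(-q, p) ≥ 0
  have hc' : (p * s - q * r) * c' = c * s ^ 2 + 2 * (a1 - 1) * s * r - b * r ^ 2 := by
    linear_combination (-s) * e10 + r * e11
  have hb' : (p * s - q * r) * b' = -(c * q ^ 2 + 2 * (a1 - 1) * q * p - b * p ^ 2) := by
    linear_combination q * e00 - p * e01
  have hsq0 : (a1 - 1) ^ 2 + b * c = 0 := hsq
  have h1 := pi9_form_nonpos hsq0 hb hc s r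
  have h2 := pi9_form_nonpos hsq0 hb hc q p
  have hc'' : c' ≤ 0 := by
    by_contra hcon
    push Not at hcon
    have : 0 < (p * s - q * r) * c' := mul_pos hA hcon
    linarith
  have hb'' : 0 ≤ b' := by
    by_contra hcon
    push Not at hcon
    have : (p * s - q * r) * b' < 0 := mul_neg_of_pos_of_neg hA hcon
    linarith
  -- not both zero
  by_contra hcon
  have hbc0 : b' = 0 ∧ c' = 0 := by
    constructor <;> linarith
  obtain ⟨hb0, hc0⟩ := hbc0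
  subst hb0
  subst hc0
  have hd' : d' = 2 - a1' := by linarith
  subst hd'
  have ha' : a1' = 1 := by nlinarith [sq_nonneg (a1' - 1)]
  subst ha'
  have k1 : (p * s - q * r) * b = 0 := by
    linear_combination s * e01 - q * e11
  have k2 : (p * s - q * r) * c = 0 := by
    linear_combination (-r) * e00 + p * e10
  have hb1 : b = 0 := (mul_eq_zero.mp k1).resolve_left hA.ne'
  have hc1 : c = 0 := (mul_eq_zero.mp k2).resolve_left hA.ne'
  rw [hb1, hc1] at hpos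
  exact lt_irrefl _ hpos

/-- The conjugation relation can be inverted with the adjugate. -/
theorem pi9_conj_adjugate (A : Matrix (Fin 2) (Fin 2) ℤ) (hA : A.det ≠ 0) (u u' : SL(2, ℤ))
    (hconj : A * u.1 = u'.1 * A) : A.adjugate * u'.1 = u.1 * A.adjugate := by
  have h1 : A.det • (A.adjugate * u'.1) = A.det • (u.1 * A.adjugate) := by
    calc A.det • (A.adjugate * u'.1) = A.adjugate * u'.1 * (A.det • (1 : Matrix (Fin 2) (Fin 2) ℤ)) := by
          rw [Matrix.mul_smul, Matrix.mul_one]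
      _ = A.adjugate * u'.1 * (A * A.adjugate) := by rw [Matrix.mul_adjugate]
      _ = A.adjugate * (u'.1 * A) * A.adjugate := by simp only [Matrix.mul_assoc]
      _ = A.adjugate * (A * u.1) * A.adjugate := by rw [hconj]
      _ = (A.adjugate * A) * u.1 * A.adjugate := by simp only [Matrix.mul_assoc]
      _ = (A.det • (1 : Matrix (Fin 2) (Fin 2) ℤ)) * u.1 * A.adjugate := by
          rw [Matrix.adjugate_mul]
      _ = A.det • (u.1 * A.adjugate) := by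
          rw [Matrix.smul_mul, Matrix.one_mul, Matrix.smul_mul]
  ext i j
  have := congrFun (congrFun h1 i) j
  simp only [Matrix.smul_apply, smul_eq_mul] at this
  exact mul_left_cancel₀ hA this

/-- ORIENTATION, both directions. -/
theorem pi9_orient_iff (A : Matrix (Fin 2) (Fin 2) ℤ) (hA : 0 < A.det) (u u' : SL(2, ℤ))
    (hconj : A * u.1 = u'.1 * A) : pi9_IsPosUnip u ↔ pi9_IsPosUnip u' := by
  refine ⟨pi9_orient A hA u u' hconj, ?_⟩
  have hadj : 0 < A.adjugate.det := by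
    rw [Matrix.det_adjugate]
    simpa using hA
  exact pi9_orient A.adjugate hadj u' u (pi9_conj_adjugate A hA.ne' u u' hconj)

end Fermat.Agent.S41x
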