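/-
S41x/ParCusps.lean (helper99).

THE MODEL CUSP SYSTEM (duality item C of S41, row C6 [SYS]).

`E` a finite `SL(2,ℤ)`-set on which `-1` acts trivially, `x₀ : E`, `Γ := stabilizer x₀`.
Orbit data in the shape of `dint_bridge` (helper46): `xc : ι → E` representatives of the orbits of
`σ = dint_sig E : y ↦ T⁻¹ • y` (`hrep`), `gc i • x₀ = xc i`.  Then the loops
`pi9_tc i = (gc i)⁻¹ * T ^ (minimalPeriod σ (xc i)) * gc i ∈ Γ`
form a *cusp system* (`pi9_CuspSys`, ParIntr.lean) for the set `pi9_Ppos Γ` of positive primitive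
unipotent elements of `Γ`: every such element is `Γ`-conjugate to exactly one `pi9_tc i`
(`pi9_modelCuspSys`).

Consequences: any two cusp systems are related by a bijection + conjugators
(`pi9_CuspSys.exists_equiv`), and if `θ : Γ₁ ≃* Γ₂` is induced by an integral matrix `A` of positive
determinant (`A * γ = θ γ * A`), then `θ` carries the model system of `Γ₁` to conjugates of the
model system of `Γ₂` (`pi9_exists_conj_data`) - exactly the hypothesis of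
`dint_sum_pull` / `dint_invariance`.
-/
import Fermat.Agent.S41x.ParIntr
import Fermat.Agent.S41x.ParOrient
import Fermat.Agent.S41x.DualIntrB

set_option autoImplicit false

open Matrix ModularGroup
open scoped MatrixGroups

namespace Fermat.Agent.S41x

/-! ### Any two cusp systems are conjugate -/

/-- Two cusp systems for the same set are related by a bijection and conjugators. -/
theorem pi9_CuspSys.exists_equiv {Γ : Type*} [Group Γ] {P : Set Γ} {C C' : Type*}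
    (A : pi9_CuspSys P C) (B : pi9_CuspSys P C') :
    ∃ (e : C ≃ C') (x : C → Γ), ∀ c, A.t c = x c * B.t (e c) * (x c)⁻¹ := by
  classical
  have hex : ∀ c, ∃ c', ∃ x : Γ, A.t c = x * B.t c' * x⁻¹ := fun c => B.surj _ (A.mem c)
  choose σ x hx using hex
  have hinj : Function.Injective σ := by
    intro c₁ c₂ h12
    apply A.inj c₁ c₂ (x c₂ * (x c₁)⁻¹)
    have e1 : B.t (σ c₁) = (x c₁)⁻¹ * A.t c₁ * x c₁ := by
      rw [hx c₁]; group
    rw [hx c₂, ← h12, e1]; group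
  have hsurj : Function.Surjective σ := by
    intro c'
    obtain ⟨c, y, hy⟩ := A.surj _ (B.mem c')
    refine ⟨c, ?_⟩
    apply B.inj (σ c) c' (y * x c)
    rw [hy, hx c]; group
  exact ⟨Equiv.ofBijective σ ⟨hinj, hsurj⟩, x, fun c => hx c⟩

theorem pi9_conj_pow' {G : Type*} [Group G] (a b : G) (n : ℕ) :
    (a⁻¹ * b * a) ^ n = a⁻¹ * b ^ n * a := by
  have := conj_pow (a := a⁻¹) (b := b) (i := n)
  rwa [inv_inv] at this

/-! ### Positive primitive unipotent elements of a subgroup -/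

/-- Positive primitive unipotent elements of a subgroup of `SL(2,ℤ)`: positive unipotents which
are not a proper power of a positive unipotent of the subgroup. -/
def pi9_Ppos (Γ : Subgroup SL(2, ℤ)) : Set Γ :=
  {u | pi9_IsPosUnip (u : SL(2, ℤ)) ∧
    ∀ v : Γ, pi9_IsPosUnip (v : SL(2, ℤ)) → ∀ m : ℕ, v ^ m = u → m = 1}

/-- A group isomorphism between subgroups of `SL(2,ℤ)` induced by an integral matrix of positive
determinant preserves positive primitive unipotents. -/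
theorem pi9_mem_Ppos_iff {Γ₁ Γ₂ : Subgroup SL(2, ℤ)} (θ : Γ₁ ≃* Γ₂)
    (A : Matrix (Fin 2) (Fin 2) ℤ) (hA : 0 < A.det)
    (hθ : ∀ γ : Γ₁, A * (γ : SL(2, ℤ)).1 = ((θ γ : Γ₂) : SL(2, ℤ)).1 * A) (u : Γ₁) :
    u ∈ pi9_Ppos Γ₁ ↔ θ u ∈ pi9_Ppos Γ₂ := by
  constructor
  · rintro ⟨h1, h2⟩
    refine ⟨(pi9_orient_iff A hA _ _ (hθ u)).1 h1, ?_⟩
    intro v hv m hm
    have hv' : pi9_IsPosUnip ((θ.symm v : Γ₁) : SL(2, ℤ)) := by
      have := hθ (θ.symm v)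
      rw [MulEquiv.apply_symm_apply] at this
      exact (pi9_orient_iff A hA _ _ this).2 hv
    apply h2 (θ.symm v) hv' m
    apply θ.injective
    rw [map_pow, MulEquiv.apply_symm_apply, hm]
  · rintro ⟨h1, h2⟩
    refine ⟨(pi9_orient_iff A hA _ _ (hθ u)).2 h1, ?_⟩
    intro v hv m hm
    have hv' : pi9_IsPosUnip ((θ v : Γ₂) : SL(2, ℤ)) :=
      (pi9_orient_iff A hA _ _ (hθ v)).1 hv
    apply h2 (θ v) hv' m
    rw [← map_pow, hm]

/-! ### The permutation `σ = T⁻¹ •` -/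

section sigma

variable {E : Type*} [MulAction SL(2, ℤ) E]

theorem pi9_sig_injective : Function.Injective (dint_sig E) := by
  intro a b h
  unfold dint_sig at h
  exact MulAction.injective _ h

theorem pi9_sig_iter (k : ℕ) (y : E) :
    (dint_sig E)^[k] y = ((T : SL(2, ℤ)) ^ k)⁻¹ • y :=
  (dint_pow_inv_smul k y).symm

theorem pi9_T_pow_smul_iff (k : ℕ) (y : E) :
    ((T : SL(2, ℤ)) ^ k) • y = y ↔ (dint_sig E)^[k] y = y := by
  rw [pi9_sig_iter]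
  constructor
  · intro h
    conv_lhs => rw [← h]
    rw [inv_smul_smul]
  · intro h
    conv_lhs => rw [← h]
    rw [smul_inv_smul]

theorem pi9_T_zpow_smul_of_pow {N : ℕ} {y : E} (hN : ((T : SL(2, ℤ)) ^ N) • y = y) (j : ℤ) :
    ((T : SL(2, ℤ)) ^ ((N : ℤ) * j)) • y = y := by
  have h1 : ((T : SL(2, ℤ)) ^ N) ∈ MulAction.stabilizer SL(2, ℤ) y := hN
  have h2 := Subgroup.zpow_mem _ h1 j
  rw [← zpow_natCast, ← _root_.zpow_mul] at h2
  exact h2

/-- On a finite set, every point of the two-sided `T`-orbit is a forward `σ`-iterate. -/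
theorem pi9_exists_iter_eq_zpow_smul [Finite E] (i : ℤ) (y : E) :
    ∃ k : ℕ, (dint_sig E)^[k] y = ((T : SL(2, ℤ)) ^ i) • y := by
  have hper : y ∈ Function.periodicPts (dint_sig E) :=
    (pi9_sig_injective (E := E)).mem_periodicPts y
  set N := Function.minimalPeriod (dint_sig E) y with hNdef
  have hNpos : 0 < N := Function.minimalPeriod_pos_of_mem_periodicPts hper
  have hN : ((T : SL(2, ℤ)) ^ N) • y = y :=
    (pi9_T_pow_smul_iff N y).2 (Function.isPeriodicPt_minimalPeriod _ _)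
  -- k = (-i) mod N
  have hN0 : (N : ℤ) ≠ 0 := by exact_mod_cast hNpos.ne'
  have hk0 : 0 ≤ (-i) % (N : ℤ) := Int.emod_nonneg _ hN0
  refine ⟨((-i) % (N : ℤ)).toNat, ?_⟩
  rw [pi9_sig_iter, ← zpow_natCast, Int.toNat_of_nonneg hk0, ← _root_.zpow_neg]
  -- T^(-( (-i) % N)) y = T^i y  since  i + ((-i) % N) = - N * ((-i)/N)
  have e1 : -((-i) % (N : ℤ)) = i + (N : ℤ) * ((-i) / (N : ℤ)) := by
    have := Int.emod_add_mul_ediv (-i) (N : ℤ)
    linarith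
  rw [e1, _root_.zpow_add, mul_smul, pi9_T_zpow_smul_of_pow hN]

end sigma

/-! ### The model loops -/

section model

variable {E : Type*} [MulAction SL(2, ℤ) E]

theorem pi9_tc_mem (x₀ : E) {ι : Type*} (xc : ι → E) (gc : ι → SL(2, ℤ))
    (hgc : ∀ i, gc i • x₀ = xc i) (i : ι) :
    (gc i)⁻¹ * T ^ (Function.minimalPeriod (dint_sig E) (xc i)) * gc i
      ∈ MulAction.stabilizer SL(2, ℤ) x₀ := by
  rw [MulAction.mem_stabilizer_iff, mul_smul, mul_smul, hgc,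
    (pi9_T_pow_smul_iff _ _).2 (Function.isPeriodicPt_minimalPeriod _ _), ← hgc i, inv_smul_smul]

/-- The model cusp generator `g⁻¹ T^e g` attached to the orbit representative `xc i`. -/
noncomputable def pi9_tc (x₀ : E) {ι : Type*} (xc : ι → E) (gc : ι → SL(2, ℤ))
    (hgc : ∀ i, gc i • x₀ = xc i) (i : ι) : MulAction.stabilizer SL(2, ℤ) x₀ :=
  ⟨(gc i)⁻¹ * T ^ (Function.minimalPeriod (dint_sig E) (xc i)) * gc i,
    pi9_tc_mem x₀ xc gc hgc i⟩

theorem pi9_tc_coe (x₀ : E) {ι : Type*} (xc : ι → E) (gc : ι → SL(2, ℤ))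
    (hgc : ∀ i, gc i • x₀ = xc i) (i : ι) :
    ((pi9_tc x₀ xc gc hgc i : MulAction.stabilizer SL(2, ℤ) x₀) : SL(2, ℤ))
      = (gc i)⁻¹ * T ^ (Function.minimalPeriod (dint_sig E) (xc i)) * gc i := rfl

end model

/-! ### Small facts on powers of `T` -/

theorem pi9_T_zpow_01 (j : ℤ) : ((T : SL(2, ℤ)) ^ j) 0 1 = j := by
  show ((T : SL(2, ℤ)) ^ j).1 0 1 = j
  rw [coe_T_zpow]; rfl

theorem pi9_T_zpow_10 (j : ℤ) : ((T : SL(2, ℤ)) ^ j) 1 0 = 0 := by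
  show ((T : SL(2, ℤ)) ^ j).1 1 0 = 0
  rw [coe_T_zpow]; rfl

theorem pi9_T_zpow_00 (j : ℤ) : ((T : SL(2, ℤ)) ^ j) 0 0 = 1 := by
  show ((T : SL(2, ℤ)) ^ j).1 0 0 = 1
  rw [coe_T_zpow]; rfl

theorem pi9_T_zpow_11 (j : ℤ) : ((T : SL(2, ℤ)) ^ j) 1 1 = 1 := by
  show ((T : SL(2, ℤ)) ^ j).1 1 1 = 1
  rw [coe_T_zpow]; rfl

theorem pi9_T_zpow_inj {a b : ℤ} (h : (T : SL(2, ℤ)) ^ a = T ^ b) : a = b := by
  have := congrArg (fun g : SL(2, ℤ) => g 0 1) h
  simpa [pi9_T_zpow_01] using this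

theorem pi9_posUnip_T_zpow_iff (j : ℤ) : pi9_IsPosUnip ((T : SL(2, ℤ)) ^ j) ↔ 0 < j := by
  unfold pi9_IsPosUnip
  rw [pi9_T_zpow_00, pi9_T_zpow_11, pi9_T_zpow_01, pi9_T_zpow_10]
  constructor
  · rintro ⟨_, h⟩; simpa using h
  · intro h; exact ⟨by norm_num, by simpa using h⟩

theorem pi9_not_posUnip_neg_T_zpow (j : ℤ) : ¬ pi9_IsPosUnip (-((T : SL(2, ℤ)) ^ j)) := by
  unfold pi9_IsPosUnip
  rintro ⟨h, _⟩
  have e0 : (-((T : SL(2, ℤ)) ^ j)) 0 0 = -1 := by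
    show (-((T : SL(2, ℤ)) ^ j)).1 0 0 = -1
    have : (-((T : SL(2, ℤ)) ^ j)).1 = -((T : SL(2, ℤ)) ^ j).1 := rfl
    rw [this, coe_T_zpow]; rfl
  have e1 : (-((T : SL(2, ℤ)) ^ j)) 1 1 = -1 := by
    show (-((T : SL(2, ℤ)) ^ j)).1 1 1 = -1
    have : (-((T : SL(2, ℤ)) ^ j)).1 = -((T : SL(2, ℤ)) ^ j).1 := rfl
    rw [this, coe_T_zpow]; rfl
  rw [e0, e1] at h
  norm_num at h

/-- Positive unipotents are stable under conjugation in `SL(2,ℤ)`. -/
theorem pi9_posUnip_conj (g u : SL(2, ℤ)) (hu : pi9_IsPosUnip u) :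
    pi9_IsPosUnip (g * u * g⁻¹) := by
  apply pi9_orient g.1 (by rw [g.2]; norm_num) u (g * u * g⁻¹) _ hu
  have : (g * u * g⁻¹ * g : SL(2, ℤ)).1 = (g * u * g⁻¹ : SL(2, ℤ)).1 * g.1 := rfl
  rw [← this]
  have e : g * u * g⁻¹ * g = g * u := by group
  rw [e]
  rfl

theorem pi9_posUnip_conj' (g u : SL(2, ℤ)) (hu : pi9_IsPosUnip u) :
    pi9_IsPosUnip (g⁻¹ * u * g) := by
  have := pi9_posUnip_conj g⁻¹ u hu
  rwa [inv_inv] at this

/-! ### The model cusp system -/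

section system

variable {E : Type*} [MulAction SL(2, ℤ) E] [Finite E]

theorem pi9_minimalPeriod_pos (y : E) : 0 < Function.minimalPeriod (dint_sig E) y :=
  Function.minimalPeriod_pos_of_mem_periodicPts ((pi9_sig_injective (E := E)).mem_periodicPts y)

/-- The model loops are positive unipotents. -/
theorem pi9_tc_posUnip (x₀ : E) {ι : Type*} (xc : ι → E) (gc : ι → SL(2, ℤ))
    (hgc : ∀ i, gc i • x₀ = xc i) (i : ι) :
    pi9_IsPosUnip ((pi9_tc x₀ xc gc hgc i : MulAction.stabilizer SL(2, ℤ) x₀) : SL(2, ℤ)) := by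
  rw [pi9_tc_coe]
  apply pi9_posUnip_conj'
  rw [← zpow_natCast, pi9_posUnip_T_zpow_iff]
  exact_mod_cast pi9_minimalPeriod_pos (xc i)

/-- The model loops are primitive. -/
theorem pi9_tc_prim (x₀ : E) {ι : Type*}
    (xc : ι → E) (gc : ι → SL(2, ℤ)) (hgc : ∀ i, gc i • x₀ = xc i) (i : ι)
    (v : MulAction.stabilizer SL(2, ℤ) x₀) (hv : pi9_IsPosUnip (v : SL(2, ℤ))) (m : ℕ)
    (hm : v ^ m = pi9_tc x₀ xc gc hgc i) : m = 1 := by
  set e := Function.minimalPeriod (dint_sig E) (xc i) with he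
  have hepos : 0 < e := pi9_minimalPeriod_pos (xc i)
  set g := gc i with hg
  have hvm : (v : SL(2, ℤ)) ^ m = g⁻¹ * T ^ e * g := by
    have := congrArg (fun w : MulAction.stabilizer SL(2, ℤ) x₀ => (w : SL(2, ℤ))) hm
    simpa [pi9_tc_coe] using this
  set h := g * (v : SL(2, ℤ)) * g⁻¹ with hh
  have hTe : (T : SL(2, ℤ)) ^ e = g * (v : SL(2, ℤ)) ^ m * g⁻¹ := by
    rw [hvm]; group
  have hconj : h * T ^ (e : ℤ) * h⁻¹ = T ^ (e : ℤ) := by
    rw [zpow_natCast, hTe, hh]; group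
  have he0 : (e : ℤ) ≠ 0 := by exact_mod_cast hepos.ne'
  obtain ⟨_, j, hj⟩ := pi9_conj_T_eq h (e : ℤ) (e : ℤ) he0 hconj
  have hpos : pi9_IsPosUnip h := pi9_posUnip_conj g _ hv
  rcases hj with hj | hj
  · -- h = T^j
    rw [hj, pi9_posUnip_T_zpow_iff] at hpos
    -- h^m = T^e
    have hpow : h ^ m = T ^ (e : ℤ) := by
      rw [zpow_natCast, hTe, hh, conj_pow]
    rw [hj, ← zpow_natCast, ← _root_.zpow_mul] at hpow
    have hjm : j * (m : ℤ) = (e : ℤ) := pi9_T_zpow_inj hpow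
    -- T^j fixes xc i
    have hfix : h • xc i = xc i := by
      rw [hh, mul_smul, mul_smul, ← hgc i, inv_smul_smul]
      have hvx : (v : SL(2, ℤ)) • x₀ = x₀ := v.2
      rw [hvx]
    rw [hj] at hfix
    have hjn : ((j.toNat : ℕ) : ℤ) = j := Int.toNat_of_nonneg hpos.le
    rw [← hjn, zpow_natCast, pi9_T_pow_smul_iff] at hfix
    have hjpos : 0 < j.toNat := by
      have : (0 : ℤ) < (j.toNat : ℤ) := by rw [hjn]; exact hpos
      exact_mod_cast this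
    have hle : e ≤ j.toNat := Function.IsPeriodicPt.minimalPeriod_le hjpos hfix
    have hle' : (e : ℤ) ≤ j := by rw [← hjn]; exact_mod_cast hle
    -- j * m = e ≤ j, j > 0, so m ≤ 1; m ≠ 0
    have hm0 : m ≠ 0 := by
      rintro rfl
      simp at hjm
      exact he0 hjm.symm
    have hm1 : (m : ℤ) ≤ 1 := by
      by_contra hcon
      push Not at hcon
      have : j * 2 ≤ j * (m : ℤ) := by
        apply mul_le_mul_of_nonneg_left _ hpos.le
        linarith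
      linarith
    have : (m : ℤ) = 1 := by
      have : (1 : ℤ) ≤ m := by exact_mod_cast Nat.one_le_iff_ne_zero.mpr hm0
      linarith
    exact_mod_cast this
  · rw [hj] at hpos
    exact absurd hpos (pi9_not_posUnip_neg_T_zpow j)

/-- The model loops lie in `pi9_Ppos`. -/
theorem pi9_tc_mem_Ppos (x₀ : E) {ι : Type*} (xc : ι → E) (gc : ι → SL(2, ℤ))
    (hgc : ∀ i, gc i • x₀ = xc i) (i : ι) :
    pi9_tc x₀ xc gc hgc i ∈ pi9_Ppos (MulAction.stabilizer SL(2, ℤ) x₀) :=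
  ⟨pi9_tc_posUnip x₀ xc gc hgc i, fun v hv m hm => pi9_tc_prim x₀ xc gc hgc i v hv m hm⟩

/-- Every positive primitive unipotent of the stabilizer is conjugate to a model loop. -/
theorem pi9_tc_surj (x₀ : E) {ι : Type*} (xc : ι → E)
    (hrep : ∀ y : E, ∃! i : ι, ∃ k : ℕ, (dint_sig E)^[k] (xc i) = y)
    (gc : ι → SL(2, ℤ)) (hgc : ∀ i, gc i • x₀ = xc i)
    (u : MulAction.stabilizer SL(2, ℤ) x₀)
    (hu : u ∈ pi9_Ppos (MulAction.stabilizer SL(2, ℤ) x₀)) :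
    ∃ i, ∃ x : MulAction.stabilizer SL(2, ℤ) x₀,
      u = x * pi9_tc x₀ xc gc hgc i * x⁻¹ := by
  obtain ⟨h, m, hmpos, hueq⟩ := pi9_posUnip_exists_conj (u : SL(2, ℤ)) hu.1
  have hux : (u : SL(2, ℤ)) • x₀ = x₀ := u.2
  -- y = h⁻¹ x₀ is fixed by T^m
  have hy : ((T : SL(2, ℤ)) ^ m) • (h⁻¹ • x₀) = h⁻¹ • x₀ := by
    have : (h * T ^ m * h⁻¹) • x₀ = x₀ := by rw [← hueq]; exact hux
    rw [mul_smul, mul_smul] at this
    have h2 := congrArg (fun z => h⁻¹ • z) this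
    simpa using h2
  obtain ⟨i, ⟨k, hk⟩, _⟩ := hrep (h⁻¹ • x₀)
  rw [pi9_sig_iter] at hk
  -- xc i = T^k • y
  have hxc : xc i = ((T : SL(2, ℤ)) ^ k) • (h⁻¹ • x₀) := by
    rw [← hk, smul_inv_smul]
  set g := gc i with hg
  have hgx : g⁻¹ • xc i = x₀ := by rw [← hgc i, inv_smul_smul]
  -- γ = g⁻¹ T^k h⁻¹ fixes x₀
  have hγ : (g⁻¹ * T ^ k * h⁻¹) • x₀ = x₀ := by
    rw [mul_smul, mul_smul, ← hxc, hgx]
  let γ : MulAction.stabilizer SL(2, ℤ) x₀ := ⟨g⁻¹ * T ^ k * h⁻¹, hγ⟩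
  -- the period divides m
  have hMn : ((m.toNat : ℕ) : ℤ) = m := Int.toNat_of_nonneg hmpos.le
  have hfix : ((T : SL(2, ℤ)) ^ m.toNat) • xc i = xc i := by
    rw [hxc, ← zpow_natCast, hMn, ← zpow_natCast, ← mul_smul, ← _root_.zpow_add, add_comm,
      _root_.zpow_add, mul_smul, hy]
  rw [pi9_T_pow_smul_iff] at hfix
  obtain ⟨m', hm'⟩ := Function.IsPeriodicPt.minimalPeriod_dvd hfix
  set e := Function.minimalPeriod (dint_sig E) (xc i) with he
  -- u = γ⁻¹ t^m' γ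
  have hcoe : (u : SL(2, ℤ)) = (γ : SL(2, ℤ))⁻¹ * (g⁻¹ * T ^ e * g) ^ m' * (γ : SL(2, ℤ)) := by
    rw [pi9_conj_pow', ← pow_mul, ← hm', hueq]
    show h * T ^ m * h⁻¹ = (g⁻¹ * T ^ k * h⁻¹)⁻¹ * (g⁻¹ * T ^ m.toNat * g) * (g⁻¹ * T ^ k * h⁻¹)
    rw [← zpow_natCast T m.toNat, hMn, ← zpow_natCast T k]
    group
  -- in the stabilizer
  set t := pi9_tc x₀ xc gc hgc i with ht
  have hu' : u = (γ⁻¹ * t * (γ⁻¹)⁻¹) ^ m' := by
    rw [conj_pow]
    apply Subtype.ext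
    rw [hcoe]
    simp only [Subgroup.coe_mul, Subgroup.coe_inv, Subgroup.coe_pow, inv_inv]
    rfl
  have hvpos : pi9_IsPosUnip ((γ⁻¹ * t * (γ⁻¹)⁻¹ : MulAction.stabilizer SL(2, ℤ) x₀) : SL(2, ℤ)) := by
    have := pi9_posUnip_conj ((γ⁻¹ : MulAction.stabilizer SL(2, ℤ) x₀) : SL(2, ℤ)) _
      (pi9_tc_posUnip x₀ xc gc hgc i)
    simpa only [Subgroup.coe_mul, Subgroup.coe_inv] using this
  have hm1 : m' = 1 := hu.2 _ hvpos m' hu'.symm
  rw [hm1, pow_one] at hu'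
  exact ⟨i, γ⁻¹, hu'⟩

/-- Distinct model loops are not conjugate. -/
theorem pi9_tc_inj (hneg : ∀ y : E, (-1 : SL(2, ℤ)) • y = y) (x₀ : E) {ι : Type*} (xc : ι → E)
    (hrep : ∀ y : E, ∃! i : ι, ∃ k : ℕ, (dint_sig E)^[k] (xc i) = y)
    (gc : ι → SL(2, ℤ)) (hgc : ∀ i, gc i • x₀ = xc i) (c c' : ι)
    (x : MulAction.stabilizer SL(2, ℤ) x₀)
    (hx : pi9_tc x₀ xc gc hgc c' = x * pi9_tc x₀ xc gc hgc c * x⁻¹) : c = c' := by
  have hcoe := congrArg (fun w : MulAction.stabilizer SL(2, ℤ) x₀ => (w : SL(2, ℤ))) hx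
  simp only [Subgroup.coe_mul, Subgroup.coe_inv, pi9_tc_coe] at hcoe
  set e := Function.minimalPeriod (dint_sig E) (xc c) with he
  set e' := Function.minimalPeriod (dint_sig E) (xc c') with he'
  have hepos : 0 < e := pi9_minimalPeriod_pos (xc c)
  have he0 : (e : ℤ) ≠ 0 := by exact_mod_cast hepos.ne'
  set h := gc c' * (x : SL(2, ℤ)) * (gc c)⁻¹ with hh
  have hconj : h * T ^ (e : ℤ) * h⁻¹ = T ^ (e' : ℤ) := by
    have e1 : (T : SL(2, ℤ)) ^ e' = gc c' * ((gc c')⁻¹ * T ^ e' * gc c') * (gc c')⁻¹ := by group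
    rw [zpow_natCast, zpow_natCast, e1, hcoe, hh]; group
  obtain ⟨_, j, hj⟩ := pi9_conj_T_eq h (e : ℤ) (e' : ℤ) he0 hconj
  have hxx : (x : SL(2, ℤ)) • x₀ = x₀ := x.2
  have hact : h • xc c = xc c' := by
    rw [hh, mul_smul, mul_smul, ← hgc c, inv_smul_smul, hxx, hgc c']
  have hact' : ((T : SL(2, ℤ)) ^ j) • xc c = xc c' := by
    rcases hj with hj | hj
    · rw [← hj]; exact hact
    · rw [hj, ← neg_one_mul, mul_smul, hneg] at hact
      exact hact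
  obtain ⟨k, hk⟩ := pi9_exists_iter_eq_zpow_smul (E := E) j (xc c)
  rw [hact'] at hk
  obtain ⟨i₀, _, huniq⟩ := hrep (xc c')
  have h1 := huniq c ⟨k, hk⟩
  have h2 := huniq c' ⟨0, rfl⟩
  rw [h1, h2]

/-- **The model cusp system.** -/
noncomputable def pi9_modelCuspSys (hneg : ∀ y : E, (-1 : SL(2, ℤ)) • y = y) (x₀ : E)
    {ι : Type*} (xc : ι → E)
    (hrep : ∀ y : E, ∃! i : ι, ∃ k : ℕ, (dint_sig E)^[k] (xc i) = y)
    (gc : ι → SL(2, ℤ)) (hgc : ∀ i, gc i • x₀ = xc i) :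
    pi9_CuspSys (pi9_Ppos (MulAction.stabilizer SL(2, ℤ) x₀)) ι where
  t := pi9_tc x₀ xc gc hgc
  mem := pi9_tc_mem_Ppos x₀ xc gc hgc
  surj := pi9_tc_surj x₀ xc hrep gc hgc
  inj := pi9_tc_inj hneg x₀ xc hrep gc hgc

theorem pi9_modelCuspSys_t (hneg : ∀ y : E, (-1 : SL(2, ℤ)) • y = y) (x₀ : E)
    {ι : Type*} (xc : ι → E)
    (hrep : ∀ y : E, ∃! i : ι, ∃ k : ℕ, (dint_sig E)^[k] (xc i) = y)
    (gc : ι → SL(2, ℤ)) (hgc : ∀ i, gc i • x₀ = xc i) (i : ι) :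
    (pi9_modelCuspSys hneg x₀ xc hrep gc hgc).t i = pi9_tc x₀ xc gc hgc i := rfl

end system

/-! ### Transport along an isomorphism induced by a matrix of positive determinant -/

/-- **Conjugation data.**  Let `θ : Stab x₁ ≃* Stab x₂` be induced by an integral matrix `A` of
positive determinant (`A * γ = θ γ * A`).  Then `θ` carries the model cusp system of `Stab x₁` to
conjugates of the model cusp system of `Stab x₂`, up to a bijection of the index sets.  This is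
exactly the hypothesis `(e, x, hconj)` of `dint_sum_pull` / `dint_invariance`. -/
theorem pi9_exists_conj_data {E₁ E₂ : Type*} [MulAction SL(2, ℤ) E₁] [Finite E₁]
    [MulAction SL(2, ℤ) E₂] [Finite E₂]
    (hneg₁ : ∀ y : E₁, (-1 : SL(2, ℤ)) • y = y) (hneg₂ : ∀ y : E₂, (-1 : SL(2, ℤ)) • y = y)
    (x₁ : E₁) (x₂ : E₂) {ι₁ ι₂ : Type*}
    (xc₁ : ι₁ → E₁) (hrep₁ : ∀ y : E₁, ∃! i : ι₁, ∃ k : ℕ, (dint_sig E₁)^[k] (xc₁ i) = y)
    (gc₁ : ι₁ → SL(2, ℤ)) (hgc₁ : ∀ i, gc₁ i • x₁ = xc₁ i)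
    (xc₂ : ι₂ → E₂) (hrep₂ : ∀ y : E₂, ∃! i : ι₂, ∃ k : ℕ, (dint_sig E₂)^[k] (xc₂ i) = y)
    (gc₂ : ι₂ → SL(2, ℤ)) (hgc₂ : ∀ i, gc₂ i • x₂ = xc₂ i)
    (θ : MulAction.stabilizer SL(2, ℤ) x₁ ≃* MulAction.stabilizer SL(2, ℤ) x₂)
    (A : Matrix (Fin 2) (Fin 2) ℤ) (hA : 0 < A.det)
    (hθ : ∀ γ : MulAction.stabilizer SL(2, ℤ) x₁,
      A * (γ : SL(2, ℤ)).1 = ((θ γ : MulAction.stabilizer SL(2, ℤ) x₂) : SL(2, ℤ)).1 * A) :
    ∃ (e : ι₁ ≃ ι₂) (x : ι₁ → MulAction.stabilizer SL(2, ℤ) x₂),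
      ∀ i, θ (pi9_tc x₁ xc₁ gc₁ hgc₁ i)
        = x i * pi9_tc x₂ xc₂ gc₂ hgc₂ (e i) * (x i)⁻¹ :=
  ((pi9_modelCuspSys hneg₁ x₁ xc₁ hrep₁ gc₁ hgc₁).map θ
    (pi9_mem_Ppos_iff θ A hA hθ)).exists_equiv (pi9_modelCuspSys hneg₂ x₂ xc₂ hrep₂ gc₂ hgc₂)

/-! ### Existence of orbit data -/

section existence

universe u

variable {E : Type u} [MulAction SL(2, ℤ) E] [Finite E]

/-- the orbit relation of `σ = T⁻¹ •` (forward iterates; symmetric because `E` is finite) -/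
def pi9_orbSetoid (E : Type u) [MulAction SL(2, ℤ) E] [Finite E] : Setoid E where
  r y y' := ∃ k : ℕ, (dint_sig E)^[k] y = y'
  iseqv :=
    { refl := fun y => ⟨0, rfl⟩
      symm := by
        rintro y y' ⟨k, hk⟩
        obtain ⟨k', hk'⟩ := pi9_exists_iter_eq_zpow_smul (E := E) (k : ℤ) y'
        refine ⟨k', ?_⟩
        rw [hk', ← hk, pi9_sig_iter, zpow_natCast, smul_inv_smul]
      trans := by
        rintro y y' y'' ⟨k, hk⟩ ⟨k', hk'⟩
        exact ⟨k' + k, by rw [Function.iterate_add_apply, hk, hk']⟩ }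

/-- Orbit data in the shape required by `dint_bridge` exist. -/
theorem pi9_exists_orbit_data [MulAction.IsPretransitive SL(2, ℤ) E] (x₀ : E) :
    ∃ (ι : Type u) (_ : Fintype ι) (xc : ι → E) (gc : ι → SL(2, ℤ)),
      (∀ y : E, ∃! i : ι, ∃ k : ℕ, (dint_sig E)^[k] (xc i) = y) ∧ ∀ i, gc i • x₀ = xc i := by
  classical
  let s := pi9_orbSetoid E
  have : Finite (Quotient s) := Quotient.finite s
  let xc : Quotient s → E := fun q => q.out
  have hgc : ∀ q : Quotient s, ∃ g : SL(2, ℤ), g • x₀ = xc q :=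
    fun q => MulAction.exists_smul_eq SL(2, ℤ) x₀ (xc q)
  choose gc hgc' using hgc
  refine ⟨Quotient s, Fintype.ofFinite _, xc, gc, ?_, hgc'⟩
  intro y
  refine ⟨Quotient.mk s y, ?_, ?_⟩
  · have : s.r (Quotient.mk s y).out y := Quotient.exact (Quotient.out_eq _)
    exact this
  · rintro q ⟨k, hk⟩
    have h1 : s.r (xc q) y := ⟨k, hk⟩
    have h2 : Quotient.mk s (xc q) = Quotient.mk s y := Quotient.sound h1
    rw [← h2]
    exact (Quotient.out_eq q).symm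

end existence

end Fermat.Agent.S41x
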