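/-
S41 project, block C (duality), row C-ISO (helper50): the Poincaré pairing `dds_form` on
`parabolicHoms R Γ R` is INVARIANT under isomorphisms `θ : Γ₁ ≃* Γ₂` induced by conjugation with an
integral matrix `α` of positive determinant (`θ γ * α = α * γ`).

Ingredients (all on main):
* `ddg_exists_coc`, `ddg_form_eq_b` (helper52): parabolic homs come from normalised cocycles and
  `dds_form` is `dm_b` on them;
* `dint_exists_tw_three'` (helper46): existence of `3`-twisted primitives; `dint_prim_of_tw`,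
  `dint_bridge`: their restriction to `Γ` is a primitive of `3 • φ ∪ ψ` with cusp sum `3 * dm_b`;
* `dtop_balanced` (DualTop1): every hom has cusp sum `0`, so the cusp sum is independent of the
  primitive (`dint_invariance`);
* `pi9_exists_orbit_data`, `pi9_exists_conj_data` (helper99): model cusp systems exist and `θ`
  carries the one of `Γ₁` to conjugates of the one of `Γ₂`.

Main results:
* `dtop_model_dds` : for `φ ψ ∈ parabolicHoms R Γ R` there is a primitive `h` of `3 • φ ∪ ψ` on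
  `Stab(x₀) = Γ` whose model cusp sum is `3 * dds_form φ ψ`.
* `dtop_iso` : `dds_form h₁ (φ ∘ θ) (ψ ∘ θ) = dds_form h₂ φ ψ`.
-/
import Fermat.Agent.S41x.DualDictGlue
import Fermat.Agent.S41x.DualIntrG
import Fermat.Agent.S41x.ParCusps
import Fermat.Agent.S41x.DualTop1

set_option autoImplicit false

open ModularGroup ModularCurve.Period
open scoped MatrixGroups

namespace Fermat.Agent.S41x

section Stab

variable (Γ : Subgroup SL(2, ℤ))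

theorem dtop_stab_eq : MulAction.stabilizer SL(2, ℤ) (dds_x0 Γ) = Γ := by
  ext g
  rw [MulAction.mem_stabilizer_iff]
  exact (dds_mem_iff Γ g).symm

/-- the stabiliser of the base coset is `Γ` -/
def dtop_stabEquiv : MulAction.stabilizer SL(2, ℤ) (dds_x0 Γ) ≃* Γ :=
  MulEquiv.subgroupCongr (dtop_stab_eq Γ)

theorem dtop_stabEquiv_coe (γ : MulAction.stabilizer SL(2, ℤ) (dds_x0 Γ)) :
    ((dtop_stabEquiv Γ γ : Γ) : SL(2, ℤ)) = (γ : SL(2, ℤ)) := rfl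

theorem dtop_stabEquiv_symm_coe (γ : Γ) :
    (((dtop_stabEquiv Γ).symm γ : MulAction.stabilizer SL(2, ℤ) (dds_x0 Γ)) : SL(2, ℤ))
      = (γ : SL(2, ℤ)) := rfl

/-- transport of homomorphisms on `Γ` to the stabiliser -/
def dtop_toStab {R : Type*} [AddCommGroup R] (φ : Additive Γ →+ R) :
    Additive (MulAction.stabilizer SL(2, ℤ) (dds_x0 Γ)) →+ R :=
  φ.comp (MonoidHom.toAdditive (dtop_stabEquiv Γ).toMonoidHom)

theorem dtop_toStab_apply {R : Type*} [AddCommGroup R] (φ : Additive Γ →+ R)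
    (γ : MulAction.stabilizer SL(2, ℤ) (dds_x0 Γ)) :
    dtop_toStab Γ φ (Additive.ofMul γ) = φ (Additive.ofMul (dtop_stabEquiv Γ γ)) := rfl

end Stab

section Model

attribute [local instance] Subgroup.fintypeQuotientOfFiniteIndex
attribute [local instance] Classical.propDecidable

variable {Γ : Subgroup SL(2, ℤ)} [Γ.FiniteIndex]
variable {R : Type*} [CommRing R] [IsDomain R] [IsPrincipalIdealRing R] [CharZero R]

omit [IsDomain R] [IsPrincipalIdealRing R] [CharZero R] in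
/-- parabolic homs vanish on the model loops -/
theorem dtop_par_tc (φ : parabolicHoms R Γ R) {ι : Type*} (xc : ι → SL(2, ℤ) ⧸ Γ)
    (gc : ι → SL(2, ℤ)) (hgc : ∀ i, gc i • dds_x0 Γ = xc i) (i : ι) :
    dtop_toStab Γ φ.1 (Additive.ofMul (pi9_tc (dds_x0 Γ) xc gc hgc i)) = 0 := by
  rw [dtop_toStab_apply]
  apply φ.2
  rw [dtop_stabEquiv_coe]
  have h := (pi9_tc_posUnip (dds_x0 Γ) xc gc hgc i).1
  rw [Matrix.trace_fin_two]
  have h' : ((pi9_tc (dds_x0 Γ) xc gc hgc i : MulAction.stabilizer SL(2, ℤ) (dds_x0 Γ)) :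
      SL(2, ℤ)).1 0 0 + ((pi9_tc (dds_x0 Γ) xc gc hgc i :
      MulAction.stabilizer SL(2, ℤ) (dds_x0 Γ)) : SL(2, ℤ)).1 1 1 = 2 := h
  rw [h']
  norm_num

/-- **MODEL FORMULA for `dds_form`**: there is a primitive of `3 • φ ∪ ψ` on `Stab(x₀) = Γ` whose
cusp sum over the model cusp system is `3 * dds_form φ ψ`. -/
theorem dtop_model_dds (hneg : (-1 : SL(2, ℤ)) ∈ Γ) (φ ψ : parabolicHoms R Γ R)
    {ι : Type*} [Fintype ι] (xc : ι → SL(2, ℤ) ⧸ Γ)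
    (hrep : ∀ y : SL(2, ℤ) ⧸ Γ, ∃! i : ι, ∃ k : ℕ, (dint_sig (SL(2, ℤ) ⧸ Γ))^[k] (xc i) = y)
    (gc : ι → SL(2, ℤ)) (hgc : ∀ i, gc i • dds_x0 Γ = xc i) :
    ∃ h : MulAction.stabilizer SL(2, ℤ) (dds_x0 Γ) → R,
      dint_IsPrim 3 (dtop_toStab Γ φ.1) (dtop_toStab Γ ψ.1) h ∧
      ∑ i, h (pi9_tc (dds_x0 Γ) xc gc hgc i) = 3 * dds_form (R := R) hneg φ ψ := by
  obtain ⟨v, w, F, hz, hF, hFS, hFτ, hφ⟩ := ddg_exists_coc (R := R) hneg φ
  obtain ⟨v', w', F', hz', hF', hFS', hFτ', hψ⟩ := ddg_exists_coc (R := R) hneg ψ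
  have hnegE : ∀ y : SL(2, ℤ) ⧸ Γ, (-1 : SL(2, ℤ)) • y = y := dds_neg_one_smul hneg
  have hcF : dint_IsCross F := hF
  have hcF' : dint_IsCross F' := hF'
  obtain ⟨H, hH⟩ := dint_exists_tw_three' (R := R) dds_two_ne hnegE hcF hcF' hFS
  refine ⟨fun γ => H (γ : SL(2, ℤ)) (dds_x0 Γ), ?_, ?_⟩
  · have hp := dint_prim_of_tw hcF hcF' hH (dds_x0 Γ)
      (MulAction.stabilizer SL(2, ℤ) (dds_x0 Γ)) (fun γ hγ => hγ)
    have e1 : dint_homOf F hcF (dds_x0 Γ) (MulAction.stabilizer SL(2, ℤ) (dds_x0 Γ))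
        (fun γ hγ => hγ) = dtop_toStab Γ φ.1 := by
      refine AddMonoidHom.ext fun γ => ?_
      obtain ⟨γ, rfl⟩ := Additive.ofMul.surjective γ
      rw [dtop_toStab_apply]
      exact (hφ γ.1 (dtop_stabEquiv Γ γ).2).symm
    have e2 : dint_homOf F' hcF' (dds_x0 Γ) (MulAction.stabilizer SL(2, ℤ) (dds_x0 Γ))
        (fun γ hγ => hγ) = dtop_toStab Γ ψ.1 := by
      refine AddMonoidHom.ext fun γ => ?_
      obtain ⟨γ, rfl⟩ := Additive.ofMul.surjective γ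
      rw [dtop_toStab_apply]
      exact (hψ γ.1 (dtop_stabEquiv Γ γ).2).symm
    rwa [e1, e2] at hp
  · rw [ddg_form_eq_b (R := R) hneg hF hF' hz hz' hFS hFτ hFS' hFτ' φ ψ hφ hψ]
    exact dint_bridge (R := R) dds_two_ne dds_three_ne hnegE (dd_D (dds_Y hneg))
      (fun _ => rfl) (fun _ => rfl) hcF hcF' hH hz hz' hFS hFτ hFS' hFτ' xc hrep
      (dds_x0 Γ) gc hgc

/-- **BALANCED** on the stabiliser of the base coset -/
theorem dtop_balanced_dds (hneg : (-1 : SL(2, ℤ)) ∈ Γ)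
    {ι : Type*} [Fintype ι] (xc : ι → SL(2, ℤ) ⧸ Γ)
    (hrep : ∀ y : SL(2, ℤ) ⧸ Γ, ∃! i : ι, ∃ k : ℕ, (dint_sig (SL(2, ℤ) ⧸ Γ))^[k] (xc i) = y)
    (gc : ι → SL(2, ℤ)) (hgc : ∀ i, gc i • dds_x0 Γ = xc i)
    (k : Additive (MulAction.stabilizer SL(2, ℤ) (dds_x0 Γ)) →+ R) :
    ∑ i, k (Additive.ofMul (pi9_tc (dds_x0 Γ) xc gc hgc i)) = 0 :=
  dtop_balanced (R := R) (dds_neg_one_smul hneg) (dds_x0 Γ)
    (⟨xc, hrep, gc, hgc⟩ : dtop_Cusps (dds_x0 Γ) ι) dds_two_ne dds_three_ne k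

end Model

section Iso

variable {Γ₁ Γ₂ : Subgroup SL(2, ℤ)} [Γ₁.FiniteIndex] [Γ₂.FiniteIndex]
variable {R : Type*} [CommRing R] [IsDomain R] [IsPrincipalIdealRing R] [CharZero R]

/-- **GL₂⁺(ℚ)-INVARIANCE of the Poincaré pairing.**  If `θ : Γ₁ ≃* Γ₂` is induced by an integral
matrix `α` of positive determinant (`θ γ * α = α * γ`), then pulling back along `θ` is an isometry
for the forms `dds_form`. -/
theorem dtop_iso (h1 : (-1 : SL(2, ℤ)) ∈ Γ₁) (h2 : (-1 : SL(2, ℤ)) ∈ Γ₂)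
    (α : Matrix (Fin 2) (Fin 2) ℤ) (hα : 0 < α.det) (θ : Γ₁ ≃* Γ₂)
    (hθ : ∀ γ : Γ₁, ((θ γ : Γ₂) : SL(2, ℤ)).1 * α = α * (γ : SL(2, ℤ)).1)
    (f g : parabolicHoms R Γ₂ R)
    (hf' : f.1.comp (MonoidHom.toAdditive θ.toMonoidHom) ∈ parabolicHoms R Γ₁ R)
    (hg' : g.1.comp (MonoidHom.toAdditive θ.toMonoidHom) ∈ parabolicHoms R Γ₁ R) :
    dds_form (R := R) h1 ⟨_, hf'⟩ ⟨_, hg'⟩ = dds_form (R := R) h2 f g := by
  obtain ⟨ι₁, _, xc₁, gc₁, hrep₁, hgc₁⟩ := pi9_exists_orbit_data (dds_x0 Γ₁)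
  obtain ⟨ι₂, _, xc₂, gc₂, hrep₂, hgc₂⟩ := pi9_exists_orbit_data (dds_x0 Γ₂)
  -- the isomorphism between the stabilisers
  let θ' : MulAction.stabilizer SL(2, ℤ) (dds_x0 Γ₁) ≃* MulAction.stabilizer SL(2, ℤ) (dds_x0 Γ₂) :=
    ((dtop_stabEquiv Γ₁).trans θ).trans (dtop_stabEquiv Γ₂).symm
  have hθ' : ∀ γ : MulAction.stabilizer SL(2, ℤ) (dds_x0 Γ₁),
      α * (γ : SL(2, ℤ)).1
        = ((θ' γ : MulAction.stabilizer SL(2, ℤ) (dds_x0 Γ₂)) : SL(2, ℤ)).1 * α := by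
    intro γ
    exact (hθ (dtop_stabEquiv Γ₁ γ)).symm
  obtain ⟨e, x, hconj⟩ := pi9_exists_conj_data (dds_neg_one_smul h1) (dds_neg_one_smul h2)
    (dds_x0 Γ₁) (dds_x0 Γ₂) xc₁ hrep₁ gc₁ hgc₁ xc₂ hrep₂ gc₂ hgc₂ θ' α hα hθ'
  -- the pulled back homs
  have epull : ∀ φ : Additive Γ₂ →+ R,
      dint_pull θ'.toMonoidHom (dtop_toStab Γ₂ φ)
        = dtop_toStab Γ₁ (φ.comp (MonoidHom.toAdditive θ.toMonoidHom)) := by
    intro φ
    refine AddMonoidHom.ext fun γ => ?_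
    obtain ⟨γ, rfl⟩ := Additive.ofMul.surjective γ
    show φ (Additive.ofMul (dtop_stabEquiv Γ₂ (θ' γ))) = φ (Additive.ofMul (θ (dtop_stabEquiv Γ₁ γ)))
    congr 2
  obtain ⟨k₁, hk₁, hs₁⟩ := dtop_model_dds (R := R) h1 ⟨_, hf'⟩ ⟨_, hg'⟩ xc₁ hrep₁ gc₁ hgc₁
  obtain ⟨k₂, hk₂, hs₂⟩ := dtop_model_dds (R := R) h2 f g xc₂ hrep₂ gc₂ hgc₂
  have hinv := dint_invariance (R := R) θ'.toMonoidHom (n := 3) (c := 3)
    (f := dtop_toStab Γ₂ f.1) (g := dtop_toStab Γ₂ g.1)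
    (pi9_tc (dds_x0 Γ₁) xc₁ gc₁ hgc₁) (pi9_tc (dds_x0 Γ₂) xc₂ gc₂ hgc₂) e x hconj
    (dtop_par_tc f xc₂ gc₂ hgc₂) (dtop_par_tc g xc₂ gc₂ hgc₂)
    (dtop_balanced_dds (R := R) h1 xc₁ hrep₁ gc₁ hgc₁)
    (B₁ := dds_form (R := R) h1 ⟨_, hf'⟩ ⟨_, hg'⟩) (B₂ := dds_form (R := R) h2 f g)
    ⟨k₁, by rw [epull, epull]; exact hk₁, hs₁⟩ ⟨k₂, hk₂, hs₂⟩
  exact mul_left_cancel₀ (dds_three_ne (R := R)) hinv

end Iso

end Fermat.Agent.S41x
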