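import Fermat.Agent.S41x.DualFinal1
import Fermat.Agent.S41x.DualIso
import Fermat.Agent.S41x.DualEtaGroup
import Fermat.Agent.S41x.DualEtaPar
import Fermat.Agent.S41x.LRTopDefs

/-!
# S41x / DualFinal: EXPORT of block C (duality)

* `pdPair M` (DualFinal1) : perfect alternating pairing on `lrL M = H¹_par(Γ₀(M), ℤ)`;
* `pdPair_res_cores` (DualFinal1), `pdPair_resEta_coresEta` : the two adjunctions;
* `pdPair_lrtRes_lrtCores`, `pdPair_lrtResEta_lrtCoresEta` : the same in the exact shape of the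
  hypotheses `hadjRes`, `hadjEta` of `LRTopSpec.top_step3`.

The `η`-adjunction: `Γ'' = deg_Gam N q = Γ₀(N) ⊓ Γ⁰(q)`, `θ = deg_theta : Γ₀(N q) ≃* Γ''`
(conjugation by `η = diag(q,1)`); `lrResEta x = θ^*(x|Γ'')`, `lrCoresEta y = cores_{Γ''→Γ₀(N)}(θ⁻¹^* y)`;
`dtop_iso` (isometry along `θ`) and `das_form_adj` (restriction ⊣ transfer).
-/

set_option autoImplicit false

open ModularGroup ModularCurve.Period CongruenceSubgroup
open scoped MatrixGroups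

namespace Fermat.Agent.S41x

open Fermat.Agent.S16x

section Eta

variable (N q : ℕ) [NeZero N] [NeZero q] [Fact q.Prime] (hqN : ¬ q ∣ N)

/-- **Adjointness** `⟨lrResEta x, y⟩_{N q} = ⟨x, lrCoresEta y⟩_N`. -/
theorem pdPair_resEta_coresEta (x : lrL N) (y : lrL (N * q))
    (h1 : lrResEta N q x.1 ∈ lrL (N * q)) (h2 : lrCoresEta N q hqN y.1 ∈ lrL N) :
    pdPair (N * q) ⟨lrResEta N q x.1, h1⟩ y = pdPair N x ⟨lrCoresEta N q hqN y.1, h2⟩ := by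
  have hdet : 0 < (lrEtaMat q).det := by
    rw [lrEtaMat_det]
    exact_mod_cast (Fact.out : q.Prime).pos
  -- the two homs on `Γ''`
  let f : parabolicHoms ℤ (deg_Gam N q) ℤ :=
    ⟨x.1.comp (MonoidHom.toAdditive (Subgroup.inclusion (deg_le N q))),
      dep_par_res ℤ (deg_le N q) x.2⟩
  let g : parabolicHoms ℤ (deg_Gam N q) ℤ :=
    ⟨y.1.comp (MonoidHom.toAdditive (deg_theta N q).symm.toMonoidHom),
      dep_par_comp_symm ℤ (deg_theta N q) hdet.ne' (deg_theta_spec N q) y.2⟩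
  have ef : f.1.comp (MonoidHom.toAdditive (deg_theta N q).toMonoidHom) = lrResEta N q x.1 := by
    refine AddMonoidHom.ext fun γ => ?_
    obtain ⟨γ, rfl⟩ := Additive.ofMul.surjective γ
    rw [lrResEta_apply]
    rfl
  have eg : g.1.comp (MonoidHom.toAdditive (deg_theta N q).toMonoidHom) = y.1 := by
    refine AddMonoidHom.ext fun γ => ?_
    obtain ⟨γ, rfl⟩ := Additive.ofMul.surjective γ
    show y.1 (Additive.ofMul ((deg_theta N q).symm ((deg_theta N q) γ))) = _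
    rw [MulEquiv.symm_apply_apply]
  have hf' : f.1.comp (MonoidHom.toAdditive (deg_theta N q).toMonoidHom)
      ∈ parabolicHoms ℤ (Gamma0 (N * q)) ℤ := by rw [ef]; exact h1
  have hg' : g.1.comp (MonoidHom.toAdditive (deg_theta N q).toMonoidHom)
      ∈ parabolicHoms ℤ (Gamma0 (N * q)) ℤ := by rw [eg]; exact y.2
  have iso := dtop_iso (R := ℤ) (dfin_neg_one_mem (N * q)) (deg_neg_one_mem N q) (lrEtaMat q) hdet
    (deg_theta N q) (deg_theta_spec N q) f g hf' hg'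
  have e1 : (⟨_, hf'⟩ : parabolicHoms ℤ (Gamma0 (N * q)) ℤ) = ⟨lrResEta N q x.1, h1⟩ :=
    Subtype.ext ef
  have e2 : (⟨_, hg'⟩ : parabolicHoms ℤ (Gamma0 (N * q)) ℤ) = y := Subtype.ext eg
  rw [e1, e2] at iso
  unfold pdPair
  rw [iso]
  -- restriction ⊣ transfer for `Γ'' ≤ Γ₀(N)`
  refine das_form_adj (R := ℤ) (deg_le N q) (deg_neg_one_mem N q) (dfin_neg_one_mem N)
    (fun i : OnePoint (ZMod q) => ((lrl_s N q hqN i : Gamma0 N) : SL(2, ℤ))⁻¹) ?_ ?_ ?_ x f ?_ g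
    ⟨lrCoresEta N q hqN y.1, h2⟩ ?_
  · intro i
    exact (Gamma0 N).inv_mem (lrl_s N q hqN i).2
  · intro i j hij
    rw [inv_inv] at hij
    exact deg_s_distinct N q hqN i j ⟨_, hij⟩ (by simp)
  · intro γ hγ
    obtain ⟨i, δ, h⟩ := deg_exists_decomp N q hqN (⟨γ, hγ⟩⁻¹ : Gamma0 N)
    refine ⟨i, ?_⟩
    rw [inv_inv]
    have h' : (δ : SL(2, ℤ)) * ((lrl_s N q hqN i : Gamma0 N) : SL(2, ℤ)) = γ⁻¹ := h
    have e : γ = ((δ : SL(2, ℤ)) * ((lrl_s N q hqN i : Gamma0 N) : SL(2, ℤ)))⁻¹ := by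
      rw [h', inv_inv]
    have : ((lrl_s N q hqN i : Gamma0 N) : SL(2, ℤ)) * γ = (δ : SL(2, ℤ))⁻¹ := by
      rw [e]; group
    rw [this]
    exact (deg_Gam N q).inv_mem δ.2
  · intro γ h
    rfl
  · intro γ hγ
    refine ⟨(lrl_coresEta N q hqN).idx ⟨γ, hγ⟩,
      fun i => ⟨((lrl_s N q hqN i : Gamma0 N) : SL(2, ℤ)) * γ *
        (((lrl_s N q hqN ((lrl_coresEta N q hqN).idx ⟨γ, hγ⟩ i) : Gamma0 N) : SL(2, ℤ)))⁻¹,
        by rw [← deg_theta_elt_eq N q hqN ⟨γ, hγ⟩ i]; exact Subtype.mem _⟩, fun i => ?_, ?_⟩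
    · rw [inv_inv]
    · exact deg_coresEta_apply N q hqN y.1 ⟨γ, hγ⟩

end Eta

/-! ## the exact shapes of `LRTopSpec.top_step3` -/

section TopShape

variable (M ℓ : ℕ) [NeZero M] [Fact ℓ.Prime] (hℓM : ¬ ℓ ∣ M)

theorem pdPair_lrtRes_lrtCores (x : lrL M) (y : lrL (M * ℓ)) :
    pdPair (M * ℓ) (lrtRes M ℓ x) y = pdPair M x (lrtCores M ℓ hℓM y) :=
  pdPair_res_cores M ℓ hℓM x y _ _

theorem pdPair_lrtResEta_lrtCoresEta (x : lrL M) (y : lrL (M * ℓ)) :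
    pdPair (M * ℓ) (lrtResEta M ℓ x) y = pdPair M x (lrtCoresEta M ℓ hℓM y) :=
  pdPair_resEta_coresEta M ℓ hℓM x y _ _

end TopShape

/-- **The C-package** of `LRTopSpec.top_step3`, bundled. -/
theorem pdPair_package :
    (∀ (M : ℕ) [NeZero M] (x y : lrL M), pdPair M x y = - pdPair M y x) ∧
    (∀ (M : ℕ) [NeZero M], Function.Bijective (fun y : lrL M => (pdPair M).flip y)) ∧
    (∀ (M ℓ : ℕ) [NeZero M] [Fact ℓ.Prime] (hℓM : ¬ ℓ ∣ M) (x : lrL M) (y : lrL (M * ℓ)),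
      pdPair (M * ℓ) (lrtRes M ℓ x) y = pdPair M x (lrtCores M ℓ hℓM y)) ∧
    (∀ (M ℓ : ℕ) [NeZero M] [Fact ℓ.Prime] (hℓM : ¬ ℓ ∣ M) (x : lrL M) (y : lrL (M * ℓ)),
      pdPair (M * ℓ) (lrtResEta M ℓ x) y = pdPair M x (lrtCoresEta M ℓ hℓM y)) :=
  ⟨fun M _ x y => pdPair_antisymm M x y, fun M _ => pdPair_perfect M,
    fun M ℓ _ _ hℓM x y => pdPair_lrtRes_lrtCores M ℓ hℓM x y,
    fun M ℓ _ _ hℓM x y => pdPair_lrtResEta_lrtCoresEta M ℓ hℓM x y⟩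

end Fermat.Agent.S41x
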