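import Mathlib
import Fermat.Agent.S51x.Basic

/-!
# S41 BRIDGE-prime, module KUM0 (prefix `bpk0_`): a `p`-th root of a prime is not cyclotomic

`bpk0_exists_moves_root` : for an odd prime `p`, a prime `q`, `p ∣ n`, `ζ` a primitive `n`-th root of
unity in `Qbar` and `θ ^ p = q`, there is `τ ∈ G_ℚ` with `τ ζ = ζ` and `τ θ ≠ θ`.

Proof (no irreducibility of `X ^ p - q`, no degrees).  Assume every `τ` fixing `ζ` fixes `θ`.  Any two
elements of `G_ℚ` commute on `ζ`, hence (assumption) on `θ`.  Choose `τ₀` moving `ζ_p = ζ ^ (n / p)`,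
`τ₀ ζ_p = ζ_p ^ s` with `2 ≤ s < p`.  Then `v = τ₀ θ / θ ^ s` is fixed by all of `G_ℚ`, hence rational,
and `v ^ p * q ^ (s - 1) = 1`; comparing `q`-adic valuations gives `p ∣ s - 1`, absurd.
-/

set_option autoImplicit false

namespace Fermat.Agent.S41x

local notation "Qb" => AlgebraicClosure ℚ
local notation "GQ" => (AlgebraicClosure ℚ ≃ₐ[ℚ] AlgebraicClosure ℚ)

/-- an element of `Qbar` fixed by all of `G_ℚ` is rational -/
theorem bpk0_exists_rat_of_fixed (x : Qb) (h : ∀ σ : GQ, σ x = x) :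
    ∃ r : ℚ, algebraMap ℚ Qb r = x :=
  Fermat.Agent.S51x.exists_rat_of_fixed x h

/-- `G_ℚ` acts on a primitive root of unity by a power -/
theorem bpk0_exists_pow {m : ℕ} (hm : 0 < m) {z : Qb} (hz : IsPrimitiveRoot z m) (σ : GQ) :
    ∃ a : ℕ, a < m ∧ σ z = z ^ a := by
  have h1 : (σ z) ^ m = 1 := by rw [← map_pow, hz.pow_eq_one, map_one]
  have : NeZero m := ⟨hm.ne'⟩
  obtain ⟨a, ha, hza⟩ := hz.eq_pow_of_pow_eq_one h1
  exact ⟨a, ha, hza.symm⟩

/-- any two elements of `G_ℚ` commute on a root of unity -/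
theorem bpk0_comm_apply {m : ℕ} (hm : 0 < m) {z : Qb} (hz : IsPrimitiveRoot z m) (σ τ : GQ) :
    σ (τ z) = τ (σ z) := by
  obtain ⟨a, -, ha⟩ := bpk0_exists_pow hm hz σ
  obtain ⟨b, -, hb⟩ := bpk0_exists_pow hm hz τ
  rw [hb, ha, map_pow, map_pow, ha, hb, ← pow_mul, ← pow_mul, mul_comm]

/-- no rational number `r` satisfies `r ^ p * q ^ t = 1` with `q` prime and `0 < t < p` -/
theorem bpk0_no_rat {p q t : ℕ} (hq : q.Prime) (ht0 : 0 < t) (htp : t < p) (r : ℚ)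
    (h : r ^ p * (q : ℚ) ^ t = 1) : False := by
  have : Fact q.Prime := ⟨hq⟩
  have hr0 : r ≠ 0 := by
    rintro rfl
    have hp0 : p ≠ 0 := by omega
    rw [zero_pow hp0, zero_mul] at h
    exact zero_ne_one h
  have hq0 : (q : ℚ) ≠ 0 := by exact_mod_cast hq.ne_zero
  have hv := congrArg (padicValRat q) h
  rw [padicValRat.mul (pow_ne_zero _ hr0) (pow_ne_zero _ hq0), padicValRat.pow,
    padicValRat.pow, padicValRat.self hq.one_lt, padicValRat.one] at hv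
  -- `p * v + t = 0`
  have hdvd : (p : ℤ) ∣ (t : ℤ) := by
    refine ⟨-(padicValRat q r), ?_⟩
    have : (t : ℤ) = -((p : ℤ) * padicValRat q r) := by
      have := hv
      simp only [mul_one] at this
      linarith
    rw [this]; ring
  have hle : (p : ℤ) ≤ t := Int.le_of_dvd (by exact_mod_cast ht0) hdvd
  have : (t : ℤ) < p := by exact_mod_cast htp
  omega

/-- **BP-KUM0**: a `p`-th root of a prime `q` is moved by some element of `G_ℚ` fixing the `n`-th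
roots of unity (`p` odd, `p ∣ n`). -/
theorem bpk0_exists_moves_root {p : ℕ} (hp : p.Prime) (hp2 : p ≠ 2) {q : ℕ} (hq : q.Prime)
    {n : ℕ} (hn : 0 < n) (hpn : p ∣ n) {ζ : Qb} (hζ : IsPrimitiveRoot ζ n)
    {θ : Qb} (hθ : θ ^ p = (q : Qb)) :
    ∃ τ : GQ, τ ζ = ζ ∧ τ θ ≠ θ := by
  by_contra hcon
  push Not at hcon
  -- `hcon : ∀ τ, τ ζ = ζ → τ θ = θ`
  have hp0 : 0 < p := hp.pos
  have hq0 : (q : Qb) ≠ 0 := by exact_mod_cast hq.ne_zero
  have hθ0 : θ ≠ 0 := by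
    rintro rfl
    rw [zero_pow hp.ne_zero] at hθ
    exact hq0 hθ.symm
  -- the primitive `p`-th root of unity `ζ_p`
  obtain ⟨c, hc⟩ := hpn
  have hzp' : IsPrimitiveRoot (ζ ^ c) p := hζ.pow hn (by rw [hc, mul_comm])
  obtain ⟨zp, hzpdef⟩ : ∃ zp : Qb, zp = ζ ^ c := ⟨_, rfl⟩
  have hzp : IsPrimitiveRoot zp p := hzpdef ▸ hzp'
  -- any two elements commute on `θ`
  have hcommθ : ∀ σ τ : GQ, σ (τ θ) = τ (σ θ) := by
    intro σ τ
    have hfix : ((τ * σ)⁻¹ * (σ * τ)) ζ = ζ := by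
      have h1 : (σ * τ) ζ = (τ * σ) ζ := by
        simp only [AlgEquiv.mul_apply]
        exact bpk0_comm_apply hn hζ σ τ
      rw [AlgEquiv.mul_apply, h1, ← AlgEquiv.mul_apply, inv_mul_cancel, AlgEquiv.one_apply]
    have h2 := hcon _ hfix
    have h3 : (τ * σ) (((τ * σ)⁻¹ * (σ * τ)) θ) = (τ * σ) θ := by rw [h2]
    rw [← AlgEquiv.mul_apply, mul_inv_cancel_left] at h3
    simpa [AlgEquiv.mul_apply] using h3
  -- some `τ₀` moves `ζ_p`
  have hmove : ∃ τ₀ : GQ, τ₀ zp ≠ zp := by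
    by_contra hall
    push Not at hall
    obtain ⟨r, hr⟩ := bpk0_exists_rat_of_fixed zp hall
    have hrp : r ^ p = 1 := by
      apply (algebraMap ℚ Qb).injective
      rw [map_pow, hr, hzp.pow_eq_one, map_one]
    have hodd : Odd p := hp.odd_of_ne_two hp2
    have hr1 : r = 1 := by
      have := hodd.strictMono_pow (R := ℚ)
      exact this.injective (by simpa using hrp)
    have hz1 : zp = 1 := by rw [← hr, hr1, map_one]
    have := hzp.unique (hz1 ▸ IsPrimitiveRoot.one)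
    exact hp.one_lt.ne' this
  obtain ⟨τ₀, hτ₀⟩ := hmove
  obtain ⟨s, hsp, hs⟩ := bpk0_exists_pow hp0 hzp τ₀
  have hs1 : s ≠ 1 := by
    rintro rfl
    rw [pow_one] at hs
    exact hτ₀ hs
  have hs0 : s ≠ 0 := by
    rintro rfl
    rw [pow_zero] at hs
    have : zp = 1 := by
      have := congrArg (τ₀⁻¹ : GQ) hs
      rwa [← AlgEquiv.mul_apply, inv_mul_cancel, AlgEquiv.one_apply, map_one] at this
    have := hzp.unique (this ▸ IsPrimitiveRoot.one)
    exact hp.one_lt.ne' this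
  -- `τ₀` raises every `p`-th root of unity to the `s`-th power
  have hτ₀u : ∀ u : Qb, u ^ p = 1 → τ₀ u = u ^ s := by
    intro u hu
    have : NeZero p := ⟨hp.ne_zero⟩
    obtain ⟨e, -, he⟩ := hzp.eq_pow_of_pow_eq_one hu
    rw [← he, map_pow, hs, ← pow_mul, ← pow_mul, mul_comm]
  -- the invariant element
  obtain ⟨v, hv⟩ : ∃ v : Qb, v = τ₀ θ * (θ ^ s)⁻¹ := ⟨_, rfl⟩
  have hvfix : ∀ σ : GQ, σ v = v := by
    intro σ
    -- `σ θ = u θ` with `u ^ p = 1`
    obtain ⟨u, hu⟩ : ∃ u : Qb, u = σ θ * θ⁻¹ := ⟨_, rfl⟩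
    have hσθ : σ θ = u * θ := by rw [hu, mul_assoc, inv_mul_cancel₀ hθ0, mul_one]
    have hup : u ^ p = 1 := by
      rw [hu, mul_pow, ← map_pow, hθ, inv_pow, hθ, map_natCast, mul_inv_cancel₀ hq0]
    have h1 : σ (τ₀ θ) = u ^ s * τ₀ θ := by
      rw [hcommθ σ τ₀, hσθ, map_mul, hτ₀u u hup]
    have hτθ0 : τ₀ θ ≠ 0 := by
      rw [Ne, map_eq_zero_iff _ τ₀.injective]; exact hθ0
    have hu0 : u ≠ 0 := by
      intro h0
      rw [h0, zero_pow hp.ne_zero] at hup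
      exact zero_ne_one hup
    rw [hv, map_mul, map_inv₀, map_pow, h1, hσθ, mul_pow, mul_inv]
    have hus : u ^ s ≠ 0 := pow_ne_zero _ hu0
    have hθs : θ ^ s ≠ 0 := pow_ne_zero _ hθ0
    field_simp
  obtain ⟨r, hr⟩ := bpk0_exists_rat_of_fixed v hvfix
  -- `v ^ p * q ^ (s - 1) = 1`
  have hvp : v ^ p * (q : Qb) ^ (s - 1) = 1 := by
    have hτθp : (τ₀ θ) ^ p = (q : Qb) := by rw [← map_pow, hθ, map_natCast]
    have hθsp : (θ ^ s) ^ p = (q : Qb) ^ s := by rw [← pow_mul, mul_comm, pow_mul, hθ]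
    have hs' : (q : Qb) ^ s = (q : Qb) ^ (s - 1) * q := by
      rw [← pow_succ]; congr 1; omega
    rw [hv, mul_pow, inv_pow, hτθp, hθsp, hs']
    have hqs : (q : Qb) ^ (s - 1) ≠ 0 := pow_ne_zero _ hq0
    field_simp
  have hrat : r ^ p * (q : ℚ) ^ (s - 1) = 1 := by
    apply (algebraMap ℚ Qb).injective
    rw [map_mul, map_pow, map_pow, hr, map_natCast, map_one]
    exact hvp
  exact bpk0_no_rat hq (by omega) (by omega) r hrat

end Fermat.Agent.S41x
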