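import Fermat.Agent.S41x.BridgeGroup

/-!
# S41 bridge, row BR-G2 (helper66): normal-subgroup version of the group lemma

`G` acts irreducibly on a 2-dimensional `𝔽_p`-space `V`, `K ⊴ G`.  Then either `K` contains an element `g`
of prime order `r ≠ p` (modulo the kernel of the action) without eigenvalue `1`, or `K` acts trivially.
(Used for `K = G_{ℚ(ζ_M)}`: refined bridge with `ℓ ≡ 1 mod M`.)
-/

set_option autoImplicit false
open Polynomial

namespace Fermat.Agent.S41x

theorem brg2_exists_fixedPointFree_normal {p : ℕ} [Fact p.Prime]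
    {G : Type*} [Group G] {V : Type*} [AddCommGroup V] [Module (ZMod p) V]
    [DistribMulAction G V] [SMulCommClass G (ZMod p) V]
    (hcard : Nat.card V = p ^ 2)
    (hirr : ∀ N : Submodule (ZMod p) V, (∀ g : G, ∀ x ∈ N, g • x ∈ N) → N = ⊥ ∨ N = ⊤)
    (K : Subgroup G) [hK : K.Normal] :
    (∃ (g : G) (r : ℕ), g ∈ K ∧ r.Prime ∧ r ≠ p ∧ (∀ v : V, g ^ r • v = v) ∧
      (∀ v : V, g • v = v → v = 0)) ∨
    (∀ g ∈ K, ∀ v : V, g • v = v) := by
  classical
  have hp : p.Prime := Fact.out
  have hfin : Finite V := brg_finite_of_card hcard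
  have hmf : Module.Finite (ZMod p) V := Module.Finite.of_finite
  have hrk := brg_finrank_of_card hcard
  have hnt : Nontrivial V := by
    rw [← Finite.one_lt_card_iff_nontrivial, hcard]
    exact Nat.one_lt_pow (by norm_num) hp.one_lt
  haveI : Finite (V ≃ₗ[ZMod p] V) :=
    Finite.of_injective (fun e : V ≃ₗ[ZMod p] V => (e : V → V)) DFunLike.coe_injective
  let ρ : G →* (V ≃ₗ[ZMod p] V) := DistribMulAction.toModuleAut (ZMod p) V
  have hρ : ∀ g v, ρ g v = g • v := fun _ _ => rfl
  let H : Subgroup (V ≃ₗ[ZMod p] V) := K.map ρ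
  have hHmem : ∀ k ∈ K, ρ k ∈ H := fun k hk => ⟨k, hk, rfl⟩
  -- `H` is normalised by `ρ G`
  have hHconj : ∀ (g : G) (h : V ≃ₗ[ZMod p] V), h ∈ H → (ρ g)⁻¹ * h * ρ g ∈ H := by
    rintro g h ⟨k, hk, rfl⟩
    refine ⟨g⁻¹ * k * g, ?_, by simp⟩
    simpa using hK.conj_mem k hk g⁻¹
  let d : H →* (ZMod p)ˣ := LinearEquiv.det.comp H.subtype
  let N : Subgroup H := d.ker
  by_cases hN : ∃ r : ℕ, r.Prime ∧ r ≠ p ∧ r ∣ Nat.card N
  · left
    obtain ⟨r, hr, hrp, hdvd⟩ := hN
    haveI := Fact.mk hr
    obtain ⟨n, hn⟩ := exists_prime_orderOf_dvd_card' r hdvd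
    obtain ⟨g, hgK, hg⟩ := n.1.2
    have hnr : n ^ r = 1 := by rw [← hn]; exact pow_orderOf_eq_one n
    have her : (n.1.1) ^ r = 1 := by
      have := congrArg (fun x : N => (x.1.1 : V ≃ₗ[ZMod p] V)) hnr
      simpa using this
    refine ⟨g, r, hgK, hr, hrp, ?_, ?_⟩
    · intro v
      rw [← hρ, map_pow, hg, her]
      rfl
    · intro v hv
      by_contra hv0
      set f : V →ₗ[ZMod p] V := (n.1.1 : V ≃ₗ[ZMod p] V).toLinearMap with hf
      have hfv : f v = v := by
        rw [hf, LinearEquiv.coe_coe, ← hg, hρ]; exact hv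
      have hdet : LinearMap.det f = 1 := by
        have h1 : d n.1 = 1 := n.2
        have h2 : ((LinearEquiv.det (n.1.1 : V ≃ₗ[ZMod p] V) : (ZMod p)ˣ) : ZMod p) = 1 := by
          have : LinearEquiv.det (n.1.1 : V ≃ₗ[ZMod p] V) = 1 := h1
          rw [this]; rfl
        rw [← h2, LinearEquiv.coe_det]
      have hsq := brg_sub_one_sq hcard f hdet hv0 hfv
      have hfp : f ^ p = 1 := brg_pow_p_eq_one f hsq
      have hep : (n.1.1) ^ p = 1 := by
        apply LinearEquiv.toLinearMap_injective
        have h1 : ((n.1.1 : V ≃ₗ[ZMod p] V) ^ p).toLinearMap = f ^ p :=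
          map_pow (LinearEquiv.automorphismGroup.toLinearMapMonoidHom (R := ZMod p) (M := V)) _ p
        rw [h1, hfp]
        rfl
      have hnp : n ^ p = 1 := by
        apply Subtype.ext
        apply Subtype.ext
        simpa using hep
      have h1 : orderOf n ∣ p := orderOf_dvd_of_pow_eq_one hnp
      rw [hn] at h1
      exact hrp ((Nat.prime_dvd_prime_iff_eq hr hp).mp h1)
  · -- `N` is a `p`-group
    have hNp : IsPGroup p N := by
      have hc0 : Nat.card N ≠ 0 := Nat.card_pos.ne'
      have := Nat.eq_prime_pow_of_unique_prime_dvd hc0 (p := p) (fun {q} hq hqd => by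
        by_contra hqp
        exact hN ⟨q, hq, hqp, hqd⟩)
      exact IsPGroup.of_card this
    let W : Submodule (ZMod p) V :=
      { carrier := {x | ∀ n : N, (n.1.1 : V ≃ₗ[ZMod p] V) x = x}
        add_mem' := fun {a b} ha hb n => by rw [map_add, ha n, hb n]
        zero_mem' := fun n => map_zero _
        smul_mem' := fun c x hx n => by rw [map_smul, hx n] }
    have hWstab : ∀ g : G, ∀ x ∈ W, g • x ∈ W := by
      intro g x hx n
      have hmem : (ρ g)⁻¹ * n.1.1 * ρ g ∈ H := hHconj g n.1.1 n.1.2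
      have hn' : (⟨(ρ g)⁻¹ * n.1.1 * ρ g, hmem⟩ : H) ∈ N := by
        change d ⟨(ρ g)⁻¹ * n.1.1 * ρ g, hmem⟩ = 1
        have h1 : d n.1 = 1 := n.2
        change LinearEquiv.det ((ρ g)⁻¹ * n.1.1 * ρ g) = 1
        rw [map_mul, map_mul, map_inv, mul_comm, ← mul_assoc, mul_inv_cancel, one_mul]
        exact h1
      have h1 := hx ⟨_, hn'⟩
      have h2 : ((ρ g)⁻¹ * (n.1.1 : V ≃ₗ[ZMod p] V) * ρ g) x
          = (ρ g)⁻¹ ((n.1.1 : V ≃ₗ[ZMod p] V) (ρ g x)) := rfl
      change ((ρ g)⁻¹ * (n.1.1 : V ≃ₗ[ZMod p] V) * ρ g) x = x at h1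
      rw [h2] at h1
      have h3 := congrArg (ρ g) h1
      have h4 : ρ g ((ρ g)⁻¹ ((n.1.1 : V ≃ₗ[ZMod p] V) (ρ g x)))
          = (n.1.1 : V ≃ₗ[ZMod p] V) (ρ g x) := by
        change (ρ g * (ρ g)⁻¹) ((n.1.1 : V ≃ₗ[ZMod p] V) (ρ g x)) = _
        rw [mul_inv_cancel]
        rfl
      rw [h4] at h3
      exact h3
    have hWne : W ≠ ⊥ := by
      have hpV : p ∣ Nat.card V := by rw [hcard]; exact dvd_pow_self p two_ne_zero
      have h0 : (0 : V) ∈ MulAction.fixedPoints N V := fun n => by
        change (n.1.1 : V ≃ₗ[ZMod p] V) 0 = 0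
        exact map_zero _
      obtain ⟨b, hb, hb0⟩ := hNp.exists_fixed_point_of_prime_dvd_card_of_fixed_point V hpV h0
      intro hbot
      have hbW : b ∈ W := fun n => hb n
      rw [hbot, Submodule.mem_bot] at hbW
      exact hb0 hbW.symm
    have hWtop : W = ⊤ := (hirr W hWstab).resolve_left hWne
    have hNbot : ∀ n : N, n = 1 := by
      intro n
      apply Subtype.ext
      apply Subtype.ext
      ext x
      have : x ∈ W := by rw [hWtop]; trivial
      exact this n
    have hdinj : Function.Injective d := by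
      rw [injective_iff_map_eq_one]
      intro h hh
      have := hNbot ⟨h, hh⟩
      exact congrArg Subtype.val this
    have hpow : ∀ h : H, h ^ p = h := by
      intro h
      apply hdinj
      rw [map_pow]
      have h1 : (d h) ^ (p - 1) = 1 := ZMod.units_pow_card_sub_one_eq_one p (d h)
      calc (d h) ^ p = (d h) ^ (p - 1 + 1) := by rw [Nat.sub_add_cancel hp.one_le]
        _ = d h := by rw [pow_succ, h1, one_mul]
    -- `H` is centralised by `ρ G`
    have hcentral : ∀ (g : G) (h : H), (ρ g)⁻¹ * h.1 * ρ g = h.1 := by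
      intro g h
      have hmem := hHconj g h.1 h.2
      have : (⟨(ρ g)⁻¹ * h.1 * ρ g, hmem⟩ : H) = h := by
        apply hdinj
        change LinearEquiv.det ((ρ g)⁻¹ * h.1 * ρ g) = LinearEquiv.det h.1
        rw [map_mul, map_mul, map_inv, mul_comm, ← mul_assoc, mul_inv_cancel, one_mul]
      exact congrArg Subtype.val this
    -- every element of `H` acts as a scalar
    have hscal : ∀ h : H, ∃ μ : ZMod p, ∀ x : V, (h.1 : V ≃ₗ[ZMod p] V) x = μ • x := by
      intro h
      set f : Module.End (ZMod p) V := (h.1 : V ≃ₗ[ZMod p] V).toLinearMap with hf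
      have hfp : f ^ p = f := by
        have h1 : ((h.1 : V ≃ₗ[ZMod p] V) ^ p).toLinearMap = f ^ p :=
          map_pow (LinearEquiv.automorphismGroup.toLinearMapMonoidHom (R := ZMod p) (M := V)) _ p
        rw [← h1]
        have h2 := congrArg (fun k : H => (k.1 : V ≃ₗ[ZMod p] V)) (hpow h)
        simp only [Subgroup.coe_pow] at h2
        rw [h2]
      obtain ⟨μ, hμ⟩ := brg_exists_eigenvalue f hfp
      refine ⟨μ, ?_⟩
      have hEstab : ∀ g : G, ∀ x ∈ Module.End.eigenspace f μ, g • x ∈ Module.End.eigenspace f μ := by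
        intro g x hx
        rw [Module.End.mem_eigenspace_iff] at hx ⊢
        have hx' : (h.1 : V ≃ₗ[ZMod p] V) x = μ • x := hx
        have hc := hcentral g h
        have hc' : (h.1 : V ≃ₗ[ZMod p] V) (ρ g x) = ρ g ((h.1 : V ≃ₗ[ZMod p] V) x) := by
          have e1 : ((ρ g)⁻¹ * h.1 * ρ g) x = (h.1 : V ≃ₗ[ZMod p] V) x := by rw [hc]
          have e2 : ((ρ g)⁻¹ * h.1 * ρ g) x = (ρ g)⁻¹ ((h.1 : V ≃ₗ[ZMod p] V) (ρ g x)) := rfl
          rw [e2] at e1
          have e3 := congrArg (ρ g) e1
          have e4 : ρ g ((ρ g)⁻¹ ((h.1 : V ≃ₗ[ZMod p] V) (ρ g x)))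
              = (h.1 : V ≃ₗ[ZMod p] V) (ρ g x) := by
            change (ρ g * (ρ g)⁻¹) ((h.1 : V ≃ₗ[ZMod p] V) (ρ g x)) = _
            rw [mul_inv_cancel]
            rfl
          rw [e4] at e3
          exact e3
        change (h.1 : V ≃ₗ[ZMod p] V) (ρ g x) = μ • ρ g x
        rw [hc', hx', map_smul]
      have hE := (hirr _ hEstab).resolve_left hμ
      intro x
      have hx : x ∈ Module.End.eigenspace f μ := by rw [hE]; trivial
      rw [Module.End.mem_eigenspace_iff] at hx
      exact hx
    by_cases htriv : ∀ g ∈ K, ∀ v : V, g • v = v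
    · right; exact htriv
    · left
      push Not at htriv
      obtain ⟨g, hgK, v0, hv0⟩ := htriv
      obtain ⟨μ, hμ⟩ := hscal ⟨ρ g, hHmem g hgK⟩
      have hμ' : ∀ x : V, g • x = μ • x := fun x => hμ x
      have hμ1 : μ ≠ 1 := by
        intro h1
        apply hv0
        rw [hμ' v0, h1, one_smul]
      have hμ0 : μ ≠ 0 := by
        intro h0
        obtain ⟨b, hb⟩ := exists_ne (0 : V)
        have h1 := hμ' b
        rw [h0, zero_smul] at h1
        have : b = g⁻¹ • (g • b) := by rw [inv_smul_smul]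
        rw [h1, smul_zero] at this
        exact hb this
      -- the unit `u` with value `μ`
      let u : (ZMod p)ˣ := Units.mk0 μ hμ0
      have hu1 : u ≠ 1 := by
        intro h
        apply hμ1
        have := congrArg Units.val h
        simpa [u] using this
      have hpowg : ∀ (k : ℕ) (x : V), g ^ k • x = (μ ^ k) • x := by
        intro k
        induction k with
        | zero => intro x; simp
        | succ k ih =>
          intro x
          rw [pow_succ, mul_smul, hμ', smul_comm, ih, smul_smul, pow_succ, mul_comm]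
      set m := orderOf u with hm
      have hm1 : m ≠ 1 := by
        intro h
        exact hu1 (orderOf_eq_one_iff.mp h)
      have hmpos : 0 < m := orderOf_pos u
      obtain ⟨r, hr, hrm⟩ := Nat.exists_prime_and_dvd hm1
      obtain ⟨t, ht⟩ := hrm
      have htpos : 0 < t := by
        rcases Nat.eq_zero_or_pos t with h | h
        · exfalso
          rw [h, mul_zero] at ht
          exact hmpos.ne' ht
        · exact h
      have hrp : r ≠ p := by
        intro h
        have h1 : m ∣ p - 1 := by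
          apply orderOf_dvd_of_pow_eq_one
          exact ZMod.units_pow_card_sub_one_eq_one p u
        have h2 : r ∣ p - 1 := Dvd.dvd.trans ⟨t, ht⟩ h1
        rw [h] at h2
        have h3 := Nat.le_of_dvd (Nat.sub_pos_of_lt hp.one_lt) h2
        have h4 := hp.one_lt
        omega
      refine ⟨g ^ t, r, K.pow_mem hgK t, hr, hrp, ?_, ?_⟩
      · intro x
        rw [← pow_mul, hpowg, mul_comm, ← ht]
        have hμm : μ ^ m = 1 := by
          have h := congrArg Units.val (pow_orderOf_eq_one u)
          rw [Units.val_pow_eq_pow_val, Units.val_one] at h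
          exact h
        rw [hμm, one_smul]
      · intro x hx
        rw [hpowg] at hx
        by_contra hx0
        have h1 : (μ ^ t - 1) • x = 0 := by rw [sub_smul, one_smul, hx, sub_self]
        have h2 : μ ^ t - 1 = 0 := by
          by_contra hne
          exact hx0 ((smul_eq_zero.mp h1).resolve_left hne)
        have h3 : u ^ t = 1 := by
          apply Units.ext
          simpa [u, sub_eq_zero] using h2
        have h4 : m ∣ t := orderOf_dvd_of_pow_eq_one h3
        have h5 : t < m := by
          rw [ht]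
          have := hr.two_le
          nlinarith
        exact absurd (Nat.le_of_dvd htpos h4) (by omega)

end Fermat.Agent.S41x
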