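/-
S41 side project BRIDGE-prime, row BP-GRP (helper13): the group theoretic input.

`G` acts irreducibly on a 2-dimensional `𝔽_p`-space `V` (`p` odd), `K ⊴ G` does not act trivially, `χ : K → C` is a
nontrivial character with values in an abelian group of exponent `p`.  Then some `σ ∈ K` has `χ σ ≠ 1`, acts on `V`
with order dividing `r * p` (`r ≠ p` prime), every `σ ^ k` with `r ∤ k`, `p ∤ k` is fixed point free on `V`, and
`σ ^ p` does not act trivially on `V`.

`bpg_exists_sigma` is the exact statement `BridgePrimeSpec.bpg_exists_sigma`.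
-/
import Fermat.Agent.S41x.BridgeGroup2

set_option autoImplicit false

namespace Fermat.Agent.S41x

/-! ## generalities on group actions -/

section Action

variable {G : Type*} [Group G] {V : Type*} [AddCommGroup V] [DistribMulAction G V]

theorem bpg_pow_smul_of_fix {σ : G} {v : V} (h : σ • v = v) (k : ℕ) : σ ^ k • v = v := by
  induction k with
  | zero => simp
  | succ k ih => rw [pow_succ, mul_smul, h, ih]

theorem bpg_pow_mul_smul_of_trivial {σ : G} {r : ℕ} (h : ∀ v : V, σ ^ r • v = v) (t : ℕ) (v : V) :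
    σ ^ (r * t) • v = v := by
  rw [pow_mul]
  exact bpg_pow_smul_of_fix (h v) t

/-- if `τ` acts trivially then `(g τ) ^ k` acts as `g ^ k`. -/
theorem bpg_mul_pow_smul {g τ : G} (hτ : ∀ v : V, τ • v = v) (k : ℕ) (v : V) :
    (g * τ) ^ k • v = g ^ k • v := by
  induction k generalizing v with
  | zero => simp
  | succ k ih => rw [pow_succ, mul_smul, mul_smul, hτ, ih, pow_succ, mul_smul]

/-- the conclusions for an element which is fixed point free of prime order `r` on `V`. -/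
theorem bpg_of_fpf [Nontrivial V] {p : ℕ} (hp : p.Prime) (σ : G) {r : ℕ} (hr : r.Prime) (hrp : r ≠ p)
    (h1 : ∀ v : V, σ ^ r • v = v) (h2 : ∀ v : V, σ • v = v → v = 0) :
    (∀ v : V, σ ^ (r * p) • v = v) ∧
    (∀ k : ℕ, ¬ r ∣ k → ¬ p ∣ k → ∀ v : V, σ ^ k • v = v → v = 0) ∧
    (∃ v : V, σ ^ p • v ≠ v) := by
  have hb : ∀ k : ℕ, ¬ r ∣ k → ∀ v : V, σ ^ k • v = v → v = 0 := by
    intro k hk v hv
    have hcop : Nat.Coprime k r := ((hr.coprime_iff_not_dvd).mpr hk).symm
    obtain ⟨m, -, hm⟩ := Nat.exists_mul_mod_eq_one_of_coprime hcop hr.one_lt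
    have hkm : k * m = r * (k * m / r) + 1 := by
      have := Nat.div_add_mod (k * m) r
      omega
    have e1 : σ ^ (k * m) • v = v := by
      rw [pow_mul]
      exact bpg_pow_smul_of_fix hv m
    rw [hkm, pow_succ, mul_smul, bpg_pow_mul_smul_of_trivial h1] at e1
    exact h2 v e1
  refine ⟨fun v => bpg_pow_mul_smul_of_trivial h1 p v, fun k hk _ => hb k hk, ?_⟩
  obtain ⟨v, hv⟩ := exists_ne (0 : V)
  refine ⟨v, fun h => hv (hb p ?_ v h)⟩
  intro hdvd
  exact hrp ((Nat.prime_dvd_prime_iff_eq hr hp).mp hdvd)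

end Action

/-! ## linear algebra on the plane -/

section Linear

variable {p : ℕ} [Fact p.Prime] {V : Type*} [AddCommGroup V] [Module (ZMod p) V]

theorem bpg_two_ne_zero (hp2 : p ≠ 2) : (2 : ZMod p) ≠ 0 := by
  intro h
  have h2 : ((2 : ℕ) : ZMod p) = 0 := by exact_mod_cast h
  rw [ZMod.natCast_eq_zero_iff] at h2
  exact hp2 ((Nat.prime_dvd_prime_iff_eq (Fact.out : p.Prime) Nat.prime_two).mp h2)

theorem bpg_eq_zero_of_neg_eq (hp2 : p ≠ 2) {v : V} (h : -v = v) : v = 0 := by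
  have h2 : (2 : ZMod p) • v = 0 := by
    rw [two_smul]
    nth_rewrite 1 [← h]
    exact neg_add_cancel v
  exact (smul_eq_zero.mp h2).resolve_left (bpg_two_ne_zero hp2)

/-- shape of a unipotent map in a "basis" `e, e'` with `f e = e`. -/
theorem bpg_transvection_form {f : Module.End (ZMod p) V} (hf : (f - 1) * (f - 1) = 0) {e e' : V}
    (hspan : ∀ v : V, ∃ α β : ZMod p, v = α • e + β • e') (he : f e = e) (he' : f e' ≠ e') :
    ∃ a : ZMod p, a ≠ 0 ∧ f e' = e' + a • e := by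
  obtain ⟨α, β, hαβ⟩ := hspan ((f - 1) e')
  have hne : (f - 1) e' ≠ 0 := by
    intro h
    apply he'
    have : f e' - e' = 0 := by simpa using h
    exact sub_eq_zero.mp this
  have h0 : (f - 1) ((f - 1) e') = 0 := by
    have := congrArg (fun g : Module.End (ZMod p) V => g e') hf
    simpa using this
  have h1 : (f - 1) e = 0 := by simp [he]
  have hβ : β = 0 := by
    have h2 : (f - 1) ((f - 1) e') = β • (f - 1) e' := by
      conv_lhs => rw [hαβ]
      rw [map_add, map_smul, map_smul, h1, smul_zero, zero_add]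
    rw [h0] at h2
    exact (smul_eq_zero.mp h2.symm).resolve_right hne
  rw [hβ, zero_smul, add_zero] at hαβ
  refine ⟨α, ?_, ?_⟩
  · rintro rfl
    rw [zero_smul] at hαβ
    exact hne hαβ
  · have : f e' - e' = α • e := by simpa using hαβ
    rw [← this]
    abel

/-- two transvections with different axes produce `-1`. -/
theorem bpg_exists_sq_eq_neg_one {u Y : Module.End (ZMod p) V} {e1 e2 : V}
    (hspan : ∀ v : V, ∃ α β : ZMod p, v = α • e1 + β • e2)
    (hu1 : u e1 = e1) {a : ZMod p} (ha : a ≠ 0) (hu2 : u e2 = e2 + a • e1)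
    (hY2 : Y e2 = e2) {b : ZMod p} (hb : b ≠ 0) (hY1 : Y e1 = e1 + b • e2)
    (hYsq : (Y - 1) * (Y - 1) = 0) :
    ∃ j : ℕ, ∀ v : V, (Y ^ j * u) ((Y ^ j * u) v) = -v := by
  set c : ZMod p := -2 / (a * b) with hc
  have hcab : c * a * b = -2 := by
    rw [hc]
    field_simp
  refine ⟨c.val, ?_⟩
  have hj : ((c.val : ℕ) : ZMod p) = c := ZMod.natCast_zmod_val c
  have hYj : Y ^ c.val = 1 + c • (Y - 1) := by
    rw [brg_pow_eq_of_sq_zero Y hYsq, ← Nat.cast_smul_eq_nsmul (ZMod p), hj]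
  have hM1 : (Y ^ c.val * u) e1 = e1 + (c * b) • e2 := by
    rw [Module.End.mul_apply, hu1, hYj]
    simp only [LinearMap.add_apply, Module.End.one_apply, LinearMap.smul_apply, LinearMap.sub_apply,
      hY1]
    rw [add_sub_cancel_left, smul_smul]
  have hM2 : (Y ^ c.val * u) e2 = a • e1 - e2 := by
    rw [Module.End.mul_apply, hu2, hYj]
    simp only [LinearMap.add_apply, Module.End.one_apply, LinearMap.smul_apply, LinearMap.sub_apply,
      map_add, map_smul, hY1, hY2]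
    rw [sub_self, smul_zero, add_zero, add_sub_cancel_left, smul_smul, smul_add, smul_smul]
    have : a * (c * b) = -2 := by rw [← hcab]; ring
    rw [this]
    module
  have h1 : c * b * a = -2 := by rw [← hcab]; ring
  have h2 : a * (c * b) = -2 := by rw [← hcab]; ring
  generalize Y ^ c.val * u = M at hM1 hM2
  have hMM1 : M (M e1) = -e1 := by
    rw [hM1, map_add, map_smul, hM1, hM2, smul_sub, smul_smul, h1]
    module
  have hMM2 : M (M e2) = -e2 := by
    rw [hM2, map_sub, map_smul, hM1, hM2, smul_add, smul_smul, h2]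
    module
  intro v
  obtain ⟨α, β, rfl⟩ := hspan v
  rw [map_add, map_smul, map_smul, map_add, map_smul, map_smul, hMM1, hMM2]
  module

end Linear

section NegUnipotent

variable {p : ℕ} [Fact p.Prime] {G : Type*} [Group G] {V : Type*} [AddCommGroup V]
  [Module (ZMod p) V] [DistribMulAction G V]

theorem bpg_pow_smul_eq_of_end {σ : G} {f : Module.End (ZMod p) V} (hσ : ∀ v : V, σ • v = f v)
    (k : ℕ) (v : V) : σ ^ k • v = (f ^ k) v := by
  induction k generalizing v with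
  | zero => simp
  | succ k ih => rw [pow_succ, mul_smul, hσ, ih, pow_succ, Module.End.mul_apply]

/-- the conclusions (with `r = 2`) for an element acting as `-u`, `u` unipotent. -/
theorem bpg_of_neg_unipotent [Nontrivial V] (hp2 : p ≠ 2) {σ : G} {u : Module.End (ZMod p) V}
    (hu : (u - 1) * (u - 1) = 0) (hσ : ∀ v : V, σ • v = -(u v)) :
    (∀ v : V, σ ^ (2 * p) • v = v) ∧
    (∀ k : ℕ, ¬ 2 ∣ k → ∀ v : V, σ ^ k • v = v → v = 0) ∧
    (∃ v : V, σ ^ p • v ≠ v) := by
  have hp : p.Prime := Fact.out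
  have hσ' : ∀ v : V, σ • v = (-u) v := fun v => by rw [hσ, LinearMap.neg_apply]
  have hpow := bpg_pow_smul_eq_of_end hσ'
  have hup : u ^ p = 1 := brg_pow_p_eq_one u hu
  have h2 := bpg_two_ne_zero (p := p) hp2
  refine ⟨?_, ?_, ?_⟩
  · intro v
    rw [hpow, Even.neg_pow (even_two_mul p), pow_mul', hup, one_pow, Module.End.one_apply]
  · intro k hk v hv
    have hodd : Odd k := Nat.odd_iff.mpr (Nat.two_dvd_ne_zero.mp hk)
    rw [hpow, hodd.neg_pow, LinearMap.neg_apply] at hv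
    set f : Module.End (ZMod p) V := u ^ k with hf
    have hfsq : (f - 1) * (f - 1) = 0 := by
      have : f - 1 = k • (u - 1) := by
        rw [hf, brg_pow_eq_of_sq_zero u hu k, add_sub_cancel_left]
      rw [this, smul_mul_assoc, mul_smul_comm, hu, smul_zero, smul_zero]
    have hfv : f v = -v := neg_eq_iff_eq_neg.mp hv
    have h3 : (f - 1) v = (-2 : ZMod p) • v := by
      rw [LinearMap.sub_apply, hfv, Module.End.one_apply]
      module
    have h4 : (f - 1) ((f - 1) v) = 0 := by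
      have := congrArg (fun g : Module.End (ZMod p) V => g v) hfsq
      simpa using this
    rw [h3, map_smul, h3, smul_smul] at h4
    exact (smul_eq_zero.mp h4).resolve_left
      (mul_ne_zero (neg_ne_zero.mpr h2) (neg_ne_zero.mpr h2))
  · obtain ⟨v, hv⟩ := exists_ne (0 : V)
    refine ⟨v, fun h => hv ?_⟩
    rw [hpow, (hp.odd_of_ne_two hp2).neg_pow, hup, LinearMap.neg_apply, Module.End.one_apply] at h
    exact bpg_eq_zero_of_neg_eq hp2 h

end NegUnipotent

/-! ## elements of `p`-power order are unipotent -/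

section Unipotent

variable {p : ℕ} [Fact p.Prime] {V : Type*} [AddCommGroup V] [Module (ZMod p) V]

theorem bpg_unipotent_of_pPow (hcard : Nat.card V = p ^ 2) (e : V ≃ₗ[ZMod p] V) {a : ℕ}
    (he : e ^ (p ^ a) = 1) :
    ((e : V →ₗ[ZMod p] V) - 1) * ((e : V →ₗ[ZMod p] V) - 1) = 0 := by
  classical
  have hp : p.Prime := Fact.out
  have hfin : Finite V := brg_finite_of_card hcard
  have : Finite (V ≃ₗ[ZMod p] V) :=
    Finite.of_injective (fun e : V ≃ₗ[ZMod p] V => (e : V → V)) DFunLike.coe_injective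
  -- determinant one
  have hdet : LinearMap.det (e : V →ₗ[ZMod p] V) = 1 := by
    set d : (ZMod p)ˣ := LinearEquiv.det e with hd
    have h1 : d ^ (p ^ a) = 1 := by rw [hd, ← map_pow, he, map_one]
    have h2 : d ^ (p - 1) = 1 := ZMod.units_pow_card_sub_one_eq_one p d
    have hcop : Nat.Coprime (p ^ a) (p - 1) := by
      apply Nat.Coprime.pow_left
      rw [hp.coprime_iff_not_dvd]
      intro hdvd
      have := Nat.le_of_dvd (Nat.sub_pos_of_lt hp.one_lt) hdvd
      have := hp.one_lt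
      omega
    have h3 := pow_gcd_eq_one.mpr ⟨h1, h2⟩
    rw [hcop.gcd_eq_one, pow_one] at h3
    rw [← LinearEquiv.coe_det, ← hd, h3]
    rfl
  -- a nonzero fixed vector
  let P : Subgroup (V ≃ₗ[ZMod p] V) := Subgroup.zpowers e
  have hP : IsPGroup p P := by
    have hdvd : orderOf e ∣ p ^ a := orderOf_dvd_of_pow_eq_one he
    obtain ⟨b, -, hb⟩ := (Nat.dvd_prime_pow hp).mp hdvd
    exact IsPGroup.of_card (n := b) (by rw [Nat.card_zpowers, hb])
  have hpV : p ∣ Nat.card V := by rw [hcard]; exact dvd_pow_self p two_ne_zero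
  have h0 : (0 : V) ∈ MulAction.fixedPoints P V := fun n => by
    change (n.1 : V ≃ₗ[ZMod p] V) 0 = 0
    exact map_zero _
  obtain ⟨b, hb, hb0⟩ := hP.exists_fixed_point_of_prime_dvd_card_of_fixed_point V hpV h0
  have hfb : (e : V →ₗ[ZMod p] V) b = b := hb ⟨e, Subgroup.mem_zpowers e⟩
  exact brg_sub_one_sq hcard (e : V →ₗ[ZMod p] V) hdet (Ne.symm hb0) hfb

end Unipotent

/-! ## the case where `χ` factors through the image of `K` in `GL(V)` -/

theorem bpg_exists_sigma_of_factors {p : ℕ} [Fact p.Prime] (hp2 : p ≠ 2)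
    {G : Type*} [Group G] {V : Type*} [AddCommGroup V] [Module (ZMod p) V]
    [DistribMulAction G V] [SMulCommClass G (ZMod p) V]
    (hcard : Nat.card V = p ^ 2)
    (hirr : ∀ N : Submodule (ZMod p) V, (∀ g : G, ∀ x ∈ N, g • x ∈ N) → N = ⊥ ∨ N = ⊤)
    (K : Subgroup G) [hK : K.Normal]
    {C : Type*} [CommGroup C] (hC : ∀ c : C, c ^ p = 1) (χ : K →* C)
    (hB : ∀ τ : K, (∀ v : V, (τ : G) • v = v) → χ τ = 1) (x : K) (hx : χ x ≠ 1) :
    ∃ σ : K, (∀ v : V, (σ : G) ^ (2 * p) • v = v) ∧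
      (∀ k : ℕ, ¬ 2 ∣ k → ∀ v : V, (σ : G) ^ k • v = v → v = 0) ∧
      (∃ v : V, (σ : G) ^ p • v ≠ v) ∧ χ σ ≠ 1 := by
  classical
  have hp : p.Prime := Fact.out
  have hfin : Finite V := brg_finite_of_card hcard
  have hmf : Module.Finite (ZMod p) V := Module.Finite.of_finite
  have hrk := brg_finrank_of_card hcard
  have hnt : Nontrivial V := by
    rw [← Finite.one_lt_card_iff_nontrivial, hcard]
    exact Nat.one_lt_pow (by norm_num) hp.one_lt
  have : Finite (V ≃ₗ[ZMod p] V) :=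
    Finite.of_injective (fun e : V ≃ₗ[ZMod p] V => (e : V → V)) DFunLike.coe_injective
  let ρ : G →* (V ≃ₗ[ZMod p] V) := DistribMulAction.toModuleAut (ZMod p) V
  have hρ : ∀ g v, ρ g v = g • v := fun _ _ => rfl
  -- the `p`-part of `x`
  have hn0 : orderOf (ρ (x : G)) ≠ 0 := (orderOf_pos _).ne'
  obtain ⟨a, m', hm', hn⟩ := Nat.exists_eq_pow_mul_and_not_dvd hn0 p hp.ne_one
  obtain ⟨x', hx'⟩ : ∃ x' : K, x' = x ^ m' := ⟨_, rfl⟩
  have hx'G : (x' : G) = (x : G) ^ m' := by rw [hx']; rfl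
  have hχx' : χ x' ≠ 1 := by
    rw [hx', map_pow]
    intro h
    have hcop : Nat.Coprime m' p := ((hp.coprime_iff_not_dvd).mpr hm').symm
    have h3 := pow_gcd_eq_one.mpr ⟨h, hC (χ x)⟩
    rw [hcop.gcd_eq_one, pow_one] at h3
    exact hx h3
  have hρx' : (ρ (x' : G)) ^ (p ^ a) = 1 := by
    rw [hx'G, map_pow, ← pow_mul, mul_comm, ← hn, pow_orderOf_eq_one]
  obtain ⟨u, hu⟩ : ∃ u : Module.End (ZMod p) V, u = (ρ (x' : G)).toLinearMap := ⟨_, rfl⟩
  have hux : ∀ v, u v = (x' : G) • v := fun v => by rw [hu]; rfl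
  have husq : (u - 1) * (u - 1) = 0 := by
    rw [hu]
    exact bpg_unipotent_of_pPow hcard (ρ (x' : G)) hρx'
  have hu1 : u ≠ 1 := by
    intro h
    apply hχx'
    apply hB
    intro v
    rw [← hux, h, Module.End.one_apply]
  -- the axis of `u` is not stable
  obtain ⟨ℓ, hℓ⟩ : ∃ ℓ : Submodule (ZMod p) V, ℓ = LinearMap.ker (u - 1) := ⟨_, rfl⟩
  have hℓmem : ∀ v, v ∈ ℓ ↔ u v = v := by
    intro v
    rw [hℓ, LinearMap.mem_ker, LinearMap.sub_apply, Module.End.one_apply, sub_eq_zero]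
  have hℓbot : ℓ ≠ ⊥ := by
    intro hbot
    apply hu1
    ext v
    have h1 : (u - 1) v ∈ ℓ := by
      rw [hℓ, LinearMap.mem_ker]
      have := congrArg (fun g : Module.End (ZMod p) V => g v) husq
      simpa using this
    rw [hbot, Submodule.mem_bot, LinearMap.sub_apply, Module.End.one_apply, sub_eq_zero] at h1
    rw [h1, Module.End.one_apply]
  have hℓtop : ℓ ≠ ⊤ := by
    intro htop
    apply hu1
    ext v
    have : v ∈ ℓ := by rw [htop]; trivial
    rw [(hℓmem v).mp this, Module.End.one_apply]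
  have hnstab : ¬ ∀ g : G, ∀ v ∈ ℓ, g • v ∈ ℓ := fun h => (hirr ℓ h).elim hℓbot hℓtop
  push Not at hnstab
  obtain ⟨g₀, e1, he1, he2⟩ := hnstab
  obtain ⟨e2, he2def⟩ : ∃ e2 : V, e2 = g₀ • e1 := ⟨_, rfl⟩
  rw [← he2def] at he2
  have hue1 : u e1 = e1 := (hℓmem e1).mp he1
  have hue2 : u e2 ≠ e2 := fun h => he2 ((hℓmem e2).mpr h)
  have he1ne : e1 ≠ 0 := by
    rintro rfl
    apply he2
    rw [he2def, smul_zero]
    exact ℓ.zero_mem
  -- `e1, e2` span `V`
  have hli : LinearIndependent (ZMod p) ![e1, e2] := by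
    rw [LinearIndependent.pair_iff]
    intro s t hst
    have h1 : (u - 1) (s • e1 + t • e2) = 0 := by rw [hst, map_zero]
    rw [map_add, map_smul, map_smul, LinearMap.sub_apply, LinearMap.sub_apply, Module.End.one_apply,
      Module.End.one_apply, hue1, sub_self, smul_zero, zero_add] at h1
    have ht : t = 0 := (smul_eq_zero.mp h1).resolve_right (sub_ne_zero.mpr hue2)
    rw [ht, zero_smul, add_zero] at hst
    exact ⟨(smul_eq_zero.mp hst).resolve_right he1ne, ht⟩
  have hspan : ∀ v : V, ∃ α β : ZMod p, v = α • e1 + β • e2 := by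
    have htop := hli.span_eq_top_of_card_eq_finrank' (by rw [Fintype.card_fin, hrk])
    intro v
    have hv : v ∈ Submodule.span (ZMod p) (Set.range ![e1, e2]) := by rw [htop]; trivial
    have hrange : Set.range ![e1, e2] = {e1, e2} := by
      rw [Matrix.range_cons, Matrix.range_cons, Matrix.range_empty, Set.union_empty,
        Set.singleton_union]
    rw [hrange, Submodule.mem_span_pair] at hv
    obtain ⟨α, β, h⟩ := hv
    exact ⟨α, β, h.symm⟩
  have hspan' : ∀ v : V, ∃ α β : ZMod p, v = α • e2 + β • e1 := by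
    intro v
    obtain ⟨α, β, h⟩ := hspan v
    exact ⟨β, α, by rw [h, add_comm]⟩
  -- the conjugate transvection
  have hyK : g₀ * (x' : G) * g₀⁻¹ ∈ K := hK.conj_mem _ x'.2 g₀
  obtain ⟨y, hy⟩ : ∃ y : K, y = ⟨g₀ * (x' : G) * g₀⁻¹, hyK⟩ := ⟨_, rfl⟩
  have hyG : (y : G) = g₀ * (x' : G) * g₀⁻¹ := by rw [hy]
  obtain ⟨A, hA⟩ : ∃ A : Module.End (ZMod p) V, A = (ρ g₀).toLinearMap := ⟨_, rfl⟩
  obtain ⟨A', hA'⟩ : ∃ A' : Module.End (ZMod p) V, A' = (ρ g₀⁻¹).toLinearMap := ⟨_, rfl⟩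
  have hAv : ∀ v, A v = g₀ • v := fun v => by rw [hA]; rfl
  have hA'v : ∀ v, A' v = g₀⁻¹ • v := fun v => by rw [hA']; rfl
  have hAA' : A * A' = 1 := by
    ext v
    rw [Module.End.mul_apply, hAv, hA'v, smul_inv_smul, Module.End.one_apply]
  have hA'A : A' * A = 1 := by
    ext v
    rw [Module.End.mul_apply, hAv, hA'v, inv_smul_smul, Module.End.one_apply]
  obtain ⟨Y, hY⟩ : ∃ Y : Module.End (ZMod p) V, Y = (ρ (y : G)).toLinearMap := ⟨_, rfl⟩
  have hYv : ∀ v, Y v = (y : G) • v := fun v => by rw [hY]; rfl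
  have hYeq : Y = A * u * A' := by
    ext v
    rw [hYv, hyG, Module.End.mul_apply, Module.End.mul_apply, hAv, hux, hA'v, mul_smul, mul_smul]
  have hYsq : (Y - 1) * (Y - 1) = 0 := by
    have h1 : Y - 1 = A * (u - 1) * A' := by
      rw [hYeq, mul_sub, sub_mul, mul_one, hAA']
    rw [h1]
    calc A * (u - 1) * A' * (A * (u - 1) * A')
        = A * ((u - 1) * (A' * A) * (u - 1)) * A' := by simp only [mul_assoc]
      _ = 0 := by rw [hA'A, mul_one, husq, mul_zero, zero_mul]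
  have hYe2 : Y e2 = e2 := by
    rw [hYeq, Module.End.mul_apply, Module.End.mul_apply, hAv, hA'v, he2def, inv_smul_smul, hue1]
  have hYe1 : Y e1 ≠ e1 := by
    intro h
    apply hu1
    have hY1 : Y = 1 := by
      ext v
      obtain ⟨α, β, rfl⟩ := hspan v
      rw [map_add, map_smul, map_smul, h, hYe2, Module.End.one_apply]
    have h2 : u = A' * Y * A := by
      rw [hYeq]
      calc u = (A' * A) * u * (A' * A) := by rw [hA'A, one_mul, mul_one]
        _ = A' * (A * u * A') * A := by simp only [mul_assoc]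
    rw [h2, hY1, mul_one, hA'A]
  obtain ⟨a', ha', hu2⟩ := bpg_transvection_form husq hspan hue1 hue2
  obtain ⟨b', hb', hY1⟩ := bpg_transvection_form hYsq hspan' hYe2 hYe1
  obtain ⟨j, hj⟩ := bpg_exists_sq_eq_neg_one hspan hue1 ha' hu2 hYe2 hb' hY1 hYsq
  -- the element acting as `-1`
  obtain ⟨w, hw⟩ : ∃ w : K, w = y ^ j * x' := ⟨_, rfl⟩
  have hwG : (w : G) = (y : G) ^ j * (x' : G) := by rw [hw]; rfl
  have hwV : ∀ v : V, (w : G) • v = (Y ^ j * u) v := by
    intro v
    rw [hwG, mul_smul, Module.End.mul_apply, ← hux]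
    exact bpg_pow_smul_eq_of_end (f := Y) (fun t => (hYv t).symm) j _
  obtain ⟨z, hz⟩ : ∃ z : K, z = w * w := ⟨_, rfl⟩
  have hzG : (z : G) = (w : G) * (w : G) := by rw [hz]; rfl
  have hzV : ∀ v : V, (z : G) • v = -v := by
    intro v
    rw [hzG, mul_smul, hwV, hwV, hj]
  have hχz : χ z = 1 := by
    have h1 : χ (z * z) = 1 := by
      apply hB
      intro v
      have : ((z * z : K) : G) = (z : G) * (z : G) := rfl
      rw [this, mul_smul, hzV, hzV, neg_neg]
    rw [map_mul, ← pow_two] at h1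
    have h3 := pow_gcd_eq_one.mpr ⟨h1, hC (χ z)⟩
    have hcop : Nat.Coprime 2 p := (Nat.coprime_primes Nat.prime_two hp).mpr (Ne.symm hp2)
    rwa [hcop.gcd_eq_one, pow_one] at h3
  refine ⟨z * x', ?_⟩
  have hσV : ∀ v : V, ((z * x' : K) : G) • v = -(u v) := by
    intro v
    have : ((z * x' : K) : G) = (z : G) * (x' : G) := rfl
    rw [this, mul_smul, hzV, ← hux]
  obtain ⟨h1, h2, h3⟩ := bpg_of_neg_unipotent hp2 husq hσV
  refine ⟨h1, h2, h3, ?_⟩
  rw [map_mul, hχz, one_mul]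
  exact hχx'

/-! ## the main statement -/

/-- **BP-GRP** (exact statement of `BridgePrimeSpec.bpg_exists_sigma`). -/
theorem bpg_exists_sigma {p : ℕ} [Fact p.Prime] (hp2 : p ≠ 2)
    {G : Type*} [Group G] {V : Type*} [AddCommGroup V] [Module (ZMod p) V]
    [DistribMulAction G V] [SMulCommClass G (ZMod p) V]
    (hcard : Nat.card V = p ^ 2)
    (hirr : ∀ N : Submodule (ZMod p) V, (∀ g : G, ∀ x ∈ N, g • x ∈ N) → N = ⊥ ∨ N = ⊤)
    (K : Subgroup G) [hK : K.Normal] (hKV : ¬ ∀ g ∈ K, ∀ v : V, g • v = v)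
    {C : Type*} [CommGroup C] (hC : ∀ c : C, c ^ p = 1)
    (χ : K →* C) (hχ : ∃ τ : K, χ τ ≠ 1) :
    ∃ (σ : G) (hσ : σ ∈ K) (r : ℕ), r.Prime ∧ r ≠ p ∧ (∀ v : V, σ ^ (r * p) • v = v) ∧
      (∀ k : ℕ, ¬ r ∣ k → ¬ p ∣ k → ∀ v : V, σ ^ k • v = v → v = 0) ∧
      (∃ v : V, σ ^ p • v ≠ v) ∧ χ ⟨σ, hσ⟩ ≠ 1 := by
  classical
  have hp : p.Prime := Fact.out
  have hfin : Finite V := brg_finite_of_card hcard
  have hnt : Nontrivial V := by
    rw [← Finite.one_lt_card_iff_nontrivial, hcard]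
    exact Nat.one_lt_pow (by norm_num) hp.one_lt
  obtain ⟨g, r, hgK, hr, hrp, hgr, hgfpf⟩ :=
    (brg2_exists_fixedPointFree_normal hcard hirr K).resolve_right hKV
  by_cases hχg : χ ⟨g, hgK⟩ = 1
  swap
  · obtain ⟨h1, h2, h3⟩ := bpg_of_fpf hp g hr hrp hgr hgfpf
    exact ⟨g, hgK, r, hr, hrp, h1, h2, h3, hχg⟩
  by_cases hA : ∃ τ : K, (∀ v : V, (τ : G) • v = v) ∧ χ τ ≠ 1
  · obtain ⟨τ, hτV, hτχ⟩ := hA
    have hσK : g * (τ : G) ∈ K := K.mul_mem hgK τ.2
    obtain ⟨h1, h2, h3⟩ := bpg_of_fpf hp (g * (τ : G)) hr hrp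
      (fun v => by rw [bpg_mul_pow_smul hτV]; exact hgr v)
      (fun v hv => hgfpf v (by rwa [mul_smul, hτV] at hv))
    refine ⟨g * (τ : G), hσK, r, hr, hrp, h1, h2, h3, ?_⟩
    have h4 : (⟨g * (τ : G), hσK⟩ : K) = ⟨g, hgK⟩ * τ := rfl
    rw [h4, map_mul, hχg, one_mul]
    exact hτχ
  · push Not at hA
    obtain ⟨x, hx⟩ := hχ
    obtain ⟨σ, h1, h2, h3, h4⟩ :=
      bpg_exists_sigma_of_factors hp2 hcard hirr K hC χ hA x hx
    exact ⟨(σ : G), σ.2, 2, Nat.prime_two, Ne.symm hp2, h1, fun k hk _ => h2 k hk, h3, h4⟩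

end Fermat.Agent.S41x
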