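/-
S41 side project "BRIDGE-prime", row FD2-AN (helper70): two-extension version of `FDAnalytic.lean`.
For two Galois extensions `L₁/K`, `L₂/K` of number fields with `1/[L₁:K] + 1/[L₂:K] < 1`
(e.g. two distinct prime degrees) there are infinitely many degree-one primes of `K` which split
completely in NEITHER `L₁` NOR `L₂`.

Proof: otherwise `log ζ_K(s) ≤ (1/n₁) log ζ_{L₁}(s) + (1/n₂) log ζ_{L₂}(s) + C` on `(1,2]`
(same bookkeeping as in `FDAnalytic.lean`), i.e. `ζ_K ≤ e^C ζ_{L₁}^{1/n₁} ζ_{L₂}^{1/n₂}`, which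
contradicts the simple poles at `s = 1` because `1/n₁ + 1/n₂ < 1`.

Prefix `fd2an_`; main theorem `fd2an_infinite_nonsplit`.
-/
import Mathlib
import Fermat.Agent.S41x.FDAnalytic

set_option autoImplicit false

namespace Fermat.Agent.S41x

open NumberField IsDedekindDomain Fermat.Agent.S14x Filter Topology

section Analytic

/-- abstract comparison: `f ≤ A (s-1)^ε g₁^θ₁ g₂^θ₂` with `ε > 0` is impossible if
`f → r > 0` and `gᵢ → rᵢ > 0` as `s ↓ 1`. -/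
theorem fd2an_false_of_tendsto (f g₁ g₂ : ℝ → ℝ) {r r₁ r₂ A θ₁ θ₂ ε : ℝ} (hr : 0 < r)
    (hr₁ : 0 < r₁) (hr₂ : 0 < r₂) (hε : 0 < ε)
    (hf : Tendsto f (𝓝[>] 1) (𝓝 r)) (hg₁ : Tendsto g₁ (𝓝[>] 1) (𝓝 r₁))
    (hg₂ : Tendsto g₂ (𝓝[>] 1) (𝓝 r₂))
    (hcmp : ∀ᶠ s in 𝓝[>] (1 : ℝ), f s ≤ A * (s - 1) ^ ε * g₁ s ^ θ₁ * g₂ s ^ θ₂) : False := by
  have h0 : Tendsto (fun s : ℝ => (s - 1) ^ ε) (𝓝[>] 1) (𝓝 0) := by
    have h0 : Tendsto (fun t : ℝ => t ^ ε) (𝓝 0) (𝓝 ((0:ℝ) ^ ε)) :=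
      (Real.continuousAt_rpow_const 0 ε (Or.inr hε.le)).tendsto
    rw [Real.zero_rpow hε.ne'] at h0
    have h00 : Tendsto (fun s : ℝ => s - 1) (𝓝 1) (𝓝 0) := by
      have : Tendsto (fun s : ℝ => s - 1) (𝓝 1) (𝓝 (1 - 1)) :=
        (continuous_id.sub continuous_const).tendsto 1
      simpa using this
    exact (h0.comp h00).mono_left nhdsWithin_le_nhds
  have h1 : Tendsto (fun s : ℝ => g₁ s ^ θ₁) (𝓝[>] 1) (𝓝 (r₁ ^ θ₁)) :=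
    hg₁.rpow_const (Or.inl hr₁.ne')
  have h2 : Tendsto (fun s : ℝ => g₂ s ^ θ₂) (𝓝[>] 1) (𝓝 (r₂ ^ θ₂)) :=
    hg₂.rpow_const (Or.inl hr₂.ne')
  have h3 : Tendsto (fun s : ℝ => A * (s - 1) ^ ε * g₁ s ^ θ₁ * g₂ s ^ θ₂) (𝓝[>] 1)
      (𝓝 (A * 0 * r₁ ^ θ₁ * r₂ ^ θ₂)) :=
    ((h0.const_mul A).mul h1).mul h2
  have h4 : r ≤ A * 0 * r₁ ^ θ₁ * r₂ ^ θ₂ := le_of_tendsto_of_tendsto hf h3 hcmp
  simp only [mul_zero, zero_mul] at h4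
  linarith

/-- number field version: `‖ζ_K‖ ≤ A ‖ζ_{L₁}‖^θ₁ ‖ζ_{L₂}‖^θ₂` on `(1,2]` is impossible for
`θ₁ + θ₂ < 1`. -/
theorem fd2an_false_of_dedekindZeta (K L₁ L₂ : Type*) [Field K] [NumberField K] [Field L₁]
    [NumberField L₁] [Field L₂] [NumberField L₂] {A θ₁ θ₂ : ℝ} (hθ : θ₁ + θ₂ < 1)
    (hcmp : ∀ s : ℝ, 1 < s → s ≤ 2 →
      ‖dedekindZeta K (s : ℂ)‖ ≤
        A * ‖dedekindZeta L₁ (s : ℂ)‖ ^ θ₁ * ‖dedekindZeta L₂ (s : ℂ)‖ ^ θ₂) : False := by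
  refine fd2an_false_of_tendsto (fun s : ℝ => (s - 1) * ‖dedekindZeta K (s : ℂ)‖)
    (fun s : ℝ => (s - 1) * ‖dedekindZeta L₁ (s : ℂ)‖)
    (fun s : ℝ => (s - 1) * ‖dedekindZeta L₂ (s : ℂ)‖) (A := A) (θ₁ := θ₁) (θ₂ := θ₂)
    (ε := 1 - θ₁ - θ₂) (dedekindZeta_residue_pos K) (dedekindZeta_residue_pos L₁)
    (dedekindZeta_residue_pos L₂) (by linarith) (fgc_tendsto_norm_dedekindZeta K)
    (fgc_tendsto_norm_dedekindZeta L₁) (fgc_tendsto_norm_dedekindZeta L₂) ?_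
  have h4 : ∀ᶠ s in 𝓝[>] (1:ℝ), 1 < s := eventually_mem_nhdsWithin
  have h5 : ∀ᶠ s in 𝓝[>] (1:ℝ), s ≤ 2 := by
    have : ∀ᶠ s in 𝓝 (1:ℝ), s ≤ 2 := eventually_le_nhds (by norm_num)
    exact this.filter_mono nhdsWithin_le_nhds
  filter_upwards [h4, h5] with s hs1 hs2
  have ht : 0 < s - 1 := by linarith
  have hc := hcmp s hs1 hs2
  have e1 : ((s - 1) * ‖dedekindZeta L₁ (s : ℂ)‖) ^ θ₁ =
      (s - 1) ^ θ₁ * ‖dedekindZeta L₁ (s : ℂ)‖ ^ θ₁ :=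
    Real.mul_rpow ht.le (norm_nonneg _)
  have e2 : ((s - 1) * ‖dedekindZeta L₂ (s : ℂ)‖) ^ θ₂ =
      (s - 1) ^ θ₂ * ‖dedekindZeta L₂ (s : ℂ)‖ ^ θ₂ :=
    Real.mul_rpow ht.le (norm_nonneg _)
  have e3 : (s - 1) ^ (1 - θ₁ - θ₂) * (s - 1) ^ θ₁ * (s - 1) ^ θ₂ = s - 1 := by
    rw [← Real.rpow_add ht, ← Real.rpow_add ht]
    have : 1 - θ₁ - θ₂ + θ₁ + θ₂ = 1 := by ring
    rw [this, Real.rpow_one]
  rw [e1, e2]
  calc (s - 1) * ‖dedekindZeta K (s : ℂ)‖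
      ≤ (s - 1) * (A * ‖dedekindZeta L₁ (s : ℂ)‖ ^ θ₁ * ‖dedekindZeta L₂ (s : ℂ)‖ ^ θ₂) :=
        mul_le_mul_of_nonneg_left hc ht.le
    _ = ((s - 1) ^ (1 - θ₁ - θ₂) * (s - 1) ^ θ₁ * (s - 1) ^ θ₂) *
          (A * ‖dedekindZeta L₁ (s : ℂ)‖ ^ θ₁ * ‖dedekindZeta L₂ (s : ℂ)‖ ^ θ₂) := by rw [e3]
    _ = A * (s - 1) ^ (1 - θ₁ - θ₂) * ((s - 1) ^ θ₁ * ‖dedekindZeta L₁ (s : ℂ)‖ ^ θ₁) *
          ((s - 1) ^ θ₂ * ‖dedekindZeta L₂ (s : ℂ)‖ ^ θ₂) := by ring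

end Analytic

section Main

variable (K L₁ L₂ : Type) [Field K] [NumberField K] [Field L₁] [NumberField L₁] [Field L₂]
  [NumberField L₂] [Algebra K L₁] [Algebra K L₂]

/-- pointwise decomposition, two extensions. -/
theorem fd2an_pointwise (S : Set (Pl K))
    (hS : ∀ v : Pl K, (plNorm v).Prime → ¬ SplitsCompletely K L₁ v → ¬ SplitsCompletely K L₂ v →
      v ∈ S) {s : ℝ} (hs : 1 ≤ s) (v : Pl K) :
    ((plNorm v : ℕ) : ℝ) ^ (-s) ≤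
      fdanC K L₁ s v + fdanC K L₂ s v + fdanA K v + S.indicator (fun _ => (1 : ℝ)) v := by
  have hx0 : (0 : ℝ) ≤ ((plNorm v : ℕ) : ℝ) ^ (-s) := Real.rpow_nonneg (Nat.cast_nonneg _) _
  have hA := fdan_A_nonneg K v
  have hI : (0 : ℝ) ≤ S.indicator (fun _ => (1 : ℝ)) v :=
    Set.indicator_nonneg (fun _ _ => zero_le_one) v
  have hC1 := fdan_C_nonneg (K := K) (L := L₁) s v
  have hC2 := fdan_C_nonneg (K := K) (L := L₂) s v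
  by_cases hv1 : SplitsCompletely K L₁ v
  · have : fdanC K L₁ s v = ((plNorm v : ℕ) : ℝ) ^ (-s) := by
      unfold fdanC; rw [if_pos hv1]
    linarith
  by_cases hv2 : SplitsCompletely K L₂ v
  · have : fdanC K L₂ s v = ((plNorm v : ℕ) : ℝ) ^ (-s) := by
      unfold fdanC; rw [if_pos hv2]
    linarith
  by_cases hp : (plNorm v).Prime
  · have hmem := hS v hp hv1 hv2
    rw [Set.indicator_of_mem hmem]
    have := fzs_rpow_neg_le_one v (by linarith : (0 : ℝ) ≤ s)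
    linarith
  · have h1 : fdanA K v = ((plNorm v : ℕ) : ℝ)⁻¹ := by unfold fdanA; rw [if_neg hp]
    have h2 : ((plNorm v : ℕ) : ℝ) ^ (-s) ≤ ((plNorm v : ℕ) : ℝ)⁻¹ := by
      rw [← Real.rpow_neg_one]
      exact Real.rpow_le_rpow_of_exponent_le (fzs_one_le_plNorm v) (by linarith)
    rw [h1]
    linarith

variable [IsGalois K L₁] [IsGalois K L₂]

/-- **FD2-AN**: if `1/[L₁:K] + 1/[L₂:K] < 1` then infinitely many degree-one primes of `K` split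
completely in neither `L₁` nor `L₂`. -/
theorem fd2an_infinite_nonsplit
    (hdeg : ((Module.finrank K L₁ : ℕ) : ℝ)⁻¹ + ((Module.finrank K L₂ : ℕ) : ℝ)⁻¹ < 1) :
    {v : HeightOneSpectrum (𝓞 K) |
      (Ideal.absNorm v.asIdeal).Prime ∧
      (¬ ∀ w : HeightOneSpectrum (𝓞 L₁),
        w.asIdeal.under (𝓞 K) = v.asIdeal →
          Ideal.ramificationIdx w.asIdeal (𝓞 K) = 1 ∧
          Ideal.inertiaDeg w.asIdeal (𝓞 K) = 1) ∧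
      (¬ ∀ w : HeightOneSpectrum (𝓞 L₂),
        w.asIdeal.under (𝓞 K) = v.asIdeal →
          Ideal.ramificationIdx w.asIdeal (𝓞 K) = 1 ∧
          Ideal.inertiaDeg w.asIdeal (𝓞 K) = 1)}.Infinite := by
  intro hfin
  set S : Set (Pl K) := {v : Pl K | (plNorm v).Prime ∧ ¬ SplitsCompletely K L₁ v ∧
    ¬ SplitsCompletely K L₂ v} with hSdef
  have hSfin : S.Finite := hfin
  have hSmem : ∀ v : Pl K, (plNorm v).Prime → ¬ SplitsCompletely K L₁ v →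
      ¬ SplitsCompletely K L₂ v → v ∈ S := fun v h1 h2 h3 => ⟨h1, h2, h3⟩
  set n₁ : ℕ := Module.finrank K L₁ with hn₁
  set n₂ : ℕ := Module.finrank K L₂ with hn₂
  have hn₁0 : 0 < n₁ := Module.finrank_pos
  have hn₂0 : 0 < n₂ := Module.finrank_pos
  have hn₁R : (0 : ℝ) < n₁ := by exact_mod_cast hn₁0
  have hn₂R : (0 : ℝ) < n₂ := by exact_mod_cast hn₂0
  have hsumI : Summable (S.indicator (fun _ : Pl K => (1 : ℝ))) := by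
    refine summable_of_hasFiniteSupport (hSfin.subset ?_)
    intro v hv
    by_contra hh
    exact hv (Set.indicator_of_notMem hh _)
  have hsumA := fdan_summable_A K
  set C : ℝ := ∑' v : Pl K, fdanA K v + ∑' v : Pl K, S.indicator (fun _ => (1 : ℝ)) v +
    2 * ∑' v : Pl K, ((plNorm v : ℕ) : ℝ) ^ (-(2 : ℝ)) with hC
  refine fd2an_false_of_dedekindZeta K L₁ L₂ (A := Real.exp C) (θ₁ := (n₁ : ℝ)⁻¹)
    (θ₂ := (n₂ : ℝ)⁻¹) hdeg ?_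
  intro s hs _
  obtain ⟨hKsum, -, hK2⟩ := fdan_logsum K hs
  obtain ⟨hL1sum, hL11, -⟩ := fdan_logsum L₁ hs
  obtain ⟨hL2sum, hL21, -⟩ := fdan_logsum L₂ hs
  have hKs := fzs_prime_summable K hs
  obtain ⟨hC1sum, hC1ge⟩ := fdan_tsum_ge (K := K) (L := L₁) (fzs_prime_summable L₁ hs)
  obtain ⟨hC2sum, hC2ge⟩ := fdan_tsum_ge (K := K) (L := L₂) (fzs_prime_summable L₂ hs)
  have hP : ∑' v : Pl K, ((plNorm v : ℕ) : ℝ) ^ (-s) ≤
      ∑' v : Pl K, fdanC K L₁ s v + ∑' v : Pl K, fdanC K L₂ s v + ∑' v : Pl K, fdanA K v +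
        ∑' v : Pl K, S.indicator (fun _ => (1 : ℝ)) v := by
    have h1 := Summable.tsum_le_tsum (fd2an_pointwise K L₁ L₂ S hSmem hs.le) hKs
      (((hC1sum.add hC2sum).add hsumA).add hsumI)
    rw [Summable.tsum_add ((hC1sum.add hC2sum).add hsumA) hsumI,
      Summable.tsum_add (hC1sum.add hC2sum) hsumA, Summable.tsum_add hC1sum hC2sum] at h1
    exact h1
  have hC1le : ∑' v : Pl K, fdanC K L₁ s v ≤
      (∑' w : Pl L₁, -Real.log (1 - ((plNorm w : ℕ) : ℝ) ^ (-s))) * (n₁ : ℝ)⁻¹ := by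
    rw [← div_eq_mul_inv, le_div_iff₀ hn₁R, mul_comm]
    exact hC1ge.trans hL11
  have hC2le : ∑' v : Pl K, fdanC K L₂ s v ≤
      (∑' w : Pl L₂, -Real.log (1 - ((plNorm w : ℕ) : ℝ) ^ (-s))) * (n₂ : ℝ)⁻¹ := by
    rw [← div_eq_mul_inv, le_div_iff₀ hn₂R, mul_comm]
    exact hC2ge.trans hL21
  have hexp : ∑' v : Pl K, -Real.log (1 - ((plNorm v : ℕ) : ℝ) ^ (-s)) ≤
      C + (∑' w : Pl L₁, -Real.log (1 - ((plNorm w : ℕ) : ℝ) ^ (-s))) * (n₁ : ℝ)⁻¹ +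
        (∑' w : Pl L₂, -Real.log (1 - ((plNorm w : ℕ) : ℝ) ^ (-s))) * (n₂ : ℝ)⁻¹ := by
    rw [hC]
    linarith
  rw [fzs_norm_zeta_eq K hs, fzs_norm_zeta_eq L₁ hs, fzs_norm_zeta_eq L₂ hs]
  refine (Real.exp_le_exp.mpr hexp).trans (le_of_eq ?_)
  rw [Real.exp_add, Real.exp_add, ← Real.exp_mul, ← Real.exp_mul]

end Main

end Fermat.Agent.S41x
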