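/-
S41 side project "BRIDGE-prime", row BP-AN (helper70): the exact statement of
`BridgePrimeSpec.bpan_infinite_nonsplit2`, derived from `fd2an_infinite_nonsplit`
(`FD2Analytic.lean`): for Galois extensions `L₁/K`, `L₂/K` of number fields with
`2 ≤ [L₁:K]` and `3 ≤ [L₂:K]` (so `1/[L₁:K] + 1/[L₂:K] ≤ 1/2 + 1/3 < 1`) there are infinitely many
degree-one primes of `K` which split completely in NEITHER `L₁` NOR `L₂`.

Main theorem `Fermat.Agent.S41x.bpan_infinite_nonsplit2` (same type as the Spec row; the Spec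
file itself is never imported).
-/
import Mathlib
import Fermat.Agent.S41x.FD2Analytic

set_option autoImplicit false

namespace Fermat.Agent.S41x

/-- numeric input: `2 ≤ n₁`, `3 ≤ n₂` ⇒ `1/n₁ + 1/n₂ < 1`. -/
theorem bpan_inv_add_inv_lt_one {n₁ n₂ : ℕ} (h₁ : 2 ≤ n₁) (h₂ : 3 ≤ n₂) :
    ((n₁ : ℕ) : ℝ)⁻¹ + ((n₂ : ℕ) : ℝ)⁻¹ < 1 := by
  have h₁R : (2 : ℝ) ≤ n₁ := by exact_mod_cast h₁
  have h₂R : (3 : ℝ) ≤ n₂ := by exact_mod_cast h₂
  have e₁ : ((n₁ : ℕ) : ℝ)⁻¹ ≤ (2 : ℝ)⁻¹ := inv_anti₀ (by norm_num) h₁R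
  have e₂ : ((n₂ : ℕ) : ℝ)⁻¹ ≤ (3 : ℝ)⁻¹ := inv_anti₀ (by norm_num) h₂R
  have : (2 : ℝ)⁻¹ + (3 : ℝ)⁻¹ < 1 := by norm_num
  linarith

/-- **BP-AN** (exact BridgePrimeSpec statement). -/
theorem bpan_infinite_nonsplit2 (K L₁ L₂ : Type) [Field K] [NumberField K] [Field L₁]
    [NumberField L₁] [Field L₂] [NumberField L₂] [Algebra K L₁] [Algebra K L₂] [IsGalois K L₁]
    [IsGalois K L₂]
    (h₁ : 2 ≤ Module.finrank K L₁) (h₂ : 3 ≤ Module.finrank K L₂) :
    {v : IsDedekindDomain.HeightOneSpectrum (NumberField.RingOfIntegers K) |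
      (Ideal.absNorm v.asIdeal).Prime ∧
      (¬ ∀ w : IsDedekindDomain.HeightOneSpectrum (NumberField.RingOfIntegers L₁),
        w.asIdeal.under (NumberField.RingOfIntegers K) = v.asIdeal →
          Ideal.ramificationIdx w.asIdeal (NumberField.RingOfIntegers K) = 1 ∧
          Ideal.inertiaDeg w.asIdeal (NumberField.RingOfIntegers K) = 1) ∧
      (¬ ∀ w : IsDedekindDomain.HeightOneSpectrum (NumberField.RingOfIntegers L₂),
        w.asIdeal.under (NumberField.RingOfIntegers K) = v.asIdeal →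
          Ideal.ramificationIdx w.asIdeal (NumberField.RingOfIntegers K) = 1 ∧
          Ideal.inertiaDeg w.asIdeal (NumberField.RingOfIntegers K) = 1)}.Infinite :=
  fd2an_infinite_nonsplit (K := K) (L₁ := L₁) (L₂ := L₂) (bpan_inv_add_inv_lt_one h₁ h₂)

end Fermat.Agent.S41x
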