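/-
S41 side project "BRIDGE-prime", row BP-DI (helper90), FINAL wiring:
`fd2di_exists_frobenius2` = EXACT statement of `BridgePrimeSpec.bpdi_exists_frobenius2`
(= `FD2Dict.fd2di_exists_frobenius2_of` fed with helper70's landed
`FD2AnalyticSpec.bpan_infinite_nonsplit2`, row BP-AN).  The Spec file itself is never imported.
-/
import Fermat.Agent.S41x.FD2Dict
import Fermat.Agent.S41x.FD2AnalyticSpec

set_option autoImplicit false

namespace Fermat.Agent.S41x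

theorem fd2di_ANStatement_holds : fd2di_ANStatement :=
  fun K L₁ L₂ _ _ _ _ _ _ _ _ _ _ h₁ h₂ => bpan_infinite_nonsplit2 K L₁ L₂ h₁ h₂

/-- **Frobenius density, cyclic group of order `r p`** (exact `BridgePrimeSpec.bpdi_exists_frobenius2`
statement). -/
theorem fd2di_exists_frobenius2 (L : IntermediateField ℚ (AlgebraicClosure ℚ))
    (hfd : FiniteDimensional ℚ L)
    (hnorm : ∀ σ : AlgebraicClosure ℚ ≃ₐ[ℚ] AlgebraicClosure ℚ, ∀ x ∈ L, σ x ∈ L)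
    (g : AlgebraicClosure ℚ ≃ₐ[ℚ] AlgebraicClosure ℚ) (r p : ℕ) (hr : r.Prime) (hp : p.Prime)
    (hrp : r ≠ p)
    (hgrp : g ^ (r * p) ∈ L.fixingSubgroup) (hgr : g ^ r ∉ L.fixingSubgroup)
    (hgp : g ^ p ∉ L.fixingSubgroup) (M : ℕ) (hM : 0 < M) :
    ∃ (ℓ : ℕ) (A : ValuationSubring (AlgebraicClosure ℚ))
      (φ : AlgebraicClosure ℚ ≃ₐ[ℚ] AlgebraicClosure ℚ) (k : ℕ), ℓ.Prime ∧ ¬ ℓ ∣ M ∧
      A.LiesOverPrime ℓ ∧ A.IsFrobeniusAt φ ℓ ∧ ¬ r ∣ k ∧ ¬ p ∣ k ∧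
      φ⁻¹ * g ^ k ∈ L.fixingSubgroup :=
  fd2di_exists_frobenius2_of fd2di_ANStatement_holds L hfd hnorm g r p hr hp hrp hgrp hgr hgp M hM

end Fermat.Agent.S41x
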