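import Fermat.Agent.S41x.BridgePrime
import Fermat.Agent.S41x.FD2DictFinal
import Fermat.Agent.S41x.BridgeKummer0
import Fermat.Agent.S41x.BridgePrimeGroup

/-!
# S41 BRIDGE-prime, final wiring (helper66)

`bpa_bridge_prime` : **BRIDGE-prime**, unconditional (= `BridgePrimeSpec.bridge_prime` without the unused hypothesis
`q ≠ p`): if `E[p]` is irreducible (`p` odd), then for every prime `q`, every `n` with `p ∣ n` and every `M` there is a
good prime `ℓ ∤ M`, `ℓ ≠ p`, `ℓ ≡ 1 [MOD n]`, such that `q` is NOT a `p`-th power modulo `ℓ` and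
`p ∤ ℓ + 1 - a_ℓ(W)`.

Inputs: row BP-DI (helper90, `fd2di_exists_frobenius2`, on top of BP-AN helper70), row BP-KUM0 (helper97,
`bpk0_exists_moves_root`), row BP-GRP (helper13, `bpg_exists_sigma`), row BP-KUM (helper36), CC (helper13/97/36/90),
and the landed bridge.
-/

set_option autoImplicit false
open WeierstrassCurve WeierstrassCurve.Affine WeierstrassCurve.Affine.Point

namespace Fermat.Agent.S41x

theorem bpa_FD2 : bpaFD2 :=
  fun L hfd hnorm g r p hr hp hrp hgrp hgr hgp M hM =>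
    fd2di_exists_frobenius2 L hfd hnorm g r p hr hp hrp hgrp hgr hgp M hM

theorem bpa_KUM0 : bpaKUM0 := by
  intro p hp hp2 q hq n hn hpn ζ hζ θ hθ
  exact bpk0_exists_moves_root hp hp2 hq hn hpn hζ hθ

theorem bpa_GRP : bpaGRP := by
  intro p _ hp2 G _ V _ _ _ _ hcard hirr K _ hKV C _ hC χ hχ
  exact bpg_exists_sigma hp2 hcard hirr K hKV hC χ hχ

/-- **BRIDGE-prime**, unconditional. -/
theorem bpa_bridge_prime (E : WeierstrassCurve ℚ) [E.IsElliptic] {W : WeierstrassCurve ℤ}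
    (hW : W.IsIntegralModelOf E) {p : ℕ} (hp : p.Prime) (hp2 : p ≠ 2)
    (hirr : GaloisRepIsIrreducible (K := AlgebraicClosure ℚ) ℚ E p)
    {q : ℕ} (hq : q.Prime) (n : ℕ) (hn : 0 < n) (hpn : p ∣ n) (M : ℕ) (hM : 0 < M) :
    ∃ ℓ : ℕ, ℓ.Prime ∧ W.IsGoodPrimeFor ℓ ∧ ¬ ℓ ∣ M ∧ ℓ ≠ p ∧ ℓ ≡ 1 [MOD n] ∧
      (¬ ∃ y : ℤ, (ℓ : ℤ) ∣ y ^ p - (q : ℤ)) ∧
      ¬ (p : ℤ) ∣ ((ℓ : ℤ) + 1 - W.apOfModel ℓ) :=
  bpa_bridge_prime_of bpa_FD2 bpa_KUM0 bpa_GRP E hW hp hp2 hirr hq n hn hpn M hM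

end Fermat.Agent.S41x
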