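import Mathlib

set_option autoImplicit false

namespace Fermat.Agent.S41x

open Finset

theorem ihk_two_ne_zero {k : Type*} [Field k] {p : ℕ} [CharP k p] (hp2 : p ≠ 2) (hp : p.Prime) :
    (2 : k) ≠ 0 := by
  intro h
  have h2 : ((2 : ℕ) : k) = 0 := by exact_mod_cast h
  rw [CharP.cast_eq_zero_iff k p] at h2
  have := Nat.le_of_dvd (by norm_num) h2
  have := hp.two_le
  omega

/-- sum over the powers of `u` of a function that shifts by a constant under multiplication by `u`. -/
theorem ihk_sum_range_shift {A : Type*} [Group A] {k : Type*} [Field k] {p : ℕ} [CharP k p]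
    (hp2 : p ≠ 2) (hp : p.Prime)
    (G : A → k) (u : A) (κ : k) (hG : ∀ δ, G (δ * u) = G δ + κ) (m : ℕ) (hm : p ∣ m) (δ : A) :
    ∑ i ∈ range m, G (δ * u ^ i) = 0 := by
  have h1 : ∀ i : ℕ, G (δ * u ^ i) = G δ + i * κ := by
    intro i
    induction i with
    | zero => simp
    | succ n ih =>
      rw [pow_succ, ← mul_assoc, hG, ih]
      push_cast
      ring
  simp_rw [h1]
  rw [sum_add_distrib, sum_const, card_range, ← sum_mul, ← Nat.cast_sum]
  have hm0 : (m : k) = 0 := (CharP.cast_eq_zero_iff k p m).mpr hm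
  have h2 : ((∑ x ∈ range m, x : ℕ) : k) = 0 := by
    have h3 : ((∑ x ∈ range m, x : ℕ) : k) * 2 = 0 := by
      have := Finset.sum_range_id_mul_two m
      have h4 : (((∑ x ∈ range m, x) * 2 : ℕ) : k) = ((m * (m - 1) : ℕ) : k) := by rw [this]
      rw [Nat.cast_mul, Nat.cast_mul, hm0, zero_mul] at h4
      exact_mod_cast h4
    rcases mul_eq_zero.mp h3 with h | h
    · exact h
    · exact absurd h (ihk_two_ne_zero hp2 hp)
  rw [h2, zero_mul, add_zero, nsmul_eq_mul, hm0, zero_mul]

/-- **orbit sum lemma**: if `G (δ u) = G δ + κ` and `p ∣ orderOf u` then `∑ G = 0`. -/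
theorem ihk_sum_eq_zero {A : Type*} [Group A] [Fintype A] {k : Type*} [Field k] {p : ℕ} [CharP k p]
    (hp2 : p ≠ 2) (hp : p.Prime)
    (G : A → k) (u : A) (κ : k) (hG : ∀ δ, G (δ * u) = G δ + κ) (hu : p ∣ orderOf u) :
    ∑ δ, G δ = 0 := by
  classical
  set H : Subgroup A := Subgroup.zpowers u with hH
  rw [← Finset.sum_fiberwise (s := (Finset.univ : Finset A)) (g := fun a => (a : A ⧸ H)) (f := G)]
  refine Finset.sum_eq_zero fun x _ => ?_
  obtain ⟨a0, rfl⟩ := QuotientGroup.mk_surjective x
  have himg : (Finset.univ.filter fun a : A => (a : A ⧸ H) = (a0 : A ⧸ H)) =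
      (range (orderOf u)).image (fun i => a0 * u ^ i) := by
    ext a
    simp only [mem_filter, mem_univ, true_and, mem_image, mem_range]
    constructor
    · intro h
      have h1 : a0⁻¹ * a ∈ H := by
        rw [← QuotientGroup.eq]
        exact h.symm
      rw [hH, mem_zpowers_iff_mem_range_orderOf] at h1
      obtain ⟨i, hi, hiu⟩ := Finset.mem_image.mp h1
      exact ⟨i, Finset.mem_range.mp hi, by rw [hiu]; group⟩
    · rintro ⟨i, -, rfl⟩
      rw [eq_comm, QuotientGroup.eq]
      have : a0⁻¹ * (a0 * u ^ i) = u ^ i := by group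
      rw [this, hH]
      exact Subgroup.pow_mem _ (Subgroup.mem_zpowers u) i
  rw [himg, Finset.sum_image]
  · exact ihk_sum_range_shift hp2 hp G u κ hG (orderOf u) hu a0
  · intro i hi j hj hij
    have hij' : u ^ i = u ^ j := mul_left_cancel hij
    exact pow_injOn_Iio_orderOf (by simpa using hi) (by simpa using hj) hij'

end Fermat.Agent.S41x
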