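import Mathlib
import Fermat.Agent.S41x.IharaHeckeSum

set_option autoImplicit false

namespace Fermat.Agent.S41x

open Matrix Finset

abbrev IhkSL (R : Type*) [CommRing R] := Matrix.SpecialLinearGroup (Fin 2) R

section Basic

variable {R : Type*} [CommRing R]

/-- upper unipotent matrix -/
def ihkU (x : R) : IhkSL R := ⟨!![1, x; 0, 1], by simp [Matrix.det_fin_two_of]⟩

/-- diagonal matrix `diag (w, w⁻¹)` -/
def ihkD (w : Rˣ) : IhkSL R :=
  ⟨!![(w : R), 0; 0, ((w⁻¹ : Rˣ) : R)], by simp [Matrix.det_fin_two_of]⟩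

/-- `Γ₀(N)` over an arbitrary commutative ring. -/
def ihkDelta (Nn : R) : Subgroup (IhkSL R) where
  carrier := {γ | Nn ∣ γ.1 1 0}
  one_mem' := by simp
  mul_mem' := by
    intro g h hg hh
    simp only [Set.mem_ofPred_eq] at hg hh ⊢
    rw [Matrix.SpecialLinearGroup.coe_mul, Matrix.mul_apply, Fin.sum_univ_two]
    exact dvd_add (Dvd.dvd.mul_right hg _) (Dvd.dvd.mul_left hh _)
  inv_mem' := by
    intro g hg
    simp only [Set.mem_ofPred_eq] at hg ⊢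
    rw [Matrix.SpecialLinearGroup.coe_inv, Matrix.adjugate_fin_two]
    simpa using hg

theorem ihk_mem_delta {Nn : R} {γ : IhkSL R} : γ ∈ ihkDelta Nn ↔ Nn ∣ γ.1 1 0 := Iff.rfl

theorem ihkU_mem (Nn : R) (x : R) : ihkU x ∈ ihkDelta Nn := by
  rw [ihk_mem_delta]; simp [ihkU]

theorem ihkD_mem (Nn : R) (w : Rˣ) : ihkD w ∈ ihkDelta Nn := by
  rw [ihk_mem_delta]; simp [ihkD]

theorem ihk_det (γ : IhkSL R) : γ.1 0 0 * γ.1 1 1 - γ.1 0 1 * γ.1 1 0 = 1 := by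
  have := γ.2
  rw [Matrix.det_fin_two] at this
  exact this

/-- two elements with the same bottom row differ by an upper unipotent on the left. -/
theorem ihk_eq_U_mul (g h : IhkSL R) (h0 : g.1 1 0 = h.1 1 0) (h1 : g.1 1 1 = h.1 1 1) :
    g = ihkU (g.1 0 1 * h.1 0 0 - g.1 0 0 * h.1 0 1) * h := by
  have hg := ihk_det g
  have hh := ihk_det h
  apply Subtype.ext
  rw [Matrix.SpecialLinearGroup.coe_mul]
  ext i j
  fin_cases i <;> fin_cases j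
  · simp [ihkU, Matrix.mul_apply, Fin.sum_univ_two]
    linear_combination (-(g.1 0 0)) * hh + (h.1 0 0) * hg - (g.1 0 0 * h.1 0 0) * h1 + (g.1 0 1 * h.1 0 0) * h0
  · simp [ihkU, Matrix.mul_apply, Fin.sum_univ_two]
    linear_combination (-(g.1 0 1)) * hh + (h.1 0 1) * hg - (h.1 0 1 * g.1 0 0) * h1 + (h.1 0 1 * g.1 0 1) * h0
  · simp [ihkU, Matrix.mul_apply, Fin.sum_univ_two]
    exact h0
  · simp [ihkU, Matrix.mul_apply, Fin.sum_univ_two]
    exact h1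

end Basic

section Phi

variable {R : Type*} [CommRing R] {k : Type*} [Field k] (Nn : R) (φ : IhkSL R → k)

/-- additivity of `φ` on `Γ₀(N)`. -/
def IhkAdd : Prop := ∀ g ∈ ihkDelta Nn, ∀ h ∈ ihkDelta Nn, φ (g * h) = φ g + φ h

variable {Nn φ}

theorem ihk_phi_one (hφ : IhkAdd Nn φ) : φ 1 = 0 := by
  have := hφ 1 (one_mem _) 1 (one_mem _)
  rw [mul_one] at this
  linear_combination -this

theorem ihk_phi_inv (hφ : IhkAdd Nn φ) {g : IhkSL R} (hg : g ∈ ihkDelta Nn) : φ g⁻¹ = -φ g := by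
  have := hφ g hg g⁻¹ (inv_mem hg)
  rw [mul_inv_cancel, ihk_phi_one hφ] at this
  linear_combination -this

/-- `φ` only depends on the bottom row, and on `d` only modulo `c`. -/
theorem ihk_phi_row (hφ : IhkAdd Nn φ) (hU : ∀ x : R, φ (ihkU x) = 0) {g h : IhkSL R}
    (hg : g ∈ ihkDelta Nn) (h0 : h.1 1 0 = g.1 1 0) (x : R)
    (h1 : h.1 1 1 = g.1 1 1 + g.1 1 0 * x) : φ h = φ g := by
  have e0 : (g * ihkU x).1 1 0 = g.1 1 0 := by
    rw [Matrix.SpecialLinearGroup.coe_mul, Matrix.mul_apply, Fin.sum_univ_two]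
    simp [ihkU]
  have e1 : (g * ihkU x).1 1 1 = g.1 1 1 + g.1 1 0 * x := by
    rw [Matrix.SpecialLinearGroup.coe_mul, Matrix.mul_apply, Fin.sum_univ_two]
    simp [ihkU]
    ring
  have hgU : g * ihkU x ∈ ihkDelta Nn := mul_mem hg (ihkU_mem Nn x)
  have key := ihk_eq_U_mul h (g * ihkU x) (h0.trans e0.symm) (h1.trans e1.symm)
  rw [key, hφ _ (ihkU_mem Nn _) _ hgU, hφ _ hg _ (ihkU_mem Nn x), hU, hU]
  ring

end Phi

section Hecke

variable {R : Type*} [CommRing R] {k : Type*} [Field k]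

/-- the standard representatives of `Γ₀(N) \ Γ₀(N) diag(1,ℓ) Γ₀(N)`. -/
def ihkAlpha (R : Type*) [CommRing R] (ℓ : ℕ) : Option (ZMod ℓ) → Matrix (Fin 2) (Fin 2) R
  | none => !![(ℓ : R), 0; 0, 1]
  | some j => !![1, ((j.val : ℕ) : R); 0, (ℓ : R)]

/-- `φ` is a `T_ℓ`-eigenvector with eigenvalue `lam` (coset-representative form). -/
def IhkEigen (Nn : R) (φ : IhkSL R → k) (ℓ : ℕ) [NeZero ℓ] (lam : k) : Prop :=
  ∀ γ ∈ ihkDelta Nn, ∀ (σ : Option (ZMod ℓ) → Option (ZMod ℓ)) (γ' : Option (ZMod ℓ) → IhkSL R),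
    (∀ i, γ' i ∈ ihkDelta Nn) → (∀ i, ihkAlpha R ℓ i * γ.1 = (γ' i).1 * ihkAlpha R ℓ (σ i)) →
    ∑ i, φ (γ' i) = lam * φ γ

variable {Nn : R} {φ : IhkSL R → k} {ℓ : ℕ} [NeZero ℓ] {lam : k}

/-- target-indexed form of the eigen-equation. -/
theorem ihk_eigen_target (hφ : IhkAdd Nn φ) (hT : IhkEigen Nn φ ℓ lam) {γ : IhkSL R}
    (hγ : γ ∈ ihkDelta Nn) (τ : Option (ZMod ℓ) → Option (ZMod ℓ)) (γ' : Option (ZMod ℓ) → IhkSL R)
    (hmem : ∀ i, γ' i ∈ ihkDelta Nn)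
    (heq : ∀ i, ihkAlpha R ℓ (τ i) * γ.1 = (γ' i).1 * ihkAlpha R ℓ i) :
    ∑ i, φ (γ' i) = lam * φ γ := by
  have h1 := hT γ⁻¹ (inv_mem hγ) τ (fun i => (γ' i)⁻¹) (fun i => inv_mem (hmem i)) ?_
  · rw [ihk_phi_inv hφ hγ] at h1
    simp_rw [ihk_phi_inv hφ (hmem _)] at h1
    rw [Finset.sum_neg_distrib] at h1
    linear_combination -h1
  · intro i
    have e1 : ((γ' i)⁻¹ : IhkSL R).1 * (γ' i).1 = 1 := by
      rw [← Matrix.SpecialLinearGroup.coe_mul, inv_mul_cancel]; rfl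
    have e2 : γ.1 * (γ⁻¹ : IhkSL R).1 = 1 := by
      rw [← Matrix.SpecialLinearGroup.coe_mul, mul_inv_cancel]; rfl
    calc ihkAlpha R ℓ i * (γ⁻¹ : IhkSL R).1
        = ((γ' i)⁻¹ : IhkSL R).1 * ((γ' i).1 * ihkAlpha R ℓ i) * (γ⁻¹ : IhkSL R).1 := by
          rw [← Matrix.mul_assoc, e1, Matrix.one_mul]
      _ = ((γ' i)⁻¹ : IhkSL R).1 * (ihkAlpha R ℓ (τ i) * γ.1) * (γ⁻¹ : IhkSL R).1 := by rw [heq]
      _ = ((γ' i)⁻¹ : IhkSL R).1 * ihkAlpha R ℓ (τ i) := by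
          rw [Matrix.mul_assoc, Matrix.mul_assoc, e2, Matrix.mul_one]

end Hecke

section Targets

variable {R : Type*} [CommRing R] (Nn : R) {ℓ : ℕ} [Fact ℓ.Prime]
  (π : R →+* ZMod ℓ) (hπ : ∀ x : R, π x = 0 → (ℓ : R) ∣ x)

theorem ihk_pi_val (j : ZMod ℓ) : π ((j.val : ℕ) : R) = j := by
  rw [map_natCast, ZMod.natCast_zmod_val]

include hπ

/-- target `∞`. -/
theorem ihk_target_none {γ : IhkSL R} (hγ : γ ∈ ihkDelta Nn) (hc : π (γ.1 1 0) ≠ 0) :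
    ∃ (j : ZMod ℓ) (g : IhkSL R), g ∈ ihkDelta Nn ∧
      ihkAlpha R ℓ (some j) * γ.1 = g.1 * ihkAlpha R ℓ none ∧
      g.1 1 0 = γ.1 1 0 ∧ g.1 1 1 = (ℓ : R) * γ.1 1 1 := by
  have hdet := ihk_det γ
  set j : ZMod ℓ := -π (γ.1 0 0) / π (γ.1 1 0) with hj
  have h0 : π (γ.1 0 0 + ((j.val : ℕ) : R) * γ.1 1 0) = 0 := by
    rw [map_add, map_mul, ihk_pi_val, hj]
    field_simp
    ring
  obtain ⟨A, hA⟩ := hπ _ h0
  refine ⟨j, ⟨!![A, γ.1 0 1 + ((j.val : ℕ) : R) * γ.1 1 1; γ.1 1 0, (ℓ : R) * γ.1 1 1], ?_⟩,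
    ?_, ?_, ?_, ?_⟩
  · rw [Matrix.det_fin_two_of]
    linear_combination hdet - (γ.1 1 1) * hA
  · rw [ihk_mem_delta] at hγ
    change Nn ∣ _
    simpa using hγ
  · ext i' j'
    fin_cases i' <;> fin_cases j' <;>
      simp [ihkAlpha, Matrix.mul_apply, Fin.sum_univ_two, -ZMod.natCast_val]
    · linear_combination hA
    · ring
  · simp
  · simp

/-- target `j₀ = d / c`. -/
theorem ihk_target_j0 {γ : IhkSL R} (hγ : γ ∈ ihkDelta Nn) (hc : π (γ.1 1 0) ≠ 0)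
    (j0 : ZMod ℓ) (hj0 : j0 = π (γ.1 1 1) / π (γ.1 1 0)) :
    ∃ (g : IhkSL R), g ∈ ihkDelta Nn ∧
      ihkAlpha R ℓ none * γ.1 = g.1 * ihkAlpha R ℓ (some j0) ∧
      g.1 1 0 = γ.1 1 0 ∧ (ℓ : R) * g.1 1 1 = γ.1 1 1 - ((j0.val : ℕ) : R) * γ.1 1 0 := by
  have hdet := ihk_det γ
  have h0 : π (γ.1 1 1 - ((j0.val : ℕ) : R) * γ.1 1 0) = 0 := by
    rw [map_sub, map_mul, ihk_pi_val, hj0]
    field_simp
    ring
  obtain ⟨D, hD⟩ := hπ _ h0
  refine ⟨⟨!![(ℓ : R) * γ.1 0 0, γ.1 0 1 - ((j0.val : ℕ) : R) * γ.1 0 0; γ.1 1 0, D], ?_⟩,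
    ?_, ?_, ?_, ?_⟩
  · rw [Matrix.det_fin_two_of]
    linear_combination hdet - (γ.1 0 0) * hD
  · rw [ihk_mem_delta] at hγ
    change Nn ∣ _
    simpa using hγ
  · ext i' j'
    fin_cases i' <;> fin_cases j' <;>
      simp [ihkAlpha, Matrix.mul_apply, Fin.sum_univ_two, -ZMod.natCast_val]
    · ring
    · linear_combination hD
  · simp
  · simp only [Matrix.of_apply, Matrix.cons_val', Matrix.cons_val_one, Matrix.cons_val_fin_one]
    exact hD.symm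

/-- generic target `j' ≠ j₀`. -/
theorem ihk_target_gen {γ : IhkSL R} (hγ : γ ∈ ihkDelta Nn)
    (j' : ZMod ℓ) (hj' : j' * π (γ.1 1 0) - π (γ.1 1 1) ≠ 0) :
    ∃ (j : ZMod ℓ) (g : IhkSL R), g ∈ ihkDelta Nn ∧
      ihkAlpha R ℓ (some j) * γ.1 = g.1 * ihkAlpha R ℓ (some j') ∧
      g.1 1 0 = (ℓ : R) * γ.1 1 0 ∧ g.1 1 1 = γ.1 1 1 - ((j'.val : ℕ) : R) * γ.1 1 0 := by
  have hdet := ihk_det γ
  set j : ZMod ℓ := (π (γ.1 0 1) - j' * π (γ.1 0 0)) / (j' * π (γ.1 1 0) - π (γ.1 1 1)) with hj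
  have h0 : π (γ.1 0 1 + ((j.val : ℕ) : R) * γ.1 1 1 -
      ((j'.val : ℕ) : R) * (γ.1 0 0 + ((j.val : ℕ) : R) * γ.1 1 0)) = 0 := by
    rw [map_sub, map_add, map_mul, map_mul, map_add, map_mul, ihk_pi_val, ihk_pi_val, hj]
    field_simp
    ring
  obtain ⟨B, hB⟩ := hπ _ h0
  refine ⟨j, ⟨!![γ.1 0 0 + ((j.val : ℕ) : R) * γ.1 1 0, B; (ℓ : R) * γ.1 1 0,
    γ.1 1 1 - ((j'.val : ℕ) : R) * γ.1 1 0], ?_⟩, ?_, ?_, ?_, ?_⟩
  · rw [Matrix.det_fin_two_of]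
    linear_combination hdet + (γ.1 1 0) * hB
  · rw [ihk_mem_delta] at hγ
    change Nn ∣ _
    simpa using Dvd.dvd.mul_left hγ _
  · ext i' j''
    fin_cases i' <;> fin_cases j'' <;>
      simp [ihkAlpha, Matrix.mul_apply, Fin.sum_univ_two, -ZMod.natCast_val]
    · linear_combination hB
    · ring
  · simp
  · simp

end Targets

section Main

variable {R : Type*} [CommRing R] {k : Type*} [Field k]

theorem ihk_D_conj_row (w : Rˣ) (g : IhkSL R) :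
    (ihkD w * g * ihkD w).1 1 0 = g.1 1 0 ∧
    (ihkD w * g * ihkD w).1 1 1 = g.1 1 1 * ((w⁻¹ : Rˣ) : R) ^ 2 := by
  constructor
  · simp only [Matrix.SpecialLinearGroup.coe_mul, Matrix.mul_apply, Fin.sum_univ_two]
    simp [ihkD]
    rw [mul_comm, ← mul_assoc, Units.mul_inv, one_mul]
  · simp only [Matrix.SpecialLinearGroup.coe_mul, Matrix.mul_apply, Fin.sum_univ_two]
    simp [ihkD]
    ring

/-- **local Hecke identity**. -/
theorem ihk_local {p : ℕ} [CharP k p] (hp : p.Prime) (hp2 : p ≠ 2)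
    {Nn : R} {φ : IhkSL R → k} (hφ : IhkAdd Nn φ) (hU : ∀ x : R, φ (ihkU x) = 0)
    {ℓ : ℕ} [Fact ℓ.Prime] {lam : k} (hT : IhkEigen Nn φ ℓ lam)
    (π : R →+* ZMod ℓ) (hπ : ∀ x : R, π x = 0 → (ℓ : R) ∣ x)
    {γ : IhkSL R} (hγ : γ ∈ ihkDelta Nn) (hc : π (γ.1 1 0) ≠ 0)
    (hℓ1 : γ.1 1 0 ∣ (ℓ : R) - 1) (w : Rˣ) (hw : γ.1 1 0 ∣ (w : R) - 1)
    (hord : p ∣ orderOf (Units.map (π : R →* ZMod ℓ) w ^ 2)) :
    lam * φ γ = 2 * φ γ := by
  classical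
  obtain ⟨z, hz⟩ := hℓ1
  obtain ⟨zw, hzw⟩ := hw
  set j0 : ZMod ℓ := π (γ.1 1 1) / π (γ.1 1 0) with hj0
  have hne : ∀ j' : ZMod ℓ, j' ≠ j0 → j' * π (γ.1 1 0) - π (γ.1 1 1) ≠ 0 := by
    intro j' hj' h
    apply hj'
    rw [hj0, eq_div_iff hc]
    linear_combination h
  have key : ∀ i' : Option (ZMod ℓ), ∃ (i : Option (ZMod ℓ)) (g : IhkSL R), g ∈ ihkDelta Nn ∧
      ihkAlpha R ℓ i * γ.1 = g.1 * ihkAlpha R ℓ i' ∧
      (i' = none → g.1 1 0 = γ.1 1 0 ∧ g.1 1 1 = (ℓ : R) * γ.1 1 1) ∧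
      (i' = some j0 → g.1 1 0 = γ.1 1 0 ∧
        (ℓ : R) * g.1 1 1 = γ.1 1 1 - ((j0.val : ℕ) : R) * γ.1 1 0) ∧
      (∀ j', i' = some j' → j' ≠ j0 → g.1 1 0 = (ℓ : R) * γ.1 1 0 ∧
        g.1 1 1 = γ.1 1 1 - ((j'.val : ℕ) : R) * γ.1 1 0) := by
    intro i'
    rcases i' with _ | j'
    · obtain ⟨j, g, h1, h2, h3, h4⟩ := ihk_target_none Nn π hπ hγ hc
      refine ⟨some j, g, h1, h2, fun _ => ⟨h3, h4⟩, ?_, ?_⟩
      · intro h; cases h
      · intro j' h; cases h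
    · by_cases hj' : j' = j0
      · subst hj'
        obtain ⟨g, h1, h2, h3, h4⟩ := ihk_target_j0 Nn π hπ hγ hc j0 hj0
        refine ⟨none, g, h1, h2, ?_, fun _ => ⟨h3, h4⟩, ?_⟩
        · intro h; cases h
        · intro j'' h hne'
          exact absurd (Option.some.inj h).symm hne'
      · obtain ⟨j, g, h1, h2, h3, h4⟩ := ihk_target_gen Nn π hπ hγ j' (hne j' hj')
        refine ⟨some j, g, h1, h2, ?_, ?_, ?_⟩
        · intro h; cases h
        · intro h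
          exact absurd (Option.some.inj h) hj'
        · intro j'' h _
          obtain rfl := Option.some.inj h
          exact ⟨h3, h4⟩
  choose τ γ' hmem heq hnone hj0' hgen using key
  have hsum := ihk_eigen_target hφ hT hγ τ γ' hmem heq
  rw [Fintype.sum_option, ← Finset.add_sum_erase Finset.univ _ (Finset.mem_univ j0)] at hsum
  -- the two boundary terms
  have e1 : φ (γ' none) = φ γ := by
    obtain ⟨h3, h4⟩ := hnone none rfl
    refine ihk_phi_row hφ hU hγ h3 (z * γ.1 1 1) ?_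
    rw [h4]
    linear_combination (γ.1 1 1) * hz
  have e2 : φ (γ' (some j0)) = φ γ := by
    obtain ⟨h3, h4⟩ := hj0' (some j0) rfl
    refine ihk_phi_row hφ hU hγ h3 (-((j0.val : ℕ) : R) - z * (γ' (some j0)).1 1 1) ?_
    linear_combination h4 - ((γ' (some j0)).1 1 1) * hz
  -- the generic terms
  have e3 : ∑ x ∈ Finset.univ.erase j0, φ (γ' (some x)) = 0 := by
    set jof : (ZMod ℓ)ˣ → ZMod ℓ := fun δ => (π (γ.1 1 1) - (δ : ZMod ℓ)) / π (γ.1 1 0) with hjof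
    have hjof_ne : ∀ δ, jof δ ≠ j0 := by
      intro δ h
      simp only [hjof, hj0] at h
      rw [div_left_inj' hc] at h
      exact δ.ne_zero (by linear_combination -h)
    have hjof_val : ∀ δ : (ZMod ℓ)ˣ, π (γ.1 1 1) - jof δ * π (γ.1 1 0) = δ := by
      intro δ
      simp only [hjof]
      field_simp
      ring
    have himg : Finset.univ.erase j0 = Finset.univ.image jof := by
      ext j'
      simp only [Finset.mem_erase, Finset.mem_univ, and_true, Finset.mem_image, true_and]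
      constructor
      · intro hj'
        refine ⟨Units.mk0 (π (γ.1 1 1) - j' * π (γ.1 1 0)) ?_, ?_⟩
        · intro h
          exact hne j' hj' (by linear_combination -h)
        · simp only [hjof, Units.val_mk0]
          field_simp
          ring
      · rintro ⟨δ, rfl⟩
        exact hjof_ne δ
    have hinj : Function.Injective jof := by
      intro δ δ' h
      simp only [hjof] at h
      rw [div_left_inj' hc] at h
      exact Units.ext (by linear_combination -h)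
    rw [himg, Finset.sum_image (fun _ _ _ _ h => hinj h)]
    set u : (ZMod ℓ)ˣ := Units.map (π : R →* ZMod ℓ) w ^ 2 with hu
    refine ihk_sum_eq_zero hp2 hp (fun δ => φ (γ' (some (jof δ)))) u (2 * φ (ihkD w⁻¹)) ?_ hord
    intro δ
    obtain ⟨a3, a4⟩ := hgen (some (jof δ)) (jof δ) rfl (hjof_ne δ)
    obtain ⟨b3, b4⟩ := hgen (some (jof (δ * u))) (jof (δ * u)) rfl (hjof_ne _)
    obtain ⟨r0, r1⟩ := ihk_D_conj_row w⁻¹ (γ' (some (jof δ)))
    rw [inv_inv] at r1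
    have hhmem : ihkD w⁻¹ * γ' (some (jof δ)) * ihkD w⁻¹ ∈ ihkDelta Nn :=
      mul_mem (mul_mem (ihkD_mem Nn _) (hmem _)) (ihkD_mem Nn _)
    have hφh : φ (ihkD w⁻¹ * γ' (some (jof δ)) * ihkD w⁻¹) =
        φ (γ' (some (jof δ))) + 2 * φ (ihkD w⁻¹) := by
      rw [hφ _ (mul_mem (ihkD_mem Nn _) (hmem _)) _ (ihkD_mem Nn _),
        hφ _ (ihkD_mem Nn _) _ (hmem _)]
      ring
    have hY : γ.1 1 1 - (((jof (δ * u)).val : ℕ) : R) * γ.1 1 0 -
        (γ.1 1 1 - (((jof δ).val : ℕ) : R) * γ.1 1 0) * (w : R) ^ 2 =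
        γ.1 1 0 * (-(γ.1 1 1 - (((jof δ).val : ℕ) : R) * γ.1 1 0) * zw * ((w : R) + 1) +
          (((jof δ).val : ℕ) : R) - (((jof (δ * u)).val : ℕ) : R)) := by
      linear_combination (-(γ.1 1 1 - (((jof δ).val : ℕ) : R) * γ.1 1 0) * ((w : R) + 1)) * hzw
    have hπY : π (-(γ.1 1 1 - (((jof δ).val : ℕ) : R) * γ.1 1 0) * zw * ((w : R) + 1) +
          (((jof δ).val : ℕ) : R) - (((jof (δ * u)).val : ℕ) : R)) = 0 := by
      have h5 : π (γ.1 1 0 * (-(γ.1 1 1 - (((jof δ).val : ℕ) : R) * γ.1 1 0) * zw * ((w : R) + 1) +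
          (((jof δ).val : ℕ) : R) - (((jof (δ * u)).val : ℕ) : R))) = 0 := by
        rw [← hY, map_sub, map_sub, map_mul, map_mul, map_sub, map_mul, map_pow, ihk_pi_val,
          ihk_pi_val, hjof_val, hjof_val]
        simp [hu, Units.val_pow_eq_pow_val]
      rw [map_mul] at h5
      exact (mul_eq_zero.mp h5).resolve_left hc
    obtain ⟨Y', hY'⟩ := hπ _ hπY
    change φ (γ' (some (jof (δ * u)))) = φ (γ' (some (jof δ))) + _
    rw [← hφh]
    refine ihk_phi_row hφ hU hhmem (b3.trans (a3.symm.trans r0.symm)) Y' ?_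
    rw [b4, r1, r0, a4, a3]
    linear_combination hY + (γ.1 1 0) * hY'
  rw [e1, e2, e3] at hsum
  linear_combination -hsum

end Main

end Fermat.Agent.S41x
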