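/-
S41x/GlueEigen (helper45): the `T_ℓ`-eigen-equation on `Δ = Γ₀(N)(R)` (helper74's `IhkEigen`) follows from the
eigen-equation on a GENERATING SET of `Δ` (for one relation family per generator).

Setting as in `S41x/IharaHeckeLocal`: `R` a commutative ring, `π : R →+* ZMod ℓ` with kernel `ℓ R`, `ℓ` a
non-zero-divisor of `R`, `φ : SL₂(R) → k` additive on `Δ`.
* `gle_distinct`     : the cosets `Δ α_i` are pairwise distinct (`δ α_j = α_i ⇒ i = j`, any matrix `δ`);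
* `gle_unique`       : uniqueness of `(σ i, γ'_i)` in `α_i γ = γ'_i α_{σ i}`;
* `gle_sigma_bijective` : `σ` is a permutation;
* `gle_eigen_of_closure` : if `Δ` is generated by `X ⊆ Δ` and every `γ ∈ X` has ONE relation family with
  `∑ φ (γ'_i) = lam * φ γ`, then `IhkEigen Nn φ ℓ lam`.
-/
import Fermat.Agent.S41x.IharaHeckeLocal

set_option autoImplicit false

namespace Fermat.Agent.S41x

open Matrix Finset

section Distinct

variable {R : Type*} [CommRing R] {ℓ : ℕ} [Fact ℓ.Prime] (π : R →+* ZMod ℓ)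

include π in
/-- the cosets `M α_j` are pairwise distinct: `δ α_j = α_i` forces `i = j` (for ANY matrix `δ`). -/
theorem gle_distinct (δ : Matrix (Fin 2) (Fin 2) R) (i j : Option (ZMod ℓ))
    (h : δ * ihkAlpha R ℓ j = ihkAlpha R ℓ i) : i = j := by
  have hℓ0 : π (ℓ : R) = 0 := by rw [map_natCast]; exact ZMod.natCast_self ℓ
  have h00 := congrFun (congrFun h 0) 0
  have h01 := congrFun (congrFun h 0) 1
  have h10 := congrFun (congrFun h 1) 0
  have h11 := congrFun (congrFun h 1) 1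
  rcases i with _ | i <;> rcases j with _ | j
  · rfl
  · -- δ α_j = α_∞ : impossible
    exfalso
    simp only [ihkAlpha, Matrix.mul_apply, Fin.sum_univ_two, Matrix.of_apply, Matrix.cons_val',
      Matrix.cons_val_zero, Matrix.cons_val_one, Matrix.cons_val_fin_one] at h10 h11
    have h10' : δ 1 0 = 0 := by simpa using h10
    rw [h10'] at h11
    have := congrArg π h11
    rw [map_add, map_mul, map_mul, hℓ0, map_zero, map_one] at this
    simp at this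
  · -- δ α_∞ = α_i : impossible
    exfalso
    simp only [ihkAlpha, Matrix.mul_apply, Fin.sum_univ_two, Matrix.of_apply, Matrix.cons_val',
      Matrix.cons_val_zero, Matrix.cons_val_one, Matrix.cons_val_fin_one] at h00
    have := congrArg π h00
    rw [map_add, map_mul, map_mul, hℓ0, map_zero, map_one] at this
    simp at this
  · congr 1
    simp only [ihkAlpha, Matrix.mul_apply, Fin.sum_univ_two, Matrix.of_apply, Matrix.cons_val',
      Matrix.cons_val_zero, Matrix.cons_val_one, Matrix.cons_val_fin_one] at h00 h01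
    have h00' : δ 0 0 = 1 := by simpa using h00
    rw [h00'] at h01
    have := congrArg π h01
    rw [map_add, map_mul, map_mul, hℓ0, map_one, one_mul, mul_zero, add_zero, ihk_pi_val,
      ihk_pi_val] at this
    exact this.symm

end Distinct

section Unique

variable {R : Type*} [CommRing R] {ℓ : ℕ} [Fact ℓ.Prime] (π : R →+* ZMod ℓ)
  (hℓ : ∀ x : R, (ℓ : R) * x = 0 → x = 0)

theorem gle_coe_inv_mul (g : IhkSL R) : (g⁻¹ : IhkSL R).1 * g.1 = 1 := by
  rw [← Matrix.SpecialLinearGroup.coe_mul, inv_mul_cancel]; rfl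

theorem gle_coe_mul_inv (g : IhkSL R) : g.1 * (g⁻¹ : IhkSL R).1 = 1 := by
  rw [← Matrix.SpecialLinearGroup.coe_mul, mul_inv_cancel]; rfl

theorem gle_alpha_mul_adjugate (i : Option (ZMod ℓ)) :
    ihkAlpha R ℓ i * (ihkAlpha R ℓ i).adjugate = (ℓ : R) • (1 : Matrix (Fin 2) (Fin 2) R) := by
  rw [Matrix.mul_adjugate]
  congr 1
  rcases i with _ | i <;> simp [ihkAlpha, Matrix.det_fin_two_of]

include hℓ in
/-- right cancellation of `α_i`. -/
theorem gle_alpha_cancel (i : Option (ZMod ℓ)) {M M' : Matrix (Fin 2) (Fin 2) R}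
    (h : M * ihkAlpha R ℓ i = M' * ihkAlpha R ℓ i) : M = M' := by
  have h2 : M * ihkAlpha R ℓ i * (ihkAlpha R ℓ i).adjugate =
      M' * ihkAlpha R ℓ i * (ihkAlpha R ℓ i).adjugate := by rw [h]
  rw [Matrix.mul_assoc, Matrix.mul_assoc, gle_alpha_mul_adjugate] at h2
  ext a b
  have h3 := congrFun (congrFun h2 a) b
  simp only [Matrix.mul_smul, Matrix.mul_one, Matrix.smul_apply, smul_eq_mul] at h3
  have h4 : (ℓ : R) * (M a b - M' a b) = 0 := by rw [mul_sub, h3, sub_self]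
  exact sub_eq_zero.mp (hℓ _ h4)

include π hℓ in
/-- uniqueness of the pair `(σ i, γ'_i)`. -/
theorem gle_unique {M : Matrix (Fin 2) (Fin 2) R} {j j' : Option (ZMod ℓ)} {g g' : IhkSL R}
    (h : M = g.1 * ihkAlpha R ℓ j) (h' : M = g'.1 * ihkAlpha R ℓ j') : j = j' ∧ g = g' := by
  have h1 : ((g'⁻¹ * g : IhkSL R)).1 * ihkAlpha R ℓ j = ihkAlpha R ℓ j' := by
    rw [Matrix.SpecialLinearGroup.coe_mul, Matrix.mul_assoc, ← h, h', ← Matrix.mul_assoc,
      gle_coe_inv_mul, Matrix.one_mul]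
  have hj : j' = j := gle_distinct π _ _ _ h1
  subst hj
  refine ⟨rfl, ?_⟩
  apply Subtype.ext
  exact gle_alpha_cancel hℓ j' (h.symm.trans h')

include π in
/-- the index map of a relation family is injective, hence bijective. -/
theorem gle_sigma_bijective {γ : IhkSL R} {σ : Option (ZMod ℓ) → Option (ZMod ℓ)}
    {γ' : Option (ZMod ℓ) → IhkSL R}
    (hrel : ∀ i, ihkAlpha R ℓ i * γ.1 = (γ' i).1 * ihkAlpha R ℓ (σ i)) : Function.Bijective σ := by
  rw [← Finite.injective_iff_bijective]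
  intro i i' hii
  -- (γ'_{i'} γ'_i⁻¹) α_i = α_{i'}
  have h1 : ((γ' i' * (γ' i)⁻¹ : IhkSL R)).1 * ihkAlpha R ℓ i = ihkAlpha R ℓ i' := by
    have e1 : ihkAlpha R ℓ i = ((γ' i).1 * ihkAlpha R ℓ (σ i)) * (γ⁻¹ : IhkSL R).1 := by
      rw [← hrel i, Matrix.mul_assoc, gle_coe_mul_inv, Matrix.mul_one]
    have e2 : ihkAlpha R ℓ i' = ((γ' i').1 * ihkAlpha R ℓ (σ i)) * (γ⁻¹ : IhkSL R).1 := by
      rw [hii, ← hrel i', Matrix.mul_assoc, gle_coe_mul_inv, Matrix.mul_one]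
    rw [Matrix.SpecialLinearGroup.coe_mul]
    conv_lhs => rw [e1]
    rw [e2]
    simp only [Matrix.mul_assoc]
    rw [← Matrix.mul_assoc ((γ' i)⁻¹ : IhkSL R).1 (γ' i).1, gle_coe_inv_mul, Matrix.one_mul]
  exact (gle_distinct π _ _ _ h1).symm

end Unique

section Closure

variable {R : Type*} [CommRing R] {k : Type*} [Field k] {ℓ : ℕ} [Fact ℓ.Prime] (π : R →+* ZMod ℓ)
  (hℓ : ∀ x : R, (ℓ : R) * x = 0 → x = 0) {Nn : R} {φ : IhkSL R → k} {lam : k}

/-- `γ` has a relation family inside `Δ` whose `φ`-sum is `lam * φ γ`. -/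
def GleGood (Nn : R) (φ : IhkSL R → k) (ℓ : ℕ) [Fact ℓ.Prime] (lam : k) (γ : IhkSL R) : Prop :=
  ∃ (σ : Option (ZMod ℓ) → Option (ZMod ℓ)) (γ' : Option (ZMod ℓ) → IhkSL R),
    (∀ i, γ' i ∈ ihkDelta Nn) ∧ (∀ i, ihkAlpha R ℓ i * γ.1 = (γ' i).1 * ihkAlpha R ℓ (σ i)) ∧
      ∑ i, φ (γ' i) = lam * φ γ

theorem gle_good_one (hφ : IhkAdd Nn φ) : GleGood Nn φ ℓ lam (1 : IhkSL R) := by
  refine ⟨id, fun _ => 1, fun _ => one_mem _, fun i => ?_, ?_⟩
  · simp
  · simp [ihk_phi_one hφ]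

include π in
theorem gle_good_mul (hφ : IhkAdd Nn φ) {γ δ : IhkSL R} (hγ : γ ∈ ihkDelta Nn)
    (hδ : δ ∈ ihkDelta Nn) (h1 : GleGood Nn φ ℓ lam γ) (h2 : GleGood Nn φ ℓ lam δ) :
    GleGood Nn φ ℓ lam (γ * δ) := by
  obtain ⟨σ, γ', hm, hrel, hsum⟩ := h1
  obtain ⟨τ, δ', hm', hrel', hsum'⟩ := h2
  have hσ : Function.Bijective σ := gle_sigma_bijective π hrel
  refine ⟨τ ∘ σ, fun i => γ' i * δ' (σ i), fun i => mul_mem (hm i) (hm' _), fun i => ?_, ?_⟩
  · rw [Matrix.SpecialLinearGroup.coe_mul, ← Matrix.mul_assoc, hrel i, Matrix.mul_assoc, hrel' (σ i),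
      ← Matrix.mul_assoc, Matrix.SpecialLinearGroup.coe_mul]
    rfl
  · have e : ∀ i, φ (γ' i * δ' (σ i)) = φ (γ' i) + φ (δ' (σ i)) := fun i =>
      hφ _ (hm i) _ (hm' _)
    simp_rw [e]
    rw [Finset.sum_add_distrib, hsum]
    have e2 : ∑ i, φ (δ' (σ i)) = ∑ j, φ (δ' j) :=
      Fintype.sum_bijective σ hσ _ _ (fun _ => rfl)
    rw [e2, hsum', hφ _ hγ _ hδ]
    ring

include π in
theorem gle_good_inv (hφ : IhkAdd Nn φ) {γ : IhkSL R} (hγ : γ ∈ ihkDelta Nn)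
    (h1 : GleGood Nn φ ℓ lam γ) : GleGood Nn φ ℓ lam γ⁻¹ := by
  obtain ⟨σ, γ', hm, hrel, hsum⟩ := h1
  have hσ : Function.Bijective σ := gle_sigma_bijective π hrel
  let e : Option (ZMod ℓ) ≃ Option (ZMod ℓ) := Equiv.ofBijective σ hσ
  refine ⟨e.symm, fun j => (γ' (e.symm j))⁻¹, fun j => inv_mem (hm _), fun j => ?_, ?_⟩
  · have hj : σ (e.symm j) = j := e.apply_symm_apply j
    have h3 := hrel (e.symm j)
    rw [hj] at h3
    -- α_{τ j} γ = γ'_{τ j} α_j  ⟹  α_j γ⁻¹ = γ'_{τ j}⁻¹ α_{τ j}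
    calc ihkAlpha R ℓ j * (γ⁻¹ : IhkSL R).1
        = ((γ' (e.symm j))⁻¹ : IhkSL R).1 * ((γ' (e.symm j)).1 * ihkAlpha R ℓ j) *
            (γ⁻¹ : IhkSL R).1 := by
          rw [← Matrix.mul_assoc, gle_coe_inv_mul, Matrix.one_mul]
      _ = ((γ' (e.symm j))⁻¹ : IhkSL R).1 * (ihkAlpha R ℓ (e.symm j) * γ.1) *
            (γ⁻¹ : IhkSL R).1 := by rw [h3]
      _ = ((γ' (e.symm j))⁻¹ : IhkSL R).1 * ihkAlpha R ℓ (e.symm j) := by
          rw [Matrix.mul_assoc, Matrix.mul_assoc, gle_coe_mul_inv, Matrix.mul_one]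
  · have e1 : ∀ j, φ ((γ' (e.symm j))⁻¹) = -φ (γ' (e.symm j)) := fun j =>
      ihk_phi_inv hφ (hm _)
    simp_rw [e1]
    rw [Finset.sum_neg_distrib]
    have e2 : ∑ j, φ (γ' (e.symm j)) = ∑ i, φ (γ' i) :=
      Fintype.sum_bijective e.symm e.symm.bijective _ _ (fun _ => rfl)
    rw [e2, hsum, ihk_phi_inv hφ hγ]
    ring

include π hℓ in
/-- **Eigen-equation from generators.** -/
theorem gle_eigen_of_closure (hφ : IhkAdd Nn φ) (X : Set (IhkSL R))
    (hXΔ : X ⊆ (ihkDelta Nn : Set (IhkSL R)))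
    (hgen : (ihkDelta Nn : Set (IhkSL R)) ⊆ Subgroup.closure X)
    (hX : ∀ γ ∈ X, GleGood Nn φ ℓ lam γ) : IhkEigen Nn φ ℓ lam := by
  have hall : ∀ γ ∈ Subgroup.closure X, γ ∈ ihkDelta Nn ∧ GleGood Nn φ ℓ lam γ := by
    intro γ hγ
    induction hγ using Subgroup.closure_induction with
    | mem x hx => exact ⟨hXΔ hx, hX x hx⟩
    | one => exact ⟨one_mem _, gle_good_one hφ⟩
    | mul x y _ _ hx hy => exact ⟨mul_mem hx.1 hy.1, gle_good_mul π hφ hx.1 hy.1 hx.2 hy.2⟩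
    | inv x _ hx => exact ⟨inv_mem hx.1, gle_good_inv π hφ hx.1 hx.2⟩
  intro γ hγ σ γ' hm hrel
  obtain ⟨-, σ₀, γ₀, hm₀, hrel₀, hsum₀⟩ := hall γ (hgen hγ)
  have heq : ∀ i, γ' i = γ₀ i := fun i =>
    (gle_unique π hℓ (hrel i) (hrel₀ i)).2
  simp_rw [heq]
  exact hsum₀

end Closure

end Fermat.Agent.S41x
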