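/-
S41x/GlueGamma0 (helper45): `GleGood` (one relation family with the right `φ`-sum) for the image in `SL₂(R)`
of an element of `Γ₀(N) ⊆ SL(2,ℤ)`, from the `T_ℓ`-eigen-equation `cohOpGen N ℓ ψ = lam ψ` of S16x
(`ψ = φ ∘ ι` on `Γ₀(N)`), `ℓ ∤ N`.  This is item (2) of the D-GLUE step of S41.
-/
import Fermat.Agent.S16x.CohHecke
import Fermat.Agent.S41x.GlueEigen

set_option autoImplicit false

namespace Fermat.Agent.S41x

open Matrix Finset CongruenceSubgroup Fermat.Agent.S16x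
open scoped MatrixGroups

/-- `SL(2,ℤ) → SL₂(R)`. -/
def gleIota (R : Type*) [CommRing R] : SL(2, ℤ) →* IhkSL R :=
  Matrix.SpecialLinearGroup.map (Int.castRingHom R)

theorem gleIota_coe (R : Type*) [CommRing R] (g : SL(2, ℤ)) :
    (gleIota R g).1 = (g : Matrix (Fin 2) (Fin 2) ℤ).map (Int.castRingHom R) := rfl

/-- the integer representatives indexed by `Option (ZMod ℓ)`. -/
def gleRep (ℓ : ℕ) : Option (ZMod ℓ) → Matrix (Fin 2) (Fin 2) ℤ
  | none => cohMatInf ℓ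
  | some j => cohMatFin ℓ j

theorem gleRep_map (R : Type*) [CommRing R] (ℓ : ℕ) (i : Option (ZMod ℓ)) :
    (gleRep ℓ i).map (Int.castRingHom R) = ihkAlpha R ℓ i := by
  rcases i with _ | j
  · ext a b
    fin_cases a <;> fin_cases b <;> simp [gleRep, cohMatInf, ihkAlpha]
  · ext a b
    fin_cases a <;> fin_cases b <;> simp [gleRep, cohMatFin, ihkAlpha]

theorem gleRep_mem {N ℓ : ℕ} [NeZero ℓ] (h : ¬ ℓ ∣ N) (i : Option (ZMod ℓ)) :
    gleRep ℓ i ∈ heckeReps N ℓ := by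
  rcases i with _ | j
  · exact cohMatInf_mem_heckeReps h
  · exact cohMatFin_mem_heckeReps N j

theorem gleRep_surj {N ℓ : ℕ} [NeZero ℓ] {A : Matrix (Fin 2) (Fin 2) ℤ}
    (hA : A ∈ heckeReps N ℓ) : ∃ i, A = gleRep ℓ i := by
  rcases coh_mem_heckeReps.mp hA with ⟨j, rfl⟩ | ⟨-, rfl⟩
  · exact ⟨some j, rfl⟩
  · exact ⟨none, rfl⟩

theorem gleRep_injective {ℓ : ℕ} [Fact ℓ.Prime] : Function.Injective (gleRep ℓ) := by
  have hℓ1 : ℓ ≠ 1 := (Fact.out : ℓ.Prime).one_lt.ne'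
  intro i i' h
  rcases i with _ | j <;> rcases i' with _ | j'
  · rfl
  · exfalso
    have := congrFun (congrFun h 0) 0
    simp [gleRep, cohMatInf, cohMatFin] at this
    exact hℓ1 (by exact_mod_cast this)
  · exfalso
    have := congrFun (congrFun h 0) 0
    simp [gleRep, cohMatInf, cohMatFin] at this
    exact hℓ1 (by exact_mod_cast this.symm)
  · congr 1
    have := congrFun (congrFun h 0) 1
    simp [gleRep, cohMatFin, -ZMod.natCast_val] at this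
    exact ZMod.val_injective ℓ (by exact_mod_cast this)

theorem gle_sum_heckeReps {N ℓ : ℕ} [Fact ℓ.Prime] (h : ¬ ℓ ∣ N) {B : Type*} [AddCommMonoid B]
    (F : Matrix (Fin 2) (Fin 2) ℤ → B) :
    ∑ A ∈ heckeReps N ℓ, F A = ∑ i : Option (ZMod ℓ), F (gleRep ℓ i) := by
  classical
  have himg : heckeReps N ℓ = (Finset.univ : Finset (Option (ZMod ℓ))).image (gleRep ℓ) := by
    ext A
    rw [Finset.mem_image]
    constructor
    · intro hA
      obtain ⟨i, rfl⟩ := gleRep_surj hA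
      exact ⟨i, Finset.mem_univ _, rfl⟩
    · rintro ⟨i, -, rfl⟩
      exact gleRep_mem h i
  rw [himg, Finset.sum_image (fun a _ b _ hab => gleRep_injective hab)]

/-- index form of `exists_heckeReps_rel` + `cohOpGen_apply`: a relation family over `ℤ` indexed by
`Option (ZMod ℓ)` which computes `cohOpGen`. -/
theorem gle_rel_gamma0 (N : ℕ) [NeZero N] (ℓ : ℕ) [hℓ : Fact ℓ.Prime] (hℓN : ¬ ℓ ∣ N)
    (g : Gamma0 N) :
    ∃ (σ : Option (ZMod ℓ) → Option (ZMod ℓ)) (h : Option (ZMod ℓ) → Gamma0 N),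
      (∀ i, gleRep ℓ i * (((g : Gamma0 N) : SL(2, ℤ)) : Matrix (Fin 2) (Fin 2) ℤ) =
        (((h i : Gamma0 N) : SL(2, ℤ)) : Matrix (Fin 2) (Fin 2) ℤ) * gleRep ℓ (σ i)) ∧
      ∀ {B : Type*} [AddCommGroup B] (ψ : Additive (Gamma0 N) →+ B),
        cohOpGen N ⟨ℓ, hℓ.out⟩ ψ (Additive.ofMul g) = ∑ i, ψ (Additive.ofMul (h i)) := by
  obtain ⟨τ, h, hbij, hrel⟩ := exists_heckeReps_rel N ⟨ℓ, hℓ.out⟩ g
  have hτmem : ∀ i : Option (ZMod ℓ), ∃ i', τ (gleRep ℓ i) = gleRep ℓ i' :=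
    fun i => gleRep_surj (hbij.mapsTo (gleRep_mem hℓN i))
  choose σ hσ using hτmem
  refine ⟨σ, fun i => h (gleRep ℓ i), fun i => ?_, fun ψ => ?_⟩
  · have h1 := hrel (gleRep ℓ i) (gleRep_mem hℓN i)
    rw [hσ i] at h1
    exact h1.symm
  · have h2 := cohOpGen_apply N ⟨ℓ, hℓ.out⟩ ψ g τ h (fun A hA => hbij.mapsTo hA) hrel
    rw [h2]
    exact gle_sum_heckeReps hℓN (fun A => ψ (Additive.ofMul (h A)))

theorem gleIota_mem_delta (N : ℕ) {R : Type*} [CommRing R] (g : Gamma0 N) :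
    gleIota R (g : SL(2, ℤ)) ∈ ihkDelta ((N : ℕ) : R) := by
  rw [ihk_mem_delta, gleIota_coe]
  have hmem := g.2
  rw [Gamma0_mem] at hmem
  have hdvd : (N : ℤ) ∣ ((g : Gamma0 N) : SL(2, ℤ)) 1 0 :=
    (ZMod.intCast_zmod_eq_zero_iff_dvd _ N).mp hmem
  obtain ⟨c, hc⟩ := hdvd
  refine ⟨(c : R), ?_⟩
  simp only [Matrix.map_apply, Int.coe_castRingHom]
  rw [hc]
  push_cast
  ring

/-- **`GleGood` on the image of `Γ₀(N)`.** -/
theorem gle_good_gamma0 (N : ℕ) [NeZero N] (ℓ : ℕ) [hℓ : Fact ℓ.Prime] (hℓN : ¬ ℓ ∣ N)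
    {R : Type*} [CommRing R] {k : Type*} [Field k] (φ : IhkSL R → k)
    (ψ : Additive (Gamma0 N) →+ k)
    (hψ : ∀ g : Gamma0 N, φ (gleIota R (g : SL(2, ℤ))) = ψ (Additive.ofMul g)) (lam : k)
    (heig : ∀ g : Gamma0 N,
      cohOpGen N ⟨ℓ, hℓ.out⟩ ψ (Additive.ofMul g) = lam * ψ (Additive.ofMul g))
    (g : Gamma0 N) :
    GleGood ((N : ℕ) : R) φ ℓ lam (gleIota R (g : SL(2, ℤ))) := by
  obtain ⟨σ, h, hrel, hop⟩ := gle_rel_gamma0 N ℓ hℓN g
  refine ⟨σ, fun i => gleIota R ((h i : Gamma0 N) : SL(2, ℤ)), fun i => gleIota_mem_delta N _,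
    fun i => ?_, ?_⟩
  · -- the relation over `R`
    have h2 := congrArg (fun M : Matrix (Fin 2) (Fin 2) ℤ => M.map (Int.castRingHom R)) (hrel i)
    simp only [Matrix.map_mul] at h2
    rw [gleRep_map, gleRep_map] at h2
    rw [gleIota_coe, gleIota_coe]
    exact h2
  · -- the sum
    simp_rw [hψ]
    rw [← hop ψ, heig g]

end Fermat.Agent.S41x
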