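/-
S41x/GlueTwist (helper45): `GleGood` for the TWISTED copy `E Γ₀(N) E⁻¹`, `E = diag(1,t)`, `t` a unit of `R`
(`[[a,b],[c,d]] ↦ [[a, b t⁻¹],[t c, d]]`; for `R = ℤ[1/q]`, `t = q` this is `η⁻¹ Γ₀(N) η`, `η = diag(q,1)`),
from the `T_ℓ`-eigen-equation `cohOpGen N ℓ ψ = lam ψ` of S16x for `ψ = φ ∘ (twisted embedding)`.
This is item (2b) of the D-GLUE step of S41:  `E α_j E⁻¹ = u(s_j) α_{j π(t)⁻¹}`, `E α_∞ E⁻¹ = α_∞`,
and the `u`-terms cancel in the sum because the index map of a relation family is a permutation.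
-/
import Fermat.Agent.S41x.GlueGamma0

set_option autoImplicit false

namespace Fermat.Agent.S41x

open Matrix Finset CongruenceSubgroup Fermat.Agent.S16x
open scoped MatrixGroups

section Twist

variable {R : Type*} [CommRing R]

/-- `diag(1,t)` -/
def gleE (t : R) : Matrix (Fin 2) (Fin 2) R := !![1, 0; 0, t]

theorem gleE_mul (s t : R) : gleE s * gleE t = gleE (s * t) := by
  ext i j
  fin_cases i <;> fin_cases j <;> simp [gleE, Matrix.mul_apply, Fin.sum_univ_two]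

theorem gleE_one : gleE (1 : R) = 1 := by
  ext i j
  fin_cases i <;> fin_cases j <;> simp [gleE]

theorem gleE_mul_inv (t : Rˣ) : gleE (t : R) * gleE ((t⁻¹ : Rˣ) : R) = 1 := by
  rw [gleE_mul, Units.mul_inv, gleE_one]

theorem gleE_inv_mul (t : Rˣ) : gleE ((t⁻¹ : Rˣ) : R) * gleE (t : R) = 1 := by
  rw [gleE_mul, Units.inv_mul, gleE_one]

/-- the twisted embedding `[[a,b],[c,d]] ↦ [[a, b t⁻¹],[t c, d]]` of `SL(2,ℤ)` into `SL₂(R)`. -/
def gleTw (t : Rˣ) (g : SL(2, ℤ)) : IhkSL R :=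
  ⟨!![((g.1 0 0 : ℤ) : R), ((g.1 0 1 : ℤ) : R) * ((t⁻¹ : Rˣ) : R);
      (t : R) * ((g.1 1 0 : ℤ) : R), ((g.1 1 1 : ℤ) : R)], by
    have h := g.2
    rw [Matrix.det_fin_two] at h
    have h' : ((g.1 0 0 : ℤ) : R) * ((g.1 1 1 : ℤ) : R) -
        ((g.1 0 1 : ℤ) : R) * ((g.1 1 0 : ℤ) : R) = 1 := by exact_mod_cast congrArg (Int.cast : ℤ → R) h
    have ht : (t : R) * ((t⁻¹ : Rˣ) : R) = 1 := Units.mul_inv t
    rw [Matrix.det_fin_two_of]
    linear_combination h' - (((g.1 0 1 : ℤ) : R) * ((g.1 1 0 : ℤ) : R)) * ht⟩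

theorem gleTw_coe (t : Rˣ) (g : SL(2, ℤ)) :
    (gleTw t g).1 = !![((g.1 0 0 : ℤ) : R), ((g.1 0 1 : ℤ) : R) * ((t⁻¹ : Rˣ) : R);
      (t : R) * ((g.1 1 0 : ℤ) : R), ((g.1 1 1 : ℤ) : R)] := rfl

/-- `gleTw t g = E ι(g) E⁻¹`. -/
theorem gleTw_eq_conj (t : Rˣ) (g : SL(2, ℤ)) :
    (gleTw t g).1 = gleE (t : R) * (gleIota R g).1 * gleE ((t⁻¹ : Rˣ) : R) := by
  have ht : (t : R) * ((t⁻¹ : Rˣ) : R) = 1 := Units.mul_inv t
  rw [gleTw_coe, gleIota_coe]
  ext i j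
  fin_cases i <;> fin_cases j <;>
    simp only [gleE, Matrix.mul_apply, Fin.sum_univ_two, Matrix.of_apply, Matrix.cons_val',
      Matrix.cons_val_zero, Matrix.cons_val_one, Matrix.cons_val_fin_one, Matrix.map_apply,
      Int.coe_castRingHom, Fin.zero_eta, Fin.mk_one]
  · ring
  · ring
  · ring
  · linear_combination (-((((g.1 1 1 : ℤ) : R)))) * ht

theorem gleTw_mem_delta (N : ℕ) (t : Rˣ) (g : Gamma0 N) :
    gleTw t (g : SL(2, ℤ)) ∈ ihkDelta ((N : ℕ) : R) := by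
  rw [ihk_mem_delta, gleTw_coe]
  have hmem := g.2
  rw [Gamma0_mem] at hmem
  have hdvd : (N : ℤ) ∣ ((g : Gamma0 N) : SL(2, ℤ)) 1 0 :=
    (ZMod.intCast_zmod_eq_zero_iff_dvd _ N).mp hmem
  obtain ⟨c, hc⟩ := hdvd
  refine ⟨(t : R) * (c : R), ?_⟩
  simp only [Matrix.of_apply, Matrix.cons_val', Matrix.cons_val_zero, Matrix.cons_val_one,
    Matrix.cons_val_fin_one]
  have : ((((g : Gamma0 N) : SL(2, ℤ)).1 1 0 : ℤ) : R) = (N : R) * (c : R) := by
    have := congrArg (Int.cast : ℤ → R) hc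
    push_cast at this
    exact this
  rw [this]
  ring

/-- conjugating a matrix relation by `E`. -/
theorem gle_conj_rel {A B C D E E' : Matrix (Fin 2) (Fin 2) R} (hE : E' * E = 1)
    (h : A * B = C * D) : (E * A * E') * (E * B * E') = (E * C * E') * (E * D * E') := by
  calc (E * A * E') * (E * B * E') = E * A * (E' * E) * B * E' := by simp only [Matrix.mul_assoc]
    _ = E * (A * B) * E' := by rw [hE]; simp only [Matrix.mul_assoc, Matrix.mul_one]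
    _ = E * (C * D) * E' := by rw [h]
    _ = E * C * (E' * E) * D * E' := by rw [hE]; simp only [Matrix.mul_assoc, Matrix.mul_one]
    _ = (E * C * E') * (E * D * E') := by simp only [Matrix.mul_assoc]

variable {ℓ : ℕ} [Fact ℓ.Prime] (π : R →+* ZMod ℓ) (hπ : ∀ x : R, π x = 0 → (ℓ : R) ∣ x)

/-- the permutation `j ↦ j π(t)⁻¹`, `∞ ↦ ∞` of the index set. -/
def gleRho (t : Rˣ) : Option (ZMod ℓ) ≃ Option (ZMod ℓ) :=
  Equiv.optionCongr (Units.mulRight (Units.map (π : R →* ZMod ℓ) t⁻¹))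

theorem gleRho_none (t : Rˣ) : gleRho π t none = none := rfl

theorem gleRho_some (t : Rˣ) (j : ZMod ℓ) :
    gleRho π t (some j) = some (j * π ((t⁻¹ : Rˣ) : R)) := rfl

include hπ in
/-- `E α_i E⁻¹ = u(s) α_{ρ i}`. -/
theorem gle_conj_alpha (t : Rˣ) (i : Option (ZMod ℓ)) :
    ∃ s : R, gleE (t : R) * ihkAlpha R ℓ i * gleE ((t⁻¹ : Rˣ) : R) =
      (ihkU s).1 * ihkAlpha R ℓ (gleRho π t i) := by
  have ht : (t : R) * ((t⁻¹ : Rˣ) : R) = 1 := Units.mul_inv t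
  rcases i with _ | j
  · refine ⟨0, ?_⟩
    rw [gleRho_none]
    ext a b
    fin_cases a <;> fin_cases b <;>
      simp [gleE, ihkAlpha, ihkU, Matrix.mul_apply, Fin.sum_univ_two, ht]
  · rw [gleRho_some]
    set j' : ZMod ℓ := j * π ((t⁻¹ : Rˣ) : R) with hj'
    have hker : π (((j.val : ℕ) : R) * ((t⁻¹ : Rˣ) : R) - ((j'.val : ℕ) : R)) = 0 := by
      rw [map_sub, map_mul, ihk_pi_val, ihk_pi_val, hj', sub_self]
    obtain ⟨s, hs⟩ := hπ _ hker
    refine ⟨s, ?_⟩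
    ext a b
    fin_cases a <;> fin_cases b
    · simp [gleE, ihkAlpha, ihkU, Matrix.mul_apply, Fin.sum_univ_two]
    · simp only [gleE, ihkAlpha, ihkU, Matrix.mul_apply, Fin.sum_univ_two, Matrix.of_apply,
        Matrix.cons_val', Matrix.cons_val_zero, Matrix.cons_val_one, Matrix.cons_val_fin_one,
        Fin.zero_eta, Fin.mk_one]
      linear_combination hs
    · simp [gleE, ihkAlpha, ihkU, Matrix.mul_apply, Fin.sum_univ_two]
    · simp only [gleE, ihkAlpha, ihkU, Matrix.mul_apply, Fin.sum_univ_two, Matrix.of_apply,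
        Matrix.cons_val', Matrix.cons_val_zero, Matrix.cons_val_one, Matrix.cons_val_fin_one,
        Fin.mk_one]
      linear_combination (ℓ : R) * ht

end Twist

section Main

variable {R : Type*} [CommRing R] {k : Type*} [Field k]

/-- **`GleGood` on the twisted copy of `Γ₀(N)`.** -/
theorem gle_good_twist (N : ℕ) [NeZero N] (ℓ : ℕ) [hℓ : Fact ℓ.Prime] (hℓN : ¬ ℓ ∣ N)
    (π : R →+* ZMod ℓ) (hπ : ∀ x : R, π x = 0 → (ℓ : R) ∣ x) (t : Rˣ)
    (φ : IhkSL R → k) (hφ : IhkAdd ((N : ℕ) : R) φ)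
    (ψ : Additive (Gamma0 N) →+ k)
    (hψ : ∀ g : Gamma0 N, φ (gleTw t (g : SL(2, ℤ))) = ψ (Additive.ofMul g)) (lam : k)
    (heig : ∀ g : Gamma0 N,
      cohOpGen N ⟨ℓ, hℓ.out⟩ ψ (Additive.ofMul g) = lam * ψ (Additive.ofMul g))
    (g : Gamma0 N) :
    GleGood ((N : ℕ) : R) φ ℓ lam (gleTw t (g : SL(2, ℤ))) := by
  obtain ⟨σ, h, hrel, hop⟩ := gle_rel_gamma0 N ℓ hℓN g
  -- the relation over `R`
  have hrelR : ∀ i, ihkAlpha R ℓ i * (gleIota R (g : SL(2, ℤ))).1 =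
      (gleIota R ((h i : Gamma0 N) : SL(2, ℤ))).1 * ihkAlpha R ℓ (σ i) := by
    intro i
    have h2 := congrArg (fun M : Matrix (Fin 2) (Fin 2) ℤ => M.map (Int.castRingHom R)) (hrel i)
    simp only [Matrix.map_mul] at h2
    rw [gleRep_map, gleRep_map] at h2
    rw [gleIota_coe, gleIota_coe]
    exact h2
  have hσ : Function.Bijective σ := gle_sigma_bijective π hrelR
  -- conjugated relation
  have hconj : ∀ i, (gleE (t : R) * ihkAlpha R ℓ i * gleE ((t⁻¹ : Rˣ) : R)) *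
      (gleTw t (g : SL(2, ℤ))).1 = (gleTw t ((h i : Gamma0 N) : SL(2, ℤ))).1 *
        (gleE (t : R) * ihkAlpha R ℓ (σ i) * gleE ((t⁻¹ : Rˣ) : R)) := by
    intro i
    rw [gleTw_eq_conj, gleTw_eq_conj]
    exact gle_conj_rel (gleE_inv_mul t) (hrelR i)
  choose s hs using gle_conj_alpha π hπ t
  set ρ := gleRho π t with hρ
  -- relation for the standard representatives
  have hrel' : ∀ i, ihkAlpha R ℓ (ρ i) * (gleTw t (g : SL(2, ℤ))).1 =
      ((ihkU (s i))⁻¹ * gleTw t ((h i : Gamma0 N) : SL(2, ℤ)) * ihkU (s (σ i)) : IhkSL R).1 *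
        ihkAlpha R ℓ (ρ (σ i)) := by
    intro i
    have h1 := hconj i
    rw [hs i, hs (σ i)] at h1
    calc ihkAlpha R ℓ (ρ i) * (gleTw t (g : SL(2, ℤ))).1
        = ((ihkU (s i))⁻¹ : IhkSL R).1 * ((ihkU (s i)).1 * ihkAlpha R ℓ (ρ i) *
            (gleTw t (g : SL(2, ℤ))).1) := by
          rw [Matrix.mul_assoc, ← Matrix.mul_assoc, gle_coe_inv_mul, Matrix.one_mul]
      _ = ((ihkU (s i))⁻¹ : IhkSL R).1 * ((gleTw t ((h i : Gamma0 N) : SL(2, ℤ))).1 *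
            ((ihkU (s (σ i))).1 * ihkAlpha R ℓ (ρ (σ i)))) := by rw [h1]
      _ = _ := by
          rw [Matrix.SpecialLinearGroup.coe_mul, Matrix.SpecialLinearGroup.coe_mul]
          simp only [Matrix.mul_assoc]
  refine ⟨fun i' => ρ (σ (ρ.symm i')),
    fun i' => (ihkU (s (ρ.symm i')))⁻¹ * gleTw t ((h (ρ.symm i') : Gamma0 N) : SL(2, ℤ)) *
      ihkU (s (σ (ρ.symm i'))), fun i' => ?_, fun i' => ?_, ?_⟩
  · exact mul_mem (mul_mem (inv_mem (ihkU_mem _ _)) (gleTw_mem_delta N t _)) (ihkU_mem _ _)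
  · have := hrel' (ρ.symm i')
    rw [Equiv.apply_symm_apply] at this
    exact this
  · -- the sum
    have hU : ∀ x : R, ihkU x ∈ ihkDelta ((N : ℕ) : R) := fun x => ihkU_mem _ x
    have e1 : ∀ i', φ ((ihkU (s (ρ.symm i')))⁻¹ *
        gleTw t ((h (ρ.symm i') : Gamma0 N) : SL(2, ℤ)) * ihkU (s (σ (ρ.symm i')))) =
        -φ (ihkU (s (ρ.symm i'))) + ψ (Additive.ofMul (h (ρ.symm i'))) +
          φ (ihkU (s (σ (ρ.symm i')))) := by
      intro i'
      rw [hφ _ (mul_mem (inv_mem (hU _)) (gleTw_mem_delta N t _)) _ (hU _),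
        hφ _ (inv_mem (hU _)) _ (gleTw_mem_delta N t _), ihk_phi_inv hφ (hU _), hψ]
    simp_rw [e1]
    rw [Equiv.sum_comp ρ.symm (fun i => -φ (ihkU (s i)) + ψ (Additive.ofMul (h i)) +
      φ (ihkU (s (σ i))))]
    rw [Finset.sum_add_distrib, Finset.sum_add_distrib, Finset.sum_neg_distrib]
    have e2 : ∑ i, φ (ihkU (s (σ i))) = ∑ i, φ (ihkU (s i)) :=
      Equiv.sum_comp (Equiv.ofBijective σ hσ) (fun i => φ (ihkU (s i)))
    rw [e2, ← hop ψ, heig g, hψ g]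
    ring

end Main

end Fermat.Agent.S41x
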