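/-
S41x/Amg55Abs (helper55): an injectivity criterion for maps out of an amalgamated product
(`Monoid.PushoutI`), from Mathlib's normal form theorem.  Used by `S41x/Amg55Main.lean` (item D1).
-/
import Mathlib

set_option autoImplicit false

namespace Fermat.Agent.S41x

section Abstract

variable {ι : Type*} {G : ι → Type*} {H K : Type*} [∀ i, Group (G i)] [Group H] [Group K]
  {φ : ∀ i, H →* G i}

/-- Value of `lift` on the product of a word of the free product. -/
theorem amg55_lift_word_prod (ψ : ∀ i, G i →* K) (k : H →* K)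
    (hk : ∀ i, (ψ i).comp (φ i) = k) (w : Monoid.CoprodI.Word G) :
    Monoid.PushoutI.lift ψ k hk (Monoid.PushoutI.ofCoprodI (φ := φ) w.prod) =
      (w.toList.map (fun l => ψ l.1 l.2)).prod := by
  rw [Monoid.CoprodI.Word.prod, map_list_prod, map_list_prod, List.map_map, List.map_map]
  congr 1

/-- **Injectivity criterion**: if no non-empty alternating word of letters outside the base lands in
the image of the base, the canonical map out of the amalgam is injective. -/
theorem amg55_lift_injective (hφ : ∀ i, Function.Injective (φ i))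
    (ψ : ∀ i, G i →* K) (k : H →* K) (hk : ∀ i, (ψ i).comp (φ i) = k)
    (hkinj : Function.Injective k)
    (hwords : ∀ L : List (Σ i, G i), L ≠ [] → L.IsChain (fun l l' => l.1 ≠ l'.1) →
      (∀ l ∈ L, l.2 ∉ (φ l.1).range) → (L.map (fun l => ψ l.1 l.2)).prod ∉ k.range) :
    Function.Injective (Monoid.PushoutI.lift ψ k hk) := by
  classical
  obtain ⟨d⟩ := Monoid.PushoutI.NormalWord.transversal_nonempty φ hφ
  rw [injective_iff_map_eq_one]
  intro x hx
  obtain ⟨w, rfl⟩ : ∃ w : Monoid.PushoutI.NormalWord d, w.prod = x :=
    ⟨Monoid.PushoutI.NormalWord.equiv x, (Monoid.PushoutI.NormalWord.equiv (d := d)).symm_apply_apply x⟩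
  rw [Monoid.PushoutI.NormalWord.prod, map_mul, Monoid.PushoutI.lift_base,
    amg55_lift_word_prod] at hx
  -- the letters of a normal word are outside the base
  have hletters : ∀ l ∈ w.toList, l.2 ∉ (φ l.1).range := by
    intro l hl hr
    have hne : l.2 ≠ 1 := w.ne_one l hl
    have hmem : l.2 ∈ d.set l.1 := w.normalized l.1 l.2 (by cases l; exact hl)
    have hc := d.compl l.1
    -- uniqueness of the decomposition `l.2 = l.2 * 1 = 1 * l.2`
    have h1 : ((⟨l.2, hr⟩ : (φ l.1).range), (⟨1, d.one_mem l.1⟩ : d.set l.1)) =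
        ((⟨1, one_mem _⟩ : (φ l.1).range), (⟨l.2, hmem⟩ : d.set l.1)) := by
      apply hc.1
      simp
    have := congrArg (fun p => (p.1 : G l.1)) h1
    exact hne (by simpa using this)
  by_cases hL : w.toList = []
  · rw [hL] at hx
    simp only [List.map_nil, List.prod_nil, mul_one] at hx
    have hh : w.head = 1 := hkinj (by rw [hx, map_one])
    have hw : w = Monoid.PushoutI.NormalWord.empty := by
      apply Monoid.PushoutI.NormalWord.ext
      · simpa using hh
      · simp [hL]
    rw [hw, Monoid.PushoutI.NormalWord.prod_empty]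
  · exfalso
    apply hwords w.toList hL w.chain_ne hletters
    refine ⟨w.head⁻¹, ?_⟩
    rw [map_inv]
    exact inv_eq_of_mul_eq_one_right hx

end Abstract

end Fermat.Agent.S41x
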