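/-
S41x/Amg55Defs (helper55): the groups of item D1 of the S41 plan.
`amg55_iota : SL(2,ℤ) →* SL(2,ℚ)`, `amg55_eta q` = conjugation by `diag(1,q)` on `SL(2,ℚ)`,
`amg55_S N q false = ι Γ₀(N)`, `amg55_S N q true = η ι Γ₀(N)`, and
`amg55_Delta N q` = matrices of `SL(2,ℚ)` with entries in `ℤ[1/q]` and lower-left entry in `N ℤ[1/q]`.
-/
import Mathlib

set_option autoImplicit false

namespace Fermat.Agent.S41x

open Matrix CongruenceSubgroup

/-- The natural map `SL(2,ℤ) →* SL(2,ℚ)`. -/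
def amg55_iota : Matrix.SpecialLinearGroup (Fin 2) ℤ →* Matrix.SpecialLinearGroup (Fin 2) ℚ :=
  Matrix.SpecialLinearGroup.map (Int.castRingHom ℚ)

theorem amg55_iota_apply (x : Matrix.SpecialLinearGroup (Fin 2) ℤ) (i j : Fin 2) :
    (amg55_iota x) i j = ((x i j : ℤ) : ℚ) := by
  simp [amg55_iota, Matrix.SpecialLinearGroup.map_apply_coe]

theorem amg55_iota_injective : Function.Injective amg55_iota := by
  intro x y h
  ext i j
  have := congrArg (fun g : Matrix.SpecialLinearGroup (Fin 2) ℚ => g i j) h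
  simp only [amg55_iota_apply] at this
  exact_mod_cast this

/-- Build an element of `SL(2,R)` from its entries. -/
def amg55_mk {R : Type*} [CommRing R] (a b c d : R) (h : a * d - b * c = 1) :
    Matrix.SpecialLinearGroup (Fin 2) R :=
  ⟨!![a, b; c, d], by rw [Matrix.det_fin_two_of]; exact h⟩

@[simp] theorem amg55_mk_00 {R : Type*} [CommRing R] (a b c d : R) (h : a * d - b * c = 1) :
    (amg55_mk a b c d h) 0 0 = a := rfl
@[simp] theorem amg55_mk_01 {R : Type*} [CommRing R] (a b c d : R) (h : a * d - b * c = 1) :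
    (amg55_mk a b c d h) 0 1 = b := rfl
@[simp] theorem amg55_mk_10 {R : Type*} [CommRing R] (a b c d : R) (h : a * d - b * c = 1) :
    (amg55_mk a b c d h) 1 0 = c := rfl
@[simp] theorem amg55_mk_11 {R : Type*} [CommRing R] (a b c d : R) (h : a * d - b * c = 1) :
    (amg55_mk a b c d h) 1 1 = d := rfl

theorem amg55_det_eq {R : Type*} [CommRing R] (g : Matrix.SpecialLinearGroup (Fin 2) R) :
    g 0 0 * g 1 1 - g 0 1 * g 1 0 = 1 := by
  have := g.det_coe
  rwa [Matrix.det_fin_two] at this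

theorem amg55_ext {R : Type*} [CommRing R] {g h : Matrix.SpecialLinearGroup (Fin 2) R}
    (h00 : g 0 0 = h 0 0) (h01 : g 0 1 = h 0 1) (h10 : g 1 0 = h 1 0) (h11 : g 1 1 = h 1 1) :
    g = h := by
  ext i j
  fin_cases i <;> fin_cases j <;> assumption

theorem amg55_mul_apply {R : Type*} [CommRing R] (g h : Matrix.SpecialLinearGroup (Fin 2) R)
    (i j : Fin 2) : (g * h) i j = g i 0 * h 0 j + g i 1 * h 1 j := by
  rw [Matrix.SpecialLinearGroup.coe_mul, Matrix.mul_apply, Fin.sum_univ_two]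

theorem amg55_one_apply {R : Type*} [CommRing R] (i j : Fin 2) :
    (1 : Matrix.SpecialLinearGroup (Fin 2) R) i j = if i = j then 1 else 0 := by
  rw [Matrix.SpecialLinearGroup.coe_one, Matrix.one_apply]

theorem amg55_inv_00 {R : Type*} [CommRing R] (g : Matrix.SpecialLinearGroup (Fin 2) R) :
    (g⁻¹) 0 0 = g 1 1 := by
  simp [Matrix.SpecialLinearGroup.coe_inv, Matrix.adjugate_fin_two]
theorem amg55_inv_01 {R : Type*} [CommRing R] (g : Matrix.SpecialLinearGroup (Fin 2) R) :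
    (g⁻¹) 0 1 = - g 0 1 := by
  simp [Matrix.SpecialLinearGroup.coe_inv, Matrix.adjugate_fin_two]
theorem amg55_inv_10 {R : Type*} [CommRing R] (g : Matrix.SpecialLinearGroup (Fin 2) R) :
    (g⁻¹) 1 0 = - g 1 0 := by
  simp [Matrix.SpecialLinearGroup.coe_inv, Matrix.adjugate_fin_two]
theorem amg55_inv_11 {R : Type*} [CommRing R] (g : Matrix.SpecialLinearGroup (Fin 2) R) :
    (g⁻¹) 1 1 = g 0 0 := by
  simp [Matrix.SpecialLinearGroup.coe_inv, Matrix.adjugate_fin_two]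

/-- Conjugation by `diag(1,q)` on `SL(2,ℚ)`: `[[a,b],[c,d]] ↦ [[a,b/q],[qc,d]]`. -/
def amg55_eta (q : ℕ) [Fact q.Prime] :
    Matrix.SpecialLinearGroup (Fin 2) ℚ →* Matrix.SpecialLinearGroup (Fin 2) ℚ where
  toFun g := amg55_mk (g 0 0) (g 0 1 / q) (q * g 1 0) (g 1 1) (by
    have hq : (q : ℚ) ≠ 0 := Nat.cast_ne_zero.mpr (Fact.out : q.Prime).ne_zero
    have := amg55_det_eq g
    field_simp
    linarith)
  map_one' := by
    apply amg55_ext <;> simp [amg55_one_apply]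
  map_mul' g h := by
    have hq : (q : ℚ) ≠ 0 := Nat.cast_ne_zero.mpr (Fact.out : q.Prime).ne_zero
    apply amg55_ext <;> simp only [amg55_mul_apply, amg55_mk_00, amg55_mk_01, amg55_mk_10,
      amg55_mk_11] <;> field_simp

@[simp] theorem amg55_eta_00 (q : ℕ) [Fact q.Prime] (g : Matrix.SpecialLinearGroup (Fin 2) ℚ) :
    (amg55_eta q g) 0 0 = g 0 0 := rfl
@[simp] theorem amg55_eta_01 (q : ℕ) [Fact q.Prime] (g : Matrix.SpecialLinearGroup (Fin 2) ℚ) :
    (amg55_eta q g) 0 1 = g 0 1 / q := rfl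
@[simp] theorem amg55_eta_10 (q : ℕ) [Fact q.Prime] (g : Matrix.SpecialLinearGroup (Fin 2) ℚ) :
    (amg55_eta q g) 1 0 = q * g 1 0 := rfl
@[simp] theorem amg55_eta_11 (q : ℕ) [Fact q.Prime] (g : Matrix.SpecialLinearGroup (Fin 2) ℚ) :
    (amg55_eta q g) 1 1 = g 1 1 := rfl

theorem amg55_eta_injective (q : ℕ) [Fact q.Prime] : Function.Injective (amg55_eta q) := by
  have hq : (q : ℚ) ≠ 0 := Nat.cast_ne_zero.mpr (Fact.out : q.Prime).ne_zero
  intro g h e
  have e00 := congrArg (fun x : Matrix.SpecialLinearGroup (Fin 2) ℚ => x 0 0) e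
  have e01 := congrArg (fun x : Matrix.SpecialLinearGroup (Fin 2) ℚ => x 0 1) e
  have e10 := congrArg (fun x : Matrix.SpecialLinearGroup (Fin 2) ℚ => x 1 0) e
  have e11 := congrArg (fun x : Matrix.SpecialLinearGroup (Fin 2) ℚ => x 1 1) e
  simp only [amg55_eta_00, amg55_eta_01, amg55_eta_10, amg55_eta_11] at e00 e01 e10 e11
  apply amg55_ext e00 _ _ e11
  · field_simp at e01; exact e01
  · exact mul_left_cancel₀ hq e10

/-- The two embeddings of `SL(2,ℤ)` into `SL(2,ℚ)`: `ι` and `η ∘ ι`. -/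
def amg55_j (q : ℕ) [Fact q.Prime] :
    Bool → (Matrix.SpecialLinearGroup (Fin 2) ℤ →* Matrix.SpecialLinearGroup (Fin 2) ℚ)
  | false => amg55_iota
  | true => (amg55_eta q).comp amg55_iota

theorem amg55_j_injective (q : ℕ) [Fact q.Prime] (b : Bool) : Function.Injective (amg55_j q b) := by
  cases b
  · exact amg55_iota_injective
  · exact (amg55_eta_injective q).comp amg55_iota_injective

/-- The two vertex groups `ι Γ₀(N)` and `η ι Γ₀(N)`. -/
def amg55_S (N q : ℕ) [Fact q.Prime] (b : Bool) :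
    Subgroup (Matrix.SpecialLinearGroup (Fin 2) ℚ) :=
  (Gamma0 N).map (amg55_j q b)

/-- `Γ₀(N)[1/q]`: `q^k γ` is integral for some `k`, with lower-left entry divisible by `N`. -/
def amg55_Delta (N q : ℕ) : Subgroup (Matrix.SpecialLinearGroup (Fin 2) ℚ) where
  carrier := {g | ∃ (k : ℕ) (m00 m01 m10 m11 : ℤ), (q : ℚ) ^ k * g 0 0 = m00 ∧
    (q : ℚ) ^ k * g 0 1 = m01 ∧ (q : ℚ) ^ k * g 1 0 = m10 ∧ (q : ℚ) ^ k * g 1 1 = m11 ∧
    (N : ℤ) ∣ m10}
  one_mem' := ⟨0, 1, 0, 0, 1, by simp [amg55_one_apply]⟩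
  mul_mem' := by
    rintro g h ⟨k, a, b, c, d, ha, hb, hc, hd, hN⟩ ⟨k', a', b', c', d', ha', hb', hc', hd', hN'⟩
    refine ⟨k + k', a * a' + b * c', a * b' + b * d', c * a' + d * c', c * b' + d * d', ?_, ?_, ?_,
      ?_, ?_⟩
    · rw [amg55_mul_apply]; push_cast; rw [← ha, ← hb, ← ha', ← hc']; ring
    · rw [amg55_mul_apply]; push_cast; rw [← ha, ← hb, ← hb', ← hd']; ring
    · rw [amg55_mul_apply]; push_cast; rw [← hc, ← hd, ← ha', ← hc']; ring
    · rw [amg55_mul_apply]; push_cast; rw [← hc, ← hd, ← hb', ← hd']; ring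
    · exact dvd_add (Dvd.dvd.mul_right hN _) (Dvd.dvd.mul_left hN' _)
  inv_mem' := by
    rintro g ⟨k, a, b, c, d, ha, hb, hc, hd, hN⟩
    refine ⟨k, d, -b, -c, a, ?_, ?_, ?_, ?_, ?_⟩
    · rw [amg55_inv_00]; exact hd
    · rw [amg55_inv_01]; push_cast; rw [← hb]; ring
    · rw [amg55_inv_10]; push_cast; rw [← hc]; ring
    · rw [amg55_inv_11]; exact ha
    · exact (dvd_neg).mpr hN

end Fermat.Agent.S41x
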