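/-
S41x/Amg55Words (helper55): the mod-`q` invariant of alternating words in `ι Γ₀(N)` and
`η ι Γ₀(N)` (item D1 of the S41 plan).  A non-empty alternating word of letters outside
`ι Γ₀(N) ∩ η ι Γ₀(N)` is never in that intersection.
-/
import Fermat.Agent.S41x.Amg55Defs

set_option autoImplicit false

namespace Fermat.Agent.S41x

open Matrix CongruenceSubgroup

/-- The letters: type `false` is `ι x` with `q ∤ x₁₀`, type `true` is `η ι z` with `q ∤ z₀₁`. -/
def amg55_T (N q : ℕ) [Fact q.Prime] :
    Bool → Matrix.SpecialLinearGroup (Fin 2) ℚ → Prop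
  | false, g => ∃ x : Matrix.SpecialLinearGroup (Fin 2) ℤ, x ∈ Gamma0 N ∧ g = amg55_iota x ∧
      ¬ (q : ℤ) ∣ x 1 0
  | true, g => ∃ z : Matrix.SpecialLinearGroup (Fin 2) ℤ, z ∈ Gamma0 N ∧
      g = amg55_eta q (amg55_iota z) ∧ ¬ (q : ℤ) ∣ z 0 1

theorem amg55_prime_int (q : ℕ) [Fact q.Prime] : Prime (q : ℤ) :=
  Nat.prime_iff_prime_int.mp Fact.out

theorem amg55_dvd_of_comb {p a b c d : ℤ} (hp : Prime p) (ha : ¬ p ∣ a) (hd : p ∣ d)
    (h : p ∣ a * b + c * d) : p ∣ b := by
  have h1 : p ∣ a * b := by
    have := dvd_sub h (Dvd.dvd.mul_left hd c)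
    simpa using this
  exact (hp.dvd_or_dvd h1).resolve_left ha

theorem amg55_dvd_of_comb' {p a b c : ℤ} (hp : Prime p) (ha : ¬ p ∣ a)
    (h : p ∣ p * c + a * b) : p ∣ b := by
  have h1 : p ∣ a * b := by
    have := dvd_sub h (dvd_mul_right p c)
    simpa using this
  exact (hp.dvd_or_dvd h1).resolve_left ha

/-- The invariant. -/
theorem amg55_inv (N q : ℕ) [Fact q.Prime]
    (L : List (Bool × Matrix.SpecialLinearGroup (Fin 2) ℚ))
    (hc : L.IsChain (fun l l' => l.1 ≠ l'.1)) (hT : ∀ l ∈ L, amg55_T N q l.1 l.2) :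
    ∃ m00 m01 m10 m11 : ℤ,
      (q : ℚ) ^ ((L.map Prod.fst).count true) * ((L.map Prod.snd).prod) 0 0 = m00 ∧
      (q : ℚ) ^ ((L.map Prod.fst).count true) * ((L.map Prod.snd).prod) 0 1 = m01 ∧
      (q : ℚ) ^ ((L.map Prod.fst).count true) * ((L.map Prod.snd).prod) 1 0 = m10 ∧
      (q : ℚ) ^ ((L.map Prod.fst).count true) * ((L.map Prod.snd).prod) 1 1 = m11 ∧
      (L.head?.map Prod.fst = some true →
        (q : ℤ) ∣ m10 ∧ (q : ℤ) ∣ m11 ∧ ¬ ((q : ℤ) ∣ m00 ∧ (q : ℤ) ∣ m01)) ∧
      (L.head?.map Prod.fst ≠ some true → ¬ ((q : ℤ) ∣ m10 ∧ (q : ℤ) ∣ m11)) := by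
  have hqp := amg55_prime_int q
  induction L with
  | nil =>
    refine ⟨1, 0, 0, 1, ?_, ?_, ?_, ?_, ?_, ?_⟩
    · simp [amg55_one_apply]
    · simp [amg55_one_apply]
    · simp [amg55_one_apply]
    · simp [amg55_one_apply]
    · intro h; simp at h
    · intro _ h
      exact hqp.not_isUnit (isUnit_of_dvd_one h.2)
  | cons l L ih =>
    obtain ⟨b, g⟩ := l
    rw [List.isChain_cons] at hc
    obtain ⟨hhead, hcL⟩ := hc
    obtain ⟨m00, m01, m10, m11, h00, h01, h10, h11, hA, hB⟩ :=
      ih hcL (fun l hl => hT l (List.mem_cons_of_mem _ hl))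
    have hTg := hT (b, g) List.mem_cons_self
    cases b with
    | false =>
      obtain ⟨x, hxN, rfl, hx10⟩ := hTg
      refine ⟨x 0 0 * m00 + x 0 1 * m10, x 0 0 * m01 + x 0 1 * m11,
        x 1 0 * m00 + x 1 1 * m10, x 1 0 * m01 + x 1 1 * m11, ?_, ?_, ?_, ?_, ?_, ?_⟩
      · simp only [List.map_cons, List.prod_cons, amg55_mul_apply, amg55_iota_apply,
          List.count_cons]
        push_cast; rw [← h00, ← h10]; simp; ring
      · simp only [List.map_cons, List.prod_cons, amg55_mul_apply, amg55_iota_apply,
          List.count_cons]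
        push_cast; rw [← h01, ← h11]; simp; ring
      · simp only [List.map_cons, List.prod_cons, amg55_mul_apply, amg55_iota_apply,
          List.count_cons]
        push_cast; rw [← h00, ← h10]; simp; ring
      · simp only [List.map_cons, List.prod_cons, amg55_mul_apply, amg55_iota_apply,
          List.count_cons]
        push_cast; rw [← h01, ← h11]; simp; ring
      · intro h; simp at h
      · intro _ hdiv
        -- the tail is empty or starts with a letter of type `true`
        cases L with
        | nil =>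
          -- then the `m`'s are the identity matrix
          simp only [List.map_nil, List.count_nil, pow_zero, List.prod_nil, one_mul,
            amg55_one_apply] at h00 h01 h10 h11
          have e00 : m00 = 1 := by exact_mod_cast h00.symm
          have e10 : m10 = 0 := by exact_mod_cast h10.symm
          rw [e00, e10] at hdiv
          apply hx10
          simpa using hdiv.1
        | cons l' L' =>
          have hl' : l'.1 = true := by
            have := hhead l' (by simp)
            simpa using this.symm
          obtain ⟨hd10, hd11, hnd⟩ := hA (by simp [hl'])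
          apply hnd
          constructor
          · exact amg55_dvd_of_comb hqp hx10 hd10 hdiv.1
          · exact amg55_dvd_of_comb hqp hx10 hd11 hdiv.2
    | true =>
      obtain ⟨z, hzN, rfl, hz01⟩ := hTg
      have hq0 : (q : ℚ) ≠ 0 := Nat.cast_ne_zero.mpr (Fact.out : q.Prime).ne_zero
      refine ⟨q * (z 0 0 * m00) + z 0 1 * m10, q * (z 0 0 * m01) + z 0 1 * m11,
        q * (q * z 1 0 * m00 + z 1 1 * m10), q * (q * z 1 0 * m01 + z 1 1 * m11),
        ?_, ?_, ?_, ?_, ?_, ?_⟩
      · simp only [List.map_cons, List.prod_cons, amg55_mul_apply, amg55_iota_apply,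
          List.count_cons, amg55_eta_00, amg55_eta_01]
        push_cast; rw [← h00, ← h10]; simp; field_simp; ring
      · simp only [List.map_cons, List.prod_cons, amg55_mul_apply, amg55_iota_apply,
          List.count_cons, amg55_eta_00, amg55_eta_01]
        push_cast; rw [← h01, ← h11]; simp; field_simp; ring
      · simp only [List.map_cons, List.prod_cons, amg55_mul_apply, amg55_iota_apply,
          List.count_cons, amg55_eta_10, amg55_eta_11]
        push_cast; rw [← h00, ← h10]; simp; ring
      · simp only [List.map_cons, List.prod_cons, amg55_mul_apply, amg55_iota_apply,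
          List.count_cons, amg55_eta_10, amg55_eta_11]
        push_cast; rw [← h01, ← h11]; simp; ring
      · intro _
        refine ⟨dvd_mul_right _ _, dvd_mul_right _ _, ?_⟩
        intro hdiv
        have hne : L.head?.map Prod.fst ≠ some true := by
          cases L with
          | nil => simp
          | cons l' L' =>
            have := hhead l' (by simp)
            simpa using this.symm
        apply hB hne
        exact ⟨amg55_dvd_of_comb' hqp hz01 hdiv.1, amg55_dvd_of_comb' hqp hz01 hdiv.2⟩
      · intro h; simp at h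

theorem amg55_mem_S_false {N q : ℕ} [Fact q.Prime] {g : Matrix.SpecialLinearGroup (Fin 2) ℚ} :
    g ∈ amg55_S N q false ↔ ∃ x ∈ Gamma0 N, amg55_iota x = g := by
  simp [amg55_S, amg55_j, Subgroup.mem_map]

theorem amg55_mem_S_true {N q : ℕ} [Fact q.Prime] {g : Matrix.SpecialLinearGroup (Fin 2) ℚ} :
    g ∈ amg55_S N q true ↔ ∃ x ∈ Gamma0 N, amg55_eta q (amg55_iota x) = g := by
  simp [amg55_S, amg55_j, Subgroup.mem_map]

/-- **No relations**: a non-empty alternating word is not in the intersection of the two vertex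
groups. -/
theorem amg55_word_not_mem (N q : ℕ) [Fact q.Prime]
    (L : List (Bool × Matrix.SpecialLinearGroup (Fin 2) ℚ)) (hne : L ≠ [])
    (hc : L.IsChain (fun l l' => l.1 ≠ l'.1)) (hT : ∀ l ∈ L, amg55_T N q l.1 l.2) :
    (L.map Prod.snd).prod ∉ amg55_S N q false ⊓ amg55_S N q true := by
  have hqp := amg55_prime_int q
  have hq0 : (q : ℚ) ≠ 0 := Nat.cast_ne_zero.mpr (Fact.out : q.Prime).ne_zero
  rintro ⟨hmA, hmB⟩
  obtain ⟨y, -, hy⟩ := amg55_mem_S_false.mp hmA
  obtain ⟨y', -, hy'⟩ := amg55_mem_S_true.mp hmB
  obtain ⟨m00, m01, m10, m11, h00, h01, h10, h11, hA, hB⟩ := amg55_inv N q L hc hT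
  rcases Nat.eq_zero_or_pos ((L.map Prod.fst).count true) with hk | hk
  · -- no letter of type `true`: a single letter of type `false`
    cases L with
    | nil => exact hne rfl
    | cons l L' =>
      obtain ⟨b, g⟩ := l
      rw [List.map_cons, List.count_cons] at hk
      have hb : b = false := by
        cases b
        · rfl
        · simp at hk
      subst hb
      have hL' : L' = [] := by
        cases L' with
        | nil => rfl
        | cons l' L'' =>
          exfalso
          rw [List.isChain_cons] at hc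
          have h1 := hc.1 l' (by simp)
          have h2 : l'.1 = true := by simpa using h1.symm
          rw [List.map_cons, List.count_cons, h2] at hk
          simp at hk
      subst hL'
      obtain ⟨x, -, hgx, hx10⟩ := hT (false, g) List.mem_cons_self
      simp only [List.map_cons, List.map_nil, List.prod_cons, List.prod_nil, mul_one] at hy'
      apply hx10
      have e := congrArg (fun t : Matrix.SpecialLinearGroup (Fin 2) ℚ => t 1 0) hy'
      simp only [amg55_eta_10, amg55_iota_apply] at e
      have hgx' : g = amg55_iota x := hgx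
      rw [hgx', amg55_iota_apply] at e
      refine ⟨y' 1 0, ?_⟩
      exact_mod_cast e.symm
  · -- at least one letter of type `true`: all `m`'s are divisible by `q`
    have hdiv : ∀ (i j : Fin 2) (m : ℤ),
        (q : ℚ) ^ ((L.map Prod.fst).count true) * ((L.map Prod.snd).prod) i j = m → (q : ℤ) ∣ m := by
      intro i j m hm
      rw [← hy, amg55_iota_apply] at hm
      have : m = (q : ℤ) ^ ((L.map Prod.fst).count true) * y i j := by exact_mod_cast hm.symm
      rw [this]
      exact Dvd.dvd.mul_right (dvd_pow_self _ hk.ne') _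
    by_cases hh : L.head?.map Prod.fst = some true
    · exact (hA hh).2.2 ⟨hdiv 0 0 m00 h00, hdiv 0 1 m01 h01⟩
    · exact hB hh ⟨hdiv 1 0 m10 h10, hdiv 1 1 m11 h11⟩

end Fermat.Agent.S41x
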