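/-
S41x/Amg55Inj (helper55): the canonical map from the amalgamated product
`ι Γ₀(N) *_{C} η ι Γ₀(N)`, `C` the intersection, to `SL(2,ℚ)` is injective (item D1, S41 plan).
-/
import Fermat.Agent.S41x.Amg55Abs
import Fermat.Agent.S41x.Amg55Words

set_option autoImplicit false

namespace Fermat.Agent.S41x

open Matrix CongruenceSubgroup

theorem amg55_Gamma0_mem_iff {N : ℕ} {x : Matrix.SpecialLinearGroup (Fin 2) ℤ} :
    x ∈ Gamma0 N ↔ (N : ℤ) ∣ x 1 0 := by
  rw [Gamma0_mem, ZMod.intCast_zmod_eq_zero_iff_dvd]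

/-- The base group of the amalgam. -/
def amg55_C (N q : ℕ) [Fact q.Prime] : Subgroup (Matrix.SpecialLinearGroup (Fin 2) ℚ) :=
  amg55_S N q false ⊓ amg55_S N q true

theorem amg55_C_le (N q : ℕ) [Fact q.Prime] (b : Bool) : amg55_C N q ≤ amg55_S N q b := by
  cases b
  · exact inf_le_left
  · exact inf_le_right

/-- The inclusions of the base group into the vertex groups. -/
def amg55_phi (N q : ℕ) [Fact q.Prime] (b : Bool) : ↥(amg55_C N q) →* ↥(amg55_S N q b) :=
  Subgroup.inclusion (amg55_C_le N q b)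

theorem amg55_phi_injective (N q : ℕ) [Fact q.Prime] (b : Bool) :
    Function.Injective (amg55_phi N q b) :=
  Subgroup.inclusion_injective _

/-- The canonical map from the amalgam to `SL(2,ℚ)`. -/
def amg55_Psi (N q : ℕ) [Fact q.Prime] :
    Monoid.PushoutI (amg55_phi N q) →* Matrix.SpecialLinearGroup (Fin 2) ℚ :=
  Monoid.PushoutI.lift (fun b => (amg55_S N q b).subtype) (amg55_C N q).subtype (fun _ => rfl)

/-- A letter of type `false` outside the base group. -/
theorem amg55_letter_false {N q : ℕ} [Fact q.Prime] (hNq : Nat.Coprime N q)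
    {g : Matrix.SpecialLinearGroup (Fin 2) ℚ} (hg : g ∈ amg55_S N q false)
    (hgC : g ∉ amg55_C N q) : amg55_T N q false g := by
  have hq0 : (q : ℚ) ≠ 0 := Nat.cast_ne_zero.mpr (Fact.out : q.Prime).ne_zero
  obtain ⟨x, hx, rfl⟩ := amg55_mem_S_false.mp hg
  refine ⟨x, hx, rfl, ?_⟩
  intro hdvd
  apply hgC
  refine Subgroup.mem_inf.mpr ⟨hg, ?_⟩
  rw [amg55_mem_S_true]
  have hmul : (q : ℤ) * (x 1 0 / q) = x 1 0 := Int.mul_ediv_cancel' hdvd
  refine ⟨amg55_mk (x 0 0) (q * x 0 1) (x 1 0 / q) (x 1 1) ?_, ?_, ?_⟩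
  · have := amg55_det_eq x
    calc x 0 0 * x 1 1 - (q : ℤ) * x 0 1 * (x 1 0 / q)
        = x 0 0 * x 1 1 - x 0 1 * ((q : ℤ) * (x 1 0 / q)) := by ring
      _ = 1 := by rw [hmul]; exact this
  · rw [amg55_Gamma0_mem_iff, amg55_mk_10]
    have hN : (N : ℤ) ∣ (q : ℤ) * (x 1 0 / q) := by
      rw [hmul]; exact amg55_Gamma0_mem_iff.mp hx
    have hcop : IsCoprime (N : ℤ) (q : ℤ) := Nat.isCoprime_iff_coprime.mpr hNq
    exact hcop.dvd_of_dvd_mul_left hN
  · apply amg55_ext
    · simp [amg55_iota_apply]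
    · simp only [amg55_eta_01, amg55_iota_apply, amg55_mk_01]
      push_cast
      field_simp
    · simp only [amg55_eta_10, amg55_iota_apply, amg55_mk_10]
      exact_mod_cast hmul
    · simp [amg55_iota_apply]

/-- A letter of type `true` outside the base group. -/
theorem amg55_letter_true {N q : ℕ} [Fact q.Prime]
    {g : Matrix.SpecialLinearGroup (Fin 2) ℚ} (hg : g ∈ amg55_S N q true)
    (hgC : g ∉ amg55_C N q) : amg55_T N q true g := by
  have hq0 : (q : ℚ) ≠ 0 := Nat.cast_ne_zero.mpr (Fact.out : q.Prime).ne_zero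
  obtain ⟨z, hz, rfl⟩ := amg55_mem_S_true.mp hg
  refine ⟨z, hz, rfl, ?_⟩
  intro hdvd
  apply hgC
  refine Subgroup.mem_inf.mpr ⟨?_, hg⟩
  rw [amg55_mem_S_false]
  have hmul : (q : ℤ) * (z 0 1 / q) = z 0 1 := Int.mul_ediv_cancel' hdvd
  refine ⟨amg55_mk (z 0 0) (z 0 1 / q) (q * z 1 0) (z 1 1) ?_, ?_, ?_⟩
  · have := amg55_det_eq z
    calc z 0 0 * z 1 1 - z 0 1 / (q : ℤ) * ((q : ℤ) * z 1 0)
        = z 0 0 * z 1 1 - ((q : ℤ) * (z 0 1 / q)) * z 1 0 := by ring
      _ = 1 := by rw [hmul]; exact this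
  · rw [amg55_Gamma0_mem_iff, amg55_mk_10]
    exact Dvd.dvd.mul_left (amg55_Gamma0_mem_iff.mp hz) _
  · apply amg55_ext
    · simp [amg55_iota_apply]
    · simp only [amg55_eta_01, amg55_iota_apply, amg55_mk_01]
      rw [eq_div_iff hq0]
      have : ((z 0 1 / (q : ℤ) : ℤ) : ℚ) * (q : ℚ) = ((q : ℤ) * (z 0 1 / q) : ℤ) := by
        push_cast; ring
      rw [this, hmul]
    · simp [amg55_iota_apply]
    · simp [amg55_iota_apply]

/-- **D1, injectivity**: the amalgam embeds into `SL(2,ℚ)`. -/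
theorem amg55_Psi_injective {N q : ℕ} [Fact q.Prime] (hNq : Nat.Coprime N q) :
    Function.Injective (amg55_Psi N q) := by
  apply amg55_lift_injective (amg55_phi_injective N q)
  · exact Subgroup.subtype_injective _
  · intro L hL hchain hletters
    rw [Subgroup.range_subtype]
    have hmap : L.map (fun l => (amg55_S N q l.1).subtype l.2) =
        (L.map (fun l => ((l.1, (l.2 : Matrix.SpecialLinearGroup (Fin 2) ℚ)) :
          Bool × Matrix.SpecialLinearGroup (Fin 2) ℚ))).map Prod.snd := by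
      rw [List.map_map]; rfl
    rw [hmap]
    apply amg55_word_not_mem N q
    · simpa using hL
    · rw [List.isChain_map]
      exact hchain
    · intro l' hl'
      rw [List.mem_map] at hl'
      obtain ⟨l, hl, rfl⟩ := hl'
      have hnr := hletters l hl
      obtain ⟨b, g, hg⟩ := l
      have hgC : g ∉ amg55_C N q := by
        intro hC
        exact hnr ⟨⟨g, hC⟩, rfl⟩
      cases b
      · exact amg55_letter_false hNq hg hgC
      · exact amg55_letter_true hg hgC

end Fermat.Agent.S41x
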