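/-
S41x/Amg55Gen (helper55): generation.  `Γ₀(N)[1/q] = ⟨ι Γ₀(N), η ι Γ₀(N)⟩` (item D1, S41 plan),
by induction on the `q`-height.
-/
import Fermat.Agent.S41x.Amg55Inj

set_option autoImplicit false

namespace Fermat.Agent.S41x

open Matrix CongruenceSubgroup

theorem amg55_dvd_iff_zmod (q : ℕ) (a : ℤ) : (q : ℤ) ∣ a ↔ ((a : ℤ) : ZMod q) = 0 :=
  (ZMod.intCast_zmod_eq_zero_iff_dvd a q).symm

/-- Two rows with vanishing determinant mod `q`, the first one non-zero: the second is a multiple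
of the first. -/
theorem amg55_exists_lambda (q : ℕ) [Fact q.Prime] (u0 u1 v0 v1 : ℤ)
    (hu : ¬ ((q : ℤ) ∣ u0 ∧ (q : ℤ) ∣ u1)) (hdet : (q : ℤ) ∣ u0 * v1 - u1 * v0) :
    ∃ lam : ℤ, (q : ℤ) ∣ v0 - lam * u0 ∧ (q : ℤ) ∣ v1 - lam * u1 := by
  simp only [amg55_dvd_iff_zmod] at hu hdet ⊢
  push_cast at hdet ⊢
  by_cases h0 : ((u0 : ℤ) : ZMod q) = 0
  · have h1 : ((u1 : ℤ) : ZMod q) ≠ 0 := fun h => hu ⟨h0, h⟩
    obtain ⟨lam, hlam⟩ := ZMod.intCast_surjective ((v1 : ZMod q) / (u1 : ZMod q))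
    refine ⟨lam, ?_, ?_⟩
    · rw [h0, mul_zero, sub_zero]
      rw [h0, zero_mul, zero_sub, neg_eq_zero] at hdet
      exact (mul_eq_zero.mp hdet).resolve_left h1
    · rw [hlam]; field_simp; ring
  · obtain ⟨lam, hlam⟩ := ZMod.intCast_surjective ((v0 : ZMod q) / (u0 : ZMod q))
    refine ⟨lam, ?_, ?_⟩
    · rw [hlam]; field_simp; ring
    · rw [hlam]
      have : (u0 : ZMod q) * ((v1 : ZMod q) - (v0 : ZMod q) / (u0 : ZMod q) * (u1 : ZMod q)) = 0 := by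
        field_simp
        linear_combination hdet
      exact (mul_eq_zero.mp this).resolve_left h0

theorem amg55_bezout {N q : ℕ} (hNq : Nat.Coprime N q) : ∃ α β : ℤ, α * q - β * N = 1 := by
  have h : IsCoprime (q : ℤ) (N : ℤ) := Nat.isCoprime_iff_coprime.mpr hNq.symm
  obtain ⟨u, v, huv⟩ := h
  exact ⟨u, -v, by linarith⟩

/-- Row reduction, first half-step: an `x ∈ Γ₀(N)` such that the second row of `x⁻¹ M` vanishes
mod `q`. -/
theorem amg55_exists_x {N q : ℕ} [Fact q.Prime] (hNq : Nat.Coprime N q) (a b c d : ℤ)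
    (hdet : (q : ℤ) ∣ a * d - b * c) :
    ∃ x : Matrix.SpecialLinearGroup (Fin 2) ℤ, x ∈ Gamma0 N ∧
      (q : ℤ) ∣ - x 1 0 * a + x 0 0 * c ∧ (q : ℤ) ∣ - x 1 0 * b + x 0 0 * d := by
  by_cases hrow : (q : ℤ) ∣ a ∧ (q : ℤ) ∣ b
  · obtain ⟨α, β, hαβ⟩ := amg55_bezout hNq
    refine ⟨amg55_mk (q : ℤ) β (N : ℤ) α (by linarith), ?_, ?_, ?_⟩
    · rw [amg55_Gamma0_mem_iff, amg55_mk_10]
    · rw [amg55_mk_10, amg55_mk_00]
      exact dvd_add (Dvd.dvd.mul_left hrow.1 _) (dvd_mul_right _ _)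
    · rw [amg55_mk_10, amg55_mk_00]
      exact dvd_add (Dvd.dvd.mul_left hrow.2 _) (dvd_mul_right _ _)
  · obtain ⟨lam, h0, h1⟩ := amg55_exists_lambda q a b c d hrow hdet
    -- `N τ ≡ lam mod q`
    have hN0 : ((N : ℤ) : ZMod q) ≠ 0 := by
      rw [Ne, ← amg55_dvd_iff_zmod]
      intro h
      have h' : q ∣ N := by exact_mod_cast h
      have := Nat.Coprime.eq_one_of_dvd hNq.symm h'
      exact (Fact.out : q.Prime).one_lt.ne' this
    obtain ⟨τ, hτ⟩ := ZMod.intCast_surjective ((lam : ZMod q) / ((N : ℤ) : ZMod q))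
    have hτ' : (q : ℤ) ∣ (N : ℤ) * τ - lam := by
      rw [amg55_dvd_iff_zmod]; push_cast; rw [hτ]; push_cast at hN0 ⊢; field_simp; ring
    refine ⟨amg55_mk 1 0 ((N : ℤ) * τ) 1 (by ring), ?_, ?_, ?_⟩
    · rw [amg55_Gamma0_mem_iff, amg55_mk_10]; exact dvd_mul_right _ _
    · rw [amg55_mk_10, amg55_mk_00]
      have : - ((N : ℤ) * τ) * a + 1 * c = (c - lam * a) - ((N : ℤ) * τ - lam) * a := by ring
      rw [this]
      exact dvd_sub h0 (Dvd.dvd.mul_right hτ' _)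
    · rw [amg55_mk_10, amg55_mk_00]
      have : - ((N : ℤ) * τ) * b + 1 * d = (d - lam * b) - ((N : ℤ) * τ - lam) * b := by ring
      rw [this]
      exact dvd_sub h1 (Dvd.dvd.mul_right hτ' _)

/-- Row reduction, second half-step: a `z ∈ Γ₀(N)` such that `z₁₁ (a,b) - z₀₁ (n0,n1)` vanishes
mod `q`. -/
theorem amg55_exists_z {N q : ℕ} [Fact q.Prime] (hNq : Nat.Coprime N q) (a b n0 n1 : ℤ)
    (hdet : (q : ℤ) ∣ a * n1 - b * n0) :
    ∃ z : Matrix.SpecialLinearGroup (Fin 2) ℤ, z ∈ Gamma0 N ∧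
      (q : ℤ) ∣ z 1 1 * a - z 0 1 * n0 ∧ (q : ℤ) ∣ z 1 1 * b - z 0 1 * n1 := by
  by_cases hrow : (q : ℤ) ∣ n0 ∧ (q : ℤ) ∣ n1
  · obtain ⟨α, β, hαβ⟩ := amg55_bezout hNq
    refine ⟨amg55_mk α β (N : ℤ) (q : ℤ) (by linarith), ?_, ?_, ?_⟩
    · rw [amg55_Gamma0_mem_iff, amg55_mk_10]
    · rw [amg55_mk_11, amg55_mk_01]
      exact dvd_sub (dvd_mul_right _ _) (Dvd.dvd.mul_left hrow.1 _)
    · rw [amg55_mk_11, amg55_mk_01]
      exact dvd_sub (dvd_mul_right _ _) (Dvd.dvd.mul_left hrow.2 _)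
  · have hdet' : (q : ℤ) ∣ n0 * b - n1 * a := by
      have : n0 * b - n1 * a = -(a * n1 - b * n0) := by ring
      rw [this]; exact (dvd_neg).mpr hdet
    obtain ⟨lam, h0, h1⟩ := amg55_exists_lambda q n0 n1 a b hrow hdet'
    refine ⟨amg55_mk 1 lam 0 1 (by ring), ?_, ?_, ?_⟩
    · rw [amg55_Gamma0_mem_iff, amg55_mk_10]; exact dvd_zero _
    · rw [amg55_mk_11, amg55_mk_01]; simpa using h0
    · rw [amg55_mk_11, amg55_mk_01]; simpa using h1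

/-- `q^k g` is the integral matrix `(m00,m01;m10,m11)`. -/
def amg55_Int (q k : ℕ) (g : Matrix.SpecialLinearGroup (Fin 2) ℚ) (m00 m01 m10 m11 : ℤ) : Prop :=
  (q : ℚ) ^ k * g 0 0 = m00 ∧ (q : ℚ) ^ k * g 0 1 = m01 ∧ (q : ℚ) ^ k * g 1 0 = m10 ∧
    (q : ℚ) ^ k * g 1 1 = m11

theorem amg55_Int_det {q k : ℕ} {g : Matrix.SpecialLinearGroup (Fin 2) ℚ} {m00 m01 m10 m11 : ℤ}
    (h : amg55_Int q k g m00 m01 m10 m11) : m00 * m11 - m01 * m10 = (q : ℤ) ^ (2 * k) := by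
  obtain ⟨h00, h01, h10, h11⟩ := h
  have hd := amg55_det_eq g
  have : ((m00 * m11 - m01 * m10 : ℤ) : ℚ) = (((q : ℤ) ^ (2 * k) : ℤ) : ℚ) := by
    push_cast
    rw [← h00, ← h01, ← h10, ← h11]
    have : (q : ℚ) ^ k * g 0 0 * ((q : ℚ) ^ k * g 1 1) - (q : ℚ) ^ k * g 0 1 * ((q : ℚ) ^ k * g 1 0)
        = (q : ℚ) ^ (2 * k) * (g 0 0 * g 1 1 - g 0 1 * g 1 0) := by ring
    rw [this, hd, mul_one]
  exact_mod_cast this

theorem amg55_Int_base {N q : ℕ} [Fact q.Prime] {g : Matrix.SpecialLinearGroup (Fin 2) ℚ}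
    {m00 m01 m10 m11 : ℤ} (h : amg55_Int q 0 g m00 m01 m10 m11) (hN : (N : ℤ) ∣ m10) :
    g ∈ amg55_S N q false := by
  have hdet := amg55_Int_det h
  obtain ⟨h00, h01, h10, h11⟩ := h
  simp only [pow_zero, one_mul] at h00 h01 h10 h11
  rw [amg55_mem_S_false]
  refine ⟨amg55_mk m00 m01 m10 m11 (by simpa using hdet), ?_, ?_⟩
  · rw [amg55_Gamma0_mem_iff, amg55_mk_10]; exact hN
  · apply amg55_ext <;> simp [amg55_iota_apply, h00, h01, h10, h11]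

theorem amg55_Int_step1 {q k : ℕ} {g : Matrix.SpecialLinearGroup (Fin 2) ℚ}
    {m00 m01 m10 m11 : ℤ} (h : amg55_Int q k g m00 m01 m10 m11)
    (x : Matrix.SpecialLinearGroup (Fin 2) ℤ) :
    amg55_Int q k ((amg55_iota x)⁻¹ * g) (x 1 1 * m00 - x 0 1 * m10) (x 1 1 * m01 - x 0 1 * m11)
      (- x 1 0 * m00 + x 0 0 * m10) (- x 1 0 * m01 + x 0 0 * m11) := by
  obtain ⟨h00, h01, h10, h11⟩ := h
  rw [← map_inv]
  refine ⟨?_, ?_, ?_, ?_⟩
  · rw [amg55_mul_apply, amg55_iota_apply, amg55_iota_apply, amg55_inv_00, amg55_inv_01]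
    push_cast; rw [← h00, ← h10]; ring
  · rw [amg55_mul_apply, amg55_iota_apply, amg55_iota_apply, amg55_inv_00, amg55_inv_01]
    push_cast; rw [← h01, ← h11]; ring
  · rw [amg55_mul_apply, amg55_iota_apply, amg55_iota_apply, amg55_inv_10, amg55_inv_11]
    push_cast; rw [← h00, ← h10]; ring
  · rw [amg55_mul_apply, amg55_iota_apply, amg55_iota_apply, amg55_inv_10, amg55_inv_11]
    push_cast; rw [← h01, ← h11]; ring

theorem amg55_Int_step2 {q k : ℕ} [Fact q.Prime] {g : Matrix.SpecialLinearGroup (Fin 2) ℚ}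
    {a b n0 n1 w0 w1 : ℤ} (h : amg55_Int q (k + 1) g a b (q * n0) (q * n1))
    (z : Matrix.SpecialLinearGroup (Fin 2) ℤ)
    (hw0 : (q : ℤ) * w0 = z 1 1 * a - z 0 1 * n0) (hw1 : (q : ℤ) * w1 = z 1 1 * b - z 0 1 * n1) :
    amg55_Int q k ((amg55_eta q (amg55_iota z))⁻¹ * g) w0 w1
      (- z 1 0 * a + z 0 0 * n0) (- z 1 0 * b + z 0 0 * n1) := by
  have hq0 : (q : ℚ) ≠ 0 := Nat.cast_ne_zero.mpr (Fact.out : q.Prime).ne_zero
  obtain ⟨h00, h01, h10, h11⟩ := h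
  have hw0' : (w0 : ℚ) = ((z 1 1 : ℤ) * (a : ℚ) - (z 0 1 : ℤ) * (n0 : ℚ)) / q := by
    rw [eq_div_iff hq0]
    have := congrArg (fun t : ℤ => (t : ℚ)) hw0
    push_cast at this
    linarith
  have hw1' : (w1 : ℚ) = ((z 1 1 : ℤ) * (b : ℚ) - (z 0 1 : ℤ) * (n1 : ℚ)) / q := by
    rw [eq_div_iff hq0]
    have := congrArg (fun t : ℤ => (t : ℚ)) hw1
    push_cast at this
    linarith
  have e10 : (q : ℚ) ^ k * g 1 0 = n0 := by
    have : (q : ℚ) * ((q : ℚ) ^ k * g 1 0) = (q : ℚ) * n0 := by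
      push_cast at h10; rw [← h10]; ring
    exact mul_left_cancel₀ hq0 this
  have e11 : (q : ℚ) ^ k * g 1 1 = n1 := by
    have : (q : ℚ) * ((q : ℚ) ^ k * g 1 1) = (q : ℚ) * n1 := by
      push_cast at h11; rw [← h11]; ring
    exact mul_left_cancel₀ hq0 this
  have e00 : (q : ℚ) ^ k * g 0 0 = a / q := by
    rw [eq_div_iff hq0, ← h00]; ring
  have e01 : (q : ℚ) ^ k * g 0 1 = b / q := by
    rw [eq_div_iff hq0, ← h01]; ring
  rw [← map_inv, ← map_inv]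
  refine ⟨?_, ?_, ?_, ?_⟩
  · rw [amg55_mul_apply, amg55_eta_00, amg55_eta_01, amg55_iota_apply, amg55_iota_apply,
      amg55_inv_00, amg55_inv_01, hw0']
    push_cast
    have : (q : ℚ) ^ k * ((z 1 1 : ℤ) * g 0 0 + -((z 0 1 : ℤ) : ℚ) / q * g 1 0)
        = (z 1 1 : ℤ) * ((q : ℚ) ^ k * g 0 0) - (z 0 1 : ℤ) / q * ((q : ℚ) ^ k * g 1 0) := by ring
    rw [this, e00, e10]; field_simp
  · rw [amg55_mul_apply, amg55_eta_00, amg55_eta_01, amg55_iota_apply, amg55_iota_apply,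
      amg55_inv_00, amg55_inv_01, hw1']
    push_cast
    have : (q : ℚ) ^ k * ((z 1 1 : ℤ) * g 0 1 + -((z 0 1 : ℤ) : ℚ) / q * g 1 1)
        = (z 1 1 : ℤ) * ((q : ℚ) ^ k * g 0 1) - (z 0 1 : ℤ) / q * ((q : ℚ) ^ k * g 1 1) := by ring
    rw [this, e01, e11]; field_simp
  · rw [amg55_mul_apply, amg55_eta_10, amg55_eta_11, amg55_iota_apply, amg55_iota_apply,
      amg55_inv_10, amg55_inv_11]
    push_cast
    have : (q : ℚ) ^ k * ((q : ℚ) * -((z 1 0 : ℤ) : ℚ) * g 0 0 + (z 0 0 : ℤ) * g 1 0)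
        = -((z 1 0 : ℤ) : ℚ) * ((q : ℚ) ^ (k + 1) * g 0 0) + (z 0 0 : ℤ) * ((q : ℚ) ^ k * g 1 0) := by
      ring
    rw [this, h00, e10]
  · rw [amg55_mul_apply, amg55_eta_10, amg55_eta_11, amg55_iota_apply, amg55_iota_apply,
      amg55_inv_10, amg55_inv_11]
    push_cast
    have : (q : ℚ) ^ k * ((q : ℚ) * -((z 1 0 : ℤ) : ℚ) * g 0 1 + (z 0 0 : ℤ) * g 1 1)
        = -((z 1 0 : ℤ) : ℚ) * ((q : ℚ) ^ (k + 1) * g 0 1) + (z 0 0 : ℤ) * ((q : ℚ) ^ k * g 1 1) := by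
      ring
    rw [this, h01, e11]

theorem amg55_S_le_sup_false (N q : ℕ) [Fact q.Prime] :
    amg55_S N q false ≤ amg55_S N q false ⊔ amg55_S N q true := le_sup_left

theorem amg55_S_le_sup_true (N q : ℕ) [Fact q.Prime] :
    amg55_S N q true ≤ amg55_S N q false ⊔ amg55_S N q true := le_sup_right

/-- **Generation**, by induction on the `q`-height. -/
theorem amg55_mem_sup {N q : ℕ} [Fact q.Prime] (hNq : Nat.Coprime N q) :
    ∀ (k : ℕ) (g : Matrix.SpecialLinearGroup (Fin 2) ℚ) (m00 m01 m10 m11 : ℤ),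
      amg55_Int q k g m00 m01 m10 m11 → (N : ℤ) ∣ m10 →
      g ∈ amg55_S N q false ⊔ amg55_S N q true := by
  have hqp := amg55_prime_int q
  have hq0 : (q : ℤ) ≠ 0 := hqp.ne_zero
  have hcop : IsCoprime (N : ℤ) (q : ℤ) := Nat.isCoprime_iff_coprime.mpr hNq
  intro k
  induction k with
  | zero =>
    intro g m00 m01 m10 m11 h hN
    exact amg55_S_le_sup_false N q (amg55_Int_base h hN)
  | succ k ih =>
    intro g m00 m01 m10 m11 h hN
    have hdet := amg55_Int_det h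
    have hdet' : (q : ℤ) ∣ m00 * m11 - m01 * m10 := by
      rw [hdet]; exact dvd_pow_self _ (by omega)
    obtain ⟨x, hxN, hx0, hx1⟩ := amg55_exists_x hNq m00 m01 m10 m11 hdet'
    have h1 := amg55_Int_step1 h x
    obtain ⟨n0, hn0⟩ := hx0
    obtain ⟨n1, hn1⟩ := hx1
    rw [hn0, hn1] at h1
    -- determinant of the new matrix
    have hdet1 := amg55_Int_det h1
    have hdet1' : (q : ℤ) ∣ (x 1 1 * m00 - x 0 1 * m10) * n1 - (x 1 1 * m01 - x 0 1 * m11) * n0 := by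
      have e : (q : ℤ) * ((x 1 1 * m00 - x 0 1 * m10) * n1 - (x 1 1 * m01 - x 0 1 * m11) * n0)
          = (q : ℤ) * (q : ℤ) ^ (2 * k + 1) := by
        have : (q : ℤ) * (q : ℤ) ^ (2 * k + 1) = (q : ℤ) ^ (2 * (k + 1)) := by ring
        rw [this, ← hdet1]; ring
      rw [mul_left_cancel₀ hq0 e]
      exact dvd_pow_self _ (by omega)
    obtain ⟨z, hzN, ⟨w0, hw0⟩, ⟨w1, hw1⟩⟩ :=
      amg55_exists_z hNq (x 1 1 * m00 - x 0 1 * m10) (x 1 1 * m01 - x 0 1 * m11) n0 n1 hdet1'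
    have h2 := amg55_Int_step2 h1 z hw0.symm hw1.symm
    -- divisibility by `N`
    have hNn0 : (N : ℤ) ∣ n0 := by
      have : (N : ℤ) ∣ (q : ℤ) * n0 := by
        rw [← hn0]
        exact dvd_add (Dvd.dvd.mul_right ((dvd_neg).mpr (amg55_Gamma0_mem_iff.mp hxN)) _)
          (Dvd.dvd.mul_left hN _)
      exact hcop.dvd_of_dvd_mul_left this
    have hN2 : (N : ℤ) ∣ - z 1 0 * (x 1 1 * m00 - x 0 1 * m10) + z 0 0 * n0 :=
      dvd_add (Dvd.dvd.mul_right ((dvd_neg).mpr (amg55_Gamma0_mem_iff.mp hzN)) _)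
        (Dvd.dvd.mul_left hNn0 _)
    have hg2 := ih _ _ _ _ _ h2 hN2
    -- reassemble
    have hx_mem : amg55_iota x ∈ amg55_S N q false ⊔ amg55_S N q true :=
      amg55_S_le_sup_false N q (amg55_mem_S_false.mpr ⟨x, hxN, rfl⟩)
    have hz_mem : amg55_eta q (amg55_iota z) ∈ amg55_S N q false ⊔ amg55_S N q true :=
      amg55_S_le_sup_true N q (amg55_mem_S_true.mpr ⟨z, hzN, rfl⟩)
    have : g = amg55_iota x * (amg55_eta q (amg55_iota z) *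
        ((amg55_eta q (amg55_iota z))⁻¹ * ((amg55_iota x)⁻¹ * g))) := by
      group
    rw [this]
    exact mul_mem hx_mem (mul_mem hz_mem hg2)

theorem amg55_S_false_le_Delta (N q : ℕ) [Fact q.Prime] : amg55_S N q false ≤ amg55_Delta N q := by
  intro g hg
  obtain ⟨x, hx, rfl⟩ := amg55_mem_S_false.mp hg
  refine ⟨0, x 0 0, x 0 1, x 1 0, x 1 1, ?_, ?_, ?_, ?_, amg55_Gamma0_mem_iff.mp hx⟩ <;>
    simp [amg55_iota_apply]

theorem amg55_S_true_le_Delta (N q : ℕ) [Fact q.Prime] : amg55_S N q true ≤ amg55_Delta N q := by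
  have hq0 : (q : ℚ) ≠ 0 := Nat.cast_ne_zero.mpr (Fact.out : q.Prime).ne_zero
  intro g hg
  obtain ⟨z, hz, rfl⟩ := amg55_mem_S_true.mp hg
  refine ⟨1, q * z 0 0, z 0 1, q * (q * z 1 0), q * z 1 1, ?_, ?_, ?_, ?_, ?_⟩
  · simp [amg55_iota_apply]
  · simp only [amg55_eta_01, amg55_iota_apply, pow_one]; field_simp
  · simp only [amg55_eta_10, amg55_iota_apply, pow_one]; push_cast; ring
  · simp [amg55_iota_apply]
  · exact Dvd.dvd.mul_left (Dvd.dvd.mul_left (amg55_Gamma0_mem_iff.mp hz) _) _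

/-- **D1, generation**: `Γ₀(N)[1/q]` is generated by `ι Γ₀(N)` and `η ι Γ₀(N)`. -/
theorem amg55_Delta_eq_sup {N q : ℕ} [Fact q.Prime] (hNq : Nat.Coprime N q) :
    amg55_Delta N q = amg55_S N q false ⊔ amg55_S N q true := by
  apply le_antisymm
  · rintro g ⟨k, m00, m01, m10, m11, h00, h01, h10, h11, hN⟩
    exact amg55_mem_sup hNq k g m00 m01 m10 m11 ⟨h00, h01, h10, h11⟩ hN
  · exact sup_le (amg55_S_false_le_Delta N q) (amg55_S_true_le_Delta N q)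

end Fermat.Agent.S41x
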