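/-
S41x/Amg55Main (helper55): item D1 of the S41 plan.

`Γ₀(N)[1/q] = amg55_Delta N q` is the amalgamated product of `ι Γ₀(N)` and `η ι Γ₀(N)`
(`η` = conjugation by `diag(1,q)`) over their intersection:

* `amg55_Delta_eq_sup` (in `Amg55Gen`): generation;
* `amg55_exists_unique_hom`: a pair of homomorphisms `f g : Γ₀(N) →* H` (any group `H`) which agree
  on the intersection (`ι x = η ι y → f x = g y`) glues to a unique homomorphism on `Γ₀(N)[1/q]`;
* `amg55_hom_ext`: homomorphisms on `Γ₀(N)[1/q]` agreeing on both vertex groups are equal.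

No tree: Mathlib's normal form theorem for `Monoid.PushoutI` + a mod-`q` invariant of alternating
words (`Amg55Words`) + row reduction mod `q` (`Amg55Gen`).
-/
import Fermat.Agent.S41x.Amg55Gen

set_option autoImplicit false

namespace Fermat.Agent.S41x

open Matrix CongruenceSubgroup

theorem amg55_Psi_of (N q : ℕ) [Fact q.Prime] (b : Bool) (g : ↥(amg55_S N q b)) :
    amg55_Psi N q (Monoid.PushoutI.of b g) = (g : Matrix.SpecialLinearGroup (Fin 2) ℚ) :=
  Monoid.PushoutI.lift_of (φ := amg55_phi N q) (fun b => (amg55_S N q b).subtype)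
    (amg55_C N q).subtype (fun _ => rfl) g

theorem amg55_Psi_base (N q : ℕ) [Fact q.Prime] (h : ↥(amg55_C N q)) :
    amg55_Psi N q (Monoid.PushoutI.base (amg55_phi N q) h) =
      (h : Matrix.SpecialLinearGroup (Fin 2) ℚ) :=
  Monoid.PushoutI.lift_base (φ := amg55_phi N q) (fun b => (amg55_S N q b).subtype)
    (amg55_C N q).subtype (fun _ => rfl) h

theorem amg55_Psi_range (N q : ℕ) [Fact q.Prime] :
    (amg55_Psi N q).range = amg55_S N q false ⊔ amg55_S N q true := by
  apply le_antisymm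
  · rintro _ ⟨x, rfl⟩
    induction x using Monoid.PushoutI.induction_on with
    | of b g =>
      rw [amg55_Psi_of]
      cases b
      · exact amg55_S_le_sup_false N q g.2
      · exact amg55_S_le_sup_true N q g.2
    | base h =>
      rw [amg55_Psi_base]
      exact amg55_S_le_sup_false N q (amg55_C_le N q false h.2)
    | mul x y hx hy =>
      rw [map_mul]
      exact mul_mem hx hy
  · apply sup_le
    · intro g hg
      exact ⟨Monoid.PushoutI.of false ⟨g, hg⟩, amg55_Psi_of N q false ⟨g, hg⟩⟩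
    · intro g hg
      exact ⟨Monoid.PushoutI.of true ⟨g, hg⟩, amg55_Psi_of N q true ⟨g, hg⟩⟩

theorem amg55_Psi_mem_Delta {N q : ℕ} [Fact q.Prime] (hNq : Nat.Coprime N q)
    (x : Monoid.PushoutI (amg55_phi N q)) : amg55_Psi N q x ∈ amg55_Delta N q := by
  rw [amg55_Delta_eq_sup hNq, ← amg55_Psi_range]
  exact ⟨x, rfl⟩

/-- The amalgam is isomorphic to `Γ₀(N)[1/q]`. -/
noncomputable def amg55_equiv {N q : ℕ} [Fact q.Prime] (hNq : Nat.Coprime N q) :
    Monoid.PushoutI (amg55_phi N q) ≃* ↥(amg55_Delta N q) :=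
  MulEquiv.ofBijective ((amg55_Psi N q).codRestrict (amg55_Delta N q) (amg55_Psi_mem_Delta hNq))
    ⟨by
      intro x y h
      apply amg55_Psi_injective hNq
      exact congrArg Subtype.val h,
     by
      rintro ⟨g, hg⟩
      rw [amg55_Delta_eq_sup hNq, ← amg55_Psi_range] at hg
      obtain ⟨x, rfl⟩ := hg
      exact ⟨x, rfl⟩⟩

theorem amg55_equiv_coe {N q : ℕ} [Fact q.Prime] (hNq : Nat.Coprime N q)
    (x : Monoid.PushoutI (amg55_phi N q)) :
    ((amg55_equiv hNq x : ↥(amg55_Delta N q)) : Matrix.SpecialLinearGroup (Fin 2) ℚ) =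
      amg55_Psi N q x := rfl

theorem amg55_iota_mem_Delta {N : ℕ} (q : ℕ) [Fact q.Prime] (x : Gamma0 N) :
    amg55_iota (x : Matrix.SpecialLinearGroup (Fin 2) ℤ) ∈ amg55_Delta N q :=
  amg55_S_false_le_Delta N q (amg55_mem_S_false.mpr ⟨x, x.2, rfl⟩)

theorem amg55_eta_iota_mem_Delta {N : ℕ} (q : ℕ) [Fact q.Prime] (x : Gamma0 N) :
    amg55_eta q (amg55_iota (x : Matrix.SpecialLinearGroup (Fin 2) ℤ)) ∈ amg55_Delta N q :=
  amg55_S_true_le_Delta N q (amg55_mem_S_true.mpr ⟨x, x.2, rfl⟩)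

/-- The identification `Γ₀(N) ≃* amg55_S N q b`. -/
noncomputable def amg55_e (N q : ℕ) [Fact q.Prime] (b : Bool) : ↥(Gamma0 N) ≃* ↥(amg55_S N q b) :=
  Subgroup.equivMapOfInjective (Gamma0 N) (amg55_j q b) (amg55_j_injective q b)

theorem amg55_e_coe (N q : ℕ) [Fact q.Prime] (b : Bool) (x : Gamma0 N) :
    ((amg55_e N q b x : ↥(amg55_S N q b)) : Matrix.SpecialLinearGroup (Fin 2) ℚ) =
      amg55_j q b (x : Matrix.SpecialLinearGroup (Fin 2) ℤ) := rfl

theorem amg55_e_symm_coe (N q : ℕ) [Fact q.Prime] (b : Bool) (s : ↥(amg55_S N q b)) :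
    amg55_j q b (((amg55_e N q b).symm s : Gamma0 N) : Matrix.SpecialLinearGroup (Fin 2) ℤ) =
      (s : Matrix.SpecialLinearGroup (Fin 2) ℚ) := by
  rw [← amg55_e_coe, MulEquiv.apply_symm_apply]

/-- **D1, uniqueness**: homomorphisms on `Γ₀(N)[1/q]` agreeing on both vertex groups are equal. -/
theorem amg55_hom_ext {H' : Type*} [Group H'] {N q : ℕ} [Fact q.Prime] (hNq : Nat.Coprime N q)
    (φ₁ φ₂ : ↥(amg55_Delta N q) →* H')
    (h0 : ∀ x : Gamma0 N, φ₁ ⟨_, amg55_iota_mem_Delta q x⟩ = φ₂ ⟨_, amg55_iota_mem_Delta q x⟩)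
    (h1 : ∀ x : Gamma0 N,
      φ₁ ⟨_, amg55_eta_iota_mem_Delta q x⟩ = φ₂ ⟨_, amg55_eta_iota_mem_Delta q x⟩) :
    φ₁ = φ₂ := by
  have key : φ₁.comp (amg55_equiv hNq).toMonoidHom = φ₂.comp (amg55_equiv hNq).toMonoidHom := by
    apply Monoid.PushoutI.hom_ext_nonempty
    intro b
    ext s
    obtain ⟨x, rfl⟩ := (amg55_e N q b).surjective s
    simp only [MonoidHom.coe_comp, Function.comp_apply, MulEquiv.coe_toMonoidHom]
    cases b
    · have e : amg55_equiv hNq (Monoid.PushoutI.of false (amg55_e N q false x)) =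
          ⟨_, amg55_iota_mem_Delta q x⟩ := by
        apply Subtype.ext
        rw [amg55_equiv_coe, amg55_Psi_of, amg55_e_coe]
        rfl
      rw [e]; exact h0 x
    · have e : amg55_equiv hNq (Monoid.PushoutI.of true (amg55_e N q true x)) =
          ⟨_, amg55_eta_iota_mem_Delta q x⟩ := by
        apply Subtype.ext
        rw [amg55_equiv_coe, amg55_Psi_of, amg55_e_coe]
        rfl
      rw [e]; exact h1 x
  ext d
  obtain ⟨x, rfl⟩ := (amg55_equiv hNq).surjective d
  exact DFunLike.congr_fun key x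

theorem amg55_equiv_of_false {N q : ℕ} [Fact q.Prime] (hNq : Nat.Coprime N q) (x : Gamma0 N) :
    amg55_equiv hNq (Monoid.PushoutI.of false (amg55_e N q false x)) =
      ⟨_, amg55_iota_mem_Delta q x⟩ := by
  apply Subtype.ext
  rw [amg55_equiv_coe, amg55_Psi_of, amg55_e_coe]
  rfl

theorem amg55_equiv_of_true {N q : ℕ} [Fact q.Prime] (hNq : Nat.Coprime N q) (x : Gamma0 N) :
    amg55_equiv hNq (Monoid.PushoutI.of true (amg55_e N q true x)) =
      ⟨_, amg55_eta_iota_mem_Delta q x⟩ := by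
  apply Subtype.ext
  rw [amg55_equiv_coe, amg55_Psi_of, amg55_e_coe]
  rfl

/-- The pair `(f,g)` as a family indexed by `Bool`. -/
def amg55_fg {H' : Type*} [Group H'] {N : ℕ} (f g : Gamma0 N →* H') : Bool → (Gamma0 N →* H')
  | false => f
  | true => g

/-- **D1, existence**: a pair of homomorphisms on `Γ₀(N)` agreeing on the intersection
`ι Γ₀(N) ∩ η ι Γ₀(N)` glues to a homomorphism on `Γ₀(N)[1/q]`. -/
theorem amg55_exists_hom {H' : Type*} [Group H'] {N q : ℕ} [Fact q.Prime] (hNq : Nat.Coprime N q)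
    (f g : Gamma0 N →* H')
    (hfg : ∀ x y : Gamma0 N, amg55_iota (x : Matrix.SpecialLinearGroup (Fin 2) ℤ) =
      amg55_eta q (amg55_iota (y : Matrix.SpecialLinearGroup (Fin 2) ℤ)) → f x = g y) :
    ∃ φ : ↥(amg55_Delta N q) →* H',
      (∀ x : Gamma0 N, φ ⟨_, amg55_iota_mem_Delta q x⟩ = f x) ∧
      (∀ y : Gamma0 N, φ ⟨_, amg55_eta_iota_mem_Delta q y⟩ = g y) := by
  let F : ∀ b : Bool, ↥(amg55_S N q b) →* H' :=
    fun b => (amg55_fg f g b).comp (amg55_e N q b).symm.toMonoidHom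
  let k' : ↥(amg55_C N q) →* H' := (F false).comp (amg55_phi N q false)
  have hk : ∀ b, (F b).comp (amg55_phi N q b) = k' := by
    intro b
    cases b
    · rfl
    · ext c
      symm
      apply hfg
      have h0 := amg55_e_symm_coe N q false (amg55_phi N q false c)
      have h1 := amg55_e_symm_coe N q true (amg55_phi N q true c)
      have h0' : amg55_iota (((amg55_e N q false).symm (amg55_phi N q false c) : Gamma0 N) :
          Matrix.SpecialLinearGroup (Fin 2) ℤ) = (c : Matrix.SpecialLinearGroup (Fin 2) ℚ) := h0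
      have h1' : amg55_eta q (amg55_iota (((amg55_e N q true).symm (amg55_phi N q true c) :
          Gamma0 N) : Matrix.SpecialLinearGroup (Fin 2) ℤ)) =
          (c : Matrix.SpecialLinearGroup (Fin 2) ℚ) := h1
      exact h0'.trans h1'.symm
  let L := Monoid.PushoutI.lift F k' hk
  refine ⟨L.comp (amg55_equiv hNq).symm.toMonoidHom, ?_, ?_⟩
  · intro x
    have : (amg55_equiv hNq).symm ⟨_, amg55_iota_mem_Delta q x⟩ =
        Monoid.PushoutI.of false (amg55_e N q false x) := by
      rw [MulEquiv.symm_apply_eq, amg55_equiv_of_false]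
    simp only [MonoidHom.coe_comp, Function.comp_apply, MulEquiv.coe_toMonoidHom]
    rw [this]
    have h2 : L (Monoid.PushoutI.of false (amg55_e N q false x)) = F false (amg55_e N q false x) :=
      Monoid.PushoutI.lift_of F k' hk _
    rw [h2]
    simp [F, amg55_fg]
  · intro y
    have : (amg55_equiv hNq).symm ⟨_, amg55_eta_iota_mem_Delta q y⟩ =
        Monoid.PushoutI.of true (amg55_e N q true y) := by
      rw [MulEquiv.symm_apply_eq, amg55_equiv_of_true]
    simp only [MonoidHom.coe_comp, Function.comp_apply, MulEquiv.coe_toMonoidHom]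
    rw [this]
    have h2 : L (Monoid.PushoutI.of true (amg55_e N q true y)) = F true (amg55_e N q true y) :=
      Monoid.PushoutI.lift_of F k' hk _
    rw [h2]
    simp [F, amg55_fg]

/-- **D1**: existence and uniqueness of the glued homomorphism. -/
theorem amg55_exists_unique_hom {H' : Type*} [Group H'] {N q : ℕ} [Fact q.Prime]
    (hNq : Nat.Coprime N q) (f g : Gamma0 N →* H')
    (hfg : ∀ x y : Gamma0 N, amg55_iota (x : Matrix.SpecialLinearGroup (Fin 2) ℤ) =
      amg55_eta q (amg55_iota (y : Matrix.SpecialLinearGroup (Fin 2) ℤ)) → f x = g y) :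
    ∃! φ : ↥(amg55_Delta N q) →* H',
      (∀ x : Gamma0 N, φ ⟨_, amg55_iota_mem_Delta q x⟩ = f x) ∧
      (∀ y : Gamma0 N, φ ⟨_, amg55_eta_iota_mem_Delta q y⟩ = g y) := by
  obtain ⟨φ, h0, h1⟩ := amg55_exists_hom hNq f g hfg
  refine ⟨φ, ⟨h0, h1⟩, ?_⟩
  rintro φ' ⟨h0', h1'⟩
  apply amg55_hom_ext hNq
  · intro x; rw [h0', h0]
  · intro x; rw [h1', h1]

end Fermat.Agent.S41x
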