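/-
S41x/IharaKer (helper41, block D of S41, row D-KER): the kernel condition of `α = (res, res^η)` is
exactly the compatibility hypothesis `hfg` of helper55's amalgam gluing `amg55_exists_unique_hom`.

If `ψ₁ ψ₂ : Hom(Γ₀(N), B)` satisfy `lrRes N q ψ₁ + lrResEta N q ψ₂ = 0` on `Γ₀(N q)`, and
`x y ∈ Γ₀(N)` have the same image `ι x = η (ι y)` in `SL(2,ℚ)` (`amg55_eta q = ` conjugation by
`diag(1,q)`, `[[a,b],[c,d]] ↦ [[a, b/q],[q c, d]]`), then `x ∈ Γ₀(N q)`, `y = η' x η'⁻¹`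
(`η' = diag(q,1)`, `= lrConjEta N q x`) and hence `ψ₁ x = - ψ₂ y`.
-/
import Fermat.Agent.S41x.LRBase
import Fermat.Agent.S41x.Amg55Main

set_option autoImplicit false

namespace Fermat.Agent.S41x

open scoped MatrixGroups
open CongruenceSubgroup

section

variable {N q : ℕ} [Fact q.Prime]

/-- entrywise content of `ι x = η (ι y)`. -/
theorem ihkk_entries (x y : SL(2, ℤ)) (hxy : amg55_iota x = amg55_eta q (amg55_iota y)) :
    x 0 0 = y 0 0 ∧ (q : ℤ) * x 0 1 = y 0 1 ∧ x 1 0 = (q : ℤ) * y 1 0 ∧ x 1 1 = y 1 1 := by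
  have hq : (q : ℚ) ≠ 0 := Nat.cast_ne_zero.mpr (Fact.out : q.Prime).ne_zero
  have e00 := congrArg (fun g : SL(2, ℚ) => g 0 0) hxy
  have e01 := congrArg (fun g : SL(2, ℚ) => g 0 1) hxy
  have e10 := congrArg (fun g : SL(2, ℚ) => g 1 0) hxy
  have e11 := congrArg (fun g : SL(2, ℚ) => g 1 1) hxy
  simp only [amg55_eta_00, amg55_eta_01, amg55_eta_10, amg55_eta_11, amg55_iota_apply] at e00 e01 e10 e11
  refine ⟨by exact_mod_cast e00, ?_, by exact_mod_cast e10, by exact_mod_cast e11⟩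
  have : (q : ℚ) * ((x 0 1 : ℤ) : ℚ) = ((y 0 1 : ℤ) : ℚ) := by
    rw [e01]; field_simp
  exact_mod_cast this

/-- if `ι x = η (ι y)` with `y ∈ Γ₀(N)` then `x ∈ Γ₀(N q)`. -/
theorem ihkk_mem (x y : Gamma0 N)
    (hxy : amg55_iota (x : SL(2, ℤ)) = amg55_eta q (amg55_iota (y : SL(2, ℤ)))) :
    (x : SL(2, ℤ)) ∈ Gamma0 (N * q) := by
  obtain ⟨-, -, h10, -⟩ := ihkk_entries (x : SL(2, ℤ)) (y : SL(2, ℤ)) hxy
  have hy := y.2
  rw [Gamma0_mem, ZMod.intCast_zmod_eq_zero_iff_dvd] at hy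
  obtain ⟨c, hc⟩ := hy
  rw [Gamma0_mem, ZMod.intCast_zmod_eq_zero_iff_dvd, h10, hc]
  refine ⟨c, ?_⟩
  push_cast
  ring

/-- if `ι x = η (ι y)` then `y = lrConjEta N q x`. -/
theorem ihkk_eq_conj (x y : Gamma0 N)
    (hxy : amg55_iota (x : SL(2, ℤ)) = amg55_eta q (amg55_iota (y : SL(2, ℤ)))) :
    lrConjEta N q ⟨(x : SL(2, ℤ)), ihkk_mem x y hxy⟩ = y := by
  have hq : (q : ℤ) ≠ 0 := Nat.cast_ne_zero.mpr (Fact.out : q.Prime).ne_zero
  obtain ⟨h00, h01, h10, h11⟩ := ihkk_entries (x : SL(2, ℤ)) (y : SL(2, ℤ)) hxy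
  apply Subtype.ext
  apply amg55_ext
  · rw [lrConjEta_apply_00]; exact h00
  · rw [lrConjEta_apply_01]; exact h01
  · rw [lrConjEta_apply_10]
    show (x : SL(2, ℤ)) 1 0 / (q : ℤ) = _
    rw [h10, Int.mul_ediv_cancel_left _ hq]
  · rw [lrConjEta_apply_11]; exact h11

/-- **D-KER**: the kernel condition of `α = (res, res^η)` gives the compatibility hypothesis of
the amalgam gluing. -/
theorem ihkk_hfg {B : Type*} [AddCommGroup B] (ψ₁ ψ₂ : Additive (Gamma0 N) →+ B)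
    (hker : lrRes N q ψ₁ + lrResEta N q ψ₂ = 0) (x y : Gamma0 N)
    (hxy : amg55_iota (x : SL(2, ℤ)) = amg55_eta q (amg55_iota (y : SL(2, ℤ)))) :
    ψ₁ (Additive.ofMul x) = - ψ₂ (Additive.ofMul y) := by
  have h := DFunLike.congr_fun hker (Additive.ofMul (⟨(x : SL(2, ℤ)), ihkk_mem x y hxy⟩ : Gamma0 (N * q)))
  rw [AddMonoidHom.add_apply, lrRes_apply, lrResEta_apply, ihkk_eq_conj x y hxy,
    AddMonoidHom.zero_apply] at h
  have hx : lrIncl N q ⟨(x : SL(2, ℤ)), ihkk_mem x y hxy⟩ = x := Subtype.ext rfl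
  rw [hx] at h
  exact eq_neg_of_add_eq_zero_left h

/-- converse direction (for completeness): every `γ ∈ Γ₀(N q)` gives a pair `(x, y) = (γ, η' γ η'⁻¹)`
with `ι x = η (ι y)`. -/
theorem ihkk_iota_eq (γ : Gamma0 (N * q)) :
    amg55_iota ((lrIncl N q γ : Gamma0 N) : SL(2, ℤ)) =
      amg55_eta q (amg55_iota ((lrConjEta N q γ : Gamma0 N) : SL(2, ℤ))) := by
  have hq : (q : ℚ) ≠ 0 := Nat.cast_ne_zero.mpr (Fact.out : q.Prime).ne_zero
  have hq' : (q : ℤ) ≠ 0 := Nat.cast_ne_zero.mpr (Fact.out : q.Prime).ne_zero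
  obtain ⟨c, hc⟩ := lr_q_dvd γ
  apply amg55_ext
  · rw [amg55_eta_00, amg55_iota_apply, amg55_iota_apply, lrConjEta_apply_00]; rfl
  · rw [amg55_eta_01, amg55_iota_apply, amg55_iota_apply, lrConjEta_apply_01]
    push_cast
    field_simp
    rfl
  · rw [amg55_eta_10, amg55_iota_apply, amg55_iota_apply, lrConjEta_apply_10]
    have : ((lrIncl N q γ : Gamma0 N) : SL(2, ℤ)) 1 0 = (γ : SL(2, ℤ)) 1 0 := rfl
    rw [this, hc, Int.mul_ediv_cancel_left _ hq']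
    push_cast
    ring
  · rw [amg55_eta_11, amg55_iota_apply, amg55_iota_apply, lrConjEta_apply_11]; rfl

/-- the kernel condition is EQUIVALENT to the compatibility hypothesis. -/
theorem ihkk_hker_of_hfg {B : Type*} [AddCommGroup B] (ψ₁ ψ₂ : Additive (Gamma0 N) →+ B)
    (hfg : ∀ x y : Gamma0 N,
      amg55_iota (x : SL(2, ℤ)) = amg55_eta q (amg55_iota (y : SL(2, ℤ))) →
      ψ₁ (Additive.ofMul x) = - ψ₂ (Additive.ofMul y)) :
    lrRes N q ψ₁ + lrResEta N q ψ₂ = 0 := by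
  refine DFunLike.ext _ _ (fun γ => ?_)
  obtain ⟨γ, rfl⟩ := Additive.ofMul.surjective γ
  rw [AddMonoidHom.add_apply, lrRes_apply, lrResEta_apply, AddMonoidHom.zero_apply,
    hfg _ _ (ihkk_iota_eq γ), neg_add_cancel]

end

end Fermat.Agent.S41x
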