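import Fermat.Agent.S41x.IharaHeckeModel
import Fermat.Agent.S41x.GlueTwist
import Fermat.Agent.S41x.IharaKer
import Fermat.Agent.S41x.LRBase
import Fermat.Agent.S41x.BridgePrimeFinal

set_option autoImplicit false

namespace Fermat.Agent.S41x

open scoped MatrixGroups
open CongruenceSubgroup Fermat.Agent.S16x
open WeierstrassCurve WeierstrassCurve.Affine WeierstrassCurve.Affine.Point

section Prep

variable (q : ℕ)

theorem ihn_toQ_iota (x : SL(2, ℤ)) : ihkToQ q (gleIota (ihkZq q) x) = amg55_iota x := by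
  apply Subtype.ext
  ext i j
  rw [ihkToQ_apply, gleIota_coe, Matrix.map_apply, amg55_iota_apply]
  simp

theorem ihn_natCast_ne_zero {n : ℕ} (hn : n ≠ 0) : ((n : ℕ) : ihkZq q) ≠ 0 := by
  intro h
  have := congrArg (Subtype.val) h
  simp at this
  exact hn this

theorem ihn_nzd {n : ℕ} (hn : n ≠ 0) (x : ihkZq q) (h : ((n : ℕ) : ihkZq q) * x = 0) : x = 0 := by
  rcases mul_eq_zero.mp h with h1 | h1
  · exact absurd h1 (ihn_natCast_ne_zero q hn)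
  · exact h1

/-- the unit `q` of `ℤ[1/q]`. -/
def ihnQ [NeZero q] : (ihkZq q)ˣ where
  val := ((q : ℕ) : ihkZq q)
  inv := ⟨((q : ℚ) ^ 1)⁻¹, ihk_inv_pow_mem_Zq q (NeZero.ne q) 1⟩
  val_inv := by
    apply Subtype.ext
    have hq' : (q : ℚ) ≠ 0 := by exact_mod_cast NeZero.ne q
    simp [hq']
  inv_val := by
    apply Subtype.ext
    have hq' : (q : ℚ) ≠ 0 := by exact_mod_cast NeZero.ne q
    simp [hq']

theorem ihn_toQ_tw [Fact q.Prime] [NeZero q] (y : SL(2, ℤ)) :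
    ihkToQ q (gleTw (ihnQ q) y) = amg55_eta q (amg55_iota y) := by
  have hq' : (q : ℚ) ≠ 0 := by exact_mod_cast NeZero.ne q
  apply Subtype.ext
  ext i j
  rw [ihkToQ_apply, gleTw_coe]
  fin_cases i <;> fin_cases j
  · simp [ihnQ, amg55_iota_apply]
  · simp [ihnQ, amg55_iota_apply, div_eq_mul_inv]
  · simp [ihnQ, amg55_iota_apply]
  · simp [ihnQ, amg55_iota_apply]

end Prep

section Main

variable {N q p : ℕ}

/-- **Ihara's lemma, level-`N` form** (block D of S41): a pair `(ψ₁, ψ₂)` of classes on `Γ₀(N)` with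
values in `𝔽_p` lying in the kernel of `α = lrRes + lrResEta`, both `T_ℓ`-eigen with the eigenvalues
`a_ℓ(W)` of an elliptic curve with irreducible mod `p` representation, vanishes. -/
theorem ihara_main_fact (E : WeierstrassCurve ℚ) [E.IsElliptic] {W : WeierstrassCurve ℤ}
    (hW : W.IsIntegralModelOf E) [Fact p.Prime] (hp2 : p ≠ 2) [NeZero N] [Fact q.Prime] [NeZero q]
    (hqN : ¬ q ∣ N)
    (hirr : GaloisRepIsIrreducible (K := AlgebraicClosure ℚ) ℚ E p)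
    (ψ₁ ψ₂ : Additive (Gamma0 N) →+ ZMod p)
    (hker : lrRes N q ψ₁ + lrResEta N q ψ₂ = 0)
    (h₁ : ∀ ℓ : Nat.Primes, W.IsGoodPrimeFor ℓ → ¬ (ℓ : ℕ) ∣ N * q → (ℓ : ℕ) ≠ p →
      lrT N ℓ ψ₁ = ((W.apOfModel ℓ : ℤ) : ZMod p) • ψ₁)
    (h₂ : ∀ ℓ : Nat.Primes, W.IsGoodPrimeFor ℓ → ¬ (ℓ : ℕ) ∣ N * q → (ℓ : ℕ) ≠ p →
      lrT N ℓ ψ₂ = ((W.apOfModel ℓ : ℤ) : ZMod p) • ψ₂) :
    ψ₁ = 0 ∧ ψ₂ = 0 := by
  classical
  have hp : p.Prime := Fact.out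
  have hq : q.Prime := Fact.out
  have hq0 : q ≠ 0 := hq.ne_zero
  have hN0 : N ≠ 0 := NeZero.ne N
  have hNq : Nat.Coprime N q := (Nat.Coprime.symm ((Nat.Prime.coprime_iff_not_dvd hq).mpr hqN))
  -- the glued homomorphism
  obtain ⟨φΔ, ⟨hφ0, hφ1⟩, -⟩ := amg55_exists_unique_hom (H' := Multiplicative (ZMod p)) hNq
    (AddMonoidHom.toMultiplicativeRight ψ₁) (AddMonoidHom.toMultiplicativeRight (-ψ₂))
    (by
      intro x y hxy
      have := ihkk_hfg ψ₁ ψ₂ hker x y hxy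
      simp only [AddMonoidHom.coe_toMultiplicativeRight, Function.comp_apply,
        AddMonoidHom.neg_apply]
      rw [this])
  set φQ : Matrix.SpecialLinearGroup (Fin 2) ℚ → ZMod p := fun g =>
    if h : g ∈ amg55_Delta N q then Multiplicative.toAdd (φΔ ⟨g, h⟩) else 0 with hφQ
  have hφQadd : ∀ g ∈ amg55_Delta N q, ∀ h ∈ amg55_Delta N q, φQ (g * h) = φQ g + φQ h := by
    intro g hg h hh
    simp only [hφQ, dif_pos hg, dif_pos hh, dif_pos (mul_mem hg hh)]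
    have : (⟨g * h, mul_mem hg hh⟩ : amg55_Delta N q) = ⟨g, hg⟩ * ⟨h, hh⟩ := rfl
    rw [this, map_mul, toAdd_mul]
  set φ : IhkSL (ihkZq q) → ZMod p := fun γ => φQ (ihkToQ q γ) with hφdef
  have hφ : IhkAdd ((N : ℕ) : ihkZq q) φ := ihk_add_of_Q q N hq0 φQ hφQadd
  have hφι : ∀ g : Gamma0 N, φ (gleIota (ihkZq q) (g : SL(2, ℤ))) = ψ₁ (Additive.ofMul g) := by
    intro g
    simp only [hφdef, hφQ, ihn_toQ_iota]
    rw [dif_pos (amg55_iota_mem_Delta q g), hφ0]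
    rfl
  have hφtw : ∀ g : Gamma0 N, φ (gleTw (ihnQ q) (g : SL(2, ℤ))) = (-ψ₂) (Additive.ofMul g) := by
    intro g
    simp only [hφdef, hφQ, ihn_toQ_tw]
    rw [dif_pos (amg55_eta_iota_mem_Delta q g), hφ1]
    rfl
  -- the generating set
  set X : Set (IhkSL (ihkZq q)) :=
    Set.range (fun g : Gamma0 N => gleIota (ihkZq q) (g : SL(2, ℤ))) ∪
      Set.range (fun g : Gamma0 N => gleTw (ihnQ q) (g : SL(2, ℤ))) with hX
  have htw_mem : ∀ g : Gamma0 N, gleTw (ihnQ q) (g : SL(2, ℤ)) ∈ ihkDelta ((N : ℕ) : ihkZq q) := by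
    intro g
    exact gleTw_mem_delta N (ihnQ q) g
  have hXΔ : X ⊆ (ihkDelta ((N : ℕ) : ihkZq q) : Set (IhkSL (ihkZq q))) := by
    rintro γ (⟨g, rfl⟩ | ⟨g, rfl⟩)
    · exact gleIota_mem_delta N g
    · exact htw_mem g
  have hgen : (ihkDelta ((N : ℕ) : ihkZq q) : Set (IhkSL (ihkZq q))) ⊆ Subgroup.closure X := by
    rw [ihk_delta_eq_closure hNq]
    apply Subgroup.closure_mono
    rintro γ (hγ | hγ)
    · obtain ⟨x, hx, hxe⟩ := amg55_mem_S_false.mp hγ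
      left
      refine ⟨⟨x, hx⟩, ?_⟩
      apply ihkToQ_injective q
      rw [ihn_toQ_iota]
      exact hxe
    · obtain ⟨y, hy, hye⟩ := amg55_mem_S_true.mp hγ
      right
      refine ⟨⟨y, hy⟩, ?_⟩
      apply ihkToQ_injective q
      rw [ihn_toQ_tw]
      exact hye
  -- the eigen-equations on `Δ`
  have hT : ∀ (ℓ : ℕ) [Fact ℓ.Prime], W.IsGoodPrimeFor ℓ → ¬ ℓ ∣ N * q * p →
      IhkEigen ((N : ℕ) : ihkZq q) φ ℓ ((W.apOfModel ℓ : ℤ) : ZMod p) := by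
    intro ℓ hℓF hgood hℓM
    have hℓ : ℓ.Prime := hℓF.out
    have hℓNq : ¬ ℓ ∣ N * q := fun h => hℓM (Dvd.dvd.mul_right h p)
    have hℓN : ¬ ℓ ∣ N := fun h => hℓNq (Dvd.dvd.mul_right h q)
    have hℓq : ℓ ≠ q := by
      rintro rfl
      exact hℓNq (dvd_mul_left _ _)
    have hℓp : ℓ ≠ p := by
      rintro rfl
      exact hℓM (dvd_mul_left _ _)
    have hunit : IsUnit (Int.castRingHom (ZMod ℓ) (q : ℤ)) := by
      rw [eq_intCast, Int.cast_natCast, isUnit_iff_ne_zero]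
      intro h
      rw [ZMod.natCast_eq_zero_iff] at h
      exact hℓq ((Nat.prime_dvd_prime_iff_eq hℓ hq).mp h)
    have e1 : ∀ g : Gamma0 N, cohOpGen N ⟨ℓ, hℓF.out⟩ ψ₁ (Additive.ofMul g) =
        ((W.apOfModel ℓ : ℤ) : ZMod p) * ψ₁ (Additive.ofMul g) := by
      intro g
      have h3 : cohOpGen N ⟨ℓ, hℓF.out⟩ ψ₁ = ((W.apOfModel ℓ : ℤ) : ZMod p) • ψ₁ :=
        h₁ ⟨ℓ, hℓ⟩ hgood hℓNq hℓp
      rw [h3]
      rfl
    have e2 : ∀ g : Gamma0 N, cohOpGen N ⟨ℓ, hℓF.out⟩ (-ψ₂) (Additive.ofMul g) =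
        ((W.apOfModel ℓ : ℤ) : ZMod p) * (-ψ₂) (Additive.ofMul g) := by
      intro g
      have h3 : cohOpGen N ⟨ℓ, hℓF.out⟩ ψ₂ = ((W.apOfModel ℓ : ℤ) : ZMod p) • ψ₂ :=
        h₂ ⟨ℓ, hℓ⟩ hgood hℓNq hℓp
      rw [map_neg, h3]
      simp only [AddMonoidHom.neg_apply, AddMonoidHom.smul_apply, smul_eq_mul]
      ring
    refine gle_eigen_of_closure (ihkPi (ihkZq q) q ℓ hunit) (ihn_nzd q hℓ.ne_zero) hφ X hXΔ hgen ?_
    rintro γ (⟨g, rfl⟩ | ⟨g, rfl⟩)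
    · exact gle_good_gamma0 N ℓ hℓN φ ψ₁ hφι _ e1 g
    · exact gle_good_twist N ℓ hℓN (ihkPi (ihkZq q) q ℓ hunit) (ihkPi_ker q hunit) (ihnQ q) φ hφ
        (-ψ₂) hφtw _ e2 g
  -- D2-prime + BRIDGE-prime
  have hvan : ∀ γ ∈ ihkDelta ((N : ℕ) : ihkZq q), φ γ = 0 := by
    intro γ hγ
    exact ihk_vanish q hp hp2 hq (ihn_natCast_ne_zero q hN0) hφ (fun ℓ => W.IsGoodPrimeFor ℓ)
      (fun ℓ => W.apOfModel ℓ) (N * q * p)
      (Nat.mul_pos (Nat.mul_pos (Nat.pos_of_ne_zero hN0) hq.pos) hp.pos)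
      (fun ℓ _ hgood hℓM => hT ℓ hgood hℓM)
      (fun n hn hpn M hM => bpa_bridge_prime E hW hp hp2 hirr hq n hn hpn M hM) hγ
  constructor
  · ext x
    have := hvan _ (gleIota_mem_delta N (Additive.toMul x))
    rw [hφι] at this
    exact this
  · ext x
    have := hvan _ (htw_mem (Additive.toMul x))
    rw [hφtw, AddMonoidHom.neg_apply, neg_eq_zero] at this
    exact this

/-- `ihara_main_fact` with explicit primality hypotheses (export shape of block D). -/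
theorem ihara_main (E : WeierstrassCurve ℚ) [E.IsElliptic] {W : WeierstrassCurve ℤ}
    (hW : W.IsIntegralModelOf E) (hp : p.Prime) (hp2 : p ≠ 2) [NeZero N] [NeZero q] (hq : q.Prime)
    (hqN : ¬ q ∣ N)
    (hirr : GaloisRepIsIrreducible (K := AlgebraicClosure ℚ) ℚ E p)
    (ψ₁ ψ₂ : Additive (Gamma0 N) →+ ZMod p)
    (hker : lrRes N q ψ₁ + lrResEta N q ψ₂ = 0)
    (h₁ : ∀ ℓ : Nat.Primes, W.IsGoodPrimeFor ℓ → ¬ (ℓ : ℕ) ∣ N * q → (ℓ : ℕ) ≠ p →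
      lrT N ℓ ψ₁ = ((W.apOfModel ℓ : ℤ) : ZMod p) • ψ₁)
    (h₂ : ∀ ℓ : Nat.Primes, W.IsGoodPrimeFor ℓ → ¬ (ℓ : ℕ) ∣ N * q → (ℓ : ℕ) ≠ p →
      lrT N ℓ ψ₂ = ((W.apOfModel ℓ : ℤ) : ZMod p) • ψ₂) :
    ψ₁ = 0 ∧ ψ₂ = 0 := by
  have : Fact p.Prime := ⟨hp⟩
  have : Fact q.Prime := ⟨hq⟩
  exact ihara_main_fact E hW hp2 hqN hirr ψ₁ ψ₂ hker h₁ h₂

end Main

end Fermat.Agent.S41x
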