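/-
S41 (level raising), TOP wiring leaf (helper55): the `hIhara` hypothesis of the abstract Ribet lemma
(`LRSpec.rba_main`) instantiated on the parabolic lattices, from block D (`ihara_main`).

* `tih55_modp`   : division by `p` inside `parabolicHoms ℤ Γ ℤ` (= `LRSpec.lat_modp`);
* `tih55_ihara`  : integral Ihara lemma for pairs of mod-`p` Hecke eigen-classes (raw homs);
* `tih55_ihara_L`: the same on the subtype `lrL N`;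
* `tih55_hIhara` : EXACT `hIhara` shape of `LRTopSpec.top_step3` (with `lrtT`, `lrtRes`, `lrtResEta`).
Sorry-free; axioms = the three standard ones.
-/
import Fermat.Agent.S41x.IharaFinal
import Fermat.Agent.S41x.LRTopDefs

set_option autoImplicit false

namespace Fermat.Agent.S41x

open scoped MatrixGroups
open CongruenceSubgroup ModularCurve ModularCurve.Period
open WeierstrassCurve WeierstrassCurve.Affine WeierstrassCurve.Affine.Point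

/-- division by `p` inside the lattice of parabolic homs: `Hom_par(Γ, ℤ)/p ↪ Hom(Γ, ℤ/p)`. -/
theorem tih55_modp {Γ : Subgroup SL(2, ℤ)} (p : ℕ) (hp : p ≠ 0) (x : Additive Γ →+ ℤ)
    (hx : x ∈ parabolicHoms ℤ Γ ℤ) (h : ∀ γ, (p : ℤ) ∣ x γ) :
    ∃ x' ∈ parabolicHoms ℤ Γ ℤ, x = (p : ℤ) • x' := by
  have hp' : (p : ℤ) ≠ 0 := by exact_mod_cast hp
  refine ⟨{ toFun := fun γ => x γ / (p : ℤ), map_zero' := by simp, map_add' := ?_ }, ?_, ?_⟩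
  · intro a b
    rw [map_add]
    exact Int.add_ediv_of_dvd_left (h a)
  · intro γ hγ
    show x (Additive.ofMul γ) / (p : ℤ) = 0
    rw [hx γ hγ]
    simp
  · refine AddMonoidHom.ext fun γ => ?_
    show x γ = (p : ℤ) • (x γ / (p : ℤ))
    rw [smul_eq_mul, Int.mul_ediv_cancel' (h γ)]

/-- reduction mod `p` of an integral class -/
noncomputable def tih55Red (p : ℕ) {Γ : Subgroup SL(2, ℤ)} (x : Additive Γ →+ ℤ) :
    Additive Γ →+ ZMod p :=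
  (Int.castAddHom (ZMod p)).comp x

theorem tih55Red_apply (p : ℕ) {Γ : Subgroup SL(2, ℤ)} (x : Additive Γ →+ ℤ) (γ : Additive Γ) :
    tih55Red p x γ = ((x γ : ℤ) : ZMod p) := rfl

theorem tih55Red_eq_zero_iff (p : ℕ) {Γ : Subgroup SL(2, ℤ)} (x : Additive Γ →+ ℤ) :
    tih55Red p x = 0 ↔ ∀ γ, (p : ℤ) ∣ x γ := by
  constructor
  · intro h γ
    have := DFunLike.congr_fun h γ
    rw [tih55Red_apply] at this
    exact (ZMod.intCast_zmod_eq_zero_iff_dvd _ _).mp this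
  · intro h
    refine AddMonoidHom.ext fun γ => ?_
    rw [tih55Red_apply]
    exact (ZMod.intCast_zmod_eq_zero_iff_dvd _ _).mpr (h γ)

/-- a mod-`p` eigen-congruence on the lattice gives an eigen-equation mod `p` -/
theorem tih55_eigen_red (p : ℕ) (M : ℕ) [NeZero M] (ℓ : Nat.Primes) (a : ℤ)
    (x : Additive (Gamma0 M) →+ ℤ)
    (h : ∃ z : Additive (Gamma0 M) →+ ℤ, lrT M ℓ x - a • x = (p : ℤ) • z) :
    lrT M ℓ (tih55Red p x) = ((a : ℤ) : ZMod p) • tih55Red p x := by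
  obtain ⟨z, hz⟩ := h
  have h1 : lrT M ℓ x = a • x + (p : ℤ) • z := by
    rw [← hz]
    abel
  have h2 : lrT M ℓ (tih55Red p x) = tih55Red p (lrT M ℓ x) :=
    (Fermat.Agent.S16x.cohOpGen_comp M ℓ (Int.castAddHom (ZMod p)) x).symm
  rw [h2, h1]
  refine AddMonoidHom.ext fun γ => ?_
  simp only [tih55Red_apply, AddMonoidHom.add_apply, AddMonoidHom.smul_apply, smul_eq_mul,
    Int.cast_add, Int.cast_mul, Int.cast_natCast, ZMod.natCast_self, zero_mul, add_zero]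

/-- **Ihara's lemma on the integral lattices** (the hypothesis `hIhara` of the abstract Ribet lemma):
if `x₁, x₂ ∈ Hom_par(Γ₀(N), ℤ)` are mod-`p` eigenvectors of all good `T_ℓ` with the eigenvalues of `W`
and `res x₁ + resEta x₂ ∈ p·Hom(Γ₀(N q), ℤ)`, then `x₁, x₂ ∈ p·Hom_par(Γ₀(N), ℤ)`. -/
theorem tih55_ihara (E : WeierstrassCurve ℚ) [E.IsElliptic] {W : WeierstrassCurve ℤ}
    (hW : W.IsIntegralModelOf E) {p N q : ℕ} [NeZero N] [NeZero q] (hp : p.Prime) (hp2 : p ≠ 2)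
    (hq : q.Prime) (hqN : ¬ q ∣ N)
    (hirr : GaloisRepIsIrreducible (K := AlgebraicClosure ℚ) ℚ E p)
    (x₁ x₂ : Additive (Gamma0 N) →+ ℤ)
    (hx₁ : x₁ ∈ parabolicHoms ℤ (Gamma0 N) ℤ) (hx₂ : x₂ ∈ parabolicHoms ℤ (Gamma0 N) ℤ)
    (h₁ : ∀ ℓ : Nat.Primes, W.IsGoodPrimeFor ℓ → ¬ (ℓ : ℕ) ∣ N * q → (ℓ : ℕ) ≠ p →
      ∃ z : Additive (Gamma0 N) →+ ℤ, lrT N ℓ x₁ - (W.apOfModel ℓ : ℤ) • x₁ = (p : ℤ) • z)
    (h₂ : ∀ ℓ : Nat.Primes, W.IsGoodPrimeFor ℓ → ¬ (ℓ : ℕ) ∣ N * q → (ℓ : ℕ) ≠ p →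
      ∃ z : Additive (Gamma0 N) →+ ℤ, lrT N ℓ x₂ - (W.apOfModel ℓ : ℤ) • x₂ = (p : ℤ) • z)
    (hker : ∃ y : Additive (Gamma0 (N * q)) →+ ℤ,
      lrRes N q x₁ + lrResEta N q x₂ = (p : ℤ) • y) :
    (∃ z ∈ parabolicHoms ℤ (Gamma0 N) ℤ, x₁ = (p : ℤ) • z) ∧
      (∃ z ∈ parabolicHoms ℤ (Gamma0 N) ℤ, x₂ = (p : ℤ) • z) := by
  obtain ⟨y, hy⟩ := hker
  have hker' : lrRes N q (tih55Red p x₁) + lrResEta N q (tih55Red p x₂) = 0 := by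
    have e1 : lrRes N q (tih55Red p x₁) = tih55Red p (lrRes N q x₁) := rfl
    have e2 : lrResEta N q (tih55Red p x₂) = tih55Red p (lrResEta N q x₂) := rfl
    have e3 : tih55Red p (lrRes N q x₁) + tih55Red p (lrResEta N q x₂) =
        tih55Red p (lrRes N q x₁ + lrResEta N q x₂) := by
      refine AddMonoidHom.ext fun γ => ?_
      simp only [tih55Red_apply, AddMonoidHom.add_apply, Int.cast_add]
    rw [e1, e2, e3, hy]
    refine AddMonoidHom.ext fun γ => ?_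
    simp only [tih55Red_apply, AddMonoidHom.smul_apply, smul_eq_mul, Int.cast_mul,
      Int.cast_natCast, ZMod.natCast_self, zero_mul, AddMonoidHom.zero_apply]
  obtain ⟨r1, r2⟩ := ihara_main E hW hp hp2 hq hqN hirr (tih55Red p x₁) (tih55Red p x₂) hker'
    (fun ℓ hg hℓ hℓp => tih55_eigen_red p N ℓ _ x₁ (h₁ ℓ hg hℓ hℓp))
    (fun ℓ hg hℓ hℓp => tih55_eigen_red p N ℓ _ x₂ (h₂ ℓ hg hℓ hℓp))
  exact ⟨tih55_modp p hp.ne_zero x₁ hx₁ ((tih55Red_eq_zero_iff p x₁).mp r1),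
    tih55_modp p hp.ne_zero x₂ hx₂ ((tih55Red_eq_zero_iff p x₂).mp r2)⟩

/-- `tih55_ihara` on the subtype `lrL N = parabolicHoms ℤ Γ₀(N) ℤ`, with the congruences stated in the
lattice (`z : lrL N`) for the eigen-conditions and in `Hom(Γ₀(N q), ℤ)` for the kernel condition. -/
theorem tih55_ihara_L (E : WeierstrassCurve ℚ) [E.IsElliptic] {W : WeierstrassCurve ℤ}
    (hW : W.IsIntegralModelOf E) {p N q : ℕ} [NeZero N] [NeZero q] (hp : p.Prime) (hp2 : p ≠ 2)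
    (hq : q.Prime) (hqN : ¬ q ∣ N)
    (hirr : GaloisRepIsIrreducible (K := AlgebraicClosure ℚ) ℚ E p)
    (x₁ x₂ : lrL N)
    (h₁ : ∀ ℓ : Nat.Primes, W.IsGoodPrimeFor ℓ → ¬ (ℓ : ℕ) ∣ N * q → (ℓ : ℕ) ≠ p →
      ∃ z : Additive (Gamma0 N) →+ ℤ,
        lrT N ℓ x₁.1 - (W.apOfModel ℓ : ℤ) • x₁.1 = (p : ℤ) • z)
    (h₂ : ∀ ℓ : Nat.Primes, W.IsGoodPrimeFor ℓ → ¬ (ℓ : ℕ) ∣ N * q → (ℓ : ℕ) ≠ p →
      ∃ z : Additive (Gamma0 N) →+ ℤ,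
        lrT N ℓ x₂.1 - (W.apOfModel ℓ : ℤ) • x₂.1 = (p : ℤ) • z)
    (hker : ∃ y : Additive (Gamma0 (N * q)) →+ ℤ,
      lrRes N q x₁.1 + lrResEta N q x₂.1 = (p : ℤ) • y) :
    (∃ z : lrL N, x₁ = (p : ℤ) • z) ∧ (∃ z : lrL N, x₂ = (p : ℤ) • z) := by
  obtain ⟨⟨z1, hz1, e1⟩, ⟨z2, hz2, e2⟩⟩ :=
    tih55_ihara E hW hp hp2 hq hqN hirr x₁.1 x₂.1 x₁.2 x₂.2 h₁ h₂ hker
  exact ⟨⟨⟨z1, hz1⟩, Subtype.ext e1⟩, ⟨⟨z2, hz2⟩, Subtype.ext e2⟩⟩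

/-- EXACT shape of the hypothesis `hIhara` of `LRTopSpec.top_step3` (`topGood W (N*q) p ℓ` unfolded). -/
theorem tih55_hIhara (E : WeierstrassCurve ℚ) [E.IsElliptic] {W : WeierstrassCurve ℤ}
    (hW : W.IsIntegralModelOf E) {p N q : ℕ} [NeZero N] [Fact q.Prime] (hp : p.Prime) (hp2 : p ≠ 2)
    (hqN : ¬ q ∣ N)
    (hirr : GaloisRepIsIrreducible (K := AlgebraicClosure ℚ) ℚ E p)
    (x₁ x₂ : lrL N)
    (h₁ : ∀ ℓ : Nat.Primes, (W.IsGoodPrimeFor ℓ ∧ ¬ (ℓ : ℕ) ∣ N * q ∧ (ℓ : ℕ) ≠ p) →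
      ∃ z : lrL N, lrtT N ℓ x₁ - (W.apOfModel ℓ : ℤ) • x₁ = (p : ℤ) • z)
    (h₂ : ∀ ℓ : Nat.Primes, (W.IsGoodPrimeFor ℓ ∧ ¬ (ℓ : ℕ) ∣ N * q ∧ (ℓ : ℕ) ≠ p) →
      ∃ z : lrL N, lrtT N ℓ x₂ - (W.apOfModel ℓ : ℤ) • x₂ = (p : ℤ) • z)
    (hker : ∃ y : lrL (N * q), lrtRes N q x₁ + lrtResEta N q x₂ = (p : ℤ) • y) :
    (∃ z : lrL N, x₁ = (p : ℤ) • z) ∧ (∃ z : lrL N, x₂ = (p : ℤ) • z) := by
  have hq : q.Prime := Fact.out
  refine tih55_ihara_L E hW hp hp2 hq hqN hirr x₁ x₂ ?_ ?_ ?_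
  · intro ℓ hg hℓ hℓp
    obtain ⟨z, hz⟩ := h₁ ℓ ⟨hg, hℓ, hℓp⟩
    exact ⟨z.1, congrArg Subtype.val hz⟩
  · intro ℓ hg hℓ hℓp
    obtain ⟨z, hz⟩ := h₂ ℓ ⟨hg, hℓ, hℓp⟩
    exact ⟨z.1, congrArg Subtype.val hz⟩
  · obtain ⟨y, hy⟩ := hker
    exact ⟨y.1, congrArg Subtype.val hy⟩

end Fermat.Agent.S41x
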