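/-
S41 project, block B (COH-LEVEL): `T_ℓ` commutes with TRANSFER (corestriction).  (helper54)

`corr_comm_cores` : for `Γ₀(M') ≤ Γ₀(N)`, `ℓ ∤ N`, `ℓ ∤ M'` and ANY `lrc_Corr` datum
`C : Γ₀(M') → Γ₀(N)` whose matrices are the matrices of elements `r j ∈ Γ₀(N)` (right coset
representatives), `C.op (cohT M' ℓ ψ) = cohT N ℓ (C.op ψ)`.
Applies to helper27's `lrl_cores N q hqN` (matrices `cohMat (lrl_g N q hqN x)`).
-/
import Fermat.Agent.S41x.CorrComm

set_option autoImplicit false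

namespace Fermat.Agent.S41x

open scoped MatrixGroups
open CongruenceSubgroup
open Fermat.Agent.S16x

/-- the `(1,0)` entry of `cohMatT ℓ x` vanishes -/
theorem corr_cohMatT_10 (ℓ : ℕ) (x : OnePoint (ZMod ℓ)) : cohMatT ℓ x 1 0 = 0 := by
  induction x using OnePoint.rec with
  | infty => simp [cohMatInf]
  | coe j => simp [cohMatFin]

/-- the `(1,1)` entry of `cohMatT ℓ x` is `1` or `ℓ` -/
theorem corr_cohMatT_11 (ℓ : ℕ) (x : OnePoint (ZMod ℓ)) :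
    cohMatT ℓ x 1 1 = 1 ∨ cohMatT ℓ x 1 1 = (ℓ : ℤ) := by
  induction x using OnePoint.rec with
  | infty => left; simp [cohMatInf]
  | coe j => right; simp [cohMatFin]

/-- KEY ENTRY COMPUTATION: if `A_x * h = δ * A_x'` with `h ∈ SL(2,ℤ)`, `δ ∈ Γ₀(M')` and `ℓ ∤ M'`,
then `h ∈ Γ₀(M')`. -/
theorem corr_mem_Gamma0_of_rel {M' : ℕ} (ℓ : ℕ) [Fact ℓ.Prime] (hℓM : ¬ ℓ ∣ M')
    (x x' : OnePoint (ZMod ℓ)) (h : SL(2, ℤ)) (δ : Gamma0 M')
    (hrel : cohMatT ℓ x * (h : Matrix (Fin 2) (Fin 2) ℤ) = corr_mat δ * cohMatT ℓ x') :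
    h ∈ Gamma0 M' := by
  apply coh_mem_Gamma0_of_dvd
  have h10 := congrFun (congrFun hrel 1) 0
  simp only [Matrix.mul_apply, Fin.sum_univ_two, corr_cohMatT_10, zero_mul, zero_add,
    mul_zero, add_zero] at h10
  -- `(A_x)₁₁ * h₁₀ = δ₁₀ * (A_x')₀₀`
  have hδ : (M' : ℤ) ∣ corr_mat δ 1 0 := coh_dvd_of_mem_Gamma0 M' δ.2
  have hdvd : (M' : ℤ) ∣ cohMatT ℓ x 1 1 * h 1 0 := by
    rw [h10]
    exact Dvd.dvd.mul_right hδ _
  have hcop : IsCoprime (M' : ℤ) (ℓ : ℤ) := by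
    rw [Int.isCoprime_iff_gcd_eq_one, Int.gcd_natCast_natCast]
    exact (Nat.Coprime.symm ((Nat.Prime.coprime_iff_not_dvd Fact.out).mpr hℓM))
  rcases corr_cohMatT_11 ℓ x with h1 | h1
  · rw [h1, one_mul] at hdvd
    exact hdvd
  · rw [h1] at hdvd
    exact hcop.dvd_of_dvd_mul_left hdvd

section cores

variable {N M' : ℕ} (ℓ : ℕ) [Fact ℓ.Prime] (hℓN : ¬ ℓ ∣ N) (hℓM : ¬ ℓ ∣ M')

/-- TRANSFER commutes with `T_ℓ`. -/
theorem corr_comm_cores (hle : Gamma0 M' ≤ Gamma0 N) {J : Type} [Fintype J] [Nonempty J]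
    (C : lrc_Corr (Gamma0 M') (Gamma0 N) J) (r : J → Gamma0 N) (hC : ∀ j, C.A j = corr_mat (r j))
    {B : Type*} [AddCommGroup B] (ψ : Additive (Gamma0 M') →+ B) :
    C.op (cohT M' ℓ hℓM ψ) = cohT N ℓ hℓN (C.op ψ) := by
  classical
  rw [← corr_TDatum_op, ← corr_TDatum_op, ← corr_ofLrc_op, ← corr_ofLrc_op,
    ← corr_Datum.op_comp, ← corr_Datum.op_comp]
  -- source: first `T_ℓ` at level `M'`, then `C`; family `A_x * r_j`
  have hD : corr_Compat (corr_Datum.comp (corr_TDatum M' ℓ hℓM) (corr_ofLrc C).datum)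
      (fun p : OnePoint (ZMod ℓ) × J => cohMatT ℓ p.1 * C.A p.2) :=
    (corr_TDatum_compat M' ℓ hℓM).comp (corr_ofLrc C).datum_compat
  -- target: first `C`, then `T_ℓ` at level `N`; family `r_j * A_x`
  have hD' : corr_Compat (corr_Datum.comp (corr_ofLrc C).datum (corr_TDatum N ℓ hℓN))
      (fun p : J × OnePoint (ZMod ℓ) => C.A p.1 * cohMatT ℓ p.2) :=
    (corr_ofLrc C).datum_compat.comp (corr_TDatum_compat N ℓ hℓN)
  -- decomposition of every element of `Γ₀(N)` as `δ * r_j'`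
  have hdec : ∀ γ : Gamma0 N, ∃ (j' : J) (δ : Gamma0 M'),
      corr_mat δ * corr_mat (r j') = corr_mat γ := by
    intro γ
    obtain ⟨j0⟩ := (inferInstance : Nonempty J)
    obtain ⟨j', δ, h⟩ := C.rel ((r j0)⁻¹ * γ) j0
    refine ⟨j', δ, ?_⟩
    rw [hC, hC] at h
    rw [show corr_mat δ = cohMat δ from rfl, h, ← corr_mat_eq_cohMat, ← corr_mat_mul,
      mul_inv_cancel_left]
  -- the bijection and the conjugating elements
  have hex : ∀ p : OnePoint (ZMod ℓ) × J, ∃ (j' : J) (x' : OnePoint (ZMod ℓ)) (δ : Gamma0 M'),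
      C.A j' * cohMatT ℓ x' = corr_mat δ * (cohMatT ℓ p.1 * C.A p.2) := by
    rintro ⟨x, j⟩
    have h1 := corr_TDatum_compat N ℓ hℓN (r j) x
    obtain ⟨j', δ, h2⟩ := hdec ((corr_TDatum N ℓ hℓN).elt (r j) x)
    refine ⟨j', (corr_TDatum N ℓ hℓN).perm (r j) x, δ⁻¹, ?_⟩
    simp only [hC]
    rw [← h1, ← h2, ← Matrix.mul_assoc, ← Matrix.mul_assoc, corr_mat_inv_mul, Matrix.one_mul]
  choose j' x' δ hδ using hex
  have hdist : ∀ (p p' : J × OnePoint (ZMod ℓ)) (γ : Gamma0 M'),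
      corr_mat γ * (C.A p'.1 * cohMatT ℓ p'.2) = C.A p.1 * cohMatT ℓ p.2 → p = p' := by
    rintro ⟨j1, x1⟩ ⟨j2, x2⟩ γ h
    simp only [hC] at h
    -- `(r_{j1}⁻¹ γ r_{j2}) A_{x2} = A_{x1}`
    have h1 : corr_mat ((r j1)⁻¹ * (⟨γ.1, hle γ.2⟩ : Gamma0 N) * r j2) * cohMatT ℓ x2 =
        cohMatT ℓ x1 := by
      rw [corr_mat_mul, corr_mat_mul, Matrix.mul_assoc, Matrix.mul_assoc]
      have : corr_mat (⟨γ.1, hle γ.2⟩ : Gamma0 N) = corr_mat γ := rfl
      rw [this, h, ← Matrix.mul_assoc, corr_mat_inv_mul, Matrix.one_mul]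
    have hx : x1 = x2 := corr_cohMatT_distinct N ℓ hℓN x1 x2 _ h1
    subst hx
    rw [← Matrix.mul_assoc] at h
    have h2 := corr_mul_right_cancel (corr_cohMatT_det_ne ℓ x1) h
    have hj : j1 = j2 := C.distinct j1 j2 γ (by rw [hC, hC]; exact h2)
    rw [hj]
  have hinj : Function.Injective (fun p : OnePoint (ZMod ℓ) × J => (j' p, x' p)) := by
    rintro ⟨x1, j1⟩ ⟨x2, j2⟩ h
    simp only [Prod.mk.injEq] at h
    have e1 := hδ (x1, j1)
    have e2 := hδ (x2, j2)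
    rw [h.1, h.2, e2] at e1
    simp only [hC] at e1
    -- `δ₂ A_{x2} r_{j2} = δ₁ A_{x1} r_{j1}`
    have e3 : cohMatT ℓ x1 * corr_mat (r j1 * (r j2)⁻¹) =
        corr_mat ((δ (x1, j1))⁻¹ * δ (x2, j2)) * cohMatT ℓ x2 := by
      rw [corr_mat_mul, corr_mat_mul, Matrix.mul_assoc (corr_mat (δ (x1, j1))⁻¹),
        ← Matrix.mul_assoc (cohMatT ℓ x1)]
      have e4 : cohMatT ℓ x1 * corr_mat (r j1) =
          corr_mat (δ (x1, j1))⁻¹ * (corr_mat (δ (x2, j2)) * (cohMatT ℓ x2 * corr_mat (r j2))) := by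
        rw [e1, ← Matrix.mul_assoc, corr_mat_inv_mul, Matrix.one_mul]
      rw [e4, Matrix.mul_assoc, Matrix.mul_assoc, Matrix.mul_assoc, corr_mat_mul_inv,
        Matrix.mul_one]
    have hmem : ((r j1 * (r j2)⁻¹ : Gamma0 N) : SL(2, ℤ)) ∈ Gamma0 M' :=
      corr_mem_Gamma0_of_rel ℓ hℓM x1 x2 _ _ e3
    have hj : j1 = j2 := by
      refine C.distinct j1 j2 ⟨_, hmem⟩ ?_
      rw [hC, hC]
      show corr_mat (r j1 * (r j2)⁻¹) * corr_mat (r j2) = corr_mat (r j1)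
      rw [← corr_mat_mul, inv_mul_cancel_right]
    subst hj
    rw [mul_inv_cancel, corr_mat_one, Matrix.mul_one] at e3
    have hx : x1 = x2 := corr_cohMatT_distinct M' ℓ hℓM x1 x2 _ e3.symm
    rw [hx]
  have hbij : Function.Bijective (fun p : OnePoint (ZMod ℓ) × J => (j' p, x' p)) := by
    rw [Fintype.bijective_iff_injective_and_card]
    exact ⟨hinj, by rw [Fintype.card_prod, Fintype.card_prod, mul_comm]⟩
  have h := corr_Compat.op_eq_of_cosets' hD hD'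
    (by
      rintro ⟨j, x⟩
      simp only [hC, Matrix.det_mul, corr_mat_det, one_mul]
      exact corr_cohMatT_det_ne ℓ x)
    hdist (Equiv.ofBijective _ hbij) δ (m := 1) (m' := 1) one_ne_zero (B := B)
    (by
      intro p
      simp only [one_smul, Equiv.ofBijective_apply]
      exact hδ p)
  exact (congrFun (congrArg DFunLike.coe h) ψ).symm

end cores

end Fermat.Agent.S41x
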