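/-
S41 project, block B (COH-LEVEL): `T_ℓ` commutes with TWISTED TRANSFERS.  (helper54)

`corr_comm_transfer` : general form, for an `lrc_Corr` datum `C : Γ₀(M') → Γ₀(N)` with matrices
`P * mat (s j)`, `s j ∈ Γ₀(N)`, `P` a fixed integer matrix, under three explicit hypotheses on `P`
(`P⁻¹ Γ₀(M') P ⊆ Γ₀(N)`; `A_x P ∈ P Γ₀(N) A_x₀`; an entry condition).  For `P = 1` this is
`corr_comm_cores`.
-/
import Fermat.Agent.S41x.CorrCommCores

set_option autoImplicit false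

namespace Fermat.Agent.S41x

open scoped MatrixGroups
open CongruenceSubgroup
open Fermat.Agent.S16x

/-- left cancellation of an integer matrix with nonzero determinant -/
theorem corr_mul_left_cancel {M M' A : Matrix (Fin 2) (Fin 2) ℤ} (hA : A.det ≠ 0)
    (h : A * M = A * M') : M = M' := by
  have h2 : A.adjugate * (A * M) = A.adjugate * (A * M') := by rw [h]
  rw [← Matrix.mul_assoc, ← Matrix.mul_assoc, Matrix.adjugate_mul] at h2
  ext i j
  have h3 := congrFun (congrFun h2 i) j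
  simp only [Matrix.smul_mul, Matrix.one_mul, Matrix.smul_apply, smul_eq_mul] at h3
  exact mul_left_cancel₀ hA h3

section transfer

variable {N M' : ℕ} (ℓ : ℕ) [Fact ℓ.Prime] (hℓN : ¬ ℓ ∣ N) (hℓM : ¬ ℓ ∣ M')

/-- TWISTED TRANSFER commutes with `T_ℓ` (general form). -/
theorem corr_comm_transfer {J : Type} [Fintype J] [Nonempty J]
    (C : lrc_Corr (Gamma0 M') (Gamma0 N) J) (P : Matrix (Fin 2) (Fin 2) ℤ) (hP : P.det ≠ 0)
    (s : J → Gamma0 N) (hC : ∀ j, C.A j = P * corr_mat (s j))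
    (H1 : ∀ γ : Gamma0 M', ∃ γ'' : Gamma0 N, corr_mat γ * P = P * corr_mat γ'')
    (H2 : ∀ x : OnePoint (ZMod ℓ), ∃ (γ0 : Gamma0 N) (x0 : OnePoint (ZMod ℓ)),
      cohMatT ℓ x * P = P * (corr_mat γ0 * cohMatT ℓ x0))
    (H3 : ∀ (x1 x2 : OnePoint (ZMod ℓ)) (h : Gamma0 N) (δ : Gamma0 M'),
      cohMatT ℓ x1 * (P * corr_mat h) = corr_mat δ * (cohMatT ℓ x2 * P) →
        ∃ δ' : Gamma0 M', P * corr_mat h = corr_mat δ' * P)
    {B : Type*} [AddCommGroup B] (ψ : Additive (Gamma0 M') →+ B) :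
    C.op (cohT M' ℓ hℓM ψ) = cohT N ℓ hℓN (C.op ψ) := by
  classical
  rw [← corr_TDatum_op, ← corr_TDatum_op, ← corr_ofLrc_op, ← corr_ofLrc_op,
    ← corr_Datum.op_comp, ← corr_Datum.op_comp]
  have hD : corr_Compat (corr_Datum.comp (corr_TDatum M' ℓ hℓM) (corr_ofLrc C).datum)
      (fun p : OnePoint (ZMod ℓ) × J => cohMatT ℓ p.1 * C.A p.2) :=
    (corr_TDatum_compat M' ℓ hℓM).comp (corr_ofLrc C).datum_compat
  have hD' : corr_Compat (corr_Datum.comp (corr_ofLrc C).datum (corr_TDatum N ℓ hℓN))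
      (fun p : J × OnePoint (ZMod ℓ) => C.A p.1 * cohMatT ℓ p.2) :=
    (corr_ofLrc C).datum_compat.comp (corr_TDatum_compat N ℓ hℓN)
  -- decomposition `P γ = δ P s_j'`
  have hdec : ∀ γ : Gamma0 N, ∃ (j' : J) (δ : Gamma0 M'),
      corr_mat δ * (P * corr_mat (s j')) = P * corr_mat γ := by
    intro γ
    obtain ⟨j0⟩ := (inferInstance : Nonempty J)
    obtain ⟨j', δ, h⟩ := C.rel ((s j0)⁻¹ * γ) j0
    refine ⟨j', δ, ?_⟩
    rw [hC, hC] at h
    rw [show corr_mat δ = cohMat δ from rfl, h, ← corr_mat_eq_cohMat, Matrix.mul_assoc,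
      ← corr_mat_mul, mul_inv_cancel_left]
  have hex : ∀ p : OnePoint (ZMod ℓ) × J, ∃ (j' : J) (x' : OnePoint (ZMod ℓ)) (δ : Gamma0 M'),
      C.A j' * cohMatT ℓ x' = corr_mat δ * (cohMatT ℓ p.1 * C.A p.2) := by
    rintro ⟨x, j⟩
    obtain ⟨γ0, x0, h0⟩ := H2 x
    have h1 := corr_TDatum_compat N ℓ hℓN (s j) x0
    obtain ⟨j', δ, h2⟩ := hdec (γ0 * (corr_TDatum N ℓ hℓN).elt (s j) x0)
    refine ⟨j', (corr_TDatum N ℓ hℓN).perm (s j) x0, δ⁻¹, ?_⟩
    simp only [hC]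
    have e : cohMatT ℓ x * (P * corr_mat (s j)) =
        corr_mat δ * (P * corr_mat (s j') * cohMatT ℓ ((corr_TDatum N ℓ hℓN).perm (s j) x0)) := by
      rw [← Matrix.mul_assoc, h0, ← Matrix.mul_assoc (corr_mat δ), h2, corr_mat_mul]
      simp only [Matrix.mul_assoc]
      rw [h1]
    rw [e, ← Matrix.mul_assoc (corr_mat δ⁻¹), corr_mat_inv_mul, Matrix.one_mul]
  choose j' x' δ hδ using hex
  have hdist : ∀ (p p' : J × OnePoint (ZMod ℓ)) (γ : Gamma0 M'),
      corr_mat γ * (C.A p'.1 * cohMatT ℓ p'.2) = C.A p.1 * cohMatT ℓ p.2 → p = p' := by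
    rintro ⟨j1, x1⟩ ⟨j2, x2⟩ γ h
    simp only [hC] at h
    obtain ⟨γ'', hγ⟩ := H1 γ
    have h0 : P * (corr_mat γ'' * corr_mat (s j2) * cohMatT ℓ x2) =
        P * (corr_mat (s j1) * cohMatT ℓ x1) := by
      calc P * (corr_mat γ'' * corr_mat (s j2) * cohMatT ℓ x2)
          = (P * corr_mat γ'') * (corr_mat (s j2) * cohMatT ℓ x2) := by
            simp only [Matrix.mul_assoc]
        _ = (corr_mat γ * P) * (corr_mat (s j2) * cohMatT ℓ x2) := by rw [hγ]
        _ = corr_mat γ * (P * corr_mat (s j2) * cohMatT ℓ x2) := by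
            simp only [Matrix.mul_assoc]
        _ = P * corr_mat (s j1) * cohMatT ℓ x1 := h
        _ = P * (corr_mat (s j1) * cohMatT ℓ x1) := by rw [Matrix.mul_assoc]
    have h0' := corr_mul_left_cancel hP h0
    have h1 : corr_mat ((s j1)⁻¹ * γ'' * s j2) * cohMatT ℓ x2 = cohMatT ℓ x1 := by
      rw [corr_mat_mul, corr_mat_mul, Matrix.mul_assoc (corr_mat (s j1)⁻¹), Matrix.mul_assoc,
        h0', ← Matrix.mul_assoc, corr_mat_inv_mul, Matrix.one_mul]
    have hx : x1 = x2 := corr_cohMatT_distinct N ℓ hℓN x1 x2 _ h1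
    subst hx
    rw [← Matrix.mul_assoc] at h
    have h2 := corr_mul_right_cancel (corr_cohMatT_det_ne ℓ x1) h
    have hj : j1 = j2 := C.distinct j1 j2 γ (by rw [hC, hC]; exact h2)
    rw [hj]
  have hinj : Function.Injective (fun p : OnePoint (ZMod ℓ) × J => (j' p, x' p)) := by
    rintro ⟨x1, j1⟩ ⟨x2, j2⟩ h
    simp only [Prod.mk.injEq] at h
    have e1 := hδ (x1, j1)
    have e2 := hδ (x2, j2)
    rw [h.1, h.2, e2] at e1
    simp only [hC] at e1
    have e4 : cohMatT ℓ x1 * (P * corr_mat (s j1)) =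
        corr_mat (δ (x1, j1))⁻¹ *
          (corr_mat (δ (x2, j2)) * (cohMatT ℓ x2 * (P * corr_mat (s j2)))) := by
      rw [e1, ← Matrix.mul_assoc (corr_mat (δ (x1, j1))⁻¹), corr_mat_inv_mul, Matrix.one_mul]
    have e3 : cohMatT ℓ x1 * (P * corr_mat (s j1 * (s j2)⁻¹)) =
        corr_mat ((δ (x1, j1))⁻¹ * δ (x2, j2)) * (cohMatT ℓ x2 * P) := by
      rw [corr_mat_mul (s j1), ← Matrix.mul_assoc P, ← Matrix.mul_assoc (cohMatT ℓ x1), e4,
        corr_mat_mul]
      simp only [Matrix.mul_assoc]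
      rw [corr_mat_mul_inv, Matrix.mul_one]
    obtain ⟨δ', hδ'⟩ := H3 x1 x2 _ _ e3
    have hj : j1 = j2 := by
      refine C.distinct j1 j2 δ' ?_
      rw [hC, hC]
      show corr_mat δ' * (P * corr_mat (s j2)) = P * corr_mat (s j1)
      rw [← Matrix.mul_assoc, ← hδ', Matrix.mul_assoc, ← corr_mat_mul, inv_mul_cancel_right]
    subst hj
    rw [mul_inv_cancel, corr_mat_one, Matrix.mul_one, ← Matrix.mul_assoc] at e3
    have e5 := corr_mul_right_cancel hP e3
    have hx : x1 = x2 := corr_cohMatT_distinct M' ℓ hℓM x1 x2 _ e5.symm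
    rw [hx]
  have hbij : Function.Bijective (fun p : OnePoint (ZMod ℓ) × J => (j' p, x' p)) := by
    rw [Fintype.bijective_iff_injective_and_card]
    exact ⟨hinj, by rw [Fintype.card_prod, Fintype.card_prod, mul_comm]⟩
  have h := corr_Compat.op_eq_of_cosets' hD hD'
    (by
      rintro ⟨j, x⟩
      simp only [hC, Matrix.det_mul, corr_mat_det, mul_one]
      exact mul_ne_zero hP (corr_cohMatT_det_ne ℓ x))
    hdist (Equiv.ofBijective _ hbij) δ (m := 1) (m' := 1) one_ne_zero (B := B)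
    (by
      intro p
      simp only [one_smul, Equiv.ofBijective_apply]
      exact hδ p)
  exact (congrFun (congrArg DFunLike.coe h) ψ).symm

end transfer

end Fermat.Agent.S41x
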