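/-
S41 project, block B (COH-LEVEL): the four degeneracy correspondences of helper27's
`S41x/CohLevel.lean` (`lrl_res`, `lrl_resEta`, `lrl_cores`) COMMUTE with the
Hecke operators `T_ℓ`, `ℓ` prime, `ℓ ∤ N q`.  (helper54)

* `corr_comm_lrl_res`, `corr_comm_lrl_resEta` : `α`-side;
* `corr_comm_lrl_cores` : `β`-side (the twisted transfer `lrl_coresEta` is in `CorrCommEta.lean`);
all in the `cohT` form (`corr_cohOpGen_eq_cohT` converts to `cohOpGen`).
-/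
import Fermat.Agent.S41x.CorrCommTransfer
import Fermat.Agent.S41x.CohLevel

set_option autoImplicit false

namespace Fermat.Agent.S41x

open scoped MatrixGroups
open CongruenceSubgroup
open Fermat.Agent.S16x

theorem corr_not_dvd_mul (N q ℓ : ℕ) [Fact ℓ.Prime] (hℓN : ¬ ℓ ∣ N) (hℓq : ¬ ℓ ∣ q) :
    ¬ ℓ ∣ N * q := by
  intro h
  rcases (Nat.Prime.dvd_mul Fact.out).mp h with h | h
  · exact hℓN h
  · exact hℓq h

section level

variable (N q : ℕ) [Fact q.Prime] (hqN : ¬ q ∣ N) (ℓ : ℕ) [Fact ℓ.Prime] (hℓN : ¬ ℓ ∣ N)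
  (hℓq : ¬ ℓ ∣ q)

variable {B : Type*} [AddCommGroup B]

/-- restriction commutes with `T_ℓ` -/
theorem corr_comm_lrl_res (ψ : Additive (Gamma0 N) →+ B) :
    (lrl_res N q).op (cohT N ℓ hℓN ψ) =
      cohT (N * q) ℓ (corr_not_dvd_mul N q ℓ hℓN hℓq) ((lrl_res N q).op ψ) :=
  corr_comm_res ℓ hℓN _ (lrl_res N q) rfl ψ

/-- twisted restriction commutes with `T_ℓ` -/
theorem corr_comm_lrl_resEta (ψ : Additive (Gamma0 N) →+ B) :
    (lrl_resEta N q).op (cohT N ℓ hℓN ψ) =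
      cohT (N * q) ℓ (corr_not_dvd_mul N q ℓ hℓN hℓq) ((lrl_resEta N q).op ψ) :=
  corr_comm_resEta ℓ hℓN _ q hℓq (lrl_resEta N q) rfl ψ

/-- transfer commutes with `T_ℓ` -/
theorem corr_comm_lrl_cores (ψ : Additive (Gamma0 (N * q)) →+ B) :
    (lrl_cores N q hqN).op (cohT (N * q) ℓ (corr_not_dvd_mul N q ℓ hℓN hℓq) ψ) =
      cohT N ℓ hℓN ((lrl_cores N q hqN).op ψ) :=
  corr_comm_cores ℓ hℓN _ (lrl_le N q) (lrl_cores N q hqN) (lrl_g N q hqN) (fun _ => rfl) ψ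

end level

end Fermat.Agent.S41x
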