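/-
S41 project, block B (COH-LEVEL): the TWISTED TRANSFER `lrl_coresEta` of helper27's
`S41x/CohLevel.lean` commutes with `T_ℓ`, `ℓ` prime, `ℓ ∤ N q`.  (helper54)

Instance of `corr_comm_transfer` with `P = diag(1,q) = cohMatFin q 0`, `s = lrl_s`.
-/
import Fermat.Agent.S41x.CorrCommLevel

set_option autoImplicit false

namespace Fermat.Agent.S41x

open scoped MatrixGroups
open CongruenceSubgroup
open Fermat.Agent.S16x

theorem corr_mat_eq_of (N : ℕ) (γ : Gamma0 N) :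
    corr_mat γ = !![(γ : SL(2, ℤ)) 0 0, (γ : SL(2, ℤ)) 0 1; (γ : SL(2, ℤ)) 1 0,
      (γ : SL(2, ℤ)) 1 1] :=
  lrl_cohMat_eq N γ

/-- the `(0,0)` entry of `cohMatT ℓ x` is `1` or `ℓ` -/
theorem corr_cohMatT_00 (ℓ : ℕ) (x : OnePoint (ZMod ℓ)) :
    cohMatT ℓ x 0 0 = 1 ∨ cohMatT ℓ x 0 0 = (ℓ : ℤ) := by
  induction x using OnePoint.rec with
  | infty => right; simp [cohMatInf]
  | coe j => left; simp [cohMatFin]

section eta

variable (N q : ℕ) [Fact q.Prime] (hqN : ¬ q ∣ N) (ℓ : ℕ) [Fact ℓ.Prime] (hℓN : ¬ ℓ ∣ N)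
  (hℓq : ¬ ℓ ∣ q)

/-- (H1) `P⁻¹ Γ₀(N q) P ⊆ Γ₀(N)` for `P = diag(1,q)` -/
theorem corr_eta_H1 (γ : Gamma0 (N * q)) :
    ∃ γ'' : Gamma0 N, corr_mat γ * cohMatFin q 0 = cohMatFin q 0 * corr_mat γ'' := by
  obtain ⟨e, he⟩ : ((N * q : ℕ) : ℤ) ∣ (γ : SL(2, ℤ)) 1 0 := lrl_dvd (N * q) γ
  have hdet := lrl_det (N * q) γ
  refine ⟨lrl_g0 N ((γ : SL(2, ℤ)) 0 0) ((q : ℤ) * (γ : SL(2, ℤ)) 0 1) ((N : ℤ) * e)
    ((γ : SL(2, ℤ)) 1 1) ?_ (Dvd.intro _ rfl), ?_⟩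
  · rw [he] at hdet; push_cast at hdet; linear_combination hdet
  · rw [lrl_cohMatFin_zero, corr_mat_eq_of, corr_mat_eq_cohMat, lrl_cohMat_g0,
      Matrix.mul_fin_two, Matrix.mul_fin_two]
    refine lrl_mat_eq ?_ ?_ ?_ ?_
    · ring
    · ring
    · rw [he]; push_cast; ring
    · ring

/-- (H2) `A_x P = P γ₀ A_x₀` -/
theorem corr_eta_H2 (x : OnePoint (ZMod ℓ)) :
    ∃ (γ0 : Gamma0 N) (x0 : OnePoint (ZMod ℓ)),
      cohMatT ℓ x * cohMatFin q 0 = cohMatFin q 0 * (corr_mat γ0 * cohMatT ℓ x0) := by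
  have : NeZero ℓ := ⟨(Fact.out : ℓ.Prime).ne_zero⟩
  induction x using OnePoint.rec with
  | infty =>
    refine ⟨1, OnePoint.infty, ?_⟩
    rw [corr_mat_one, Matrix.one_mul, cohMatT_infty, lrl_cohMatFin_zero, cohMatInf,
      Matrix.mul_fin_two, Matrix.mul_fin_two]
    refine lrl_mat_eq ?_ ?_ ?_ ?_ <;> ring
  | coe a =>
    obtain ⟨t, ht⟩ := corr_exists_val_mul ℓ q a
    refine ⟨corr_upper N (-t), (((q : ZMod ℓ) * a : ZMod ℓ) : OnePoint (ZMod ℓ)), ?_⟩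
    rw [cohMatT_coe, cohMatT_coe, corr_mat_upper, lrl_cohMatFin_zero, cohMatFin, cohMatFin,
      Matrix.mul_fin_two, Matrix.mul_fin_two, Matrix.mul_fin_two, ht]
    refine lrl_mat_eq ?_ ?_ ?_ ?_ <;> ring

include hℓq in
/-- (H3) the entry condition -/
theorem corr_eta_H3 (x1 x2 : OnePoint (ZMod ℓ)) (h : Gamma0 N) (δ : Gamma0 (N * q))
    (hrel : cohMatT ℓ x1 * (cohMatFin q 0 * corr_mat h) =
      corr_mat δ * (cohMatT ℓ x2 * cohMatFin q 0)) :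
    ∃ δ' : Gamma0 (N * q), cohMatFin q 0 * corr_mat h = corr_mat δ' * cohMatFin q 0 := by
  have hq : q.Prime := Fact.out
  -- `q ∣ h₀₁`
  have h01 := congrFun (congrFun hrel 0) 1
  rw [lrl_cohMatFin_zero] at h01
  simp only [Matrix.mul_apply, Fin.sum_univ_two, Matrix.of_apply, Matrix.cons_val', Matrix.cons_val_zero,
    Matrix.cons_val_one, Matrix.empty_val', Matrix.cons_val_fin_one, one_mul, zero_mul, add_zero,
    zero_add, mul_zero] at h01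
  have hdvd : (q : ℤ) ∣ cohMatT ℓ x1 0 0 * corr_mat h 0 1 := by
    have : cohMatT ℓ x1 0 0 * corr_mat h 0 1 =
        (q : ℤ) * (corr_mat δ 0 0 * cohMatT ℓ x2 0 1 + corr_mat δ 0 1 * cohMatT ℓ x2 1 1
          - cohMatT ℓ x1 0 1 * corr_mat h 1 1) := by
      linear_combination h01
    exact Dvd.intro _ this.symm
  have hcop : IsCoprime (q : ℤ) (ℓ : ℤ) := by
    rw [Int.isCoprime_iff_gcd_eq_one, Int.gcd_natCast_natCast]
    have h1 : ℓ.Coprime q := (Nat.Prime.coprime_iff_not_dvd Fact.out).mpr hℓq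
    exact h1.symm
  have hq01 : (q : ℤ) ∣ corr_mat h 0 1 := by
    rcases corr_cohMatT_00 ℓ x1 with h1 | h1
    · rw [h1, one_mul] at hdvd
      exact hdvd
    · rw [h1] at hdvd
      exact hcop.dvd_of_dvd_mul_left hdvd
  obtain ⟨b', hb'⟩ := hq01
  obtain ⟨e, he⟩ : ((N : ℕ) : ℤ) ∣ (h : SL(2, ℤ)) 1 0 := lrl_dvd N h
  have hdet := lrl_det N h
  have hb'' : (h : SL(2, ℤ)) 0 1 = (q : ℤ) * b' := hb'
  refine ⟨lrl_g0 (N * q) ((h : SL(2, ℤ)) 0 0) b' ((q : ℤ) * (h : SL(2, ℤ)) 1 0)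
    ((h : SL(2, ℤ)) 1 1) ?_ ?_, ?_⟩
  · rw [hb''] at hdet; linear_combination hdet
  · rw [he]; push_cast; exact Dvd.intro e (by ring)
  · rw [lrl_cohMatFin_zero, corr_mat_eq_of, corr_mat_eq_cohMat, lrl_cohMat_g0,
      Matrix.mul_fin_two, Matrix.mul_fin_two]
    refine lrl_mat_eq ?_ ?_ ?_ ?_
    · ring
    · rw [hb'']; ring
    · ring
    · ring

variable {B : Type*} [AddCommGroup B]

/-- twisted transfer commutes with `T_ℓ` -/
theorem corr_comm_lrl_coresEta (ψ : Additive (Gamma0 (N * q)) →+ B) :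
    (lrl_coresEta N q hqN).op (cohT (N * q) ℓ (corr_not_dvd_mul N q ℓ hℓN hℓq) ψ) =
      cohT N ℓ hℓN ((lrl_coresEta N q hqN).op ψ) := by
  have hP : (cohMatFin q 0).det ≠ 0 := by
    rw [cohMatFin_det]
    exact_mod_cast (Fact.out : q.Prime).ne_zero
  exact corr_comm_transfer ℓ hℓN _ (lrl_coresEta N q hqN) (cohMatFin q 0) hP (lrl_s N q hqN)
    (fun x => lrl_AEta_eq N q hqN x) (corr_eta_H1 N q) (corr_eta_H2 N q ℓ)
    (corr_eta_H3 N q ℓ hℓq) ψ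

end eta

end Fermat.Agent.S41x
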