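/-
S41 project, block B (COH-LEVEL): the commutation engine abstracted over the HECKE FAMILY, so that
it covers both `T_ℓ` (`ℓ ∤ N`, family `cohMatT ℓ` on `ℙ¹(𝔽_ℓ)`) and `U_ℓ` (`ℓ ∣ N`, family
`cohMatFin ℓ` on `ZMod ℓ`).  (helper54)

* `corr_HeckeFam N M' X` : one family of matrices `A : X → M₂(ℤ)` carrying compatible
  correspondences at the two levels `N`, `M'` with distinct cosets at both levels;
* `corr_HeckeFam.comm_res` : one-coset correspondences with matrix `1` commute;
* `corr_HeckeFam.comm_transfer` : twisted transfers `P * mat (s j)` commute (hypotheses H1–H3).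
-/
import Fermat.Agent.S41x.CorrCommTransfer

set_option autoImplicit false

namespace Fermat.Agent.S41x

open scoped MatrixGroups
open CongruenceSubgroup
open Fermat.Agent.S16x

/-- a Hecke family at two levels -/
structure corr_HeckeFam (N M' : ℕ) (X : Type) where
  /-- the matrices -/
  A : X → Matrix (Fin 2) (Fin 2) ℤ
  /-- the correspondence at level `N` -/
  DN : corr_Datum (Gamma0 N) (Gamma0 N) X
  /-- the correspondence at level `M'` -/
  DM : corr_Datum (Gamma0 M') (Gamma0 M') X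
  compatN : corr_Compat DN A
  compatM : corr_Compat DM A
  det_ne : ∀ x, (A x).det ≠ 0
  distinctN : ∀ (x x' : X) (γ : Gamma0 N), corr_mat γ * A x' = A x → x = x'
  distinctM : ∀ (x x' : X) (γ : Gamma0 M'), corr_mat γ * A x' = A x → x = x'

namespace corr_HeckeFam

variable {N M' : ℕ} {X : Type} [Fintype X] (H : corr_HeckeFam N M' X)

/-- RESTRICTION commutes with the Hecke family. -/
theorem comm_res (R : lrc_Corr (Gamma0 N) (Gamma0 M') Unit) (hR : R.A () = 1)
    {B : Type*} [AddCommGroup B] (ψ : Additive (Gamma0 N) →+ B) :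
    R.op (H.DN.op ψ) = H.DM.op (R.op ψ) := by
  rw [← corr_ofLrc_op, ← corr_ofLrc_op, ← corr_Datum.op_comp, ← corr_Datum.op_comp]
  have hD : corr_Compat (corr_Datum.comp H.DN (corr_ofLrc R).datum)
      (fun x : X × Unit => H.A x.1 * R.A x.2) :=
    H.compatN.comp (corr_ofLrc R).datum_compat
  have hD' : corr_Compat (corr_Datum.comp (corr_ofLrc R).datum H.DM)
      (fun x : Unit × X => R.A x.1 * H.A x.2) :=
    (corr_ofLrc R).datum_compat.comp H.compatM
  have h := corr_Compat.op_eq_of_cosets' hD hD'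
    (by
      rintro ⟨⟨⟩, x⟩
      simp only [hR, Matrix.one_mul]
      exact H.det_ne x)
    (by
      rintro ⟨⟨⟩, x⟩ ⟨⟨⟩, x'⟩ γ h
      simp only [hR, Matrix.one_mul] at h
      rw [H.distinctN x x' γ h])
    (Equiv.prodComm _ _) (fun _ => 1) (m := 1) (m' := 1) one_ne_zero (B := B)
    (by
      rintro ⟨x, ⟨⟩⟩
      simp [hR])
  exact (congrFun (congrArg DFunLike.coe h) ψ).symm

/-- TWISTED TRANSFER commutes with the Hecke family (general form). -/
theorem comm_transfer {J : Type} [Fintype J] [Nonempty J]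
    (C : lrc_Corr (Gamma0 M') (Gamma0 N) J) (P : Matrix (Fin 2) (Fin 2) ℤ) (hP : P.det ≠ 0)
    (s : J → Gamma0 N) (hC : ∀ j, C.A j = P * corr_mat (s j))
    (H1 : ∀ γ : Gamma0 M', ∃ γ'' : Gamma0 N, corr_mat γ * P = P * corr_mat γ'')
    (H2 : ∀ x : X, ∃ (γ0 : Gamma0 N) (x0 : X), H.A x * P = P * (corr_mat γ0 * H.A x0))
    (H3 : ∀ (x1 x2 : X) (h : Gamma0 N) (δ : Gamma0 M'),
      H.A x1 * (P * corr_mat h) = corr_mat δ * (H.A x2 * P) →
        ∃ δ' : Gamma0 M', P * corr_mat h = corr_mat δ' * P)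
    {B : Type*} [AddCommGroup B] (ψ : Additive (Gamma0 M') →+ B) :
    C.op (H.DM.op ψ) = H.DN.op (C.op ψ) := by
  classical
  rw [← corr_ofLrc_op, ← corr_ofLrc_op, ← corr_Datum.op_comp, ← corr_Datum.op_comp]
  have hD : corr_Compat (corr_Datum.comp H.DM (corr_ofLrc C).datum)
      (fun p : X × J => H.A p.1 * C.A p.2) :=
    H.compatM.comp (corr_ofLrc C).datum_compat
  have hD' : corr_Compat (corr_Datum.comp (corr_ofLrc C).datum H.DN)
      (fun p : J × X => C.A p.1 * H.A p.2) :=
    (corr_ofLrc C).datum_compat.comp H.compatN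
  have hdec : ∀ γ : Gamma0 N, ∃ (j' : J) (δ : Gamma0 M'),
      corr_mat δ * (P * corr_mat (s j')) = P * corr_mat γ := by
    intro γ
    obtain ⟨j0⟩ := (inferInstance : Nonempty J)
    obtain ⟨j', δ, h⟩ := C.rel ((s j0)⁻¹ * γ) j0
    refine ⟨j', δ, ?_⟩
    rw [hC, hC] at h
    rw [show corr_mat δ = cohMat δ from rfl, h, ← corr_mat_eq_cohMat, Matrix.mul_assoc,
      ← corr_mat_mul, mul_inv_cancel_left]
  have hex : ∀ p : X × J, ∃ (j' : J) (x' : X) (δ : Gamma0 M'),
      C.A j' * H.A x' = corr_mat δ * (H.A p.1 * C.A p.2) := by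
    rintro ⟨x, j⟩
    obtain ⟨γ0, x0, h0⟩ := H2 x
    have h1 := H.compatN (s j) x0
    obtain ⟨j', δ, h2⟩ := hdec (γ0 * H.DN.elt (s j) x0)
    refine ⟨j', H.DN.perm (s j) x0, δ⁻¹, ?_⟩
    simp only [hC]
    have e : H.A x * (P * corr_mat (s j)) =
        corr_mat δ * (P * corr_mat (s j') * H.A (H.DN.perm (s j) x0)) := by
      rw [← Matrix.mul_assoc, h0, ← Matrix.mul_assoc (corr_mat δ), h2, corr_mat_mul]
      simp only [Matrix.mul_assoc]
      rw [h1]
    rw [e, ← Matrix.mul_assoc (corr_mat δ⁻¹), corr_mat_inv_mul, Matrix.one_mul]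
  choose j' x' δ hδ using hex
  have hdist : ∀ (p p' : J × X) (γ : Gamma0 M'),
      corr_mat γ * (C.A p'.1 * H.A p'.2) = C.A p.1 * H.A p.2 → p = p' := by
    rintro ⟨j1, x1⟩ ⟨j2, x2⟩ γ h
    simp only [hC] at h
    obtain ⟨γ'', hγ⟩ := H1 γ
    have h0 : P * (corr_mat γ'' * corr_mat (s j2) * H.A x2) =
        P * (corr_mat (s j1) * H.A x1) := by
      calc P * (corr_mat γ'' * corr_mat (s j2) * H.A x2)
          = (P * corr_mat γ'') * (corr_mat (s j2) * H.A x2) := by
            simp only [Matrix.mul_assoc]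
        _ = (corr_mat γ * P) * (corr_mat (s j2) * H.A x2) := by rw [hγ]
        _ = corr_mat γ * (P * corr_mat (s j2) * H.A x2) := by
            simp only [Matrix.mul_assoc]
        _ = P * corr_mat (s j1) * H.A x1 := h
        _ = P * (corr_mat (s j1) * H.A x1) := by rw [Matrix.mul_assoc]
    have h0' := corr_mul_left_cancel hP h0
    have h1 : corr_mat ((s j1)⁻¹ * γ'' * s j2) * H.A x2 = H.A x1 := by
      rw [corr_mat_mul, corr_mat_mul, Matrix.mul_assoc (corr_mat (s j1)⁻¹), Matrix.mul_assoc,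
        h0', ← Matrix.mul_assoc, corr_mat_inv_mul, Matrix.one_mul]
    have hx : x1 = x2 := H.distinctN x1 x2 _ h1
    subst hx
    rw [← Matrix.mul_assoc] at h
    have h2 := corr_mul_right_cancel (H.det_ne x1) h
    have hj : j1 = j2 := C.distinct j1 j2 γ (by rw [hC, hC]; exact h2)
    rw [hj]
  have hinj : Function.Injective (fun p : X × J => (j' p, x' p)) := by
    rintro ⟨x1, j1⟩ ⟨x2, j2⟩ h
    simp only [Prod.mk.injEq] at h
    have e1 := hδ (x1, j1)
    have e2 := hδ (x2, j2)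
    rw [h.1, h.2, e2] at e1
    simp only [hC] at e1
    have e4 : H.A x1 * (P * corr_mat (s j1)) =
        corr_mat (δ (x1, j1))⁻¹ *
          (corr_mat (δ (x2, j2)) * (H.A x2 * (P * corr_mat (s j2)))) := by
      rw [e1, ← Matrix.mul_assoc (corr_mat (δ (x1, j1))⁻¹), corr_mat_inv_mul, Matrix.one_mul]
    have e3 : H.A x1 * (P * corr_mat (s j1 * (s j2)⁻¹)) =
        corr_mat ((δ (x1, j1))⁻¹ * δ (x2, j2)) * (H.A x2 * P) := by
      rw [corr_mat_mul (s j1), ← Matrix.mul_assoc P, ← Matrix.mul_assoc (H.A x1), e4,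
        corr_mat_mul]
      simp only [Matrix.mul_assoc]
      rw [corr_mat_mul_inv, Matrix.mul_one]
    obtain ⟨δ', hδ'⟩ := H3 x1 x2 _ _ e3
    have hj : j1 = j2 := by
      refine C.distinct j1 j2 δ' ?_
      rw [hC, hC]
      show corr_mat δ' * (P * corr_mat (s j2)) = P * corr_mat (s j1)
      rw [← Matrix.mul_assoc, ← hδ', Matrix.mul_assoc, ← corr_mat_mul, inv_mul_cancel_right]
    subst hj
    rw [mul_inv_cancel, corr_mat_one, Matrix.mul_one, ← Matrix.mul_assoc] at e3
    have e5 := corr_mul_right_cancel hP e3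
    have hx : x1 = x2 := H.distinctM x1 x2 _ e5.symm
    rw [hx]
  have hbij : Function.Bijective (fun p : X × J => (j' p, x' p)) := by
    rw [Fintype.bijective_iff_injective_and_card]
    exact ⟨hinj, by rw [Fintype.card_prod, Fintype.card_prod, mul_comm]⟩
  have h := corr_Compat.op_eq_of_cosets' hD hD'
    (by
      rintro ⟨j, x⟩
      simp only [hC, Matrix.det_mul, corr_mat_det, mul_one]
      exact mul_ne_zero hP (H.det_ne x))
    hdist (Equiv.ofBijective _ hbij) δ (m := 1) (m' := 1) one_ne_zero (B := B)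
    (by
      intro p
      simp only [one_smul, Equiv.ofBijective_apply]
      exact hδ p)
  exact (congrFun (congrArg DFunLike.coe h) ψ).symm

end corr_HeckeFam

end Fermat.Agent.S41x
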