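/-
S41 project, block B (COH-LEVEL), B2 in the `U_ℓ` case: for a prime `ℓ ∣ N`, `ℓ ≠ q`, the four
degeneracy correspondences `lrl_res`, `lrl_resEta`, `lrl_cores`, `lrl_coresEta` commute with
`U_ℓ = cohU · ℓ` (levels `N` and `N q`).  (helper54)
-/
import Fermat.Agent.S41x.CorrCommGen
import Fermat.Agent.S41x.CorrCommEta

set_option autoImplicit false

namespace Fermat.Agent.S41x

open scoped MatrixGroups
open CongruenceSubgroup
open Fermat.Agent.S16x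

section prelimU

variable (N : ℕ) (ℓ : ℕ) [NeZero ℓ]

/-- the `U_ℓ` datum on `Γ₀(N)` as a correspondence -/
noncomputable def corr_UDatum (hℓN : ℓ ∣ N) : corr_Datum (Gamma0 N) (Gamma0 N) (ZMod ℓ) :=
  (corr_ofCohDatum (cohDatumU N ℓ hℓN)).datum

theorem corr_UDatum_compat (hℓN : ℓ ∣ N) : corr_Compat (corr_UDatum N ℓ hℓN) (cohMatFin ℓ) :=
  (corr_ofCohDatum (cohDatumU N ℓ hℓN)).datum_compat

theorem corr_UDatum_op (hℓN : ℓ ∣ N) {B : Type*} [AddCommGroup B]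
    (ψ : Additive (Gamma0 N) →+ B) : (corr_UDatum N ℓ hℓN).op ψ = cohU N ℓ hℓN ψ :=
  corr_ofCohDatum_op (cohDatumU N ℓ hℓN) ψ

theorem corr_cohMatFin_det_ne (a : ZMod ℓ) : (cohMatFin ℓ a).det ≠ 0 := by
  rw [cohMatFin_det]
  exact_mod_cast NeZero.ne ℓ

theorem corr_cohMatFin_distinct (hℓN : ℓ ∣ N) (x x' : ZMod ℓ) (γ : Gamma0 N)
    (h : corr_mat γ * cohMatFin ℓ x' = cohMatFin ℓ x) : x = x' :=
  (cohDatumU N ℓ hℓN).distinct x x' γ h

end prelimU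

/-- `cohOpGen N ℓ = cohU N ℓ` for `ℓ ∣ N` -/
theorem corr_cohOpGen_eq_cohU (N : ℕ) [NeZero N] (ℓ : Nat.Primes) [NeZero (ℓ : ℕ)]
    (hℓN : (ℓ : ℕ) ∣ N) {B : Type*} [AddCommGroup B] (ψ : Additive (Gamma0 N) →+ B) :
    cohOpGen N ℓ ψ = cohU N (ℓ : ℕ) hℓN ψ := by
  rw [← corr_cohOpGen_eq, ← corr_UDatum_op]
  have hbij : Function.Bijective (fun x : ZMod (ℓ : ℕ) =>
      (⟨cohMatFin (ℓ : ℕ) x, cohMatFin_mem_heckeReps N x⟩ : ↥(heckeReps N (ℓ : ℕ)))) := by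
    constructor
    · intro x x' h
      have h1 : cohMatFin (ℓ : ℕ) x = cohMatFin (ℓ : ℕ) x' := congrArg Subtype.val h
      refine corr_cohMatFin_distinct N (ℓ : ℕ) hℓN x x' 1 ?_
      rw [corr_mat_one, Matrix.one_mul, h1]
    · rintro ⟨A, hA⟩
      obtain ⟨x, rfl⟩ := coh_mem_heckeReps_U hℓN hA
      exact ⟨x, rfl⟩
  have h := corr_Compat.op_eq_of_cosets (corr_UDatum_compat N (ℓ : ℕ) hℓN)
    (corr_ofCohDatum (cohDatumGen N ℓ)) (Equiv.ofBijective _ hbij) (fun _ => 1)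
    (m := 1) (m' := 1) one_ne_zero (B := B) (by
      intro x
      simp)
  exact congrFun (congrArg DFunLike.coe h) ψ

/-- the `U_ℓ` family at the levels `N` and `M'` -/
noncomputable def corr_UFam (N M' ℓ : ℕ) [NeZero ℓ] (hℓN : ℓ ∣ N) (hℓM : ℓ ∣ M') :
    corr_HeckeFam N M' (ZMod ℓ) where
  A := cohMatFin ℓ
  DN := corr_UDatum N ℓ hℓN
  DM := corr_UDatum M' ℓ hℓM
  compatN := corr_UDatum_compat N ℓ hℓN
  compatM := corr_UDatum_compat M' ℓ hℓM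
  det_ne := corr_cohMatFin_det_ne ℓ
  distinctN := corr_cohMatFin_distinct N ℓ hℓN
  distinctM := corr_cohMatFin_distinct M' ℓ hℓM

section resEtaU

variable {N M : ℕ} (ℓ : ℕ) [Fact ℓ.Prime] (hℓN : ℓ ∣ N) (hℓM : ℓ ∣ M)

/-- TWISTED RESTRICTION commutes with `U_ℓ`: for any one-coset correspondence
`R : Γ₀(N) → Γ₀(M)` with matrix `diag(q,1)`, `ℓ ∤ q`. -/
theorem corr_comm_resEta_U (q : ℕ) (hℓq : ¬ ℓ ∣ q) (R : lrc_Corr (Gamma0 N) (Gamma0 M) Unit)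
    (hR : R.A () = cohMatInf q)
    {B : Type*} [AddCommGroup B] (ψ : Additive (Gamma0 N) →+ B) :
    haveI : NeZero ℓ := ⟨(Fact.out : ℓ.Prime).ne_zero⟩
    R.op (cohU N ℓ hℓN ψ) = cohU M ℓ hℓM (R.op ψ) := by
  have : NeZero ℓ := ⟨(Fact.out : ℓ.Prime).ne_zero⟩
  have hq0 : (q : ZMod ℓ) ≠ 0 := by
    rw [Ne, ZMod.natCast_eq_zero_iff]
    exact hℓq
  have hqne : (q : ℤ) ≠ 0 := by
    intro h
    apply hℓq
    have : q = 0 := by exact_mod_cast h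
    rw [this]
    exact dvd_zero ℓ
  have hηdet : (cohMatInf q).det ≠ 0 := by
    rw [cohMatInf_det]
    exact hqne
  rw [← corr_UDatum_op, ← corr_UDatum_op, ← corr_ofLrc_op, ← corr_ofLrc_op,
    ← corr_Datum.op_comp, ← corr_Datum.op_comp]
  have hD' : corr_Compat (corr_Datum.comp (corr_UDatum N ℓ hℓN) (corr_ofLrc R).datum)
      (fun x : ZMod ℓ × Unit => cohMatFin ℓ x.1 * R.A x.2) :=
    (corr_UDatum_compat N ℓ hℓN).comp (corr_ofLrc R).datum_compat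
  have hD : corr_Compat (corr_Datum.comp (corr_ofLrc R).datum (corr_UDatum M ℓ hℓM))
      (fun x : Unit × ZMod ℓ => R.A x.1 * cohMatFin ℓ x.2) :=
    (corr_ofLrc R).datum_compat.comp (corr_UDatum_compat M ℓ hℓM)
  choose t ht using fun a : ZMod ℓ => corr_exists_val_mul ℓ q a
  have h := corr_Compat.op_eq_of_cosets' hD hD'
    (by
      rintro ⟨x, ⟨⟩⟩
      simp only [hR, Matrix.det_mul]
      exact mul_ne_zero (corr_cohMatFin_det_ne ℓ x) hηdet)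
    (by
      rintro ⟨x, ⟨⟩⟩ ⟨x', ⟨⟩⟩ γ h
      simp only [hR, ← Matrix.mul_assoc] at h
      have h2 := corr_mul_right_cancel hηdet h
      rw [corr_cohMatFin_distinct N ℓ hℓN x x' γ h2])
    ((Equiv.prodComm _ _).trans (Equiv.prodCongr (Equiv.mulLeft₀ (q : ZMod ℓ) hq0) (Equiv.refl _)))
    (fun x => corr_upper N (t x.2)) (m := 1) (m' := 1) one_ne_zero (B := B)
    (by
      rintro ⟨⟨⟩, a⟩
      simp only [one_smul, Equiv.trans_apply, Equiv.prodComm_apply, Prod.swap_prod_mk,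
        Equiv.prodCongr_apply, Equiv.coe_refl, Prod.map_apply, Equiv.mulLeft₀_apply, id_eq, hR,
        corr_mat_upper]
      simp only [cohMatInf, cohMatFin, Matrix.mul_fin_two, ht a]
      ext i j
      fin_cases i <;> fin_cases j <;> simp)
  exact congrFun (congrArg DFunLike.coe h) ψ

end resEtaU

section levelU

variable (N q : ℕ) [Fact q.Prime] (hqN : ¬ q ∣ N) (ℓ : ℕ) [Fact ℓ.Prime] (hℓN : ℓ ∣ N)
  (hℓq : ¬ ℓ ∣ q)

include hqN hℓq in
/-- (H3) for the plain transfer in the `U_ℓ` case -/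
theorem corr_U_H3_cores (x1 x2 : ZMod ℓ) (h : Gamma0 N) (δ : Gamma0 (N * q))
    (hrel : cohMatFin ℓ x1 * (1 * corr_mat h) = corr_mat δ * (cohMatFin ℓ x2 * 1)) :
    ∃ δ' : Gamma0 (N * q), 1 * corr_mat h = corr_mat δ' * 1 := by
  have hq : q.Prime := Fact.out
  rw [Matrix.one_mul, Matrix.mul_one] at hrel
  have h10 := congrFun (congrFun hrel 1) 0
  simp only [cohMatFin, Matrix.mul_apply, Fin.sum_univ_two, Matrix.of_apply, Matrix.cons_val',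
    Matrix.cons_val_zero, Matrix.cons_val_one, Matrix.empty_val', Matrix.cons_val_fin_one,
    zero_mul, zero_add, mul_zero, add_zero, mul_one] at h10
  -- `ℓ * h₁₀ = δ₁₀`
  have hδ : ((N * q : ℕ) : ℤ) ∣ corr_mat δ 1 0 := coh_dvd_of_mem_Gamma0 (N * q) δ.2
  have hN : (N : ℤ) ∣ corr_mat h 1 0 := coh_dvd_of_mem_Gamma0 N h.2
  have hqdvd : (q : ℤ) ∣ (ℓ : ℤ) * corr_mat h 1 0 := by
    rw [h10]
    exact (Dvd.intro_left (N : ℤ) (by push_cast; ring)).trans hδ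
  have hcop : IsCoprime (q : ℤ) (ℓ : ℤ) := by
    rw [Int.isCoprime_iff_gcd_eq_one, Int.gcd_natCast_natCast]
    have h1 : ℓ.Coprime q := (Nat.Prime.coprime_iff_not_dvd Fact.out).mpr hℓq
    exact h1.symm
  have hq10 : (q : ℤ) ∣ corr_mat h 1 0 := hcop.dvd_of_dvd_mul_left hqdvd
  have hcopNq : IsCoprime (N : ℤ) (q : ℤ) := by
    rw [Int.isCoprime_iff_gcd_eq_one, Int.gcd_natCast_natCast]
    exact ((Nat.Prime.coprime_iff_not_dvd hq).mpr hqN).symm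
  have hNq : ((N * q : ℕ) : ℤ) ∣ corr_mat h 1 0 := by
    push_cast
    exact hcopNq.mul_dvd hN hq10
  refine ⟨⟨(h : SL(2, ℤ)), coh_mem_Gamma0_of_dvd (N * q) hNq⟩, ?_⟩
  rw [Matrix.one_mul, Matrix.mul_one]
  rfl

variable {B : Type*} [AddCommGroup B]

/-- restriction commutes with `U_ℓ` -/
theorem corr_commU_lrl_res (ψ : Additive (Gamma0 N) →+ B) :
    haveI : NeZero ℓ := ⟨(Fact.out : ℓ.Prime).ne_zero⟩
    (lrl_res N q).op (cohU N ℓ hℓN ψ) =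
      cohU (N * q) ℓ (Dvd.dvd.mul_right hℓN q) ((lrl_res N q).op ψ) := by
  have : NeZero ℓ := ⟨(Fact.out : ℓ.Prime).ne_zero⟩
  have h := (corr_UFam N (N * q) ℓ hℓN (Dvd.dvd.mul_right hℓN q)).comm_res (lrl_res N q) rfl ψ
  simp only [corr_UFam, corr_UDatum_op] at h
  exact h

include hℓq in
/-- twisted restriction commutes with `U_ℓ` -/
theorem corr_commU_lrl_resEta (ψ : Additive (Gamma0 N) →+ B) :
    haveI : NeZero ℓ := ⟨(Fact.out : ℓ.Prime).ne_zero⟩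
    (lrl_resEta N q).op (cohU N ℓ hℓN ψ) =
      cohU (N * q) ℓ (Dvd.dvd.mul_right hℓN q) ((lrl_resEta N q).op ψ) :=
  corr_comm_resEta_U ℓ hℓN _ q hℓq (lrl_resEta N q) rfl ψ

include hℓq in
/-- transfer commutes with `U_ℓ` -/
theorem corr_commU_lrl_cores (ψ : Additive (Gamma0 (N * q)) →+ B) :
    haveI : NeZero ℓ := ⟨(Fact.out : ℓ.Prime).ne_zero⟩
    (lrl_cores N q hqN).op (cohU (N * q) ℓ (Dvd.dvd.mul_right hℓN q) ψ) =
      cohU N ℓ hℓN ((lrl_cores N q hqN).op ψ) := by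
  have : NeZero ℓ := ⟨(Fact.out : ℓ.Prime).ne_zero⟩
  have h := (corr_UFam N (N * q) ℓ hℓN (Dvd.dvd.mul_right hℓN q)).comm_transfer
    (lrl_cores N q hqN) 1 (by simp) (lrl_g N q hqN)
    (fun x => (Matrix.one_mul _).symm)
    (fun γ => ⟨⟨(γ : SL(2, ℤ)), lrl_le N q γ.2⟩, by rw [Matrix.mul_one, Matrix.one_mul]; rfl⟩)
    (fun x => ⟨1, x, by simp [corr_UFam]⟩)
    (fun x1 x2 h δ hrel => corr_U_H3_cores N q hqN ℓ hℓq x1 x2 h δ hrel) ψ
  simp only [corr_UFam, corr_UDatum_op] at h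
  exact h

include hℓq in
/-- twisted transfer commutes with `U_ℓ` -/
theorem corr_commU_lrl_coresEta (ψ : Additive (Gamma0 (N * q)) →+ B) :
    haveI : NeZero ℓ := ⟨(Fact.out : ℓ.Prime).ne_zero⟩
    (lrl_coresEta N q hqN).op (cohU (N * q) ℓ (Dvd.dvd.mul_right hℓN q) ψ) =
      cohU N ℓ hℓN ((lrl_coresEta N q hqN).op ψ) := by
  have : NeZero ℓ := ⟨(Fact.out : ℓ.Prime).ne_zero⟩
  have hP : (cohMatFin q 0).det ≠ 0 := by
    rw [cohMatFin_det]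
    exact_mod_cast (Fact.out : q.Prime).ne_zero
  have h := (corr_UFam N (N * q) ℓ hℓN (Dvd.dvd.mul_right hℓN q)).comm_transfer
    (lrl_coresEta N q hqN) (cohMatFin q 0) hP (lrl_s N q hqN)
    (fun x => lrl_AEta_eq N q hqN x) (corr_eta_H1 N q)
    (by
      intro a
      obtain ⟨t, ht⟩ := corr_exists_val_mul ℓ q a
      refine ⟨corr_upper N (-t), ((q : ZMod ℓ) * a : ZMod ℓ), ?_⟩
      show cohMatFin ℓ a * cohMatFin q 0 = cohMatFin q 0 * (_ * cohMatFin ℓ _)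
      rw [corr_mat_upper, lrl_cohMatFin_zero, cohMatFin, cohMatFin,
        Matrix.mul_fin_two, Matrix.mul_fin_two, Matrix.mul_fin_two, ht]
      refine lrl_mat_eq ?_ ?_ ?_ ?_ <;> ring)
    (fun x1 x2 h δ hrel => corr_eta_H3 N q ℓ hℓq (x1 : OnePoint (ZMod ℓ)) (x2 : OnePoint (ZMod ℓ))
      h δ hrel) ψ
  simp only [corr_UFam, corr_UDatum_op] at h
  exact h

end levelU

end Fermat.Agent.S41x
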