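/-
S41 project, block B (COH-LEVEL), export B2: for EVERY prime `ℓ ≠ q` (`ℓ ∤ N` or `ℓ ∣ N`) the four
degeneracy correspondences of `S41x/CohLevel.lean` commute with `cohOpGen · ℓ` (`= T_ℓ` or `U_ℓ`)
at the levels `N` and `N q`.  (helper54)

* `corr_B2_res`, `corr_B2_resEta`, `corr_B2_cores`, `corr_B2_coresEta`.
-/
import Fermat.Agent.S41x.CorrCommU

set_option autoImplicit false

namespace Fermat.Agent.S41x

open scoped MatrixGroups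
open CongruenceSubgroup
open Fermat.Agent.S16x

section B2

variable (N q : ℕ) [NeZero N] [NeZero (N * q)] [Fact q.Prime] (hqN : ¬ q ∣ N) (ℓ : Nat.Primes)
  (hℓq : (ℓ : ℕ) ≠ q) {B : Type*} [AddCommGroup B]

include hℓq in
theorem corr_B2_not_dvd : ¬ (ℓ : ℕ) ∣ q :=
  (Nat.prime_dvd_prime_iff_eq ℓ.2 Fact.out).not.mpr hℓq

include hℓq in
/-- (B2) restriction commutes with `cohOpGen · ℓ`, `ℓ ≠ q` -/
theorem corr_B2_res (ψ : Additive (Gamma0 N) →+ B) :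
    (lrl_res N q).op (cohOpGen N ℓ ψ) = cohOpGen (N * q) ℓ ((lrl_res N q).op ψ) := by
  have : Fact (ℓ : ℕ).Prime := ⟨ℓ.2⟩
  have : NeZero (ℓ : ℕ) := ⟨ℓ.2.ne_zero⟩
  have hlq := corr_B2_not_dvd q ℓ hℓq
  by_cases hd : (ℓ : ℕ) ∣ N
  · rw [corr_cohOpGen_eq_cohU N ℓ hd, corr_cohOpGen_eq_cohU (N * q) ℓ (Dvd.dvd.mul_right hd q)]
    exact corr_commU_lrl_res N q (ℓ : ℕ) hd ψ
  · rw [corr_cohOpGen_eq_cohT N ℓ hd,
      corr_cohOpGen_eq_cohT (N * q) ℓ (corr_not_dvd_mul N q (ℓ : ℕ) hd hlq)]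
    exact corr_comm_lrl_res N q (ℓ : ℕ) hd hlq ψ

include hℓq in
/-- (B2) twisted restriction commutes with `cohOpGen · ℓ`, `ℓ ≠ q` -/
theorem corr_B2_resEta (ψ : Additive (Gamma0 N) →+ B) :
    (lrl_resEta N q).op (cohOpGen N ℓ ψ) = cohOpGen (N * q) ℓ ((lrl_resEta N q).op ψ) := by
  have : Fact (ℓ : ℕ).Prime := ⟨ℓ.2⟩
  have : NeZero (ℓ : ℕ) := ⟨ℓ.2.ne_zero⟩
  have hlq := corr_B2_not_dvd q ℓ hℓq
  by_cases hd : (ℓ : ℕ) ∣ N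
  · rw [corr_cohOpGen_eq_cohU N ℓ hd, corr_cohOpGen_eq_cohU (N * q) ℓ (Dvd.dvd.mul_right hd q)]
    exact corr_commU_lrl_resEta N q (ℓ : ℕ) hd hlq ψ
  · rw [corr_cohOpGen_eq_cohT N ℓ hd,
      corr_cohOpGen_eq_cohT (N * q) ℓ (corr_not_dvd_mul N q (ℓ : ℕ) hd hlq)]
    exact corr_comm_lrl_resEta N q (ℓ : ℕ) hd hlq ψ

include hℓq in
/-- (B2) transfer commutes with `cohOpGen · ℓ`, `ℓ ≠ q` -/
theorem corr_B2_cores (χ : Additive (Gamma0 (N * q)) →+ B) :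
    (lrl_cores N q hqN).op (cohOpGen (N * q) ℓ χ) = cohOpGen N ℓ ((lrl_cores N q hqN).op χ) := by
  have : Fact (ℓ : ℕ).Prime := ⟨ℓ.2⟩
  have : NeZero (ℓ : ℕ) := ⟨ℓ.2.ne_zero⟩
  have hlq := corr_B2_not_dvd q ℓ hℓq
  by_cases hd : (ℓ : ℕ) ∣ N
  · rw [corr_cohOpGen_eq_cohU N ℓ hd, corr_cohOpGen_eq_cohU (N * q) ℓ (Dvd.dvd.mul_right hd q)]
    exact corr_commU_lrl_cores N q hqN (ℓ : ℕ) hd hlq χ
  · rw [corr_cohOpGen_eq_cohT N ℓ hd,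
      corr_cohOpGen_eq_cohT (N * q) ℓ (corr_not_dvd_mul N q (ℓ : ℕ) hd hlq)]
    exact corr_comm_lrl_cores N q hqN (ℓ : ℕ) hd hlq χ

include hℓq in
/-- (B2) twisted transfer commutes with `cohOpGen · ℓ`, `ℓ ≠ q` -/
theorem corr_B2_coresEta (χ : Additive (Gamma0 (N * q)) →+ B) :
    (lrl_coresEta N q hqN).op (cohOpGen (N * q) ℓ χ) =
      cohOpGen N ℓ ((lrl_coresEta N q hqN).op χ) := by
  have : Fact (ℓ : ℕ).Prime := ⟨ℓ.2⟩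
  have : NeZero (ℓ : ℕ) := ⟨ℓ.2.ne_zero⟩
  have hlq := corr_B2_not_dvd q ℓ hℓq
  by_cases hd : (ℓ : ℕ) ∣ N
  · rw [corr_cohOpGen_eq_cohU N ℓ hd, corr_cohOpGen_eq_cohU (N * q) ℓ (Dvd.dvd.mul_right hd q)]
    exact corr_commU_lrl_coresEta N q hqN (ℓ : ℕ) hd hlq χ
  · rw [corr_cohOpGen_eq_cohT N ℓ hd,
      corr_cohOpGen_eq_cohT (N * q) ℓ (corr_not_dvd_mul N q (ℓ : ℕ) hd hlq)]
    exact corr_comm_lrl_coresEta N q hqN (ℓ : ℕ) hd hlq χ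

end B2

end Fermat.Agent.S41x
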