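/-
S41 project (level raising), block B, row (B2) in the architect's notation (LRBase / CohLevelDefs):
the four level maps `lrRes`, `lrResEta`, `lrCores`, `lrCoresEta` commute with `lrT · ℓ`
(`T_ℓ` if `ℓ ∤ N`, `U_ℓ` if `ℓ ∣ N`) for EVERY prime `ℓ ≠ q`.  (helper54)

Pure restatement of `corr_B2_res / corr_B2_resEta / corr_B2_cores / corr_B2_coresEta`
(`CorrCommFinal.lean`) through `lrl_res_op`, `lrl_resEta_op`, `lrCores_def`, `lrCoresEta_def`.
-/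
import Fermat.Agent.S41x.CohLevelDefs
import Fermat.Agent.S41x.CorrCommFinal

set_option autoImplicit false

namespace Fermat.Agent.S41x

open scoped MatrixGroups
open Fermat.Agent.S16x CongruenceSubgroup

section B2

variable (N q : ℕ) [NeZero N] [NeZero (N * q)] [Fact q.Prime] (hqN : ¬ q ∣ N)
  (ℓ : Nat.Primes) (hℓq : (ℓ : ℕ) ≠ q) {B : Type*} [AddCommGroup B]

include hℓq

/-- (B2) `lrRes` commutes with `T_ℓ` / `U_ℓ`, every prime `ℓ ≠ q` -/
theorem lrb2_res (ψ : Additive (Gamma0 N) →+ B) :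
    lrRes N q (lrT N ℓ ψ) = lrT (N * q) ℓ (lrRes N q ψ) := by
  rw [← lrl_res_op, ← lrl_res_op]
  exact corr_B2_res N q ℓ hℓq ψ

/-- (B2) `lrResEta` commutes with `T_ℓ` / `U_ℓ`, every prime `ℓ ≠ q` -/
theorem lrb2_resEta (ψ : Additive (Gamma0 N) →+ B) :
    lrResEta N q (lrT N ℓ ψ) = lrT (N * q) ℓ (lrResEta N q ψ) := by
  rw [← lrl_resEta_op, ← lrl_resEta_op]
  exact corr_B2_resEta N q ℓ hℓq ψ

/-- (B2) `lrCores` commutes with `T_ℓ` / `U_ℓ`, every prime `ℓ ≠ q` -/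
theorem lrb2_cores (χ : Additive (Gamma0 (N * q)) →+ B) :
    lrCores N q hqN (lrT (N * q) ℓ χ) = lrT N ℓ (lrCores N q hqN χ) := by
  rw [lrCores_def, lrCores_def]
  exact corr_B2_cores N q hqN ℓ hℓq χ

/-- (B2) `lrCoresEta` commutes with `T_ℓ` / `U_ℓ`, every prime `ℓ ≠ q` -/
theorem lrb2_coresEta (χ : Additive (Gamma0 (N * q)) →+ B) :
    lrCoresEta N q hqN (lrT (N * q) ℓ χ) = lrT N ℓ (lrCoresEta N q hqN χ) := by
  rw [lrCoresEta_def, lrCoresEta_def]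
  exact corr_B2_coresEta N q hqN ℓ hℓq χ

/-- consequence: `ker β = ker lrCores ∩ ker lrCoresEta` is stable under `lrT (N q) ℓ`, `ℓ ≠ q` -/
theorem lrb2_ker_stable (χ : Additive (Gamma0 (N * q)) →+ B)
    (h1 : lrCores N q hqN χ = 0) (h2 : lrCoresEta N q hqN χ = 0) :
    lrCores N q hqN (lrT (N * q) ℓ χ) = 0 ∧ lrCoresEta N q hqN (lrT (N * q) ℓ χ) = 0 := by
  refine ⟨?_, ?_⟩
  · rw [lrb2_cores N q hqN ℓ hℓq, h1, map_zero]
  · rw [lrb2_coresEta N q hqN ℓ hℓq, h2, map_zero]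

end B2

end Fermat.Agent.S41x
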