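/-
S41 project (level raising), block B (COH-LEVEL), row B3 (helper1).

`U_q² = 1` on the `q`-new part `ker β` of `Hom(Γ₀(N q), B)` (`q` prime, `q ∤ N`, `B` any abelian
group), in the official names (`lrCores`, `lrCoresEta`, `lrPrime` of helper27's `CohLevelDefs.lean`, `lrRes`,
`lrResEta`, `lrT` of helper20's `LRBase.lean`).

* `lb3_ofLrc`, `lb3_ofLrc_op` : an `lrc_Corr` is a `CorrDatum` with the same operator;
* `lb3_op_eq_of_cosets` : two `CorrDatum` with the same cosets have the same operator;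
* `lb3_W N q hqN` : the Atkin–Lehner operator `W_q` on `Hom(Γ₀(N q), B)`;
* `lb3_W_W` : `W_q² = 1`;
* `lb3_cores_eq`, `lb3_coresEta_eq` : `cores = cg0_cores`, `coresEta = cores ∘ W_q`;
* `lb3_cores_W`, `lb3_coresEta_W` : `cores ∘ W_q = coresEta`, `coresEta ∘ W_q = cores`;
* `lb3_res_coresEta` : `res ∘ coresEta = U_q + W_q`;
* `lb3_res_cores` : `res ∘ cores = 1 + U_q ∘ W_q`;
* `lb3_resEta_eq` : `resEta = W_q ∘ res`;
* `lb3_main` : the B3 statement of PLAN v1.
-/
import Fermat.Agent.S41x.CorrIdent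
import Fermat.Agent.S41x.CohLevelDefs

set_option autoImplicit false

namespace Fermat.Agent.S41x

open scoped MatrixGroups
open CongruenceSubgroup Matrix.SpecialLinearGroup
open Fermat.Agent.S16x

/-! ### general bridges -/

/-- an `lrc_Corr` is a `CorrDatum` (same fields, groups in the other order) -/
def lb3_ofLrc {Γ' Γ : Subgroup SL(2, ℤ)} {I : Type} (E : lrc_Corr Γ' Γ I) : CorrDatum Γ Γ' I where
  A := E.A
  det_ne := E.det_ne
  rel := E.rel
  distinct := E.distinct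

theorem lb3_ofLrc_op {Γ' Γ : Subgroup SL(2, ℤ)} {I : Type} [Fintype I] {B : Type*}
    [AddCommGroup B] (E : lrc_Corr Γ' Γ I) (ψ : Additive Γ' →+ B) :
    (lb3_ofLrc E).op ψ = E.op ψ := by
  refine AddMonoidHom.ext fun γ => ?_
  obtain ⟨γ, rfl⟩ := Additive.ofMul.surjective γ
  rw [lrc_Corr.op_apply]
  exact (lb3_ofLrc E).op_apply_of ψ (τ := E.idx γ) (h := E.elt γ) (fun i => E.elt_spec γ i)

/-- two correspondences with the same cosets (up to a scalar) have the same operator -/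
theorem lb3_op_eq_of_cosets {Γ₁ Γ₂ : Subgroup SL(2, ℤ)} {I J : Type} [Fintype I] [Fintype J]
    {B : Type*} [AddCommGroup B] (D : CorrDatum Γ₁ Γ₂ I) (E : CorrDatum Γ₁ Γ₂ J)
    (e : J → I) (g : J → Γ₂) (c : ℤ) (hc : c ≠ 0)
    (hM : ∀ j, E.A j = c • (cohMat (g j) * D.A (e j)))
    (hcard : Fintype.card I ≤ Fintype.card J) (ψ : Additive Γ₂ →+ B) :
    D.op ψ = E.op ψ := by
  have hinj : Function.Injective e := by
    intro j j' hjj
    refine E.distinct j j' (g j * (g j')⁻¹) ?_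
    rw [hM j, hM j', hjj, Matrix.mul_smul, cohMat_mul, Matrix.mul_assoc, ← Matrix.mul_assoc _ _ (D.A (e j')),
      cohMat_inv_mul, Matrix.one_mul]
  have hbij : Function.Bijective e :=
    (Fintype.bijective_iff_injective_and_card e).mpr
      ⟨hinj, le_antisymm (Fintype.card_le_of_injective e hinj) hcard⟩
  refine AddMonoidHom.ext fun γ => ?_
  obtain ⟨γ, rfl⟩ := Additive.ofMul.surjective γ
  rw [E.op_apply]
  exact D.op_apply_of_family ψ (Equiv.ofBijective e hbij) g c hc E.A hM (E.idx γ) (E.elt γ)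
    (fun j => E.elt_spec γ j)

/-! ### the concrete comparison -/

section concrete

variable (N q : ℕ) [Fact q.Prime] (hqN : ¬ q ∣ N) {B : Type*} [AddCommGroup B]

/-- the Bezout data of `CohLevel.lean` as a `cg0_Bez` -/
noncomputable def lb3_bez : cg0_Bez N q where
  u := lrl_u N q hqN
  v := -lrl_v N q hqN
  bez := by linear_combination lrl_uv N q hqN

theorem lb3_q_ne_zero : q ≠ 0 := (Fact.out : q.Prime).ne_zero

/-- the Atkin–Lehner operator `W_q` on `Hom(Γ₀(N q), B)` -/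
noncomputable def lb3_W :
    (Additive (Gamma0 (N * q)) →+ B) →+ (Additive (Gamma0 (N * q)) →+ B) :=
  cg0_W N q (lb3_bez N q hqN) (lb3_q_ne_zero q)

/-- `W_q² = 1` -/
theorem lb3_W_W (χ : Additive (Gamma0 (N * q)) →+ B) :
    lb3_W N q hqN (lb3_W N q hqN χ) = χ :=
  cg0_W_W N q (lb3_bez N q hqN) (lb3_q_ne_zero q) χ

theorem lb3_card : Fintype.card (OnePoint (ZMod q)) = q + 1 := by
  rw [show Fintype.card (OnePoint (ZMod q)) = Fintype.card (Option (ZMod q)) from rfl,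
    Fintype.card_option, ZMod.card]

/-- helper27's transfer is the transfer `cg0_cores` -/
theorem lb3_cores_eq (χ : Additive (Gamma0 (N * q)) →+ B) :
    lrCores N q hqN χ = cg0_cores N q (lb3_bez N q hqN) hqN χ := by
  rw [lrCores_def]
  set bz := lb3_bez N q hqN with hbz
  rw [← lb3_ofLrc_op]
  symm
  unfold cg0_cores
  -- the reindexing: `x ↦ pt (g_x)`
  have hdvd : ∀ x, (N : ℤ) ∣ (cohMat (lrl_g N q hqN x)) 1 0 := fun x =>
    cg0_mem_Gamma0_iff.mp (lrl_g N q hqN x).2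
  have hX : ∀ x, ∃ γ' : Gamma0 (N * q),
      cohMat γ' * cg0_rep N q bz (cg0_pt q (cohMat (lrl_g N q hqN x)))
        = cohMat (lrl_g N q hqN x) := by
    intro x
    set G := cohMat (lrl_g N q hqN x) with hG
    have h1 : (1 : Matrix (Fin 2) (Fin 2) ℤ) * G = G * cohMat (1 : Gamma0 N) := by
      rw [cohMat_one, Matrix.one_mul, Matrix.mul_one]
    obtain ⟨γ', hγ'⟩ := cg0_exists_rel (K := N * q) (1 : Gamma0 N)
      (X := G * (cg0_rep N q bz (cg0_pt q G)).adjugate) (M := G)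
      (M' := cg0_rep N q bz (cg0_pt q G))
      (by rw [cg0_rep_det, hG]; exact lrl_cohMat_det _)
      (by rw [hG, lrl_cohMat_det]; exact one_ne_zero)
      (by rw [Matrix.mul_assoc, Matrix.adjugate_mul, cg0_rep_det, one_smul, Matrix.mul_one,
        cohMat_one, Matrix.mul_one])
      (cg0_pt_spec N q bz G (hdvd x))
    refine ⟨γ', ?_⟩
    rw [hγ', cohMat_one, Matrix.mul_one]
  choose g hg using hX
  refine lb3_op_eq_of_cosets (cg0_datumCores N q bz hqN) (lb3_ofLrc (lrl_cores N q hqN))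
    (fun x => cg0_pt q (cohMat (lrl_g N q hqN x))) g 1 one_ne_zero ?_ le_rfl χ
  intro x
  rw [one_smul]
  exact (hg x).symm

/-- the matrix `W * A_∞⁻¹` -/
noncomputable def lb3_gInfMat : Matrix (Fin 2) (Fin 2) ℤ :=
  !![(q : ℤ) * lrl_u N q hqN ^ 2 - lrl_v N q hqN * N, lrl_v N q hqN * (1 - lrl_u N q hqN);
     (N : ℤ) * q * (lrl_u N q hqN - 1), (q : ℤ) - N * lrl_v N q hqN]

theorem lb3_gInfMat_det : (lb3_gInfMat N q hqN).det = 1 := by
  simp only [lb3_gInfMat, Matrix.det_fin_two_of]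
  linear_combination (lrl_u N q hqN * q - lrl_v N q hqN * N + 1) * lrl_uv N q hqN

/-- `W * A_∞⁻¹` as an element of `Γ₀(N q)` -/
noncomputable def lb3_gInf : Gamma0 (N * q) :=
  ⟨⟨lb3_gInfMat N q hqN, lb3_gInfMat_det N q hqN⟩, cg0_mem_Gamma0_iff.mpr
    ⟨lrl_u N q hqN - 1, by simp [lb3_gInfMat]⟩⟩

@[simp] theorem lb3_cohMat_gInf : cohMat (lb3_gInf N q hqN) = lb3_gInfMat N q hqN := rfl

theorem lb3_Wmat_eq :
    cg0_Wmat N q (lb3_bez N q hqN) = lb3_gInfMat N q hqN * lrl_AEta N q hqN OnePoint.infty := by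
  have huv := lrl_uv N q hqN
  rw [lrl_AEta_infty]
  ext a b
  fin_cases a <;> fin_cases b <;>
    simp [cg0_Wmat, lb3_bez, lb3_gInfMat, Matrix.mul_apply, Fin.sum_univ_two]
  · linear_combination (-(q : ℤ) * lrl_u N q hqN) * huv
  · linear_combination (-lrl_v N q hqN) * huv
  · linear_combination (-(N : ℤ) * q) * huv
  · linear_combination (-(q : ℤ)) * huv

/-- helper27's twisted transfer is `cores ∘ W_q` -/
theorem lb3_coresEta_eq (χ : Additive (Gamma0 (N * q)) →+ B) :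
    lrCoresEta N q hqN χ
      = cg0_cores N q (lb3_bez N q hqN) hqN (lb3_W N q hqN χ) := by
  rw [lrCoresEta_def]
  set bz := lb3_bez N q hqN with hbz
  have hq0 : q ≠ 0 := lb3_q_ne_zero q
  rw [← lb3_ofLrc_op]
  refine AddMonoidHom.ext fun γ => ?_
  obtain ⟨γ, rfl⟩ := Additive.ofMul.surjective γ
  set Dc := cg0_datumCores N q bz hqN with hDc
  set DW := cg0_datumW N q bz hq0 with hDW
  have key := (lb3_ofLrc (lrl_coresEta N q hqN)).op_apply_of_family χ (γ := γ)
    (J := OnePoint (ZMod q)) (Equiv.refl _)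
    (fun x => x.elim (lb3_gInf N q hqN) (fun _ => cg0_g1 N q bz)) 1 one_ne_zero
    (fun x => cg0_Wmat N q bz * cg0_rep N q bz x)
    (by
      intro x
      rw [one_smul]
      induction x using OnePoint.rec with
      | infty =>
        show cg0_Wmat N q bz * 1 = lb3_gInfMat N q hqN * lrl_AEta N q hqN OnePoint.infty
        rw [Matrix.mul_one, lb3_Wmat_eq]
      | coe j =>
        show cg0_Wmat N q bz * cg0_repMat N q bz (j.val : ℤ) = cg0_g1Mat N q bz * cohMatFin q j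
        exact cg0_Wmat_mul_rep N q bz hq0 j)
    (fun x => Dc.idx γ x)
    (fun x => DW.elt (Dc.elt γ x) ())
    (by
      intro x
      rw [← Matrix.mul_assoc, cg0_W_elt_spec, Matrix.mul_assoc, Matrix.mul_assoc]
      congr 1
      exact Dc.elt_spec γ x)
  rw [key, cg0_cores_apply]
  refine Finset.sum_congr rfl fun x _ => ?_
  unfold lb3_W
  rw [cg0_W_apply]

/-- `cores ∘ W_q = coresEta` -/
theorem lb3_cores_W (χ : Additive (Gamma0 (N * q)) →+ B) :
    lrCores N q hqN (lb3_W N q hqN χ) = lrCoresEta N q hqN χ := by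
  rw [lb3_coresEta_eq, lb3_cores_eq]

/-- `coresEta ∘ W_q = cores` -/
theorem lb3_coresEta_W (χ : Additive (Gamma0 (N * q)) →+ B) :
    lrCoresEta N q hqN (lb3_W N q hqN χ) = lrCores N q hqN χ := by
  rw [lb3_coresEta_eq, lb3_W_W, lb3_cores_eq]

omit [Fact q.Prime] in
/-- `lrRes` is `cg0_res` -/
theorem lb3_res_eq (ψ : Additive (Gamma0 N) →+ B) : lrRes N q ψ = cg0_res N q ψ := by
  refine AddMonoidHom.ext fun γ => ?_
  obtain ⟨γ, rfl⟩ := Additive.ofMul.surjective γ
  rw [cg0_res_apply, lrRes_apply]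
  rfl

omit [Fact q.Prime] in
theorem lb3_etaMat_eq : lrEtaMat q = cohMatInf q := rfl

/-- `cohOpGen` at a prime dividing the level is `cohU` -/
theorem lb3_cohOpGen_eq_cohU (M : ℕ) [NeZero M] (ℓ : Nat.Primes) [NeZero (ℓ : ℕ)]
    (hd : (ℓ : ℕ) ∣ M) (ψ : Additive (Gamma0 M) →+ B) :
    cohOpGen M ℓ ψ = cohU M (ℓ : ℕ) hd ψ := by
  unfold cohOpGen cohU
  rw [← CorrDatum.ofCoh_op, ← CorrDatum.ofCoh_op]
  symm
  refine lb3_op_eq_of_cosets (CorrDatum.ofCoh (cohDatumU M (ℓ : ℕ) hd))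
    (CorrDatum.ofCoh (cohDatumGen M ℓ))
    (fun A => (coh_mem_heckeReps_U hd A.2).choose) (fun _ => 1) 1 one_ne_zero ?_ ?_ ψ
  · intro A
    rw [one_smul, cohMat_one, Matrix.one_mul]
    exact (coh_mem_heckeReps_U hd A.2).choose_spec
  · rw [Fintype.card_coe]
    have hinj : Function.Injective (fun j : ZMod (ℓ : ℕ) =>
        (⟨cohMatFin (ℓ : ℕ) j, cohMatFin_mem_heckeReps M j⟩ : ↥(heckeReps M (ℓ : ℕ)))) := by
      intro j j' h
      have h1 : cohMatFin (ℓ : ℕ) j = cohMatFin (ℓ : ℕ) j' := congrArg Subtype.val h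
      refine (cohDatumU M (ℓ : ℕ) hd).distinct j j' 1 ?_
      rw [cohMat_one, Matrix.one_mul]
      exact h1.symm
    have := Fintype.card_le_of_injective _ hinj
    rwa [Fintype.card_coe] at this

/-- `res ∘ cores = 1 + U_q ∘ W_q` -/
theorem lb3_res_cores [NeZero (N * q)] (χ : Additive (Gamma0 (N * q)) →+ B) :
    lrRes N q (lrCores N q hqN χ)
      = χ + lrT (N * q) (lrPrime q) (lb3_W N q hqN χ) := by
  have : NeZero ((lrPrime q : Nat.Primes) : ℕ) := inferInstanceAs (NeZero q)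
  rw [lb3_res_eq, lb3_cores_eq, cg0_res_cores N q (lb3_bez N q hqN) hqN (lb3_q_ne_zero q) χ]
  congr 1
  exact (lb3_cohOpGen_eq_cohU (N * q) (lrPrime q) (Dvd.intro_left N rfl) _).symm

/-- `res ∘ coresEta = U_q + W_q` -/
theorem lb3_res_coresEta [NeZero (N * q)] (χ : Additive (Gamma0 (N * q)) →+ B) :
    lrRes N q (lrCoresEta N q hqN χ)
      = lrT (N * q) (lrPrime q) χ + lb3_W N q hqN χ := by
  rw [← lb3_cores_W, lb3_res_cores, lb3_W_W, add_comm]

/-- **B3**: on `ker β = ker cores ∩ ker coresEta` the operator `U_q` is an involution, and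
`ker β` is `U_q`-stable; moreover `U_q = -W_q` there. -/
theorem lb3_U_eq_neg_W [NeZero (N * q)] (χ : Additive (Gamma0 (N * q)) →+ B)
    (h2 : lrCoresEta N q hqN χ = 0) :
    lrT (N * q) (lrPrime q) χ = -lb3_W N q hqN χ := by
  have h := lb3_res_coresEta N q hqN χ
  rw [h2, map_zero] at h
  exact eq_neg_of_add_eq_zero_left h.symm

theorem lb3_main [NeZero (N * q)] (χ : Additive (Gamma0 (N * q)) →+ B)
    (h1 : lrCores N q hqN χ = 0) (h2 : lrCoresEta N q hqN χ = 0) :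
    lrT (N * q) (lrPrime q) (lrT (N * q) (lrPrime q) χ) = χ
      ∧ lrCores N q hqN (lrT (N * q) (lrPrime q) χ) = 0
      ∧ lrCoresEta N q hqN (lrT (N * q) (lrPrime q) χ) = 0 := by
  have hU := lb3_U_eq_neg_W N q hqN χ h2
  have hW1 : lrCores N q hqN (lb3_W N q hqN χ) = 0 := by rw [lb3_cores_W, h2]
  have hW2 : lrCoresEta N q hqN (lb3_W N q hqN χ) = 0 := by rw [lb3_coresEta_W, h1]
  have hUW := lb3_U_eq_neg_W N q hqN (lb3_W N q hqN χ) hW2
  refine ⟨?_, ?_, ?_⟩
  · rw [hU, map_neg, hUW, lb3_W_W, neg_neg]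
  · rw [hU, map_neg, hW1, neg_zero]
  · rw [hU, map_neg, hW2, neg_zero]

end concrete

end Fermat.Agent.S41x
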