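/-
S41 (level raising), block E, row E-LIFT = Spec `LRSpec.rbl_exists_lift` (ABS-E2) (helper82).
Deligne–Serre lifting on a lattice, in EXACTLY the shape of `S41x/LRSpec.lean` (section E2):
`Fermat.Agent.S41x.rbl_exists_lift`.  Adapter on top of `S41x/EigenLiftLattice.lean`
(`elf_exists_lift_on`), applied to the index type `κ ⊕ ι`.

Also: `rbl_sq_eq_one` (an operator which is an involution on the lattice has eigenvalue of
square one on the lifted eigenvector).
-/
import Fermat.Agent.S41x.EigenLiftLattice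

set_option autoImplicit false

namespace Fermat.Agent.S41x

open Module

/-- a finitely generated abelian group embedding into a complex vector space is free -/
theorem rbl_free_of_injective {K : Type*} [AddCommGroup K] [Module.Finite ℤ K]
    {V : Type*} [AddCommGroup V] [Module ℂ V] (j : K →+ V) (hj : Function.Injective j) :
    Module.Free ℤ K := by
  have : NoZeroSMulDivisors ℤ K := by
    refine ⟨fun {n x} h => ?_⟩
    by_cases hn : n = 0
    · exact Or.inl hn
    · right
      apply hj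
      have h1 : j (n • x) = 0 := by rw [h, map_zero]
      rw [map_zsmul, ← Int.cast_smul_eq_zsmul ℂ n (j x)] at h1
      have hn' : ((n : ℤ) : ℂ) ≠ 0 := by exact_mod_cast hn
      rw [map_zero]
      exact (smul_eq_zero.mp h1).resolve_left hn'
  exact Module.free_of_finite_type_torsion_free'

/-- **ABS-E2 / E-LIFT** : Deligne–Serre lifting on a lattice (exact shape of
`LRSpec.rbl_exists_lift`). -/
theorem rbl_exists_lift
    {K : Type*} [AddCommGroup K] [Module.Finite ℤ K]
    {V : Type*} [AddCommGroup V] [Module ℂ V]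
    (j : K →+ V) (hj : Function.Injective j)
    {κ : Type*} (SK : κ → K →+ K) (SV : κ → Module.End ℂ V)
    (hcomm : ∀ m n, ∀ w ∈ Submodule.span ℂ (Set.range j), SV m (SV n w) = SV n (SV m w))
    (hjS : ∀ m x, j (SK m x) = SV m (j x))
    (p : ℕ) (hp : p.Prime) {ι : Type*} (e : ι → κ) (a : ι → ℤ)
    (y : K) (hy : ¬ ∃ z, y = (p : ℤ) • z) (hyT : ∀ i, ∃ z, SK (e i) y - a i • y = (p : ℤ) • z) :
    ∃ (w : V) (μ : κ → integralClosure ℤ ℂ) (𝔪' : Ideal (integralClosure ℤ ℂ)),
      w ∈ Submodule.span ℂ (Set.range j) ∧ w ≠ 0 ∧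
      (∀ m, SV m w = ((μ m : integralClosure ℤ ℂ) : ℂ) • w) ∧ 𝔪'.IsMaximal ∧
      (p : integralClosure ℤ ℂ) ∈ 𝔪' ∧ ∀ i, μ (e i) - (a i : integralClosure ℤ ℂ) ∈ 𝔪' := by
  have _hp := hp
  have : Module.Free ℤ K := rbl_free_of_injective j hj
  -- the data on the index type `κ ⊕ ι`
  let idx : κ ⊕ ι → κ := Sum.elim id e
  let T : κ ⊕ ι → Module.End ℤ K := fun s => (SK (idx s)).toIntLinearMap
  let Tc : κ ⊕ ι → Module.End ℂ V := fun s => SV (idx s)
  let emb : K →ₗ[ℤ] V := j.toIntLinearMap
  have hemb : ∀ x, emb x = j x := fun _ => rfl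
  have hT : ∀ s x, T s x = SK (idx s) x := fun _ _ => rfl
  have hW : elf_W emb = Submodule.span ℂ (Set.range j) := by
    unfold elf_W
    congr 1
  have hinj : Function.Injective emb := hj
  have heq : ∀ s x, emb (T s x) = Tc s (emb x) := fun s x => hjS (idx s) x
  have hcommK : ∀ s s', Commute (T s) (T s') := by
    intro s s'
    refine elf_commute_of_emb hinj heq ?_ s s'
    intro s s' w hw
    rw [hW] at hw
    exact hcomm (idx s) (idx s') w hw
  have hy' : ¬ ∃ u : K, y = p • u := by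
    rintro ⟨u, hu⟩
    exact hy ⟨u, by rw [hu, natCast_zsmul]⟩
  obtain ⟨v, c, 𝔪', hv0, hvW, hv, hmax, hpm, hc⟩ :=
    elf_exists_lift_on (T := T) (Tc := Tc) (emb := emb) hcommK hinj heq p (Set.range Sum.inr)
      (Sum.elim (fun _ => 0) a) y hy' (by
        rintro _ ⟨i, rfl⟩
        obtain ⟨z, hz⟩ := hyT i
        exact ⟨z, by rw [hT]; simpa [idx, natCast_zsmul] using hz⟩)
  refine ⟨v, fun m => c (Sum.inl m), 𝔪', hW ▸ hvW, hv0, fun m => hv (Sum.inl m), hmax, hpm, ?_⟩
  intro i
  have h1 := hv (Sum.inr i)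
  have h2 := hv (Sum.inl (e i))
  have h3 : ((c (Sum.inr i) : integralClosure ℤ ℂ) : ℂ) • v =
      ((c (Sum.inl (e i)) : integralClosure ℤ ℂ) : ℂ) • v :=
    h1.symm.trans h2
  have h4 : c (Sum.inr i) = c (Sum.inl (e i)) :=
    Subtype.ext (smul_left_injective ℂ hv0 h3)
  have h5 := hc (Sum.inr i) ⟨i, rfl⟩
  rw [h4] at h5
  simpa using h5

/-- an operator acting as an involution on the lattice has eigenvalue of square one on any
eigenvector in the complex span of the lattice -/
theorem rbl_sq_eq_one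
    {K : Type*} [AddCommGroup K] {V : Type*} [AddCommGroup V] [Module ℂ V]
    (j : K →+ V) (S : K →+ K) (SV : Module.End ℂ V) (hjS : ∀ x, j (S x) = SV (j x))
    (hsq : ∀ x, S (S x) = x) {w : V} (hw : w ∈ Submodule.span ℂ (Set.range j)) (hw0 : w ≠ 0)
    {c : integralClosure ℤ ℂ} (hc : SV w = ((c : integralClosure ℤ ℂ) : ℂ) • w) :
    c ^ 2 = 1 := by
  have hW : elf_W j.toIntLinearMap = Submodule.span ℂ (Set.range j) := by
    unfold elf_W
    congr 1
  exact elf_sq_eq_one (T := fun _ : Unit => S.toIntLinearMap) (Tc := fun _ : Unit => SV)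
    (emb := j.toIntLinearMap) (fun _ x => hjS x) () hsq (hW ▸ hw) hw0 hc

end Fermat.Agent.S41x
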