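import Fermat.Agent.S41x.TopOut
import Fermat.Agent.S41x.RibetLift
import Fermat.Agent.S41x.LRTopDefs
import Fermat.Agent.S41x.CohLevelB2
import Fermat.Agent.S41x.CohLevelB3
import Fermat.Prelude.Def_FLTPrelim_ModularRep
import Fermat.Prelude.Def_FreyPackage_LevelRaising

/-!
# S41 block E, TOP: STEP 4-5 in the exact shape of `LRTopSpec.top_step45`

`tpo_step45`: from `y ∈ ker β ⊆ lrL (N q)`, `y ∉ p · lrL (N q)`, `T_ℓ y ≡ a_ℓ(W) y (mod p ker β)` for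
the good primes `ℓ ∤ N q p`, to the conclusion of S41: a normalised eigenform `g` of level `N q`,
congruent to `W` modulo a maximal ideal over `p`, new at `q`.

Ingredients: `tpo_out_of_lift` (this row), `rbl_exists_lift` (helper82, Deligne–Serre lifting),
`lrb2_ker_stable` (B2) and `lb3_main` (B3), `esb_out` (helper95).
-/

set_option autoImplicit false

open scoped MatrixGroups
open CongruenceSubgroup ModularCurve ModularCurve.Period ModularFormClass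
open WeierstrassCurve WeierstrassCurve.Affine WeierstrassCurve.Affine.Point

namespace Fermat.Agent.S41x

/-- `LRSpec.rbl_exists_lift` holds (helper82's `rbl_exists_lift`). -/
theorem tpo_liftProp : tpo_LiftProp := by
  intro K _ _ V _ _ j hj κ SK SV hcomm hjS p hp ι e a y hy hyT
  exact rbl_exists_lift j hj SK SV hcomm hjS p hp e a y hy hyT

/-- Unconditional version of `tpo_out_of_lift`. -/
theorem tpo_out (M : ℕ) [NeZero M]
    (K : Submodule ℤ (Additive (Gamma0 M) →+ ℤ)) (hK : K ≤ lrL M)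
    (hstab : ∀ m : Nat.Primes, ∀ x ∈ K, lrT M m x ∈ K)
    (q : Nat.Primes) (hU : ∀ x ∈ K, lrT M q (lrT M q x) = x)
    (p : ℕ) (hp : p.Prime) (S : Set Nat.Primes) (a : Nat.Primes → ℤ)
    (y : Additive (Gamma0 M) →+ ℤ) (hyK : y ∈ K)
    (hy : ¬ ∃ z ∈ K, y = (p : ℤ) • z)
    (hyT : ∀ ℓ ∈ S, ∃ z ∈ K, lrT M ℓ y - a ℓ • y = (p : ℤ) • z) :
    ∃ (g : CuspForm (Gamma0 M) 2) (𝔪' : Ideal (integralClosure ℤ ℂ)),
      g.IsNormalizedEigenform ∧ 𝔪'.IsMaximal ∧ (p : integralClosure ℤ ℂ) ∈ 𝔪' ∧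
      (∀ ℓ ∈ S, ∃ c : integralClosure ℤ ℂ, (c : ℂ) = qCoeff g (ℓ : ℕ) ∧
        c - (a ℓ : integralClosure ℤ ℂ) ∈ 𝔪') ∧
      qCoeff g (q : ℕ) ^ 2 = 1 :=
  tpo_out_of_lift M tpo_liftProp K hK hstab q hU p hp S a y hyK hy hyT

/-- **STEP 4-5** (exact shape of `LRTopSpec.top_step45`, `topGood` unfolded). -/
theorem tpo_step45 {W : WeierstrassCurve ℤ} {p N q : ℕ} [NeZero N] [Fact q.Prime] (hp : p.Prime)
    (hqN : ¬ q ∣ N)
    (y : lrL (N * q)) (hy1 : lrtCores N q hqN y = 0) (hy2 : lrtCoresEta N q hqN y = 0)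
    (hy : ¬ ∃ z : lrL (N * q), y = (p : ℤ) • z)
    (hyT : ∀ ℓ : Nat.Primes, (W.IsGoodPrimeFor ℓ ∧ ¬ (ℓ : ℕ) ∣ N * q ∧ (ℓ : ℕ) ≠ p) →
        ∃ z : lrL (N * q), lrtCores N q hqN z = 0 ∧ lrtCoresEta N q hqN z = 0 ∧
          lrtT (N * q) ℓ y - (W.apOfModel ℓ : ℤ) • y = (p : ℤ) • z) :
    ∃ (g : CuspForm (Gamma0 (N * q)) 2) (𝔪' : Ideal (integralClosure ℤ ℂ)),
      g.IsNormalizedEigenform ∧ 𝔪'.IsMaximal ∧ (p : integralClosure ℤ ℂ) ∈ 𝔪' ∧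
      (∀ ℓ : ℕ, ℓ.Prime → W.IsGoodPrimeFor ℓ → ¬ ℓ ∣ N * q → ℓ ≠ p →
        ∃ a : integralClosure ℤ ℂ, (a : ℂ) = ModularFormClass.qCoeff g ℓ ∧
          a - ((W.apOfModel ℓ : ℤ) : integralClosure ℤ ℂ) ∈ 𝔪') ∧
      g.IsNewAt q := by
  classical
  -- the sublattice `K = ker β`
  let K : Submodule ℤ (Additive (Gamma0 (N * q)) →+ ℤ) :=
    { carrier := {x | x ∈ lrL (N * q) ∧ lrCores N q hqN x = 0 ∧ lrCoresEta N q hqN x = 0}
      zero_mem' := ⟨(lrL (N * q)).zero_mem, map_zero _, map_zero _⟩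
      add_mem' := fun {x x'} hx hx' =>
        ⟨(lrL (N * q)).add_mem hx.1 hx'.1, by rw [map_add, hx.2.1, hx'.2.1, add_zero],
          by rw [map_add, hx.2.2, hx'.2.2, add_zero]⟩
      smul_mem' := fun c x hx =>
        ⟨(lrL (N * q)).smul_mem c hx.1, by rw [map_zsmul, hx.2.1, smul_zero],
          by rw [map_zsmul, hx.2.2, smul_zero]⟩ }
  have hKmem : ∀ x, x ∈ K ↔
      x ∈ lrL (N * q) ∧ lrCores N q hqN x = 0 ∧ lrCoresEta N q hqN x = 0 := fun _ => Iff.rfl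
  have hK : K ≤ lrL (N * q) := fun x hx => hx.1
  have hstab : ∀ m : Nat.Primes, ∀ x ∈ K, lrT (N * q) m x ∈ K := by
    intro m x hx
    refine ⟨mem_parabolicHoms_iff.mpr
      (lrT_isParabolicHom (N * q) m (mem_parabolicHoms_iff.mp hx.1)), ?_⟩
    by_cases hm : (m : ℕ) = q
    · have hmq : m = lrPrime q := Subtype.ext hm
      rw [hmq]
      exact (lb3_main N q hqN x hx.2.1 hx.2.2).2
    · exact lrb2_ker_stable N q hqN m hm x hx.2.1 hx.2.2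
  have hU : ∀ x ∈ K, lrT (N * q) (lrPrime q) (lrT (N * q) (lrPrime q) x) = x :=
    fun x hx => (lb3_main N q hqN x hx.2.1 hx.2.2).1
  have hyK : y.1 ∈ K :=
    ⟨y.2, congrArg Subtype.val hy1, congrArg Subtype.val hy2⟩
  have hy' : ¬ ∃ z ∈ K, y.1 = (p : ℤ) • z := by
    rintro ⟨z, hz, hyz⟩
    exact hy ⟨⟨z, hz.1⟩, Subtype.ext hyz⟩
  let S : Set Nat.Primes :=
    {ℓ | W.IsGoodPrimeFor ℓ ∧ ¬ (ℓ : ℕ) ∣ N * q ∧ (ℓ : ℕ) ≠ p}
  have hyT' : ∀ ℓ ∈ S, ∃ z ∈ K,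
      lrT (N * q) ℓ y.1 - (fun ℓ : Nat.Primes => (W.apOfModel ℓ : ℤ)) ℓ • y.1 = (p : ℤ) • z := by
    intro ℓ hℓ
    obtain ⟨z, hz1, hz2, hz⟩ := hyT ℓ hℓ
    exact ⟨z.1, ⟨z.2, congrArg Subtype.val hz1, congrArg Subtype.val hz2⟩,
      congrArg Subtype.val hz⟩
  obtain ⟨g, 𝔪', hg, hmax, hpm, hcong, hnew⟩ :=
    tpo_out (N * q) K hK hstab (lrPrime q) hU p hp S
      (fun ℓ : Nat.Primes => (W.apOfModel ℓ : ℤ)) y.1 hyK hy' hyT'
  refine ⟨g, 𝔪', hg, hmax, hpm, fun ℓ hℓ hgood hℓNq hℓp => ?_, hnew⟩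
  exact hcong ⟨ℓ, hℓ⟩ ⟨hgood, hℓNq, hℓp⟩

end Fermat.Agent.S41x
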