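import Fermat.Agent.S41x.RibetAlgCoreMod

/-!
# S41 block E: the abstract Ribet lemma over `ℤ`-lattices, in the shape of `LRSpec.rba_main`

`rba_main_perfect` is `LRSpec.rba_main` verbatim, except that the pairing `BX` is assumed to be
perfect (`hBX : Function.Bijective fun x => BX.flip x`, as exported by block C for every level)
instead of merely nondegenerate.  It is a specialisation of `rba_ribet_main_mod` to `O = ℤ`,
`𝔪 = (p)`.
-/

set_option autoImplicit false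

namespace Fermat.Agent.S41x

open Module

section Z

/-- membership in `(p) M` for a `ℤ`-module. -/
theorem rba_mem_span_smul_top_iff {M : Type*} [AddCommGroup M] (p : ℤ) (x : M) :
    x ∈ Ideal.span {p} • (⊤ : Submodule ℤ M) ↔ ∃ z : M, x = p • z := by
  rw [Submodule.ideal_span_singleton_smul]
  constructor
  · rintro ⟨z, -, hz⟩
    exact ⟨z, hz.symm⟩
  · rintro ⟨z, rfl⟩
    exact ⟨z, Submodule.mem_top, rfl⟩

theorem rba_prod_mem_span_smul_top_iff {M : Type*} [AddCommGroup M] (p : ℤ) (x : M × M) :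
    x ∈ Ideal.span {p} • (⊤ : Submodule ℤ (M × M)) ↔
      (∃ z : M, x.1 = p • z) ∧ (∃ z : M, x.2 = p • z) := by
  rw [rba_mem_span_smul_top_iff]
  constructor
  · rintro ⟨z, rfl⟩
    exact ⟨⟨z.1, rfl⟩, ⟨z.2, rfl⟩⟩
  · rintro ⟨⟨z1, h1⟩, ⟨z2, h2⟩⟩
    exact ⟨(z1, z2), Prod.ext h1 h2⟩

/-- left-bijectivity from right-bijectivity for finite free modules. -/
theorem rba_bijective_of_flip_bijective {M : Type*} [AddCommGroup M] [Module.Finite ℤ M]
    [Module.Free ℤ M] (B : M →ₗ[ℤ] M →ₗ[ℤ] ℤ) (h : Function.Bijective (fun y : M => B.flip y)) :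
    Function.Bijective B := by
  have h' : Function.Bijective B.flip := h
  have := LinearMap.IsPerfPair.of_bijective B.flip h'
  have h2 := LinearMap.IsPerfPair.bijective_right B.flip
  rwa [LinearMap.flip_flip] at h2

/-- the orthogonal sum of a perfect pairing with itself is perfect. -/
theorem rba_prod_bijective {M : Type*} [AddCommGroup M] (B : M →ₗ[ℤ] M →ₗ[ℤ] ℤ)
    (h : Function.Bijective B) :
    Function.Bijective ((B.compl₁₂ (LinearMap.fst ℤ M M) (LinearMap.fst ℤ M M) +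
      B.compl₁₂ (LinearMap.snd ℤ M M) (LinearMap.snd ℤ M M) :
        (M × M) →ₗ[ℤ] (M × M) →ₗ[ℤ] ℤ)) := by
  constructor
  · rw [injective_iff_map_eq_zero]
    intro x hx
    have h1 : B x.1 = 0 := by
      apply LinearMap.ext
      intro c
      have := congrArg (fun f => f (c, (0 : M))) hx
      simpa using this
    have h2 : B x.2 = 0 := by
      apply LinearMap.ext
      intro c
      have := congrArg (fun f => f ((0 : M), c)) hx
      simpa using this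
    exact Prod.ext (h.1 (h1.trans (map_zero B).symm)) (h.1 (h2.trans (map_zero B).symm))
  · intro f
    obtain ⟨x1, hx1⟩ := h.2 (f ∘ₗ LinearMap.inl ℤ M M)
    obtain ⟨x2, hx2⟩ := h.2 (f ∘ₗ LinearMap.inr ℤ M M)
    refine ⟨(x1, x2), ?_⟩
    apply LinearMap.ext
    rintro ⟨c1, c2⟩
    have e1 := congrArg (fun g => g c1) hx1
    have e2 := congrArg (fun g => g c2) hx2
    simp only [LinearMap.comp_apply, LinearMap.inl_apply, LinearMap.inr_apply] at e1 e2
    simp only [LinearMap.add_apply, LinearMap.compl₁₂_apply, LinearMap.fst_apply,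
      LinearMap.snd_apply]
    rw [e1, e2, ← map_add]
    simp

/-- **Abstract Ribet lemma over `ℤ`** (`LRSpec.rba_main` with `BX` perfect). -/
theorem rba_main_perfect
    {R : Type*} [CommRing R]
    {X Y : Type*} [AddCommGroup X] [AddCommGroup Y] [Module R X] [Module R Y]
    [Module.Finite ℤ X] [Module.Free ℤ X] [Module.Finite ℤ Y] [Module.Free ℤ Y]
    {ι : Type*} (τ : ι → R)
    (α₁ α₂ : X →ₗ[R] Y) (β₁ β₂ : Y →ₗ[R] X) (Tq : X →ₗ[R] X) (q : ℕ)
    (h11 : ∀ x, β₁ (α₁ x) = ((q : ℤ) + 1) • x) (h22 : ∀ x, β₂ (α₂ x) = ((q : ℤ) + 1) • x)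
    (h12 : ∀ x, β₁ (α₂ x) = Tq x) (h21 : ∀ x, β₂ (α₁ x) = Tq x)
    (BX : X →ₗ[ℤ] X →ₗ[ℤ] ℤ) (BY : Y →ₗ[ℤ] Y →ₗ[ℤ] ℤ)
    (hBX : Function.Bijective (fun x : X => BX.flip x))
    (hBY : Function.Bijective (fun y : Y => BY.flip y))
    (hadj₁ : ∀ x y, BY (α₁ x) y = BX x (β₁ y)) (hadj₂ : ∀ x y, BY (α₂ x) y = BX x (β₂ y))
    (hself : ∀ i y y', BY (τ i • y) y' = BY y (τ i • y'))
    (p : ℕ) (hp : p.Prime) (a : ι → ℤ) (ε : ℤ) (hε : ε = 1 ∨ ε = -1)
    (hIhara : ∀ x₁ x₂ : X, (∀ i, ∃ z, τ i • x₁ - a i • x₁ = (p : ℤ) • z) →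
        (∀ i, ∃ z, τ i • x₂ - a i • x₂ = (p : ℤ) • z) → (∃ y, α₁ x₁ + α₂ x₂ = (p : ℤ) • y) →
        (∃ z, x₁ = (p : ℤ) • z) ∧ (∃ z, x₂ = (p : ℤ) • z))
    (v : X) (hv : ¬ ∃ z, v = (p : ℤ) • z) (hvT : ∀ i, ∃ z, τ i • v - a i • v = (p : ℤ) • z)
    (hvq : ∃ z, Tq v - (ε * ((q : ℤ) + 1)) • v = (p : ℤ) • z) :
    ∃ y : Y, β₁ y = 0 ∧ β₂ y = 0 ∧ (¬ ∃ z, y = (p : ℤ) • z) ∧
      ∀ i, ∃ z, β₁ z = 0 ∧ β₂ z = 0 ∧ τ i • y - a i • y = (p : ℤ) • z := by
  classical
  -- the ℤ-linear data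
  let T₁ : ι → Module.End ℤ X := fun i => (DistribSMul.toAddMonoidHom X (τ i)).toIntLinearMap
  let T₂ : ι → Module.End ℤ Y := fun i => (DistribSMul.toAddMonoidHom Y (τ i)).toIntLinearMap
  have hT₁ : ∀ i x, T₁ i x = τ i • x := fun i x => rfl
  have hT₂ : ∀ i y, T₂ i y = τ i • y := fun i y => rfl
  let U : Module.End ℤ X := Tq.toAddMonoidHom.toIntLinearMap
  have hU : ∀ x, U x = Tq x := fun x => rfl
  let α : X × X →ₗ[ℤ] Y :=
    (α₁.toAddMonoidHom.toIntLinearMap).coprod (α₂.toAddMonoidHom.toIntLinearMap)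
  have hαa : ∀ x : X × X, α x = α₁ x.1 + α₂ x.2 := fun x => rfl
  let β : Y →ₗ[ℤ] X × X :=
    (β₁.toAddMonoidHom.toIntLinearMap).prod (β₂.toAddMonoidHom.toIntLinearMap)
  have hβa : ∀ y : Y, β y = (β₁ y, β₂ y) := fun y => rfl
  let 𝔪 : Ideal ℤ := Ideal.span {(p : ℤ)}
  have hpZ : Prime (p : ℤ) := Nat.prime_iff_prime_int.mp hp
  have : 𝔪.IsMaximal :=
    PrincipalIdealRing.isMaximal_of_irreducible hpZ.irreducible
  -- the pairings
  have hBXl : Function.Bijective BX := rba_bijective_of_flip_bijective BX hBX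
  have hBYl : Function.Bijective BY := rba_bijective_of_flip_bijective BY hBY
  let BP : (X × X) →ₗ[ℤ] (X × X) →ₗ[ℤ] ℤ :=
    BX.compl₁₂ (LinearMap.fst ℤ X X) (LinearMap.fst ℤ X X) +
      BX.compl₁₂ (LinearMap.snd ℤ X X) (LinearMap.snd ℤ X X)
  have hBPa : ∀ x c : X × X, BP x c = BX x.1 c.1 + BX x.2 c.2 := fun x c => rfl
  have hBP : Function.Bijective BP := rba_prod_bijective BX hBXl
  -- self-adjointness on X
  have hq1 : ((q : ℤ) + 1) ≠ 0 := by positivity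
  have hsaX : ∀ i x x', BX (τ i • x) x' = BX x (τ i • x') := by
    intro i x x'
    have e1 : ((q : ℤ) + 1) * BX (τ i • x) x' = ((q : ℤ) + 1) * BX x (τ i • x') := by
      calc ((q : ℤ) + 1) * BX (τ i • x) x'
          = BX (τ i • x) (((q : ℤ) + 1) • x') := by
            rw [(BX (τ i • x)).map_smul, smul_eq_mul]
        _ = BX (τ i • x) (β₁ (α₁ x')) := by rw [h11]
        _ = BY (α₁ (τ i • x)) (α₁ x') := (hadj₁ _ _).symm
        _ = BY (τ i • α₁ x) (α₁ x') := by rw [α₁.map_smul]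
        _ = BY (α₁ x) (τ i • α₁ x') := hself i _ _
        _ = BY (α₁ x) (α₁ (τ i • x')) := by rw [α₁.map_smul]
        _ = BX x (β₁ (α₁ (τ i • x'))) := hadj₁ _ _
        _ = BX x (((q : ℤ) + 1) • (τ i • x')) := by rw [h11]
        _ = ((q : ℤ) + 1) * BX x (τ i • x') := by
            rw [(BX x).map_smul, smul_eq_mul]
    exact mul_left_cancel₀ hq1 e1
  -- apply the general theorem
  have hεsq : ε * ε = 1 := by rcases hε with h | h <;> rw [h] <;> norm_num
  obtain ⟨z, hz1, hz2, hz3⟩ := rba_ribet_main_mod (O := ℤ) (M₁ := X) (M₂ := Y) 𝔪 T₁ T₂ U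
    (fun i j => by
      apply LinearMap.ext; intro x
      show τ i • τ j • x = τ j • τ i • x
      rw [smul_smul, smul_smul, mul_comm])
    α β
    (fun i x => by
      rw [hαa, hαa]
      show α₁ (τ i • x.1) + α₂ (τ i • x.2) = τ i • (α₁ x.1 + α₂ x.2)
      rw [map_smul, map_smul, smul_add])
    (fun i y => by
      rw [hβa, hβa]
      show (β₁ (τ i • y), β₂ (τ i • y)) = (τ i • β₁ y, τ i • β₂ y)
      rw [map_smul, map_smul])
    (q : ℤ)
    (fun x => by
      rw [hβa, hαa, map_add, map_add, h11, h12, h21, h22, hU, hU])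
    a (ε * ((q : ℤ) + 1)) v
    (fun i => (rba_mem_span_smul_top_iff (p : ℤ) _).mpr (hvT i))
    ((rba_mem_span_smul_top_iff (p : ℤ) _).mpr hvq)
    (by
      have : (ε * ((q : ℤ) + 1)) ^ 2 - ((q : ℤ) + 1) ^ 2 = 0 := by
        have : (ε * ((q : ℤ) + 1)) ^ 2 = (ε * ε) * ((q : ℤ) + 1) ^ 2 := by ring
        rw [this, hεsq, one_mul, sub_self]
      rw [this]; exact 𝔪.zero_mem)
    (fun h => hv ((rba_mem_span_smul_top_iff (p : ℤ) _).mp h))
    (fun x hx hαx => by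
      rw [rba_prod_mem_span_smul_top_iff]
      refine hIhara x.1 x.2 (fun i => ?_) (fun i => ?_) ?_
      · exact ((rba_prod_mem_span_smul_top_iff (p : ℤ) _).mp (hx i)).1
      · exact ((rba_prod_mem_span_smul_top_iff (p : ℤ) _).mp (hx i)).2
      · exact (rba_mem_span_smul_top_iff (p : ℤ) _).mp hαx)
    BP BY
    (fun x y => by
      rw [hαa, map_add, LinearMap.add_apply, hadj₁, hadj₂, hBPa, hβa])
    (fun i x c => by
      rw [hBPa, hBPa]
      show BX (τ i • x.1) c.1 + BX (τ i • x.2) c.2 = BX x.1 (τ i • c.1) + BX x.2 (τ i • c.2)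
      rw [hsaX, hsaX])
    (rba_perf_of_bijective 𝔪 BP hBP)
    (rba_nondeg_of_bijective 𝔪 BY hBYl)
    (rba_nondeg_of_bijective 𝔪 BP hBP)
  have hz1' : β₁ z = 0 ∧ β₂ z = 0 := by
    rw [hβa] at hz1
    exact ⟨congrArg Prod.fst hz1, congrArg Prod.snd hz1⟩
  refine ⟨z, hz1'.1, hz1'.2, fun h => hz2 ((rba_mem_span_smul_top_iff (p : ℤ) _).mpr h),
    fun i => ?_⟩
  obtain ⟨z', hz'⟩ := (rba_mem_span_smul_top_iff (p : ℤ) _).mp (hz3 i)
  have hz'' : τ i • z - a i • z = (p : ℤ) • z' := hz'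
  have hp0 : (p : ℤ) ≠ 0 := by exact_mod_cast hp.ne_zero
  refine ⟨z', ?_, ?_, hz''⟩
  · have : (p : ℤ) • β₁ z' = 0 := by
      rw [← map_zsmul, ← hz'', map_sub, map_smul, map_zsmul, hz1'.1, smul_zero, smul_zero,
        sub_self]
    exact (smul_eq_zero.mp this).resolve_left hp0
  · have : (p : ℤ) • β₂ z' = 0 := by
      rw [← map_zsmul, ← hz'', map_sub, map_smul, map_zsmul, hz1'.2, smul_zero, smul_zero,
        sub_self]
    exact (smul_eq_zero.mp this).resolve_left hp0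

end Z

end Fermat.Agent.S41x
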