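/-
S41 project (level raising), block E (TOP glue), module `TopSelfAdj` (helper65):
`T_ℓ` is SELF-ADJOINT for the intersection pairing, deduced formally from
(B1) `cores ∘ resEta = T_ℓ = coresEta ∘ res` at level `(M, ℓ)` and
(C)  the adjunctions `⟨res x, y⟩ = ⟨x, cores y⟩`, `⟨resEta x, y⟩ = ⟨x, coresEta y⟩`
together with the antisymmetry of the two pairings:

  `⟨x, T x'⟩ = ⟨x, cores (resEta x')⟩ = ⟨res x, resEta x'⟩ = -⟨resEta x', res x⟩
            = -⟨x', coresEta (res x)⟩ = -⟨x', T x⟩ = ⟨T x, x'⟩`.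

* `tsa_selfadj`      : the abstract statement (plain functions, Mathlib only);
* `tsa_lrT_selfadj`  : the instance for `lrT M ℓ` on `lrL M = H¹_par(Γ₀(M), ℤ)`, `ℓ ∤ M`, with the two
  pairings (levels `M` and `M ℓ`) and their adjunction properties as HYPOTHESES (to be discharged by
  block C's export), all membership proofs supplied by block B's (B4).
-/
import Fermat.Agent.S41x.CohLevelDefs

set_option autoImplicit false

namespace Fermat.Agent.S41x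

open scoped MatrixGroups
open CongruenceSubgroup ModularCurve.Period

/-- ABSTRACT: self-adjointness of `T = cores ∘ resEta = coresEta ∘ res`. -/
theorem tsa_selfadj {X Y A : Type*} [AddGroup A] (BX : X → X → A) (BY : Y → Y → A)
    (hBX : ∀ x x', BX x x' = - BX x' x) (hBY : ∀ y y', BY y y' = - BY y' y)
    (res resEta : X → Y) (cores coresEta : Y → X) (T : X → X)
    (h12 : ∀ x, cores (resEta x) = T x) (h21 : ∀ x, coresEta (res x) = T x)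
    (hadj₁ : ∀ x y, BY (res x) y = BX x (cores y))
    (hadj₂ : ∀ x y, BY (resEta x) y = BX x (coresEta y)) (x x' : X) :
    BX (T x) x' = BX x (T x') := by
  rw [← h12 x', ← hadj₁, hBY, hadj₂, h21, hBX x' (T x), neg_neg]

section concrete

variable (M ℓ : ℕ) [Fact ℓ.Prime] (hℓM : ¬ ℓ ∣ M)

theorem tsa_mem_res (x : lrL M) : lrRes M ℓ x.1 ∈ lrL (M * ℓ) :=
  mem_parabolicHoms_iff.mpr (lrRes_isParabolicHom M ℓ (mem_parabolicHoms_iff.mp x.2))

theorem tsa_mem_resEta (x : lrL M) : lrResEta M ℓ x.1 ∈ lrL (M * ℓ) :=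
  mem_parabolicHoms_iff.mpr
    (lrResEta_isParabolicHom M ℓ (mem_parabolicHoms_iff.mp x.2))

theorem tsa_mem_cores (y : lrL (M * ℓ)) : lrCores M ℓ hℓM y.1 ∈ lrL M :=
  mem_parabolicHoms_iff.mpr
    (lrCores_isParabolicHom M ℓ hℓM (mem_parabolicHoms_iff.mp y.2))

theorem tsa_mem_coresEta (y : lrL (M * ℓ)) : lrCoresEta M ℓ hℓM y.1 ∈ lrL M :=
  mem_parabolicHoms_iff.mpr
    (lrCoresEta_isParabolicHom M ℓ hℓM (mem_parabolicHoms_iff.mp y.2))

omit [Fact ℓ.Prime] in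
theorem tsa_mem_T [NeZero M] (ℓ' : Nat.Primes) (x : lrL M) : lrT M ℓ' x.1 ∈ lrL M :=
  mem_parabolicHoms_iff.mpr (lrT_isParabolicHom M ℓ' (mem_parabolicHoms_iff.mp x.2))

/-- `T_ℓ` (`ℓ ∤ M`) on `lrL M` is self-adjoint for any pair of antisymmetric pairings (levels `M`,
`M ℓ`) for which `res ⊣ cores` and `resEta ⊣ coresEta`. -/
theorem tsa_lrT_selfadj [NeZero M] {A : Type*} [AddGroup A]
    (BX : lrL M → lrL M → A) (BY : lrL (M * ℓ) → lrL (M * ℓ) → A)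
    (hBX : ∀ x x', BX x x' = - BX x' x) (hBY : ∀ y y', BY y y' = - BY y' y)
    (hadj₁ : ∀ (x : lrL M) (y : lrL (M * ℓ)),
      BY ⟨lrRes M ℓ x.1, tsa_mem_res M ℓ x⟩ y = BX x ⟨lrCores M ℓ hℓM y.1, tsa_mem_cores M ℓ hℓM y⟩)
    (hadj₂ : ∀ (x : lrL M) (y : lrL (M * ℓ)),
      BY ⟨lrResEta M ℓ x.1, tsa_mem_resEta M ℓ x⟩ y =
        BX x ⟨lrCoresEta M ℓ hℓM y.1, tsa_mem_coresEta M ℓ hℓM y⟩)
    (x x' : lrL M) :
    BX ⟨lrT M (lrPrime ℓ) x.1, tsa_mem_T M (lrPrime ℓ) x⟩ x' =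
      BX x ⟨lrT M (lrPrime ℓ) x'.1, tsa_mem_T M (lrPrime ℓ) x'⟩ :=
  tsa_selfadj BX BY hBX hBY
    (fun x => ⟨lrRes M ℓ x.1, tsa_mem_res M ℓ x⟩)
    (fun x => ⟨lrResEta M ℓ x.1, tsa_mem_resEta M ℓ x⟩)
    (fun y => ⟨lrCores M ℓ hℓM y.1, tsa_mem_cores M ℓ hℓM y⟩)
    (fun y => ⟨lrCoresEta M ℓ hℓM y.1, tsa_mem_coresEta M ℓ hℓM y⟩)
    (fun x => ⟨lrT M (lrPrime ℓ) x.1, tsa_mem_T M (lrPrime ℓ) x⟩)
    (fun x => Subtype.ext (lrCores_lrResEta M ℓ hℓM x.1))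
    (fun x => Subtype.ext (lrCoresEta_lrRes M ℓ hℓM x.1))
    hadj₁ hadj₂ x x'

end concrete

end Fermat.Agent.S41x
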