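/-
S41 block E / TOP, STEP 3 (helper99): Ribet's lemma on the lattices `lrL N`, `lrL (N q)`.

* `ts3_abstract` : the abstract Ribet lemma over `ℤ` for COMMUTING FAMILIES of `ℤ`-linear
  endomorphisms (`rba_main_perfect` without an auxiliary commutative ring `R`; direct application of
  helper88's `rba_ribet_main_mod` with `O = ℤ`, `𝔪 = (p)`).
* `ts3_main` : instantiation `X = lrL N`, `Y = lrL (N q)`, `α = (lrtRes, lrtResEta)`,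
  `β = (lrtCores, lrtCoresEta)`, `T_ℓ = lrtT · ℓ` for `ℓ` in an arbitrary set `P` of primes not dividing
  `N q`; B1 = `lrCores_lrRes` etc. (CohLevelDefs), B2 = `lrb2_*` (CohLevelB2), self-adjointness of
  `T_ℓ` on `lrL (N q)` = `tsa_lrT_selfadj` (TopSelfAdj) at level `(N q, ℓ)`.
* `ts3_top_step3` : EXACTLY the shape `LRTopSpec.top_step3` (with `topGood W (N*q) p ℓ` unfolded to
  `W.IsGoodPrimeFor ℓ ∧ ¬ (ℓ:ℕ) ∣ N * q ∧ (ℓ:ℕ) ≠ p`).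
-/
import Fermat.Agent.S41x.LRTopDefs
import Fermat.Agent.S41x.RibetAlgZ
import Fermat.Agent.S41x.TopSelfAdj
import Fermat.Agent.S41x.CohLevelB2
import Fermat.Agent.S41x.LatHomBase
import Fermat.Prelude.Def_FLTPrelim_ModularRep
import Fermat.Prelude.Def_FreyPackage_LevelRaising

set_option autoImplicit false

namespace Fermat.Agent.S41x

open scoped MatrixGroups
open CongruenceSubgroup ModularCurve ModularCurve.Period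

/-- **Abstract Ribet lemma over `ℤ`, commuting families of endomorphisms.** -/
theorem ts3_abstract
    {X Y : Type*} [AddCommGroup X] [AddCommGroup Y]
    [Module.Finite ℤ X] [Module.Free ℤ X] [Module.Finite ℤ Y] [Module.Free ℤ Y]
    {ι : Type*} (T₁ : ι → Module.End ℤ X) (T₂ : ι → Module.End ℤ Y)
    (hcomm : ∀ i j, T₁ i * T₁ j = T₁ j * T₁ i)
    (α₁ α₂ : X →ₗ[ℤ] Y) (β₁ β₂ : Y →ₗ[ℤ] X) (Tq : Module.End ℤ X) (q : ℕ)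
    (hα₁ : ∀ i x, α₁ (T₁ i x) = T₂ i (α₁ x)) (hα₂ : ∀ i x, α₂ (T₁ i x) = T₂ i (α₂ x))
    (hβ₁ : ∀ i y, β₁ (T₂ i y) = T₁ i (β₁ y)) (hβ₂ : ∀ i y, β₂ (T₂ i y) = T₁ i (β₂ y))
    (h11 : ∀ x, β₁ (α₁ x) = ((q : ℤ) + 1) • x) (h22 : ∀ x, β₂ (α₂ x) = ((q : ℤ) + 1) • x)
    (h12 : ∀ x, β₁ (α₂ x) = Tq x) (h21 : ∀ x, β₂ (α₁ x) = Tq x)
    (BX : X →ₗ[ℤ] X →ₗ[ℤ] ℤ) (BY : Y →ₗ[ℤ] Y →ₗ[ℤ] ℤ)
    (hBX : Function.Bijective (fun x : X => BX.flip x))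
    (hBY : Function.Bijective (fun y : Y => BY.flip y))
    (hadj₁ : ∀ x y, BY (α₁ x) y = BX x (β₁ y)) (hadj₂ : ∀ x y, BY (α₂ x) y = BX x (β₂ y))
    (hself : ∀ i y y', BY (T₂ i y) y' = BY y (T₂ i y'))
    (p : ℕ) (hp : p.Prime) (a : ι → ℤ) (ε : ℤ) (hε : ε = 1 ∨ ε = -1)
    (hIhara : ∀ x₁ x₂ : X, (∀ i, ∃ z, T₁ i x₁ - a i • x₁ = (p : ℤ) • z) →
        (∀ i, ∃ z, T₁ i x₂ - a i • x₂ = (p : ℤ) • z) → (∃ y, α₁ x₁ + α₂ x₂ = (p : ℤ) • y) →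
        (∃ z, x₁ = (p : ℤ) • z) ∧ (∃ z, x₂ = (p : ℤ) • z))
    (v : X) (hv : ¬ ∃ z, v = (p : ℤ) • z) (hvT : ∀ i, ∃ z, T₁ i v - a i • v = (p : ℤ) • z)
    (hvq : ∃ z, Tq v - (ε * ((q : ℤ) + 1)) • v = (p : ℤ) • z) :
    ∃ y : Y, β₁ y = 0 ∧ β₂ y = 0 ∧ (¬ ∃ z, y = (p : ℤ) • z) ∧
      ∀ i, ∃ z, β₁ z = 0 ∧ β₂ z = 0 ∧ T₂ i y - a i • y = (p : ℤ) • z := by
  classical
  let α : X × X →ₗ[ℤ] Y := α₁.coprod α₂
  have hαa : ∀ x : X × X, α x = α₁ x.1 + α₂ x.2 := fun x => rfl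
  let β : Y →ₗ[ℤ] X × X := β₁.prod β₂
  have hβa : ∀ y : Y, β y = (β₁ y, β₂ y) := fun y => rfl
  let 𝔪 : Ideal ℤ := Ideal.span {(p : ℤ)}
  have hpZ : Prime (p : ℤ) := Nat.prime_iff_prime_int.mp hp
  have : 𝔪.IsMaximal :=
    PrincipalIdealRing.isMaximal_of_irreducible hpZ.irreducible
  -- the pairings
  have hBXl : Function.Bijective BX := rba_bijective_of_flip_bijective BX hBX
  have hBYl : Function.Bijective BY := rba_bijective_of_flip_bijective BY hBY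
  let BP : (X × X) →ₗ[ℤ] (X × X) →ₗ[ℤ] ℤ :=
    BX.compl₁₂ (LinearMap.fst ℤ X X) (LinearMap.fst ℤ X X) +
      BX.compl₁₂ (LinearMap.snd ℤ X X) (LinearMap.snd ℤ X X)
  have hBPa : ∀ x c : X × X, BP x c = BX x.1 c.1 + BX x.2 c.2 := fun x c => rfl
  have hBP : Function.Bijective BP := rba_prod_bijective BX hBXl
  -- self-adjointness on X
  have hq1 : ((q : ℤ) + 1) ≠ 0 := by positivity
  have hsaX : ∀ i x x', BX (T₁ i x) x' = BX x (T₁ i x') := by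
    intro i x x'
    have e1 : ((q : ℤ) + 1) * BX (T₁ i x) x' = ((q : ℤ) + 1) * BX x (T₁ i x') := by
      calc ((q : ℤ) + 1) * BX (T₁ i x) x'
          = BX (T₁ i x) (((q : ℤ) + 1) • x') := by
            rw [(BX (T₁ i x)).map_smul, smul_eq_mul]
        _ = BX (T₁ i x) (β₁ (α₁ x')) := by rw [h11]
        _ = BY (α₁ (T₁ i x)) (α₁ x') := (hadj₁ _ _).symm
        _ = BY (T₂ i (α₁ x)) (α₁ x') := by rw [hα₁]
        _ = BY (α₁ x) (T₂ i (α₁ x')) := hself i _ _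
        _ = BY (α₁ x) (α₁ (T₁ i x')) := by rw [hα₁]
        _ = BX x (β₁ (α₁ (T₁ i x'))) := hadj₁ _ _
        _ = BX x (((q : ℤ) + 1) • (T₁ i x')) := by rw [h11]
        _ = ((q : ℤ) + 1) * BX x (T₁ i x') := by
            rw [(BX x).map_smul, smul_eq_mul]
    exact mul_left_cancel₀ hq1 e1
  -- apply the general theorem
  have hεsq : ε * ε = 1 := by rcases hε with h | h <;> rw [h] <;> norm_num
  obtain ⟨z, hz1, hz2, hz3⟩ := rba_ribet_main_mod (O := ℤ) (M₁ := X) (M₂ := Y) 𝔪 T₁ T₂ Tq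
    hcomm α β
    (fun i x => by
      rw [hαa, hαa]
      show α₁ (T₁ i x.1) + α₂ (T₁ i x.2) = T₂ i (α₁ x.1 + α₂ x.2)
      rw [hα₁, hα₂, map_add])
    (fun i y => by
      rw [hβa, hβa]
      show (β₁ (T₂ i y), β₂ (T₂ i y)) = (T₁ i (β₁ y), T₁ i (β₂ y))
      rw [hβ₁, hβ₂])
    (q : ℤ)
    (fun x => by
      rw [hβa, hαa, map_add, map_add, h11, h12, h21, h22])
    a (ε * ((q : ℤ) + 1)) v
    (fun i => (rba_mem_span_smul_top_iff (p : ℤ) _).mpr (hvT i))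
    ((rba_mem_span_smul_top_iff (p : ℤ) _).mpr hvq)
    (by
      have : (ε * ((q : ℤ) + 1)) ^ 2 - ((q : ℤ) + 1) ^ 2 = 0 := by
        have : (ε * ((q : ℤ) + 1)) ^ 2 = (ε * ε) * ((q : ℤ) + 1) ^ 2 := by ring
        rw [this, hεsq, one_mul, sub_self]
      rw [this]; exact 𝔪.zero_mem)
    (fun h => hv ((rba_mem_span_smul_top_iff (p : ℤ) _).mp h))
    (fun x hx hαx => by
      rw [rba_prod_mem_span_smul_top_iff]
      refine hIhara x.1 x.2 (fun i => ?_) (fun i => ?_) ?_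
      · exact ((rba_prod_mem_span_smul_top_iff (p : ℤ) _).mp (hx i)).1
      · exact ((rba_prod_mem_span_smul_top_iff (p : ℤ) _).mp (hx i)).2
      · exact (rba_mem_span_smul_top_iff (p : ℤ) _).mp hαx)
    BP BY
    (fun x y => by
      rw [hαa, map_add, LinearMap.add_apply, hadj₁, hadj₂, hBPa, hβa])
    (fun i x c => by
      rw [hBPa, hBPa]
      show BX (T₁ i x.1) c.1 + BX (T₁ i x.2) c.2 = BX x.1 (T₁ i c.1) + BX x.2 (T₁ i c.2)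
      rw [hsaX, hsaX])
    (rba_perf_of_bijective 𝔪 BP hBP)
    (rba_nondeg_of_bijective 𝔪 BY hBYl)
    (rba_nondeg_of_bijective 𝔪 BP hBP)
  have hz1' : β₁ z = 0 ∧ β₂ z = 0 := by
    rw [hβa] at hz1
    exact ⟨congrArg Prod.fst hz1, congrArg Prod.snd hz1⟩
  refine ⟨z, hz1'.1, hz1'.2, fun h => hz2 ((rba_mem_span_smul_top_iff (p : ℤ) _).mpr h),
    fun i => ?_⟩
  obtain ⟨z', hz'⟩ := (rba_mem_span_smul_top_iff (p : ℤ) _).mp (hz3 i)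
  have hz'' : T₂ i z - a i • z = (p : ℤ) • z' := hz'
  have hp0 : (p : ℤ) ≠ 0 := by exact_mod_cast hp.ne_zero
  refine ⟨z', ?_, ?_, hz''⟩
  · have : (p : ℤ) • β₁ z' = 0 := by
      rw [← map_zsmul, ← hz'', map_sub, hβ₁, map_zsmul, hz1'.1, map_zero, smul_zero,
        sub_self]
    exact (smul_eq_zero.mp this).resolve_left hp0
  · have : (p : ℤ) • β₂ z' = 0 := by
      rw [← map_zsmul, ← hz'', map_sub, hβ₂, map_zsmul, hz1'.2, map_zero, smul_zero,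
        sub_self]
    exact (smul_eq_zero.mp this).resolve_left hp0

/-! ### Instantiation on the lattices `lrL N`, `lrL (N q)` -/

section concrete

variable {N q : ℕ} [NeZero N] [Fact q.Prime]

instance ts3_finite (M : ℕ) [NeZero M] : Module.Finite ℤ (lrL M) := lhb_finite_par (Γ := Gamma0 M)

instance ts3_free (M : ℕ) [NeZero M] : Module.Free ℤ (lrL M) := lhb_free_par (Γ := Gamma0 M)

/-- **STEP 3, general form**: `P` any set of primes not dividing `N q`, `a` any eigenvalue system. -/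
theorem ts3_main {p : ℕ} (hp : p.Prime) (hqN : ¬ q ∣ N)
    (P : Nat.Primes → Prop) (hP : ∀ ℓ : Nat.Primes, P ℓ → ¬ (ℓ : ℕ) ∣ N * q) (a : Nat.Primes → ℤ)
    (pd : ∀ (M : ℕ) [NeZero M], lrL M →ₗ[ℤ] lrL M →ₗ[ℤ] ℤ)
    (hanti : ∀ (M : ℕ) [NeZero M] (x y : lrL M), pd M x y = - pd M y x)
    (hperf : ∀ (M : ℕ) [NeZero M], Function.Bijective (fun y : lrL M => (pd M).flip y))
    (hadjRes : ∀ (M ℓ : ℕ) [NeZero M] [Fact ℓ.Prime] (hℓM : ¬ ℓ ∣ M) (x : lrL M) (y : lrL (M * ℓ)),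
      pd (M * ℓ) (lrtRes M ℓ x) y = pd M x (lrtCores M ℓ hℓM y))
    (hadjEta : ∀ (M ℓ : ℕ) [NeZero M] [Fact ℓ.Prime] (hℓM : ¬ ℓ ∣ M) (x : lrL M) (y : lrL (M * ℓ)),
      pd (M * ℓ) (lrtResEta M ℓ x) y = pd M x (lrtCoresEta M ℓ hℓM y))
    (hIhara : ∀ x₁ x₂ : lrL N,
      (∀ ℓ : Nat.Primes, P ℓ → ∃ z : lrL N, lrtT N ℓ x₁ - a ℓ • x₁ = (p : ℤ) • z) →
      (∀ ℓ : Nat.Primes, P ℓ → ∃ z : lrL N, lrtT N ℓ x₂ - a ℓ • x₂ = (p : ℤ) • z) →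
      (∃ y : lrL (N * q), lrtRes N q x₁ + lrtResEta N q x₂ = (p : ℤ) • y) →
      (∃ z : lrL N, x₁ = (p : ℤ) • z) ∧ (∃ z : lrL N, x₂ = (p : ℤ) • z))
    (ε : ℤ) (v : lrL N) (hε : ε = 1 ∨ ε = -1) (hv : ¬ ∃ w : lrL N, v = (p : ℤ) • w)
    (hvT : ∀ ℓ : Nat.Primes, P ℓ → ∃ w : lrL N, lrtT N ℓ v - a ℓ • v = (p : ℤ) • w)
    (hvq : ∃ w : lrL N, lrtT N (lrPrime q) v - (ε * ((q : ℤ) + 1)) • v = (p : ℤ) • w) :
    ∃ y : lrL (N * q), lrtCores N q hqN y = 0 ∧ lrtCoresEta N q hqN y = 0 ∧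
      (¬ ∃ z : lrL (N * q), y = (p : ℤ) • z) ∧
      ∀ ℓ : Nat.Primes, P ℓ →
        ∃ z : lrL (N * q), lrtCores N q hqN z = 0 ∧ lrtCoresEta N q hqN z = 0 ∧
          lrtT (N * q) ℓ y - a ℓ • y = (p : ℤ) • z := by
  -- primes in `P` are different from `q`
  have hℓq : ∀ ℓ : Nat.Primes, P ℓ → (ℓ : ℕ) ≠ q := by
    intro ℓ hℓ h
    exact hP ℓ hℓ (h ▸ Dvd.intro_left N rfl)
  have key := ts3_abstract (X := lrL N) (Y := lrL (N * q)) (ι := {ℓ : Nat.Primes // P ℓ})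
    (fun i => lrtT N i.1) (fun i => lrtT (N * q) i.1)
    (fun i j => lrtT_comm N i.1 j.1)
    (lrtRes N q) (lrtResEta N q) (lrtCores N q hqN) (lrtCoresEta N q hqN)
    (lrtT N (lrPrime q)) q
    (fun i x => Subtype.ext (lrb2_res N q i.1 (hℓq i.1 i.2) x.1))
    (fun i x => Subtype.ext (lrb2_resEta N q i.1 (hℓq i.1 i.2) x.1))
    (fun i y => Subtype.ext (lrb2_cores N q hqN i.1 (hℓq i.1 i.2) y.1))
    (fun i y => Subtype.ext (lrb2_coresEta N q hqN i.1 (hℓq i.1 i.2) y.1))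
    (fun x => Subtype.ext (by
      show lrCores N q hqN (lrRes N q x.1) = ((q : ℤ) + 1) • x.1
      rw [lrCores_lrRes, ← natCast_zsmul]; push_cast; rfl))
    (fun x => Subtype.ext (by
      show lrCoresEta N q hqN (lrResEta N q x.1) = ((q : ℤ) + 1) • x.1
      rw [lrCoresEta_lrResEta, ← natCast_zsmul]; push_cast; rfl))
    (fun x => Subtype.ext (lrCores_lrResEta N q hqN x.1))
    (fun x => Subtype.ext (lrCoresEta_lrRes N q hqN x.1))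
    (pd N) (pd (N * q)) (hperf N) (hperf (N * q))
    (fun x y => hadjRes N q hqN x y) (fun x y => hadjEta N q hqN x y)
    (fun i y y' => by
      have : Fact ((i.1 : Nat.Primes) : ℕ).Prime := ⟨i.1.2⟩
      have hℓM : ¬ ((i.1 : Nat.Primes) : ℕ) ∣ N * q := hP i.1 i.2
      exact tsa_lrT_selfadj (N * q) (i.1 : ℕ) hℓM
        (fun x x' => pd (N * q) x x') (fun z z' => pd (N * q * (i.1 : ℕ)) z z')
        (fun x x' => hanti (N * q) x x') (fun z z' => hanti (N * q * (i.1 : ℕ)) z z')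
        (fun x z => hadjRes (N * q) (i.1 : ℕ) hℓM x z)
        (fun x z => hadjEta (N * q) (i.1 : ℕ) hℓM x z) y y')
    p hp (fun i => a i.1) ε hε
    (fun x₁ x₂ h1 h2 h3 => hIhara x₁ x₂ (fun ℓ hℓ => h1 ⟨ℓ, hℓ⟩) (fun ℓ hℓ => h2 ⟨ℓ, hℓ⟩) h3)
    v hv (fun i => hvT i.1 i.2) hvq
  obtain ⟨y, hy1, hy2, hy3, hy4⟩ := key
  exact ⟨y, hy1, hy2, hy3, fun ℓ hℓ => hy4 ⟨ℓ, hℓ⟩⟩

/-- **STEP 3 in the exact shape `LRTopSpec.top_step3`** (`topGood W (N*q) p ℓ` unfolded). -/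
theorem ts3_top_step3 {W : WeierstrassCurve ℤ} {p : ℕ} (hp : p.Prime)
    (hqN : ¬ q ∣ N)
    (pd : ∀ (M : ℕ) [NeZero M], lrL M →ₗ[ℤ] lrL M →ₗ[ℤ] ℤ)
    (hanti : ∀ (M : ℕ) [NeZero M] (x y : lrL M), pd M x y = - pd M y x)
    (hperf : ∀ (M : ℕ) [NeZero M], Function.Bijective (fun y : lrL M => (pd M).flip y))
    (hadjRes : ∀ (M ℓ : ℕ) [NeZero M] [Fact ℓ.Prime] (hℓM : ¬ ℓ ∣ M) (x : lrL M) (y : lrL (M * ℓ)),
      pd (M * ℓ) (lrtRes M ℓ x) y = pd M x (lrtCores M ℓ hℓM y))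
    (hadjEta : ∀ (M ℓ : ℕ) [NeZero M] [Fact ℓ.Prime] (hℓM : ¬ ℓ ∣ M) (x : lrL M) (y : lrL (M * ℓ)),
      pd (M * ℓ) (lrtResEta M ℓ x) y = pd M x (lrtCoresEta M ℓ hℓM y))
    (hIhara : ∀ x₁ x₂ : lrL N,
      (∀ ℓ : Nat.Primes, (W.IsGoodPrimeFor ℓ ∧ ¬ (ℓ : ℕ) ∣ N * q ∧ (ℓ : ℕ) ≠ p) →
        ∃ z : lrL N, lrtT N ℓ x₁ - (W.apOfModel ℓ : ℤ) • x₁ = (p : ℤ) • z) →
      (∀ ℓ : Nat.Primes, (W.IsGoodPrimeFor ℓ ∧ ¬ (ℓ : ℕ) ∣ N * q ∧ (ℓ : ℕ) ≠ p) →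
        ∃ z : lrL N, lrtT N ℓ x₂ - (W.apOfModel ℓ : ℤ) • x₂ = (p : ℤ) • z) →
      (∃ y : lrL (N * q), lrtRes N q x₁ + lrtResEta N q x₂ = (p : ℤ) • y) →
      (∃ z : lrL N, x₁ = (p : ℤ) • z) ∧ (∃ z : lrL N, x₂ = (p : ℤ) • z))
    (ε : ℤ) (v : lrL N) (hε : ε = 1 ∨ ε = -1) (hv : ¬ ∃ w : lrL N, v = (p : ℤ) • w)
    (hvT : ∀ ℓ : Nat.Primes, (W.IsGoodPrimeFor ℓ ∧ ¬ (ℓ : ℕ) ∣ N * q ∧ (ℓ : ℕ) ≠ p) →
        ∃ w : lrL N, lrtT N ℓ v - (W.apOfModel ℓ : ℤ) • v = (p : ℤ) • w)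
    (hvq : ∃ w : lrL N, lrtT N (lrPrime q) v - (ε * ((q : ℤ) + 1)) • v = (p : ℤ) • w) :
    ∃ y : lrL (N * q), lrtCores N q hqN y = 0 ∧ lrtCoresEta N q hqN y = 0 ∧
      (¬ ∃ z : lrL (N * q), y = (p : ℤ) • z) ∧
      ∀ ℓ : Nat.Primes, (W.IsGoodPrimeFor ℓ ∧ ¬ (ℓ : ℕ) ∣ N * q ∧ (ℓ : ℕ) ≠ p) →
        ∃ z : lrL (N * q), lrtCores N q hqN z = 0 ∧ lrtCoresEta N q hqN z = 0 ∧
          lrtT (N * q) ℓ y - (W.apOfModel ℓ : ℤ) • y = (p : ℤ) • z :=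
  ts3_main hp hqN (fun ℓ => W.IsGoodPrimeFor ℓ ∧ ¬ (ℓ : ℕ) ∣ N * q ∧ (ℓ : ℕ) ≠ p)
    (fun _ h => h.2.1) (fun ℓ => (W.apOfModel ℓ : ℤ)) pd hanti hperf hadjRes hadjEta hIhara
    ε v hε hv hvT hvq

end concrete

end Fermat.Agent.S41x
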