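/-
S41x/AmalgamCore (helper67): abstract amalgam machinery, Mathlib only.

Let `A B : Subgroup G` and `H = A ⊓ B`.
* `amg_pingpong`: ping-pong criterion on a `G`-set: a nonempty reduced alternating word in
  `(A \ H) ∪ (B \ H)` has product outside `H` (in particular `≠ 1`).
* `amg_exists_hom_of_nf`: if every nonempty reduced alternating word has product `≠ 1`, then any
  two homomorphisms `f : A →* k`, `g : B →* k` that agree on `H` extend to a homomorphism
  `↥(A ⊔ B) →* k`.
Prefix `amg_`.
-/
import Mathlib

set_option autoImplicit false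

namespace Fermat.Agent.S41x

open Monoid.Coprod

section Words

variable {G : Type*} [Group G] (A B : Subgroup G)

/-- value in `G` of a letter -/
def amg_letter : A ⊕ B → G := Sum.elim (fun a => (a : G)) (fun b => (b : G))

/-- product in `G` of a word -/
def amg_prod (w : List (A ⊕ B)) : G := (w.map (amg_letter A B)).prod

@[simp] theorem amg_prod_nil : amg_prod A B [] = 1 := rfl

@[simp] theorem amg_prod_cons (x : A ⊕ B) (w : List (A ⊕ B)) :
    amg_prod A B (x :: w) = amg_letter A B x * amg_prod A B w := by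
  simp [amg_prod]

@[simp] theorem amg_letter_inl (a : A) : amg_letter A B (Sum.inl a) = (a : G) := rfl
@[simp] theorem amg_letter_inr (b : B) : amg_letter A B (Sum.inr b) = (b : G) := rfl

/-- reduced alternating words: no letter in `A ⊓ B`, adjacent letters of different type -/
def amg_Red (w : List (A ⊕ B)) : Prop :=
  (∀ x ∈ w, amg_letter A B x ∉ A ⊓ B) ∧ w.IsChain (fun x y => x.isLeft ≠ y.isLeft)

variable {A B}

theorem amg_Red_cons_cons {x y : A ⊕ B} {w : List (A ⊕ B)} :
    amg_Red A B (x :: y :: w) ↔
      amg_letter A B x ∉ A ⊓ B ∧ x.isLeft ≠ y.isLeft ∧ amg_Red A B (y :: w) := by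
  unfold amg_Red
  simp only [List.mem_cons, forall_eq_or_imp, List.isChain_cons_cons]
  tauto

theorem amg_Red_singleton {x : A ⊕ B} :
    amg_Red A B [x] ↔ amg_letter A B x ∉ A ⊓ B := by
  unfold amg_Red
  simp

end Words

section Extension

variable {G : Type*} [Group G] {A B : Subgroup G} {k : Type*} [Group k]
  (f : A →* k) (g : B →* k)

/-- value in `k` of a word -/
def amg_val (w : List (A ⊕ B)) : k := (w.map (Sum.elim (fun a => f a) (fun b => g b))).prod

@[simp] theorem amg_val_nil : amg_val f g [] = 1 := rfl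

@[simp] theorem amg_val_cons (x : A ⊕ B) (w : List (A ⊕ B)) :
    amg_val f g (x :: w) = Sum.elim (fun a => f a) (fun b => g b) x * amg_val f g w := by
  simp [amg_val]

variable {f g}

/-- a non-reduced word of length `≥ 2` can be shortened without changing product and value -/
theorem amg_shorten (hfg : ∀ (a : A) (b : B), (a : G) = (b : G) → f a = g b) :
    ∀ w : List (A ⊕ B), 2 ≤ w.length → ¬ amg_Red A B w →
      ∃ w' : List (A ⊕ B), w'.length < w.length ∧ amg_prod A B w' = amg_prod A B w ∧
        amg_val f g w' = amg_val f g w := by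
  intro w
  induction w with
  | nil => intro h; simp at h
  | cons x w ih =>
    intro hlen hred
    cases w with
    | nil => simp at hlen
    | cons y w =>
      -- same type?
      rcases x with a | b <;> rcases y with a' | b'
      · -- inl, inl : merge
        refine ⟨Sum.inl (a * a') :: w, by simp, ?_, ?_⟩
        · simp [mul_assoc]
        · simp [mul_assoc]
      · -- inl a, inr b'
        by_cases ha : (a : G) ∈ A ⊓ B
        · -- move a to B
          have haB : (a : G) ∈ B := ha.2
          refine ⟨Sum.inr (⟨(a : G), haB⟩ * b') :: w, by simp, ?_, ?_⟩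
          · simp [mul_assoc]
          · have := hfg a ⟨(a : G), haB⟩ rfl
            simp [mul_assoc, this]
        by_cases hb : (b' : G) ∈ A ⊓ B
        · have hbA : (b' : G) ∈ A := hb.1
          refine ⟨Sum.inl (a * ⟨(b' : G), hbA⟩) :: w, by simp, ?_, ?_⟩
          · simp [mul_assoc]
          · have := hfg ⟨(b' : G), hbA⟩ b' rfl
            simp [mul_assoc, this]
        -- both fine: recurse
        have hred' : ¬ amg_Red A B (Sum.inr b' :: w) := by
          intro h
          apply hred
          rw [amg_Red_cons_cons]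
          exact ⟨ha, by simp, h⟩
        cases w with
        | nil =>
          exfalso
          apply hred'
          rw [amg_Red_singleton]
          exact hb
        | cons z w =>
          obtain ⟨w', hl, hp, hv⟩ := ih (by simp) hred'
          refine ⟨Sum.inl a :: w', by simpa using hl, ?_, ?_⟩
          · rw [amg_prod_cons, hp]; exact (amg_prod_cons A B _ _).symm
          · rw [amg_val_cons, hv]; exact (amg_val_cons f g _ _).symm
      · -- inr b, inl a'
        by_cases hb : (b : G) ∈ A ⊓ B
        · have hbA : (b : G) ∈ A := hb.1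
          refine ⟨Sum.inl (⟨(b : G), hbA⟩ * a') :: w, by simp, ?_, ?_⟩
          · simp [mul_assoc]
          · have := hfg ⟨(b : G), hbA⟩ b rfl
            simp [mul_assoc, this]
        by_cases ha : (a' : G) ∈ A ⊓ B
        · have haB : (a' : G) ∈ B := ha.2
          refine ⟨Sum.inr (b * ⟨(a' : G), haB⟩) :: w, by simp, ?_, ?_⟩
          · simp [mul_assoc]
          · have := hfg a' ⟨(a' : G), haB⟩ rfl
            simp [mul_assoc, this]
        have hred' : ¬ amg_Red A B (Sum.inl a' :: w) := by
          intro h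
          apply hred
          rw [amg_Red_cons_cons]
          exact ⟨hb, by simp, h⟩
        cases w with
        | nil =>
          exfalso
          apply hred'
          rw [amg_Red_singleton]
          exact ha
        | cons z w =>
          obtain ⟨w', hl, hp, hv⟩ := ih (by simp) hred'
          refine ⟨Sum.inr b :: w', by simpa using hl, ?_, ?_⟩
          · rw [amg_prod_cons, hp]; exact (amg_prod_cons A B _ _).symm
          · rw [amg_val_cons, hv]; exact (amg_val_cons f g _ _).symm
      · -- inr, inr : merge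
        refine ⟨Sum.inr (b * b') :: w, by simp, ?_, ?_⟩
        · simp [mul_assoc]
        · simp [mul_assoc]

/-- **Key lemma**: under the normal form hypothesis, a word with trivial product has trivial
value. -/
theorem amg_val_eq_one_of_prod_eq_one
    (hfg : ∀ (a : A) (b : B), (a : G) = (b : G) → f a = g b)
    (hnf : ∀ w : List (A ⊕ B), w ≠ [] → amg_Red A B w → amg_prod A B w ≠ 1) :
    ∀ (n : ℕ) (w : List (A ⊕ B)), w.length = n → amg_prod A B w = 1 → amg_val f g w = 1 := by
  intro n
  induction n using Nat.strong_induction_on with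
  | _ n ih =>
    intro w hn hp
    rcases w with _ | ⟨x, w⟩
    · rfl
    rcases w with _ | ⟨y, w⟩
    · -- single letter
      rcases x with a | b
      · have : (a : G) = 1 := by simpa using hp
        have ha : a = 1 := Subtype.ext this
        simp [ha]
      · have : (b : G) = 1 := by simpa using hp
        have hb : b = 1 := Subtype.ext this
        simp [hb]
    · by_cases hred : amg_Red A B (x :: y :: w)
      · exact absurd hp (hnf _ (by simp) hred)
      · obtain ⟨w', hl, hp', hv⟩ := amg_shorten hfg (x :: y :: w) (by simp) hred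
        rw [← hv]
        exact ih w'.length (by rw [← hn]; exact hl) w' rfl (by rw [hp', hp])

/-- **Extension theorem**: under the normal form hypothesis, homomorphisms on `A` and `B` that
agree on `A ⊓ B` glue to a homomorphism on `A ⊔ B`. -/
theorem amg_exists_hom_of_nf
    (hfg : ∀ (a : A) (b : B), (a : G) = (b : G) → f a = g b)
    (hnf : ∀ w : List (A ⊕ B), w ≠ [] → amg_Red A B w → amg_prod A B w ≠ 1) :
    ∃ φ : ↥(A ⊔ B) →* k, (∀ a : A, φ ⟨a, Subgroup.mem_sup_left a.2⟩ = f a) ∧
      (∀ b : B, φ ⟨b, Subgroup.mem_sup_right b.2⟩ = g b) := by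
  classical
  let P : Monoid.Coprod A B →* G := Monoid.Coprod.lift A.subtype B.subtype
  let Φ : Monoid.Coprod A B →* k := Monoid.Coprod.lift f g
  have hPmk : ∀ w : FreeMonoid (A ⊕ B), P (Monoid.Coprod.mk w) = amg_prod A B w.toList := by
    intro w
    show Monoid.Coprod.lift A.subtype B.subtype (Monoid.Coprod.mk w) = _
    rw [Monoid.Coprod.lift_apply_mk, FreeMonoid.lift_apply]
    unfold amg_prod amg_letter
    congr 1
  have hΦmk : ∀ w : FreeMonoid (A ⊕ B), Φ (Monoid.Coprod.mk w) = amg_val f g w.toList := by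
    intro w
    show Monoid.Coprod.lift f g (Monoid.Coprod.mk w) = _
    rw [Monoid.Coprod.lift_apply_mk, FreeMonoid.lift_apply]
    unfold amg_val
    congr 1
  have hker : P.ker ≤ Φ.ker := by
    intro x hx
    obtain ⟨w, rfl⟩ := Monoid.Coprod.mk_surjective x
    rw [MonoidHom.mem_ker] at hx ⊢
    rw [hPmk] at hx
    rw [hΦmk]
    exact amg_val_eq_one_of_prod_eq_one hfg hnf _ _ rfl hx
  have hrange : ∀ x, P x ∈ A ⊔ B := by
    intro x
    have : P x ∈ P.range := ⟨x, rfl⟩
    have hr : P.range = A ⊔ B := by
      show (Monoid.Coprod.lift A.subtype B.subtype).range = _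
      rw [Monoid.Coprod.range_lift, Subgroup.range_subtype, Subgroup.range_subtype]
    rwa [hr] at this
  let P' : Monoid.Coprod A B →* ↥(A ⊔ B) := P.codRestrict (A ⊔ B) hrange
  have hsurj : Function.Surjective P' := by
    rintro ⟨y, hy⟩
    have hr : P.range = A ⊔ B := by
      show (Monoid.Coprod.lift A.subtype B.subtype).range = _
      rw [Monoid.Coprod.range_lift, Subgroup.range_subtype, Subgroup.range_subtype]
    rw [← hr] at hy
    obtain ⟨x, rfl⟩ := hy
    exact ⟨x, rfl⟩
  have hker' : P'.ker ≤ Φ.ker := by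
    intro x hx
    apply hker
    rw [MonoidHom.mem_ker] at hx ⊢
    have := congrArg Subtype.val hx
    exact this
  refine ⟨P'.liftOfSurjective hsurj ⟨Φ, hker'⟩, ?_, ?_⟩
  · intro a
    have h1 : (⟨(a : G), Subgroup.mem_sup_left a.2⟩ : ↥(A ⊔ B)) = P' (Monoid.Coprod.inl a) := by
      apply Subtype.ext
      show (a : G) = Monoid.Coprod.lift A.subtype B.subtype (Monoid.Coprod.inl a)
      rw [Monoid.Coprod.lift_apply_inl]
      rfl
    rw [h1, MonoidHom.liftOfRightInverse_comp_apply]
    show Monoid.Coprod.lift f g (Monoid.Coprod.inl a) = f a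
    rw [Monoid.Coprod.lift_apply_inl]
  · intro b
    have h1 : (⟨(b : G), Subgroup.mem_sup_right b.2⟩ : ↥(A ⊔ B)) = P' (Monoid.Coprod.inr b) := by
      apply Subtype.ext
      show (b : G) = Monoid.Coprod.lift A.subtype B.subtype (Monoid.Coprod.inr b)
      rw [Monoid.Coprod.lift_apply_inr]
      rfl
    rw [h1, MonoidHom.liftOfRightInverse_comp_apply]
    show Monoid.Coprod.lift f g (Monoid.Coprod.inr b) = g b
    rw [Monoid.Coprod.lift_apply_inr]

end Extension

section PingPong

variable {G : Type*} [Group G] {X : Type*} [MulAction G X] {A B : Subgroup G}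

/-- the two ping-pong sets indexed by the type of a letter -/
def amg_side (XA XB : Set X) (b : Bool) : Set X := if b then XA else XB

theorem amg_letter_mem_A (a : A ⊕ B) (h : a.isLeft = true) : amg_letter A B a ∈ A := by
  rcases a with a | b
  · exact a.2
  · simp at h

theorem amg_letter_mem_B (a : A ⊕ B) (h : a.isLeft = false) : amg_letter A B a ∈ B := by
  rcases a with a | b
  · simp at h
  · exact b.2

/-- one letter outside `A ⊓ B` maps the opposite side into its own side -/
theorem amg_letter_smul (XA XB : Set X)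
    (hA : ∀ a ∈ A, a ∉ A ⊓ B → ∀ x ∈ XB, a • x ∈ XA)
    (hB : ∀ b ∈ B, b ∉ A ⊓ B → ∀ x ∈ XA, b • x ∈ XB)
    (x : A ⊕ B) (hx : amg_letter A B x ∉ A ⊓ B) (p : X)
    (hp : p ∈ amg_side XA XB (!x.isLeft)) :
    amg_letter A B x • p ∈ amg_side XA XB x.isLeft := by
  rcases x with a | b
  · simp only [amg_side, Sum.isLeft_inl, Bool.not_true, Bool.false_eq_true, if_false,
      if_true] at hp ⊢
    exact hA _ a.2 hx p hp
  · simp only [amg_side, Sum.isLeft_inr, Bool.not_false, if_true, Bool.false_eq_true,
      if_false] at hp ⊢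
    exact hB _ b.2 hx p hp

/-- a reduced word maps the side opposite to its last letter into the side of its first letter -/
theorem amg_word_smul (XA XB : Set X)
    (hA : ∀ a ∈ A, a ∉ A ⊓ B → ∀ x ∈ XB, a • x ∈ XA)
    (hB : ∀ b ∈ B, b ∉ A ⊓ B → ∀ x ∈ XA, b • x ∈ XB) :
    ∀ (w : List (A ⊕ B)) (hw : w ≠ []), amg_Red A B w →
      ∀ p ∈ amg_side XA XB (!(w.getLast hw).isLeft),
        amg_prod A B w • p ∈ amg_side XA XB (w.head hw).isLeft := by
  intro w
  induction w with
  | nil => intro hw; exact absurd rfl hw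
  | cons x w ih =>
    intro hw hred p hp
    cases w with
    | nil =>
      simp only [List.getLast_singleton, List.head_cons, amg_prod_cons, amg_prod_nil,
        mul_one] at hp ⊢
      exact amg_letter_smul XA XB hA hB x (amg_Red_singleton.mp hred) p hp
    | cons y w =>
      rw [amg_Red_cons_cons] at hred
      obtain ⟨hx, hxy, hred'⟩ := hred
      have hlast : (x :: y :: w).getLast hw = (y :: w).getLast (by simp) := by
        simp [List.getLast_cons]
      rw [hlast] at hp
      have h1 := ih (by simp) hred' p hp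
      simp only [List.head_cons] at h1 ⊢
      rw [amg_prod_cons, mul_smul]
      apply amg_letter_smul XA XB hA hB x hx
      have : y.isLeft = !x.isLeft := by
        cases hx' : x.isLeft <;> cases hy' : y.isLeft <;> simp_all
      rw [← this]
      exact h1

/-- **Ping-pong lemma for amalgams.** -/
theorem amg_pingpong (XA XB : Set X)
    (hdisj : ∀ x, x ∈ XA → x ∈ XB → False)
    (hneA : XA.Nonempty) (hneB : XB.Nonempty)
    (hA : ∀ a ∈ A, a ∉ A ⊓ B → ∀ x ∈ XB, a • x ∈ XA)
    (hB : ∀ b ∈ B, b ∉ A ⊓ B → ∀ x ∈ XA, b • x ∈ XB)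
    (hH : ∀ h ∈ A ⊓ B, (∀ x ∈ XA, h • x ∈ XA) ∧ (∀ x ∈ XB, h • x ∈ XB))
    (hA3 : ∃ s ∈ A, ∃ s' ∈ A, s ∉ A ⊓ B ∧ s' ∉ A ⊓ B ∧ s⁻¹ * s' ∉ A ⊓ B)
    (hB3 : ∃ t ∈ B, ∃ t' ∈ B, t ∉ A ⊓ B ∧ t' ∉ A ⊓ B ∧ t⁻¹ * t' ∉ A ⊓ B) :
    ∀ w : List (A ⊕ B), w ≠ [] → amg_Red A B w → amg_prod A B w ∉ A ⊓ B := by
  intro w hw hred hP
  have hM := amg_word_smul XA XB hA hB w hw hred
  have hPinv : (amg_prod A B w)⁻¹ ∈ A ⊓ B := (A ⊓ B).inv_mem hP
  obtain ⟨pA, hpA⟩ := hneA
  obtain ⟨pB, hpB⟩ := hneB
  -- case analysis on first / last letter types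
  cases hfirst : (w.head hw).isLeft <;> cases hlast : (w.getLast hw).isLeft
  · -- first B, last B : input XA, output XB
    have := hM pA (by simp [amg_side, hlast, hpA])
    simp only [amg_side, hfirst, Bool.false_eq_true, if_false] at this
    exact hdisj _ ((hH _ hP).1 pA hpA) this
  · -- first B, last A : need index >= 3 in B
    rcases w with _ | ⟨x, w⟩
    · exact hw rfl
    rcases w with _ | ⟨y, w⟩
    · simp only [List.head_cons, List.getLast_singleton] at hfirst hlast
      rw [hfirst] at hlast
      exact Bool.noConfusion hlast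
    rw [amg_Red_cons_cons] at hred
    obtain ⟨hx, hxy, hred'⟩ := hred
    simp only [List.head_cons] at hfirst
    have hlast' : ((y :: w).getLast (by simp)).isLeft = true := by
      rw [← hlast]; simp [List.getLast_cons]
    have hyl : y.isLeft = true := by
      cases hy' : y.isLeft
      · rw [hfirst, hy'] at hxy; exact absurd rfl hxy
      · rfl
    have hM' := amg_word_smul XA XB hA hB (y :: w) (by simp) hred'
    -- choose t' in B \ H with t'⁻¹ * x ∉ H
    have hxB : amg_letter A B x ∈ B := amg_letter_mem_B x hfirst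
    obtain ⟨t, ht, t', ht', htH, ht'H, htt'⟩ := hB3
    obtain ⟨b', hb'B, hb'H, hb'x⟩ : ∃ b' ∈ B, b' ∉ A ⊓ B ∧ b'⁻¹ * amg_letter A B x ∉ A ⊓ B := by
      by_cases h1 : t⁻¹ * amg_letter A B x ∈ A ⊓ B
      · refine ⟨t', ht', ht'H, fun h2 => htt' ?_⟩
        have : t⁻¹ * t' = (t⁻¹ * amg_letter A B x) * (t'⁻¹ * amg_letter A B x)⁻¹ := by group
        rw [this]
        exact (A ⊓ B).mul_mem h1 ((A ⊓ B).inv_mem h2)
      · exact ⟨t, ht, htH, h1⟩
    -- the point
    set P := amg_prod A B (x :: y :: w) with hPdef
    have hq : b' • pA ∈ XB := hB b' hb'B hb'H pA hpA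
    have hp1 : P⁻¹ • (b' • pA) ∈ XB := (hH _ hPinv).2 _ hq
    have hp2 := hM' (P⁻¹ • (b' • pA)) (by simp [amg_side, hlast', hp1])
    simp only [List.head_cons, amg_side, hyl, if_true] at hp2
    have hkey : (b'⁻¹ * amg_letter A B x) • (amg_prod A B (y :: w) • (P⁻¹ • (b' • pA))) = pA := by
      rw [← mul_smul, ← mul_smul, ← mul_smul]
      have : b'⁻¹ * amg_letter A B x * amg_prod A B (y :: w) * P⁻¹ * b' = 1 := by
        have hPe : P = amg_letter A B x * amg_prod A B (y :: w) := amg_prod_cons A B x (y :: w)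
        rw [hPe]; group
      rw [this, one_smul]
    have hmemB : b'⁻¹ * amg_letter A B x ∈ B := B.mul_mem (B.inv_mem hb'B) hxB
    have := hB _ hmemB hb'x _ hp2
    rw [hkey] at this
    exact hdisj _ hpA this
  · -- first A, last B : need index >= 3 in A
    rcases w with _ | ⟨x, w⟩
    · exact hw rfl
    rcases w with _ | ⟨y, w⟩
    · simp only [List.head_cons, List.getLast_singleton] at hfirst hlast
      rw [hfirst] at hlast
      exact Bool.noConfusion hlast
    rw [amg_Red_cons_cons] at hred
    obtain ⟨hx, hxy, hred'⟩ := hred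
    simp only [List.head_cons] at hfirst
    have hlast' : ((y :: w).getLast (by simp)).isLeft = false := by
      rw [← hlast]; simp [List.getLast_cons]
    have hyl : y.isLeft = false := by
      cases hy' : y.isLeft
      · rfl
      · rw [hfirst, hy'] at hxy; exact absurd rfl hxy
    have hM' := amg_word_smul XA XB hA hB (y :: w) (by simp) hred'
    have hxA : amg_letter A B x ∈ A := amg_letter_mem_A x hfirst
    obtain ⟨t, ht, t', ht', htH, ht'H, htt'⟩ := hA3
    obtain ⟨a', ha'A, ha'H, ha'x⟩ : ∃ a' ∈ A, a' ∉ A ⊓ B ∧ a'⁻¹ * amg_letter A B x ∉ A ⊓ B := by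
      by_cases h1 : t⁻¹ * amg_letter A B x ∈ A ⊓ B
      · refine ⟨t', ht', ht'H, fun h2 => htt' ?_⟩
        have : t⁻¹ * t' = (t⁻¹ * amg_letter A B x) * (t'⁻¹ * amg_letter A B x)⁻¹ := by group
        rw [this]
        exact (A ⊓ B).mul_mem h1 ((A ⊓ B).inv_mem h2)
      · exact ⟨t, ht, htH, h1⟩
    set P := amg_prod A B (x :: y :: w) with hPdef
    have hq : a' • pB ∈ XA := hA a' ha'A ha'H pB hpB
    have hp1 : P⁻¹ • (a' • pB) ∈ XA := (hH _ hPinv).1 _ hq
    have hp2 := hM' (P⁻¹ • (a' • pB)) (by simp [amg_side, hlast', hp1])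
    simp only [List.head_cons, amg_side, hyl, Bool.false_eq_true, if_false] at hp2
    have hkey : (a'⁻¹ * amg_letter A B x) • (amg_prod A B (y :: w) • (P⁻¹ • (a' • pB))) = pB := by
      rw [← mul_smul, ← mul_smul, ← mul_smul]
      have : a'⁻¹ * amg_letter A B x * amg_prod A B (y :: w) * P⁻¹ * a' = 1 := by
        have hPe : P = amg_letter A B x * amg_prod A B (y :: w) := amg_prod_cons A B x (y :: w)
        rw [hPe]; group
      rw [this, one_smul]
    have hmemA : a'⁻¹ * amg_letter A B x ∈ A := A.mul_mem (A.inv_mem ha'A) hxA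
    have := hA _ hmemA ha'x _ hp2
    rw [hkey] at this
    exact hdisj _ this hpB
  · -- first A, last A : input XB, output XA
    have := hM pB (by simp [amg_side, hlast, hpB])
    simp only [amg_side, hfirst, if_true] at this
    exact hdisj _ this ((hH _ hP).2 pB hpB)

end PingPong

end Fermat.Agent.S41x
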