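/-
S41x/AmalgamDefs (helper67, block D1 of S41): the groups of the amalgam
`Gamma0(N)[1/q] = Gamma0(N) *_{Gamma0(Nq)} eta^-1 Gamma0(N) eta`, realised inside `SL(2, ℚ)`.

* `AmgSL = SL(2, ℚ)`.
* `amg_isR q x`  : `x ∈ ℤ[1/q]`.
* `amg_tw t`     : the automorphism `[[a,b],[c,d]] ↦ [[a, b/t],[t c, d]]` of `SL(2,ℚ)`
                   (conjugation by `diag(1,t)`, equivalently by `eta^-1`, `eta = diag(t,1)`).
* `amg_Gam N`    : matrices with integer entries and `N ∣ c`  (= image of `Gamma0(N)`).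
* `amg_GamE N q` : `amg_tw q (amg_Gam N)` = `{[[a, b/q],[q c, d]] : [[a,b],[c,d]] ∈ Gamma0(N)}`.
* `amg_Delta N q`: matrices with entries in `ℤ[1/q]` and `c ∈ N ℤ[1/q]`.
`amg_Gam N ⊓ amg_GamE N q` is (the image of) `Gamma0(N q)` when `q` is prime to `N`.
Mathlib only.  Prefix `amg_`.
-/
import Mathlib

set_option autoImplicit false

namespace Fermat.Agent.S41x

/-- `SL(2, ℚ)` -/
abbrev AmgSL := Matrix.SpecialLinearGroup (Fin 2) ℚ

/-- `x ∈ ℤ[1/q]` -/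
def amg_isR (q : ℕ) (x : ℚ) : Prop := ∃ (m : ℤ) (e : ℕ), x = (m : ℚ) / (q : ℚ) ^ e

theorem amg_isR_intCast (q : ℕ) (m : ℤ) : amg_isR q (m : ℚ) := ⟨m, 0, by simp⟩

theorem amg_isR_zero (q : ℕ) : amg_isR q 0 := ⟨0, 0, by simp⟩

theorem amg_isR_one (q : ℕ) : amg_isR q 1 := ⟨1, 0, by simp⟩

theorem amg_isR_neg {q : ℕ} {x : ℚ} (hx : amg_isR q x) : amg_isR q (-x) := by
  obtain ⟨m, e, rfl⟩ := hx
  exact ⟨-m, e, by push_cast; ring⟩

theorem amg_isR_add {q : ℕ} (hq : q ≠ 0) {x y : ℚ} (hx : amg_isR q x) (hy : amg_isR q y) :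
    amg_isR q (x + y) := by
  obtain ⟨m, e, rfl⟩ := hx
  obtain ⟨m', e', rfl⟩ := hy
  have hq' : (q : ℚ) ≠ 0 := by exact_mod_cast hq
  refine ⟨m * (q : ℤ) ^ e' + m' * (q : ℤ) ^ e, e + e', ?_⟩
  push_cast
  rw [pow_add]
  field_simp

theorem amg_isR_mul {q : ℕ} {x y : ℚ} (hx : amg_isR q x) (hy : amg_isR q y) :
    amg_isR q (x * y) := by
  obtain ⟨m, e, rfl⟩ := hx
  obtain ⟨m', e', rfl⟩ := hy
  refine ⟨m * m', e + e', ?_⟩
  push_cast
  rw [pow_add]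
  ring

theorem amg_isR_sub {q : ℕ} (hq : q ≠ 0) {x y : ℚ} (hx : amg_isR q x) (hy : amg_isR q y) :
    amg_isR q (x - y) := by
  rw [sub_eq_add_neg]
  exact amg_isR_add hq hx (amg_isR_neg hy)

theorem amg_isR_inv_pow (q : ℕ) (e : ℕ) : amg_isR q (((q : ℚ) ^ e)⁻¹) := ⟨1, e, by simp⟩

theorem amg_isR_natCast (q : ℕ) (m : ℕ) : amg_isR q (m : ℚ) := ⟨m, 0, by simp⟩

/-- underlying function of the twist `[[a,b],[c,d]] ↦ [[a, b/t],[t c, d]]` -/
def amg_twFun (t : ℚ) (ht : t ≠ 0) (g : AmgSL) : AmgSL :=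
  ⟨!![g.1 0 0, g.1 0 1 / t; t * g.1 1 0, g.1 1 1], by
    have h := g.2
    rw [Matrix.det_fin_two] at h
    rw [Matrix.det_fin_two_of]
    field_simp
    linarith⟩

theorem amg_twFun_coe (t : ℚ) (ht : t ≠ 0) (g : AmgSL) :
    (amg_twFun t ht g).1 = !![g.1 0 0, g.1 0 1 / t; t * g.1 1 0, g.1 1 1] := rfl

/-- the twist `[[a,b],[c,d]] ↦ [[a, b/t],[t c, d]]` -/
def amg_tw (t : ℚ) (ht : t ≠ 0) : AmgSL →* AmgSL where
  toFun := amg_twFun t ht
  map_one' := by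
    apply Subtype.ext
    rw [amg_twFun_coe]
    ext i j
    fin_cases i <;> fin_cases j <;> simp
  map_mul' g h := by
    apply Subtype.ext
    rw [Matrix.SpecialLinearGroup.coe_mul, amg_twFun_coe, amg_twFun_coe, amg_twFun_coe,
      Matrix.SpecialLinearGroup.coe_mul]
    ext i j
    fin_cases i <;> fin_cases j <;>
      simp [Matrix.mul_apply, Fin.sum_univ_two] <;> field_simp

@[simp] theorem amg_tw_apply_00 (t : ℚ) (ht : t ≠ 0) (g : AmgSL) :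
    (amg_tw t ht g).1 0 0 = g.1 0 0 := rfl
@[simp] theorem amg_tw_apply_01 (t : ℚ) (ht : t ≠ 0) (g : AmgSL) :
    (amg_tw t ht g).1 0 1 = g.1 0 1 / t := rfl
@[simp] theorem amg_tw_apply_10 (t : ℚ) (ht : t ≠ 0) (g : AmgSL) :
    (amg_tw t ht g).1 1 0 = t * g.1 1 0 := rfl
@[simp] theorem amg_tw_apply_11 (t : ℚ) (ht : t ≠ 0) (g : AmgSL) :
    (amg_tw t ht g).1 1 1 = g.1 1 1 := rfl

theorem amg_tw_inv_tw (t : ℚ) (ht : t ≠ 0) (g : AmgSL) :
    amg_tw t⁻¹ (inv_ne_zero ht) (amg_tw t ht g) = g := by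
  apply Subtype.ext
  ext i j
  fin_cases i <;> fin_cases j
  · exact amg_tw_apply_00 _ _ _
  · show (amg_tw t ht g).1 0 1 / t⁻¹ = g.1 0 1
    rw [amg_tw_apply_01]; field_simp
  · show t⁻¹ * (amg_tw t ht g).1 1 0 = g.1 1 0
    rw [amg_tw_apply_10]; field_simp
  · exact amg_tw_apply_11 _ _ _

theorem amg_tw_tw_inv (t : ℚ) (ht : t ≠ 0) (g : AmgSL) :
    amg_tw t ht (amg_tw t⁻¹ (inv_ne_zero ht) g) = g := by
  apply Subtype.ext
  ext i j
  fin_cases i <;> fin_cases j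
  · exact amg_tw_apply_00 _ _ _
  · show (amg_tw t⁻¹ (inv_ne_zero ht) g).1 0 1 / t = g.1 0 1
    rw [amg_tw_apply_01]; field_simp
  · show t * (amg_tw t⁻¹ (inv_ne_zero ht) g).1 1 0 = g.1 1 0
    rw [amg_tw_apply_10]; field_simp
  · exact amg_tw_apply_11 _ _ _

theorem amg_tw_injective (t : ℚ) (ht : t ≠ 0) : Function.Injective (amg_tw t ht) := by
  intro g h hgh
  rw [← amg_tw_inv_tw t ht g, hgh, amg_tw_inv_tw]

/-- the image of `SL(2,ℤ)` in `SL(2,ℚ)` -/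
def amg_castZ : Matrix.SpecialLinearGroup (Fin 2) ℤ →* AmgSL :=
  Matrix.SpecialLinearGroup.map (Int.castRingHom ℚ)

@[simp] theorem amg_castZ_apply (γ : Matrix.SpecialLinearGroup (Fin 2) ℤ) (i j : Fin 2) :
    (amg_castZ γ).1 i j = ((γ.1 i j : ℤ) : ℚ) := rfl

theorem amg_castZ_injective : Function.Injective amg_castZ := by
  intro γ γ' h
  ext i j
  have := congrArg (fun g : AmgSL => g.1 i j) h
  simpa using this

/-- image of `Gamma0(N)` in `SL(2,ℚ)` -/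
def amg_Gam (N : ℕ) : Subgroup AmgSL := (CongruenceSubgroup.Gamma0 N).map amg_castZ

/-- `eta^-1 Gamma0(N) eta`, `eta = diag(q,1)` -/
def amg_GamE (N q : ℕ) (hq : (q : ℚ) ≠ 0) : Subgroup AmgSL := (amg_Gam N).map (amg_tw q hq)

/-- `Gamma0(N)(ℤ[1/q])` -/
def amg_Delta (N q : ℕ) (hq : q ≠ 0) : Subgroup AmgSL where
  carrier := {g | (∀ i j, amg_isR q (g.1 i j)) ∧ ∃ x : ℚ, amg_isR q x ∧ g.1 1 0 = (N : ℚ) * x}
  one_mem' := by
    refine ⟨fun i j => ?_, 0, amg_isR_zero q, by simp⟩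
    fin_cases i <;> fin_cases j <;> simp [amg_isR_one, amg_isR_zero]
  mul_mem' := by
    rintro g h ⟨hg, x, hx, hgx⟩ ⟨hh, y, hy, hhy⟩
    refine ⟨fun i j => ?_, x * h.1 0 0 + g.1 1 1 * y, ?_, ?_⟩
    · rw [Matrix.SpecialLinearGroup.coe_mul, Matrix.mul_apply, Fin.sum_univ_two]
      exact amg_isR_add hq (amg_isR_mul (hg i 0) (hh 0 j)) (amg_isR_mul (hg i 1) (hh 1 j))
    · exact amg_isR_add hq (amg_isR_mul hx (hh 0 0)) (amg_isR_mul (hg 1 1) hy)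
    · rw [Matrix.SpecialLinearGroup.coe_mul, Matrix.mul_apply, Fin.sum_univ_two, hgx, hhy]
      ring
  inv_mem' := by
    rintro g ⟨hg, x, hx, hgx⟩
    refine ⟨fun i j => ?_, -x, amg_isR_neg hx, ?_⟩
    · rw [Matrix.SpecialLinearGroup.coe_inv, Matrix.adjugate_fin_two]
      fin_cases i <;> fin_cases j <;> simp [hg, amg_isR_neg]
    · rw [Matrix.SpecialLinearGroup.coe_inv, Matrix.adjugate_fin_two]
      simp [hgx]

theorem amg_mem_Delta_iff {N q : ℕ} (hq : q ≠ 0) (g : AmgSL) :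
    g ∈ amg_Delta N q hq ↔
      (∀ i j, amg_isR q (g.1 i j)) ∧ ∃ x : ℚ, amg_isR q x ∧ g.1 1 0 = (N : ℚ) * x := Iff.rfl

theorem amg_mem_Gam_iff {N : ℕ} (g : AmgSL) :
    g ∈ amg_Gam N ↔
      (∀ i j, ∃ m : ℤ, g.1 i j = (m : ℚ)) ∧ ∃ m : ℤ, g.1 1 0 = (N : ℚ) * (m : ℚ) := by
  constructor
  · rintro ⟨γ, hγ, rfl⟩
    refine ⟨fun i j => ⟨γ.1 i j, rfl⟩, ?_⟩
    have h : ((γ.1 1 0 : ℤ) : ZMod N) = 0 := by
      simpa [CongruenceSubgroup.Gamma0_mem] using hγ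
    rw [ZMod.intCast_zmod_eq_zero_iff_dvd] at h
    obtain ⟨m, hm⟩ := h
    refine ⟨m, ?_⟩
    rw [amg_castZ_apply, hm]
    push_cast
    ring
  · rintro ⟨hent, m, hm⟩
    choose e he using hent
    have hdet : Matrix.det (Matrix.of e : Matrix (Fin 2) (Fin 2) ℤ) = 1 := by
      have h := g.2
      rw [Matrix.det_fin_two] at h ⊢
      simp only [Matrix.of_apply]
      rw [he 0 0, he 1 1, he 0 1, he 1 0] at h
      exact_mod_cast h
    let γ : Matrix.SpecialLinearGroup (Fin 2) ℤ := ⟨Matrix.of e, hdet⟩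
    have hγe : ∀ i j, γ.1 i j = e i j := fun i j => rfl
    refine ⟨γ, ?_, ?_⟩
    · show γ ∈ CongruenceSubgroup.Gamma0 N
      rw [CongruenceSubgroup.Gamma0_mem, hγe]
      rw [ZMod.intCast_zmod_eq_zero_iff_dvd]
      refine ⟨m, ?_⟩
      have : ((e 1 0 : ℤ) : ℚ) = ((N : ℤ) * m : ℤ) := by
        rw [← he 1 0, hm]; push_cast; ring
      exact_mod_cast this
    · ext i j
      rw [amg_castZ_apply, hγe]
      exact (he i j).symm

theorem amg_Gam_le_Delta (N q : ℕ) (hq : q ≠ 0) : amg_Gam N ≤ amg_Delta N q hq := by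
  intro g hg
  rw [amg_mem_Gam_iff] at hg
  obtain ⟨hent, m, hm⟩ := hg
  refine ⟨fun i j => ?_, m, amg_isR_intCast q m, hm⟩
  obtain ⟨e, he⟩ := hent i j
  rw [he]
  exact amg_isR_intCast q e

theorem amg_GamE_le_Delta (N q : ℕ) (hq : q ≠ 0) :
    amg_GamE N q (by exact_mod_cast hq) ≤ amg_Delta N q hq := by
  rintro g ⟨γ, hγ, rfl⟩
  have hγ' := (amg_mem_Gam_iff γ).mp hγ
  obtain ⟨hent, m, hm⟩ := hγ'
  have hq' : (q : ℚ) ≠ 0 := by exact_mod_cast hq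
  refine ⟨fun i j => ?_, (q : ℚ) * m, amg_isR_mul (amg_isR_natCast q q) (amg_isR_intCast q m), ?_⟩
  · fin_cases i <;> fin_cases j
    · obtain ⟨e, he⟩ := hent 0 0
      simp only [Fin.zero_eta, Fin.isValue, amg_tw_apply_00]
      rw [he]; exact amg_isR_intCast q e
    · obtain ⟨e, he⟩ := hent 0 1
      simp only [Fin.zero_eta, Fin.isValue, Fin.mk_one, amg_tw_apply_01]
      rw [he]; exact ⟨e, 1, by simp⟩
    · obtain ⟨e, he⟩ := hent 1 0
      simp only [Fin.mk_one, Fin.isValue, Fin.zero_eta, amg_tw_apply_10]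
      rw [he]; exact amg_isR_mul (amg_isR_natCast q q) (amg_isR_intCast q e)
    · obtain ⟨e, he⟩ := hent 1 1
      simp only [Fin.mk_one, Fin.isValue, amg_tw_apply_11]
      rw [he]; exact amg_isR_intCast q e
  · simp only [Fin.isValue, amg_tw_apply_10]
    rw [hm]; ring

end Fermat.Agent.S41x
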