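/-
S41 project, block D1 (AMALGAM), item (iii) GENERATION (helper64; prefix `amgg_`).  Mathlib only.

`q` prime, `N` coprime to `q`, everything inside `SL(2, ℚ)`:
* `amgg_InGam N g`     : `g` has integer entries and `N ∣ c`            (image of `Γ₀(N)`)
* `amgg_InGamE N q g`  : `g = [[a, q b], [c / q, d]]`, `a b c d ∈ ℤ`, `N ∣ c`  (`= η Γ₀(N) η⁻¹`, `η = diag(q,1)`)
* `amgg_InDelta N q g` : `g = q^{-e} [[A, B], [C, D]]`, `A B C D ∈ ℤ`, `N ∣ C`  (`= Γ₀(N)[1/q]`)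

Main theorem `amgg_mem_closure`: every `g` with `amgg_InDelta N q g` lies in the subgroup generated
by `amgg_InGam N` and `amgg_InGamE N q` (descent on `e`: one element of `Γ` makes the first row of
`q^e g` divisible by `q`, one element of `η Γ η⁻¹` then lowers `e` by one).
-/
import Mathlib

set_option autoImplicit false

open scoped MatrixGroups

namespace Fermat.Agent.S41x

/-- `g ∈ SL(2,ℚ)` is the image of an element of `Γ₀(N)`. -/
def amgg_InGam (N : ℕ) (g : SL(2, ℚ)) : Prop :=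
  ∃ a b c d : ℤ, (N : ℤ) ∣ c ∧ g 0 0 = a ∧ g 0 1 = b ∧ g 1 0 = c ∧ g 1 1 = d

/-- `g ∈ SL(2,ℚ)` lies in `η Γ₀(N) η⁻¹`, `η = diag(q, 1)`. -/
def amgg_InGamE (N q : ℕ) (g : SL(2, ℚ)) : Prop :=
  ∃ a b c d : ℤ, (N : ℤ) ∣ c ∧ g 0 0 = a ∧ g 0 1 = (q : ℚ) * b ∧ g 1 0 = (c : ℚ) / q ∧ g 1 1 = d

/-- `g ∈ SL(2,ℚ)` has entries in `ℤ[1/q]` and lower left entry in `N ℤ[1/q]`. -/
def amgg_InDelta (N q : ℕ) (g : SL(2, ℚ)) : Prop :=
  ∃ (e : ℕ) (A B C D : ℤ), (N : ℤ) ∣ C ∧ g 0 0 = (A : ℚ) / (q : ℚ) ^ e ∧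
    g 0 1 = (B : ℚ) / (q : ℚ) ^ e ∧ g 1 0 = (C : ℚ) / (q : ℚ) ^ e ∧ g 1 1 = (D : ℚ) / (q : ℚ) ^ e

/-- the element `[[x, y], [z, w]]` of `SL(2,ℚ)` with integer entries. -/
def amgg_mk (x y z w : ℤ) (h : x * w - y * z = 1) : SL(2, ℚ) :=
  ⟨!![(x : ℚ), y; z, w], by
    rw [Matrix.det_fin_two_of]
    exact_mod_cast h⟩

/-- the element `[[x, q y], [z / q, w]]` of `SL(2,ℚ)`. -/
def amgg_mkE (q : ℕ) (hq : q ≠ 0) (x y z w : ℤ) (h : x * w - y * z = 1) : SL(2, ℚ) :=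
  ⟨!![(x : ℚ), (q : ℚ) * y; (z : ℚ) / q, w], by
    rw [Matrix.det_fin_two_of]
    have hq' : (q : ℚ) ≠ 0 := by exact_mod_cast hq
    have h' : (x : ℚ) * w - y * z = 1 := by exact_mod_cast h
    field_simp
    linarith⟩

theorem amgg_mk_inGam (N : ℕ) (x y z w : ℤ) (h : x * w - y * z = 1) (hz : (N : ℤ) ∣ z) :
    amgg_InGam N (amgg_mk x y z w h) :=
  ⟨x, y, z, w, hz, rfl, rfl, rfl, rfl⟩

theorem amgg_mkE_inGamE (N q : ℕ) (hq : q ≠ 0) (x y z w : ℤ) (h : x * w - y * z = 1)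
    (hz : (N : ℤ) ∣ z) : amgg_InGamE N q (amgg_mkE q hq x y z w h) :=
  ⟨x, y, z, w, hz, rfl, rfl, rfl, rfl⟩

/-! ### arithmetic lemmas modulo `q` -/

/-- an integer prime to the prime `q` is invertible modulo `q`. -/
theorem amgg_exists_inv {q : ℕ} (hq : q.Prime) {c : ℤ} (hc : ¬ (q : ℤ) ∣ c) :
    ∃ c' : ℤ, (q : ℤ) ∣ c * c' - 1 := by
  have hp : Prime (q : ℤ) := Nat.prime_iff_prime_int.mp hq
  have hcop : IsCoprime (q : ℤ) c := (Prime.coprime_iff_not_dvd hp).mpr hc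
  obtain ⟨u, v, huv⟩ := hcop
  exact ⟨v, ⟨-u, by linear_combination huv⟩⟩

/-- rows of a matrix which is singular mod `q`: if the second row is non-zero mod `q`, the first
row is a multiple of it. -/
theorem amgg_row_dep {q : ℕ} (hq : q.Prime) {A B C D : ℤ} (hdet : (q : ℤ) ∣ A * D - B * C)
    (hCD : ¬ ((q : ℤ) ∣ C ∧ (q : ℤ) ∣ D)) :
    ∃ l : ℤ, (q : ℤ) ∣ A - l * C ∧ (q : ℤ) ∣ B - l * D := by
  have hp : Prime (q : ℤ) := Nat.prime_iff_prime_int.mp hq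
  by_cases hC : (q : ℤ) ∣ C
  · have hD : ¬ (q : ℤ) ∣ D := fun hD => hCD ⟨hC, hD⟩
    obtain ⟨D', hD'⟩ := amgg_exists_inv hq hD
    have hA : (q : ℤ) ∣ A := by
      have h1 : (q : ℤ) ∣ A * D := by
        have h2 : (q : ℤ) ∣ B * C := Dvd.dvd.mul_left hC B
        have := dvd_add hdet h2
        simpa using this
      rcases hp.dvd_or_dvd h1 with h | h
      · exact h
      · exact absurd h hD
    refine ⟨B * D', ?_, ?_⟩
    · exact dvd_sub hA (Dvd.dvd.mul_left hC _)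
    · obtain ⟨t, ht⟩ := hD'
      exact ⟨-(B * t), by linear_combination (-B) * ht⟩
  · obtain ⟨C', hC'⟩ := amgg_exists_inv hq hC
    refine ⟨A * C', ?_, ?_⟩
    · obtain ⟨t, ht⟩ := hC'
      exact ⟨-(A * t), by linear_combination (-A) * ht⟩
    · obtain ⟨t, ht⟩ := hC'
      obtain ⟨s, hs⟩ := hdet
      exact ⟨-(B * t) - C' * s, by linear_combination (-B) * ht - C' * hs⟩

/-- Step 1: an element of `Γ₀(N)` making the first row divisible by `q`. -/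
theorem amgg_step1 {q N : ℕ} (hq : q.Prime) (hNq : Nat.Coprime N q) {A B C D : ℤ}
    (hdet : (q : ℤ) ∣ A * D - B * C) :
    ∃ x y z w : ℤ, x * w - y * z = 1 ∧ (N : ℤ) ∣ z ∧ (q : ℤ) ∣ x * A + y * C ∧
      (q : ℤ) ∣ x * B + y * D := by
  by_cases hCD : (q : ℤ) ∣ C ∧ (q : ℤ) ∣ D
  · have hcop : IsCoprime (q : ℤ) (N : ℤ) := by
      rw [Int.isCoprime_iff_gcd_eq_one]
      simpa [Int.gcd_natCast_natCast] using hNq.symm
    obtain ⟨u, v, huv⟩ := hcop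
    refine ⟨q, 1, -(v * N), u, by linear_combination huv, ⟨-v, by ring⟩, ?_, ?_⟩
    · exact dvd_add (Dvd.intro _ rfl) (by simpa using hCD.1)
    · exact dvd_add (Dvd.intro _ rfl) (by simpa using hCD.2)
  · obtain ⟨l, h1, h2⟩ := amgg_row_dep hq hdet hCD
    refine ⟨1, -l, 0, 1, by ring, dvd_zero _, ?_, ?_⟩
    · have : (1 : ℤ) * A + -l * C = A - l * C := by ring
      rwa [this]
    · have : (1 : ℤ) * B + -l * D = B - l * D := by ring
      rwa [this]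

/-- Step 2: an element of `Γ₀(N)` making the second row divisible by `q`. -/
theorem amgg_step2 {q N : ℕ} (hq : q.Prime) (hNq : Nat.Coprime N q) {A B C D : ℤ}
    (hdet : (q : ℤ) ∣ A * D - B * C) :
    ∃ x y z w : ℤ, x * w - y * z = 1 ∧ (N : ℤ) ∣ z ∧ (q : ℤ) ∣ z * A + w * C ∧
      (q : ℤ) ∣ z * B + w * D := by
  have hcop : IsCoprime (q : ℤ) (N : ℤ) := by
    rw [Int.isCoprime_iff_gcd_eq_one]
    simpa [Int.gcd_natCast_natCast] using hNq.symm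
  obtain ⟨u, v, huv⟩ := hcop
  by_cases hAB : (q : ℤ) ∣ A ∧ (q : ℤ) ∣ B
  · refine ⟨u, -v, N, q, by linear_combination huv, dvd_refl _, ?_, ?_⟩
    · exact dvd_add (Dvd.dvd.mul_left hAB.1 _) (Dvd.intro _ rfl)
    · exact dvd_add (Dvd.dvd.mul_left hAB.2 _) (Dvd.intro _ rfl)
  · have hdet' : (q : ℤ) ∣ C * B - D * A := by
      obtain ⟨s, hs⟩ := hdet
      exact ⟨-s, by linear_combination (-1 : ℤ) * hs⟩
    obtain ⟨l, ⟨s1, h1⟩, ⟨s2, h2⟩⟩ := amgg_row_dep hq hdet' hAB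
    -- `N * v ≡ 1 mod q`
    refine ⟨1, 0, N * (-(l * v)), 1, by ring, Dvd.intro _ rfl, ?_, ?_⟩
    · exact ⟨s1 + l * A * u, by linear_combination h1 - (l * A) * huv⟩
    · exact ⟨s2 + l * B * u, by linear_combination h2 - (l * B) * huv⟩

/-! ### the descent -/

/-- the subgroup of `SL(2,ℚ)` generated by `Γ₀(N)` and `η Γ₀(N) η⁻¹`. -/
def amgg_H (N q : ℕ) : Subgroup SL(2, ℚ) :=
  Subgroup.closure {x | amgg_InGam N x ∨ amgg_InGamE N q x}

theorem amgg_mul_apply (a b : SL(2, ℚ)) (i j : Fin 2) :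
    (a * b) i j = a i 0 * b 0 j + a i 1 * b 1 j := by
  rw [Matrix.SpecialLinearGroup.coe_mul, Matrix.mul_apply, Fin.sum_univ_two]

theorem amgg_det_eq (g : SL(2, ℚ)) : g 0 0 * g 1 1 - g 0 1 * g 1 0 = 1 := by
  have := g.det_coe
  rwa [Matrix.det_fin_two] at this

theorem amgg_descent {q N : ℕ} (hq : q.Prime) (hNq : Nat.Coprime N q) :
    ∀ (e : ℕ) (g : SL(2, ℚ)) (A B C D : ℤ), (N : ℤ) ∣ C →
      g 0 0 = (A : ℚ) / (q : ℚ) ^ e → g 0 1 = (B : ℚ) / (q : ℚ) ^ e →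
      g 1 0 = (C : ℚ) / (q : ℚ) ^ e → g 1 1 = (D : ℚ) / (q : ℚ) ^ e → g ∈ amgg_H N q := by
  have hq0 : (q : ℚ) ≠ 0 := by exact_mod_cast hq.ne_zero
  have hqZ : (q : ℤ) ≠ 0 := by exact_mod_cast hq.ne_zero
  have hcopNq : IsCoprime (N : ℤ) (q : ℤ) := by
    rw [Int.isCoprime_iff_gcd_eq_one]
    simpa [Int.gcd_natCast_natCast] using hNq
  intro e
  induction e with
  | zero =>
    intro g A B C D hC h00 h01 h10 h11
    apply Subgroup.subset_closure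
    left
    exact ⟨A, B, C, D, hC, by simpa using h00, by simpa using h01, by simpa using h10,
      by simpa using h11⟩
  | succ e ih =>
    intro g A B C D hC h00 h01 h10 h11
    have hpe : ((q : ℚ) ^ e) ≠ 0 := pow_ne_zero _ hq0
    -- the determinant
    have hdetQ : (A : ℚ) * D - B * C = (q : ℚ) ^ (e + 1) * (q : ℚ) ^ (e + 1) := by
      have h := amgg_det_eq g
      rw [h00, h01, h10, h11] at h
      have hpe1 : ((q : ℚ) ^ (e + 1)) ≠ 0 := pow_ne_zero _ hq0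
      field_simp at h
      linarith
    have hdetZ : A * D - B * C = (q : ℤ) ^ (e + 1) * (q : ℤ) ^ (e + 1) := by exact_mod_cast hdetQ
    have hdet : (q : ℤ) ∣ A * D - B * C := by
      rw [hdetZ, pow_succ]
      exact ⟨(q : ℤ) ^ e * ((q : ℤ) ^ e * (q : ℤ)), by ring⟩
    -- Step 1
    obtain ⟨x, y, z, w, h1, hz, ⟨A₁, hA₁⟩, ⟨B₁, hB₁⟩⟩ := amgg_step1 hq hNq hdet
    set C₁ : ℤ := z * A + w * C with hC₁
    set D₁ : ℤ := z * B + w * D with hD₁
    have hNC₁ : (N : ℤ) ∣ C₁ := dvd_add (Dvd.dvd.mul_right hz A) (Dvd.dvd.mul_left hC w)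
    have hdet₁' : (q : ℤ) * (A₁ * D₁ - B₁ * C₁) = (q : ℤ) * ((q : ℤ) ^ e * (q : ℤ) ^ (e + 1)) := by
      have : (q : ℤ) * (A₁ * D₁ - B₁ * C₁) = (x * w - y * z) * (A * D - B * C) := by
        rw [hC₁, hD₁]
        linear_combination (z * B + w * D) * (-hA₁) + (z * A + w * C) * hB₁
      rw [this, h1, one_mul, hdetZ]
      ring
    have hdet₁ : (q : ℤ) ∣ A₁ * D₁ - B₁ * C₁ := by
      have h := mul_left_cancel₀ hqZ hdet₁'
      rw [h, pow_succ]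
      exact ⟨(q : ℤ) ^ e * (q : ℤ) ^ e, by ring⟩
    -- Step 2
    obtain ⟨x', y', z', w', h2, hz', ⟨C₂, hC₂⟩, ⟨D₂, hD₂⟩⟩ := amgg_step2 hq hNq hdet₁
    have hNC₂ : (N : ℤ) ∣ C₂ := by
      have h : (N : ℤ) ∣ (q : ℤ) * C₂ := by
        rw [← hC₂]
        exact dvd_add (Dvd.dvd.mul_right hz' A₁) (Dvd.dvd.mul_left hNC₁ w')
      exact hcopNq.dvd_of_dvd_mul_left h
    -- the two group elements
    set γ : SL(2, ℚ) := amgg_mk x y z w h1 with hγ
    set δ : SL(2, ℚ) := amgg_mkE q hq.ne_zero x' y' z' w' h2 with hδ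
    have hγmem : γ ∈ amgg_H N q :=
      Subgroup.subset_closure (Or.inl (amgg_mk_inGam N x y z w h1 hz))
    have hδmem : δ ∈ amgg_H N q :=
      Subgroup.subset_closure (Or.inr (amgg_mkE_inGamE N q hq.ne_zero x' y' z' w' h2 hz'))
    have hγ00 : γ 0 0 = x := rfl
    have hγ01 : γ 0 1 = y := rfl
    have hγ10 : γ 1 0 = z := rfl
    have hγ11 : γ 1 1 = w := rfl
    have hδ00 : δ 0 0 = x' := rfl
    have hδ01 : δ 0 1 = (q : ℚ) * y' := rfl
    have hδ10 : δ 1 0 = (z' : ℚ) / q := rfl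
    have hδ11 : δ 1 1 = w' := rfl
    -- rational versions of the integer identities
    have hA₁Q : (x : ℚ) * A + y * C = q * A₁ := by exact_mod_cast hA₁
    have hB₁Q : (x : ℚ) * B + y * D = q * B₁ := by exact_mod_cast hB₁
    have hC₁Q : (C₁ : ℚ) = z * A + w * C := by rw [hC₁]; push_cast; ring
    have hD₁Q : (D₁ : ℚ) = z * B + w * D := by rw [hD₁]; push_cast; ring
    have hC₂Q : (z' : ℚ) * A₁ + w' * C₁ = q * C₂ := by exact_mod_cast hC₂
    have hD₂Q : (z' : ℚ) * B₁ + w' * D₁ = q * D₂ := by exact_mod_cast hD₂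
    -- entries of `γ * g`
    have g00 : (γ * g) 0 0 = (A₁ : ℚ) / (q : ℚ) ^ e := by
      rw [amgg_mul_apply, hγ00, hγ01, h00, h10, pow_succ]
      field_simp
      linear_combination hA₁Q
    have g01 : (γ * g) 0 1 = (B₁ : ℚ) / (q : ℚ) ^ e := by
      rw [amgg_mul_apply, hγ00, hγ01, h01, h11, pow_succ]
      field_simp
      linear_combination hB₁Q
    have g10 : (γ * g) 1 0 = (C₁ : ℚ) / (q : ℚ) ^ (e + 1) := by
      rw [amgg_mul_apply, hγ10, hγ11, h00, h10, hC₁Q]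
      field_simp
    have g11 : (γ * g) 1 1 = (D₁ : ℚ) / (q : ℚ) ^ (e + 1) := by
      rw [amgg_mul_apply, hγ10, hγ11, h01, h11, hD₁Q]
      field_simp
    -- entries of `δ * (γ * g)`
    have k00 : (δ * (γ * g)) 0 0 = ((x' * A₁ + y' * C₁ : ℤ) : ℚ) / (q : ℚ) ^ e := by
      rw [amgg_mul_apply, hδ00, hδ01, g00, g10, pow_succ]
      push_cast
      field_simp
    have k01 : (δ * (γ * g)) 0 1 = ((x' * B₁ + y' * D₁ : ℤ) : ℚ) / (q : ℚ) ^ e := by
      rw [amgg_mul_apply, hδ00, hδ01, g01, g11, pow_succ]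
      push_cast
      field_simp
    have k10 : (δ * (γ * g)) 1 0 = (C₂ : ℚ) / (q : ℚ) ^ e := by
      rw [amgg_mul_apply, hδ10, hδ11, g00, g10, pow_succ]
      field_simp
      linear_combination hC₂Q
    have k11 : (δ * (γ * g)) 1 1 = (D₂ : ℚ) / (q : ℚ) ^ e := by
      rw [amgg_mul_apply, hδ10, hδ11, g01, g11, pow_succ]
      field_simp
      linear_combination hD₂Q
    have hmem := ih (δ * (γ * g)) _ _ C₂ D₂ hNC₂ k00 k01 k10 k11
    have : g = γ⁻¹ * (δ⁻¹ * (δ * (γ * g))) := by group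
    rw [this]
    exact Subgroup.mul_mem _ (Subgroup.inv_mem _ hγmem)
      (Subgroup.mul_mem _ (Subgroup.inv_mem _ hδmem) hmem)

/-- **GENERATION**: `Γ₀(N)[1/q]` is generated by `Γ₀(N)` and `η Γ₀(N) η⁻¹`. -/
theorem amgg_mem_closure {q N : ℕ} (hq : q.Prime) (hNq : Nat.Coprime N q) (g : SL(2, ℚ))
    (hg : amgg_InDelta N q g) : g ∈ amgg_H N q := by
  obtain ⟨e, A, B, C, D, hC, h00, h01, h10, h11⟩ := hg
  exact amgg_descent hq hNq e g A B C D hC h00 h01 h10 h11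

/-! ### `Γ₀(N)[1/q]` as a subgroup, and the equality `⟨Γ, η Γ η⁻¹⟩ = Γ₀(N)[1/q]` -/

theorem amgg_inDelta_of_inGam {N q : ℕ} {g : SL(2, ℚ)} (h : amgg_InGam N g) :
    amgg_InDelta N q g := by
  obtain ⟨a, b, c, d, hc, h00, h01, h10, h11⟩ := h
  exact ⟨0, a, b, c, d, hc, by simpa using h00, by simpa using h01, by simpa using h10,
    by simpa using h11⟩

theorem amgg_inDelta_of_inGamE {N q : ℕ} (hq : q ≠ 0) {g : SL(2, ℚ)} (h : amgg_InGamE N q g) :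
    amgg_InDelta N q g := by
  have hq0 : (q : ℚ) ≠ 0 := by exact_mod_cast hq
  obtain ⟨a, b, c, d, hc, h00, h01, h10, h11⟩ := h
  refine ⟨1, q * a, q * (q * b), c, q * d, hc, ?_, ?_, ?_, ?_⟩
  · rw [h00]; push_cast; field_simp
  · rw [h01]; push_cast; field_simp
  · rw [h10]; simp
  · rw [h11]; push_cast; field_simp

theorem amgg_inDelta_one (N q : ℕ) : amgg_InDelta N q 1 :=
  ⟨0, 1, 0, 0, 1, dvd_zero _, by simp, by simp, by simp, by simp⟩

theorem amgg_inDelta_mul {N q : ℕ} (hq : q ≠ 0) {g g' : SL(2, ℚ)} (h : amgg_InDelta N q g)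
    (h' : amgg_InDelta N q g') : amgg_InDelta N q (g * g') := by
  have hq0 : (q : ℚ) ≠ 0 := by exact_mod_cast hq
  obtain ⟨e, A, B, C, D, hC, h00, h01, h10, h11⟩ := h
  obtain ⟨e', A', B', C', D', hC', h00', h01', h10', h11'⟩ := h'
  have hpe : ((q : ℚ) ^ e) ≠ 0 := pow_ne_zero _ hq0
  have hpe' : ((q : ℚ) ^ e') ≠ 0 := pow_ne_zero _ hq0
  refine ⟨e + e', A * A' + B * C', A * B' + B * D', C * A' + D * C', C * B' + D * D',
    dvd_add (Dvd.dvd.mul_right hC _) (Dvd.dvd.mul_left hC' _), ?_, ?_, ?_, ?_⟩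
  · rw [amgg_mul_apply, h00, h01, h00', h10', pow_add]; push_cast; field_simp
  · rw [amgg_mul_apply, h00, h01, h01', h11', pow_add]; push_cast; field_simp
  · rw [amgg_mul_apply, h10, h11, h00', h10', pow_add]; push_cast; field_simp
  · rw [amgg_mul_apply, h10, h11, h01', h11', pow_add]; push_cast; field_simp

theorem amgg_inv_apply (g : SL(2, ℚ)) :
    g⁻¹ 0 0 = g 1 1 ∧ g⁻¹ 0 1 = -g 0 1 ∧ g⁻¹ 1 0 = -g 1 0 ∧ g⁻¹ 1 1 = g 0 0 := by
  rw [Matrix.SpecialLinearGroup.coe_inv, Matrix.adjugate_fin_two]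
  simp

theorem amgg_inDelta_inv {N q : ℕ} {g : SL(2, ℚ)} (h : amgg_InDelta N q g) :
    amgg_InDelta N q g⁻¹ := by
  obtain ⟨e, A, B, C, D, hC, h00, h01, h10, h11⟩ := h
  obtain ⟨i00, i01, i10, i11⟩ := amgg_inv_apply g
  refine ⟨e, D, -B, -C, A, (dvd_neg).mpr hC, ?_, ?_, ?_, ?_⟩
  · rw [i00, h11]
  · rw [i01, h01]; push_cast; ring
  · rw [i10, h10]; push_cast; ring
  · rw [i11, h00]

/-- `Γ₀(N)[1/q]` as a subgroup of `SL(2,ℚ)`. -/
def amgg_Delta (N q : ℕ) (hq : q ≠ 0) : Subgroup SL(2, ℚ) where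
  carrier := {g | amgg_InDelta N q g}
  mul_mem' := fun h h' => amgg_inDelta_mul hq h h'
  one_mem' := amgg_inDelta_one N q
  inv_mem' := fun h => amgg_inDelta_inv h

theorem amgg_mem_Delta_iff {N q : ℕ} (hq : q ≠ 0) (g : SL(2, ℚ)) :
    g ∈ amgg_Delta N q hq ↔ amgg_InDelta N q g := Iff.rfl

/-- **GENERATION**, subgroup form: `⟨Γ₀(N), η Γ₀(N) η⁻¹⟩ = Γ₀(N)[1/q]`. -/
theorem amgg_H_eq_Delta {q N : ℕ} (hq : q.Prime) (hNq : Nat.Coprime N q) :
    amgg_H N q = amgg_Delta N q hq.ne_zero := by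
  apply le_antisymm
  · rw [amgg_H, Subgroup.closure_le]
    rintro x (hx | hx)
    · exact amgg_inDelta_of_inGam hx
    · exact amgg_inDelta_of_inGamE hq.ne_zero hx
  · intro g hg
    exact amgg_mem_closure hq hNq g hg

end Fermat.Agent.S41x
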