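import Mathlib

/-!
# S41 block D1 (amalgam), part (iii): GENERATION, definition-independent core (helper22)

`amgg_core`: a subgroup `H` of `SL(2,ℚ)` containing `u(j)`, one matrix `[[1,b],[N,q t]]`,
the `η`-conjugates `[[1,0],[j/q,1]]` (`N ∣ j`) and `[[q t, q z],[N/q, 1]]`, and every integral
matrix with lower-left entry divisible by `N`, contains every `g` with `q^k g` integral and
`q^k g₁₀ ∈ N ℤ`.  Descent on `k` (two half-steps in the tree of `SL₂(ℚ_q)`), done by hand.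
-/

set_option autoImplicit false

namespace Fermat.Agent.S41x

open Matrix

/-- `SL(2,ℚ)`. -/
abbrev amgg_SLQ := Matrix.SpecialLinearGroup (Fin 2) ℚ

/-- explicit element of `SL(2,ℚ)`. -/
def amgg_mk (a b c d : ℚ) (h : a * d - b * c = 1) : amgg_SLQ :=
  ⟨!![a, b; c, d], by rw [Matrix.det_fin_two_of]; exact h⟩

@[simp] lemma amgg_mk_00 (a b c d : ℚ) (h : a * d - b * c = 1) : (amgg_mk a b c d h) 0 0 = a := rfl
@[simp] lemma amgg_mk_01 (a b c d : ℚ) (h : a * d - b * c = 1) : (amgg_mk a b c d h) 0 1 = b := rfl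
@[simp] lemma amgg_mk_10 (a b c d : ℚ) (h : a * d - b * c = 1) : (amgg_mk a b c d h) 1 0 = c := rfl
@[simp] lemma amgg_mk_11 (a b c d : ℚ) (h : a * d - b * c = 1) : (amgg_mk a b c d h) 1 1 = d := rfl

lemma amgg_det (g : amgg_SLQ) : g 0 0 * g 1 1 - g 0 1 * g 1 0 = 1 := by
  have := g.det_coe
  rw [Matrix.det_fin_two] at this
  exact this

/-- entries of `x⁻¹ * g`. -/
lemma amgg_inv_mul_apply (x g : amgg_SLQ) :
    (x⁻¹ * g) 0 0 = x 1 1 * g 0 0 - x 0 1 * g 1 0 ∧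
    (x⁻¹ * g) 0 1 = x 1 1 * g 0 1 - x 0 1 * g 1 1 ∧
    (x⁻¹ * g) 1 0 = - x 1 0 * g 0 0 + x 0 0 * g 1 0 ∧
    (x⁻¹ * g) 1 1 = - x 1 0 * g 0 1 + x 0 0 * g 1 1 := by
  simp only [Matrix.SpecialLinearGroup.coe_mul, Matrix.SpecialLinearGroup.coe_inv,
    Matrix.adjugate_fin_two, Matrix.mul_apply, Fin.sum_univ_two, Matrix.of_apply,
    Matrix.cons_val', Matrix.cons_val_zero, Matrix.cons_val_one, Matrix.cons_val_fin_one]
  refine ⟨by ring, by ring, trivial, trivial⟩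

/-- rows of a `2×2` integer matrix of determinant `≡ 0 mod q` are proportional mod `q`. -/
lemma amgg_exists_mul (q : ℕ) (hq : q.Prime) (A B C D : ℤ) (hdet : (q:ℤ) ∣ A*D - B*C)
    (h : ¬ ((q:ℤ) ∣ C ∧ (q:ℤ) ∣ D)) : ∃ j : ℤ, (q:ℤ) ∣ A - j*C ∧ (q:ℤ) ∣ B - j*D := by
  have : Fact q.Prime := ⟨hq⟩
  have key : ∀ x : ℤ, ((x : ZMod q) = 0 ↔ (q:ℤ) ∣ x) :=
    fun x => ZMod.intCast_zmod_eq_zero_iff_dvd x q
  have hdet' : (A : ZMod q) * D - B * C = 0 := by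
    have := (key (A*D - B*C)).2 hdet
    push_cast at this
    exact this
  by_cases hC : (q:ℤ) ∣ C
  · have hD : ¬ (q:ℤ) ∣ D := fun hD => h ⟨hC, hD⟩
    have hC0 : (C : ZMod q) = 0 := (key C).2 hC
    have hD0 : (D : ZMod q) ≠ 0 := fun h0 => hD ((key D).1 h0)
    obtain ⟨j, hj⟩ := ZMod.intCast_surjective ((B : ZMod q) * (D : ZMod q)⁻¹)
    refine ⟨j, (key _).1 ?_, (key _).1 ?_⟩
    · push_cast
      rw [hj, hC0, mul_zero, sub_zero]
      have : (A : ZMod q) * D = 0 := by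
        have := hdet'
        rw [hC0, mul_zero, sub_zero] at this
        exact this
      rcases mul_eq_zero.1 this with h1 | h1
      · exact h1
      · exact absurd h1 hD0
    · push_cast
      rw [hj]
      field_simp
      ring
  · have hC0 : (C : ZMod q) ≠ 0 := fun h0 => hC ((key C).1 h0)
    obtain ⟨j, hj⟩ := ZMod.intCast_surjective ((A : ZMod q) * (C : ZMod q)⁻¹)
    refine ⟨j, (key _).1 ?_, (key _).1 ?_⟩
    · push_cast
      rw [hj]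
      field_simp
      ring
    · push_cast
      rw [hj]
      have : (B : ZMod q) = A * D * (C : ZMod q)⁻¹ := by
        field_simp
        linear_combination -hdet'
      rw [this]
      ring

lemma amgg_bezout (N q : ℕ) (h : Nat.Coprime N q) : ∃ x y : ℤ, (q:ℤ) * x + (N:ℤ) * y = 1 := by
  have := Nat.Coprime.isCoprime (Nat.coprime_comm.mp h)
  obtain ⟨a, b, hab⟩ := this
  exact ⟨a, b, by linarith⟩

lemma amgg_crt (N q : ℕ) (h : Nat.Coprime N q) (j₀ : ℤ) :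
    ∃ j : ℤ, (q:ℤ) ∣ j - j₀ ∧ (N:ℤ) ∣ j := by
  obtain ⟨x, y, hxy⟩ := amgg_bezout N q h
  refine ⟨j₀ * (N * y), ⟨-(j₀ * x), ?_⟩, ⟨j₀ * y, by ring⟩⟩
  have : (N:ℤ) * y = 1 - q * x := by linarith
  rw [this]; ring

/-- The hypotheses on the subgroup `H` (it contains the generators of `Γ₀(N)` and of its
`η`-conjugate that are used in the descent). -/
structure amgg_Hyp (N q : ℕ) (H : Subgroup amgg_SLQ) : Prop where
  h_u : ∀ j : ℤ, amgg_mk 1 j 0 1 (by ring) ∈ H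
  h_r : ∀ b t : ℤ, ∀ h : (1:ℚ) * ((q:ℚ) * t) - b * N = 1, amgg_mk 1 b N ((q:ℚ) * t) h ∈ H
  h_l : ∀ j : ℤ, (N:ℤ) ∣ j → amgg_mk 1 0 ((j:ℚ) / q) 1 (by ring) ∈ H
  h_s : ∀ t z : ℤ, ∀ h : ((q:ℚ) * t) * 1 - ((q:ℚ) * z) * ((N:ℚ) / q) = 1,
    amgg_mk ((q:ℚ) * t) ((q:ℚ) * z) ((N:ℚ) / q) 1 h ∈ H
  h_base : ∀ g : amgg_SLQ, (∃ A B C D : ℤ, g 0 0 = A ∧ g 0 1 = B ∧ g 1 0 = C ∧ g 1 1 = D ∧
    (N:ℤ) ∣ C) → g ∈ H

/-- first half-step: an element `r` of `Γ₀(N)` moving the first edge of the geodesic to the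
standard edge. -/
lemma amgg_half1 {N q : ℕ} (hq : q.Prime) (hNq : Nat.Coprime N q) {H : Subgroup amgg_SLQ}
    (hH : amgg_Hyp N q H) (A B C D : ℤ) (hdet : (q:ℤ) ∣ A*D - B*C) :
    ∃ r ∈ H, ∃ r1 r2 r3 r4 : ℤ, r 0 0 = r1 ∧ r 0 1 = r2 ∧ r 1 0 = r3 ∧ r 1 1 = r4 ∧
      (N:ℤ) ∣ r3 ∧ (q:ℤ) ∣ r4 * A - r2 * C ∧ (q:ℤ) ∣ r4 * B - r2 * D := by
  by_cases h : (q:ℤ) ∣ C ∧ (q:ℤ) ∣ D
  · obtain ⟨x, y, hxy⟩ := amgg_bezout N q hNq
    have hx : (1:ℚ) * ((q:ℚ) * (x:ℤ)) - ((-y : ℤ) : ℚ) * N = 1 := by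
      have : ((q:ℤ) * x + (N:ℤ) * y : ℚ) = 1 := by exact_mod_cast hxy
      push_cast at this ⊢
      linarith
    refine ⟨_, hH.h_r (-y) x hx, 1, -y, N, q * x, by simp, by simp, by simp, by simp,
      dvd_rfl, ?_, ?_⟩
    · obtain ⟨c, hc⟩ := h.1
      exact ⟨x * A + y * c, by rw [hc]; ring⟩
    · obtain ⟨d, hd⟩ := h.2
      exact ⟨x * B + y * d, by rw [hd]; ring⟩
  · obtain ⟨j, hj1, hj2⟩ := amgg_exists_mul q hq A B C D hdet h
    refine ⟨_, hH.h_u j, 1, j, 0, 1, by simp, by simp, by simp, by simp, dvd_zero _, ?_, ?_⟩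
    · simpa using hj1
    · simpa using hj2

/-- second half-step: an element `b` of `η Γ₀(N) η⁻¹`. -/
lemma amgg_half2 {N q : ℕ} (hq : q.Prime) (hNq : Nat.Coprime N q) {H : Subgroup amgg_SLQ}
    (hH : amgg_Hyp N q H) (α β γ δ : ℤ) (hdet : (q:ℤ) ∣ α*δ - β*γ) :
    ∃ b ∈ H, ∃ s1 s2 s3 s4 : ℤ, b 0 0 = s1 ∧ b 0 1 = (q:ℚ) * s2 ∧ b 1 0 = (s3:ℚ) / q ∧
      b 1 1 = s4 ∧ (N:ℤ) ∣ s3 ∧ (q:ℤ) ∣ -s3 * α + s1 * γ ∧ (q:ℤ) ∣ -s3 * β + s1 * δ := by
  by_cases h : (q:ℤ) ∣ α ∧ (q:ℤ) ∣ β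
  · obtain ⟨x, y, hxy⟩ := amgg_bezout N q hNq
    have hx : ((q:ℚ) * (x:ℤ)) * 1 - ((q:ℚ) * ((-y:ℤ):ℚ)) * ((N:ℚ) / q) = 1 := by
      have hq0 : (q:ℚ) ≠ 0 := by exact_mod_cast hq.ne_zero
      have : ((q:ℤ) * x + (N:ℤ) * y : ℚ) = 1 := by exact_mod_cast hxy
      push_cast at this ⊢
      field_simp
      linarith
    refine ⟨_, hH.h_s x (-y) hx, q * x, -y, N, 1, by simp, by simp, by simp, by simp,
      dvd_rfl, ?_, ?_⟩
    · obtain ⟨c, hc⟩ := h.1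
      exact ⟨-N * c + x * γ, by rw [hc]; ring⟩
    · obtain ⟨d, hd⟩ := h.2
      exact ⟨-N * d + x * δ, by rw [hd]; ring⟩
  · have hdet' : (q:ℤ) ∣ γ * β - δ * α := by
      have : γ * β - δ * α = -(α*δ - β*γ) := by ring
      rw [this]; exact (dvd_neg).2 hdet
    obtain ⟨j₀, hj1, hj2⟩ := amgg_exists_mul q hq γ δ α β hdet' h
    obtain ⟨j, hjq, hjN⟩ := amgg_crt N q hNq j₀
    refine ⟨_, hH.h_l j hjN, 1, 0, j, 1, by simp, by simp, by simp, by simp, hjN, ?_, ?_⟩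
    · have : -j * α + 1 * γ = (γ - j₀ * α) - (j - j₀) * α := by ring
      rw [this]; exact dvd_sub hj1 (Dvd.dvd.mul_right hjq _)
    · have : -j * β + 1 * δ = (δ - j₀ * β) - (j - j₀) * β := by ring
      rw [this]; exact dvd_sub hj2 (Dvd.dvd.mul_right hjq _)

/-- **Generation core.** Descent on `k`. -/
theorem amgg_core {N q : ℕ} (hq : q.Prime) (hNq : Nat.Coprime N q) {H : Subgroup amgg_SLQ}
    (hH : amgg_Hyp N q H) : ∀ (k : ℕ) (g : amgg_SLQ),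
    (∃ A B C D : ℤ, (q:ℚ)^k * g 0 0 = A ∧ (q:ℚ)^k * g 0 1 = B ∧ (q:ℚ)^k * g 1 0 = C ∧
      (q:ℚ)^k * g 1 1 = D ∧ (N:ℤ) ∣ C) → g ∈ H := by
  intro k
  induction k with
  | zero =>
    rintro g ⟨A, B, C, D, hA, hB, hC, hD, hN⟩
    exact hH.h_base g ⟨A, B, C, D, by simpa using hA, by simpa using hB, by simpa using hC,
      by simpa using hD, hN⟩
  | succ k ih =>
    rintro g ⟨A, B, C, D, hA, hB, hC, hD, hN⟩
    have hq0 : (q:ℚ) ≠ 0 := by exact_mod_cast hq.ne_zero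
    have hdetQ : (A:ℚ) * D - B * C = (q:ℚ)^(2*k+2) := by
      rw [← hA, ← hB, ← hC, ← hD]
      have := amgg_det g
      have e : (q:ℚ)^(2*k+2) = (q:ℚ)^(k+1) * (q:ℚ)^(k+1) := by rw [← pow_add]; congr 1; ring
      rw [e]
      linear_combination ((q:ℚ)^(k+1) * (q:ℚ)^(k+1)) * this
    have hdetZ : A * D - B * C = (q:ℤ)^(2*k+2) := by exact_mod_cast hdetQ
    have hdvd : (q:ℤ) ∣ A * D - B * C := by
      rw [hdetZ]; exact dvd_pow_self _ (by omega)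
    obtain ⟨r, hrH, r1, r2, r3, r4, hr00, hr01, hr10, hr11, hNr3, ⟨α, hα⟩, ⟨β, hβ⟩⟩ :=
      amgg_half1 hq hNq hH A B C D hdvd
    have hrdet : r1 * r4 - r2 * r3 = 1 := by
      have := amgg_det r
      rw [hr00, hr01, hr10, hr11] at this
      exact_mod_cast this
    have h2 : (q:ℤ) * (α * (-r3 * B + r1 * D) - β * (-r3 * A + r1 * C)) = (q:ℤ)^(2*k+2) := by
      rw [← hdetZ]
      linear_combination (-(-r3 * B + r1 * D)) * hα + (-r3 * A + r1 * C) * hβ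
        + (A * D - B * C) * hrdet
    have hqZ : (q:ℤ) ≠ 0 := by exact_mod_cast hq.ne_zero
    have h3 : α * (-r3 * B + r1 * D) - β * (-r3 * A + r1 * C) = (q:ℤ)^(2*k+1) := by
      have e : (q:ℤ)^(2*k+2) = (q:ℤ) * (q:ℤ)^(2*k+1) := by rw [← pow_succ']
      rw [e] at h2
      exact mul_left_cancel₀ hqZ h2
    have hdvd2 : (q:ℤ) ∣ α * (-r3 * B + r1 * D) - β * (-r3 * A + r1 * C) := by
      rw [h3]; exact dvd_pow_self _ (by omega)
    obtain ⟨b, hbH, s1, s2, s3, s4, hb00, hb01, hb10, hb11, hNs3, ⟨C', hC'⟩, ⟨D', hD'⟩⟩ :=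
      amgg_half2 hq hNq hH α β (-r3 * A + r1 * C) (-r3 * B + r1 * D) hdvd2
    -- rational versions of the integrality relations
    have eA : (q:ℚ)^k * (r4 * g 0 0 - r2 * g 1 0) = α := by
      have h1 : (q:ℚ) * ((q:ℚ)^k * (r4 * g 0 0 - r2 * g 1 0)) = (q:ℚ) * α := by
        have hαQ : ((r4 * A - r2 * C : ℤ) : ℚ) = ((q * α : ℤ) : ℚ) := by exact_mod_cast hα
        push_cast at hαQ
        rw [← hαQ, ← hA, ← hC]; ring
      exact mul_left_cancel₀ hq0 h1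
    have eB : (q:ℚ)^k * (r4 * g 0 1 - r2 * g 1 1) = β := by
      have h1 : (q:ℚ) * ((q:ℚ)^k * (r4 * g 0 1 - r2 * g 1 1)) = (q:ℚ) * β := by
        have hβQ : ((r4 * B - r2 * D : ℤ) : ℚ) = ((q * β : ℤ) : ℚ) := by exact_mod_cast hβ
        push_cast at hβQ
        rw [← hβQ, ← hB, ← hD]; ring
      exact mul_left_cancel₀ hq0 h1
    have eC : (q:ℚ)^k * (q * (-r3 * g 0 0 + r1 * g 1 0)) = ((-r3 * A + r1 * C : ℤ) : ℚ) := by
      push_cast; rw [← hA, ← hC]; ring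
    have eD : (q:ℚ)^k * (q * (-r3 * g 0 1 + r1 * g 1 1)) = ((-r3 * B + r1 * D : ℤ) : ℚ) := by
      push_cast; rw [← hB, ← hD]; ring
    have hC'Q : ((-s3 * α + s1 * (-r3 * A + r1 * C) : ℤ) : ℚ) = ((q * C' : ℤ) : ℚ) := by
      exact_mod_cast hC'
    have hD'Q : ((-s3 * β + s1 * (-r3 * B + r1 * D) : ℤ) : ℚ) = ((q * D' : ℤ) : ℚ) := by
      exact_mod_cast hD'
    obtain ⟨i00, i01, i10, i11⟩ := amgg_inv_mul_apply r g
    obtain ⟨j00, j01, j10, j11⟩ := amgg_inv_mul_apply b (r⁻¹ * g)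
    have hg' : b⁻¹ * (r⁻¹ * g) ∈ H := by
      apply ih
      refine ⟨s4 * α - s2 * (-r3 * A + r1 * C), s4 * β - s2 * (-r3 * B + r1 * D), C', D',
        ?_, ?_, ?_, ?_, ?_⟩
      · rw [j00, i00, i10, hb11, hb01, hr00, hr01, hr10, hr11]
        push_cast
        rw [← eA]
        have := eC
        push_cast at this
        rw [← this]; ring
      · rw [j01, i01, i11, hb11, hb01, hr00, hr01, hr10, hr11]
        push_cast
        rw [← eB]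
        have := eD
        push_cast at this
        rw [← this]; ring
      · rw [j10, i00, i10, hb10, hb00, hr00, hr01, hr10, hr11]
        have h1 : (q:ℚ) * ((q:ℚ)^k * (-((s3:ℚ) / q) * (r4 * g 0 0 - r2 * g 1 0)
            + s1 * (-r3 * g 0 0 + r1 * g 1 0))) = (q:ℚ) * C' := by
          push_cast at hC'Q
          rw [← hC'Q, ← eA]
          have := eC
          push_cast at this
          rw [← this]
          field_simp
        exact mul_left_cancel₀ hq0 h1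
      · rw [j11, i01, i11, hb10, hb00, hr00, hr01, hr10, hr11]
        have h1 : (q:ℚ) * ((q:ℚ)^k * (-((s3:ℚ) / q) * (r4 * g 0 1 - r2 * g 1 1)
            + s1 * (-r3 * g 0 1 + r1 * g 1 1))) = (q:ℚ) * D' := by
          push_cast at hD'Q
          rw [← hD'Q, ← eB]
          have := eD
          push_cast at this
          rw [← this]
          field_simp
        exact mul_left_cancel₀ hq0 h1
      · have hcop : IsCoprime (N:ℤ) (q:ℤ) := Nat.Coprime.isCoprime hNq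
        have : (N:ℤ) ∣ (q:ℤ) * C' := by
          rw [← hC']
          exact dvd_add (Dvd.dvd.mul_right ((dvd_neg).2 hNs3) _)
            (Dvd.dvd.mul_left (dvd_add (Dvd.dvd.mul_right ((dvd_neg).2 hNr3) _)
              (Dvd.dvd.mul_left hN _)) _)
        exact hcop.dvd_of_dvd_mul_left this
    have : g = r * (b * (b⁻¹ * (r⁻¹ * g))) := by group
    rw [this]
    exact H.mul_mem hrH (H.mul_mem hbH hg')

/-- the image of `Γ₀(N)` in `SL(2,ℚ)`, as a set described by its entries. -/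
def amgg_GamSet (N : ℕ) : Set amgg_SLQ :=
  {g | ∃ A B C D : ℤ, g 0 0 = A ∧ g 0 1 = B ∧ g 1 0 = C ∧ g 1 1 = D ∧ (N:ℤ) ∣ C}

/-- `η Γ₀(N) η⁻¹`, `η = diag(q,1)`: the matrices `[[A, qB],[C/q, D]]`, `N ∣ C`. -/
def amgg_GamESet (N q : ℕ) : Set amgg_SLQ :=
  {g | ∃ A B C D : ℤ, g 0 0 = A ∧ g 0 1 = (q:ℚ) * B ∧ g 1 0 = (C:ℚ) / q ∧ g 1 1 = D ∧ (N:ℤ) ∣ C}

lemma amgg_hyp_closure (N q : ℕ) :
    amgg_Hyp N q (Subgroup.closure (amgg_GamSet N ∪ amgg_GamESet N q)) where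
  h_u := fun j => Subgroup.subset_closure (Or.inl ⟨1, j, 0, 1, by simp, by simp, by simp, by simp,
    dvd_zero _⟩)
  h_r := fun b t h => Subgroup.subset_closure (Or.inl ⟨1, b, N, q * t, by simp, by simp, by simp,
    by simp, by simp⟩)
  h_l := fun j hj => Subgroup.subset_closure (Or.inr ⟨1, 0, j, 1, by simp, by simp, by simp,
    by simp, hj⟩)
  h_s := fun t z h => Subgroup.subset_closure (Or.inr ⟨q * t, z, N, 1, by simp, by simp, by simp,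
    by simp, by simp⟩)
  h_base := fun g hg => Subgroup.subset_closure (Or.inl hg)

/-- **D1 (iii), GENERATION.** Every `g ∈ SL(2,ℚ)` with `q^k g` integral and `q^k g₁₀ ∈ Nℤ`
(i.e. every element of `Δ = Γ₀(N)[1/q]`) lies in the subgroup generated by `Γ₀(N)` and
`η Γ₀(N) η⁻¹`. -/
theorem amgg_generation {N q : ℕ} (hq : q.Prime) (hNq : Nat.Coprime N q) (k : ℕ) (g : amgg_SLQ)
    (h : ∃ A B C D : ℤ, (q:ℚ)^k * g 0 0 = A ∧ (q:ℚ)^k * g 0 1 = B ∧ (q:ℚ)^k * g 1 0 = C ∧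
      (q:ℚ)^k * g 1 1 = D ∧ (N:ℤ) ∣ C) :
    g ∈ Subgroup.closure (amgg_GamSet N ∪ amgg_GamESet N q) :=
  amgg_core hq hNq (amgg_hyp_closure N q) k g h

end Fermat.Agent.S41x
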