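/-
S41x/AmalgamPingPong (helper67, block D1): the concrete ping-pong for
`Γ = amg_Gam N` (image of `Γ₀(N)` in `SL(2,ℚ)`) and `Γ^η = amg_GamE N q` (`= η⁻¹ Γ η`, `η = diag(q,1)`),
acting on column vectors `ℚ²` with the `q`-adic norm:
`X_f = {(x,y) : |x| ≤ |y|, y ≠ 0}`, `X_∞ = {(x,y) : |y| < |x|}`.

Main result `amg_nf`: a nonempty reduced alternating word in `Γ`, `Γ^η` has product `≠ 1`
(indeed `∉ Γ ⊓ Γ^η`).  Mathlib + AmalgamCore + AmalgamDefs only.
-/
import Mathlib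
import Fermat.Agent.S41x.AmalgamCore
import Fermat.Agent.S41x.AmalgamDefs

set_option autoImplicit false

namespace Fermat.Agent.S41x

/-! ### norm lemmas -/

section norm

variable {q : ℕ} [Fact q.Prime]

theorem amg_norm_add_eq_left {u v : ℚ} (h : padicNorm q v < padicNorm q u) :
    padicNorm q (u + v) = padicNorm q u := by
  rw [padicNorm.add_eq_max_of_ne (ne_of_gt h), max_eq_left h.le]

theorem amg_norm_add_eq_right {u v : ℚ} (h : padicNorm q u < padicNorm q v) :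
    padicNorm q (u + v) = padicNorm q v := by
  rw [add_comm, amg_norm_add_eq_left h]

theorem amg_norm_mul_le {a x : ℚ} (ha : padicNorm q a ≤ 1) :
    padicNorm q (a * x) ≤ padicNorm q x := by
  rw [padicNorm.mul]
  exact mul_le_of_le_one_left (padicNorm.nonneg _) ha

theorem amg_norm_mul_eq {a x : ℚ} (ha : padicNorm q a = 1) :
    padicNorm q (a * x) = padicNorm q x := by
  rw [padicNorm.mul, ha, one_mul]

theorem amg_norm_lin_le {a b x y : ℚ} (ha : padicNorm q a ≤ 1) (hb : padicNorm q b ≤ 1) :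
    padicNorm q (a * x + b * y) ≤ max (padicNorm q x) (padicNorm q y) :=
  le_trans padicNorm.nonarchimedean (max_le_max (amg_norm_mul_le ha) (amg_norm_mul_le hb))

theorem amg_norm_pos {x : ℚ} (hx : x ≠ 0) : 0 < padicNorm q x :=
  lt_of_le_of_ne (padicNorm.nonneg _) (Ne.symm (padicNorm.nonzero hx))

omit [Fact q.Prime] in
theorem amg_ne_zero_of_norm_pos {x : ℚ} (hx : 0 < padicNorm q x) : x ≠ 0 := by
  rintro rfl
  rw [padicNorm.zero] at hx
  exact lt_irrefl _ hx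

theorem amg_norm_q_lt_one : padicNorm q (q : ℚ) < 1 := padicNorm.padicNorm_p_lt_one_of_prime

end norm

/-! ### the action on column vectors -/

/-- column vectors of `ℚ²` -/
@[ext] structure AmgVec where
  /-- first coordinate -/
  x : ℚ
  /-- second coordinate -/
  y : ℚ

instance amg_instSMul : SMul AmgSL AmgVec :=
  ⟨fun g v => ⟨g.1 0 0 * v.x + g.1 0 1 * v.y, g.1 1 0 * v.x + g.1 1 1 * v.y⟩⟩

theorem amg_smul_x (g : AmgSL) (v : AmgVec) : (g • v).x = g.1 0 0 * v.x + g.1 0 1 * v.y := rfl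

theorem amg_smul_y (g : AmgSL) (v : AmgVec) : (g • v).y = g.1 1 0 * v.x + g.1 1 1 * v.y := rfl

instance amg_instMulAction : MulAction AmgSL AmgVec where
  one_smul v := by
    apply AmgVec.ext
    · rw [amg_smul_x]; simp
    · rw [amg_smul_y]; simp
  mul_smul g h v := by
    apply AmgVec.ext
    · rw [amg_smul_x, amg_smul_x, amg_smul_x, amg_smul_y, Matrix.SpecialLinearGroup.coe_mul,
        Matrix.mul_apply, Matrix.mul_apply, Fin.sum_univ_two, Fin.sum_univ_two]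
      ring
    · rw [amg_smul_y, amg_smul_y, amg_smul_x, amg_smul_y, Matrix.SpecialLinearGroup.coe_mul,
        Matrix.mul_apply, Matrix.mul_apply, Fin.sum_univ_two, Fin.sum_univ_two]
      ring

/-- the "finite" side: `|x| ≤ |y|`, `y ≠ 0` -/
def amg_Xf (q : ℕ) : Set AmgVec := {v | padicNorm q v.x ≤ padicNorm q v.y ∧ v.y ≠ 0}

/-- the "infinite" side: `|y| < |x|` -/
def amg_Xi (q : ℕ) : Set AmgVec := {v | padicNorm q v.y < padicNorm q v.x}

/-! ### membership lemmas -/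

section mem

variable {N q : ℕ} [Fact q.Prime] (hq0 : (q : ℚ) ≠ 0)

theorem amg_Gam_entry_norm {g : AmgSL} (hg : g ∈ amg_Gam N) (i j : Fin 2) :
    padicNorm q (g.1 i j) ≤ 1 := by
  obtain ⟨m, hm⟩ := ((amg_mem_Gam_iff g).mp hg).1 i j
  rw [hm]
  exact padicNorm.of_int m

theorem amg_norm_N (hNq : N.Coprime q) : padicNorm q (N : ℚ) = 1 := by
  rw [padicNorm.nat_eq_one_iff]
  intro hd
  have h1 : q = 1 := Nat.Coprime.eq_one_of_dvd hNq.symm hd
  exact (Fact.out : q.Prime).one_lt.ne' h1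

/-- Claim A: an element of `Γ` whose lower-left entry is divisible by `q` lies in `Γ^η`. -/
theorem amg_mem_GamE_of_norm_lt (hNq : N.Coprime q) {g : AmgSL} (hg : g ∈ amg_Gam N)
    (h : padicNorm q (g.1 1 0) < 1) : g ∈ amg_GamE N q hq0 := by
  obtain ⟨hent, m, hm⟩ := (amg_mem_Gam_iff g).mp hg
  rw [hm, padicNorm.mul, amg_norm_N hNq, one_mul, padicNorm.int_lt_one_iff] at h
  obtain ⟨m', rfl⟩ := h
  refine Subgroup.mem_map.mpr ⟨amg_tw (q : ℚ)⁻¹ (inv_ne_zero hq0) g, ?_, amg_tw_tw_inv _ hq0 g⟩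
  rw [amg_mem_Gam_iff]
  refine ⟨fun i j => ?_, m', ?_⟩
  · fin_cases i <;> fin_cases j
    · exact hent 0 0
    · obtain ⟨e, he⟩ := hent 0 1
      refine ⟨(q : ℤ) * e, ?_⟩
      show (amg_tw (q : ℚ)⁻¹ (inv_ne_zero hq0) g).1 0 1 = _
      rw [amg_tw_apply_01, he]
      push_cast
      field_simp
    · refine ⟨(N : ℤ) * m', ?_⟩
      show (amg_tw (q : ℚ)⁻¹ (inv_ne_zero hq0) g).1 1 0 = _
      rw [amg_tw_apply_10, hm]
      push_cast
      field_simp
    · exact hent 1 1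
  · rw [amg_tw_apply_10, hm]
    push_cast
    field_simp

/-- Claim B: if `γ ∈ Γ` has upper-right entry divisible by `q` then its twist is again in `Γ`. -/
theorem amg_tw_mem_Gam_of_norm_lt {γ : AmgSL} (hγ : γ ∈ amg_Gam N)
    (h : padicNorm q (γ.1 0 1) < 1) : amg_tw q hq0 γ ∈ amg_Gam N := by
  obtain ⟨hent, m, hm⟩ := (amg_mem_Gam_iff γ).mp hγ
  obtain ⟨b, hb⟩ := hent 0 1
  rw [hb, padicNorm.int_lt_one_iff] at h
  obtain ⟨b', rfl⟩ := h
  rw [amg_mem_Gam_iff]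
  refine ⟨fun i j => ?_, (q : ℤ) * m, ?_⟩
  · fin_cases i <;> fin_cases j
    · exact hent 0 0
    · refine ⟨b', ?_⟩
      show (amg_tw q hq0 γ).1 0 1 = _
      rw [amg_tw_apply_01, hb]
      push_cast
      field_simp
    · obtain ⟨c, hc⟩ := hent 1 0
      refine ⟨(q : ℤ) * c, ?_⟩
      show (amg_tw q hq0 γ).1 1 0 = _
      rw [amg_tw_apply_10, hc]
      push_cast
      ring
    · exact hent 1 1
  · rw [amg_tw_apply_10, hm]
    push_cast
    ring

/-- C1: elements of `Γ^η` have lower-left entry of norm `< 1`. -/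
theorem amg_norm_lt_of_mem_GamE {g : AmgSL} (hg : g ∈ amg_GamE N q hq0) :
    padicNorm q (g.1 1 0) < 1 := by
  obtain ⟨γ, hγ, rfl⟩ := Subgroup.mem_map.mp hg
  rw [amg_tw_apply_10, padicNorm.mul]
  calc padicNorm q (q : ℚ) * padicNorm q (γ.1 1 0) ≤ padicNorm q (q : ℚ) * 1 :=
        mul_le_mul_of_nonneg_left (amg_Gam_entry_norm hγ 1 0) (padicNorm.nonneg _)
    _ < 1 := by rw [mul_one]; exact amg_norm_q_lt_one

/-- C2: if the twist of `γ ∈ Γ` is in `Γ`, the upper-right entry of `γ` has norm `< 1`. -/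
theorem amg_norm_lt_of_tw_mem_Gam {γ : AmgSL}
    (h : amg_tw q hq0 γ ∈ amg_Gam N) : padicNorm q (γ.1 0 1) < 1 := by
  obtain ⟨m, hm⟩ := ((amg_mem_Gam_iff _).mp h).1 0 1
  rw [amg_tw_apply_01] at hm
  have h2 : γ.1 0 1 = (q : ℚ) * m := by
    field_simp at hm
    linarith
  rw [h2, padicNorm.mul]
  calc padicNorm q (q : ℚ) * padicNorm q (m : ℚ) ≤ padicNorm q (q : ℚ) * 1 :=
        mul_le_mul_of_nonneg_left (padicNorm.of_int m) (padicNorm.nonneg _)
    _ < 1 := by rw [mul_one]; exact amg_norm_q_lt_one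

end mem

/-! ### the ping-pong -/

section pingpong

variable {N q : ℕ} [Fact q.Prime] (hq0 : (q : ℚ) ≠ 0)

/-- `Γ ∖ Γ^η` maps `X_∞` into `X_f`. -/
theorem amg_pp_A (hNq : N.Coprime q) {a : AmgSL} (ha : a ∈ amg_Gam N)
    (ha' : a ∉ amg_Gam N ⊓ amg_GamE N q hq0) {v : AmgVec} (hv : v ∈ amg_Xi q) :
    a • v ∈ amg_Xf q := by
  have hc : padicNorm q (a.1 1 0) = 1 := by
    refine le_antisymm (amg_Gam_entry_norm ha 1 0) (not_lt.mp fun h => ?_)
    exact ha' ⟨ha, amg_mem_GamE_of_norm_lt hq0 hNq ha h⟩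
  have hv' : padicNorm q v.y < padicNorm q v.x := hv
  have h1 : padicNorm q (a.1 1 1 * v.y) < padicNorm q (a.1 1 0 * v.x) := by
    rw [amg_norm_mul_eq hc]
    exact lt_of_le_of_lt (amg_norm_mul_le (amg_Gam_entry_norm ha 1 1)) hv'
  have hy : padicNorm q (a • v).y = padicNorm q v.x := by
    rw [amg_smul_y, amg_norm_add_eq_left h1, amg_norm_mul_eq hc]
  have hx : padicNorm q (a • v).x ≤ padicNorm q v.x := by
    rw [amg_smul_x]
    refine le_trans (amg_norm_lin_le (amg_Gam_entry_norm ha 0 0) (amg_Gam_entry_norm ha 0 1)) ?_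
    exact max_le le_rfl hv'.le
  refine ⟨by rw [hy]; exact hx, ?_⟩
  apply amg_ne_zero_of_norm_pos (q := q)
  rw [hy]
  exact lt_of_le_of_lt (padicNorm.nonneg _) hv'

/-- `Γ^η ∖ Γ` maps `X_f` into `X_∞`. -/
theorem amg_pp_B {b : AmgSL} (hb : b ∈ amg_GamE N q hq0)
    (hb' : b ∉ amg_Gam N ⊓ amg_GamE N q hq0) {v : AmgVec} (hv : v ∈ amg_Xf q) :
    b • v ∈ amg_Xi q := by
  obtain ⟨γ, hγ, rfl⟩ := Subgroup.mem_map.mp hb
  have hγb : padicNorm q (γ.1 0 1) = 1 := by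
    refine le_antisymm (amg_Gam_entry_norm hγ 0 1) (not_lt.mp fun h => ?_)
    exact hb' ⟨amg_tw_mem_Gam_of_norm_lt hq0 hγ h, hb⟩
  have hqpos : 0 < padicNorm q (q : ℚ) := amg_norm_pos hq0
  have hb01 : 1 < padicNorm q ((amg_tw q hq0 γ).1 0 1) := by
    rw [amg_tw_apply_01, padicNorm.div, hγb, lt_div_iff₀ hqpos, one_mul]
    exact amg_norm_q_lt_one
  have hb00 : padicNorm q ((amg_tw q hq0 γ).1 0 0) ≤ 1 := by
    rw [amg_tw_apply_00]; exact amg_Gam_entry_norm hγ 0 0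
  have hb11 : padicNorm q ((amg_tw q hq0 γ).1 1 1) ≤ 1 := by
    rw [amg_tw_apply_11]; exact amg_Gam_entry_norm hγ 1 1
  have hb10 : padicNorm q ((amg_tw q hq0 γ).1 1 0) ≤ 1 :=
    (amg_norm_lt_of_mem_GamE hq0 hb).le
  obtain ⟨hxy, hy0⟩ := hv
  have hypos : 0 < padicNorm q v.y := amg_norm_pos hy0
  have h1 : padicNorm q v.y < padicNorm q ((amg_tw q hq0 γ).1 0 1 * v.y) := by
    rw [padicNorm.mul]
    exact lt_mul_of_one_lt_left hypos hb01
  have h2 : padicNorm q ((amg_tw q hq0 γ).1 0 0 * v.x) <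
      padicNorm q ((amg_tw q hq0 γ).1 0 1 * v.y) :=
    lt_of_le_of_lt (le_trans (amg_norm_mul_le hb00) hxy) h1
  show padicNorm q (amg_tw q hq0 γ • v).y < padicNorm q (amg_tw q hq0 γ • v).x
  rw [amg_smul_x, amg_norm_add_eq_right h2, amg_smul_y]
  refine lt_of_le_of_lt (amg_norm_lin_le hb10 hb11) ?_
  rw [max_eq_right hxy]
  exact h1

/-- norms of the entries of an element of `Γ ⊓ Γ^η`. -/
theorem amg_H_entries {h : AmgSL} (hh : h ∈ amg_Gam N ⊓ amg_GamE N q hq0) :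
    padicNorm q (h.1 0 0) = 1 ∧ padicNorm q (h.1 0 1) ≤ 1 ∧ padicNorm q (h.1 1 0) < 1 ∧
      padicNorm q (h.1 1 1) = 1 := by
  obtain ⟨h1, h2⟩ := hh
  have hc := amg_norm_lt_of_mem_GamE hq0 h2
  have hdet : h.1 0 0 * h.1 1 1 = 1 + h.1 0 1 * h.1 1 0 := by
    have := h.2
    rw [Matrix.det_fin_two] at this
    linarith
  have hbc : padicNorm q (h.1 0 1 * h.1 1 0) < padicNorm q (1 : ℚ) := by
    rw [padicNorm.one]
    exact lt_of_le_of_lt (amg_norm_mul_le (amg_Gam_entry_norm h1 0 1)) hc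
  have had : padicNorm q (h.1 0 0) * padicNorm q (h.1 1 1) = 1 := by
    rw [← padicNorm.mul, hdet, amg_norm_add_eq_left hbc, padicNorm.one]
  have ha := amg_Gam_entry_norm (q := q) h1 0 0
  have hd := amg_Gam_entry_norm (q := q) h1 1 1
  have ha0 := padicNorm.nonneg (p := q) (h.1 0 0)
  have hd0 := padicNorm.nonneg (p := q) (h.1 1 1)
  refine ⟨le_antisymm ha ?_, amg_Gam_entry_norm h1 0 1, hc, le_antisymm hd ?_⟩
  · calc (1 : ℚ) = padicNorm q (h.1 0 0) * padicNorm q (h.1 1 1) := had.symm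
      _ ≤ padicNorm q (h.1 0 0) * 1 := mul_le_mul_of_nonneg_left hd ha0
      _ = padicNorm q (h.1 0 0) := mul_one _
  · calc (1 : ℚ) = padicNorm q (h.1 0 0) * padicNorm q (h.1 1 1) := had.symm
      _ ≤ 1 * padicNorm q (h.1 1 1) := mul_le_mul_of_nonneg_right ha hd0
      _ = padicNorm q (h.1 1 1) := one_mul _

/-- `Γ ⊓ Γ^η` preserves `X_f`. -/
theorem amg_pp_Hf {h : AmgSL} (hh : h ∈ amg_Gam N ⊓ amg_GamE N q hq0) {v : AmgVec}
    (hv : v ∈ amg_Xf q) : h • v ∈ amg_Xf q := by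
  obtain ⟨ha, hb, hc, hd⟩ := amg_H_entries hq0 hh
  obtain ⟨hxy, hy0⟩ := hv
  have hypos : 0 < padicNorm q v.y := amg_norm_pos hy0
  have h1 : padicNorm q (h.1 1 0 * v.x) < padicNorm q (h.1 1 1 * v.y) := by
    rw [amg_norm_mul_eq hd, padicNorm.mul]
    calc padicNorm q (h.1 1 0) * padicNorm q v.x ≤ padicNorm q (h.1 1 0) * padicNorm q v.y :=
          mul_le_mul_of_nonneg_left hxy (padicNorm.nonneg _)
      _ < 1 * padicNorm q v.y := mul_lt_mul_of_pos_right hc hypos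
      _ = padicNorm q v.y := one_mul _
  have hy : padicNorm q (h • v).y = padicNorm q v.y := by
    rw [amg_smul_y, amg_norm_add_eq_right h1, amg_norm_mul_eq hd]
  refine ⟨?_, ?_⟩
  · rw [hy, amg_smul_x]
    refine le_trans (amg_norm_lin_le ha.le hb) ?_
    exact max_le hxy le_rfl
  · apply amg_ne_zero_of_norm_pos (q := q)
    rw [hy]
    exact hypos

/-- `Γ ⊓ Γ^η` preserves `X_∞`. -/
theorem amg_pp_Hi {h : AmgSL} (hh : h ∈ amg_Gam N ⊓ amg_GamE N q hq0) {v : AmgVec}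
    (hv : v ∈ amg_Xi q) : h • v ∈ amg_Xi q := by
  obtain ⟨ha, hb, hc, hd⟩ := amg_H_entries hq0 hh
  have hv' : padicNorm q v.y < padicNorm q v.x := hv
  have h1 : padicNorm q (h.1 0 1 * v.y) < padicNorm q (h.1 0 0 * v.x) := by
    rw [amg_norm_mul_eq ha]
    exact lt_of_le_of_lt (amg_norm_mul_le hb) hv'
  show padicNorm q (h • v).y < padicNorm q (h • v).x
  rw [amg_smul_x, amg_norm_add_eq_left h1, amg_norm_mul_eq ha, amg_smul_y]
  have hxpos : 0 < padicNorm q v.x := lt_of_le_of_lt (padicNorm.nonneg _) hv'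
  refine lt_of_le_of_lt padicNorm.nonarchimedean (max_lt ?_ ?_)
  · rw [padicNorm.mul]
    calc padicNorm q (h.1 1 0) * padicNorm q v.x < 1 * padicNorm q v.x :=
          mul_lt_mul_of_pos_right hc hxpos
      _ = padicNorm q v.x := one_mul _
  · rw [amg_norm_mul_eq hd]
    exact hv'

end pingpong

/-! ### witnesses for the index `≥ 3` conditions and the normal form theorem -/

section witnesses

variable (N q : ℕ)

/-- `[[1,0],[N,1]]` -/
def amg_s1 : AmgSL := ⟨!![1, 0; (N : ℚ), 1], by simp [Matrix.det_fin_two_of]⟩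

/-- `[[1+N,1],[N,1]]` -/
def amg_s2 : AmgSL := ⟨!![1 + (N : ℚ), 1; (N : ℚ), 1], by simp [Matrix.det_fin_two_of]⟩

/-- `[[1,1],[0,1]]` -/
def amg_u1 : AmgSL := ⟨!![1, 1; 0, 1], by simp [Matrix.det_fin_two_of]⟩

/-- `[[1,1],[N,N+1]]` -/
def amg_u2 : AmgSL := ⟨!![1, 1; (N : ℚ), (N : ℚ) + 1], by simp [Matrix.det_fin_two_of]⟩

theorem amg_s1_mem : amg_s1 N ∈ amg_Gam N := by
  rw [amg_mem_Gam_iff]
  refine ⟨fun i j => ?_, 1, by simp [amg_s1]⟩
  fin_cases i <;> fin_cases j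
  · exact ⟨1, by simp [amg_s1]⟩
  · exact ⟨0, by simp [amg_s1]⟩
  · exact ⟨N, by simp [amg_s1]⟩
  · exact ⟨1, by simp [amg_s1]⟩

theorem amg_s2_mem : amg_s2 N ∈ amg_Gam N := by
  rw [amg_mem_Gam_iff]
  refine ⟨fun i j => ?_, 1, by simp [amg_s2]⟩
  fin_cases i <;> fin_cases j
  · exact ⟨1 + N, by simp [amg_s2]⟩
  · exact ⟨1, by simp [amg_s2]⟩
  · exact ⟨N, by simp [amg_s2]⟩
  · exact ⟨1, by simp [amg_s2]⟩

theorem amg_u1_mem : amg_u1 ∈ amg_Gam N := by
  rw [amg_mem_Gam_iff]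
  refine ⟨fun i j => ?_, 0, by simp [amg_u1]⟩
  fin_cases i <;> fin_cases j
  · exact ⟨1, by simp [amg_u1]⟩
  · exact ⟨1, by simp [amg_u1]⟩
  · exact ⟨0, by simp [amg_u1]⟩
  · exact ⟨1, by simp [amg_u1]⟩

theorem amg_u2_mem : amg_u2 N ∈ amg_Gam N := by
  rw [amg_mem_Gam_iff]
  refine ⟨fun i j => ?_, 1, by simp [amg_u2]⟩
  fin_cases i <;> fin_cases j
  · exact ⟨1, by simp [amg_u2]⟩
  · exact ⟨1, by simp [amg_u2]⟩
  · exact ⟨N, by simp [amg_u2]⟩
  · exact ⟨N + 1, by simp [amg_u2]⟩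

theorem amg_inv_mul_10 (g h : AmgSL) :
    (g⁻¹ * h).1 1 0 = -g.1 1 0 * h.1 0 0 + g.1 0 0 * h.1 1 0 := by
  rw [Matrix.SpecialLinearGroup.coe_mul, Matrix.SpecialLinearGroup.coe_inv,
    Matrix.adjugate_fin_two, Matrix.mul_apply, Fin.sum_univ_two]
  simp

theorem amg_inv_mul_01 (g h : AmgSL) :
    (g⁻¹ * h).1 0 1 = g.1 1 1 * h.1 0 1 - g.1 0 1 * h.1 1 1 := by
  rw [Matrix.SpecialLinearGroup.coe_mul, Matrix.SpecialLinearGroup.coe_inv,
    Matrix.adjugate_fin_two, Matrix.mul_apply, Fin.sum_univ_two]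
  simp
  ring

end witnesses

section nf

variable {N q : ℕ} [Fact q.Prime] (hq0 : (q : ℚ) ≠ 0)

/-- **Normal form theorem** for `Γ₀(N) *_{Γ₀(Nq)} η⁻¹Γ₀(N)η` inside `SL(2,ℚ)`: a nonempty reduced
alternating word does not lie in `Γ ⊓ Γ^η`. -/
theorem amg_nf_not_mem (hNq : N.Coprime q) :
    ∀ w : List (amg_Gam N ⊕ amg_GamE N q hq0), w ≠ [] →
      amg_Red (amg_Gam N) (amg_GamE N q hq0) w →
        amg_prod (amg_Gam N) (amg_GamE N q hq0) w ∉ amg_Gam N ⊓ amg_GamE N q hq0 := by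
  have hN1 : padicNorm q (N : ℚ) = 1 := amg_norm_N hNq
  -- an element of `Γ` with lower-left entry of norm one is not in the intersection
  have key1 : ∀ g : AmgSL, padicNorm q (g.1 1 0) = 1 → g ∉ amg_Gam N ⊓ amg_GamE N q hq0 := by
    intro g hg hmem
    have := (amg_H_entries hq0 hmem).2.2.1
    rw [hg] at this
    exact lt_irrefl _ this
  -- a twist of an element with upper-right entry of norm one is not in the intersection
  have key2 : ∀ γ : AmgSL, padicNorm q (γ.1 0 1) = 1 →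
      amg_tw q hq0 γ ∉ amg_Gam N ⊓ amg_GamE N q hq0 := by
    intro γ hγ hmem
    have := amg_norm_lt_of_tw_mem_Gam hq0 hmem.1
    rw [hγ] at this
    exact lt_irrefl _ this
  refine amg_pingpong (amg_Xf q) (amg_Xi q) ?_ ?_ ?_ ?_ ?_ ?_ ?_ ?_
  · rintro v ⟨h1, -⟩ h2
    exact lt_irrefl _ (lt_of_lt_of_le h2 h1)
  · refine ⟨⟨0, 1⟩, ?_, one_ne_zero⟩
    show padicNorm q (0 : ℚ) ≤ padicNorm q (1 : ℚ)
    rw [padicNorm.zero, padicNorm.one]
    exact zero_le_one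
  · refine ⟨⟨1, 0⟩, ?_⟩
    show padicNorm q (0 : ℚ) < padicNorm q (1 : ℚ)
    rw [padicNorm.zero, padicNorm.one]
    exact zero_lt_one
  · intro a ha ha' v hv
    exact amg_pp_A hq0 hNq ha ha' hv
  · intro b hb hb' v hv
    exact amg_pp_B hq0 hb hb' hv
  · intro h hh
    exact ⟨fun v hv => amg_pp_Hf hq0 hh hv, fun v hv => amg_pp_Hi hq0 hh hv⟩
  · refine ⟨amg_s1 N, amg_s1_mem N, amg_s2 N, amg_s2_mem N, key1 _ ?_, key1 _ ?_, key1 _ ?_⟩
    · simpa [amg_s1] using hN1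
    · simpa [amg_s2] using hN1
    · rw [amg_inv_mul_10]
      have : -(amg_s1 N).1 1 0 * (amg_s2 N).1 0 0 + (amg_s1 N).1 0 0 * (amg_s2 N).1 1 0 =
          -((N : ℚ) * (N : ℚ)) := by
        simp [amg_s1, amg_s2]
        ring
      rw [this, padicNorm.neg, padicNorm.mul, hN1, one_mul]
  · refine ⟨amg_tw q hq0 amg_u1, Subgroup.mem_map_of_mem _ (amg_u1_mem N),
      amg_tw q hq0 (amg_u2 N), Subgroup.mem_map_of_mem _ (amg_u2_mem N),
      key2 _ ?_, key2 _ ?_, ?_⟩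
    · simp [amg_u1]
    · simp [amg_u2]
    · rw [← map_inv, ← map_mul]
      apply key2
      rw [amg_inv_mul_01]
      have : (amg_u1).1 1 1 * (amg_u2 N).1 0 1 - (amg_u1).1 0 1 * (amg_u2 N).1 1 1 =
          -(N : ℚ) := by
        simp [amg_u1, amg_u2]
      rw [this, padicNorm.neg, hN1]

/-- **Normal form theorem**, `≠ 1` version. -/
theorem amg_nf (hNq : N.Coprime q) :
    ∀ w : List (amg_Gam N ⊕ amg_GamE N q hq0), w ≠ [] →
      amg_Red (amg_Gam N) (amg_GamE N q hq0) w →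
        amg_prod (amg_Gam N) (amg_GamE N q hq0) w ≠ 1 := by
  intro w hw hred h1
  apply amg_nf_not_mem hq0 hNq w hw hred
  rw [h1]
  exact one_mem _

/-- **Gluing on the join**: homomorphisms on `Γ` and `Γ^η` that agree on the intersection extend to
`Γ ⊔ Γ^η` (which is all of `amg_Delta N q`, see `AmalgamGen`/bridge). -/
theorem amg_glue_sup (hNq : N.Coprime q) {k : Type*} [Group k]
    (f : amg_Gam N →* k) (g : amg_GamE N q hq0 →* k)
    (hfg : ∀ (a : amg_Gam N) (b : amg_GamE N q hq0), (a : AmgSL) = (b : AmgSL) → f a = g b) :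
    ∃ φ : ↥(amg_Gam N ⊔ amg_GamE N q hq0) →* k,
      (∀ a : amg_Gam N, φ ⟨a, Subgroup.mem_sup_left a.2⟩ = f a) ∧
        (∀ b : amg_GamE N q hq0, φ ⟨b, Subgroup.mem_sup_right b.2⟩ = g b) :=
  amg_exists_hom_of_nf hfg (amg_nf hq0 hNq)

end nf

end Fermat.Agent.S41x
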