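/-
S41x/Amg55Bridge (helper55): item D1 of the S41 plan, restated in the vocabulary of helper67's
`S41x/AmalgamDefs.lean` (`amg_Gam`, `amg_GamE`, `amg_Delta`):
* `amg55_sup67`  : `amg_Gam N ⊔ amg_GamE N q _ = amg_Delta N q _`  (generation);
* `amg55_glue67` : gluing of a compatible pair of homomorphisms to `amg_Delta N q _` (any target group);
* `amg55_hom_ext67` : uniqueness.
-/
import Fermat.Agent.S41x.AmalgamDefs
import Fermat.Agent.S41x.Amg55Main

set_option autoImplicit false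

namespace Fermat.Agent.S41x

open Matrix CongruenceSubgroup

theorem amg55_castZ_eq : amg_castZ = amg55_iota := rfl

theorem amg55_tw_eq (q : ℕ) [Fact q.Prime] (hq : (q : ℚ) ≠ 0) (g : AmgSL) :
    amg_tw q hq g = amg55_eta q g := by
  apply amg55_ext <;> rfl

theorem amg55_Gam_eq (N q : ℕ) [Fact q.Prime] : amg_Gam N = amg55_S N q false := rfl

theorem amg55_GamE_eq (N q : ℕ) [Fact q.Prime] (hq : (q : ℚ) ≠ 0) :
    amg_GamE N q hq = amg55_S N q true := by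
  ext g
  rw [amg55_mem_S_true]
  constructor
  · rintro ⟨h, ⟨x, hx, rfl⟩, rfl⟩
    exact ⟨x, hx, (amg55_tw_eq q hq _).symm⟩
  · rintro ⟨x, hx, rfl⟩
    exact ⟨amg_castZ x, ⟨x, hx, rfl⟩, amg55_tw_eq q hq _⟩

theorem amg55_isR_iff (q : ℕ) (hq : q ≠ 0) (x : ℚ) :
    amg_isR q x ↔ ∃ (k : ℕ) (m : ℤ), (q : ℚ) ^ k * x = m := by
  have hq' : (q : ℚ) ≠ 0 := Nat.cast_ne_zero.mpr hq
  constructor
  · rintro ⟨m, e, rfl⟩
    refine ⟨e, m, ?_⟩
    field_simp
  · rintro ⟨k, m, h⟩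
    refine ⟨m, k, ?_⟩
    rw [← h]
    field_simp

/-- raising the exponent -/
theorem amg55_int_raise (q : ℕ) {k K : ℕ} (hkK : k ≤ K) {x : ℚ} {m : ℤ}
    (h : (q : ℚ) ^ k * x = m) : (q : ℚ) ^ K * x = ((q : ℤ) ^ (K - k) * m : ℤ) := by
  obtain ⟨d, rfl⟩ := Nat.exists_eq_add_of_le hkK
  rw [Nat.add_sub_cancel_left]
  push_cast
  rw [← h]
  ring

theorem amg55_Delta_eq (N q : ℕ) (hq : q ≠ 0) : amg_Delta N q hq = amg55_Delta N q := by
  have hq' : (q : ℚ) ≠ 0 := Nat.cast_ne_zero.mpr hq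
  ext g
  constructor
  · rintro ⟨hent, x, hx, hgx⟩
    obtain ⟨k00, m00, h00⟩ := (amg55_isR_iff q hq _).mp (hent 0 0)
    obtain ⟨k01, m01, h01⟩ := (amg55_isR_iff q hq _).mp (hent 0 1)
    obtain ⟨k11, m11, h11⟩ := (amg55_isR_iff q hq _).mp (hent 1 1)
    obtain ⟨kx, mx, hxm⟩ := (amg55_isR_iff q hq _).mp hx
    refine ⟨k00 + k01 + k11 + kx, _, _, (N : ℤ) * ((q : ℤ) ^ (k00 + k01 + k11 + kx - kx) * mx), _,
      amg55_int_raise q (by omega) h00, amg55_int_raise q (by omega) h01, ?_,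
      amg55_int_raise q (by omega) h11, dvd_mul_right _ _⟩
    have := amg55_int_raise q (K := k00 + k01 + k11 + kx) (by omega) hxm
    have e : g 1 0 = (N : ℚ) * x := hgx
    rw [e]
    push_cast at this ⊢
    rw [← this]
    ring
  · rintro ⟨k, m00, m01, m10, m11, h00, h01, h10, h11, ⟨t, ht⟩⟩
    have hisR : ∀ (y : ℚ) (m : ℤ), (q : ℚ) ^ k * y = m → amg_isR q y :=
      fun y m h => (amg55_isR_iff q hq y).mpr ⟨k, m, h⟩
    refine ⟨fun i j => ?_, (t : ℚ) / (q : ℚ) ^ k, ⟨t, k, rfl⟩, ?_⟩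
    · fin_cases i <;> fin_cases j
      · exact hisR _ _ h00
      · exact hisR _ _ h01
      · exact hisR _ _ h10
      · exact hisR _ _ h11
    · have e : (q : ℚ) ^ k * g 1 0 = (N : ℚ) * t := by
        rw [h10, ht]; push_cast; ring
      have hk : (q : ℚ) ^ k ≠ 0 := pow_ne_zero _ hq'
      show g 1 0 = (N : ℚ) * ((t : ℚ) / (q : ℚ) ^ k)
      field_simp
      linarith

/-- **Core-2** (generation) in helper67's vocabulary. -/
theorem amg55_sup67 (N q : ℕ) (hq : q.Prime) (hNq : N.Coprime q) :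
    amg_Gam N ⊔ amg_GamE N q (Nat.cast_ne_zero.mpr hq.ne_zero) = amg_Delta N q hq.ne_zero := by
  have : Fact q.Prime := ⟨hq⟩
  rw [amg55_Gam_eq N q, amg55_GamE_eq, amg55_Delta_eq, amg55_Delta_eq_sup hNq]

/-- **Core-1** (gluing) in helper67's vocabulary. -/
theorem amg55_glue67 (N q : ℕ) (hq : q.Prime) (hNq : N.Coprime q) {k : Type*} [Group k]
    (f : amg_Gam N →* k) (g : amg_GamE N q (Nat.cast_ne_zero.mpr hq.ne_zero) →* k)
    (hfg : ∀ (a : amg_Gam N) (b : amg_GamE N q (Nat.cast_ne_zero.mpr hq.ne_zero)),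
      (a : AmgSL) = (b : AmgSL) → f a = g b) :
    ∃ φ : amg_Delta N q hq.ne_zero →* k,
      (∀ a : amg_Gam N, φ ⟨a, amg_Gam_le_Delta N q hq.ne_zero a.2⟩ = f a) ∧
      (∀ b : amg_GamE N q (Nat.cast_ne_zero.mpr hq.ne_zero),
        φ ⟨b, amg_GamE_le_Delta N q hq.ne_zero b.2⟩ = g b) := by
  have : Fact q.Prime := ⟨hq⟩
  have hq' : (q : ℚ) ≠ 0 := Nat.cast_ne_zero.mpr hq.ne_zero
  have hmemA : ∀ x : Gamma0 N, amg55_iota (x : Matrix.SpecialLinearGroup (Fin 2) ℤ) ∈ amg_Gam N :=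
    fun x => ⟨x, x.2, rfl⟩
  have hmemB : ∀ y : Gamma0 N,
      amg55_eta q (amg55_iota (y : Matrix.SpecialLinearGroup (Fin 2) ℤ)) ∈ amg_GamE N q hq' := by
    intro y
    rw [amg55_GamE_eq, amg55_mem_S_true]
    exact ⟨y, y.2, rfl⟩
  let f' : Gamma0 N →* k :=
    { toFun := fun x => f ⟨_, hmemA x⟩
      map_one' := by
        have : (⟨_, hmemA 1⟩ : amg_Gam N) = 1 := by
          apply Subtype.ext; simp
        rw [this, map_one]
      map_mul' := fun x y => by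
        have : (⟨_, hmemA (x * y)⟩ : amg_Gam N) = ⟨_, hmemA x⟩ * ⟨_, hmemA y⟩ := by
          apply Subtype.ext; simp
        rw [this, map_mul] }
  let g' : Gamma0 N →* k :=
    { toFun := fun y => g ⟨_, hmemB y⟩
      map_one' := by
        have : (⟨_, hmemB 1⟩ : amg_GamE N q hq') = 1 := by
          apply Subtype.ext; simp
        rw [this, map_one]
      map_mul' := fun x y => by
        have : (⟨_, hmemB (x * y)⟩ : amg_GamE N q hq') = ⟨_, hmemB x⟩ * ⟨_, hmemB y⟩ := by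
          apply Subtype.ext; simp
        rw [this, map_mul] }
  obtain ⟨φ, h0, h1⟩ := amg55_exists_hom hNq f' g' (fun x y hxy => hfg ⟨_, hmemA x⟩ ⟨_, hmemB y⟩ hxy)
  have hle : amg_Delta N q hq.ne_zero ≤ amg55_Delta N q := (amg55_Delta_eq N q hq.ne_zero).le
  refine ⟨φ.comp (Subgroup.inclusion hle), ?_, ?_⟩
  · rintro ⟨a, x, hx, rfl⟩
    exact h0 ⟨x, hx⟩
  · intro b
    obtain ⟨b, hb⟩ := b
    have hb' := hb
    rw [amg55_GamE_eq, amg55_mem_S_true] at hb'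
    obtain ⟨y, hy, rfl⟩ := hb'
    exact h1 ⟨y, hy⟩

/-- Uniqueness in helper67's vocabulary. -/
theorem amg55_hom_ext67 (N q : ℕ) (hq : q.Prime) (hNq : N.Coprime q) {k : Type*} [Group k]
    (φ₁ φ₂ : amg_Delta N q hq.ne_zero →* k)
    (hA : ∀ a : amg_Gam N, φ₁ ⟨a, amg_Gam_le_Delta N q hq.ne_zero a.2⟩ =
      φ₂ ⟨a, amg_Gam_le_Delta N q hq.ne_zero a.2⟩)
    (hB : ∀ b : amg_GamE N q (Nat.cast_ne_zero.mpr hq.ne_zero),
      φ₁ ⟨b, amg_GamE_le_Delta N q hq.ne_zero b.2⟩ = φ₂ ⟨b, amg_GamE_le_Delta N q hq.ne_zero b.2⟩) :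
    φ₁ = φ₂ := by
  have : Fact q.Prime := ⟨hq⟩
  have hq' : (q : ℚ) ≠ 0 := Nat.cast_ne_zero.mpr hq.ne_zero
  have hge : amg55_Delta N q ≤ amg_Delta N q hq.ne_zero := (amg55_Delta_eq N q hq.ne_zero).ge
  have hle : amg_Delta N q hq.ne_zero ≤ amg55_Delta N q := (amg55_Delta_eq N q hq.ne_zero).le
  have key : φ₁.comp (Subgroup.inclusion hge) = φ₂.comp (Subgroup.inclusion hge) := by
    apply amg55_hom_ext hNq
    · intro x
      exact hA ⟨_, ⟨x, x.2, rfl⟩⟩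
    · intro x
      have hm : amg55_eta q (amg55_iota (x : Matrix.SpecialLinearGroup (Fin 2) ℤ)) ∈
          amg_GamE N q hq' := by
        rw [amg55_GamE_eq, amg55_mem_S_true]
        exact ⟨x, x.2, rfl⟩
      exact hB ⟨_, hm⟩
  ext d
  have := DFunLike.congr_fun key (Subgroup.inclusion hle d)
  have e : Subgroup.inclusion hge (Subgroup.inclusion hle d) = d := Subtype.ext rfl
  simp only [MonoidHom.coe_comp, Function.comp_apply, e] at this
  exact this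

end Fermat.Agent.S41x
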