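/-
S41x/Amg55Ker (helper55): from a pair `(ψ₁, ψ₂)` in the kernel of `α = lrRes + lrResEta`
(`S41x/LRBase`) to an additive function on `Γ₀(N)[1/q] = amg55_Delta N q` (item D1 → D-glue).

* `amg55_eq_of_iota_eq_eta` : `ι x = η ι y` forces `x ∈ Γ₀(N q)`, `x = lrIncl γ`, `y = lrConjEta γ`;
* `amg55_exists_phiQ` : `φQ : SL(2,ℚ) → B`, additive on `amg55_Delta N q`, with `φQ (ι x) = ψ₁ x` and
  `φQ (η ι y) = - ψ₂ y`  (shape of `ihk_add_of_Q` in `S41x/IharaHeckeModel`);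
* `amg55_phiQ_unique` : such a `φQ` is determined on `amg55_Delta N q`.
-/
import Fermat.Agent.S41x.Amg55Main
import Fermat.Agent.S41x.LRBase

set_option autoImplicit false

namespace Fermat.Agent.S41x

open Matrix CongruenceSubgroup

/-- `ι x = η ι y` forces `x ∈ Γ₀(N q)` and `y = η x η⁻¹` in the sense of `LRBase`. -/
theorem amg55_eq_of_iota_eq_eta {N q : ℕ} [Fact q.Prime] [NeZero q] (x y : Gamma0 N)
    (h : amg55_iota (x : Matrix.SpecialLinearGroup (Fin 2) ℤ) =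
      amg55_eta q (amg55_iota (y : Matrix.SpecialLinearGroup (Fin 2) ℤ))) :
    ∃ γ : Gamma0 (N * q), lrIncl N q γ = x ∧ lrConjEta N q γ = y := by
  have hq0 : (q : ℚ) ≠ 0 := Nat.cast_ne_zero.mpr (Fact.out : q.Prime).ne_zero
  have hqz : (q : ℤ) ≠ 0 := Nat.cast_ne_zero.mpr (Fact.out : q.Prime).ne_zero
  have e00 := congrArg (fun t : Matrix.SpecialLinearGroup (Fin 2) ℚ => t 0 0) h
  have e01 := congrArg (fun t : Matrix.SpecialLinearGroup (Fin 2) ℚ => t 0 1) h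
  have e10 := congrArg (fun t : Matrix.SpecialLinearGroup (Fin 2) ℚ => t 1 0) h
  have e11 := congrArg (fun t : Matrix.SpecialLinearGroup (Fin 2) ℚ => t 1 1) h
  simp only [amg55_eta_00, amg55_eta_01, amg55_eta_10, amg55_eta_11, amg55_iota_apply] at e00 e01 e10 e11
  have f00 : (x : Matrix.SpecialLinearGroup (Fin 2) ℤ) 0 0 =
      (y : Matrix.SpecialLinearGroup (Fin 2) ℤ) 0 0 := by exact_mod_cast e00
  have f11 : (x : Matrix.SpecialLinearGroup (Fin 2) ℤ) 1 1 =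
      (y : Matrix.SpecialLinearGroup (Fin 2) ℤ) 1 1 := by exact_mod_cast e11
  have f10 : (x : Matrix.SpecialLinearGroup (Fin 2) ℤ) 1 0 =
      (q : ℤ) * (y : Matrix.SpecialLinearGroup (Fin 2) ℤ) 1 0 := by exact_mod_cast e10
  have f01 : (q : ℤ) * (x : Matrix.SpecialLinearGroup (Fin 2) ℤ) 0 1 =
      (y : Matrix.SpecialLinearGroup (Fin 2) ℤ) 0 1 := by
    rw [eq_div_iff hq0] at e01
    have : (((q : ℤ) * (x : Matrix.SpecialLinearGroup (Fin 2) ℤ) 0 1 : ℤ) : ℚ) =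
        (((y : Matrix.SpecialLinearGroup (Fin 2) ℤ) 0 1 : ℤ) : ℚ) := by
      push_cast; linarith
    exact_mod_cast this
  have hxmem : (x : Matrix.SpecialLinearGroup (Fin 2) ℤ) ∈ Gamma0 (N * q) := by
    rw [amg55_Gamma0_mem_iff, f10]
    obtain ⟨t, ht⟩ := amg55_Gamma0_mem_iff.mp y.2
    refine ⟨t, ?_⟩
    rw [ht]; push_cast; ring
  refine ⟨⟨x, hxmem⟩, Subtype.ext rfl, ?_⟩
  apply Subtype.ext
  apply amg55_ext
  · rw [lrConjEta_apply_00]; exact f00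
  · rw [lrConjEta_apply_01]; exact f01
  · rw [lrConjEta_apply_10]
    show (x : Matrix.SpecialLinearGroup (Fin 2) ℤ) 1 0 / (q : ℤ) = _
    rw [f10, Int.mul_ediv_cancel_left _ hqz]
  · rw [lrConjEta_apply_11]; exact f11

/-- The glued class: additive on `Γ₀(N)[1/q]`, equal to `ψ₁` on `ι Γ₀(N)` and to `-ψ₂` on
`η ι Γ₀(N)`. -/
theorem amg55_exists_phiQ {B : Type*} [AddCommGroup B] {N q : ℕ} [Fact q.Prime] [NeZero q]
    (hNq : Nat.Coprime N q) (ψ₁ ψ₂ : Additive (Gamma0 N) →+ B)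
    (hker : lrRes N q ψ₁ + lrResEta N q ψ₂ = 0) :
    ∃ φQ : Matrix.SpecialLinearGroup (Fin 2) ℚ → B,
      (∀ g ∈ amg55_Delta N q, ∀ h ∈ amg55_Delta N q, φQ (g * h) = φQ g + φQ h) ∧
      (∀ x : Gamma0 N, φQ (amg55_iota (x : Matrix.SpecialLinearGroup (Fin 2) ℤ)) =
        ψ₁ (Additive.ofMul x)) ∧
      (∀ y : Gamma0 N, φQ (amg55_eta q (amg55_iota (y : Matrix.SpecialLinearGroup (Fin 2) ℤ))) =
        - ψ₂ (Additive.ofMul y)) := by
  classical
  let f : Gamma0 N →* Multiplicative B := AddMonoidHom.toMultiplicativeRight ψ₁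
  let g : Gamma0 N →* Multiplicative B := AddMonoidHom.toMultiplicativeRight (-ψ₂)
  have hfg : ∀ x y : Gamma0 N, amg55_iota (x : Matrix.SpecialLinearGroup (Fin 2) ℤ) =
      amg55_eta q (amg55_iota (y : Matrix.SpecialLinearGroup (Fin 2) ℤ)) → f x = g y := by
    intro x y hxy
    obtain ⟨γ, rfl, rfl⟩ := amg55_eq_of_iota_eq_eta x y hxy
    have h1 := DFunLike.congr_fun hker (Additive.ofMul γ)
    simp only [AddMonoidHom.add_apply, lrRes_apply, lrResEta_apply, AddMonoidHom.zero_apply] at h1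
    show Multiplicative.ofAdd (ψ₁ (Additive.ofMul (lrIncl N q γ))) =
      Multiplicative.ofAdd ((-ψ₂) (Additive.ofMul (lrConjEta N q γ)))
    congr 1
    rw [AddMonoidHom.neg_apply]
    exact eq_neg_of_add_eq_zero_left h1
  obtain ⟨φ, h0, h1⟩ := amg55_exists_hom hNq f g hfg
  refine ⟨fun γ => if hγ : γ ∈ amg55_Delta N q then Multiplicative.toAdd (φ ⟨γ, hγ⟩) else 0,
    ?_, ?_, ?_⟩
  · intro a ha b hb
    simp only [dif_pos ha, dif_pos hb, dif_pos (mul_mem ha hb)]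
    have : (⟨a * b, mul_mem ha hb⟩ : amg55_Delta N q) = ⟨a, ha⟩ * ⟨b, hb⟩ := rfl
    rw [this, map_mul]
    rfl
  · intro x
    simp only [dif_pos (amg55_iota_mem_Delta q x)]
    rw [h0]
    rfl
  · intro y
    simp only [dif_pos (amg55_eta_iota_mem_Delta q y)]
    rw [h1]
    rfl

/-- Two additive functions on `Γ₀(N)[1/q]` agreeing on both vertex groups agree on
`Γ₀(N)[1/q]`. -/
theorem amg55_phiQ_unique {B : Type*} [AddCommGroup B] {N q : ℕ} [Fact q.Prime]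
    (hNq : Nat.Coprime N q) (φ₁ φ₂ : Matrix.SpecialLinearGroup (Fin 2) ℚ → B)
    (hadd₁ : ∀ g ∈ amg55_Delta N q, ∀ h ∈ amg55_Delta N q, φ₁ (g * h) = φ₁ g + φ₁ h)
    (hadd₂ : ∀ g ∈ amg55_Delta N q, ∀ h ∈ amg55_Delta N q, φ₂ (g * h) = φ₂ g + φ₂ h)
    (h0 : ∀ x : Gamma0 N, φ₁ (amg55_iota (x : Matrix.SpecialLinearGroup (Fin 2) ℤ)) =
      φ₂ (amg55_iota (x : Matrix.SpecialLinearGroup (Fin 2) ℤ)))
    (h1 : ∀ y : Gamma0 N, φ₁ (amg55_eta q (amg55_iota (y : Matrix.SpecialLinearGroup (Fin 2) ℤ))) =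
      φ₂ (amg55_eta q (amg55_iota (y : Matrix.SpecialLinearGroup (Fin 2) ℤ))))
    {γ : Matrix.SpecialLinearGroup (Fin 2) ℚ} (hγ : γ ∈ amg55_Delta N q) : φ₁ γ = φ₂ γ := by
  have mk : ∀ (φ : Matrix.SpecialLinearGroup (Fin 2) ℚ → B),
      (∀ g ∈ amg55_Delta N q, ∀ h ∈ amg55_Delta N q, φ (g * h) = φ g + φ h) →
      ∃ Φ : ↥(amg55_Delta N q) →* Multiplicative B, ∀ d, Φ d = Multiplicative.ofAdd (φ d) := by
    intro φ hadd
    have hone : φ 1 = 0 := by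
      have := hadd 1 (one_mem _) 1 (one_mem _)
      rw [mul_one] at this
      exact left_eq_add.mp this
    exact ⟨{ toFun := fun d => Multiplicative.ofAdd (φ d)
             map_one' := by
               show Multiplicative.ofAdd (φ ((1 : amg55_Delta N q) : _)) = 1
               rw [Subgroup.coe_one, hone]; rfl
             map_mul' := fun a b => by
               show Multiplicative.ofAdd (φ ((a * b : amg55_Delta N q) : _)) = _
               rw [Subgroup.coe_mul, hadd _ a.2 _ b.2]; rfl }, fun d => rfl⟩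
  obtain ⟨Φ₁, hΦ₁⟩ := mk φ₁ hadd₁
  obtain ⟨Φ₂, hΦ₂⟩ := mk φ₂ hadd₂
  have key : Φ₁ = Φ₂ := by
    apply amg55_hom_ext hNq
    · intro x; rw [hΦ₁, hΦ₂]; exact congrArg _ (h0 x)
    · intro y; rw [hΦ₁, hΦ₂]; exact congrArg _ (h1 y)
  have := DFunLike.congr_fun key ⟨γ, hγ⟩
  rw [hΦ₁, hΦ₂] at this
  exact Multiplicative.ofAdd.injective this

end Fermat.Agent.S41x
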