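/-
S41x/Amg55KerHfg (helper55): row D-KER in the exact shape requested by helper74 (`ihkk_hfg`):
a pair in the kernel of `lrRes + lrResEta` satisfies the gluing condition of
`amg55_exists_unique_hom`.
-/
import Fermat.Agent.S41x.Amg55Ker

set_option autoImplicit false

namespace Fermat.Agent.S41x

open Matrix CongruenceSubgroup

theorem amg55_hfg_of_ker {N q : ℕ} [Fact q.Prime] [NeZero q] {B : Type*} [AddCommGroup B]
    (ψ₁ ψ₂ : Additive (Gamma0 N) →+ B) (hker : lrRes N q ψ₁ + lrResEta N q ψ₂ = 0)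
    (x y : Gamma0 N)
    (hxy : amg55_iota (x : Matrix.SpecialLinearGroup (Fin 2) ℤ) =
      amg55_eta q (amg55_iota (y : Matrix.SpecialLinearGroup (Fin 2) ℤ))) :
    ψ₁ (Additive.ofMul x) = - ψ₂ (Additive.ofMul y) := by
  obtain ⟨γ, rfl, rfl⟩ := amg55_eq_of_iota_eq_eta x y hxy
  have h1 := DFunLike.congr_fun hker (Additive.ofMul γ)
  simp only [AddMonoidHom.add_apply, lrRes_apply, lrResEta_apply, AddMonoidHom.zero_apply] at h1
  exact eq_neg_of_add_eq_zero_left h1

end Fermat.Agent.S41x
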