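/-
S41 project (level raising), block B (COH-LEVEL): EXPORTS in the EXACT shapes of the architect's
`LRSpec.lean` (section B), part 1: definitions, naturality, (B1), (B4).  (helper27, captain B)

* `lrb_cores N q`, `lrb_coresEta N q` : TOTAL definitions (only `[NeZero N] [NeZero q]`):
  the transfer / twisted transfer `Hom(Γ₀(N q), B) →+ Hom(Γ₀(N), B)` of `CohLevelDefs.lean` when
  `q` is prime and `q ∤ N`, and `0` otherwise (`lrb_cores_eq`, `lrb_coresEta_eq`);
* `lrb_cores_comp_coeff`, `lrb_coresEta_comp_coeff`, `lrb_cores_smul`, `lrb_coresEta_smul`;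
* (B1) `lrb_B1_cores_res`, `lrb_B1_coresEta_resEta`, `lrb_B1_cores_resEta`, `lrb_B1_coresEta_res`;
* (B4) `lrb_B4_res`, `lrb_B4_resEta`, `lrb_B4_cores`, `lrb_B4_coresEta`, `lrb_B4_T`
  (membership in `parabolicHoms R _ B`).
(B2), (B3) : `BlockBHecke.lean`.
-/
import Fermat.Agent.S41x.CohLevelDefs

set_option autoImplicit false
set_option linter.unusedSectionVars false
set_option linter.style.haveILetI false

namespace Fermat.Agent.S41x

open scoped MatrixGroups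
open Fermat.Agent.S16x CongruenceSubgroup ModularCurve.Period

section B

variable (N q : ℕ) [NeZero N] [NeZero q] {B : Type*} [AddCommGroup B]

open Classical in
/-- transfer `Hom(Γ₀(N q), B) → Hom(Γ₀(N), B)` (total version: `0` unless `q` is a prime not
dividing `N`) -/
noncomputable def lrb_cores : (Additive (Gamma0 (N * q)) →+ B) →+ (Additive (Gamma0 N) →+ B) :=
  if h : q.Prime ∧ ¬ q ∣ N then (haveI : Fact q.Prime := ⟨h.1⟩; lrCores N q h.2) else 0

open Classical in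
/-- `[Γ₀(N q) diag(1,q) Γ₀(N)]` : the transpose of `lrResEta` (total version) -/
noncomputable def lrb_coresEta :
    (Additive (Gamma0 (N * q)) →+ B) →+ (Additive (Gamma0 N) →+ B) :=
  if h : q.Prime ∧ ¬ q ∣ N then (haveI : Fact q.Prime := ⟨h.1⟩; lrCoresEta N q h.2) else 0

theorem lrb_cores_eq [Fact q.Prime] (hqN : ¬ q ∣ N) :
    (lrb_cores N q : (Additive (Gamma0 (N * q)) →+ B) →+ _) = lrCores N q hqN := by
  unfold lrb_cores
  rw [dif_pos ⟨Fact.out, hqN⟩]

theorem lrb_coresEta_eq [Fact q.Prime] (hqN : ¬ q ∣ N) :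
    (lrb_coresEta N q : (Additive (Gamma0 (N * q)) →+ B) →+ _) = lrCoresEta N q hqN := by
  unfold lrb_coresEta
  rw [dif_pos ⟨Fact.out, hqN⟩]

theorem lrb_cores_eq_zero (h : ¬ (q.Prime ∧ ¬ q ∣ N)) :
    (lrb_cores N q : (Additive (Gamma0 (N * q)) →+ B) →+ _) = 0 := by
  unfold lrb_cores
  rw [dif_neg h]

theorem lrb_coresEta_eq_zero (h : ¬ (q.Prime ∧ ¬ q ∣ N)) :
    (lrb_coresEta N q : (Additive (Gamma0 (N * q)) →+ B) →+ _) = 0 := by
  unfold lrb_coresEta
  rw [dif_neg h]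

theorem lrb_cores_comp_coeff {B' : Type*} [AddCommGroup B'] (φ : B →+ B')
    (χ : Additive (Gamma0 (N * q)) →+ B) : lrb_cores N q (φ.comp χ) = φ.comp (lrb_cores N q χ) := by
  by_cases h : q.Prime ∧ ¬ q ∣ N
  · haveI : Fact q.Prime := ⟨h.1⟩
    rw [lrb_cores_eq N q h.2, lrb_cores_eq N q h.2]
    exact lrCores_comp_coeff N q h.2 φ χ
  · rw [lrb_cores_eq_zero N q h, lrb_cores_eq_zero N q h]
    simp

theorem lrb_coresEta_comp_coeff {B' : Type*} [AddCommGroup B'] (φ : B →+ B')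
    (χ : Additive (Gamma0 (N * q)) →+ B) :
    lrb_coresEta N q (φ.comp χ) = φ.comp (lrb_coresEta N q χ) := by
  by_cases h : q.Prime ∧ ¬ q ∣ N
  · haveI : Fact q.Prime := ⟨h.1⟩
    rw [lrb_coresEta_eq N q h.2, lrb_coresEta_eq N q h.2]
    exact lrCoresEta_comp_coeff N q h.2 φ χ
  · rw [lrb_coresEta_eq_zero N q h, lrb_coresEta_eq_zero N q h]
    simp

theorem lrb_cores_smul {R : Type*} [Semiring R] [Module R B] (c : R)
    (χ : Additive (Gamma0 (N * q)) →+ B) : lrb_cores N q (c • χ) = c • lrb_cores N q χ := by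
  by_cases h : q.Prime ∧ ¬ q ∣ N
  · haveI : Fact q.Prime := ⟨h.1⟩
    rw [lrb_cores_eq N q h.2]
    exact lrCores_smul N q h.2 c χ
  · rw [lrb_cores_eq_zero N q h]
    simp

theorem lrb_coresEta_smul {R : Type*} [Semiring R] [Module R B] (c : R)
    (χ : Additive (Gamma0 (N * q)) →+ B) :
    lrb_coresEta N q (c • χ) = c • lrb_coresEta N q χ := by
  by_cases h : q.Prime ∧ ¬ q ∣ N
  · haveI : Fact q.Prime := ⟨h.1⟩
    rw [lrb_coresEta_eq N q h.2]
    exact lrCoresEta_smul N q h.2 c χ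
  · rw [lrb_coresEta_eq_zero N q h]
    simp

variable (hq : q.Prime) (hqN : ¬ q ∣ N)
include hq hqN

/-- for a prime `q ∤ N` the total transfer is the transfer of `CohLevelDefs.lean` -/
theorem lrb_cores_apply (χ : Additive (Gamma0 (N * q)) →+ B) :
    lrb_cores N q χ = (haveI : Fact q.Prime := ⟨hq⟩; lrCores N q hqN χ) := by
  haveI : Fact q.Prime := ⟨hq⟩
  rw [lrb_cores_eq N q hqN]

theorem lrb_coresEta_apply (χ : Additive (Gamma0 (N * q)) →+ B) :
    lrb_coresEta N q χ = (haveI : Fact q.Prime := ⟨hq⟩; lrCoresEta N q hqN χ) := by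
  haveI : Fact q.Prime := ⟨hq⟩
  rw [lrb_coresEta_eq N q hqN]

/-! ### (B1) -/

theorem lrb_B1_cores_res (ψ : Additive (Gamma0 N) →+ B) :
    lrb_cores N q (lrRes N q ψ) = ((q : ℤ) + 1) • ψ := by
  haveI : Fact q.Prime := ⟨hq⟩
  rw [lrb_cores_eq N q hqN, lrCores_lrRes, ← natCast_zsmul]
  push_cast
  rfl

theorem lrb_B1_coresEta_resEta (ψ : Additive (Gamma0 N) →+ B) :
    lrb_coresEta N q (lrResEta N q ψ) = ((q : ℤ) + 1) • ψ := by
  haveI : Fact q.Prime := ⟨hq⟩
  rw [lrb_coresEta_eq N q hqN, lrCoresEta_lrResEta, ← natCast_zsmul]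
  push_cast
  rfl

theorem lrb_B1_cores_resEta (ψ : Additive (Gamma0 N) →+ B) :
    lrb_cores N q (lrResEta N q ψ) = lrT N ⟨q, hq⟩ ψ := by
  haveI : Fact q.Prime := ⟨hq⟩
  rw [lrb_cores_eq N q hqN, lrCores_lrResEta]
  rfl

theorem lrb_B1_coresEta_res (ψ : Additive (Gamma0 N) →+ B) :
    lrb_coresEta N q (lrRes N q ψ) = lrT N ⟨q, hq⟩ ψ := by
  haveI : Fact q.Prime := ⟨hq⟩
  rw [lrb_coresEta_eq N q hqN, lrCoresEta_lrRes]
  rfl

/-! ### (B4) parabolic stability -/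

theorem lrb_B4_res {R : Type*} [Semiring R] [Module R B] (ψ : Additive (Gamma0 N) →+ B)
    (h : ψ ∈ parabolicHoms R (Gamma0 N) B) :
    lrRes N q ψ ∈ parabolicHoms R (Gamma0 (N * q)) B := by
  haveI : Fact q.Prime := ⟨hq⟩
  exact lrRes_isParabolicHom N q h

theorem lrb_B4_resEta {R : Type*} [Semiring R] [Module R B] (ψ : Additive (Gamma0 N) →+ B)
    (h : ψ ∈ parabolicHoms R (Gamma0 N) B) :
    lrResEta N q ψ ∈ parabolicHoms R (Gamma0 (N * q)) B := by
  haveI : Fact q.Prime := ⟨hq⟩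
  exact lrResEta_isParabolicHom N q h

theorem lrb_B4_cores {R : Type*} [Semiring R] [Module R B]
    (χ : Additive (Gamma0 (N * q)) →+ B) (h : χ ∈ parabolicHoms R (Gamma0 (N * q)) B) :
    lrb_cores N q χ ∈ parabolicHoms R (Gamma0 N) B := by
  haveI : Fact q.Prime := ⟨hq⟩
  rw [lrb_cores_eq N q hqN]
  exact lrCores_isParabolicHom N q hqN h

theorem lrb_B4_coresEta {R : Type*} [Semiring R] [Module R B]
    (χ : Additive (Gamma0 (N * q)) →+ B) (h : χ ∈ parabolicHoms R (Gamma0 (N * q)) B) :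
    lrb_coresEta N q χ ∈ parabolicHoms R (Gamma0 N) B := by
  haveI : Fact q.Prime := ⟨hq⟩
  rw [lrb_coresEta_eq N q hqN]
  exact lrCoresEta_isParabolicHom N q hqN h

omit hq hqN in
theorem lrb_B4_T {R : Type*} [Semiring R] [Module R B] (ℓ : Nat.Primes)
    (ψ : Additive (Gamma0 N) →+ B) (h : ψ ∈ parabolicHoms R (Gamma0 N) B) :
    lrT N ℓ ψ ∈ parabolicHoms R (Gamma0 N) B :=
  lrT_isParabolicHom N ℓ h

end B

end Fermat.Agent.S41x
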