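/-
S41 project (level raising), block B (COH-LEVEL): EXPORTS, part 2: row (B2) = the four degeneracy
maps commute with `T_ℓ` for every prime `ℓ ∤ N q` (the only case used by block E), in the
architect's vocabulary (`lrRes`, `lrResEta`, `lrCores N q hqN`, `lrCoresEta N q hqN`, `lrT · ℓ`,
`ℓ : Nat.Primes`) and in the total `lrb_` vocabulary of `BlockBDefs.lean`.  (helper27, captain B)

Proofs: helper54's `corr_comm_lrl_res / _resEta / _cores / _coresEta` (cohT form) +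
`corr_cohOpGen_eq_cohT`.
-/
import Fermat.Agent.S41x.BlockBDefs
import Fermat.Agent.S41x.CorrCommEta

set_option autoImplicit false
set_option linter.unusedSectionVars false
set_option linter.style.haveILetI false

namespace Fermat.Agent.S41x

open scoped MatrixGroups
open Fermat.Agent.S16x CongruenceSubgroup ModularCurve.Period

/-- a prime not dividing `N * q` divides neither `N` nor `q` -/
theorem lrb_not_dvd_of_not_dvd_mul {N q ℓ : ℕ} (h : ¬ ℓ ∣ N * q) : ¬ ℓ ∣ N ∧ ¬ ℓ ∣ q :=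
  ⟨fun h' => h (Dvd.dvd.mul_right h' q), fun h' => h (Dvd.dvd.mul_left h' N)⟩

section B2

variable (N q : ℕ) [NeZero N] [Fact q.Prime] (hqN : ¬ q ∣ N) {B : Type*} [AddCommGroup B]
  (ℓ : Nat.Primes) (hℓ : ¬ (ℓ : ℕ) ∣ N * q)

include hℓ

/-- `T_ℓ` at level `N q` in `cohT` form -/
theorem lrb_lrT_mul_eq_cohT (χ : Additive (Gamma0 (N * q)) →+ B) :
    haveI : Fact (ℓ : ℕ).Prime := ⟨ℓ.2⟩
    lrT (N * q) ℓ χ = cohT (N * q) (ℓ : ℕ) hℓ χ := by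
  haveI : Fact (ℓ : ℕ).Prime := ⟨ℓ.2⟩
  exact corr_cohOpGen_eq_cohT (N * q) ℓ hℓ χ

/-- `T_ℓ` at level `N` in `cohT` form -/
theorem lrb_lrT_eq_cohT (ψ : Additive (Gamma0 N) →+ B) :
    haveI : Fact (ℓ : ℕ).Prime := ⟨ℓ.2⟩
    lrT N ℓ ψ = cohT N (ℓ : ℕ) (lrb_not_dvd_of_not_dvd_mul hℓ).1 ψ := by
  haveI : Fact (ℓ : ℕ).Prime := ⟨ℓ.2⟩
  exact corr_cohOpGen_eq_cohT N ℓ (lrb_not_dvd_of_not_dvd_mul hℓ).1 ψ

/-- (B2) restriction commutes with `T_ℓ`, `ℓ ∤ N q` -/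
theorem lrRes_lrT (ψ : Additive (Gamma0 N) →+ B) :
    lrRes N q (lrT N ℓ ψ) = lrT (N * q) ℓ (lrRes N q ψ) := by
  haveI : Fact (ℓ : ℕ).Prime := ⟨ℓ.2⟩
  rw [lrb_lrT_eq_cohT N q ℓ hℓ, lrb_lrT_mul_eq_cohT N q ℓ hℓ, ← lrl_res_op, ← lrl_res_op]
  exact corr_comm_lrl_res N q (ℓ : ℕ) (lrb_not_dvd_of_not_dvd_mul hℓ).1
    (lrb_not_dvd_of_not_dvd_mul hℓ).2 ψ

/-- (B2) twisted restriction commutes with `T_ℓ`, `ℓ ∤ N q` -/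
theorem lrResEta_lrT (ψ : Additive (Gamma0 N) →+ B) :
    lrResEta N q (lrT N ℓ ψ) = lrT (N * q) ℓ (lrResEta N q ψ) := by
  haveI : Fact (ℓ : ℕ).Prime := ⟨ℓ.2⟩
  rw [lrb_lrT_eq_cohT N q ℓ hℓ, lrb_lrT_mul_eq_cohT N q ℓ hℓ, ← lrl_resEta_op, ← lrl_resEta_op]
  exact corr_comm_lrl_resEta N q (ℓ : ℕ) (lrb_not_dvd_of_not_dvd_mul hℓ).1
    (lrb_not_dvd_of_not_dvd_mul hℓ).2 ψ

/-- (B2) transfer commutes with `T_ℓ`, `ℓ ∤ N q` -/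
theorem lrCores_lrT (χ : Additive (Gamma0 (N * q)) →+ B) :
    lrCores N q hqN (lrT (N * q) ℓ χ) = lrT N ℓ (lrCores N q hqN χ) := by
  haveI : Fact (ℓ : ℕ).Prime := ⟨ℓ.2⟩
  rw [lrb_lrT_eq_cohT N q ℓ hℓ, lrb_lrT_mul_eq_cohT N q ℓ hℓ, lrCores_def, lrCores_def]
  exact corr_comm_lrl_cores N q hqN (ℓ : ℕ) (lrb_not_dvd_of_not_dvd_mul hℓ).1
    (lrb_not_dvd_of_not_dvd_mul hℓ).2 χ

/-- (B2) twisted transfer commutes with `T_ℓ`, `ℓ ∤ N q` -/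
theorem lrCoresEta_lrT (χ : Additive (Gamma0 (N * q)) →+ B) :
    lrCoresEta N q hqN (lrT (N * q) ℓ χ) = lrT N ℓ (lrCoresEta N q hqN χ) := by
  haveI : Fact (ℓ : ℕ).Prime := ⟨ℓ.2⟩
  rw [lrb_lrT_eq_cohT N q ℓ hℓ, lrb_lrT_mul_eq_cohT N q ℓ hℓ, lrCoresEta_def, lrCoresEta_def]
  exact corr_comm_lrl_coresEta N q hqN (ℓ : ℕ) (lrb_not_dvd_of_not_dvd_mul hℓ).1
    (lrb_not_dvd_of_not_dvd_mul hℓ).2 χ

end B2

/-! ### the same in the total `lrb_` vocabulary (`LRSpec` shapes, good primes) -/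

section B2spec

variable (N q : ℕ) [NeZero N] [NeZero q] {B : Type*} [AddCommGroup B]
  (hq : q.Prime) (hqN : ¬ q ∣ N)

include hq hqN

theorem lrb_B2_res (ℓ : Nat.Primes) (hℓ : ¬ (ℓ : ℕ) ∣ N * q) (ψ : Additive (Gamma0 N) →+ B) :
    lrRes N q (lrT N ℓ ψ) = lrT (N * q) ℓ (lrRes N q ψ) := by
  haveI : Fact q.Prime := ⟨hq⟩
  exact lrRes_lrT N q ℓ hℓ ψ

theorem lrb_B2_resEta (ℓ : Nat.Primes) (hℓ : ¬ (ℓ : ℕ) ∣ N * q) (ψ : Additive (Gamma0 N) →+ B) :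
    lrResEta N q (lrT N ℓ ψ) = lrT (N * q) ℓ (lrResEta N q ψ) := by
  haveI : Fact q.Prime := ⟨hq⟩
  exact lrResEta_lrT N q ℓ hℓ ψ

theorem lrb_B2_cores (ℓ : Nat.Primes) (hℓ : ¬ (ℓ : ℕ) ∣ N * q)
    (χ : Additive (Gamma0 (N * q)) →+ B) :
    lrb_cores N q (lrT (N * q) ℓ χ) = lrT N ℓ (lrb_cores N q χ) := by
  haveI : Fact q.Prime := ⟨hq⟩
  rw [lrb_cores_eq N q hqN]
  exact lrCores_lrT N q hqN ℓ hℓ χ

theorem lrb_B2_coresEta (ℓ : Nat.Primes) (hℓ : ¬ (ℓ : ℕ) ∣ N * q)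
    (χ : Additive (Gamma0 (N * q)) →+ B) :
    lrb_coresEta N q (lrT (N * q) ℓ χ) = lrT N ℓ (lrb_coresEta N q χ) := by
  haveI : Fact q.Prime := ⟨hq⟩
  rw [lrb_coresEta_eq N q hqN]
  exact lrCoresEta_lrT N q hqN ℓ hℓ χ

end B2spec

end Fermat.Agent.S41x
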