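/-
S41 project (level raising), block B (COH-LEVEL), row B3 (helper64):
the Atkin–Lehner involution `W_q` on `Hom(Γ₀(N q), B)` and `U_q² = 1` on `ker β`.

`W = [[q u, v],[N q, q]]` (`u q - v N = 1`, `det W = q`) normalises `Γ₀(N q)`.
* `lrw_W`              : the one-coset correspondence `χ ↦ (γ ↦ χ (W γ W⁻¹))` of `Γ₀(N q)`;
* `lrw_W_W`            : `W_q ∘ W_q = id`;
* `lrw_cores_W`        : `cores ∘ W_q = coresEta`;
* `lrw_res_coresEta`   : `res ∘ coresEta = U_q + W_q` (`U_q = S16x.cohU (N q) q`);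
* `lrw_cohOpGen_eq_cohU` : `cohOpGen M ℓ = cohU M ℓ` for `ℓ ∣ M`;
* `lrw_ker_beta`       : B3: if `cores χ = 0` and `coresEta χ = 0` then `U_q (U_q χ) = χ`,
  `cores (U_q χ) = 0`, `coresEta (U_q χ) = 0` (`U_q = cohOpGen (N q) q`);
* `lrw_B3`             : the same in the official names `lrCores`, `lrCoresEta`, `lrT`, `lrPrime`
  of `CohLevelDefs.lean` (exact shape of B PLAN v2).
-/
import Fermat.Agent.S41x.CohLevelDefs

set_option autoImplicit false

namespace Fermat.Agent.S41x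

open scoped MatrixGroups
open Fermat.Agent.S16x CongruenceSubgroup Matrix.SpecialLinearGroup

/-- `W = [[q u, v],[N q, q]]` normalises `Γ₀(N q)` (`u q - v N = 1`) -/
theorem lrw_conj_aux (N q : ℕ) (u v : ℤ) (huv : u * q - v * N = 1) (γ : Gamma0 (N * q)) :
    ∃ γ' : Gamma0 (N * q),
      cohMat γ' * !![(q : ℤ) * u, v; (N : ℤ) * (q : ℤ), (q : ℤ)] =
        !![(q : ℤ) * u, v; (N : ℤ) * (q : ℤ), (q : ℤ)] * cohMat γ := by
  obtain ⟨e, he⟩ : ((N * q : ℕ) : ℤ) ∣ (γ : SL(2, ℤ)) 1 0 := lrl_dvd (N * q) γ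
  push_cast at he
  have hdet := lrl_det (N * q) γ
  have hγ := lrl_cohMat_eq (N * q) γ
  rw [he] at hdet hγ
  generalize (γ : SL(2, ℤ)) 0 0 = a at hdet hγ
  generalize (γ : SL(2, ℤ)) 0 1 = b at hdet hγ
  generalize (γ : SL(2, ℤ)) 1 1 = d at hdet hγ
  refine ⟨lrl_g0 (N * q)
    (q * u * a + v * N * q * e - q * u * b * N - v * d * N)
    (-(u * a * v) - v * v * N * e + q * u * u * b + u * v * d)
    ((N : ℤ) * q * (a + q * e - N * b - d))
    (-(N * a * v) - N * q * e * v + N * b * q * u + d * q * u) ?_ ?_, ?_⟩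
  · linear_combination (a * d - b * ((N : ℤ) * q * e)) * (u * q - v * N + 1) * huv + hdet
  · exact ⟨a + q * e - N * b - d, by push_cast; ring⟩
  · rw [lrl_cohMat_g0, hγ, Matrix.mul_fin_two, Matrix.mul_fin_two]
    refine lrl_mat_eq ?_ ?_ ?_ ?_
    · linear_combination (q * u * a + v * (N * q * e)) * huv
    · linear_combination (q * u * b + v * d) * huv
    · linear_combination ((N : ℤ) * q * a + q * (N * q * e)) * huv
    · linear_combination ((N : ℤ) * q * b + q * d) * huv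

/-- `δ = [[q u² + v N, v (u+1)],[N q (u+1), N v + q]] ∈ Γ₀(N q)`: `W² = q δ`, `W g_∞ = δ diag(1,q)` -/
def lrw_deltaSq (N q : ℕ) (u v : ℤ) (huv : u * q - v * N = 1) : Gamma0 (N * q) :=
  lrl_g0 (N * q) (q * u * u + v * N) (v * (u + 1)) ((N : ℤ) * q * (u + 1)) (N * v + q)
    (by linear_combination (u * q - v * N + 1) * huv) ⟨u + 1, by push_cast; ring⟩

theorem lrw_deltaSq_spec (N q : ℕ) (u v : ℤ) (huv : u * q - v * N = 1) :
    (!![(q : ℤ) * u, v; (N : ℤ) * (q : ℤ), (q : ℤ)] : Matrix (Fin 2) (Fin 2) ℤ) *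
        !![(q : ℤ) * u, v; (N : ℤ) * (q : ℤ), (q : ℤ)] =
      cohMat (lrw_deltaSq N q u v huv) * ((q : ℤ) • (1 : Matrix (Fin 2) (Fin 2) ℤ)) := by
  rw [lrw_deltaSq, lrl_cohMat_g0, Matrix.mul_smul, Matrix.mul_one, Matrix.mul_fin_two]
  ext i j
  fin_cases i <;> fin_cases j <;> simp <;> ring

theorem lrw_deltaSq_spec' (N q : ℕ) (u v : ℤ) (huv : u * q - v * N = 1) :
    (!![(q : ℤ) * u, v; (N : ℤ) * (q : ℤ), (q : ℤ)] : Matrix (Fin 2) (Fin 2) ℤ) *
        !![u, v; (N : ℤ), (q : ℤ)] =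
      cohMat (lrw_deltaSq N q u v huv) * !![1, 0; 0, (q : ℤ)] := by
  rw [lrw_deltaSq, lrl_cohMat_g0, Matrix.mul_fin_two, Matrix.mul_fin_two]
  refine lrl_mat_eq ?_ ?_ ?_ ?_ <;> ring

/-- `δ = [[q u² - v N, v (1-u)],[N q (u-1), q - N v]] ∈ Γ₀(N q)`: `W = δ A_∞` -/
def lrw_deltaZero (N q : ℕ) (u v : ℤ) (huv : u * q - v * N = 1) : Gamma0 (N * q) :=
  lrl_g0 (N * q) (q * u * u - v * N) (v * (1 - u)) ((N : ℤ) * q * (u - 1)) (q - N * v)
    (by linear_combination (u * q - v * N + 1) * huv) ⟨u - 1, by push_cast; ring⟩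

theorem lrw_deltaZero_spec (N q : ℕ) (u v : ℤ) (huv : u * q - v * N = 1) :
    (!![(q : ℤ) * u, v; (N : ℤ) * (q : ℤ), (q : ℤ)] : Matrix (Fin 2) (Fin 2) ℤ) =
      cohMat (lrw_deltaZero N q u v huv) * !![(q : ℤ), v; (q : ℤ) * N, (q : ℤ) * u] := by
  rw [lrw_deltaZero, lrl_cohMat_g0, Matrix.mul_fin_two]
  refine lrl_mat_eq ?_ ?_ ?_ ?_
  · linear_combination (-(q : ℤ) * u) * huv
  · linear_combination (-v) * huv
  · linear_combination (-(N : ℤ) * q) * huv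
  · linear_combination (-(q : ℤ)) * huv

/-- `δ = [[q - v N, v (u-1)],[q N (1-u), q u² - N v]] ∈ Γ₀(N q)`: `A_∞ = δ W` -/
def lrw_deltaInf (N q : ℕ) (u v : ℤ) (huv : u * q - v * N = 1) : Gamma0 (N * q) :=
  lrl_g0 (N * q) (q - v * N) (v * (u - 1)) ((N : ℤ) * q * (1 - u)) (q * u * u - N * v)
    (by linear_combination (u * q - v * N + 1) * huv) ⟨1 - u, by push_cast; ring⟩

theorem lrw_deltaInf_spec (N q : ℕ) (u v : ℤ) (huv : u * q - v * N = 1) :
    (!![(q : ℤ), v; (q : ℤ) * N, (q : ℤ) * u] : Matrix (Fin 2) (Fin 2) ℤ) =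
      cohMat (lrw_deltaInf N q u v huv) * !![(q : ℤ) * u, v; (N : ℤ) * (q : ℤ), (q : ℤ)] := by
  rw [lrw_deltaInf, lrl_cohMat_g0, Matrix.mul_fin_two]
  refine lrl_mat_eq ?_ ?_ ?_ ?_
  · linear_combination (-(q : ℤ)) * huv
  · linear_combination (-v) * huv
  · linear_combination (-(q : ℤ) * N) * huv
  · linear_combination (-(q : ℤ) * u) * huv

/-- `δ = [[q u + v N j, m],[N q (1+j), 1 - k N (1+j)]] ∈ Γ₀(N q)` when
`v - k (q u + v N j) = q m`: `W g_j = δ [[1,k],[0,q]]` -/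
def lrw_deltaFin (N q : ℕ) (u v : ℤ) (huv : u * q - v * N = 1) (j k m : ℤ)
    (hm : v - k * (q * u + v * N * j) = q * m) : Gamma0 (N * q) :=
  lrl_g0 (N * q) (q * u + v * N * j) m ((N : ℤ) * q * (1 + j)) (1 - k * N * (1 + j))
    (by linear_combination huv + (N : ℤ) * (1 + j) * hm) ⟨1 + j, by push_cast; ring⟩

theorem lrw_deltaFin_spec (N q : ℕ) (u v : ℤ) (huv : u * q - v * N = 1) (j k m : ℤ)
    (hm : v - k * (q * u + v * N * j) = q * m) :
    (!![(q : ℤ) * u, v; (N : ℤ) * (q : ℤ), (q : ℤ)] : Matrix (Fin 2) (Fin 2) ℤ) *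
        !![1, 0; (N : ℤ) * j, 1] =
      cohMat (lrw_deltaFin N q u v huv j k m hm) * !![1, k; 0, (q : ℤ)] := by
  rw [lrw_deltaFin, lrl_cohMat_g0, Matrix.mul_fin_two, Matrix.mul_fin_two]
  refine lrl_mat_eq ?_ ?_ ?_ ?_
  · ring
  · linear_combination hm
  · ring
  · ring

section W

variable (N q : ℕ) [Fact q.Prime] (hqN : ¬ q ∣ N) {B : Type*} [AddCommGroup B]

/-- the Atkin–Lehner matrix `W = [[q u, v],[N q, q]]`, `u q - v N = 1` -/
noncomputable def lrw_WMat : Matrix (Fin 2) (Fin 2) ℤ :=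
  !![(q : ℤ) * lrl_u N q hqN, lrl_v N q hqN; (N : ℤ) * (q : ℤ), (q : ℤ)]

theorem lrw_WMat_det : (lrw_WMat N q hqN).det = (q : ℤ) := by
  have huv := lrl_uv N q hqN
  rw [lrw_WMat, Matrix.det_fin_two_of]
  linear_combination (q : ℤ) * huv

theorem lrw_WMat_det_ne : (lrw_WMat N q hqN).det ≠ 0 := by
  rw [lrw_WMat_det]
  exact_mod_cast (Fact.out : q.Prime).ne_zero

/-- the Atkin–Lehner correspondence `W_q` of `Γ₀(N q)` -/
noncomputable def lrw_W : lrc_Corr (Gamma0 (N * q)) (Gamma0 (N * q)) Unit :=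
  lrc_conj (lrw_WMat N q hqN) (lrw_WMat_det_ne N q hqN)
    (lrw_conj_aux N q _ _ (lrl_uv N q hqN))

theorem lrw_W_A (y : Unit) : (lrw_W N q hqN).A y = lrw_WMat N q hqN := rfl

/-- `W_q ∘ W_q = id` -/
theorem lrw_W_W (χ : Additive (Gamma0 (N * q)) →+ B) :
    (lrw_W N q hqN).op ((lrw_W N q hqN).op χ) = χ := by
  have h := lrc_comp_eq (lrw_W N q hqN) (lrw_W N q hqN) (lrl_idScalar (N * q) q) (fun _ => ())
    ⟨fun _ _ _ => Subsingleton.elim _ _, fun _ => ⟨((), ()), rfl⟩⟩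
    (fun _ => lrw_deltaSq N q _ _ (lrl_uv N q hqN))
    (fun _ => lrw_deltaSq_spec N q _ _ (lrl_uv N q hqN)) χ
  rw [h, lrl_idScalar_op]

/-- the left factors `δ_x ∈ Γ₀(N q)` with `W g_x = δ_x * A_{y(x)}` -/
theorem lrw_exists_delta (x : OnePoint (ZMod q)) :
    ∃ δ : Gamma0 (N * q), lrw_WMat N q hqN * cohMat (lrl_g N q hqN x) =
      cohMat δ * lrl_AEta N q hqN (lrl_y N q x) := by
  have hq : q.Prime := Fact.out
  have hN := lrl_N_ne_zero N q hqN
  have huv := lrl_uv N q hqN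
  induction x using OnePoint.rec with
  | infty =>
    refine ⟨lrw_deltaSq N q _ _ huv, ?_⟩
    have hy : lrl_y N q (OnePoint.infty) = ((0 : ZMod q) : OnePoint (ZMod q)) := rfl
    rw [hy, lrl_AEta_coe, lrl_cohMatFin_zero, lrl_g_infty, lrl_cohMat_gInf]
    exact lrw_deltaSq_spec' N q _ _ huv
  | coe j =>
    by_cases hj : j = 0
    · refine ⟨lrw_deltaZero N q _ _ huv, ?_⟩
      have hy : lrl_y N q (j : OnePoint (ZMod q)) = OnePoint.infty := by simp [lrl_y, hj]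
      have h1 : (!![1, 0; (N : ℤ) * ((0 : ℕ) : ℤ), 1] : Matrix (Fin 2) (Fin 2) ℤ) = 1 := by
        simp [Matrix.one_fin_two]
      rw [hy, lrl_AEta_infty, lrl_g_coe, lrl_cohMat_gFin, hj, ZMod.val_zero, h1, Matrix.mul_one]
      exact lrw_deltaZero_spec N q _ _ huv
    · set k : ZMod q := ((N : ZMod q) * j)⁻¹ with hk
      have hy : lrl_y N q (j : OnePoint (ZMod q)) = (k : OnePoint (ZMod q)) := by
        simp [lrl_y, hj, hk]
      have hdvd : (q : ℤ) ∣ lrl_v N q hqN -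
          (k.val : ℤ) * (q * lrl_u N q hqN + lrl_v N q hqN * N * (j.val : ℤ)) := by
        rw [← ZMod.intCast_zmod_eq_zero_iff_dvd]
        push_cast
        simp only [ZMod.natCast_zmod_val, ZMod.natCast_self]
        have hkj : k * ((N : ZMod q) * j) = 1 := by
          rw [hk]; exact inv_mul_cancel₀ (mul_ne_zero hN hj)
        linear_combination (-(lrl_v N q hqN : ZMod q)) * hkj
      obtain ⟨m, hm⟩ := hdvd
      refine ⟨lrw_deltaFin N q _ _ huv (j.val : ℤ) (k.val : ℤ) m hm, ?_⟩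
      rw [hy, lrl_AEta_coe, lrl_g_coe, lrl_cohMat_gFin, cohMatFin]
      exact lrw_deltaFin_spec N q _ _ huv _ _ m hm

/-- `cores ∘ W_q = coresEta` -/
theorem lrw_cores_W (χ : Additive (Gamma0 (N * q)) →+ B) :
    (lrl_cores N q hqN).op ((lrw_W N q hqN).op χ) = (lrl_coresEta N q hqN).op χ :=
  lrc_comp_eq (lrw_W N q hqN) (lrl_cores N q hqN) (lrl_coresEta N q hqN)
    (fun p => lrl_y N q p.2)
    ⟨fun p p' h => Prod.ext (Subsingleton.elim _ _) ((lrl_y_involutive N q hqN).injective h),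
      fun y => ⟨((), lrl_y N q y), lrl_y_involutive N q hqN y⟩⟩
    (fun p => (lrw_exists_delta N q hqN p.2).choose)
    (fun p => (lrw_exists_delta N q hqN p.2).choose_spec) χ

/-- `coresEta ∘ W_q = cores` -/
theorem lrw_coresEta_W (χ : Additive (Gamma0 (N * q)) →+ B) :
    (lrl_coresEta N q hqN).op ((lrw_W N q hqN).op χ) = (lrl_cores N q hqN).op χ := by
  rw [← lrw_cores_W, lrw_W_W]

/-! ### `res ∘ coresEta = U_q + W_q` -/

theorem lrw_q_dvd : q ∣ N * q := Dvd.intro_left N rfl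

/-- the `U_q`-cosets and the `W_q`-coset are distinct -/
theorem lrw_disj (x : ZMod q) (y : Unit) (γ' : Gamma0 (N * q)) :
    cohMat γ' * (lrw_W N q hqN).A y ≠
      (lrc_ofDatum (cohDatumU (N * q) q (lrw_q_dvd N q))).A x := by
  have hq : q.Prime := Fact.out
  intro h
  have h00 := congrFun (congrFun h 0) 0
  rw [lrw_W_A, lrw_WMat, lrl_cohMat_eq (N * q) γ', Matrix.mul_fin_two] at h00
  have h1 : (q : ℤ) ∣ 1 := by
    refine ⟨(γ' : SL(2, ℤ)) 0 0 * lrl_u N q hqN + (γ' : SL(2, ℤ)) 0 1 * N, ?_⟩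
    have h2 : ((lrc_ofDatum (cohDatumU (N * q) q (lrw_q_dvd N q))).A x) 0 0 = 1 := by
      show (cohMatFin q x) 0 0 = 1
      simp [cohMatFin]
    rw [h2] at h00
    simp only [Matrix.of_apply, Matrix.cons_val_zero] at h00
    linear_combination -h00
  have h3 : (q : ℤ) ≤ 1 := Int.le_of_dvd one_pos h1
  have := hq.two_le
  omega

/-- the sum correspondence `U_q + W_q` of `Γ₀(N q)` -/
noncomputable def lrw_UW : lrc_Corr (Gamma0 (N * q)) (Gamma0 (N * q)) (ZMod q ⊕ Unit) :=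
  lrc_sum (lrc_ofDatum (cohDatumU (N * q) q (lrw_q_dvd N q))) (lrw_W N q hqN)
    (lrw_disj N q hqN)

/-- the index map `ℙ¹(𝔽_q) → 𝔽_q ⊕ {∞}` -/
def lrw_split (x : OnePoint (ZMod q)) : ZMod q ⊕ Unit :=
  x.elim (Sum.inr ()) Sum.inl

theorem lrw_split_bijective : Function.Bijective (lrw_split q) := by
  constructor
  · intro x x' h
    induction x using OnePoint.rec with
    | infty =>
      induction x' using OnePoint.rec with
      | infty => rfl
      | coe j' => simp [lrw_split] at h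
    | coe j =>
      induction x' using OnePoint.rec with
      | infty => simp [lrw_split] at h
      | coe j' =>
        have : j = j' := by simpa [lrw_split] using h
        rw [this]
  · rintro (j | ⟨⟩)
    · exact ⟨(j : OnePoint (ZMod q)), rfl⟩
    · exact ⟨OnePoint.infty, rfl⟩

/-- `res ∘ coresEta = U_q + W_q` -/
theorem lrw_res_coresEta (χ : Additive (Gamma0 (N * q)) →+ B) :
    (lrl_res N q).op ((lrl_coresEta N q hqN).op χ) =
      cohU (N * q) q (lrw_q_dvd N q) χ + (lrw_W N q hqN).op χ := by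
  have huv := lrl_uv N q hqN
  have h := lrc_comp_eq (lrl_coresEta N q hqN) (lrl_res N q) (lrw_UW N q hqN)
    (fun p => lrw_split q p.1)
    ⟨fun p p' h => Prod.ext ((lrw_split_bijective q).1 h) (Subsingleton.elim _ _),
      fun y => by
        obtain ⟨x, hx⟩ := (lrw_split_bijective q).2 y
        exact ⟨(x, ()), hx⟩⟩
    (fun p => p.1.elim (lrw_deltaInf N q _ _ huv) (fun _ => 1))
    (fun p => by
      obtain ⟨x, ⟨⟩⟩ := p
      show lrl_AEta N q hqN x * (1 : Matrix (Fin 2) (Fin 2) ℤ) = _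
      rw [Matrix.mul_one]
      induction x using OnePoint.rec with
      | infty =>
        show _ = cohMat (lrw_deltaInf N q _ _ huv) * lrw_WMat N q hqN
        rw [lrl_AEta_infty]
        exact lrw_deltaInf_spec N q _ _ huv
      | coe j =>
        show _ = cohMat (1 : Gamma0 (N * q)) * cohMatFin q j
        rw [cohMat_one, Matrix.one_mul, lrl_AEta_coe])
    χ
  rw [h, lrw_UW, lrc_sum_op, lrc_ofDatum_op]
  rfl

end W

/-! ### `cohOpGen = cohU` for `ℓ ∣ M` -/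

theorem lrw_cohMatFin_injective (ℓ : ℕ) [NeZero ℓ] : Function.Injective (cohMatFin ℓ) := by
  intro j j' h
  have h01 := congrFun (congrFun h 0) 1
  simp only [cohMatFin, Matrix.of_apply, Matrix.cons_val_zero, Matrix.cons_val_one] at h01
  exact ZMod.val_injective ℓ (by exact_mod_cast h01)

/-- `cohOpGen M ℓ = cohU M ℓ` for `ℓ ∣ M` -/
theorem lrw_cohOpGen_eq_cohU (M : ℕ) [NeZero M] (ℓ : Nat.Primes) [NeZero (ℓ : ℕ)]
    (hℓM : (ℓ : ℕ) ∣ M) {B : Type*} [AddCommGroup B] (ψ : Additive (Gamma0 M) →+ B) :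
    cohOpGen M ℓ ψ = cohU M (ℓ : ℕ) hℓM ψ := by
  refine AddMonoidHom.ext fun γ => ?_
  obtain ⟨γ, rfl⟩ := Additive.ofMul.surjective γ
  have hj : ∀ A : ↥(heckeReps M (ℓ : ℕ)), ∃ j : ZMod (ℓ : ℕ),
      (A : Matrix (Fin 2) (Fin 2) ℤ) = cohMatFin (ℓ : ℕ) j := fun A =>
    coh_mem_heckeReps_U hℓM A.2
  choose jOf hjOf using hj
  have hbij : Function.Bijective jOf := by
    constructor
    · intro A A' h
      apply Subtype.ext
      rw [hjOf A, hjOf A', h]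
    · intro j
      refine ⟨⟨cohMatFin (ℓ : ℕ) j, cohMatFin_mem_heckeReps M j⟩, ?_⟩
      exact lrw_cohMatFin_injective (ℓ : ℕ) (hjOf ⟨cohMatFin (ℓ : ℕ) j, _⟩).symm
  rw [cohOpGen, (cohDatumGen M ℓ).op_apply_of ψ (γ := γ)
    (τ := fun A => ⟨cohMatFin (ℓ : ℕ) ((cohDatumU M (ℓ : ℕ) hℓM).idx γ (jOf A)),
      cohMatFin_mem_heckeReps M _⟩)
    (h := fun A => (cohDatumU M (ℓ : ℕ) hℓM).elt γ (jOf A))
    (fun A => by
      show cohMat ((cohDatumU M (ℓ : ℕ) hℓM).elt γ (jOf A)) *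
        cohMatFin (ℓ : ℕ) ((cohDatumU M (ℓ : ℕ) hℓM).idx γ (jOf A)) =
          (A : Matrix (Fin 2) (Fin 2) ℤ) * cohMat γ
      rw [hjOf A]
      exact (cohDatumU M (ℓ : ℕ) hℓM).elt_spec γ (jOf A)),
    cohU, CohDatum.op_apply]
  exact Function.Bijective.sum_comp hbij
    (fun j => ψ (Additive.ofMul ((cohDatumU M (ℓ : ℕ) hℓM).elt γ j)))

/-! ### B3: `U_q² = 1` on `ker β` -/

section B3

variable (N q : ℕ) [Fact q.Prime] (hqN : ¬ q ∣ N) {B : Type*} [AddCommGroup B]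

/-- on `ker coresEta`, `U_q = - W_q` -/
theorem lrw_U_eq_neg_W (χ : Additive (Gamma0 (N * q)) →+ B)
    (h2 : (lrl_coresEta N q hqN).op χ = 0) :
    cohU (N * q) q (lrw_q_dvd N q) χ = - (lrw_W N q hqN).op χ := by
  have h := lrw_res_coresEta N q hqN χ
  rw [h2, map_zero] at h
  exact eq_neg_of_add_eq_zero_left h.symm

/-- B3 with `U_q = cohU`: `U_q² = 1` on `ker β`, and `U_q` preserves `ker β`. -/
theorem lrw_ker_beta_cohU (χ : Additive (Gamma0 (N * q)) →+ B)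
    (h1 : (lrl_cores N q hqN).op χ = 0) (h2 : (lrl_coresEta N q hqN).op χ = 0) :
    cohU (N * q) q (lrw_q_dvd N q) (cohU (N * q) q (lrw_q_dvd N q) χ) = χ ∧
      (lrl_cores N q hqN).op (cohU (N * q) q (lrw_q_dvd N q) χ) = 0 ∧
      (lrl_coresEta N q hqN).op (cohU (N * q) q (lrw_q_dvd N q) χ) = 0 := by
  have hW1 : (lrl_cores N q hqN).op ((lrw_W N q hqN).op χ) = 0 := by
    rw [lrw_cores_W, h2]
  have hW2 : (lrl_coresEta N q hqN).op ((lrw_W N q hqN).op χ) = 0 := by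
    rw [lrw_coresEta_W, h1]
  have hU := lrw_U_eq_neg_W N q hqN χ h2
  have hUW := lrw_U_eq_neg_W N q hqN ((lrw_W N q hqN).op χ) hW2
  refine ⟨?_, ?_, ?_⟩
  · rw [hU, map_neg, hUW, lrw_W_W, neg_neg]
  · rw [hU, map_neg, hW1, neg_zero]
  · rw [hU, map_neg, hW2, neg_zero]

/-- B3: `U_q² = 1` on `ker β` and `U_q` preserves `ker β`, with `U_q = cohOpGen (N q) q`. -/
theorem lrw_ker_beta [NeZero (N * q)] (ℓ : Nat.Primes) (hℓ : (ℓ : ℕ) = q)
    (χ : Additive (Gamma0 (N * q)) →+ B)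
    (h1 : (lrl_cores N q hqN).op χ = 0) (h2 : (lrl_coresEta N q hqN).op χ = 0) :
    cohOpGen (N * q) ℓ (cohOpGen (N * q) ℓ χ) = χ ∧
      (lrl_cores N q hqN).op (cohOpGen (N * q) ℓ χ) = 0 ∧
      (lrl_coresEta N q hqN).op (cohOpGen (N * q) ℓ χ) = 0 := by
  subst hℓ
  have hU : ∀ χ' : Additive (Gamma0 (N * (ℓ : ℕ))) →+ B,
      cohOpGen (N * (ℓ : ℕ)) ℓ χ' = cohU (N * (ℓ : ℕ)) (ℓ : ℕ) (lrw_q_dvd N (ℓ : ℕ)) χ' :=
    fun χ' => lrw_cohOpGen_eq_cohU (N * (ℓ : ℕ)) ℓ (lrw_q_dvd N (ℓ : ℕ)) χ'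
  rw [hU, hU]
  exact lrw_ker_beta_cohU N (ℓ : ℕ) hqN χ h1 h2

/-- B3 in the official names of `CohLevelDefs.lean`. -/
theorem lrw_B3 [NeZero (N * q)] (χ : Additive (Gamma0 (N * q)) →+ B)
    (h1 : lrCores N q hqN χ = 0) (h2 : lrCoresEta N q hqN χ = 0) :
    lrT (N * q) (lrPrime q) (lrT (N * q) (lrPrime q) χ) = χ ∧
      lrCores N q hqN (lrT (N * q) (lrPrime q) χ) = 0 ∧
      lrCoresEta N q hqN (lrT (N * q) (lrPrime q) χ) = 0 :=
  lrw_ker_beta N q hqN (lrPrime q) rfl χ h1 h2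

/-- `lrRes ∘ lrCoresEta = U_q + W_q` in the official names -/
theorem lrw_lrRes_lrCoresEta [NeZero (N * q)] (χ : Additive (Gamma0 (N * q)) →+ B) :
    lrRes N q (lrCoresEta N q hqN χ) = lrT (N * q) (lrPrime q) χ + (lrw_W N q hqN).op χ := by
  have : NeZero ((lrPrime q : Nat.Primes) : ℕ) := inferInstanceAs (NeZero q)
  rw [← lrl_res_op, lrCoresEta_def, lrw_res_coresEta]
  congr 1
  exact (lrw_cohOpGen_eq_cohU (N * q) (lrPrime q) (lrw_q_dvd N q) χ).symm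

end B3

end Fermat.Agent.S41x
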