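/-
S41 project (level raising), block B (COH-LEVEL): FINAL EXPORT FILE (import this one).
(helper27, captain B)

Everything of `LRSpec.lean`, section B, in the EXACT Spec shapes, prefix `lrb_`:
* `BlockBDefs.lean`  : `lrb_cores`, `lrb_coresEta` (total defs), `lrb_*_comp_coeff`, `lrb_*_smul`,
  (B1) `lrb_B1_*`, (B4) `lrb_B4_*`;
* `BlockBHecke.lean` : (B2) for `ℓ ∤ N q` (`lrb_B2_*`, and `lrRes_lrT` etc. in `Fact` form);
* here: (B2) for EVERY prime `ℓ ≠ q` (`lrb_B2all_*`; from helper54's `CohLevelB2.lean`), the stability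
  of `ker β` under these (`lrb_B2all_ker_stable`), and (B3) `lrb_B3` (`U_q² = 1` on `ker β`, and
  `ker β` is `U_q`-stable; from helper64's `CohLevelW64.lean`; twin: helper1's `CohLevelB3.lean`).
-/
import Fermat.Agent.S41x.BlockBHecke
import Fermat.Agent.S41x.CohLevelB2
import Fermat.Agent.S41x.CohLevelW64

set_option autoImplicit false
set_option linter.unusedSectionVars false
set_option linter.style.haveILetI false

namespace Fermat.Agent.S41x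

open scoped MatrixGroups
open Fermat.Agent.S16x CongruenceSubgroup ModularCurve.Period

section B

variable (N q : ℕ) [NeZero N] [NeZero q] {B : Type*} [AddCommGroup B]
  (hq : q.Prime) (hqN : ¬ q ∣ N)

include hq hqN

/-! ### (B2) for every prime `ℓ ≠ q` (dividing `N` or not) -/

theorem lrb_B2all_res (ℓ : Nat.Primes) (hℓ : (ℓ : ℕ) ≠ q) (ψ : Additive (Gamma0 N) →+ B) :
    lrRes N q (lrT N ℓ ψ) = lrT (N * q) ℓ (lrRes N q ψ) := by
  haveI : Fact q.Prime := ⟨hq⟩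
  exact lrb2_res N q ℓ hℓ ψ

theorem lrb_B2all_resEta (ℓ : Nat.Primes) (hℓ : (ℓ : ℕ) ≠ q) (ψ : Additive (Gamma0 N) →+ B) :
    lrResEta N q (lrT N ℓ ψ) = lrT (N * q) ℓ (lrResEta N q ψ) := by
  haveI : Fact q.Prime := ⟨hq⟩
  exact lrb2_resEta N q ℓ hℓ ψ

theorem lrb_B2all_cores (ℓ : Nat.Primes) (hℓ : (ℓ : ℕ) ≠ q)
    (χ : Additive (Gamma0 (N * q)) →+ B) :
    lrb_cores N q (lrT (N * q) ℓ χ) = lrT N ℓ (lrb_cores N q χ) := by
  haveI : Fact q.Prime := ⟨hq⟩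
  rw [lrb_cores_eq N q hqN]
  exact lrb2_cores N q hqN ℓ hℓ χ

theorem lrb_B2all_coresEta (ℓ : Nat.Primes) (hℓ : (ℓ : ℕ) ≠ q)
    (χ : Additive (Gamma0 (N * q)) →+ B) :
    lrb_coresEta N q (lrT (N * q) ℓ χ) = lrT N ℓ (lrb_coresEta N q χ) := by
  haveI : Fact q.Prime := ⟨hq⟩
  rw [lrb_coresEta_eq N q hqN]
  exact lrb2_coresEta N q hqN ℓ hℓ χ

/-- `ker β` is stable under `lrT (N q) ℓ`, `ℓ ≠ q` -/
theorem lrb_B2all_ker_stable (ℓ : Nat.Primes) (hℓ : (ℓ : ℕ) ≠ q)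
    (χ : Additive (Gamma0 (N * q)) →+ B) (h1 : lrb_cores N q χ = 0)
    (h2 : lrb_coresEta N q χ = 0) :
    lrb_cores N q (lrT (N * q) ℓ χ) = 0 ∧ lrb_coresEta N q (lrT (N * q) ℓ χ) = 0 := by
  refine ⟨?_, ?_⟩
  · rw [lrb_B2all_cores N q hq hqN ℓ hℓ, h1, map_zero]
  · rw [lrb_B2all_coresEta N q hq hqN ℓ hℓ, h2, map_zero]

/-! ### (B3) `U_q² = 1` on `ker β`, and `ker β` is `U_q`-stable -/

theorem lrb_B3 (χ : Additive (Gamma0 (N * q)) →+ B) (h1 : lrb_cores N q χ = 0)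
    (h2 : lrb_coresEta N q χ = 0) :
    lrT (N * q) ⟨q, hq⟩ (lrT (N * q) ⟨q, hq⟩ χ) = χ ∧
      lrb_cores N q (lrT (N * q) ⟨q, hq⟩ χ) = 0 ∧
        lrb_coresEta N q (lrT (N * q) ⟨q, hq⟩ χ) = 0 := by
  haveI : Fact q.Prime := ⟨hq⟩
  rw [lrb_cores_eq N q hqN] at h1 ⊢
  rw [lrb_coresEta_eq N q hqN] at h2 ⊢
  exact lrw_B3 N q hqN χ h1 h2

/-- (B3), first part only (the form used by block E) -/
theorem lrb_B3_sq (χ : Additive (Gamma0 (N * q)) →+ B) (h1 : lrb_cores N q χ = 0)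
    (h2 : lrb_coresEta N q χ = 0) :
    lrT (N * q) ⟨q, hq⟩ (lrT (N * q) ⟨q, hq⟩ χ) = χ :=
  (lrb_B3 N q hq hqN χ h1 h2).1

end B

end Fermat.Agent.S41x
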