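/-
S41 side project "BRIDGE", row BR-T (helper3): p-torsion and the division polynomial over Qbar.

* `brt_preΨ_eval_eq_zero`   : x-coordinates of p-torsion points are roots of `preΨ p` (any field, odd prime `p`)
                               [p = 3: doubling formula (generic-universe copy of the S51x/Tor3 argument);
                                p ≥ 5: `S13x/DivSeq.ds_preΨ_eval_eq_zero_of_prime`].
* `brt_exists_finset`       : the nonzero p-torsion points of `W(Qbar)` as a finset of cardinality `p² - 1`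
                               [`S13x/TorsionQbar.tq_card_torsion`].
* `brt_exists_point_of_root`: over `Qbar` every root of `preΨ p` is the x-coordinate of a nonzero p-torsion point
                               (count: `p² - 1` points, fibres of `x` of size ≤ 2, `deg preΨ p = (p² - 1)/2`).
(The factorisation `preΨ p = C p * ∏ (X - x_i)` with simple roots: see `S41x/BridgeTorsion2.lean`, if landed.)

Both main statements are the exact statements of `S41x/BridgeSpec.lean` (which is never imported).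
-/
import Mathlib
import Fermat.Agent.S13x.DivSeq
import Fermat.Agent.S13x.TorsionQbar

set_option autoImplicit false
set_option linter.unusedSectionVars false

open WeierstrassCurve WeierstrassCurve.Affine WeierstrassCurve.Affine.Point Polynomial

namespace Fermat.Agent.S41x
section Three

variable {F : Type*} [Field F] [DecidableEq F] (W : WeierstrassCurve F)

theorem brt_Ψ₃_eval (x : F) :
    W.Ψ₃.eval x = 3 * x ^ 4 + W.b₂ * x ^ 3 + 3 * W.b₄ * x ^ 2 + 3 * W.b₆ * x + W.b₈ := by
  simp [Ψ₃]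

/-- Key polynomial identity: `N² + a₁Nη - (a₂+3x)η² + Ψ₃ = -(12x+b₂)·(Weierstrass equation)`. -/
theorem brt_key (x y : F) :
    (3 * x ^ 2 + 2 * W.a₂ * x + W.a₄ - W.a₁ * y) ^ 2 +
      W.a₁ * (3 * x ^ 2 + 2 * W.a₂ * x + W.a₄ - W.a₁ * y) * (2 * y + W.a₁ * x + W.a₃) -
      (W.a₂ + 3 * x) * (2 * y + W.a₁ * x + W.a₃) ^ 2 + W.Ψ₃.eval x =
    -(12 * x + W.b₂) *
      (y ^ 2 + W.a₁ * x * y + W.a₃ * y - (x ^ 3 + W.a₂ * x ^ 2 + W.a₄ * x + W.a₆)) := by
  rw [brt_Ψ₃_eval]
  simp only [b₂, b₄, b₆, b₈]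
  ring

/-- Doubling formula: `x(2P) - x(P) = -Ψ₃(x)/η²`. -/
theorem brt_addX_sub {x y : F} (h : W.toAffine.Equation x y)
    (hy : y ≠ W.toAffine.negY x y) :
    W.toAffine.addX x x (W.toAffine.slope x x y y) - x =
      -(W.Ψ₃.eval x) / (2 * y + W.a₁ * x + W.a₃) ^ 2 := by
  have hη : (2 * y + W.a₁ * x + W.a₃) ≠ 0 := by
    intro h0
    apply hy
    simp only [negY]
    linear_combination h0
  rw [slope_of_Y_ne rfl hy]
  have hden : y - W.toAffine.negY x y = 2 * y + W.a₁ * x + W.a₃ := by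
    simp only [negY]; ring
  rw [hden]
  rw [equation_iff] at h
  have key := brt_key W x y
  rw [eq_div_iff (pow_ne_zero 2 hη)]
  obtain ⟨t, ht⟩ : ∃ t, t = (3 * x ^ 2 + 2 * W.a₂ * x + W.a₄ - W.a₁ * y) /
      (2 * y + W.a₁ * x + W.a₃) := ⟨_, rfl⟩
  have e1 : t * (2 * y + W.a₁ * x + W.a₃) = 3 * x ^ 2 + 2 * W.a₂ * x + W.a₄ - W.a₁ * y := by
    rw [ht, div_mul_cancel₀ _ hη]
  rw [← ht]
  simp only [addX]
  linear_combination key - (12 * x + W.b₂) * h +
    (t * (2 * y + W.a₁ * x + W.a₃) + (3 * x ^ 2 + 2 * W.a₂ * x + W.a₄ - W.a₁ * y) +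
      W.a₁ * (2 * y + W.a₁ * x + W.a₃)) * e1

/-- The x-coordinate of a point of order 3 is a root of `Ψ₃`. -/
theorem brt_Ψ₃_eval_eq_zero {x y : F} (h : W.toAffine.Nonsingular x y)
    (h3 : 3 • (Point.some x y h) = 0) : W.Ψ₃.eval x = 0 := by
  have h3' : Point.some x y h + Point.some x y h + Point.some x y h = 0 := by
    rw [← h3]; abel
  have h2 : Point.some x y h + Point.some x y h = -Point.some x y h :=
    eq_neg_of_add_eq_zero_left h3'
  by_cases hy : y = W.toAffine.negY x y
  · rw [add_self_of_Y_eq hy] at h2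
    have : Point.some x y h = 0 := by
      have := congrArg Neg.neg h2
      simpa using this.symm
    exact absurd this (some_ne_zero h)
  · rw [add_self_of_Y_ne hy, neg_some] at h2
    have hx : W.toAffine.addX x x (W.toAffine.slope x x y y) = x := by
      injection h2
    have hsub := brt_addX_sub W h.1 hy
    rw [hx, sub_self] at hsub
    have hη : (2 * y + W.a₁ * x + W.a₃) ≠ 0 := by
      intro h0
      apply hy
      simp only [negY]
      linear_combination h0
    have := (div_eq_zero_iff.mp hsub.symm).resolve_right (pow_ne_zero 2 hη)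
    simpa using this

end Three

/-- x-coordinates of p-torsion points are roots of `preΨ p` (any field, any odd prime `p`). -/
theorem brt_preΨ_eval_eq_zero {F : Type*} [Field F] [DecidableEq F] (W : WeierstrassCurve F) {p : ℕ} (hp : p.Prime)
    (hp2 : p ≠ 2) {x y : F} (h : W.toAffine.Nonsingular x y) (hP : p • Point.some x y h = 0) :
    (W.preΨ (p : ℤ)).eval x = 0 := by
  rcases Nat.lt_or_ge p 5 with h5 | h5
  · have h3 : p = 3 := by
      have h2 := hp.two_le
      interval_cases p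
      · exact absurd rfl hp2
      · rfl
      · exact absurd hp (by decide)
    subst h3
    have : ((3 : ℕ) : ℤ) = 3 := rfl
    rw [this, preΨ_three]
    exact brt_Ψ₃_eval_eq_zero W h hP
  · exact Fermat.Agent.S13x.ds_preΨ_eval_eq_zero_of_prime h hp h5 hP

section Roots

open Fermat.Agent.S13x

/-- the set of nonzero `p`-torsion points of `W` over `Qbar`, as a finset -/
theorem brt_exists_finset (W : WeierstrassCurve ℚ) (hΔ : W.Δ ≠ 0) {p : ℕ} (hp : 1 ≤ p) :
    ∃ S : Finset (W⁄(AlgebraicClosure ℚ)).toAffine.Point, S.card = p ^ 2 - 1 ∧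
      ∀ P, P ∈ S ↔ P ≠ 0 ∧ p • P = 0 := by
  classical
  have hfin := tq_finite_torsion W hΔ p hp
  have hcard := tq_card_torsion W hΔ p hp
  have : Fintype (Submodule.torsionBy ℤ (W⁄(AlgebraicClosure ℚ)).toAffine.Point (p : ℤ)) :=
    Fintype.ofFinite _
  let S0 : Finset (W⁄(AlgebraicClosure ℚ)).toAffine.Point :=
    (Finset.univ : Finset (Submodule.torsionBy ℤ (W⁄(AlgebraicClosure ℚ)).toAffine.Point (p : ℤ))).image
      Subtype.val
  have hS0mem : ∀ P, P ∈ S0 ↔ p • P = 0 := by
    intro P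
    constructor
    · intro hP
      obtain ⟨Q, -, rfl⟩ := Finset.mem_image.mp hP
      have := (Submodule.mem_torsionBy_iff _ _).mp Q.2
      rwa [natCast_zsmul] at this
    · intro hP
      refine Finset.mem_image.mpr ⟨⟨P, ?_⟩, Finset.mem_univ _, rfl⟩
      rw [Submodule.mem_torsionBy_iff, natCast_zsmul]
      exact hP
  have hS0card : S0.card = p ^ 2 := by
    rw [Finset.card_image_of_injective _ Subtype.val_injective, Finset.card_univ, ← Nat.card_eq_fintype_card,
      hcard]
  refine ⟨S0.erase 0, ?_, ?_⟩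
  · rw [Finset.card_erase_of_mem ((hS0mem 0).mpr (nsmul_zero _)), hS0card]
  · intro P
    rw [Finset.mem_erase, hS0mem]

/-- over `Qbar`: every root of `preΨ p` is the x-coordinate of a nonzero p-torsion point. -/
theorem brt_exists_point_of_root (W : WeierstrassCurve ℚ) (hΔ : W.Δ ≠ 0) {p : ℕ} (hp : p.Prime) (hp2 : p ≠ 2)
    (x : AlgebraicClosure ℚ) (hx : ((W⁄(AlgebraicClosure ℚ)).preΨ (p : ℤ)).eval x = 0) :
    ∃ (y : AlgebraicClosure ℚ) (h : (W⁄(AlgebraicClosure ℚ)).toAffine.Nonsingular x y),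
      p • Point.some x y h = 0 := by
  classical
  obtain ⟨S, hScard, hSmem⟩ := brt_exists_finset W hΔ hp.one_le
  have hodd : Odd p := hp.odd_of_ne_two hp2
  have hpne : ((p : ℤ) : AlgebraicClosure ℚ) ≠ 0 := by
    have : (p : AlgebraicClosure ℚ) ≠ 0 := Nat.cast_ne_zero.mpr hp.ne_zero
    exact_mod_cast this
  have hΨne : (W⁄(AlgebraicClosure ℚ)).preΨ (p : ℤ) ≠ 0 := (W⁄(AlgebraicClosure ℚ)).preΨ_ne_zero hpne
  have hdeg : ((W⁄(AlgebraicClosure ℚ)).preΨ (p : ℤ)).natDegree = (p ^ 2 - 1) / 2 := by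
    rw [(W⁄(AlgebraicClosure ℚ)).natDegree_preΨ hpne]
    have : ¬ Even (p : ℤ) := by
      rw [Int.not_even_iff_odd]
      exact_mod_cast hodd
    rw [if_neg this, Int.natAbs_natCast]
  let R : Finset (AlgebraicClosure ℚ) := ((W⁄(AlgebraicClosure ℚ)).preΨ (p : ℤ)).roots.toFinset
  have hRcard : R.card ≤ (p ^ 2 - 1) / 2 := by
    calc R.card ≤ Multiset.card ((W⁄(AlgebraicClosure ℚ)).preΨ (p : ℤ)).roots := Multiset.toFinset_card_le _
      _ ≤ ((W⁄(AlgebraicClosure ℚ)).preΨ (p : ℤ)).natDegree := Polynomial.card_roots' _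
      _ = (p ^ 2 - 1) / 2 := hdeg
  have himg : S.image wgX ⊆ R := by
    intro a ha
    obtain ⟨P, hPS, rfl⟩ := Finset.mem_image.mp ha
    obtain ⟨hP0, hPp⟩ := (hSmem P).mp hPS
    obtain ⟨x', y', h', rfl⟩ := wg_exists_some hP0
    rw [wgX_some, Multiset.mem_toFinset, Polynomial.mem_roots hΨne]
    exact brt_preΨ_eval_eq_zero _ hp hp2 h' hPp
  have hfib : ∀ a ∈ S.image wgX, (S.filter (fun P => wgX P = a)).card ≤ 2 := by
    intro a ha
    obtain ⟨P, hPS, rfl⟩ := Finset.mem_image.mp ha
    obtain ⟨hP0, hPp⟩ := (hSmem P).mp hPS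
    obtain ⟨x', y', h', rfl⟩ := wg_exists_some hP0
    have hsub : S.filter (fun P => wgX P = wgX (Point.some x' y' h')) ⊆
        {Point.some x' y' h', -Point.some x' y' h'} := by
      intro Q hQ
      obtain ⟨hQS, hQx⟩ := Finset.mem_filter.mp hQ
      obtain ⟨hQ0, -⟩ := (hSmem Q).mp hQS
      obtain ⟨x'', y'', h'', rfl⟩ := wg_exists_some hQ0
      rw [wgX_some, wgX_some] at hQx
      rw [Finset.mem_insert, Finset.mem_singleton]
      exact X_eq_iff.mp hQx
    exact (Finset.card_le_card hsub).trans Finset.card_le_two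
  have hle : S.card ≤ 2 * (S.image wgX).card := Finset.card_le_mul_card_image _ 2 hfib
  have hcardle : (S.image wgX).card ≤ R.card := Finset.card_le_card himg
  have heq : S.image wgX = R := Finset.eq_of_subset_of_card_le himg (by omega)
  have hxR : x ∈ R := by
    rw [Multiset.mem_toFinset, Polynomial.mem_roots hΨne]
    exact hx
  rw [← heq] at hxR
  obtain ⟨P, hPS, hPx⟩ := Finset.mem_image.mp hxR
  obtain ⟨hP0, hPp⟩ := (hSmem P).mp hPS
  obtain ⟨x', y', h', rfl⟩ := wg_exists_some hP0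
  rw [wgX_some] at hPx
  subst hPx
  exact ⟨y', h', hPp⟩

end Roots

end Fermat.Agent.S41x
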