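import Fermat.Agent.S41x.BridgeReduction
import Fermat.Agent.S41x.BridgeTorsion

/-!
# S41 bridge, row BRR (owner helper36): final statement

`brr_frobenius_fixes` is the exact `BridgeSpec.brr_frobenius_fixes` statement: the reduction
argument of `BridgeReduction.lean` with the two division-polynomial inputs supplied by
`BridgeTorsion.lean` (row BRT, helper3).
-/

set_option autoImplicit false
open WeierstrassCurve WeierstrassCurve.Affine WeierstrassCurve.Affine.Point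

namespace Fermat.Agent.S41x

theorem brr_hyp1 : brrHyp1 := fun _ _ _ W _ hp hp2 _ _ h hP =>
  brt_preΨ_eval_eq_zero W hp hp2 h hP

theorem brr_hyp2 : brrHyp2 := fun W hΔ _ hp hp2 x hx =>
  brt_exists_point_of_root W hΔ hp hp2 x hx

/-- **BR-R**: good reduction at `ℓ ≠ p`, `p ∣ #W~(F_ℓ)`  ==>  every Frobenius element at `ℓ` fixes a
nonzero `p`-torsion point of `W(Qbar)`. -/
theorem brr_frobenius_fixes (W : WeierstrassCurve ℤ) {p ℓ : ℕ} (hp : p.Prime) (hp2 : p ≠ 2)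
    (hℓ : ℓ.Prime) (hℓp : ℓ ≠ p) (_hℓ6 : ¬ ℓ ∣ 6) (hgood : W.IsGoodPrimeFor ℓ)
    (hdvd : (p : ℤ) ∣ ((ℓ : ℤ) + 1 - W.apOfModel ℓ))
    (A : ValuationSubring (AlgebraicClosure ℚ)) (hA : A.LiesOverPrime ℓ)
    (φ : AlgebraicClosure ℚ ≃ₐ[ℚ] AlgebraicClosure ℚ) (hφ : A.IsFrobeniusAt φ ℓ) :
    ∃ P : ((W.map (Int.castRingHom ℚ))⁄(AlgebraicClosure ℚ)).Point,
      P ≠ 0 ∧ p • P = 0 ∧ φ • P = P :=
  brr_frobenius_fixes_of brr_hyp1 brr_hyp2 W hp hp2 hℓ hℓp hgood hdvd A hA φ hφ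

/-- variant for any element of the decomposition group (the Frobenius property is not used) and
without the hypothesis `ℓ ∤ 6` -/
theorem brr_frobenius_fixes' (W : WeierstrassCurve ℤ) {p ℓ : ℕ} (hp : p.Prime) (hp2 : p ≠ 2)
    (hℓ : ℓ.Prime) (hℓp : ℓ ≠ p) (hgood : W.IsGoodPrimeFor ℓ)
    (hdvd : (p : ℤ) ∣ ((ℓ : ℤ) + 1 - W.apOfModel ℓ))
    (A : ValuationSubring (AlgebraicClosure ℚ)) (hA : A.LiesOverPrime ℓ)
    (φ : AlgebraicClosure ℚ ≃ₐ[ℚ] AlgebraicClosure ℚ) (hφ : A.IsFrobeniusAt φ ℓ) :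
    ∃ P : ((W.map (Int.castRingHom ℚ))⁄(AlgebraicClosure ℚ)).Point,
      P ≠ 0 ∧ p • P = 0 ∧ φ • P = P :=
  brr_frobenius_fixes_of brr_hyp1 brr_hyp2 W hp hp2 hℓ hℓp hgood hdvd A hA φ hφ

end Fermat.Agent.S41x
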