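import Fermat.Agent.S41x.BridgeGroup
import Fermat.Agent.S41x.BridgeReductionFinal
import Fermat.Agent.S13x.TorsionQbar
import Fermat.Agent.S51x.VC
import Fermat.Agent.S51x.Gal

/-!
# S41 bridge, row BRTOP (owner helper66): transfer along the variable change and the assembly

* `brtop_transfer` = exact `BridgeSpec.brtop_transfer`.
* `brtop_bridge_of` : the bridge, with the Frobenius density input `brtopFD`
  (= exact statement of `BridgeSpec.brfd_exists_frobenius`) as a hypothesis.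
-/

set_option autoImplicit false
open WeierstrassCurve WeierstrassCurve.Affine WeierstrassCurve.Affine.Point

namespace Fermat.Agent.S41x

abbrev brtopQb := AlgebraicClosure ℚ
abbrev brtopGQ := brtopQb ≃ₐ[ℚ] brtopQb

/-- the Frobenius density input (exact statement of `BridgeSpec.brfd_exists_frobenius`) -/
def brtopFD : Prop :=
  ∀ (L : IntermediateField ℚ brtopQb) (_ : FiniteDimensional ℚ L)
    (_ : ∀ σ : brtopGQ, ∀ x ∈ L, σ x ∈ L)
    (g : brtopGQ) (r : ℕ) (_ : r.Prime) (_ : g ^ r ∈ L.fixingSubgroup) (_ : g ∉ L.fixingSubgroup)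
    (M : ℕ) (_ : 0 < M),
    ∃ (ℓ : ℕ) (A : ValuationSubring brtopQb) (φ : brtopGQ) (k : ℕ), ℓ.Prime ∧ ¬ ℓ ∣ M ∧
      A.LiesOverPrime ℓ ∧ A.IsFrobeniusAt φ ℓ ∧ ¬ r ∣ k ∧ φ⁻¹ * g ^ k ∈ L.fixingSubgroup

/-! ## transfer along a rational variable change -/

section transfer

variable (E : WeierstrassCurve ℚ) (C : VariableChange ℚ)

theorem brtop_baseChange_vc :
    ((C • E)⁄brtopQb) = (C.map (algebraMap ℚ brtopQb)) • (E⁄brtopQb) :=
  (map_variableChange E C (algebraMap ℚ brtopQb)).symm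

theorem brtop_transfer_vc (p : ℕ) (φ : brtopGQ)
    (P : ((C • E)⁄brtopQb).Point) (hP0 : P ≠ 0) (hPp : p • P = 0) (hPφ : φ • P = P) :
    ∃ Q : (E⁄brtopQb).Point, Q ≠ 0 ∧ p • Q = 0 ∧ φ • Q = Q := by
  have heq := brtop_baseChange_vc E C
  let e := (S51x.pointCongr heq).trans
    (S51x.vcEquiv (E⁄brtopQb) (C.map (algebraMap ℚ brtopQb)))
  refine ⟨e P, ?_, ?_, ?_⟩
  · exact (AddEquiv.map_ne_zero_iff e).mpr hP0
  · rw [← map_nsmul, hPp, _root_.map_zero]
  · rcases P with _ | ⟨x, y, h⟩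
    · exact absurd rfl hP0
    · obtain ⟨hσ, hσP⟩ := S51x.smul_some (C • E) φ h
      rw [hσP] at hPφ
      simp only [Point.some.injEq] at hPφ
      obtain ⟨hx, hy⟩ := hPφ
      have hns := (S51x.vc_nonsingular (E⁄brtopQb) (C.map (algebraMap ℚ brtopQb)) x y).mpr
        (heq ▸ h)
      have he : e (Point.some x y h) = Point.some _ _ hns := by
        simp only [e, AddEquiv.trans_apply, S51x.pointCongr_some, S51x.vcEquiv_some']
      rw [he]
      obtain ⟨hσ', hσQ⟩ := S51x.smul_some E φ hns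
      rw [hσQ]
      simp only [Point.some.injEq]
      have hu : φ ((C.map (algebraMap ℚ brtopQb)).u : brtopQb) =
          ((C.map (algebraMap ℚ brtopQb)).u : brtopQb) := by
        simp only [VariableChange.map_u, Units.coe_map, MonoidHom.coe_coe]
        exact φ.commutes _
      have hr : φ (C.map (algebraMap ℚ brtopQb)).r = (C.map (algebraMap ℚ brtopQb)).r :=
        φ.commutes _
      have hs : φ (C.map (algebraMap ℚ brtopQb)).s = (C.map (algebraMap ℚ brtopQb)).s :=
        φ.commutes _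
      have ht : φ (C.map (algebraMap ℚ brtopQb)).t = (C.map (algebraMap ℚ brtopQb)).t :=
        φ.commutes _
      constructor
      · rw [map_add, map_mul, map_pow, hu, hr, hx]
      · rw [map_add, map_add, map_mul, map_mul, map_mul, map_pow, map_pow, hu, hs, ht, hx, hy]

end transfer

/-- **transfer** (exact `BridgeSpec.brtop_transfer`): a Frobenius-fixed nonzero `p`-torsion point on
the integral model gives one on `E`. -/
theorem brtop_transfer (E : WeierstrassCurve ℚ) {W : WeierstrassCurve ℤ}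
    (hW : W.IsIntegralModelOf E) (p : ℕ) (φ : brtopGQ)
    (h : ∃ P : ((W.map (Int.castRingHom ℚ))⁄brtopQb).Point, P ≠ 0 ∧ p • P = 0 ∧ φ • P = P) :
    ∃ x : Submodule.torsionBy ℤ (E⁄brtopQb).Point p, x ≠ 0 ∧ φ • x = x := by
  obtain ⟨C, hC⟩ := hW
  have key : ∀ W' : WeierstrassCurve ℚ, C • E = W' →
      (∃ P : (W'⁄brtopQb).Point, P ≠ 0 ∧ p • P = 0 ∧ φ • P = P) →
      ∃ x : Submodule.torsionBy ℤ (E⁄brtopQb).Point p, x ≠ 0 ∧ φ • x = x := by
    intro W' hW' h'
    subst hW'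
    obtain ⟨P, hP0, hPp, hPφ⟩ := h'
    obtain ⟨Q, hQ0, hQp, hQφ⟩ := brtop_transfer_vc E C p φ P hP0 hPp hPφ
    have hmem : Q ∈ Submodule.torsionBy ℤ (E⁄brtopQb).Point p := by
      rw [Submodule.mem_torsionBy_iff, natCast_zsmul]
      exact hQp
    refine ⟨⟨Q, hmem⟩, ?_, ?_⟩
    · intro h0
      exact hQ0 (congrArg Subtype.val h0)
    · exact Subtype.ext hQφ
  exact key _ hC h

/-! ## the field cut out by `E[p]` -/

section field

variable (E : WeierstrassCurve ℚ)

/-- coordinates of a point -/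
def brtop_coords : (E⁄brtopQb).Point → Set brtopQb
  | .zero => ∅
  | .some x y _ => {x, y}

theorem brtop_coords_finite (Q : (E⁄brtopQb).Point) : (brtop_coords E Q).Finite := by
  cases Q with
  | zero => exact Set.finite_empty
  | some x y h => exact Set.toFinite {x, y}

theorem brtop_smul_eq_of_fix (σ : brtopGQ) (Q : (E⁄brtopQb).Point)
    (h : ∀ z ∈ brtop_coords E Q, σ z = z) : σ • Q = Q := by
  cases Q with
  | zero => rfl
  | some x y hxy =>
    have hx : σ x = x := h x (by simp [brtop_coords])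
    have hy : σ y = y := h y (by simp [brtop_coords])
    rw [algEquiv_smul_def, Point.map_some]
    simp only [Point.some.injEq]
    exact ⟨hx, hy⟩

theorem brtop_fix_of_smul_eq (σ : brtopGQ) (Q : (E⁄brtopQb).Point) (h : σ • Q = Q) :
    ∀ z ∈ brtop_coords E Q, σ z = z := by
  cases Q with
  | zero => intro z hz; exact absurd hz (Set.notMem_empty z)
  | some x y hxy =>
    rw [algEquiv_smul_def, Point.map_some] at h
    simp only [Point.some.injEq] at h
    intro z hz
    simp only [brtop_coords, Set.mem_insert_iff, Set.mem_singleton_iff] at hz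
    rcases hz with rfl | rfl
    · exact h.1
    · exact h.2

theorem brtop_mem_coords_smul (σ : brtopGQ) (Q : (E⁄brtopQb).Point) {z : brtopQb}
    (hz : z ∈ brtop_coords E Q) : σ z ∈ brtop_coords E (σ • Q) := by
  cases Q with
  | zero => exact absurd hz (Set.notMem_empty z)
  | some x y hxy =>
    rw [algEquiv_smul_def, Point.map_some]
    simp only [brtop_coords, Set.mem_insert_iff, Set.mem_singleton_iff] at hz ⊢
    rcases hz with rfl | rfl
    · exact Or.inl rfl
    · exact Or.inr rfl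

/-- the set of all coordinates of `p`-torsion points -/
def brtop_S (p : ℕ) : Set brtopQb :=
  ⋃ v : Submodule.torsionBy ℤ (E⁄brtopQb).Point p, brtop_coords E (v : (E⁄brtopQb).Point)

/-- the field cut out by `E[p]` -/
noncomputable def brtop_L (p : ℕ) : IntermediateField ℚ brtopQb := IntermediateField.adjoin ℚ (brtop_S E p)

theorem brtop_L_fd (p : ℕ) (hfin : Finite (Submodule.torsionBy ℤ (E⁄brtopQb).Point p)) :
    FiniteDimensional ℚ (brtop_L E p) := by
  have hS : (brtop_S E p).Finite := Set.finite_iUnion fun v => brtop_coords_finite E _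
  have : Finite (brtop_S E p) := hS.to_subtype
  have halg : Algebra.IsAlgebraic ℚ brtopQb := IsAlgClosure.isAlgebraic
  exact IntermediateField.finiteDimensional_adjoin fun z _ =>
    (Algebra.IsAlgebraic.isAlgebraic (R := ℚ) z).isIntegral

theorem brtop_S_stable (p : ℕ) (σ : brtopGQ) {z : brtopQb} (hz : z ∈ brtop_S E p) :
    σ z ∈ brtop_S E p := by
  obtain ⟨v, hv⟩ := Set.mem_iUnion.mp hz
  exact Set.mem_iUnion.mpr ⟨σ • v, brtop_mem_coords_smul E σ _ hv⟩

theorem brtop_L_normal (p : ℕ) : ∀ σ : brtopGQ, ∀ x ∈ brtop_L E p, σ x ∈ brtop_L E p := by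
  intro σ x hx
  have h1 : σ x ∈ (brtop_L E p).map σ.toAlgHom :=
    (IntermediateField.mem_map _).mpr ⟨x, hx, rfl⟩
  have h2 : (brtop_L E p).map σ.toAlgHom ≤ brtop_L E p := by
    unfold brtop_L
    rw [IntermediateField.adjoin_map]
    apply IntermediateField.adjoin.mono
    rintro _ ⟨z, hz, rfl⟩
    exact brtop_S_stable E p σ hz
  exact h2 h1

theorem brtop_mem_fixing_iff (p : ℕ) (σ : brtopGQ) :
    σ ∈ (brtop_L E p).fixingSubgroup ↔
      ∀ v : Submodule.torsionBy ℤ (E⁄brtopQb).Point p, σ • v = v := by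
  constructor
  · intro hσ v
    apply Subtype.ext
    change σ • (v : (E⁄brtopQb).Point) = (v : (E⁄brtopQb).Point)
    apply brtop_smul_eq_of_fix
    intro z hz
    have hzS : z ∈ brtop_S E p := Set.mem_iUnion.mpr ⟨v, hz⟩
    exact (IntermediateField.mem_fixingSubgroup_iff _ σ).mp hσ z
      (IntermediateField.subset_adjoin ℚ _ hzS)
  · intro h
    rw [IntermediateField.mem_fixingSubgroup_iff]
    intro x hx
    unfold brtop_L at hx
    induction hx using IntermediateField.adjoin_induction with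
    | mem z hz =>
      obtain ⟨v, hv⟩ := Set.mem_iUnion.mp hz
      exact brtop_fix_of_smul_eq E σ _ (congrArg Subtype.val (h v)) z hv
    | algebraMap q => exact σ.commutes q
    | add a b _ _ ha hb => rw [map_add, ha, hb]
    | inv a _ ha => rw [map_inv₀, ha]
    | mul a b _ _ ha hb => rw [map_mul, ha, hb]

theorem brtop_smulCommClass (p : ℕ) [NeZero p] :
    SMulCommClass brtopGQ (ZMod p) (Submodule.torsionBy ℤ (E⁄brtopQb).Point p) := by
  refine ⟨fun σ c x => ?_⟩
  rw [← ZMod.natCast_zmod_val c, Nat.cast_smul_eq_nsmul, Nat.cast_smul_eq_nsmul]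
  exact map_nsmul (DistribSMul.toAddMonoidHom _ σ) _ x

end field

/-! ## the bridge -/

/-- **the bridge** with the Frobenius density input as a hypothesis: if `E[p]` is irreducible then for
every `M` there is a good prime `ℓ ∤ M`, `ℓ ≠ p`, with `p ∤ #W~(F_ℓ) = ℓ + 1 - a_ℓ(W)`. -/
theorem brtop_bridge_of (hFD : brtopFD) (E : WeierstrassCurve ℚ) [E.IsElliptic]
    {W : WeierstrassCurve ℤ} (hW : W.IsIntegralModelOf E) {p : ℕ} (hp : p.Prime) (hp2 : p ≠ 2)
    (hirr : GaloisRepIsIrreducible (K := AlgebraicClosure ℚ) ℚ E p) (M : ℕ) (hM : 0 < M) :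
    ∃ ℓ : ℕ, ℓ.Prime ∧ W.IsGoodPrimeFor ℓ ∧ ¬ ℓ ∣ M ∧ ℓ ≠ p ∧
      ¬ (p : ℤ) ∣ ((ℓ : ℤ) + 1 - W.apOfModel ℓ) := by
  have : Fact p.Prime := ⟨hp⟩
  have : NeZero p := ⟨hp.ne_zero⟩
  have hΔE : E.Δ ≠ 0 := (IsElliptic.isUnit (W := E)).ne_zero
  have hcard := S13x.tq_card_torsion E hΔE p hp.one_le
  have hfin : Finite (Submodule.torsionBy ℤ (E⁄brtopQb).Point p) :=
    Nat.finite_of_card_ne_zero (by rw [hcard]; exact pow_ne_zero 2 hp.ne_zero)
  have := brtop_smulCommClass E p
  obtain ⟨g, r, hr, hrp, hgr, hgfix⟩ :=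
    brg_exists_fixedPointFree (G := brtopGQ) hcard hirr.2
  -- the discriminant of the model
  have hΔW : W.Δ ≠ 0 := by
    obtain ⟨C, hC⟩ := hW
    intro h0
    have h1 : (W.map (Int.castRingHom ℚ)).Δ = 0 := by
      rw [WeierstrassCurve.map_Δ, h0, _root_.map_zero]
    rw [← hC, variableChange_Δ] at h1
    rcases mul_eq_zero.mp h1 with h2 | h2
    · exact (pow_ne_zero 12 (Units.ne_zero _)) h2
    · exact hΔE h2
  have hg : g ∉ (brtop_L E p).fixingSubgroup := by
    intro hmem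
    have hall := (brtop_mem_fixing_iff E p g).mp hmem
    obtain ⟨v, hv⟩ := @exists_ne _ hirr.1 (0 : Submodule.torsionBy ℤ (E⁄brtopQb).Point p)
    exact hv (hgfix v (hall v))
  obtain ⟨ℓ, A, φ, k, hℓ, hℓM, hA, hφ, hrk, hφg⟩ :=
    hFD (brtop_L E p) (brtop_L_fd E p hfin) (brtop_L_normal E p) g r hr
      ((brtop_mem_fixing_iff E p _).mpr hgr) hg (M * p * W.Δ.natAbs * 6)
      (by have := Int.natAbs_pos.mpr hΔW; have := hp.pos; positivity)
  have hℓM1 : ¬ ℓ ∣ M := fun h => hℓM (Dvd.dvd.mul_right (Dvd.dvd.mul_right (Dvd.dvd.mul_right h _) _) _)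
  have hℓp : ℓ ≠ p := by
    rintro rfl
    exact hℓM (Dvd.dvd.mul_right (Dvd.dvd.mul_right (Dvd.intro_left M rfl) _) _)
  have hgood : W.IsGoodPrimeFor ℓ := by
    intro h
    apply hℓM
    have h' : ℓ ∣ W.Δ.natAbs := Int.natCast_dvd.mp h
    exact Dvd.dvd.mul_right (Dvd.dvd.mul_left h' _) _
  have hℓ6 : ¬ ℓ ∣ 6 := fun h => hℓM (Dvd.dvd.mul_left h _)
  refine ⟨ℓ, hℓ, hgood, hℓM1, hℓp, ?_⟩
  intro hdvd
  obtain ⟨x, hx0, hxφ⟩ := brtop_transfer E hW p φ
    (brr_frobenius_fixes W hp hp2 hℓ hℓp hℓ6 hgood hdvd A hA φ hφ)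
  have h1 : (φ⁻¹ * g ^ k) • x = x := (brtop_mem_fixing_iff E p _).mp hφg x
  have h2 : g ^ k • x = x := by
    have h3 : φ • ((φ⁻¹ * g ^ k) • x) = φ • x := by rw [h1]
    rw [← mul_smul, mul_inv_cancel_left, hxφ] at h3
    exact h3
  have hS1 : g ^ k ∈ MulAction.stabilizer brtopGQ x := MulAction.mem_stabilizer_iff.mpr h2
  have hS2 : g ^ r ∈ MulAction.stabilizer brtopGQ x := MulAction.mem_stabilizer_iff.mpr (hgr x)
  have hcop : Nat.Coprime k r := ((Nat.Prime.coprime_iff_not_dvd hr).mpr hrk).symm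
  obtain ⟨m, -, hm⟩ := Nat.exists_mul_mod_eq_one_of_coprime hcop hr.one_lt
  have e : k * m = r * (k * m / r) + 1 := by
    have := Nat.div_add_mod (k * m) r
    omega
  have h4 : g ^ (k * m) = (g ^ r) ^ (k * m / r) * g := by
    rw [← pow_mul, ← pow_succ, ← e]
  have h5 : (g ^ k) ^ m ∈ MulAction.stabilizer brtopGQ x := pow_mem hS1 m
  rw [← pow_mul, h4] at h5
  have hS3 : g ∈ MulAction.stabilizer brtopGQ x :=
    (Subgroup.mul_mem_cancel_left _ (pow_mem hS2 _)).mp h5
  exact hx0 (hgfix x (MulAction.mem_stabilizer_iff.mp hS3))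

end Fermat.Agent.S41x
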