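/-
S41 bridge, item CC (complex conjugation on `E[p]`), row CC5 (helper90): descent `ℂ → ℚ̄`.

Every `n`-torsion point of `E(ℂ)` (`E` over `ℚ`) comes from a unique `n`-torsion point of `E(ℚ̄)` along
`complexEmbedding`, and coordinatewise complex conjugation on `E(ℂ)` corresponds to the action of
`complexConjugation ∈ G_ℚ` on `E(ℚ̄)` (`complexEmbedding_complexConjugation`).

Main statements (prefix `brcq_`):
* `brcq_map_smul`      : `map ι (c • Q) = conj • map ι Q`
* `brcq_descend`       : descent of a single torsion point, with the dictionary for `= 0` and for `c`-fixedness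
* `brcq_ComplexInput`  : the shape expected from CC4 (statement over `ℂ`, coordinatewise conjugation)
* `brcq_main_of`       : `brcq_ComplexInput W p → ` consumer shape `brcc_main` of helper66's refined bridge.
-/
import Mathlib
import Fermat.Prelude.Def_FLTPrelim_GaloisRep
import Fermat.Prelude.Def_GaloisRep_ComplexConjugation
import Fermat.Agent.S13x.DescentQbar
import Fermat.Agent.S13x.TorsionQbar

set_option autoImplicit false

namespace Fermat.Agent.S41x

open WeierstrassCurve WeierstrassCurve.Affine WeierstrassCurve.Affine.Point Fermat.Agent.S13x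

local notation "Qbar" => AlgebraicClosure ℚ

/-- coordinatewise complex conjugation on `E(ℂ)` is the action of `complexConjAlgEquiv`; compatibility of the two
conjugations with `complexEmbedding`. -/
theorem brcq_map_smul (W : WeierstrassCurve ℚ) (Q : (W⁄Qbar).Point) :
    Point.map (W' := W) complexEmbedding (complexConjugation • Q) =
      complexConjAlgEquiv • Point.map (W' := W) complexEmbedding Q := by
  have h : (complexEmbedding.comp complexConjugation.toAlgHom) =
      ((complexConjAlgEquiv : ℂ ≃ₐ[ℚ] ℂ).toAlgHom.comp complexEmbedding) := by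
    ext x
    exact complexEmbedding_complexConjugation x
  rw [algEquiv_smul_def, algEquiv_smul_def, Point.map_map, Point.map_map, h]

/-- finiteness of the `n`-torsion over `ℂ` -/
theorem brcq_finite_torsion_complex (W : WeierstrassCurve ℚ) (hΔ : W.Δ ≠ 0) (n : ℕ) (hn : 1 ≤ n) :
    (Submodule.torsionBy ℤ (W⁄ℂ).Point (n : ℤ) : Set (W⁄ℂ).Point).Finite := by
  have hΔ' : (W⁄ℂ).Δ ≠ 0 := by
    rw [show (W⁄ℂ).Δ = algebraMap ℚ ℂ W.Δ from WeierstrassCurve.map_Δ W _]
    simpa using hΔ
  have h := tq_card_torsion_complex (W⁄ℂ) hΔ' n hn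
  have hfin : Finite (Submodule.torsionBy ℤ (W⁄ℂ).Point (n : ℤ)) :=
    Nat.finite_of_card_ne_zero (by rw [h]; exact pow_ne_zero 2 (by omega))
  exact Set.toFinite _

/-- **Descent of one torsion point** from `ℂ` to `ℚ̄`, with the dictionary. -/
theorem brcq_descend (W : WeierstrassCurve ℚ) (hΔ : W.Δ ≠ 0) {n : ℕ} (hn : 1 ≤ n)
    (P : (W⁄ℂ).Point) (hP : n • P = 0) :
    ∃ Q : (W⁄Qbar).Point, Point.map (W' := W) complexEmbedding Q = P ∧ n • Q = 0 ∧
      (Q = 0 ↔ P = 0) ∧ (complexConjugation • Q = Q ↔ complexConjAlgEquiv • P = P) := by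
  have hPmem : P ∈ Submodule.torsionBy ℤ (W⁄ℂ).Point (n : ℤ) := by
    rw [Submodule.mem_torsionBy_iff, natCast_zsmul]
    exact hP
  obtain ⟨Q, hQ⟩ := dq_exists_map_eq W complexEmbedding n
    (brcq_finite_torsion_complex W hΔ n hn) P hPmem
  have hinj := Point.map_injective (W' := W) complexEmbedding
  refine ⟨Q, hQ, ?_, ?_, ?_⟩
  · apply hinj
    rw [map_nsmul, hQ, hP, _root_.map_zero]
  · constructor
    · intro h; rw [← hQ, h, _root_.map_zero]
    · intro h; apply hinj; rw [hQ, h, _root_.map_zero]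
  · rw [← hQ, ← brcq_map_smul]
    exact ⟨fun h => by rw [h], fun h => hinj h⟩

/-- the shape of the statement over `ℂ` (output of row CC4): coordinatewise complex conjugation fixes a nonzero
`p`-torsion point and moves some `p`-torsion point. -/
def brcq_ComplexInput (W : WeierstrassCurve ℚ) (p : ℕ) : Prop :=
  (∃ P : (W⁄ℂ).Point, P ≠ 0 ∧ p • P = 0 ∧ complexConjAlgEquiv • P = P) ∧
  (∃ P : (W⁄ℂ).Point, p • P = 0 ∧ complexConjAlgEquiv • P ≠ P)

/-- **CC5**: the consumer shape (`brcc_main`) from the statement over `ℂ`. -/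
theorem brcq_main_of (W : WeierstrassCurve ℚ) (hΔ : W.Δ ≠ 0) {p : ℕ} (hp : p.Prime)
    (hC : brcq_ComplexInput W p) :
    (∃ P : (W⁄Qbar).Point, P ≠ 0 ∧ p • P = 0 ∧ complexConjugation • P = P) ∧
    (∃ P : (W⁄Qbar).Point, p • P = 0 ∧ complexConjugation • P ≠ P) := by
  obtain ⟨⟨P₁, hP₁0, hP₁p, hP₁c⟩, ⟨P₂, hP₂p, hP₂c⟩⟩ := hC
  constructor
  · obtain ⟨Q, -, hQp, hQ0, hQc⟩ := brcq_descend W hΔ hp.one_le P₁ hP₁p
    exact ⟨Q, fun h => hP₁0 (hQ0.mp h), hQp, hQc.mpr hP₁c⟩
  · obtain ⟨Q, -, hQp, -, hQc⟩ := brcq_descend W hΔ hp.one_le P₂ hP₂p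
    exact ⟨Q, hQp, fun h => hP₂c (hQc.mp h)⟩

end Fermat.Agent.S41x
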