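/-
S41 bridge, row FD-DI (second squad, helper90), FINAL wiring:
`fddib_exists_frobenius` = EXACT statement of `BridgeSpec.brfd_exists_frobenius`
(= `FDDictB.fddib_exists_frobenius_of` fed with helper70's landed `FDAnalytic.brfd_nf_infinite_nonsplit`).
-/
import Fermat.Agent.S41x.FDDictB
import Fermat.Agent.S41x.FDAnalytic

set_option autoImplicit false

namespace Fermat.Agent.S41x

theorem fddib_ANStatement_holds : fddib_ANStatement :=
  fun K L _ _ _ _ _ _ hdeg => brfd_nf_infinite_nonsplit K L hdeg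

/-- **Frobenius density, prime order case** (exact `BridgeSpec.brfd_exists_frobenius` statement). -/
theorem fddib_exists_frobenius (L : IntermediateField ℚ (AlgebraicClosure ℚ)) (hfd : FiniteDimensional ℚ L)
    (hnorm : ∀ σ : AlgebraicClosure ℚ ≃ₐ[ℚ] AlgebraicClosure ℚ, ∀ x ∈ L, σ x ∈ L)
    (g : AlgebraicClosure ℚ ≃ₐ[ℚ] AlgebraicClosure ℚ) (r : ℕ) (hr : r.Prime)
    (hgr : g ^ r ∈ L.fixingSubgroup) (hg : g ∉ L.fixingSubgroup)
    (M : ℕ) (hM : 0 < M) :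
    ∃ (ℓ : ℕ) (A : ValuationSubring (AlgebraicClosure ℚ))
      (φ : AlgebraicClosure ℚ ≃ₐ[ℚ] AlgebraicClosure ℚ) (k : ℕ), ℓ.Prime ∧ ¬ ℓ ∣ M ∧ A.LiesOverPrime ℓ ∧
      A.IsFrobeniusAt φ ℓ ∧ ¬ r ∣ k ∧ φ⁻¹ * g ^ k ∈ L.fixingSubgroup :=
  fddib_exists_frobenius_of fddib_ANStatement_holds L hfd hnorm g r hr hgr hg M hM

end Fermat.Agent.S41x
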