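import Fermat.Agent.S41x.Bridge
import Fermat.Agent.S41x.BridgeGroup2
import Fermat.Agent.S41x.BridgeCyc
import Fermat.Agent.S41x.FDDictBFinal

/-!
# S41 bridge, row BRTOP (owner helper66): final wiring

* `brtop_bridge` = exact `BridgeSpec.bridge`, unconditional:
  `E[p]` irreducible ⟹ for every `M` there is a good prime `ℓ ∤ M`, `ℓ ≠ p`, with `p ∤ ℓ + 1 - a_ℓ(W)`.
* `brtop_bridge_refined_of` : the REFINED bridge (`ℓ ≡ 1 [MOD M0]` in addition), unconditional modulo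
  the single input `brtopCC E p` ("some element of `G_ℚ` has a nonzero fixed vector on `E[p]` and is not
  the identity on `E[p]`", to be supplied by complex conjugation).
-/

set_option autoImplicit false
open WeierstrassCurve WeierstrassCurve.Affine WeierstrassCurve.Affine.Point

namespace Fermat.Agent.S41x

theorem brtop_FD : brtopFD :=
  fun L hfd hnorm g r hr hgr hg M hM => fddib_exists_frobenius L hfd hnorm g r hr hgr hg M hM

/-- **THE BRIDGE** (exact `BridgeSpec.bridge`). -/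
theorem brtop_bridge (E : WeierstrassCurve ℚ) [E.IsElliptic] {W : WeierstrassCurve ℤ}
    (hW : W.IsIntegralModelOf E) {p : ℕ} (hp : p.Prime) (hp2 : p ≠ 2)
    (hirr : GaloisRepIsIrreducible (K := AlgebraicClosure ℚ) ℚ E p) (M : ℕ) (hM : 0 < M) :
    ∃ ℓ : ℕ, ℓ.Prime ∧ W.IsGoodPrimeFor ℓ ∧ ¬ ℓ ∣ M ∧ ℓ ≠ p ∧
      ¬ (p : ℤ) ∣ ((ℓ : ℤ) + 1 - W.apOfModel ℓ) :=
  brtop_bridge_of brtop_FD E hW hp hp2 hirr M hM

/-! ## the refined bridge -/

section refined

variable (E : WeierstrassCurve ℚ)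

/-- the field cut out by `E[p]` and a set `R` -/
noncomputable def brtop_L2 (p : ℕ) (R : Set brtopQb) : IntermediateField ℚ brtopQb :=
  IntermediateField.adjoin ℚ (brtop_S E p ∪ R)

theorem brtop_L2_fd (p : ℕ) (R : Set brtopQb) (hR : R.Finite)
    (hfin : Finite (Submodule.torsionBy ℤ (E⁄brtopQb).Point p)) :
    FiniteDimensional ℚ (brtop_L2 E p R) := by
  have hS : (brtop_S E p).Finite := Set.finite_iUnion fun v => brtop_coords_finite E _
  have : Finite ↑(brtop_S E p ∪ R) := (hS.union hR).to_subtype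
  have halg : Algebra.IsAlgebraic ℚ brtopQb := IsAlgClosure.isAlgebraic
  exact IntermediateField.finiteDimensional_adjoin fun z _ =>
    (Algebra.IsAlgebraic.isAlgebraic (R := ℚ) z).isIntegral

theorem brtop_L2_normal (p : ℕ) (R : Set brtopQb) (hR : ∀ σ : brtopGQ, ∀ z ∈ R, σ z ∈ R) :
    ∀ σ : brtopGQ, ∀ x ∈ brtop_L2 E p R, σ x ∈ brtop_L2 E p R := by
  intro σ x hx
  have h1 : σ x ∈ (brtop_L2 E p R).map σ.toAlgHom :=
    (IntermediateField.mem_map _).mpr ⟨x, hx, rfl⟩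
  have h2 : (brtop_L2 E p R).map σ.toAlgHom ≤ brtop_L2 E p R := by
    unfold brtop_L2
    rw [IntermediateField.adjoin_map]
    apply IntermediateField.adjoin.mono
    rintro _ ⟨z, hz, rfl⟩
    rcases hz with hz | hz
    · exact Or.inl (brtop_S_stable E p σ hz)
    · exact Or.inr (hR σ z hz)
  exact h2 h1

theorem brtop_mem_fixing2_iff (p : ℕ) (R : Set brtopQb) (σ : brtopGQ) :
    σ ∈ (brtop_L2 E p R).fixingSubgroup ↔
      (∀ v : Submodule.torsionBy ℤ (E⁄brtopQb).Point p, σ • v = v) ∧ ∀ z ∈ R, σ z = z := by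
  constructor
  · intro hσ
    have hfix := (IntermediateField.mem_fixingSubgroup_iff _ σ).mp hσ
    refine ⟨fun v => ?_, fun z hz => hfix z (IntermediateField.subset_adjoin ℚ _ (Or.inr hz))⟩
    apply Subtype.ext
    change σ • (v : (E⁄brtopQb).Point) = (v : (E⁄brtopQb).Point)
    apply brtop_smul_eq_of_fix
    intro z hz
    have hzS : z ∈ brtop_S E p := Set.mem_iUnion.mpr ⟨v, hz⟩
    exact hfix z (IntermediateField.subset_adjoin ℚ _ (Or.inl hzS))
  · rintro ⟨h, hR⟩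
    rw [IntermediateField.mem_fixingSubgroup_iff]
    intro x hx
    unfold brtop_L2 at hx
    induction hx using IntermediateField.adjoin_induction with
    | mem z hz =>
      rcases hz with hz | hz
      · obtain ⟨v, hv⟩ := Set.mem_iUnion.mp hz
        exact brtop_fix_of_smul_eq E σ _ (congrArg Subtype.val (h v)) z hv
      · exact hR z hz
    | algebraMap q => exact σ.commutes q
    | add a b _ _ ha hb => rw [map_add, ha, hb]
    | inv a _ ha => rw [map_inv₀, ha]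
    | mul a b _ _ ha hb => rw [map_mul, ha, hb]

/-- the last step of the bridge: a Frobenius element which acts on `E[p]` as a power `g ^ k`, `r ∤ k`, of a
fixed-point-free element `g` with `g ^ r = 1` on `E[p]` has `p ∤ ℓ + 1 - a_ℓ`. -/
theorem brtop_not_dvd_of_frobenius [E.IsElliptic] {W : WeierstrassCurve ℤ}
    (hW : W.IsIntegralModelOf E) {p : ℕ} (hp : p.Prime) (hp2 : p ≠ 2) {ℓ : ℕ} (hℓ : ℓ.Prime)
    (hℓp : ℓ ≠ p) (hgood : W.IsGoodPrimeFor ℓ)
    (A : ValuationSubring brtopQb) (hA : A.LiesOverPrime ℓ) (φ : brtopGQ) (hφ : A.IsFrobeniusAt φ ℓ)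
    (g : brtopGQ) (r k : ℕ) (hr : r.Prime) (hrk : ¬ r ∣ k)
    (hgr : ∀ v : Submodule.torsionBy ℤ (E⁄brtopQb).Point p, g ^ r • v = v)
    (hgfix : ∀ v : Submodule.torsionBy ℤ (E⁄brtopQb).Point p, g • v = v → v = 0)
    (hφg : ∀ v : Submodule.torsionBy ℤ (E⁄brtopQb).Point p, (φ⁻¹ * g ^ k) • v = v) :
    ¬ (p : ℤ) ∣ ((ℓ : ℤ) + 1 - W.apOfModel ℓ) := by
  intro hdvd
  obtain ⟨x, hx0, hxφ⟩ := brtop_transfer E hW p φ
    (brr_frobenius_fixes' W hp hp2 hℓ hℓp hgood hdvd A hA φ hφ)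
  have h1 : (φ⁻¹ * g ^ k) • x = x := hφg x
  have h2 : g ^ k • x = x := by
    have h3 : φ • ((φ⁻¹ * g ^ k) • x) = φ • x := by rw [h1]
    rw [← mul_smul, mul_inv_cancel_left, hxφ] at h3
    exact h3
  have hS1 : g ^ k ∈ MulAction.stabilizer brtopGQ x := MulAction.mem_stabilizer_iff.mpr h2
  have hS2 : g ^ r ∈ MulAction.stabilizer brtopGQ x := MulAction.mem_stabilizer_iff.mpr (hgr x)
  have hcop : Nat.Coprime k r := ((Nat.Prime.coprime_iff_not_dvd hr).mpr hrk).symm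
  obtain ⟨m, -, hm⟩ := Nat.exists_mul_mod_eq_one_of_coprime hcop hr.one_lt
  have e : k * m = r * (k * m / r) + 1 := by
    have := Nat.div_add_mod (k * m) r
    omega
  have h4 : g ^ (k * m) = (g ^ r) ^ (k * m / r) * g := by
    rw [← pow_mul, ← pow_succ, ← e]
  have h5 : (g ^ k) ^ m ∈ MulAction.stabilizer brtopGQ x := pow_mem hS1 m
  rw [← pow_mul, h4] at h5
  have hS3 : g ∈ MulAction.stabilizer brtopGQ x :=
    (Subgroup.mul_mem_cancel_left _ (pow_mem hS2 _)).mp h5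
  exact hx0 (hgfix x (MulAction.mem_stabilizer_iff.mp hS3))

/-- the **CC input**: some element of `G_ℚ` has a nonzero fixed vector on `E[p]` and is not the identity
on `E[p]` (complex conjugation, for `p` odd). -/
def brtopCC (p : ℕ) : Prop :=
  ∃ c : brtopGQ, (∃ x : Submodule.torsionBy ℤ (E⁄brtopQb).Point p, x ≠ 0 ∧ c • x = x) ∧
    ∃ x : Submodule.torsionBy ℤ (E⁄brtopQb).Point p, c • x ≠ x

/-- every automorphism maps a primitive root of unity to a power of it -/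
theorem brtop_exists_pow {M0 : ℕ} (hM0 : 0 < M0) {ζ : brtopQb} (hζ : IsPrimitiveRoot ζ M0)
    (σ : brtopGQ) : ∃ a : ℕ, σ ζ = ζ ^ a := by
  have : NeZero M0 := ⟨hM0.ne'⟩
  have h : (σ ζ) ^ M0 = 1 := by rw [← map_pow, hζ.pow_eq_one, map_one]
  obtain ⟨a, -, ha⟩ := hζ.eq_pow_of_pow_eq_one h
  exact ⟨a, ha.symm⟩

/-- the subgroup of `G_ℚ` fixing `ζ` -/
def brtop_K (ζ : brtopQb) : Subgroup brtopGQ where
  carrier := {σ | σ ζ = ζ}
  mul_mem' := by
    intro a b ha hb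
    change a (b ζ) = ζ
    rw [show b ζ = ζ from hb, show a ζ = ζ from ha]
  one_mem' := rfl
  inv_mem' := by
    intro a ha
    change a⁻¹ ζ = ζ
    have h : a⁻¹ (a ζ) = ζ := by
      rw [← AlgEquiv.mul_apply, inv_mul_cancel, AlgEquiv.one_apply]
    rw [show a ζ = ζ from ha] at h
    exact h

theorem brtop_mem_K {ζ : brtopQb} {σ : brtopGQ} : σ ∈ brtop_K ζ ↔ σ ζ = ζ := Iff.rfl

/-- commutators fix `ζ` -/
theorem brtop_comm_mem_K {M0 : ℕ} (hM0 : 0 < M0) {ζ : brtopQb} (hζ : IsPrimitiveRoot ζ M0)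
    (σ τ : brtopGQ) : σ * τ * σ⁻¹ * τ⁻¹ ∈ brtop_K ζ := by
  obtain ⟨a, ha⟩ := brtop_exists_pow hM0 hζ τ⁻¹
  obtain ⟨b, hb⟩ := brtop_exists_pow hM0 hζ σ⁻¹
  have hτ : τ (ζ ^ a) = ζ := by
    rw [← ha, ← AlgEquiv.mul_apply, mul_inv_cancel, AlgEquiv.one_apply]
  have hσ : σ (ζ ^ b) = ζ := by
    rw [← hb, ← AlgEquiv.mul_apply, mul_inv_cancel, AlgEquiv.one_apply]
  rw [brtop_mem_K]
  change σ (τ (σ⁻¹ (τ⁻¹ ζ))) = ζ
  rw [ha, map_pow, hb, ← pow_mul, mul_comm, pow_mul, map_pow, hτ, hσ]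

theorem brtop_K_normal {M0 : ℕ} (hM0 : 0 < M0) {ζ : brtopQb} (hζ : IsPrimitiveRoot ζ M0) :
    (brtop_K ζ).Normal := by
  refine ⟨fun n hn g => ?_⟩
  have h := brtop_comm_mem_K hM0 hζ g n
  have h2 : g * n * g⁻¹ = (g * n * g⁻¹ * n⁻¹) * n := by group
  rw [h2]
  exact (brtop_K ζ).mul_mem h hn

/-- **THE REFINED BRIDGE**, modulo the CC input: if `E[p]` is irreducible then for every `M0` and `M` there
is a good prime `ℓ ≡ 1 [MOD M0]`, `ℓ ∤ M`, `ℓ ≠ p`, with `p ∤ #W~(F_ℓ) = ℓ + 1 - a_ℓ(W)`. -/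
theorem brtop_bridge_refined_of [E.IsElliptic] {W : WeierstrassCurve ℤ}
    (hW : W.IsIntegralModelOf E) {p : ℕ} (hp : p.Prime) (hp2 : p ≠ 2)
    (hirr : GaloisRepIsIrreducible (K := AlgebraicClosure ℚ) ℚ E p) (hCC : brtopCC E p)
    (M0 : ℕ) (hM0 : 0 < M0) (M : ℕ) (hM : 0 < M) :
    ∃ ℓ : ℕ, ℓ.Prime ∧ W.IsGoodPrimeFor ℓ ∧ ¬ ℓ ∣ M ∧ ℓ ≠ p ∧ ℓ ≡ 1 [MOD M0] ∧
      ¬ (p : ℤ) ∣ ((ℓ : ℤ) + 1 - W.apOfModel ℓ) := by
  have : Fact p.Prime := ⟨hp⟩
  have : NeZero p := ⟨hp.ne_zero⟩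
  have : NeZero M0 := ⟨hM0.ne'⟩
  have hΔE : E.Δ ≠ 0 := (IsElliptic.isUnit (W := E)).ne_zero
  have hcard := S13x.tq_card_torsion E hΔE p hp.one_le
  have hfin : Finite (Submodule.torsionBy ℤ (E⁄brtopQb).Point p) :=
    Nat.finite_of_card_ne_zero (by rw [hcard]; exact pow_ne_zero 2 hp.ne_zero)
  have := brtop_smulCommClass E p
  obtain ⟨ζ, hζ⟩ := HasEnoughRootsOfUnity.exists_primitiveRoot brtopQb M0
  have hKn : (brtop_K ζ).Normal := brtop_K_normal hM0 hζ
  -- the discriminant of the model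
  have hΔW : W.Δ ≠ 0 := by
    obtain ⟨C, hC⟩ := hW
    intro h0
    have h1 : (W.map (Int.castRingHom ℚ)).Δ = 0 := by
      rw [WeierstrassCurve.map_Δ, h0, _root_.map_zero]
    rw [← hC, variableChange_Δ] at h1
    rcases mul_eq_zero.mp h1 with h2 | h2
    · exact (pow_ne_zero 12 (Units.ne_zero _)) h2
    · exact hΔE h2
  rcases brg2_exists_fixedPointFree_normal (G := brtopGQ) hcard hirr.2 (brtop_K ζ) with
    ⟨g, r, hgK, hr, hrp, hgr, hgfix⟩ | htriv
  · -- the generic case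
    set R : Set brtopQb := {z | z ^ M0 = 1} with hRdef
    have hRfin : R.Finite := by
      apply Set.Finite.subset (Polynomial.nthRoots M0 (1 : brtopQb)).toFinset.finite_toSet
      intro z hz
      simp only [Finset.mem_coe, Multiset.mem_toFinset, Polynomial.mem_nthRoots hM0]
      exact hz
    have hRst : ∀ σ : brtopGQ, ∀ z ∈ R, σ z ∈ R := by
      intro σ z hz
      change (σ z) ^ M0 = 1
      rw [← map_pow, show z ^ M0 = 1 from hz, map_one]
    have hRfix : ∀ σ : brtopGQ, σ ζ = ζ → ∀ z ∈ R, σ z = z := by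
      intro σ hσ z hz
      obtain ⟨i, -, hi⟩ := hζ.eq_pow_of_pow_eq_one (show z ^ M0 = 1 from hz)
      rw [← hi, map_pow, hσ]
    have hζR : ζ ∈ R := hζ.pow_eq_one
    have hgζ : g ζ = ζ := hgK
    have hgrmem : g ^ r ∈ (brtop_L2 E p R).fixingSubgroup := by
      rw [brtop_mem_fixing2_iff]
      refine ⟨hgr, hRfix _ ?_⟩
      have : g ^ r ∈ brtop_K ζ := pow_mem hgK r
      exact this
    have hg : g ∉ (brtop_L2 E p R).fixingSubgroup := by
      intro hmem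
      have hall := ((brtop_mem_fixing2_iff E p R g).mp hmem).1
      obtain ⟨v, hv⟩ := @exists_ne _ hirr.1 (0 : Submodule.torsionBy ℤ (E⁄brtopQb).Point p)
      exact hv (hgfix v (hall v))
    obtain ⟨ℓ, A, φ, k, hℓ, hℓM, hA, hφ, hrk, hφg⟩ :=
      brtop_FD (brtop_L2 E p R) (brtop_L2_fd E p R hRfin hfin) (brtop_L2_normal E p R hRst) g r hr
        hgrmem hg (M * p * W.Δ.natAbs * M0)
        (by have := Int.natAbs_pos.mpr hΔW; have := hp.pos; positivity)
    have hℓM1 : ¬ ℓ ∣ M := fun h =>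
      hℓM (Dvd.dvd.mul_right (Dvd.dvd.mul_right (Dvd.dvd.mul_right h _) _) _)
    have hℓp : ℓ ≠ p := by
      rintro rfl
      exact hℓM (Dvd.dvd.mul_right (Dvd.dvd.mul_right (Dvd.intro_left M rfl) _) _)
    have hgood : W.IsGoodPrimeFor ℓ := by
      intro h
      apply hℓM
      have h' : ℓ ∣ W.Δ.natAbs := Int.natCast_dvd.mp h
      exact Dvd.dvd.mul_right (Dvd.dvd.mul_left h' _) _
    have hℓM0 : ¬ ℓ ∣ M0 := fun h => hℓM (Dvd.dvd.mul_left h _)
    obtain ⟨hφgV, hφgR⟩ := (brtop_mem_fixing2_iff E p R _).mp hφg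
    -- `φ` fixes `ζ`
    have hφζ : φ ζ = ζ := by
      have h1 : (φ⁻¹ * g ^ k) ζ = ζ := hφgR ζ hζR
      have h2 : (g ^ k) ζ = ζ := by
        have : g ^ k ∈ brtop_K ζ := pow_mem hgK k
        exact this
      rw [AlgEquiv.mul_apply, h2] at h1
      have h3 : φ (φ⁻¹ ζ) = ζ := by
        rw [← AlgEquiv.mul_apply, mul_inv_cancel, AlgEquiv.one_apply]
      rw [h1] at h3
      exact h3
    have hmod : ℓ ≡ 1 [MOD M0] := brcy_modEq_one_of_fixes hℓ hℓM0 A hA φ hφ hζ hφζ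
    exact ⟨ℓ, hℓ, hgood, hℓM1, hℓp, hmod,
      brtop_not_dvd_of_frobenius E hW hp hp2 hℓ hℓp hgood A hA φ hφ g r k hr hrk hgr hgfix hφgV⟩
  · -- the degenerate case: `G_{ℚ(ζ)}` acts trivially, so the image is abelian
    exfalso
    obtain ⟨c, ⟨x0, hx0, hcx0⟩, ⟨x1, hcx1⟩⟩ := hCC
    have hcomm : ∀ (σ : brtopGQ) (v : Submodule.torsionBy ℤ (E⁄brtopQb).Point p),
        c • (σ • v) = σ • (c • v) := by
      intro σ v
      have h := htriv _ (brtop_comm_mem_K hM0 hζ σ c) (c • (σ • v))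
      rw [mul_smul, mul_smul, mul_smul, inv_smul_smul, inv_smul_smul] at h
      exact h.symm
    let N : Submodule (ZMod p) (Submodule.torsionBy ℤ (E⁄brtopQb).Point p) :=
      LinearMap.eqLocus (DistribSMul.toLinearMap (ZMod p) _ c) LinearMap.id
    have hN : ∀ v, v ∈ N ↔ c • v = v := fun v => Iff.rfl
    have hst : IsGaloisStable ℚ N := by
      intro σ v hv
      rw [hN] at hv ⊢
      rw [hcomm, hv]
    rcases hirr.2 N hst with h | h
    · have : x0 ∈ N := (hN x0).mpr hcx0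
      rw [h, Submodule.mem_bot] at this
      exact hx0 this
    · have : x1 ∈ N := by rw [h]; exact Submodule.mem_top
      exact hcx1 ((hN x1).mp this)

end refined

end Fermat.Agent.S41x
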