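/-
S41 bridge, item CC, final wrapper (helper90): the CC input `brtopCC E p` of the refined bridge
(`S41x/BridgeFinal.lean`, helper66) from the statement over `ℂ` (`brcq_ComplexInput E p`, output of row CC4),
via the descent `ℂ → ℚ̄` of `S41x/BridgeConjQbar.lean`; and the refined bridge with this input plugged in.
-/
import Fermat.Agent.S41x.BridgeFinal
import Fermat.Agent.S41x.BridgeConjQbar

set_option autoImplicit false
open WeierstrassCurve WeierstrassCurve.Affine WeierstrassCurve.Affine.Point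

namespace Fermat.Agent.S41x

/-- complex conjugation supplies the CC input of the refined bridge. -/
theorem brcq_brtopCC_of (E : WeierstrassCurve ℚ) (hΔ : E.Δ ≠ 0) {p : ℕ} (hp : p.Prime)
    (hC : brcq_ComplexInput E p) : brtopCC E p := by
  obtain ⟨⟨P₁, hP₁0, hP₁p, hP₁c⟩, ⟨P₂, hP₂p, hP₂c⟩⟩ := brcq_main_of E hΔ hp hC
  have hmem : ∀ P : (E⁄brtopQb).Point, p • P = 0 → P ∈ Submodule.torsionBy ℤ (E⁄brtopQb).Point p := by
    intro P hP
    rw [Submodule.mem_torsionBy_iff, natCast_zsmul]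
    exact hP
  refine ⟨complexConjugation, ⟨⟨P₁, hmem P₁ hP₁p⟩, ?_, ?_⟩, ⟨⟨P₂, hmem P₂ hP₂p⟩, ?_⟩⟩
  · intro h
    exact hP₁0 (congrArg Subtype.val h)
  · exact Subtype.ext hP₁c
  · intro h
    exact hP₂c (congrArg Subtype.val h)

/-- the refined bridge, modulo only the statement over `ℂ`. -/
theorem brcq_bridge_refined_of (E : WeierstrassCurve ℚ) [E.IsElliptic] {W : WeierstrassCurve ℤ}
    (hW : W.IsIntegralModelOf E) {p : ℕ} (hp : p.Prime) (hp2 : p ≠ 2)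
    (hirr : GaloisRepIsIrreducible (K := AlgebraicClosure ℚ) ℚ E p) (hC : brcq_ComplexInput E p)
    (M0 : ℕ) (hM0 : 0 < M0) (M : ℕ) (hM : 0 < M) :
    ∃ ℓ : ℕ, ℓ.Prime ∧ W.IsGoodPrimeFor ℓ ∧ ¬ ℓ ∣ M ∧ ℓ ≠ p ∧ ℓ ≡ 1 [MOD M0] ∧
      ¬ (p : ℤ) ∣ ((ℓ : ℤ) + 1 - W.apOfModel ℓ) :=
  brtop_bridge_refined_of E hW hp hp2 hirr
    (brcq_brtopCC_of E (IsElliptic.isUnit (W := E)).ne_zero hp hC) M0 hM0 M hM

end Fermat.Agent.S41x
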