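import Mathlib

/-!
# S41 bridge, module CC3 (prefix `brct_`): real and purely imaginary `p`-torsion of `ℂ / Λ`

Pure lattice statement.  Let `Λ = L.lattice` be the period lattice of a `PeriodPair` and assume that
`Λ` is stable under complex conjugation.  Then for every `p ≥ 2`

* `brct_exists_real` : there is `x ∈ ℂ` with `conj x = x`, `x ∉ Λ`, `p * x ∈ Λ`;
* `brct_exists_imag` : there is `y ∈ ℂ` with `conj y = -y`, `y ∉ Λ`, `p * y ∈ Λ`;
* `brct_sub_conj_notMem` : for `p` odd and `y` as above, `y - conj y ∉ Λ`, i.e. conjugation does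
  not fix the class of `y` in `ℂ / Λ`.
-/

set_option autoImplicit false

namespace Fermat.Agent.S41x

open Complex

/-- a nonzero lattice vector `s` has a rational multiple `x = q s` with `x ∉ Λ` and `p x ∈ Λ`. -/
theorem brct_exists_rat_mul (L : PeriodPair) {s : ℂ} (hs : s ∈ L.lattice) (hs0 : s ≠ 0) {p : ℕ}
    (hp : 2 ≤ p) :
    ∃ q : ℚ, ((q : ℂ) * s) ∉ L.lattice ∧ (p : ℂ) * ((q : ℂ) * s) ∈ L.lattice := by
  obtain ⟨m, n, hmn⟩ := PeriodPair.mem_lattice.mp hs
  have hgcd : 0 < Int.gcd m n := by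
    rw [Nat.pos_iff_ne_zero]
    intro h0
    obtain ⟨rfl, rfl⟩ := Int.gcd_eq_zero_iff.mp h0
    apply hs0
    rw [← hmn]
    simp
  obtain ⟨m', n', hcop, hm, hn⟩ := Int.exists_gcd_one hgcd
  set d : ℤ := (Int.gcd m n : ℤ) with hd
  have hd0 : (d : ℂ) ≠ 0 := by
    have : d ≠ 0 := by rw [hd]; exact_mod_cast hgcd.ne'
    exact_mod_cast this
  have hp0 : (p : ℂ) ≠ 0 := by
    have : p ≠ 0 := by omega
    exact_mod_cast this
  -- `s = d * (m' ω₁ + n' ω₂)`
  have hs' : s = (d : ℂ) * ((m' : ℂ) * L.ω₁ + (n' : ℂ) * L.ω₂) := by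
    rw [← hmn, hm, hn]
    push_cast
    ring
  refine ⟨((1 : ℚ) / (d * p)), ?_, ?_⟩
  · -- `x = (m'/p) ω₁ + (n'/p) ω₂ ∉ Λ`
    have hx : (((1 : ℚ) / (d * p) : ℚ) : ℂ) * s
        = (((m' : ℚ) / p : ℚ) : ℂ) * L.ω₁ + (((n' : ℚ) / p : ℚ) : ℂ) * L.ω₂ := by
      rw [hs']
      push_cast
      field_simp
    rw [hx, PeriodPair.mul_ω₁_add_mul_ω₂_mem_lattice]
    rintro ⟨h1, h2⟩
    -- both `m'/p` and `n'/p` are integers, so `p ∣ m'` and `p ∣ n'`
    have hpQ : (p : ℚ) ≠ 0 := by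
      have : p ≠ 0 := by omega
      exact_mod_cast this
    have key : ∀ a : ℤ, ((a : ℚ) / p).den = 1 → (p : ℤ) ∣ a := by
      intro a ha
      have hpZ : (p : ℤ) ≠ 0 := by
        have : p ≠ 0 := by omega
        exact_mod_cast this
      have h := (Rat.den_div_intCast_eq_one_iff a (p : ℤ) hpZ).mp (by simpa using ha)
      exact h
    have h1' := key m' h1
    have h2' := key n' h2
    have hdvd : (p : ℤ) ∣ (Int.gcd m' n' : ℤ) := Int.dvd_coe_gcd h1' h2'
    rw [hcop] at hdvd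
    have : (p : ℤ) ≤ 1 := Int.le_of_dvd one_pos (by exact_mod_cast hdvd)
    have : (2 : ℤ) ≤ p := by exact_mod_cast hp
    omega
  · -- `p x = m' ω₁ + n' ω₂ ∈ Λ`
    have hx : (p : ℂ) * ((((1 : ℚ) / (d * p) : ℚ) : ℂ) * s)
        = (m' : ℂ) * L.ω₁ + (n' : ℂ) * L.ω₂ := by
      rw [hs']
      push_cast
      field_simp
    rw [hx]
    exact PeriodPair.mem_lattice.mpr ⟨m', n', rfl⟩

/-- one of the two periods has nonzero real part -/
theorem brct_exists_re_ne_zero (L : PeriodPair) : L.ω₁.re ≠ 0 ∨ L.ω₂.re ≠ 0 := by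
  by_contra h
  push Not at h
  obtain ⟨h1, h2⟩ := h
  have hind := LinearIndependent.pair_iff.mp L.indep (L.ω₂.im) (-L.ω₁.im) (by
    apply Complex.ext <;> simp [h1, h2, mul_comm])
  obtain ⟨ha, hb⟩ := hind
  have hb' : L.ω₁.im = 0 := by linarith
  have hω₁ : L.ω₁ = 0 := Complex.ext h1 hb'
  have := LinearIndependent.pair_iff.mp L.indep 1 0 (by simp [hω₁])
  exact one_ne_zero this.1

/-- one of the two periods has nonzero imaginary part -/
theorem brct_exists_im_ne_zero (L : PeriodPair) : L.ω₁.im ≠ 0 ∨ L.ω₂.im ≠ 0 := by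
  by_contra h
  push Not at h
  obtain ⟨h1, h2⟩ := h
  have hind := LinearIndependent.pair_iff.mp L.indep (L.ω₂.re) (-L.ω₁.re) (by
    apply Complex.ext <;> simp [h1, h2, mul_comm])
  obtain ⟨ha, hb⟩ := hind
  have hb' : L.ω₁.re = 0 := by linarith
  have hω₁ : L.ω₁ = 0 := Complex.ext hb' h1
  have := LinearIndependent.pair_iff.mp L.indep 1 0 (by simp [hω₁])
  exact one_ne_zero this.1

/-- a conjugation-stable period lattice contains a nonzero real number -/
theorem brct_exists_real_mem (L : PeriodPair)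
    (hconj : ∀ z ∈ L.lattice, (starRingEnd ℂ) z ∈ L.lattice) :
    ∃ s ∈ L.lattice, s ≠ 0 ∧ (starRingEnd ℂ) s = s := by
  have key : ∀ w ∈ L.lattice, w.re ≠ 0 → ∃ s ∈ L.lattice, s ≠ 0 ∧ (starRingEnd ℂ) s = s := by
    intro w hw hre
    refine ⟨w + (starRingEnd ℂ) w, L.lattice.add_mem hw (hconj w hw), ?_, ?_⟩
    · intro h0
      have := congrArg Complex.re h0
      simp at this
      exact hre (by linarith)
    · simp [add_comm]
  rcases brct_exists_re_ne_zero L with h | h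
  · exact key _ L.ω₁_mem_lattice h
  · exact key _ L.ω₂_mem_lattice h

/-- a conjugation-stable period lattice contains a nonzero purely imaginary number -/
theorem brct_exists_imag_mem (L : PeriodPair)
    (hconj : ∀ z ∈ L.lattice, (starRingEnd ℂ) z ∈ L.lattice) :
    ∃ s ∈ L.lattice, s ≠ 0 ∧ (starRingEnd ℂ) s = -s := by
  have key : ∀ w ∈ L.lattice, w.im ≠ 0 → ∃ s ∈ L.lattice, s ≠ 0 ∧ (starRingEnd ℂ) s = -s := by
    intro w hw him
    refine ⟨w - (starRingEnd ℂ) w, L.lattice.sub_mem hw (hconj w hw), ?_, ?_⟩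
    · intro h0
      have := congrArg Complex.im h0
      simp at this
      exact him (by linarith)
    · simp
  rcases brct_exists_im_ne_zero L with h | h
  · exact key _ L.ω₁_mem_lattice h
  · exact key _ L.ω₂_mem_lattice h

/-- **CC3, real part**: a conjugation-stable period lattice has a real `p`-division point outside
the lattice. -/
theorem brct_exists_real (L : PeriodPair)
    (hconj : ∀ z ∈ L.lattice, (starRingEnd ℂ) z ∈ L.lattice) {p : ℕ} (hp : 2 ≤ p) :
    ∃ x : ℂ, (starRingEnd ℂ) x = x ∧ x ∉ L.lattice ∧ (p : ℂ) * x ∈ L.lattice := by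
  obtain ⟨s, hs, hs0, hsc⟩ := brct_exists_real_mem L hconj
  obtain ⟨q, hq1, hq2⟩ := brct_exists_rat_mul L hs hs0 hp
  refine ⟨(q : ℂ) * s, ?_, hq1, hq2⟩
  rw [map_mul, hsc, map_ratCast]

/-- **CC3, imaginary part**: a conjugation-stable period lattice has a purely imaginary
`p`-division point outside the lattice. -/
theorem brct_exists_imag (L : PeriodPair)
    (hconj : ∀ z ∈ L.lattice, (starRingEnd ℂ) z ∈ L.lattice) {p : ℕ} (hp : 2 ≤ p) :
    ∃ y : ℂ, (starRingEnd ℂ) y = -y ∧ y ∉ L.lattice ∧ (p : ℂ) * y ∈ L.lattice := by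
  obtain ⟨s, hs, hs0, hsc⟩ := brct_exists_imag_mem L hconj
  obtain ⟨q, hq1, hq2⟩ := brct_exists_rat_mul L hs hs0 hp
  refine ⟨(q : ℂ) * s, ?_, hq1, hq2⟩
  rw [map_mul, hsc, map_ratCast]
  ring

/-- **CC3, non-fixedness**: for odd `p`, a purely imaginary `p`-division point `y ∉ Λ` is not
fixed by conjugation modulo `Λ`. -/
theorem brct_sub_conj_notMem (L : PeriodPair) {p : ℕ} (hodd : Odd p) {y : ℂ}
    (hyc : (starRingEnd ℂ) y = -y) (hy : y ∉ L.lattice) (hpy : (p : ℂ) * y ∈ L.lattice) :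
    y - (starRingEnd ℂ) y ∉ L.lattice := by
  intro h
  apply hy
  obtain ⟨k, rfl⟩ := hodd
  have h2 : (2 : ℂ) * y ∈ L.lattice := by
    have : y - (starRingEnd ℂ) y = 2 * y := by rw [hyc]; ring
    rwa [this] at h
  have hk : (k : ℤ) • ((2 : ℂ) * y) ∈ L.lattice := L.lattice.smul_mem _ h2
  have : y = ((2 * k + 1 : ℕ) : ℂ) * y - (k : ℤ) • ((2 : ℂ) * y) := by
    simp only [zsmul_eq_mul]
    push_cast
    ring
  rw [this]
  exact L.lattice.sub_mem hpy hk

/-! ### Quotient forms (`ℂ ⧸ Λ`, the shape of the uniformisation `S13x.wpp_exists_equiv`) -/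

/-- **CC3, quotient form, fixed vector**: there is a real `x` whose class in `ℂ ⧸ Λ` is a nonzero
`p`-torsion element (fixed by conjugation since `conj x = x`). -/
theorem brct_exists_real_quot (L : PeriodPair)
    (hconj : ∀ z ∈ L.lattice, (starRingEnd ℂ) z ∈ L.lattice) {p : ℕ} (hp : 2 ≤ p) :
    ∃ x : ℂ, (starRingEnd ℂ) x = x ∧
      (QuotientAddGroup.mk x : ℂ ⧸ L.lattice.toAddSubgroup) ≠ 0 ∧
      p • (QuotientAddGroup.mk x : ℂ ⧸ L.lattice.toAddSubgroup) = 0 := by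
  obtain ⟨x, hxc, hx, hpx⟩ := brct_exists_real L hconj hp
  refine ⟨x, hxc, ?_, ?_⟩
  · rw [Ne, QuotientAddGroup.eq_zero_iff]
    exact hx
  · rw [← QuotientAddGroup.mk_nsmul, QuotientAddGroup.eq_zero_iff, nsmul_eq_mul]
    exact hpx

/-- **CC3, quotient form, moved vector**: for odd `p` there is `y` whose class in `ℂ ⧸ Λ` is a
`p`-torsion element NOT fixed by conjugation. -/
theorem brct_exists_imag_quot (L : PeriodPair)
    (hconj : ∀ z ∈ L.lattice, (starRingEnd ℂ) z ∈ L.lattice) {p : ℕ} (hp : 2 ≤ p) (hodd : Odd p) :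
    ∃ y : ℂ, p • (QuotientAddGroup.mk y : ℂ ⧸ L.lattice.toAddSubgroup) = 0 ∧
      (QuotientAddGroup.mk ((starRingEnd ℂ) y) : ℂ ⧸ L.lattice.toAddSubgroup) ≠
        QuotientAddGroup.mk y := by
  obtain ⟨y, hyc, hy, hpy⟩ := brct_exists_imag L hconj hp
  refine ⟨y, ?_, ?_⟩
  · rw [← QuotientAddGroup.mk_nsmul, QuotientAddGroup.eq_zero_iff, nsmul_eq_mul]
    exact hpy
  · intro h
    have h' := (QuotientAddGroup.eq_iff_sub_mem).mp h.symm
    exact brct_sub_conj_notMem L hodd hyc hy hpy h'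

end Fermat.Agent.S41x
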