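/-
S41 bridge, item CC (complex conjugation on `E[p]`), row CC4(a) (helper36): the statement over `ℂ`
for a curve over `ℚ` in short Weierstrass form.

For `V : y² = x³ + a₄ x + a₆` over `ℚ` with `Δ ≠ 0` and an odd prime `p`, coordinatewise complex
conjugation on `V(ℂ)` fixes a nonzero `p`-torsion point and moves some `p`-torsion point
(`brcq_ComplexInput V p`, the shape consumed by helper90's `brcq_main_of`).

Route: uniformisation (`S13x.loi_exists_periodPair`) gives a period pair `L` with `g₂ = -4 a₄`,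
`g₃ = -4 a₆`; the invariants are rational, hence real, so the lattice is conjugation stable and
`℘ (conj z) = conj (℘ z)`, `℘' (conj z) = conj (℘' z)` (CC2, helper13).  A real `p`-division point `x`
(CC3, helper97) gives the fixed point `(℘ x, ℘' x / 2)`; a purely imaginary one `y` gives a point whose
second coordinate is negated, and `℘' y = 0` would force `2 y ∈ Λ`, impossible for odd `p`.

Main statements (prefix `brcv_`):
* `brcv_core`               : the statement on `wppCurve L` in coordinates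
* `brcv_complexInput_of_eq` : `brcq_ComplexInput V p` as soon as `V⁄ℂ = wppCurve L` with real invariants
* `brcv_complexInput_short` : `brcq_ComplexInput V p` for `a₁ = a₂ = a₃ = 0`
* `brcv_complexInput_shortNF` : the same with `[V.IsShortNF]`
-/
import Mathlib
import Fermat.Prelude.Def_FLTPrelim_GaloisRep
import Fermat.Prelude.Def_GaloisRep_ComplexConjugation
import Fermat.Agent.S13x.WpPointFinal
import Fermat.Agent.S13x.LatticeOfInvariants
import Fermat.Agent.S41x.BridgeConjPair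
import Fermat.Agent.S41x.BridgeConjTors
import Fermat.Agent.S41x.BridgeConjQbar

set_option autoImplicit false

open scoped PeriodPair ComplexConjugate
open WeierstrassCurve WeierstrassCurve.Affine WeierstrassCurve.Affine.Point Fermat.Agent.S13x

namespace Fermat.Agent.S41x

/-- `p • wppPoint z = wppPoint (p z)`. -/
theorem brcv_nsmul_wppPoint (L : PeriodPair) (hΔ : L.g₂ ^ 3 - 27 * L.g₃ ^ 2 ≠ 0) (p : ℕ) (z : ℂ) :
    p • wppPoint L hΔ z = wppPoint L hΔ ((p : ℂ) * z) := by
  have h := map_nsmul (wppHom hΔ (wpp_inputs L)) p z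
  rw [wppHom_apply, wppHom_apply, nsmul_eq_mul] at h
  exact h.symm

/-- **CC4 core**: on the curve of a period pair with real invariants, there is a nonzero `p`-torsion
point with real coordinates, and a `p`-torsion point whose `y`-coordinate is not real. -/
theorem brcv_core (L : PeriodPair) (hΔ : L.g₂ ^ 3 - 27 * L.g₃ ^ 2 ≠ 0)
    (h2 : conj L.g₂ = L.g₂) (h3 : conj L.g₃ = L.g₃) {p : ℕ} (hp : 2 ≤ p) (hodd : Odd p) :
    (∃ (x y : ℂ) (h : (wppCurve L).toAffine.Nonsingular x y), conj x = x ∧ conj y = y ∧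
        p • (Point.some x y h) = 0) ∧
    (∃ (x y : ℂ) (h : (wppCurve L).toAffine.Nonsingular x y), conj y ≠ y ∧
        p • (Point.some x y h) = 0) := by
  have hconj : ∀ z ∈ L.lattice, (starRingEnd ℂ) z ∈ L.lattice :=
    fun z hz => brcc_conj_mem_lattice L h2 h3 hz
  constructor
  · obtain ⟨x, hxc, hx, hpx⟩ := brct_exists_real L hconj hp
    refine ⟨℘[L] x, ℘'[L] x / 2, wpp_nonsingular L hΔ x hx, ?_, ?_, ?_⟩
    · rw [← brcc_weierstrassP_conj L h2 h3, hxc]
    · rw [map_div₀, ← brcc_derivWeierstrassP_conj L h2 h3, hxc, map_ofNat]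
    · rw [← wppPoint_of_notMem hΔ hx, brcv_nsmul_wppPoint, wppPoint_eq_zero_iff]
      exact hpx
  · obtain ⟨y, hyc, hy, hpy⟩ := brct_exists_imag L hconj hp
    refine ⟨℘[L] y, ℘'[L] y / 2, wpp_nonsingular L hΔ y hy, ?_, ?_⟩
    · intro h
      rw [map_div₀, ← brcc_derivWeierstrassP_conj L h2 h3, hyc, map_ofNat,
        L.derivWeierstrassP_neg] at h
      have h0 : ℘'[L] y = 0 := by
        have h' : -℘'[L] y = ℘'[L] y := by
          have := congrArg (fun t => t * 2) h
          simpa using this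
        have : (2 : ℂ) * ℘'[L] y = 0 := by linear_combination -h'
        simpa using this
      have h2y : 2 * y ∈ L.lattice := (wpp_inputs L).deriv_zero y hy h0
      apply brct_sub_conj_notMem L hodd hyc hy hpy
      rw [hyc]
      have : y - -y = 2 * y := by ring
      rw [this]
      exact h2y
    · rw [← wppPoint_of_notMem hΔ hy, brcv_nsmul_wppPoint, wppPoint_eq_zero_iff]
      exact hpy

/-- the same on any curve over `ℂ` equal to `wppCurve L`. -/
theorem brcv_core_of_eq (E : WeierstrassCurve ℂ) (L : PeriodPair) (hE : E = wppCurve L)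
    (hΔ : L.g₂ ^ 3 - 27 * L.g₃ ^ 2 ≠ 0)
    (h2 : conj L.g₂ = L.g₂) (h3 : conj L.g₃ = L.g₃) {p : ℕ} (hp : 2 ≤ p) (hodd : Odd p) :
    (∃ (x y : ℂ) (h : E.toAffine.Nonsingular x y), conj x = x ∧ conj y = y ∧
        p • (Point.some x y h) = 0) ∧
    (∃ (x y : ℂ) (h : E.toAffine.Nonsingular x y), conj y ≠ y ∧
        p • (Point.some x y h) = 0) := by
  subst hE
  exact brcv_core L hΔ h2 h3 hp hodd

/-- **CC4, abstract form**: if `V⁄ℂ` is the curve of a period pair with real invariants then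
conjugation fixes a nonzero `p`-torsion point and moves a `p`-torsion point. -/
theorem brcv_complexInput_of_eq (V : WeierstrassCurve ℚ) (L : PeriodPair)
    (hE : V⁄ℂ = wppCurve L) (hΔ : L.g₂ ^ 3 - 27 * L.g₃ ^ 2 ≠ 0)
    (h2 : conj L.g₂ = L.g₂) (h3 : conj L.g₃ = L.g₃) {p : ℕ} (hp : 2 ≤ p) (hodd : Odd p) :
    brcq_ComplexInput V p := by
  obtain ⟨⟨x, y, h, hx, hy, hpP⟩, ⟨x', y', h', hy', hpP'⟩⟩ :=
    brcv_core_of_eq (V⁄ℂ) L hE hΔ h2 h3 hp hodd
  refine ⟨⟨Point.some x y h, Point.some_ne_zero _, hpP, ?_⟩, ⟨Point.some x' y' h', hpP', ?_⟩⟩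
  · rw [algEquiv_smul_def, Point.map_some, Point.some.injEq]
    exact ⟨hx, hy⟩
  · rw [algEquiv_smul_def, Point.map_some, Ne, Point.some.injEq]
    rintro ⟨-, hy''⟩
    exact hy' hy''

/-- **CC4(a)**: the statement over `ℂ` for a curve over `ℚ` in short Weierstrass form. -/
theorem brcv_complexInput_short (V : WeierstrassCurve ℚ) (h1 : V.a₁ = 0) (h2 : V.a₂ = 0)
    (h3 : V.a₃ = 0) (hΔ : V.Δ ≠ 0) {p : ℕ} (hp : p.Prime) (hodd : Odd p) :
    brcq_ComplexInput V p := by
  have hΔV : V.Δ = -64 * V.a₄ ^ 3 - 432 * V.a₆ ^ 2 := by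
    simp only [WeierstrassCurve.Δ, WeierstrassCurve.b₂, WeierstrassCurve.b₄,
      WeierstrassCurve.b₆, WeierstrassCurve.b₈, h1, h2, h3]
    ring
  have hdisc : (-4 * (V.a₄ : ℂ)) ^ 3 - 27 * (-4 * (V.a₆ : ℂ)) ^ 2 ≠ 0 := by
    have : (-4 * (V.a₄ : ℂ)) ^ 3 - 27 * (-4 * (V.a₆ : ℂ)) ^ 2 = ((V.Δ : ℚ) : ℂ) := by
      rw [hΔV]
      push_cast
      ring
    rw [this]
    exact_mod_cast hΔ
  obtain ⟨L, hg2, hg3⟩ := loi_exists_periodPair _ _ hdisc
  have hE : V⁄ℂ = wppCurve L := by
    ext <;> simp [wppCurve, WeierstrassCurve.baseChange, hg2, hg3, h1, h2, h3]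
  refine brcv_complexInput_of_eq V L hE (by rw [hg2, hg3]; exact hdisc) ?_ ?_ hp.two_le hodd
  · rw [hg2, map_mul, map_neg, map_ofNat, map_ratCast]
  · rw [hg3, map_mul, map_neg, map_ofNat, map_ratCast]

/-- **CC4(a)**, `IsShortNF` variant. -/
theorem brcv_complexInput_shortNF (V : WeierstrassCurve ℚ) [V.IsShortNF] (hΔ : V.Δ ≠ 0) {p : ℕ}
    (hp : p.Prime) (hodd : Odd p) : brcq_ComplexInput V p :=
  brcv_complexInput_short V V.a₁_of_isShortNF V.a₂_of_isShortNF V.a₃_of_isShortNF hΔ hp hodd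

end Fermat.Agent.S41x
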