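/-
S41 bridge, item CC (complex conjugation on `E[p]`), row CC4b (helper13): transfer of the complex statement
`brcq_ComplexInput` along a rational variable change, and reduction of the consumer statement to short
Weierstrass curves.

* `brcw_equiv`             : `((C • W)⁄K).Point ≃+ (W⁄K).Point` for a rational variable change `C`
* `brcw_equiv_smul`        : it commutes with every `σ : K ≃ₐ[ℚ] K`
* `brcw_transfer`          : `brcq_ComplexInput (C • W) p → brcq_ComplexInput W p`
* `brcw_complexInput_of_short` : `brcq_ComplexInput W p` from the statement for all short curves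
-/
import Mathlib
import Fermat.Prelude.Def_FLTPrelim_GaloisRep
import Fermat.Prelude.Def_GaloisRep_ComplexConjugation
import Fermat.Agent.S51x.VC
import Fermat.Agent.S41x.BridgeConjQbar

set_option autoImplicit false

namespace Fermat.Agent.S41x

open WeierstrassCurve WeierstrassCurve.Affine WeierstrassCurve.Affine.Point

section general

variable {K : Type} [Field K] [DecidableEq K] [Algebra ℚ K] (W : WeierstrassCurve ℚ)
  (C : VariableChange ℚ)

omit [DecidableEq K] in
theorem brcw_baseChange_vc : ((C • W)⁄K) = (C.map (algebraMap ℚ K)) • (W⁄K) :=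
  (map_variableChange W C (algebraMap ℚ K)).symm

/-- the isomorphism on `K`-points induced by a rational variable change. -/
noncomputable def brcw_equiv : ((C • W)⁄K).Point ≃+ (W⁄K).Point :=
  (S51x.pointCongr (brcw_baseChange_vc (K := K) W C)).trans
    (S51x.vcEquiv (W⁄K) (C.map (algebraMap ℚ K)))

theorem brcw_smul_some (V : WeierstrassCurve ℚ) (σ : K ≃ₐ[ℚ] K) {x y : K}
    (h : (V⁄K).Nonsingular x y) :
    ∃ h' : (V⁄K).Nonsingular (σ x) (σ y), σ • Point.some x y h = Point.some (σ x) (σ y) h' :=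
  ⟨_, rfl⟩

/-- the variable change isomorphism commutes with the action of `Aut(K/ℚ)`. -/
theorem brcw_equiv_smul (σ : K ≃ₐ[ℚ] K) (P : ((C • W)⁄K).Point) :
    brcw_equiv W C (σ • P) = σ • brcw_equiv W C P := by
  rcases P with _ | ⟨x, y, h⟩
  · have h0 : σ • (0 : ((C • W)⁄K).Point) = 0 := rfl
    have h0' : σ • (0 : (W⁄K).Point) = 0 := rfl
    change brcw_equiv W C (σ • 0) = σ • brcw_equiv W C 0
    rw [h0, _root_.map_zero, h0']
  · have heq := brcw_baseChange_vc (K := K) W C
    obtain ⟨hσ, hσP⟩ := brcw_smul_some (C • W) σ h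
    rw [hσP]
    have hns := (S51x.vc_nonsingular (W⁄K) (C.map (algebraMap ℚ K)) x y).mpr (heq ▸ h)
    have hns' := (S51x.vc_nonsingular (W⁄K) (C.map (algebraMap ℚ K)) (σ x) (σ y)).mpr (heq ▸ hσ)
    have he : brcw_equiv W C (Point.some x y h) = Point.some _ _ hns := by
      simp only [brcw_equiv, AddEquiv.trans_apply, S51x.pointCongr_some, S51x.vcEquiv_some']
    have he' : brcw_equiv W C (Point.some (σ x) (σ y) hσ) = Point.some _ _ hns' := by
      simp only [brcw_equiv, AddEquiv.trans_apply, S51x.pointCongr_some, S51x.vcEquiv_some']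
    rw [he, he']
    obtain ⟨hσ', hσQ⟩ := brcw_smul_some W σ hns
    rw [hσQ]
    simp only [Point.some.injEq]
    have hu : σ ((C.map (algebraMap ℚ K)).u : K) = ((C.map (algebraMap ℚ K)).u : K) := by
      simp only [VariableChange.map_u, Units.coe_map, MonoidHom.coe_coe]
      exact σ.commutes _
    have hr : σ (C.map (algebraMap ℚ K)).r = (C.map (algebraMap ℚ K)).r := σ.commutes _
    have hs : σ (C.map (algebraMap ℚ K)).s = (C.map (algebraMap ℚ K)).s := σ.commutes _
    have ht : σ (C.map (algebraMap ℚ K)).t = (C.map (algebraMap ℚ K)).t := σ.commutes _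
    constructor
    · rw [map_add, map_mul, map_pow, hu, hr]
    · rw [map_add, map_add, map_mul, map_mul, map_mul, map_pow, map_pow, hu, hs, ht]

end general

/-- **CC4b**: the complex statement transfers along a rational variable change. -/
theorem brcw_transfer (W : WeierstrassCurve ℚ) (C : VariableChange ℚ) (p : ℕ)
    (h : brcq_ComplexInput (C • W) p) : brcq_ComplexInput W p := by
  obtain ⟨⟨P₁, hP₁0, hP₁p, hP₁c⟩, ⟨P₂, hP₂p, hP₂c⟩⟩ := h
  refine ⟨⟨brcw_equiv W C P₁, ?_, ?_, ?_⟩, ⟨brcw_equiv W C P₂, ?_, ?_⟩⟩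
  · exact (AddEquiv.map_ne_zero_iff (brcw_equiv W C)).mpr hP₁0
  · rw [← map_nsmul, hP₁p, _root_.map_zero]
  · rw [← brcw_equiv_smul, hP₁c]
  · rw [← map_nsmul, hP₂p, _root_.map_zero]
  · rw [← brcw_equiv_smul]
    exact fun h => hP₂c ((brcw_equiv W C).injective h)

/-- **CC4b**: reduction to short Weierstrass curves over `ℚ`. -/
theorem brcw_complexInput_of_short (p : ℕ)
    (hshort : ∀ a b : ℚ, (⟨0, 0, 0, a, b⟩ : WeierstrassCurve ℚ).Δ ≠ 0 →
      brcq_ComplexInput (⟨0, 0, 0, a, b⟩ : WeierstrassCurve ℚ) p)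
    (W : WeierstrassCurve ℚ) (hΔ : W.Δ ≠ 0) : brcq_ComplexInput W p := by
  have : Invertible (2 : ℚ) := invertibleOfNonzero two_ne_zero
  have : Invertible (3 : ℚ) := invertibleOfNonzero three_ne_zero
  set C : VariableChange ℚ := W.toShortNF with hC
  have hsh : (C • W).IsShortNF := W.toShortNF_spec
  have hΔ' : (C • W).Δ ≠ 0 := by
    rw [variableChange_Δ]
    exact mul_ne_zero (pow_ne_zero _ (by simp)) hΔ
  have hW : C • W = ⟨0, 0, 0, (C • W).a₄, (C • W).a₆⟩ := by
    ext
    · exact (C • W).a₁_of_isShortNF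
    · exact (C • W).a₂_of_isShortNF
    · exact (C • W).a₃_of_isShortNF
    · rfl
    · rfl
  apply brcw_transfer W C p
  rw [hW]
  apply hshort
  rw [← hW]
  exact hΔ'

end Fermat.Agent.S41x
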