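/-
S41 bridge, item CC (complex conjugation on `E[p]`), row CC4, final assembly (helper36):
for EVERY Weierstrass curve `W` over `ℚ` with `Δ ≠ 0` and every odd prime `p`, coordinatewise complex
conjugation on `W(ℂ)` fixes a nonzero `p`-torsion point and moves some `p`-torsion point
(`brcv_complexInput : brcq_ComplexInput W p`), hence (helper90's descent `brcq_main_of`) the same over `ℚ̄`
for `complexConjugation ∈ G_ℚ` (`brcv_main`).

= short case (`brcv_complexInput_short`, S41x/BridgeConjCurve.lean) + transfer along `W.toShortNF`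
(`brcw_complexInput_of_short`, helper13, S41x/BridgeConjVC.lean).
-/
import Fermat.Agent.S41x.BridgeConjCurve
import Fermat.Agent.S41x.BridgeConjVC

set_option autoImplicit false

open WeierstrassCurve WeierstrassCurve.Affine WeierstrassCurve.Affine.Point

namespace Fermat.Agent.S41x

/-- **CC4**: the statement over `ℂ` for every elliptic curve over `ℚ`. -/
theorem brcv_complexInput (W : WeierstrassCurve ℚ) (hΔ : W.Δ ≠ 0) {p : ℕ} (hp : p.Prime)
    (hodd : Odd p) : brcq_ComplexInput W p :=
  brcw_complexInput_of_short p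
    (fun _ _ h => brcv_complexInput_short _ rfl rfl rfl h hp hodd) W hΔ

/-- **CC (rows CC2–CC5 assembled)**: complex conjugation in `G_ℚ` fixes a nonzero `p`-torsion point of
`W(ℚ̄)` and moves some `p`-torsion point. -/
theorem brcv_main (W : WeierstrassCurve ℚ) (hΔ : W.Δ ≠ 0) {p : ℕ} (hp : p.Prime) (hodd : Odd p) :
    (∃ P : (W⁄(AlgebraicClosure ℚ)).Point, P ≠ 0 ∧ p • P = 0 ∧ complexConjugation • P = P) ∧
    (∃ P : (W⁄(AlgebraicClosure ℚ)).Point, p • P = 0 ∧ complexConjugation • P ≠ P) :=
  brcq_main_of W hΔ hp (brcv_complexInput W hΔ hp hodd)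

end Fermat.Agent.S41x
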