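/-
S41 bridge, row CC1 (helper13): a period pair is determined (as a lattice) by its invariants `g₂`, `g₃`.
-/
import Fermat.Agent.S13x.WpInj
import Fermat.Agent.S13x.WpSurj

set_option autoImplicit false

open Filter Topology
open scoped PeriodPair

namespace Fermat.Agent.S41x

open Fermat.Agent.S13x

variable (L L' : PeriodPair)

theorem brcc_isOpen_shift (t : ℂ) :
    IsOpen {z : ℂ | z ∉ L.lattice ∧ z + t ∉ L'.lattice} := by
  have h1 := wpi_isOpen_compl_lattice L
  have h2 : IsOpen ((fun z : ℂ => z + t) ⁻¹' (L'.lattice : Set ℂ)ᶜ) :=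
    (wpi_isOpen_compl_lattice L').preimage (by fun_prop)
  exact h1.inter h2

theorem brcc_isPreconnected_shift (t : ℂ) :
    IsPreconnected {z : ℂ | z ∉ L.lattice ∧ z + t ∉ L'.lattice} := by
  have hc : ((L.lattice : Set ℂ) ∪ (fun z : ℂ => z + t) ⁻¹' (L'.lattice : Set ℂ)).Countable :=
    (wpi_countable_lattice L).union
      ((wpi_countable_lattice L').preimage (add_left_injective t))
  have := (Set.Countable.isConnected_compl_of_one_lt_rank (by simp) hc).2
  convert this using 1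
  ext z
  simp

/-- if `℘_L` and `℘_{L'}(· + t)` agree to first order at one point (and `g₂` agree) they agree wherever both
are defined. -/
theorem brcc_eq_of_agree (h2 : L.g₂ = L'.g₂) {t w : ℂ} (hw : w ∉ L.lattice) (hwt : w + t ∉ L'.lattice)
    (h0 : ℘[L'] (w + t) = ℘[L] w) (h1 : ℘'[L'] (w + t) = ℘'[L] w) :
    ∀ z, z ∉ L.lattice → z + t ∉ L'.lattice → ℘[L'] (z + t) = ℘[L] z := by
  set U : Set ℂ := {z : ℂ | z ∉ L.lattice ∧ z + t ∉ L'.lattice} with hUdef
  have hUo : IsOpen U := brcc_isOpen_shift L L' t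
  have hUc : IsPreconnected U := brcc_isPreconnected_shift L L' t
  have hwU : w ∈ U := ⟨hw, hwt⟩
  set d : ℂ → ℂ := fun z => ℘[L'] (z + t) - ℘[L] z with hddef
  set a : ℂ → ℂ := fun z => 6 * (℘[L'] (z + t) + ℘[L] z) with hadef
  have hshift : ∀ z, z + t ∉ L'.lattice → AnalyticAt ℂ (fun z => ℘[L'] (z + t)) z := by
    intro z hz
    have h1 : AnalyticAt ℂ ℘[L'] ((fun z : ℂ => z + t) z) := wpi_analyticAt L' hz
    have h2 : AnalyticAt ℂ (fun z : ℂ => z + t) z := by fun_prop
    exact AnalyticAt.comp (g := ℘[L']) (f := fun z : ℂ => z + t) h1 h2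
  have hdU : AnalyticOnNhd ℂ d U := by
    intro z hz
    exact (hshift z hz.2).sub (wpi_analyticAt L hz.1)
  have haU : AnalyticOnNhd ℂ a U := by
    intro z hz
    exact analyticAt_const.mul ((hshift z hz.2).add (wpi_analyticAt L hz.1))
  have hd1 : ∀ z ∈ U, HasDerivAt d (℘'[L'] (z + t) - ℘'[L] z) z := by
    intro z hz
    have h1 : HasDerivAt (fun z => ℘[L'] (z + t)) (℘'[L'] (z + t)) z :=
      (wpi_hasDerivAt L' hz.2).comp_add_const z t
    exact h1.sub (wpi_hasDerivAt L hz.1)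
  have hd1' : ∀ z ∈ U, deriv d z = ℘'[L'] (z + t) - ℘'[L] z := fun z hz => (hd1 z hz).deriv
  have hd2 : ∀ z ∈ U, deriv (deriv d) z = a z * d z := by
    intro z hz
    have hev : deriv d =ᶠ[𝓝 z] fun y => ℘'[L'] (y + t) - ℘'[L] y := by
      filter_upwards [hUo.mem_nhds hz] with y hy using hd1' y hy
    rw [hev.deriv_eq]
    have h1 : HasDerivAt (fun z => ℘'[L'] (z + t)) (deriv ℘'[L'] (z + t)) z :=
      ((wpi_analyticAt_deriv L' hz.2).differentiableAt.hasDerivAt).comp_add_const z t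
    have h2' : HasDerivAt ℘'[L] (deriv ℘'[L] z) z :=
      (wpi_analyticAt_deriv L hz.1).differentiableAt.hasDerivAt
    have h3 : HasDerivAt (fun y => ℘'[L'] (y + t) - ℘'[L] y)
        (deriv ℘'[L'] (z + t) - deriv ℘'[L] z) z := h1.sub h2'
    rw [h3.deriv, wpi_deriv_deriv L hz.1, wpi_deriv_deriv L' hz.2, h2]
    simp only [hadef, hddef]
    ring
  have hzero : ∀ᶠ z in 𝓝 w, d z = 0 := by
    refine wpi_uniq_core (hdU w hwU) (haU w hwU) ?_ ?_ ?_
    · simp only [hddef, h0, sub_self]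
    · rw [hd1' w hwU, h1, sub_self]
    · filter_upwards [hUo.mem_nhds hwU] with z hz using hd2 z hz
  intro z hz hzt
  have := hdU.eqOn_zero_of_preconnected_of_eventuallyEq_zero hUc hwU hzero ⟨hz, hzt⟩
  simp only [hddef] at this
  exact sub_eq_zero.mp this

/-- pole comparison: if `℘_{L'}(· + t) = ℘_L` wherever both are defined, a period `l` of `L` is mapped into the
lattice of `L'` by `· + t`. -/
theorem brcc_add_mem_of_eq {t : ℂ}
    (hall : ∀ z, z ∉ L.lattice → z + t ∉ L'.lattice → ℘[L'] (z + t) = ℘[L] z)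
    {l : ℂ} (hl : l ∈ L.lattice) : l + t ∈ L'.lattice := by
  by_contra ht
  have hshift : AnalyticAt ℂ (fun z => ℘[L'] (z + t)) l := by
    have h1 : AnalyticAt ℂ ℘[L'] ((fun z : ℂ => z + t) l) := wpi_analyticAt L' ht
    have h2 : AnalyticAt ℂ (fun z : ℂ => z + t) l := by fun_prop
    exact AnalyticAt.comp (g := ℘[L']) (f := fun z : ℂ => z + t) h1 h2
  have htU : ∀ᶠ z in 𝓝 l, z + t ∉ L'.lattice := by
    have : Tendsto (fun z : ℂ => z + t) (𝓝 l) (𝓝 (l + t)) := by
      have : Continuous fun z : ℂ => z + t := by fun_prop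
      exact this.tendsto l
    exact this.eventually ((wpi_isOpen_compl_lattice L').mem_nhds ht)
  have hord := L.order_weierstrassP l hl
  have hcongr : ℘[L] =ᶠ[𝓝[≠] l] fun z => ℘[L'] (z + t) := by
    have h1 : ∀ᶠ z in 𝓝[≠] l, z ∈ ((L.lattice : Set ℂ) \ {l})ᶜ :=
      mem_nhdsWithin_of_mem_nhds (L.compl_lattice_sdiff_singleton_mem_nhds l)
    filter_upwards [h1, self_mem_nhdsWithin, mem_nhdsWithin_of_mem_nhds htU] with z hz hz0 hzt
    have hzl : z ∉ L.lattice := fun hzl => hz ⟨hzl, hz0⟩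
    exact (hall z hzl hzt).symm
  rw [meromorphicOrderAt_congr hcongr] at hord
  have hnn : (0 : WithTop ℤ) ≤ meromorphicOrderAt (fun z : ℂ => ℘[L'] (z + t)) l :=
    hshift.meromorphicOrderAt_nonneg
  rw [hord] at hnn
  exact absurd hnn (by decide)

/-- **CC1.** Two period pairs with the same invariants `g₂`, `g₃` have the same lattice. -/
theorem brcc_lattice_eq_of_invariants (h2 : L.g₂ = L'.g₂) (h3 : L.g₃ = L'.g₃) :
    L.lattice = L'.lattice := by
  -- a base point with `℘'_L ≠ 0`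
  obtain ⟨z₀, hz₀, hd₀⟩ : ∃ z₀, z₀ ∉ L.lattice ∧ ℘'[L] z₀ ≠ 0 := by
    by_contra hcon
    push Not at hcon
    exact wpi_deriv_not_eventually_zero L fun z hz => hcon z hz
  -- a point of `L'` with the same value, then the same derivative up to sign
  obtain ⟨w₀, hw₀, hval⟩ := wps_surj L' (℘[L] z₀)
  have hsq : ℘'[L'] w₀ ^ 2 = ℘'[L] z₀ ^ 2 := by
    rw [L'.derivWeierstrassP_sq w₀ hw₀, L.derivWeierstrassP_sq z₀ hz₀, hval, h2, h3]
  obtain ⟨w₁, hw₁, hval₁, hder₁⟩ : ∃ w₁, w₁ ∉ L'.lattice ∧ ℘[L'] w₁ = ℘[L] z₀ ∧ ℘'[L'] w₁ = ℘'[L] z₀ := by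
    rcases sq_eq_sq_iff_eq_or_eq_neg.mp hsq with h | h
    · exact ⟨w₀, hw₀, hval, h⟩
    · refine ⟨-w₀, fun hm => hw₀ (by simpa using neg_mem hm), ?_, ?_⟩
      · rw [L'.weierstrassP_neg, hval]
      · rw [L'.derivWeierstrassP_neg, h, neg_neg]
  set t : ℂ := w₁ - z₀ with htdef
  have hzt : z₀ + t = w₁ := by rw [htdef]; ring
  have hall : ∀ z, z ∉ L.lattice → z + t ∉ L'.lattice → ℘[L'] (z + t) = ℘[L] z :=
    brcc_eq_of_agree L L' h2 hz₀ (by rw [hzt]; exact hw₁) (by rw [hzt]; exact hval₁)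
      (by rw [hzt]; exact hder₁)
  -- `t` is a period of `L'`
  have ht : t ∈ L'.lattice := by
    have := brcc_add_mem_of_eq L L' hall (zero_mem L.lattice)
    simpa using this
  -- hence `℘_{L'} = ℘_L` off both lattices
  have hall0 : ∀ z, z ∉ L.lattice → z ∉ L'.lattice → ℘[L'] z = ℘[L] z := by
    intro z hz hz'
    have hzt' : z + t ∉ L'.lattice := fun hm => hz' (by simpa using sub_mem hm ht)
    rw [← hall z hz hzt']
    exact (L'.weierstrassP_add_coe z ⟨t, ht⟩).symm
  have hle : L.lattice ≤ L'.lattice := by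
    intro l hl
    have := brcc_add_mem_of_eq L L' (t := 0)
      (fun z hz hz' => by simpa using hall0 z hz (by simpa using hz')) hl
    simpa using this
  have hge : L'.lattice ≤ L.lattice := by
    intro l hl
    have := brcc_add_mem_of_eq L' L (t := 0)
      (fun z hz hz' => by simpa using (hall0 z (by simpa using hz') hz).symm) hl
    simpa using this
  exact le_antisymm hle hge

/-- `℘` depends only on the lattice. -/
theorem brcc_weierstrassP_congr (h : L.lattice = L'.lattice) (z : ℂ) : ℘[L] z = ℘[L'] z := by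
  unfold PeriodPair.weierstrassP
  rw [h]

/-- `℘'` depends only on the lattice. -/
theorem brcc_derivWeierstrassP_congr (h : L.lattice = L'.lattice) (z : ℂ) : ℘'[L] z = ℘'[L'] z := by
  unfold PeriodPair.derivWeierstrassP
  rw [h]

end Fermat.Agent.S41x
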