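/-
S41 bridge, row CC2 (helper13): the complex conjugate period pair; real invariants force a conjugation
stable lattice and `℘(conj z) = conj (℘ z)`.
-/
import Fermat.Agent.S41x.BridgeConjLattice

set_option autoImplicit false

open Filter Topology
open scoped PeriodPair ComplexConjugate

namespace Fermat.Agent.S41x

/-- the complex conjugate period pair. -/
noncomputable def brcc_conjPair (L : PeriodPair) : PeriodPair where
  ω₁ := conj L.ω₁
  ω₂ := conj L.ω₂
  indep := by
    rw [LinearIndependent.pair_iff]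
    intro s t h
    refine LinearIndependent.pair_iff.mp L.indep s t ?_
    have := congrArg conj h
    simpa [Complex.real_smul] using this

variable (L : PeriodPair)

theorem brcc_mem_conjPair_lattice {x : ℂ} :
    x ∈ (brcc_conjPair L).lattice ↔ conj x ∈ L.lattice := by
  rw [PeriodPair.mem_lattice, PeriodPair.mem_lattice]
  constructor
  · rintro ⟨m, n, rfl⟩
    refine ⟨m, n, ?_⟩
    simp [brcc_conjPair]
  · rintro ⟨m, n, h⟩
    refine ⟨m, n, ?_⟩
    have := congrArg conj h
    simpa [brcc_conjPair] using this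

/-- conjugation as an equivalence of the lattices. -/
noncomputable def brcc_latticeEquiv : L.lattice ≃ (brcc_conjPair L).lattice where
  toFun l := ⟨conj (l : ℂ), (brcc_mem_conjPair_lattice L).2 (by simp)⟩
  invFun l := ⟨conj (l : ℂ), (brcc_mem_conjPair_lattice L).1 l.2⟩
  left_inv l := by ext; simp
  right_inv l := by ext; simp

theorem brcc_weierstrassP_conjPair (z : ℂ) :
    ℘[brcc_conjPair L] (conj z) = conj (℘[L] z) := by
  unfold PeriodPair.weierstrassP
  rw [Complex.conj_tsum, ← (brcc_latticeEquiv L).tsum_eq]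
  refine tsum_congr fun l => ?_
  simp [brcc_latticeEquiv]

theorem brcc_derivWeierstrassP_conjPair (z : ℂ) :
    ℘'[brcc_conjPair L] (conj z) = conj (℘'[L] z) := by
  unfold PeriodPair.derivWeierstrassP
  rw [map_neg, Complex.conj_tsum, ← (brcc_latticeEquiv L).tsum_eq]
  congr 1
  refine tsum_congr fun l => ?_
  simp [brcc_latticeEquiv, map_ofNat]

theorem brcc_G_conjPair (n : ℕ) : (brcc_conjPair L).G n = conj (L.G n) := by
  unfold PeriodPair.G
  rw [Complex.conj_tsum, ← (brcc_latticeEquiv L).tsum_eq]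
  refine tsum_congr fun l => ?_
  simp [brcc_latticeEquiv]

theorem brcc_g₂_conjPair : (brcc_conjPair L).g₂ = conj L.g₂ := by
  unfold PeriodPair.g₂
  rw [brcc_G_conjPair, map_mul, map_ofNat]

theorem brcc_g₃_conjPair : (brcc_conjPair L).g₃ = conj L.g₃ := by
  unfold PeriodPair.g₃
  rw [brcc_G_conjPair, map_mul, map_ofNat]

/-- **CC2.** If the invariants are real, the lattice is stable under complex conjugation. -/
theorem brcc_lattice_conj_stable (h2 : conj L.g₂ = L.g₂) (h3 : conj L.g₃ = L.g₃) :
    (brcc_conjPair L).lattice = L.lattice :=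
  brcc_lattice_eq_of_invariants _ _ (by rw [brcc_g₂_conjPair, h2]) (by rw [brcc_g₃_conjPair, h3])

theorem brcc_conj_mem_lattice (h2 : conj L.g₂ = L.g₂) (h3 : conj L.g₃ = L.g₃) {x : ℂ}
    (hx : x ∈ L.lattice) : conj x ∈ L.lattice := by
  rw [← brcc_lattice_conj_stable L h2 h3, brcc_mem_conjPair_lattice]
  simpa using hx

/-- **CC2.** With real invariants, `℘ (conj z) = conj (℘ z)`. -/
theorem brcc_weierstrassP_conj (h2 : conj L.g₂ = L.g₂) (h3 : conj L.g₃ = L.g₃) (z : ℂ) :
    ℘[L] (conj z) = conj (℘[L] z) := by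
  rw [← brcc_weierstrassP_conjPair]
  exact (brcc_weierstrassP_congr _ _ (brcc_lattice_conj_stable L h2 h3) _).symm

/-- **CC2.** With real invariants, `℘' (conj z) = conj (℘' z)`. -/
theorem brcc_derivWeierstrassP_conj (h2 : conj L.g₂ = L.g₂) (h3 : conj L.g₃ = L.g₃) (z : ℂ) :
    ℘'[L] (conj z) = conj (℘'[L] z) := by
  rw [← brcc_derivWeierstrassP_conjPair]
  exact (brcc_derivWeierstrassP_congr _ _ (brcc_lattice_conj_stable L h2 h3) _).symm

end Fermat.Agent.S41x
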