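import Mathlib
import Fermat.Prelude.Def_FLTPrelim_GaloisRep
import Fermat.Prelude.Def_FLTPrelim_Modularity
import Fermat.Prelude.Def_FLTPrelim_Ramification
import Fermat.Prelude.Def_EllipticCurve_FrobeniusTrace
import Fermat.Agent.S13x.Smooth2
import Fermat.Agent.S05x.Inertia

/-!
# S41 bridge, row BRR, second half ("FIX"), helper93

`W` an integral Weierstrass model, `A` a valuation subring of `Qbar` over `ℓ`, `φ` a Frobenius element
at `A`.  If `P = (x, y)` is a `p`-torsion point of `W(Qbar)` with integral coordinates whose reduction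
is a nonsingular `𝔽_ℓ`-rational point of `W mod ℓ`, and if all `p`-torsion points have integral
`x`-coordinate, then `φ • P = P`.

No homomorphism property of the reduction map is used: `P` and `φ • P` have congruent coordinates, so
`P - φ • P` lies in the kernel of reduction `wg_E1` (`S13x.sm2_sub_mem_E1`), whose nonzero elements have
non-integral `x`-coordinate; but `P - φ • P` is `p`-torsion.
-/

set_option autoImplicit false
open WeierstrassCurve WeierstrassCurve.Affine WeierstrassCurve.Affine.Point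

namespace Fermat.Agent.S41x

local notation "Qb" => AlgebraicClosure ℚ
local notation "GQ" => (AlgebraicClosure ℚ ≃ₐ[ℚ] AlgebraicClosure ℚ)

/-- the base change to `Qbar` of an integral model has coefficients in every valuation subring -/
theorem brf_isIntW (W : WeierstrassCurve ℤ) (A : ValuationSubring Qb) :
    S13x.IsIntW A ((W.map (Int.castRingHom ℚ))⁄Qb) where
  a₁ := by
    have : ((W.map (Int.castRingHom ℚ))⁄Qb).a₁ = ((W.a₁ : ℤ) : Qb) := by
      simp [WeierstrassCurve.baseChange]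
    rw [this]; exact S05x.val_int_le_one A _
  a₂ := by
    have : ((W.map (Int.castRingHom ℚ))⁄Qb).a₂ = ((W.a₂ : ℤ) : Qb) := by
      simp [WeierstrassCurve.baseChange]
    rw [this]; exact S05x.val_int_le_one A _
  a₃ := by
    have : ((W.map (Int.castRingHom ℚ))⁄Qb).a₃ = ((W.a₃ : ℤ) : Qb) := by
      simp [WeierstrassCurve.baseChange]
    rw [this]; exact S05x.val_int_le_one A _
  a₄ := by
    have : ((W.map (Int.castRingHom ℚ))⁄Qb).a₄ = ((W.a₄ : ℤ) : Qb) := by
      simp [WeierstrassCurve.baseChange]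
    rw [this]; exact S05x.val_int_le_one A _
  a₆ := by
    have : ((W.map (Int.castRingHom ℚ))⁄Qb).a₆ = ((W.a₆ : ℤ) : Qb) := by
      simp [WeierstrassCurve.baseChange]
    rw [this]; exact S05x.val_int_le_one A _

/-- a Frobenius element maps `A` into `A` -/
theorem brf_frob_mem {A : ValuationSubring Qb} {φ : GQ} {ℓ : ℕ} (hφ : A.IsFrobeniusAt φ ℓ)
    {a : Qb} (ha : a ∈ A) : φ a ∈ A := by
  have h := hφ.mem_decompositionSubgroup
  have : ((⟨φ, h⟩ : A.decompositionSubgroup ℚ) • (⟨a, ha⟩ : A) : A).1 = φ a := rfl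
  rw [← this]
  exact Subtype.property _

/-- residue of `φ a` is the `ℓ`-th power of the residue of `a` -/
theorem brf_residue_frob {A : ValuationSubring Qb} {φ : GQ} {ℓ : ℕ} (hφ : A.IsFrobeniusAt φ ℓ)
    {a : Qb} (ha : a ∈ A) :
    IsLocalRing.residue A ⟨φ a, brf_frob_mem hφ ha⟩ = (IsLocalRing.residue A ⟨a, ha⟩) ^ ℓ := by
  have h := hφ.mem_decompositionSubgroup
  have h1 := hφ.smul_residue_eq (IsLocalRing.residue A ⟨a, ha⟩)
  rw [← IsLocalRing.ResidueField.residue_smul] at h1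
  rw [← h1]
  rfl

/-- if the residue of `a ∈ A` is fixed by `t ↦ t ^ ℓ`, a Frobenius element moves `a` by an element of the
maximal ideal -/
theorem brf_frob_sub_lt {A : ValuationSubring Qb} {φ : GQ} {ℓ : ℕ} (hφ : A.IsFrobeniusAt φ ℓ)
    {a : Qb} (ha : a ∈ A)
    (hfix : (IsLocalRing.residue A ⟨a, ha⟩) ^ ℓ = IsLocalRing.residue A ⟨a, ha⟩) :
    A.valuation (a - φ a) < 1 := by
  have h1 := brf_residue_frob hφ ha
  rw [hfix] at h1
  have h2 : IsLocalRing.residue A (⟨a, ha⟩ - ⟨φ a, brf_frob_mem hφ ha⟩) = 0 := by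
    rw [map_sub, h1, sub_self]
  rw [IsLocalRing.residue_eq_zero_iff, A.valuation_lt_one_iff] at h2
  exact h2

/-- the Galois action on an affine point -/
theorem brf_smul_some (W : WeierstrassCurve ℤ) (φ : GQ) {x y : Qb}
    (h : ((W.map (Int.castRingHom ℚ))⁄Qb).Nonsingular x y) :
    ∃ h' : ((W.map (Int.castRingHom ℚ))⁄Qb).Nonsingular (φ x) (φ y),
      φ • (Point.some x y h : ((W.map (Int.castRingHom ℚ))⁄Qb).Point) = Point.some (φ x) (φ y) h' :=
  ⟨_, rfl⟩

/-- **FIX, valuation form.**  A `p`-torsion point with integral coordinates, congruent to its image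
under `φ`, with nonsingular reduction, is fixed by `φ` - provided all `p`-torsion points have integral
`x`-coordinate. -/
theorem brf_fix_of_val (W : WeierstrassCurve ℤ) {p : ℕ} (A : ValuationSubring Qb) (φ : GQ)
    (hint : ∀ (x y : Qb) (h : ((W.map (Int.castRingHom ℚ))⁄Qb).Nonsingular x y),
      p • (Point.some x y h : ((W.map (Int.castRingHom ℚ))⁄Qb).Point) = 0 → A.valuation x ≤ 1)
    {x y : Qb} (h : ((W.map (Int.castRingHom ℚ))⁄Qb).Nonsingular x y)
    (hP : p • (Point.some x y h : ((W.map (Int.castRingHom ℚ))⁄Qb).Point) = 0)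
    (hx : A.valuation x ≤ 1) (hy : A.valuation y ≤ 1)
    (hxx : A.valuation (x - φ x) < 1) (hyy : A.valuation (y - φ y) < 1)
    (hns : A.valuation (2 * y + ((W.a₁ : ℤ) : Qb) * x + ((W.a₃ : ℤ) : Qb)) = 1 ∨
      A.valuation (3 * x ^ 2 + 2 * ((W.a₂ : ℤ) : Qb) * x + ((W.a₄ : ℤ) : Qb)
        - ((W.a₁ : ℤ) : Qb) * y) = 1) :
    φ • (Point.some x y h : ((W.map (Int.castRingHom ℚ))⁄Qb).Point) = Point.some x y h := by
  obtain ⟨h', hφP⟩ := brf_smul_some W φ h
  have H := brf_isIntW W A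
  have e1 : ((W.map (Int.castRingHom ℚ))⁄Qb).a₁ = ((W.a₁ : ℤ) : Qb) := by
    simp [WeierstrassCurve.baseChange]
  have e2 : ((W.map (Int.castRingHom ℚ))⁄Qb).a₂ = ((W.a₂ : ℤ) : Qb) := by
    simp [WeierstrassCurve.baseChange]
  have e3 : ((W.map (Int.castRingHom ℚ))⁄Qb).a₃ = ((W.a₃ : ℤ) : Qb) := by
    simp [WeierstrassCurve.baseChange]
  have e4 : ((W.map (Int.castRingHom ℚ))⁄Qb).a₄ = ((W.a₄ : ℤ) : Qb) := by
    simp [WeierstrassCurve.baseChange]
  have hmem := S13x.sm2_sub_mem_E1 A H h h' hx hy hxx hyy (by rw [e1, e2, e3, e4]; exact hns)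
  -- the difference is `p`-torsion
  have htors : p • ((Point.some x y h : ((W.map (Int.castRingHom ℚ))⁄Qb).Point)
      - Point.some (φ x) (φ y) h') = 0 := by
    rw [nsmul_sub, hP, ← hφP]
    have : p • (φ • (Point.some x y h : ((W.map (Int.castRingHom ℚ))⁄Qb).Point))
        = φ • (p • (Point.some x y h : ((W.map (Int.castRingHom ℚ))⁄Qb).Point)) := by
      have := algEquiv_smul_zsmul (S := ℚ) (W' := (W.map (Int.castRingHom ℚ)).toAffine) φ (p : ℤ)
        (Point.some x y h : ((W.map (Int.castRingHom ℚ))⁄Qb).Point)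
      simpa using this.symm
    rw [this, hP]
    exact sub_eq_zero.mpr rfl
  rw [hφP]
  rcases hmem with h0 | hlt
  · exact (sub_eq_zero.mp h0).symm
  · exfalso
    have hne : (Point.some x y h : ((W.map (Int.castRingHom ℚ))⁄Qb).Point)
        - Point.some (φ x) (φ y) h' ≠ 0 := by
      intro h0
      rw [h0] at hlt
      simp only [S13x.wgX] at hlt
      rw [_root_.map_zero] at hlt
      exact absurd hlt (not_lt.mpr zero_le_one)
    obtain ⟨x', y', h'', hQ⟩ := S13x.wg_exists_some hne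
    rw [hQ] at htors hlt
    rw [S13x.wgX_some] at hlt
    exact absurd (hint x' y' h'' htors) (not_le.mpr hlt)

/-- an element of `A` with nonzero residue has valuation one -/
theorem brf_val_eq_one_of_residue_ne_zero {A : ValuationSubring Qb} (a : A)
    (h : IsLocalRing.residue A a ≠ 0) : A.valuation (a : Qb) = 1 := by
  have hu : IsUnit a := by
    by_contra hnu
    exact h ((IsLocalRing.residue_eq_zero_iff a).mpr ((IsLocalRing.mem_maximalIdeal a).mpr hnu))
  exact (A.valuation_eq_one_iff a).mp hu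

/-- **FIX, residue form.**  `P = (x, y)` a `p`-torsion point with coordinates in `A` whose residues are
the images of the coordinates of a nonsingular point `(x', y')` of `W mod ℓ` over `𝔽_ℓ`; all `p`-torsion
points have integral `x`-coordinate.  Then every Frobenius element at `A` fixes `P`. -/
theorem brf_fix (W : WeierstrassCurve ℤ) {p ℓ : ℕ} [Fact ℓ.Prime]
    (A : ValuationSubring Qb) (φ : GQ) (hφ : A.IsFrobeniusAt φ ℓ)
    (hint : ∀ (x y : Qb) (h : ((W.map (Int.castRingHom ℚ))⁄Qb).Nonsingular x y),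
      p • (Point.some x y h : ((W.map (Int.castRingHom ℚ))⁄Qb).Point) = 0 → A.valuation x ≤ 1)
    (ι : ZMod ℓ →+* IsLocalRing.ResidueField A)
    {x y : Qb} (h : ((W.map (Int.castRingHom ℚ))⁄Qb).Nonsingular x y)
    (hP : p • (Point.some x y h : ((W.map (Int.castRingHom ℚ))⁄Qb).Point) = 0)
    (hx : x ∈ A) (hy : y ∈ A) {x' y' : ZMod ℓ}
    (hns : (W.map (Int.castRingHom (ZMod ℓ))).toAffine.Nonsingular x' y')
    (hrx : IsLocalRing.residue A ⟨x, hx⟩ = ι x') (hry : IsLocalRing.residue A ⟨y, hy⟩ = ι y') :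
    φ • (Point.some x y h : ((W.map (Int.castRingHom ℚ))⁄Qb).Point) = Point.some x y h := by
  have hιpow : ∀ t : ZMod ℓ, (ι t) ^ ℓ = ι t := fun t => by rw [← map_pow, ZMod.pow_card]
  have hxx : A.valuation (x - φ x) < 1 := brf_frob_sub_lt hφ hx (by rw [hrx]; exact hιpow x')
  have hyy : A.valuation (y - φ y) < 1 := brf_frob_sub_lt hφ hy (by rw [hry]; exact hιpow y')
  have hxv : A.valuation x ≤ 1 := (A.valuation_le_one_iff x).mpr hx
  have hyv : A.valuation y ≤ 1 := (A.valuation_le_one_iff y).mpr hy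
  refine brf_fix_of_val W A φ hint h hP hxv hyv hxx hyy ?_
  -- nonsingularity of the reduction
  have hns' := ((W.map (Int.castRingHom (ZMod ℓ))).toAffine.nonsingular_iff' x' y').mp hns
  simp only [WeierstrassCurve.map_a₁, WeierstrassCurve.map_a₂, WeierstrassCurve.map_a₃,
    WeierstrassCurve.map_a₄, eq_intCast] at hns'
  obtain ⟨X, hX⟩ : ∃ X : A, X = ⟨x, hx⟩ := ⟨_, rfl⟩
  obtain ⟨Y, hY⟩ : ∃ Y : A, Y = ⟨y, hy⟩ := ⟨_, rfl⟩
  rw [← hX] at hrx
  rw [← hY] at hry
  have hXc : (X : Qb) = x := by rw [hX]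
  have hYc : (Y : Qb) = y := by rw [hY]
  rcases hns'.2 with h1 | h1
  · right
    have hι : ι (((W.a₁ : ℤ) : ZMod ℓ) * y' - (3 * x' ^ 2 + 2 * ((W.a₂ : ℤ) : ZMod ℓ) * x'
        + ((W.a₄ : ℤ) : ZMod ℓ))) ≠ 0 := fun h0 => h1 (ι.injective (by rw [h0, _root_.map_zero]))
    set E : A := 3 * X ^ 2 + 2 * ((W.a₂ : ℤ) : A) * X + ((W.a₄ : ℤ) : A) - ((W.a₁ : ℤ) : A) * Y
      with hE
    have hEc : (E : Qb) = 3 * x ^ 2 + 2 * ((W.a₂ : ℤ) : Qb) * x + ((W.a₄ : ℤ) : Qb)
        - ((W.a₁ : ℤ) : Qb) * y := by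
      rw [hE]; push_cast; rw [hXc, hYc]; norm_cast
    have hEr : IsLocalRing.residue A E ≠ 0 := by
      intro h0
      apply hι
      have : IsLocalRing.residue A E = -(ι (((W.a₁ : ℤ) : ZMod ℓ) * y' - (3 * x' ^ 2
          + 2 * ((W.a₂ : ℤ) : ZMod ℓ) * x' + ((W.a₄ : ℤ) : ZMod ℓ)))) := by
        rw [hE]
        simp only [map_sub, map_add, map_mul, map_pow, map_intCast, map_ofNat, hrx, hry]
        ring
      rw [this, neg_eq_zero] at h0
      exact h0
    rw [← hEc]
    exact brf_val_eq_one_of_residue_ne_zero E hEr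
  · left
    have hι : ι (2 * y' + ((W.a₁ : ℤ) : ZMod ℓ) * x' + ((W.a₃ : ℤ) : ZMod ℓ)) ≠ 0 :=
      fun h0 => h1 (ι.injective (by rw [h0, _root_.map_zero]))
    set E : A := 2 * Y + ((W.a₁ : ℤ) : A) * X + ((W.a₃ : ℤ) : A) with hE
    have hEc : (E : Qb) = 2 * y + ((W.a₁ : ℤ) : Qb) * x + ((W.a₃ : ℤ) : Qb) := by
      rw [hE]; push_cast; rw [hXc, hYc]; norm_cast
    have hEr : IsLocalRing.residue A E ≠ 0 := by
      intro h0
      apply hι
      have : IsLocalRing.residue A E = ι (2 * y' + ((W.a₁ : ℤ) : ZMod ℓ) * x'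
          + ((W.a₃ : ℤ) : ZMod ℓ)) := by
        rw [hE]
        simp only [map_add, map_mul, map_intCast, map_ofNat, hrx, hry]
      rw [this] at h0
      exact h0
    rw [← hEc]
    exact brf_val_eq_one_of_residue_ne_zero E hEr

end Fermat.Agent.S41x
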