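import Mathlib

/-!
# S41 bridge, row BR-G (helper66): an irreducible subgroup of `GL₂(𝔽_p)` contains an element of prime
order `r ≠ p` without eigenvalue `1`

`brg_exists_fixedPointFree` is the exact statement `BridgeSpec.brg_exists_fixedPointFree`.
-/

set_option autoImplicit false
open Polynomial

namespace Fermat.Agent.S41x

section Core
variable {p : ℕ} [Fact p.Prime] {V : Type*} [AddCommGroup V] [Module (ZMod p) V]

/-- a `ZMod p`-module with `p ^ 2` elements is finite of rank 2 -/
theorem brg_finite_of_card (hcard : Nat.card V = p ^ 2) : Finite V :=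
  Nat.finite_of_card_ne_zero (by rw [hcard]; exact pow_ne_zero 2 (Fact.out : p.Prime).ne_zero)

theorem brg_finrank_of_card (hcard : Nat.card V = p ^ 2) : Module.finrank (ZMod p) V = 2 := by
  haveI := brg_finite_of_card hcard
  have h := Module.natCard_eq_pow_finrank (K := ZMod p) (V := V)
  rw [hcard, Nat.card_zmod] at h
  exact (Nat.pow_right_injective (Fact.out : p.Prime).two_le h).symm

/-- an endomorphism of a 2-dimensional space with determinant `1` and a nonzero fixed vector
satisfies `(f - 1) ^ 2 = 0` -/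
theorem brg_sub_one_sq (hcard : Nat.card V = p ^ 2) (f : V →ₗ[ZMod p] V) (hdet : LinearMap.det f = 1)
    {v : V} (hv : v ≠ 0) (hfv : f v = v) : (f - 1) * (f - 1) = 0 := by
  haveI := brg_finite_of_card hcard
  haveI : Module.Finite (ZMod p) V := Module.Finite.of_finite
  have hrk := brg_finrank_of_card hcard
  have hmon := f.charpoly_monic
  have hdeg : f.charpoly.natDegree = 2 := by rw [LinearMap.charpoly_natDegree, hrk]
  have hc0 : f.charpoly.coeff 0 = 1 := by
    have h := LinearMap.det_eq_sign_charpoly_coeff f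
    rw [hdet, hrk] at h
    simpa using h.symm
  have hroot : f.charpoly.IsRoot 1 := by
    rw [← Module.End.hasEigenvalue_iff_isRoot_charpoly]
    exact Module.End.hasEigenvalue_of_hasEigenvector ⟨by
      rw [Module.End.mem_eigenspace_iff, one_smul]; exact hfv, hv⟩
  have hc2 : f.charpoly.coeff 2 = 1 := by
    have := hmon.coeff_natDegree; rwa [hdeg] at this
  have hform : f.charpoly = X ^ 2 + C (f.charpoly.coeff 1) * X + C 1 := by
    ext n
    rcases n with _ | _ | _ | n
    · simp [hc0]
    · simp [coeff_X_pow, coeff_one]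
    · simp [hc2, coeff_X_pow, coeff_X, coeff_one]
    · have : f.charpoly.coeff (n + 3) = 0 :=
        coeff_eq_zero_of_natDegree_lt (by rw [hdeg]; omega)
      rw [this]
      simp [coeff_X_pow, coeff_X, coeff_one]
  have hc1 : f.charpoly.coeff 1 = -2 := by
    have h := hroot
    rw [IsRoot.def, hform] at h
    simp at h
    linear_combination h
  have hCH := f.aeval_self_charpoly
  rw [hform, hc1] at hCH
  simp only [map_add, map_mul, map_pow, aeval_X, aeval_C, map_neg, map_one, map_ofNat] at hCH
  have h2 : (f - 1) * (f - 1) = f ^ 2 + -2 * f + 1 := by noncomm_ring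
  rw [h2]
  exact hCH

theorem brg_pow_eq_of_sq_zero (f : Module.End (ZMod p) V) (h : (f - 1) * (f - 1) = 0) (k : ℕ) :
    f ^ k = 1 + k • (f - 1) := by
  induction k with
  | zero => simp
  | succ k ih =>
    rw [pow_succ, ih]
    have : (1 + k • (f - 1)) * f = 1 + (k + 1) • (f - 1) + k • ((f - 1) * (f - 1)) := by
      simp only [add_smul, one_smul, smul_mul_assoc, mul_sub, mul_one, sub_mul, one_mul, add_mul,
        smul_sub]
      abel
    rw [this, h, smul_zero, add_zero]

theorem brg_pow_p_eq_one (f : Module.End (ZMod p) V) (h : (f - 1) * (f - 1) = 0) : f ^ p = 1 := by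
  rw [brg_pow_eq_of_sq_zero f h p]
  have : (p : ℕ) • (f - 1) = 0 := by
    rw [← Nat.cast_smul_eq_nsmul (ZMod p), ZMod.natCast_self, zero_smul]
  rw [this, add_zero]


/-- `X ^ p - X` splits over `ZMod p` -/
theorem brg_splits_X_pow_sub_X : (X ^ p - X : (ZMod p)[X]).Splits := by
  rw [splits_iff_card_roots]
  have h1 : (X ^ p - X : (ZMod p)[X]).natDegree = p :=
    FiniteField.X_pow_card_sub_X_natDegree_eq (ZMod p) (Fact.out : p.Prime).one_lt
  have h2 := FiniteField.roots_X_pow_card_sub_X (ZMod p)
  rw [ZMod.card p] at h2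
  rw [h1, h2]
  simp [ZMod.card p]

/-- an endomorphism with `f ^ p = f` of a nonzero finite module over `ZMod p` has an eigenvalue -/
theorem brg_exists_eigenvalue [Module.Finite (ZMod p) V] [Nontrivial V] (f : Module.End (ZMod p) V)
    (hf : f ^ p = f) : ∃ μ : ZMod p, f.HasEigenvalue μ := by
  have hdvd : minpoly (ZMod p) f ∣ (X ^ p - X : (ZMod p)[X]) := by
    apply minpoly.dvd
    simp [hf]
  have hne : (X ^ p - X : (ZMod p)[X]) ≠ 0 :=
    FiniteField.X_pow_card_sub_X_ne_zero (ZMod p) (Fact.out : p.Prime).one_lt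
  have hsp : (minpoly (ZMod p) f).Splits := brg_splits_X_pow_sub_X.of_dvd hne hdvd
  have hint : IsIntegral (ZMod p) f := Algebra.IsIntegral.isIntegral f
  have hdeg : (minpoly (ZMod p) f).degree ≠ 0 := by
    have := minpoly.degree_pos hint
    exact this.ne'
  obtain ⟨μ, hμ⟩ := hsp.exists_eval_eq_zero hdeg
  exact ⟨μ, Module.End.hasEigenvalue_of_isRoot hμ⟩

end Core

theorem brg_exists_fixedPointFree {p : ℕ} [Fact p.Prime]
    {G : Type*} [Group G] {V : Type*} [AddCommGroup V] [Module (ZMod p) V]
    [DistribMulAction G V] [SMulCommClass G (ZMod p) V]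
    (hcard : Nat.card V = p ^ 2)
    (hirr : ∀ N : Submodule (ZMod p) V, (∀ g : G, ∀ x ∈ N, g • x ∈ N) → N = ⊥ ∨ N = ⊤) :
    ∃ (g : G) (r : ℕ), r.Prime ∧ r ≠ p ∧ (∀ v : V, g ^ r • v = v) ∧ (∀ v : V, g • v = v → v = 0) := by
  classical
  have hp : p.Prime := Fact.out
  have hfin : Finite V := brg_finite_of_card hcard
  have hmf : Module.Finite (ZMod p) V := Module.Finite.of_finite
  have hrk := brg_finrank_of_card hcard
  have hnt : Nontrivial V := by
    rw [← Finite.one_lt_card_iff_nontrivial, hcard]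
    exact Nat.one_lt_pow (by norm_num) hp.one_lt
  haveI : Finite (V ≃ₗ[ZMod p] V) :=
    Finite.of_injective (fun e : V ≃ₗ[ZMod p] V => (e : V → V)) DFunLike.coe_injective
  let ρ : G →* (V ≃ₗ[ZMod p] V) := DistribMulAction.toModuleAut (ZMod p) V
  have hρ : ∀ g v, ρ g v = g • v := fun _ _ => rfl
  let H : Subgroup (V ≃ₗ[ZMod p] V) := ρ.range
  let d : H →* (ZMod p)ˣ := LinearEquiv.det.comp H.subtype
  let N : Subgroup H := d.ker
  by_cases hN : ∃ r : ℕ, r.Prime ∧ r ≠ p ∧ r ∣ Nat.card N
  · obtain ⟨r, hr, hrp, hdvd⟩ := hN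
    haveI := Fact.mk hr
    obtain ⟨n, hn⟩ := exists_prime_orderOf_dvd_card' r hdvd
    obtain ⟨g, hg⟩ := n.1.2
    have hnr : n ^ r = 1 := by rw [← hn]; exact pow_orderOf_eq_one n
    have her : (n.1.1) ^ r = 1 := by
      have := congrArg (fun x : N => (x.1.1 : V ≃ₗ[ZMod p] V)) hnr
      simpa using this
    refine ⟨g, r, hr, hrp, ?_, ?_⟩
    · intro v
      rw [← hρ, map_pow, hg, her]
      rfl
    · intro v hv
      by_contra hv0
      set f : V →ₗ[ZMod p] V := (n.1.1 : V ≃ₗ[ZMod p] V).toLinearMap with hf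
      have hfv : f v = v := by
        rw [hf, LinearEquiv.coe_coe, ← hg, hρ]; exact hv
      have hdet : LinearMap.det f = 1 := by
        have h1 : d n.1 = 1 := n.2
        have h2 : ((LinearEquiv.det (n.1.1 : V ≃ₗ[ZMod p] V) : (ZMod p)ˣ) : ZMod p) = 1 := by
          have : LinearEquiv.det (n.1.1 : V ≃ₗ[ZMod p] V) = 1 := h1
          rw [this]; rfl
        rw [← h2, LinearEquiv.coe_det]
      have hsq := brg_sub_one_sq hcard f hdet hv0 hfv
      have hfp : f ^ p = 1 := brg_pow_p_eq_one f hsq
      have hep : (n.1.1) ^ p = 1 := by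
        apply LinearEquiv.toLinearMap_injective
        have h1 : ((n.1.1 : V ≃ₗ[ZMod p] V) ^ p).toLinearMap = f ^ p :=
          map_pow (LinearEquiv.automorphismGroup.toLinearMapMonoidHom (R := ZMod p) (M := V)) _ p
        rw [h1, hfp]
        rfl
      have hnp : n ^ p = 1 := by
        apply Subtype.ext
        apply Subtype.ext
        simpa using hep
      have h1 : orderOf n ∣ p := orderOf_dvd_of_pow_eq_one hnp
      rw [hn] at h1
      exact hrp ((Nat.prime_dvd_prime_iff_eq hr hp).mp h1)
  · exfalso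
    -- `N` is a `p`-group
    have hNp : IsPGroup p N := by
      have hc0 : Nat.card N ≠ 0 := Nat.card_pos.ne'
      have := Nat.eq_prime_pow_of_unique_prime_dvd hc0 (p := p) (fun {q} hq hqd => by
        by_contra hqp
        exact hN ⟨q, hq, hqp, hqd⟩)
      exact IsPGroup.of_card this
    -- the fixed subspace of `N`
    let W : Submodule (ZMod p) V :=
      { carrier := {x | ∀ n : N, (n.1.1 : V ≃ₗ[ZMod p] V) x = x}
        add_mem' := fun {a b} ha hb n => by rw [map_add, ha n, hb n]
        zero_mem' := fun n => map_zero _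
        smul_mem' := fun c x hx n => by rw [map_smul, hx n] }
    have hWstab : ∀ g : G, ∀ x ∈ W, g • x ∈ W := by
      intro g x hx n
      let h : H := ⟨ρ g, ⟨g, rfl⟩⟩
      have hn' : h⁻¹ * n.1 * h ∈ N := by
        simpa using (inferInstance : N.Normal).conj_mem n.1 n.2 h⁻¹
      have h1 := hx ⟨h⁻¹ * n.1 * h, hn'⟩
      have h2 : ((h⁻¹ * n.1 * h : H).1 : V ≃ₗ[ZMod p] V) x = (ρ g)⁻¹ ((n.1.1 : V ≃ₗ[ZMod p] V) (ρ g x)) := rfl
      rw [h2] at h1
      have h3 := congrArg (ρ g) h1
      have h4 : ρ g ((ρ g)⁻¹ ((n.1.1 : V ≃ₗ[ZMod p] V) (ρ g x))) = (n.1.1 : V ≃ₗ[ZMod p] V) (ρ g x) := by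
        change (ρ g * (ρ g)⁻¹) ((n.1.1 : V ≃ₗ[ZMod p] V) (ρ g x)) = _
        rw [mul_inv_cancel]
        rfl
      rw [h4] at h3
      exact h3
    have hWne : W ≠ ⊥ := by
      have hpV : p ∣ Nat.card V := by rw [hcard]; exact dvd_pow_self p two_ne_zero
      have h0 : (0 : V) ∈ MulAction.fixedPoints N V := fun n => by
        change (n.1.1 : V ≃ₗ[ZMod p] V) 0 = 0
        exact map_zero _
      obtain ⟨b, hb, hb0⟩ := hNp.exists_fixed_point_of_prime_dvd_card_of_fixed_point V hpV h0
      intro hbot
      have hbW : b ∈ W := fun n => hb n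
      rw [hbot, Submodule.mem_bot] at hbW
      exact hb0 hbW.symm
    have hWtop : W = ⊤ := (hirr W hWstab).resolve_left hWne
    -- hence `N` is trivial and `d` is injective
    have hNbot : ∀ n : N, n = 1 := by
      intro n
      apply Subtype.ext
      apply Subtype.ext
      ext x
      have : x ∈ W := by rw [hWtop]; trivial
      exact this n
    have hdinj : Function.Injective d := by
      rw [injective_iff_map_eq_one]
      intro h hh
      have := hNbot ⟨h, hh⟩
      exact congrArg Subtype.val this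
    -- every element of `H` is killed by `p - 1` and `H` is commutative
    have hpow : ∀ h : H, h ^ p = h := by
      intro h
      apply hdinj
      rw [map_pow]
      have h1 : (d h) ^ (p - 1) = 1 := ZMod.units_pow_card_sub_one_eq_one p (d h)
      calc (d h) ^ p = (d h) ^ (p - 1 + 1) := by rw [Nat.sub_add_cancel hp.one_le]
        _ = d h := by rw [pow_succ, h1, one_mul]
    have hcomm : ∀ h₁ h₂ : H, h₁ * h₂ = h₂ * h₁ := by
      intro h₁ h₂
      apply hdinj
      rw [map_mul, map_mul, mul_comm]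
    -- every element of `H` acts as a scalar
    have hscal : ∀ h : H, ∃ μ : ZMod p, ∀ x : V, (h.1 : V ≃ₗ[ZMod p] V) x = μ • x := by
      intro h
      set f : Module.End (ZMod p) V := (h.1 : V ≃ₗ[ZMod p] V).toLinearMap with hf
      have hfp : f ^ p = f := by
        have h1 : ((h.1 : V ≃ₗ[ZMod p] V) ^ p).toLinearMap = f ^ p :=
          map_pow (LinearEquiv.automorphismGroup.toLinearMapMonoidHom (R := ZMod p) (M := V)) _ p
        rw [← h1]
        have h2 := congrArg (fun k : H => (k.1 : V ≃ₗ[ZMod p] V)) (hpow h)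
        simp only [Subgroup.coe_pow] at h2
        rw [h2]
      obtain ⟨μ, hμ⟩ := brg_exists_eigenvalue f hfp
      refine ⟨μ, ?_⟩
      have hEstab : ∀ g : G, ∀ x ∈ Module.End.eigenspace f μ, g • x ∈ Module.End.eigenspace f μ := by
        intro g x hx
        rw [Module.End.mem_eigenspace_iff] at hx ⊢
        let k : H := ⟨ρ g, ⟨g, rfl⟩⟩
        have hc := hcomm h k
        have hc' := congrArg (fun k : H => (k.1 : V ≃ₗ[ZMod p] V) x) hc
        simp only [Subgroup.coe_mul, LinearEquiv.mul_apply] at hc'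
        change (h.1 : V ≃ₗ[ZMod p] V) (ρ g x) = μ • ρ g x
        change (h.1 : V ≃ₗ[ZMod p] V) (ρ g x) = ρ g ((h.1 : V ≃ₗ[ZMod p] V) x) at hc'
        rw [hc']
        have hx' : (h.1 : V ≃ₗ[ZMod p] V) x = μ • x := hx
        rw [hx', map_smul]
      have hE := (hirr _ hEstab).resolve_left hμ
      intro x
      have hx : x ∈ Module.End.eigenspace f μ := by rw [hE]; trivial
      rw [Module.End.mem_eigenspace_iff] at hx
      exact hx
    -- a line is stable
    obtain ⟨b, hb⟩ := exists_ne (0 : V)
    have hLstab : ∀ g : G, ∀ x ∈ Submodule.span (ZMod p) {b}, g • x ∈ Submodule.span (ZMod p) {b} := by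
      intro g x hx
      obtain ⟨μ, hμ⟩ := hscal ⟨ρ g, ⟨g, rfl⟩⟩
      have : g • x = μ • x := hμ x
      rw [this]
      exact Submodule.smul_mem _ _ hx
    rcases hirr _ hLstab with h | h
    · have : b ∈ Submodule.span (ZMod p) {b} := Submodule.mem_span_singleton_self b
      rw [h, Submodule.mem_bot] at this
      exact hb this
    · have h1 : Module.finrank (ZMod p) (Submodule.span (ZMod p) {b}) = 1 := finrank_span_singleton hb
      rw [h, finrank_top, hrk] at h1
      omega

end Fermat.Agent.S41x
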