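/-
S41 bridge, Kummer dictionary (helper36; own-risk item for helper74's "BRIDGE-prime", doc
`S41_D2prime_hecke_route_helper74`): if `ℓ ≡ 1 mod p`, `ℓ ∤ q` and `q` is a `p`-th power modulo `ℓ`, then a
Frobenius element at `ℓ` fixes every `p`-th root `θ` of `q` in `ℚ̄`.  Contrapositive: a Frobenius element
moving `q^{1/p}` certifies that `q` is NOT a `p`-th power modulo `ℓ`.

Same style as `S41x/BridgeCyc.lean` (row CYC, helper13), whose local lemmas are reused.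
Main statements (prefix `brku_`):
* `brku_frobenius_fixes_root`      : `q ≡ y ^ p [ZMOD ℓ]` ⟹ `φ θ = θ`
* `brku_not_pow_of_frobenius_moves`: `φ θ ≠ θ` ⟹ `¬ ∃ y, (ℓ : ℤ) ∣ y ^ p - q`
-/
import Mathlib
import Fermat.Prelude.Def_EllipticCurve_FrobeniusTrace
import Fermat.Agent.S41x.BridgeCyc

set_option autoImplicit false

namespace Fermat.Agent.S41x

open ValuationSubring

section local_ring

variable {L : Type*} [Field L]

/-- an element of a field some power of which lies in a valuation subring lies in it. -/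
theorem brku_mem_of_pow_mem (A : ValuationSubring L) {x : L} {n : ℕ} (hn : n ≠ 0) (hx : x ^ n ∈ A) :
    x ∈ A := by
  rw [← A.valuation_le_one_iff] at hx ⊢
  rw [map_pow] at hx
  by_contra h
  exact absurd hx (not_le.2 (one_lt_pow₀ (not_le.1 h) hn))

/-- an integer prime to `ℓ` is a unit in a valuation subring lying over `ℓ`. -/
theorem brku_int_isUnit (A : ValuationSubring L) {ℓ : ℕ} (hℓ : ℓ.Prime) (hA : A.LiesOverPrime ℓ)
    {q : ℤ} (hq : ¬ (ℓ : ℤ) ∣ q) : IsUnit ((q : ℤ) : A) := by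
  have hℓm : ((ℓ : ℕ) : A) ∈ IsLocalRing.maximalIdeal A := by
    obtain ⟨ha, hm⟩ := mem_nonunits_iff_exists_mem_maximalIdeal.1 hA
    have : (⟨(ℓ : L), ha⟩ : A) = ((ℓ : ℕ) : A) := Subtype.ext (by simp)
    rwa [this] at hm
  by_contra hu
  have hqm : ((q : ℤ) : A) ∈ IsLocalRing.maximalIdeal A := (IsLocalRing.mem_maximalIdeal _).2 hu
  have hcop : IsCoprime q (ℓ : ℤ) :=
    ((Nat.prime_iff_prime_int.1 hℓ).coprime_iff_not_dvd.2 hq).symm
  obtain ⟨a, b, hab⟩ := hcop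
  have hone : (1 : A) ∈ IsLocalRing.maximalIdeal A := by
    have h1 : (1 : A) = ((a : ℤ) : A) * ((q : ℤ) : A) + ((b : ℤ) : A) * ((ℓ : ℕ) : A) := by
      have := congrArg (fun z : ℤ => (z : A)) hab
      simpa using this.symm
    rw [h1]
    exact Ideal.add_mem _ (Ideal.mul_mem_left _ _ hqm) (Ideal.mul_mem_left _ _ hℓm)
  exact (IsLocalRing.maximalIdeal A).ne_top_iff_one.1 (IsLocalRing.maximalIdeal.isMaximal A).ne_top hone

end local_ring

section frob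

/-- **KUM**: if `ℓ ≡ 1 mod p`, `ℓ ∤ q` and `q ≡ y ^ p mod ℓ`, then a Frobenius element at `ℓ` fixes every
`p`-th root of `q`. -/
theorem brku_frobenius_fixes_root {p ℓ : ℕ} (hp : p ≠ 0) (hℓ : ℓ.Prime) (hℓp : ℓ ≡ 1 [MOD p])
    {q : ℤ} (hqℓ : ¬ (ℓ : ℤ) ∣ q) {y : ℤ} (hy : (ℓ : ℤ) ∣ y ^ p - q)
    (A : ValuationSubring brcy_Qb) (hA : A.LiesOverPrime ℓ) (φ : brcy_GQ) (hφ : A.IsFrobeniusAt φ ℓ)
    {θ : brcy_Qb} (hθ : θ ^ p = (q : brcy_Qb)) : φ θ = θ := by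
  -- `p` is prime to `ℓ`
  have hpℓ : ¬ ℓ ∣ p := by
    intro h
    have h1 : ℓ ∣ 1 := by
      have h2 : ℓ ≡ 1 [MOD ℓ] := hℓp.of_dvd h
      have h3 : (ℓ : ℕ) ≡ 0 [MOD ℓ] := Nat.modEq_zero_iff_dvd.2 dvd_rfl
      exact (Nat.modEq_zero_iff_dvd.1 (h2.symm.trans h3))
    exact hℓ.one_lt.ne' (Nat.dvd_one.1 h1)
  have hcop : Nat.Coprime p ℓ := (Nat.Coprime.symm ((Nat.Prime.coprime_iff_not_dvd hℓ).2 hpℓ))
  -- `θ ∈ A`
  have hqA : ((q : ℤ) : brcy_Qb) ∈ A := by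
    have : ((q : ℤ) : brcy_Qb) = (((q : ℤ) : A) : brcy_Qb) := by simp
    rw [this]; exact Subtype.mem _
  have hθA : θ ∈ A := brku_mem_of_pow_mem A hp (by rw [hθ]; exact hqA)
  set z : A := ⟨θ, hθA⟩ with hz
  have hzp : z ^ p = ((q : ℤ) : A) := Subtype.ext (by simpa [hz] using hθ)
  have hqunit : IsUnit ((q : ℤ) : A) := brku_int_isUnit A hℓ hA hqℓ
  have hzunit : IsUnit z := by
    have : IsUnit (z ^ p) := by rw [hzp]; exact hqunit
    exact (isUnit_pow_iff hp).1 this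
  -- `ℓ ∈ 𝔪`
  have hℓm : ((ℓ : ℕ) : A) ∈ IsLocalRing.maximalIdeal A := by
    obtain ⟨ha, hm⟩ := mem_nonunits_iff_exists_mem_maximalIdeal.1 hA
    have : (⟨(ℓ : brcy_Qb), ha⟩ : A) = ((ℓ : ℕ) : A) := Subtype.ext (by simp)
    rwa [this] at hm
  -- `y ^ p - q ∈ 𝔪`, `y ^ (ℓ - 1) - 1 ∈ 𝔪`
  have hdvd_mem : ∀ a : ℤ, (ℓ : ℤ) ∣ a → ((a : ℤ) : A) ∈ IsLocalRing.maximalIdeal A := by
    rintro a ⟨b, rfl⟩
    have : (((ℓ : ℤ) * b : ℤ) : A) = ((ℓ : ℕ) : A) * ((b : ℤ) : A) := by push_cast; ring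
    rw [this]
    exact Ideal.mul_mem_right _ _ hℓm
  have hyℓ : ¬ (ℓ : ℤ) ∣ y := by
    intro h
    apply hqℓ
    have h1 : (ℓ : ℤ) ∣ y ^ p := dvd_pow h hp
    have h2 := dvd_sub h1 hy
    simpa using h2
  have hfermat : (ℓ : ℤ) ∣ y ^ (ℓ - 1) - 1 := by
    have hcopy : IsCoprime y (ℓ : ℤ) :=
      ((Nat.prime_iff_prime_int.1 hℓ).coprime_iff_not_dvd.2 hyℓ).symm
    have := Int.ModEq.pow_card_sub_one_eq_one hℓ hcopy
    exact (Int.modEq_iff_dvd.1 this.symm)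
  -- residues
  have hres_eq : ∀ a b : A, a - b ∈ IsLocalRing.maximalIdeal A →
      IsLocalRing.residue A a = IsLocalRing.residue A b := by
    intro a b h
    have := (IsLocalRing.residue_eq_zero_iff (a - b)).2 h
    rwa [map_sub, sub_eq_zero] at this
  obtain ⟨t, ht⟩ : ∃ t, ℓ - 1 = p * t := by
    have := (Nat.modEq_iff_dvd' hℓ.one_lt.le).1 hℓp.symm
    exact this
  have hzres : IsLocalRing.residue A (z ^ ℓ) = IsLocalRing.residue A z := by
    have h1 : IsLocalRing.residue A (z ^ (ℓ - 1)) = 1 := by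
      rw [ht, pow_mul, hzp]
      have h2 : IsLocalRing.residue A (((q : ℤ) : A)) = IsLocalRing.residue A (((y : ℤ) : A) ^ p) := by
        apply (hres_eq _ _ _).symm
        have := hdvd_mem _ hy
        simpa using this
      rw [map_pow, h2, ← map_pow, ← pow_mul, ← ht]
      have := hres_eq _ _ (by simpa using hdvd_mem _ hfermat : ((y : ℤ) : A) ^ (ℓ - 1) - 1 ∈ _)
      rw [this, map_one]
    have h3 : z ^ ℓ = z ^ (ℓ - 1) * z := by
      rw [← pow_succ, Nat.sub_add_cancel hℓ.one_lt.le]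
    rw [h3, map_mul, h1, one_mul]
  -- Frobenius
  have hφmem := hφ.mem_decompositionSubgroup
  have hres := hφ.smul_residue_eq (IsLocalRing.residue A z)
  have hφθA : φ θ ∈ A := by
    apply brku_mem_of_pow_mem A hp
    rw [← map_pow, hθ]
    have : φ ((q : ℤ) : brcy_Qb) = ((q : ℤ) : brcy_Qb) := by simp
    rw [this]; exact hqA
  set z' : A := ⟨φ θ, hφθA⟩ with hz'
  have hact : ((⟨φ, hφmem⟩ : A.decompositionSubgroup ℚ) • z : A) = z' := by
    apply Subtype.ext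
    rfl
  have hres' : IsLocalRing.residue A z' = IsLocalRing.residue A z := by
    rw [← hzres, map_pow, ← hres, ← hact]
    rfl
  have hmem : z' - z ∈ IsLocalRing.maximalIdeal A := by
    rw [← IsLocalRing.residue_eq_zero_iff, map_sub, hres', sub_self]
  -- `w = z' / z` is a `p`-th root of unity congruent to `1`
  obtain ⟨u, hu⟩ := hzunit
  set w : A := z' * ((u⁻¹ : Aˣ) : A) with hw
  have hz'p : z' ^ p = ((q : ℤ) : A) := by
    apply Subtype.ext
    have h1 : ((z' ^ p : A) : brcy_Qb) = (φ θ) ^ p := by simp [hz']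
    rw [h1, ← map_pow, hθ]
    simp
  have hwz : w * z = z' := by
    rw [hw, ← hu, mul_assoc, Units.inv_mul, mul_one]
  have hwp : w ^ p = 1 := by
    have h1 : w ^ p * z ^ p = z ^ p := by rw [← mul_pow, hwz, hz'p, hzp]
    have h2 : IsUnit (z ^ p) := by rw [hzp]; exact hqunit
    exact (h2.mul_left_inj).1 (by rw [h1, one_mul])
  have hw1 : w - 1 ∈ IsLocalRing.maximalIdeal A := by
    have h1 : z' - z = (w - 1) * z := by rw [sub_mul, hwz, one_mul]
    rw [h1] at hmem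
    rcases (IsLocalRing.maximalIdeal.isMaximal A).isPrime.mem_or_mem hmem with h | h
    · exact h
    · exact absurd (⟨u, hu⟩ : IsUnit z) ((IsLocalRing.mem_maximalIdeal _).1 h)
  have hw_one : w = 1 := brcy_eq_one_of_sub_one_mem hcop hℓm hwp hw1
  rw [hw_one, one_mul] at hwz
  have := congrArg (fun a : A => (a : brcy_Qb)) hwz
  simpa [hz, hz'] using this.symm

/-- **KUM**, contrapositive: a Frobenius element at `ℓ ≡ 1 mod p`, `ℓ ∤ q`, moving a `p`-th root of `q`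
certifies that `q` is not a `p`-th power modulo `ℓ`. -/
theorem brku_not_pow_of_frobenius_moves {p ℓ : ℕ} (hp : p ≠ 0) (hℓ : ℓ.Prime) (hℓp : ℓ ≡ 1 [MOD p])
    {q : ℤ} (hqℓ : ¬ (ℓ : ℤ) ∣ q)
    (A : ValuationSubring brcy_Qb) (hA : A.LiesOverPrime ℓ) (φ : brcy_GQ) (hφ : A.IsFrobeniusAt φ ℓ)
    {θ : brcy_Qb} (hθ : θ ^ p = (q : brcy_Qb)) (hmove : φ θ ≠ θ) :
    ¬ ∃ y : ℤ, (ℓ : ℤ) ∣ y ^ p - q := by
  rintro ⟨y, hy⟩
  exact hmove (brku_frobenius_fixes_root hp hℓ hℓp hqℓ hy A hA φ hφ hθ)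

end frob

end Fermat.Agent.S41x
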