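import Mathlib
import Fermat.Prelude.Def_FLTPrelim_GaloisRep
import Fermat.Prelude.Def_FLTPrelim_Modularity
import Fermat.Prelude.Def_FLTPrelim_Ramification
import Fermat.Prelude.Def_EllipticCurve_FrobeniusTrace
import Fermat.Agent.S41x.BridgeFix
import Fermat.Agent.S41x.BridgeTorsion

/-!
# S41 bridge, row BRR, first half ("LIFT") and the assembly, helper93

`brl_frobenius_fixes` is the exact statement `brr_frobenius_fixes` of `S41x/BridgeSpec.lean`:
good reduction at `ℓ ≠ p` and `p ∣ #W~(𝔽_ℓ) = ℓ + 1 - a_ℓ(W)` imply that every Frobenius element at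
`ℓ` fixes a nonzero `p`-torsion point of `W(Qbar)`.

* `brl_root_val_le`       : a root of an integer polynomial whose leading coefficient is an `A`-unit is
                            `A`-integral (`isIntegral_leadingCoeff_smul` + `A` integrally closed).
* `brl_exists_root_lift`  : a root mod `ℓ` of an integer polynomial `f` with `ℓ ∤ lc(f)` is the residue of a
                            root of `f` in `Qbar` (`f(n) = lc(f) ∏ (n - x_i)` has valuation `< 1`).
* `brl_hint`              : `x`-coordinates of `p`-torsion points are integral at `ℓ ≠ p`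
                            (`preΨ_p` has leading coefficient `p`, `brt_preΨ_eval_eq_zero`).
* `brl_frobenius_fixes`   : Cauchy gives `(x', y') ∈ W~(𝔽_ℓ)` of order `p`; `x'` is a root of `preΨ_p mod ℓ`;
                            lift it to a root `x` of `preΨ_p`, get a `p`-torsion point `(x, y)`
                            (`brt_exists_point_of_root`); the residue of `y` is `y'` or `negY x' y'`
                            (two roots of the same quadratic); conclude with `brf_fix`.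
-/

set_option autoImplicit false
open WeierstrassCurve WeierstrassCurve.Affine WeierstrassCurve.Affine.Point Polynomial

namespace Fermat.Agent.S41x

local notation "Qb" => AlgebraicClosure ℚ
local notation "GQ" => (AlgebraicClosure ℚ ≃ₐ[ℚ] AlgebraicClosure ℚ)

/-- an algebraic integer lies in every valuation subring of `Qbar` -/
theorem brl_mem_of_isIntegral_int (A : ValuationSubring Qb) {z : Qb} (hz : IsIntegral ℤ z) : z ∈ A := by
  have h1 : IsIntegral A z := hz.tower_top
  obtain ⟨y, hy⟩ := IsIntegrallyClosed.isIntegral_iff.mp h1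
  rw [← hy]
  exact y.2

/-- a root of an integer polynomial whose leading coefficient is a unit at `A` is `A`-integral -/
theorem brl_root_val_le (A : ValuationSubring Qb) (f : ℤ[X])
    (hlc : A.valuation ((f.leadingCoeff : ℤ) : Qb) = 1) {x : Qb}
    (hx : (f.map (Int.castRingHom Qb)).eval x = 0) : A.valuation x ≤ 1 := by
  have h1 : Polynomial.aeval x f = 0 := by
    rw [← hx, Polynomial.eval_map]
    rfl
  have h2 := isIntegral_leadingCoeff_smul f x h1
  have h3 := brl_mem_of_isIntegral_int A h2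
  rw [zsmul_eq_mul, ← A.valuation_le_one_iff, map_mul, hlc, one_mul] at h3
  exact h3

/-- an integer divisible by `ℓ` has valuation `< 1` -/
theorem brl_val_int_lt_one (A : ValuationSubring Qb) {ℓ : ℕ} (hℓ : ℓ.Prime) (hA : A.LiesOverPrime ℓ)
    {z : ℤ} (hz : (ℓ : ℤ) ∣ z) : A.valuation (z : Qb) < 1 := by
  refine lt_of_le_of_ne (S05x.val_int_le_one A z) ?_
  intro h
  exact (S05x.val_int_eq_one_iff A hℓ hA z).mp h hz

/-- **root lifting**: a root mod `ℓ` of an integer polynomial with leading coefficient prime to `ℓ`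
is the residue of a root in `Qbar` -/
theorem brl_exists_root_lift (A : ValuationSubring Qb) {ℓ : ℕ} (hℓ : ℓ.Prime) (hA : A.LiesOverPrime ℓ)
    (f : ℤ[X]) (hlc : ¬ (ℓ : ℤ) ∣ f.leadingCoeff) (n : ℤ) (hn : (ℓ : ℤ) ∣ f.eval n) :
    ∃ x : Qb, (f.map (Int.castRingHom Qb)).eval x = 0 ∧ A.valuation ((n : Qb) - x) < 1 := by
  by_contra hcon
  simp only [not_exists, not_and, not_lt] at hcon
  set g : Qb[X] := f.map (Int.castRingHom Qb) with hg
  have hsplit : g.Splits := IsAlgClosed.splits g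
  have hev := hsplit.eval_eq_prod_roots (n : Qb)
  have hinj : Function.Injective (Int.castRingHom Qb) := Int.cast_injective
  have hlcg : g.leadingCoeff = ((f.leadingCoeff : ℤ) : Qb) := by
    rw [hg, Polynomial.leadingCoeff_map_of_injective hinj]
    rfl
  have hf0 : f ≠ 0 := by
    intro h0
    apply hlc
    rw [h0, Polynomial.leadingCoeff_zero]
    exact dvd_zero _
  have hg0 : g ≠ 0 := by
    rw [hg, Ne, Polynomial.map_eq_zero_iff hinj]
    exact hf0
  have hevn : g.eval (n : Qb) = ((f.eval n : ℤ) : Qb) := by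
    rw [hg]
    exact Polynomial.eval_intCast_map (Int.castRingHom Qb) f n
  have hlt : A.valuation (g.eval (n : Qb)) < 1 := by
    rw [hevn]
    exact brl_val_int_lt_one A hℓ hA hn
  have hlc1 : A.valuation g.leadingCoeff = 1 := by
    rw [hlcg]
    exact (S05x.val_int_eq_one_iff A hℓ hA _).mpr hlc
  rw [hev, map_mul, hlc1, one_mul, map_multiset_prod, Multiset.map_map] at hlt
  have hge : (1 : A.ValueGroup) ≤ (Multiset.map (A.valuation ∘ fun a => (n : Qb) - a) g.roots).prod := by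
    apply Multiset.one_le_prod_of_one_le
    intro v hv
    obtain ⟨a, ha, rfl⟩ := Multiset.mem_map.mp hv
    have hroot : g.eval a = 0 := (Polynomial.mem_roots hg0).mp ha
    exact hcon a hroot
  exact absurd hlt (not_lt.mpr hge)


/-- the residue field of a valuation subring over `ℓ` has characteristic `ℓ` -/
theorem brl_charP (A : ValuationSubring Qb) {ℓ : ℕ} (hℓ : ℓ.Prime) (hA : A.LiesOverPrime ℓ) :
    CharP (IsLocalRing.ResidueField A) ℓ := by
  rw [CharP.charP_iff_prime_eq_zero hℓ]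
  have h1 : A.valuation (ℓ : Qb) < 1 := A.mem_nonunits_iff.mp hA
  have h2 : ((ℓ : A) : Qb) = (ℓ : Qb) := by norm_cast
  have h3 : IsLocalRing.residue A (ℓ : A) = 0 := by
    rw [IsLocalRing.residue_eq_zero_iff, A.valuation_lt_one_iff, h2]
    exact h1
  rw [← h3, map_natCast]

/-- two elements of `A` whose difference has valuation `< 1` have the same residue -/
theorem brl_residue_eq_of_sub_lt (A : ValuationSubring Qb) {a b : Qb} (ha : a ∈ A) (hb : b ∈ A)
    (h : A.valuation (a - b) < 1) :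
    IsLocalRing.residue A ⟨a, ha⟩ = IsLocalRing.residue A ⟨b, hb⟩ := by
  rw [← sub_eq_zero, ← map_sub, IsLocalRing.residue_eq_zero_iff, A.valuation_lt_one_iff]
  exact h


theorem brl_baseChange_eq (W : WeierstrassCurve ℤ) :
    ((W.map (Int.castRingHom ℚ))⁄Qb) = W.map (Int.castRingHom Qb) := by
  simp only [WeierstrassCurve.baseChange, WeierstrassCurve.map_map]
  congr 1

theorem brl_preΨ_baseChange (W : WeierstrassCurve ℤ) (n : ℤ) :
    ((W.map (Int.castRingHom ℚ))⁄Qb).preΨ n = (W.preΨ n).map (Int.castRingHom Qb) := by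
  rw [brl_baseChange_eq, map_preΨ]

theorem brl_leadingCoeff (W : WeierstrassCurve ℤ) {p : ℕ} (hp : p.Prime) (hp2 : p ≠ 2) :
    (W.preΨ (p : ℤ)).leadingCoeff = (p : ℤ) := by
  have hpodd : ¬ Even (p : ℤ) := by
    rw [Int.not_even_iff_odd]
    exact_mod_cast hp.odd_of_ne_two hp2
  rw [W.leadingCoeff_preΨ (n := (p : ℤ)) (by simpa using hp.ne_zero), if_neg hpodd]
  rfl

theorem brl_not_dvd {p ℓ : ℕ} (hp : p.Prime) (hℓ : ℓ.Prime) (hℓp : ℓ ≠ p) : ¬ (ℓ : ℤ) ∣ (p : ℤ) := by
  intro h
  exact hℓp ((Nat.prime_dvd_prime_iff_eq hℓ hp).mp (Int.natCast_dvd_natCast.mp h))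

/-- **integrality of torsion**: the `x`-coordinate of a `p`-torsion point is integral at every
valuation subring over a prime `ℓ ≠ p`. -/
theorem brl_hint (W : WeierstrassCurve ℤ) {p ℓ : ℕ} (hp : p.Prime) (hp2 : p ≠ 2) (hℓ : ℓ.Prime)
    (hℓp : ℓ ≠ p) (A : ValuationSubring Qb) (hA : A.LiesOverPrime ℓ)
    (x y : Qb) (h : ((W.map (Int.castRingHom ℚ))⁄Qb).Nonsingular x y)
    (hP : p • (Point.some x y h : ((W.map (Int.castRingHom ℚ))⁄Qb).Point) = 0) :
    A.valuation x ≤ 1 := by
  have h1 := brt_preΨ_eval_eq_zero _ hp hp2 h hP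
  rw [brl_preΨ_baseChange] at h1
  refine brl_root_val_le A _ ?_ h1
  rw [brl_leadingCoeff W hp hp2]
  exact (S05x.val_int_eq_one_iff A hℓ hA _).mpr (brl_not_dvd hp hℓ hℓp)


/-- **BR-R**: good reduction at `ℓ ≠ p`, `p ∣ #W~(𝔽_ℓ)`: every Frobenius element at `ℓ` fixes a nonzero
`p`-torsion point of `W(Qbar)`. -/
theorem brl_frobenius_fixes (W : WeierstrassCurve ℤ) {p ℓ : ℕ} (hp : p.Prime) (hp2 : p ≠ 2) (hℓ : ℓ.Prime)
    (hℓp : ℓ ≠ p) (_hℓ6 : ¬ ℓ ∣ 6) (hgood : W.IsGoodPrimeFor ℓ)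
    (hdvd : (p : ℤ) ∣ ((ℓ : ℤ) + 1 - W.apOfModel ℓ))
    (A : ValuationSubring Qb) (hA : A.LiesOverPrime ℓ) (φ : GQ) (hφ : A.IsFrobeniusAt φ ℓ) :
    ∃ P : ((W.map (Int.castRingHom ℚ))⁄Qb).Point, P ≠ 0 ∧ p • P = 0 ∧ φ • P = P := by
  have : Fact ℓ.Prime := ⟨hℓ⟩
  have : Fact p.Prime := ⟨hp⟩
  have := brl_charP A hℓ hA
  let ι : ZMod ℓ →+* IsLocalRing.ResidueField A := ZMod.castHom (dvd_refl ℓ) _
  -- Cauchy
  have hcard : p ∣ Nat.card (W.reductionMod ℓ).toAffine.Point := by
    have : (ℓ : ℤ) + 1 - W.apOfModel ℓ = (Nat.card (W.reductionMod ℓ).toAffine.Point : ℤ) := by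
      simp only [WeierstrassCurve.apOfModel, WeierstrassCurve.traceOfFrobenius,
        WeierstrassCurve.card, Nat.card_zmod]
      ring
    rw [this] at hdvd
    exact Int.natCast_dvd_natCast.mp hdvd
  obtain ⟨Q, hQ⟩ := exists_prime_addOrderOf_dvd_card' p hcard
  have hQ0 : Q ≠ 0 := by
    intro h0
    rw [h0, addOrderOf_zero] at hQ
    exact hp.one_lt.ne hQ
  have hQp : p • Q = 0 := by
    rw [← hQ]
    exact addOrderOf_nsmul_eq_zero Q
  obtain ⟨x', y', h', rfl⟩ := S13x.wg_exists_some hQ0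
  have hΨ' := brt_preΨ_eval_eq_zero _ hp hp2 h' hQp
  rw [WeierstrassCurve.reductionMod, map_preΨ] at hΨ'
  obtain ⟨n, rfl⟩ := ZMod.intCast_surjective x'
  rw [Polynomial.eval_intCast_map, eq_intCast, ZMod.intCast_zmod_eq_zero_iff_dvd] at hΨ'
  -- lift the root
  obtain ⟨x, hx0, hxn⟩ := brl_exists_root_lift A hℓ hA (W.preΨ (p : ℤ))
    (by rw [brl_leadingCoeff W hp hp2]; exact brl_not_dvd hp hℓ hℓp) n hΨ'
  have hΔ : (W.map (Int.castRingHom ℚ)).Δ ≠ 0 := by
    rw [WeierstrassCurve.map_Δ]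
    intro h0
    have h1 : W.Δ = 0 := by
      rw [eq_intCast] at h0
      exact_mod_cast h0
    apply hgood
    rw [h1]
    exact dvd_zero _
  rw [← brl_preΨ_baseChange] at hx0
  obtain ⟨y, h, hP⟩ := brt_exists_point_of_root (W.map (Int.castRingHom ℚ)) hΔ hp hp2 x hx0
  have hint := brl_hint W hp hp2 hℓ hℓp A hA
  have hxv : A.valuation x ≤ 1 := hint x y h hP
  have hyv : A.valuation y ≤ 1 := S13x.sm2_y_integral A (brf_isIntW W A) h hxv
  have hxA : x ∈ A := (A.valuation_le_one_iff x).mp hxv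
  have hyA : y ∈ A := (A.valuation_le_one_iff y).mp hyv
  refine ⟨Point.some x y h, Point.some_ne_zero h, hP, ?_⟩
  -- residues
  have hnA : (n : Qb) ∈ A := intCast_mem A n
  have hnA' : (⟨(n : Qb), hnA⟩ : A) = (n : A) := by
    ext
    simp
  have hrx : IsLocalRing.residue A ⟨x, hxA⟩ = ι (n : ZMod ℓ) := by
    rw [← brl_residue_eq_of_sub_lt A hnA hxA hxn, map_intCast, hnA', map_intCast]
  -- the equation of `P` in `A`, then in the residue field
  obtain ⟨X, hX⟩ : ∃ X : A, X = ⟨x, hxA⟩ := ⟨_, rfl⟩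
  obtain ⟨Y, hY⟩ : ∃ Y : A, Y = ⟨y, hyA⟩ := ⟨_, rfl⟩
  have hXc : (X : Qb) = x := by rw [hX]
  have hYc : (Y : Qb) = y := by rw [hY]
  have e1 : ((W.map (Int.castRingHom ℚ))⁄Qb).a₁ = ((W.a₁ : ℤ) : Qb) := by
    simp [WeierstrassCurve.baseChange]
  have e2 : ((W.map (Int.castRingHom ℚ))⁄Qb).a₂ = ((W.a₂ : ℤ) : Qb) := by
    simp [WeierstrassCurve.baseChange]
  have e3 : ((W.map (Int.castRingHom ℚ))⁄Qb).a₃ = ((W.a₃ : ℤ) : Qb) := by
    simp [WeierstrassCurve.baseChange]
  have e4 : ((W.map (Int.castRingHom ℚ))⁄Qb).a₄ = ((W.a₄ : ℤ) : Qb) := by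
    simp [WeierstrassCurve.baseChange]
  have e6 : ((W.map (Int.castRingHom ℚ))⁄Qb).a₆ = ((W.a₆ : ℤ) : Qb) := by
    simp [WeierstrassCurve.baseChange]
  have eqQ := S13x.wg_eq_of_nonsingular h
  rw [e1, e2, e3, e4, e6] at eqQ
  have eqA : Y ^ 2 + ((W.a₁ : ℤ) : A) * X * Y + ((W.a₃ : ℤ) : A) * Y
      = X ^ 3 + ((W.a₂ : ℤ) : A) * X ^ 2 + ((W.a₄ : ℤ) : A) * X + ((W.a₆ : ℤ) : A) := by
    apply Subtype.ext
    push_cast
    rw [hXc, hYc]
    exact_mod_cast eqQ
  have eqk := congrArg (IsLocalRing.residue A) eqA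
  simp only [map_add, map_mul, map_pow, map_intCast] at eqk
  rw [← hX] at hrx
  rw [hrx, map_intCast] at eqk
  -- the equation of the reduced point
  have eqF := S13x.wg_eq_of_nonsingular h'
  simp only [WeierstrassCurve.reductionMod, WeierstrassCurve.map_a₁, WeierstrassCurve.map_a₂,
    WeierstrassCurve.map_a₃, WeierstrassCurve.map_a₄, WeierstrassCurve.map_a₆, eq_intCast] at eqF
  have eqι := congrArg ι eqF
  simp only [map_add, map_mul, map_pow, map_intCast] at eqι
  have hprod : (IsLocalRing.residue A Y - ι y') *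
      (IsLocalRing.residue A Y + ι y' + ((W.a₁ : ℤ) : IsLocalRing.ResidueField A) * (n : IsLocalRing.ResidueField A)
        + ((W.a₃ : ℤ) : IsLocalRing.ResidueField A)) = 0 := by
    linear_combination eqk - eqι
  rcases mul_eq_zero.mp hprod with hc | hc
  · have hry : IsLocalRing.residue A ⟨y, hyA⟩ = ι y' := by
      rw [← hY]
      exact sub_eq_zero.mp hc
    rw [hX] at hrx
    exact brf_fix W A φ hφ hint ι h hP hxA hyA h' hrx hry
  · have hns : (W.map (Int.castRingHom (ZMod ℓ))).toAffine.Nonsingular (n : ZMod ℓ)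
        ((W.map (Int.castRingHom (ZMod ℓ))).toAffine.negY (n : ZMod ℓ) y') :=
      (nonsingular_neg ..).mpr h'
    have hry : IsLocalRing.residue A ⟨y, hyA⟩
        = ι ((W.map (Int.castRingHom (ZMod ℓ))).toAffine.negY (n : ZMod ℓ) y') := by
      rw [← hY]
      simp only [negY, WeierstrassCurve.map_a₁, WeierstrassCurve.map_a₃, eq_intCast, map_sub, map_neg,
        map_mul, map_intCast]
      linear_combination hc
    rw [hX] at hrx
    exact brf_fix W A φ hφ hint ι h hP hxA hyA hns hrx hry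

end Fermat.Agent.S41x
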