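/-
S41 bridge, final wrapper (helper36): the REFINED BRIDGE, unconditional.

`brcv_bridge_refined` : if `E[p]` is irreducible (`p` odd) then for every `M0` and `M` there is a good
prime `ℓ ≡ 1 [MOD M0]`, `ℓ ∤ M`, `ℓ ≠ p`, with `p ∤ ℓ + 1 - a_ℓ(W)`.

= helper66's `brtop_bridge_refined_of` (S41x/BridgeFinal.lean) with the CC input supplied by complex
conjugation: helper90's `brcq_bridge_refined_of` (S41x/BridgeConjCC.lean) applied to `brcv_complexInput`
(S41x/BridgeConjCurveFinal.lean; rows CC1+CC2 helper13, CC3 helper97, CC4 helper36 + helper13, CC5 helper90).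
-/
import Fermat.Agent.S41x.BridgeConjCC
import Fermat.Agent.S41x.BridgeConjCurveFinal

set_option autoImplicit false

open WeierstrassCurve WeierstrassCurve.Affine WeierstrassCurve.Affine.Point

namespace Fermat.Agent.S41x

/-- the CC input of the refined bridge, unconditionally. -/
theorem brcv_brtopCC (E : WeierstrassCurve ℚ) (hΔ : E.Δ ≠ 0) {p : ℕ} (hp : p.Prime) (hp2 : p ≠ 2) :
    brtopCC E p :=
  brcq_brtopCC_of E hΔ hp (brcv_complexInput E hΔ hp (hp.odd_of_ne_two hp2))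

/-- **THE REFINED BRIDGE**, unconditional. -/
theorem brcv_bridge_refined (E : WeierstrassCurve ℚ) [E.IsElliptic] {W : WeierstrassCurve ℤ}
    (hW : W.IsIntegralModelOf E) {p : ℕ} (hp : p.Prime) (hp2 : p ≠ 2)
    (hirr : GaloisRepIsIrreducible (K := AlgebraicClosure ℚ) ℚ E p)
    (M0 : ℕ) (hM0 : 0 < M0) (M : ℕ) (hM : 0 < M) :
    ∃ ℓ : ℕ, ℓ.Prime ∧ W.IsGoodPrimeFor ℓ ∧ ¬ ℓ ∣ M ∧ ℓ ≠ p ∧ ℓ ≡ 1 [MOD M0] ∧
      ¬ (p : ℤ) ∣ ((ℓ : ℤ) + 1 - W.apOfModel ℓ) :=
  brcq_bridge_refined_of E hW hp hp2 hirr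
    (brcv_complexInput E (IsElliptic.isUnit (W := E)).ne_zero hp (hp.odd_of_ne_two hp2))
    M0 hM0 M hM

end Fermat.Agent.S41x
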