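import Fermat.Agent.S41x.BridgeFinal
import Fermat.Agent.S41x.BridgeRefinedFinal
import Fermat.Agent.S41x.BridgeKummer

/-!
# S41 BRIDGE-prime, row BP-ASM (owner helper66): the assembly

`bpa_bridge_prime_of` : BRIDGE-prime (exact conclusion of `BridgePrimeSpec.bridge_prime`) from the three inputs
`bpaFD2` (row BP-DI), `bpaKUM0` (row BP-KUM0), `bpaGRP` (row BP-GRP), stated as hypothesis-Props
(verbatim copies of the Spec statements, `bpaGRP` specialised to universe `0`).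
-/

set_option autoImplicit false
open WeierstrassCurve WeierstrassCurve.Affine WeierstrassCurve.Affine.Point

namespace Fermat.Agent.S41x

/-- row BP-DI: Frobenius density for a cyclic group of order `r * p` -/
def bpaFD2 : Prop :=
  ∀ (L : IntermediateField ℚ brtopQb) (_ : FiniteDimensional ℚ L)
    (_ : ∀ σ : brtopGQ, ∀ x ∈ L, σ x ∈ L)
    (g : brtopGQ) (r p : ℕ) (_ : r.Prime) (_ : p.Prime) (_ : r ≠ p)
    (_ : g ^ (r * p) ∈ L.fixingSubgroup) (_ : g ^ r ∉ L.fixingSubgroup)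
    (_ : g ^ p ∉ L.fixingSubgroup) (M : ℕ) (_ : 0 < M),
    ∃ (ℓ : ℕ) (A : ValuationSubring brtopQb) (φ : brtopGQ) (k : ℕ), ℓ.Prime ∧ ¬ ℓ ∣ M ∧
      A.LiesOverPrime ℓ ∧ A.IsFrobeniusAt φ ℓ ∧ ¬ r ∣ k ∧ ¬ p ∣ k ∧ φ⁻¹ * g ^ k ∈ L.fixingSubgroup

/-- row BP-KUM0: `q^{1/p} ∉ ℚ(ζ_n)` -/
def bpaKUM0 : Prop :=
  ∀ {p : ℕ} (_ : p.Prime) (_ : p ≠ 2) {q : ℕ} (_ : q.Prime) {n : ℕ} (_ : 0 < n) (_ : p ∣ n)
    {ζ : brtopQb} (_ : IsPrimitiveRoot ζ n) {θ : brtopQb} (_ : θ ^ p = (q : brtopQb)),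
    ∃ τ : brtopGQ, τ ζ = ζ ∧ τ θ ≠ θ

/-- row BP-GRP: the group theory (universe `0` instance of the Spec statement) -/
def bpaGRP : Prop :=
  ∀ {p : ℕ} [Fact p.Prime] (_ : p ≠ 2)
    {G : Type} [Group G] {V : Type} [AddCommGroup V] [Module (ZMod p) V]
    [DistribMulAction G V] [SMulCommClass G (ZMod p) V]
    (_ : Nat.card V = p ^ 2)
    (_ : ∀ N : Submodule (ZMod p) V, (∀ g : G, ∀ x ∈ N, g • x ∈ N) → N = ⊥ ∨ N = ⊤)
    (K : Subgroup G) [K.Normal] (_ : ¬ ∀ g ∈ K, ∀ v : V, g • v = v)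
    {C : Type} [CommGroup C] (_ : ∀ c : C, c ^ p = 1)
    (χ : K →* C) (_ : ∃ τ : K, χ τ ≠ 1),
    ∃ (σ : G) (hσ : σ ∈ K) (r : ℕ), r.Prime ∧ r ≠ p ∧ (∀ v : V, σ ^ (r * p) • v = v) ∧
      (∀ k : ℕ, ¬ r ∣ k → ¬ p ∣ k → ∀ v : V, σ ^ k • v = v → v = 0) ∧
      (∃ v : V, σ ^ p • v ≠ v) ∧ χ ⟨σ, hσ⟩ ≠ 1

/-! ## the Kummer character -/

section kummer

variable {p n : ℕ} {ζ θ : brtopQb} {q : ℕ}

theorem bpa_ratio_pow (hq : q ≠ 0) (hθ : θ ^ p = (q : brtopQb)) (σ : brtopGQ) :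
    (σ θ / θ) ^ p = 1 := by
  have hq0 : (q : brtopQb) ≠ 0 := Nat.cast_ne_zero.mpr hq
  rw [div_pow, ← map_pow, hθ, map_natCast]
  exact div_self hq0

theorem bpa_theta_ne_zero (hp : p ≠ 0) (hq : q ≠ 0) (hθ : θ ^ p = (q : brtopQb)) : θ ≠ 0 := by
  rintro rfl
  rw [zero_pow hp] at hθ
  exact hq (Nat.cast_eq_zero.mp hθ.symm)

/-- an element fixing `ζ` fixes every `x` with `x ^ p = 1` (`p ∣ n`) -/
theorem bpa_fix_root_of_unity (hn : 0 < n) (hpn : p ∣ n) (hζ : IsPrimitiveRoot ζ n)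
    {σ : brtopGQ} (hσ : σ ζ = ζ) {x : brtopQb} (hx : x ^ p = 1) : σ x = x := by
  have : NeZero n := ⟨hn.ne'⟩
  obtain ⟨m, rfl⟩ := hpn
  have hxn : x ^ (p * m) = 1 := by rw [pow_mul, hx, one_pow]
  obtain ⟨i, -, hi⟩ := hζ.eq_pow_of_pow_eq_one hxn
  rw [← hi, map_pow, hσ]

theorem bpa_fix_ratio (hq : q ≠ 0) (hn : 0 < n) (hpn : p ∣ n) (hζ : IsPrimitiveRoot ζ n)
    (hθ : θ ^ p = (q : brtopQb)) {σ : brtopGQ} (hσ : σ ζ = ζ) (τ : brtopGQ) :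
    σ (τ θ / θ) = τ θ / θ :=
  bpa_fix_root_of_unity hn hpn hζ hσ (bpa_ratio_pow hq hθ τ)

/-- the Kummer character of `θ = q^{1/p}` on the subgroup fixing `ζ` -/
noncomputable def bpa_chi (hp : p ≠ 0) (hq : q ≠ 0) (hn : 0 < n) (hpn : p ∣ n)
    (hζ : IsPrimitiveRoot ζ n) (hθ : θ ^ p = (q : brtopQb)) :
    ↥(brtop_K ζ) →* rootsOfUnity p brtopQb :=
  MonoidHom.mk'
    (fun σ => ⟨Units.mk0 ((σ : brtopGQ) θ / θ)
        (div_ne_zero ((map_ne_zero _).mpr (bpa_theta_ne_zero hp hq hθ)) (bpa_theta_ne_zero hp hq hθ)),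
      by
        rw [mem_rootsOfUnity]
        apply Units.ext
        simp only [Units.val_pow_eq_pow_val, Units.val_mk0, Units.val_one]
        exact bpa_ratio_pow hq hθ _⟩)
    (by
      intro σ τ
      apply Subtype.ext
      apply Units.ext
      have hθ0 := bpa_theta_ne_zero hp hq hθ
      simp only [Subgroup.coe_mul, Units.val_mul, Units.val_mk0, AlgEquiv.mul_apply]
      have h1 : (τ : brtopGQ) θ = ((τ : brtopGQ) θ / θ) * θ := by field_simp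
      conv_lhs => rw [h1, map_mul, bpa_fix_ratio hq hn hpn hζ hθ σ.2]
      field_simp)

theorem bpa_chi_val (hp : p ≠ 0) (hq : q ≠ 0) (hn : 0 < n) (hpn : p ∣ n)
    (hζ : IsPrimitiveRoot ζ n) (hθ : θ ^ p = (q : brtopQb)) (σ : ↥(brtop_K ζ)) :
    (((bpa_chi hp hq hn hpn hζ hθ σ : rootsOfUnity p brtopQb) : brtopQbˣ) : brtopQb) =
      (σ : brtopGQ) θ / θ := rfl

/-- `σ θ = χ(σ) θ` -/
theorem bpa_apply_theta (hp : p ≠ 0) (hq : q ≠ 0) (hn : 0 < n) (hpn : p ∣ n)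
    (hζ : IsPrimitiveRoot ζ n) (hθ : θ ^ p = (q : brtopQb)) (σ : ↥(brtop_K ζ)) :
    (σ : brtopGQ) θ =
      (((bpa_chi hp hq hn hpn hζ hθ σ : rootsOfUnity p brtopQb) : brtopQbˣ) : brtopQb) * θ := by
  have hθ0 := bpa_theta_ne_zero hp hq hθ
  rw [bpa_chi_val]
  field_simp

theorem bpa_chi_eq_one_iff (hp : p ≠ 0) (hq : q ≠ 0) (hn : 0 < n) (hpn : p ∣ n)
    (hζ : IsPrimitiveRoot ζ n) (hθ : θ ^ p = (q : brtopQb)) (σ : ↥(brtop_K ζ)) :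
    bpa_chi hp hq hn hpn hζ hθ σ = 1 ↔ (σ : brtopGQ) θ = θ := by
  have hθ0 := bpa_theta_ne_zero hp hq hθ
  constructor
  · intro h
    rw [bpa_apply_theta hp hq hn hpn hζ hθ σ, h]
    simp
  · intro h
    apply Subtype.ext
    apply Units.ext
    rw [bpa_chi_val, h]
    simp [hθ0]

end kummer

/-! ## the assembly -/

/-- the subgroup fixing `ζ` does not act trivially on `E[p]` (complex conjugation + irreducibility) -/
theorem bpa_not_trivial (E : WeierstrassCurve ℚ) [E.IsElliptic] {p : ℕ} (hp : p.Prime) (hp2 : p ≠ 2)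
    (hirr : GaloisRepIsIrreducible (K := AlgebraicClosure ℚ) ℚ E p)
    {n : ℕ} (hn : 0 < n) {ζ : brtopQb} (hζ : IsPrimitiveRoot ζ n) :
    ¬ ∀ g ∈ brtop_K ζ, ∀ v : Submodule.torsionBy ℤ (E⁄brtopQb).Point p, g • v = v := by
  intro htriv
  have : Fact p.Prime := ⟨hp⟩
  have : NeZero p := ⟨hp.ne_zero⟩
  have hΔE : E.Δ ≠ 0 := (IsElliptic.isUnit (W := E)).ne_zero
  have := brtop_smulCommClass E p
  obtain ⟨c, ⟨x0, hx0, hcx0⟩, ⟨x1, hcx1⟩⟩ := brcv_brtopCC E hΔE hp hp2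
  have hcomm : ∀ (σ : brtopGQ) (v : Submodule.torsionBy ℤ (E⁄brtopQb).Point p),
      c • (σ • v) = σ • (c • v) := by
    intro σ v
    have h := htriv _ (brtop_comm_mem_K hn hζ σ c) (c • (σ • v))
    rw [mul_smul, mul_smul, mul_smul, inv_smul_smul, inv_smul_smul] at h
    exact h.symm
  let N : Submodule (ZMod p) (Submodule.torsionBy ℤ (E⁄brtopQb).Point p) :=
    LinearMap.eqLocus (DistribSMul.toLinearMap (ZMod p) _ c) LinearMap.id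
  have hN : ∀ v, v ∈ N ↔ c • v = v := fun v => Iff.rfl
  have hst : IsGaloisStable ℚ N := by
    intro σ v hv
    rw [hN] at hv ⊢
    rw [hcomm, hv]
  rcases hirr.2 N hst with h | h
  · have : x0 ∈ N := (hN x0).mpr hcx0
    rw [h, Submodule.mem_bot] at this
    exact hx0 this
  · have : x1 ∈ N := by rw [h]; exact Submodule.mem_top
    exact hcx1 ((hN x1).mp this)

/-- **BRIDGE-prime** from the three inputs: if `E[p]` is irreducible then for every `n` with `p ∣ n` and every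
`M` there is a good prime `ℓ ≡ 1 [MOD n]`, `ℓ ∤ M`, `ℓ ≠ p`, such that `q` is not a `p`-th power modulo `ℓ` and
`p ∤ #W~(F_ℓ) = ℓ + 1 - a_ℓ(W)`. -/
theorem bpa_bridge_prime_of (hFD2 : bpaFD2) (hK0 : bpaKUM0) (hGRP : bpaGRP)
    (E : WeierstrassCurve ℚ) [E.IsElliptic] {W : WeierstrassCurve ℤ}
    (hW : W.IsIntegralModelOf E) {p : ℕ} (hp : p.Prime) (hp2 : p ≠ 2)
    (hirr : GaloisRepIsIrreducible (K := AlgebraicClosure ℚ) ℚ E p)
    {q : ℕ} (hq : q.Prime) (n : ℕ) (hn : 0 < n) (hpn : p ∣ n) (M : ℕ) (hM : 0 < M) :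
    ∃ ℓ : ℕ, ℓ.Prime ∧ W.IsGoodPrimeFor ℓ ∧ ¬ ℓ ∣ M ∧ ℓ ≠ p ∧ ℓ ≡ 1 [MOD n] ∧
      (¬ ∃ y : ℤ, (ℓ : ℤ) ∣ y ^ p - (q : ℤ)) ∧
      ¬ (p : ℤ) ∣ ((ℓ : ℤ) + 1 - W.apOfModel ℓ) := by
  have : Fact p.Prime := ⟨hp⟩
  have : NeZero p := ⟨hp.ne_zero⟩
  have : NeZero n := ⟨hn.ne'⟩
  have hΔE : E.Δ ≠ 0 := (IsElliptic.isUnit (W := E)).ne_zero
  have hcard := S13x.tq_card_torsion E hΔE p hp.one_le
  have hfin : Finite (Submodule.torsionBy ℤ (E⁄brtopQb).Point p) :=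
    Nat.finite_of_card_ne_zero (by rw [hcard]; exact pow_ne_zero 2 hp.ne_zero)
  have := brtop_smulCommClass E p
  obtain ⟨ζ, hζ⟩ := HasEnoughRootsOfUnity.exists_primitiveRoot brtopQb n
  obtain ⟨θ, hθ⟩ := IsAlgClosed.exists_pow_nat_eq (q : brtopQb) hp.pos
  have hq0 : q ≠ 0 := hq.ne_zero
  have hθ0 : θ ≠ 0 := bpa_theta_ne_zero hp.ne_zero hq0 hθ
  have hKn : (brtop_K ζ).Normal := brtop_K_normal hn hζ
  -- the discriminant of the model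
  have hΔW : W.Δ ≠ 0 := by
    obtain ⟨C, hC⟩ := hW
    intro h0
    have h1 : (W.map (Int.castRingHom ℚ)).Δ = 0 := by
      rw [WeierstrassCurve.map_Δ, h0, _root_.map_zero]
    rw [← hC, variableChange_Δ] at h1
    rcases mul_eq_zero.mp h1 with h2 | h2
    · exact (pow_ne_zero 12 (Units.ne_zero _)) h2
    · exact hΔE h2
  -- the Kummer character
  set χ := bpa_chi hp.ne_zero hq0 hn hpn hζ hθ with hχdef
  have hC : ∀ c : rootsOfUnity p brtopQb, c ^ p = 1 := by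
    intro c
    apply Subtype.ext
    have := c.2
    rw [mem_rootsOfUnity] at this
    simpa using this
  have hχ : ∃ τ : ↥(brtop_K ζ), χ τ ≠ 1 := by
    obtain ⟨τ, hτζ, hτθ⟩ := hK0 hp hp2 hq hn hpn hζ hθ
    refine ⟨⟨τ, hτζ⟩, fun h => hτθ ?_⟩
    exact (bpa_chi_eq_one_iff hp.ne_zero hq0 hn hpn hζ hθ ⟨τ, hτζ⟩).mp h
  obtain ⟨σ, hσK, r, hr, hrp, hσrp, hσfpf, ⟨v1, hσp⟩, hχσ⟩ :=
    hGRP hp2 hcard hirr.2 (brtop_K ζ) (bpa_not_trivial E hp hp2 hirr hn hζ) hC χ hχ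
  -- powers of `σ` on `θ`
  have hpowθ : ∀ m : ℕ, (σ ^ m) θ = θ ↔ (χ ⟨σ, hσK⟩) ^ m = 1 := by
    intro m
    have hm : σ ^ m ∈ brtop_K ζ := pow_mem hσK m
    have h1 := bpa_chi_eq_one_iff hp.ne_zero hq0 hn hpn hζ hθ ⟨σ ^ m, hm⟩
    have h2 : (⟨σ ^ m, hm⟩ : ↥(brtop_K ζ)) = ⟨σ, hσK⟩ ^ m := rfl
    rw [h2, map_pow] at h1
    exact h1.symm
  -- the field
  set R : Set brtopQb := {z | z ^ n = 1} ∪ {t | t ^ p = (q : brtopQb)} with hRdef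
  have hRfin : R.Finite := by
    apply Set.Finite.union
    · apply Set.Finite.subset (Polynomial.nthRoots n (1 : brtopQb)).toFinset.finite_toSet
      intro z hz
      simp only [Finset.mem_coe, Multiset.mem_toFinset, Polynomial.mem_nthRoots hn]
      exact hz
    · apply Set.Finite.subset
        (Polynomial.nthRoots p ((q : ℕ) : brtopQb)).toFinset.finite_toSet
      intro z hz
      simp only [Finset.mem_coe, Multiset.mem_toFinset, Polynomial.mem_nthRoots hp.pos]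
      exact hz
  have hRst : ∀ τ : brtopGQ, ∀ z ∈ R, τ z ∈ R := by
    rintro τ z (hz | hz)
    · left
      change (τ z) ^ n = 1
      rw [← map_pow, show z ^ n = 1 from hz, map_one]
    · right
      change (τ z) ^ p = (q : brtopQb)
      rw [← map_pow, show z ^ p = (q : brtopQb) from hz, map_natCast]
  have hRfix : ∀ τ : brtopGQ, τ ζ = ζ → τ θ = θ → ∀ z ∈ R, τ z = z := by
    rintro τ hτζ hτθ z (hz | hz)
    · obtain ⟨i, -, hi⟩ := hζ.eq_pow_of_pow_eq_one (show z ^ n = 1 from hz)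
      rw [← hi, map_pow, hτζ]
    · have h1 : (z / θ) ^ p = 1 := by
        rw [div_pow, show z ^ p = (q : brtopQb) from hz, hθ]
        exact div_self (Nat.cast_ne_zero.mpr hq0)
      have h2 : τ (z / θ) = z / θ := bpa_fix_root_of_unity hn hpn hζ hτζ h1
      have h3 : z = (z / θ) * θ := by field_simp
      rw [h3, map_mul, h2, hτθ]
  have hζR : ζ ∈ R := Or.inl hζ.pow_eq_one
  have hθR : θ ∈ R := Or.inr hθ
  have hσζ : ∀ m : ℕ, (σ ^ m) ζ = ζ := fun m => pow_mem hσK m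
  have hcσ : (χ ⟨σ, hσK⟩) ^ p = 1 := hC _
  -- hypotheses of FD2
  have h1 : σ ^ (r * p) ∈ (brtop_L2 E p R).fixingSubgroup := by
    rw [brtop_mem_fixing2_iff]
    refine ⟨hσrp, hRfix _ (hσζ _) ?_⟩
    rw [hpowθ, mul_comm, pow_mul, hcσ, one_pow]
  have h2 : σ ^ r ∉ (brtop_L2 E p R).fixingSubgroup := by
    intro hmem
    have h := ((brtop_mem_fixing2_iff E p R _).mp hmem).2 θ hθR
    rw [hpowθ] at h
    have hg : (χ ⟨σ, hσK⟩) ^ Nat.gcd r p = 1 := pow_gcd_eq_one.mpr ⟨h, hcσ⟩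
    rw [(Nat.coprime_primes hr hp).mpr hrp, pow_one] at hg
    exact hχσ hg
  have h3 : σ ^ p ∉ (brtop_L2 E p R).fixingSubgroup := by
    intro hmem
    exact hσp (((brtop_mem_fixing2_iff E p R _).mp hmem).1 v1)
  obtain ⟨ℓ, A, φ, k, hℓ, hℓM, hA, hφ, hrk, hpk, hφg⟩ :=
    hFD2 (brtop_L2 E p R) (brtop_L2_fd E p R hRfin hfin) (brtop_L2_normal E p R hRst) σ r p hr hp
      hrp h1 h2 h3 (M * p * W.Δ.natAbs * n * q)
      (by have := Int.natAbs_pos.mpr hΔW; have := hp.pos; have := hq.pos; positivity)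
  have hℓM1 : ¬ ℓ ∣ M := fun h =>
    hℓM (Dvd.dvd.mul_right (Dvd.dvd.mul_right (Dvd.dvd.mul_right (Dvd.dvd.mul_right h _) _) _) _)
  have hℓp : ℓ ≠ p := by
    rintro rfl
    exact hℓM (Dvd.dvd.mul_right (Dvd.dvd.mul_right (Dvd.dvd.mul_right (Dvd.intro_left M rfl) _) _) _)
  have hgood : W.IsGoodPrimeFor ℓ := by
    intro h
    apply hℓM
    have h' : ℓ ∣ W.Δ.natAbs := Int.natCast_dvd.mp h
    exact Dvd.dvd.mul_right (Dvd.dvd.mul_right (Dvd.dvd.mul_left h' _) _) _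
  have hℓn : ¬ ℓ ∣ n := fun h => hℓM (Dvd.dvd.mul_right (Dvd.dvd.mul_left h _) _)
  have hℓq : ¬ ℓ ∣ q := fun h => hℓM (Dvd.dvd.mul_left h _)
  obtain ⟨hφgV, hφgR⟩ := (brtop_mem_fixing2_iff E p R _).mp hφg
  -- `φ` agrees with `σ ^ k` on `R`
  have hφR : ∀ z ∈ R, φ z = (σ ^ k) z := by
    intro z hz
    have hz' : (σ ^ k) z ∈ R := hRst _ z hz
    have h4 : (φ⁻¹ * σ ^ k) z = z := hφgR z hz
    rw [AlgEquiv.mul_apply] at h4
    have h5 : φ (φ⁻¹ ((σ ^ k) z)) = (σ ^ k) z := by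
      rw [← AlgEquiv.mul_apply, mul_inv_cancel, AlgEquiv.one_apply]
    rw [h4] at h5
    exact h5
  have hφζ : φ ζ = ζ := by rw [hφR ζ hζR, hσζ]
  have hmod : ℓ ≡ 1 [MOD n] := brcy_modEq_one_of_fixes hℓ hℓn A hA φ hφ hζ hφζ
  have hmodp : ℓ ≡ 1 [MOD p] := hmod.of_dvd hpn
  have hφθ : φ θ ≠ θ := by
    rw [hφR θ hθR]
    intro h
    rw [hpowθ] at h
    have hg : (χ ⟨σ, hσK⟩) ^ Nat.gcd k p = 1 := pow_gcd_eq_one.mpr ⟨h, hcσ⟩
    have hcop : Nat.Coprime k p := ((Nat.Prime.coprime_iff_not_dvd hp).mpr hpk).symm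
    rw [hcop, pow_one] at hg
    exact hχσ hg
  have hqℓ : ¬ (ℓ : ℤ) ∣ (q : ℤ) := fun h => hℓq (Int.natCast_dvd_natCast.mp h)
  have hθ' : θ ^ p = (((q : ℕ) : ℤ) : brtopQb) := by rw [hθ]; simp
  refine ⟨ℓ, hℓ, hgood, hℓM1, hℓp, hmod,
    brku_not_pow_of_frobenius_moves hp.ne_zero hℓ hmodp hqℓ A hA φ hφ hθ' hφθ, ?_⟩
  intro hdvd
  obtain ⟨x, hx0, hxφ⟩ := brtop_transfer E hW p φ
    (brr_frobenius_fixes' W hp hp2 hℓ hℓp hgood hdvd A hA φ hφ)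
  have h6 : (φ⁻¹ * σ ^ k) • x = x := hφgV x
  have h7 : σ ^ k • x = x := by
    have h8 : φ • ((φ⁻¹ * σ ^ k) • x) = φ • x := by rw [h6]
    rw [← mul_smul, mul_inv_cancel_left, hxφ] at h8
    exact h8
  exact hx0 (hσfpf k hrk hpk x h7)

end Fermat.Agent.S41x
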