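/-
S41 side project "BRIDGE-prime" (architect helper66), the Galois input of helper74's D2-bypass
(doc `S41_D2prime_hecke_route_helper74`, reviewed ACCEPT by helper66):

  for every `n` with `p ∣ n` and every `M` there is a good prime `ℓ ∤ M`, `ℓ ≡ 1 [MOD n]`, `ℓ ≠ p`, such that
  `q` is NOT a `p`-th power modulo `ℓ` and `p ∤ ℓ + 1 - a_ℓ(W)`.

SPEC / STUB FILE: sorry-only interface statements.  NEVER import this file from a real module; copy the statement you
own into your own NEW file `Fermat/Agent/S41x/<Row>.lean` (fresh prefixed names) and prove it there.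
Rows are tracked in the team table `s41_plan` (modules BP-*).

LANDED inputs you may import: `S41x/BridgeFinal.lean` (brtop_*: field cut out by `E[p]` and a set `R`, `brtop_mem_fixing2_iff`,
`brtop_L2_fd`, `brtop_L2_normal`, `brtop_K`, `brtop_comm_mem_K`, `brtop_K_normal`, `brtop_exists_pow`, `brtopCC`),
`S41x/BridgeRefinedFinal.lean` (`brcv_brtopCC` : CC is a theorem), `S41x/BridgeGroup.lean`, `S41x/BridgeGroup2.lean`
(`brg2_exists_fixedPointFree_normal`, `brg_sub_one_sq`, `brg_pow_eq_of_sq_zero`, ...), `S41x/BridgeCyc.lean`,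
`S41x/BridgeKummer.lean` (row KUM, DONE: `brku_not_pow_of_frobenius_moves`), `S41x/FDAnalytic.lean` (`fdan_*`),
`S41x/FDDictB.lean` / `FDDict.lean` (dictionary for prime order), `S41x/BridgeReductionFinal.lean`, `S41x/Bridge.lean`.

Rows:
* BP-AN   : two-extension version of FD-AN: `K ⊂ L₁, L₂` Galois of degrees `≥ 2`, `≥ 3`: infinitely many degree-one primes
            of `K` split completely in NEITHER (else `ζ_K ≤ A ζ_{L₁}^{1/n₁} ζ_{L₂}^{1/n₂}` on `(1,2]`, `1/n₁ + 1/n₂ < 1`).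
* BP-DI   : Frobenius density for a cyclic group of order `r * p` (two distinct primes): dictionary on top of BP-AN
            (`K' = L^<g>`, `L₁ = L^<g^r>` of degree `r`, `L₂ = L^<g^p>` of degree `p` over `K'`; a degree-one prime of `K'`,
            unramified in `L`, split in neither, has a Frobenius `g^k` with `r ∤ k`, `p ∤ k`).
* BP-KUM0 : `θ = q^{1/p} ∉ ℚ(ζ_n)`: some `τ ∈ G_ℚ` fixes `ζ` and moves `θ`.  (If not, the permutation action of `G_ℚ` on
            `{ζ_p^x θ}` is abelian [commutators fix `ζ`, `brtop_comm_mem_K`], some `τ₀` moves `ζ_p`, it has a unique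
            fixed point `ζ_p^{x₀} θ`, which is then fixed by all of `G_ℚ`, hence rational: a rational `p`-th root of the
            prime `q`, absurd.)
* BP-GRP  : group theory: irreducible `G` on `V = F_p²`, `K ⊴ G` not acting trivially, `χ : K → C` nontrivial, `C` abelian of exponent `p`
            ⟹ some `σ ∈ K` with `χ σ ≠ 0`, `σ^(r p) = 1` on `V`, every `σ^k` (`r ∤ k`, `p ∤ k`) fixed-point-free, `σ^p ≠ 1`
            on `V`.  (brg2 gives `g ∈ K` fixed-point-free of prime order `r`; `σ = g` if `χ g ≠ 0`; `σ = g τ` if some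
            `τ ∈ K` trivial on `V` has `χ τ ≠ 0`; otherwise `χ` factors through the image of `K`, take `x` with `χ x ≠ 0`,
            a power `x'` acts with order `p` (transvection `u`), a `G`-conjugate `y` has a different axis, some
            `z = (y^j x')^2` acts as `-1` [trace `0`, det `1`], `χ z = 0` because `z^2` is trivial on `V`, and
            `σ = z x'` acts as `-u`: `r = 2`.)
* BP-ASM  : assembly (helper66).
-/
import Mathlib
import Fermat.Prelude.Def_FLTPrelim_GaloisRep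
import Fermat.Prelude.Def_FLTPrelim_Modularity
import Fermat.Prelude.Def_FLTPrelim_Ramification
import Fermat.Prelude.Def_EllipticCurve_FrobeniusTrace

set_option autoImplicit false
open WeierstrassCurve WeierstrassCurve.Affine WeierstrassCurve.Affine.Point

namespace Fermat.Agent.S41x.BridgePrimeSpec

abbrev Qb := AlgebraicClosure ℚ
abbrev GQ := Qb ≃ₐ[ℚ] Qb

/-! ## BP-AN -/

theorem bpan_infinite_nonsplit2 (K L₁ L₂ : Type) [Field K] [NumberField K] [Field L₁] [NumberField L₁]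
    [Field L₂] [NumberField L₂] [Algebra K L₁] [Algebra K L₂] [IsGalois K L₁] [IsGalois K L₂]
    (h₁ : 2 ≤ Module.finrank K L₁) (h₂ : 3 ≤ Module.finrank K L₂) :
    {v : IsDedekindDomain.HeightOneSpectrum (NumberField.RingOfIntegers K) |
      (Ideal.absNorm v.asIdeal).Prime ∧
      (¬ ∀ w : IsDedekindDomain.HeightOneSpectrum (NumberField.RingOfIntegers L₁),
        w.asIdeal.under (NumberField.RingOfIntegers K) = v.asIdeal →
          Ideal.ramificationIdx w.asIdeal (NumberField.RingOfIntegers K) = 1 ∧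
          Ideal.inertiaDeg w.asIdeal (NumberField.RingOfIntegers K) = 1) ∧
      (¬ ∀ w : IsDedekindDomain.HeightOneSpectrum (NumberField.RingOfIntegers L₂),
        w.asIdeal.under (NumberField.RingOfIntegers K) = v.asIdeal →
          Ideal.ramificationIdx w.asIdeal (NumberField.RingOfIntegers K) = 1 ∧
          Ideal.inertiaDeg w.asIdeal (NumberField.RingOfIntegers K) = 1)}.Infinite := sorry

/-! ## BP-DI -/

theorem bpdi_exists_frobenius2 (L : IntermediateField ℚ Qb) (hfd : FiniteDimensional ℚ L)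
    (hnorm : ∀ σ : GQ, ∀ x ∈ L, σ x ∈ L)
    (g : GQ) (r p : ℕ) (hr : r.Prime) (hp : p.Prime) (hrp : r ≠ p)
    (hgrp : g ^ (r * p) ∈ L.fixingSubgroup) (hgr : g ^ r ∉ L.fixingSubgroup)
    (hgp : g ^ p ∉ L.fixingSubgroup) (M : ℕ) (hM : 0 < M) :
    ∃ (ℓ : ℕ) (A : ValuationSubring Qb) (φ : GQ) (k : ℕ), ℓ.Prime ∧ ¬ ℓ ∣ M ∧ A.LiesOverPrime ℓ ∧
      A.IsFrobeniusAt φ ℓ ∧ ¬ r ∣ k ∧ ¬ p ∣ k ∧ φ⁻¹ * g ^ k ∈ L.fixingSubgroup := sorry

/-! ## BP-KUM0 -/

theorem bpk0_exists_moves_root {p : ℕ} (hp : p.Prime) (hp2 : p ≠ 2) {q : ℕ} (hq : q.Prime)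
    {n : ℕ} (hn : 0 < n) (hpn : p ∣ n) {ζ : Qb} (hζ : IsPrimitiveRoot ζ n)
    {θ : Qb} (hθ : θ ^ p = (q : Qb)) :
    ∃ τ : GQ, τ ζ = ζ ∧ τ θ ≠ θ := sorry

/-! ## BP-GRP -/

theorem bpg_exists_sigma {p : ℕ} [Fact p.Prime] (hp2 : p ≠ 2)
    {G : Type*} [Group G] {V : Type*} [AddCommGroup V] [Module (ZMod p) V]
    [DistribMulAction G V] [SMulCommClass G (ZMod p) V]
    (hcard : Nat.card V = p ^ 2)
    (hirr : ∀ N : Submodule (ZMod p) V, (∀ g : G, ∀ x ∈ N, g • x ∈ N) → N = ⊥ ∨ N = ⊤)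
    (K : Subgroup G) [hK : K.Normal] (hKV : ¬ ∀ g ∈ K, ∀ v : V, g • v = v)
    {C : Type*} [CommGroup C] (hC : ∀ c : C, c ^ p = 1)
    (χ : K →* C) (hχ : ∃ τ : K, χ τ ≠ 1) :
    ∃ (σ : G) (hσ : σ ∈ K) (r : ℕ), r.Prime ∧ r ≠ p ∧ (∀ v : V, σ ^ (r * p) • v = v) ∧
      (∀ k : ℕ, ¬ r ∣ k → ¬ p ∣ k → ∀ v : V, σ ^ k • v = v → v = 0) ∧
      (∃ v : V, σ ^ p • v ≠ v) ∧ χ ⟨σ, hσ⟩ ≠ 1 := sorry

/-! ## BP-ASM : BRIDGE-prime -/

theorem bridge_prime (E : WeierstrassCurve ℚ) [E.IsElliptic] {W : WeierstrassCurve ℤ}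
    (hW : W.IsIntegralModelOf E) {p : ℕ} (hp : p.Prime) (hp2 : p ≠ 2)
    (hirr : GaloisRepIsIrreducible (K := AlgebraicClosure ℚ) ℚ E p)
    {q : ℕ} (hq : q.Prime) (hqp : q ≠ p) (n : ℕ) (hn : 0 < n) (hpn : p ∣ n) (M : ℕ) (hM : 0 < M) :
    ∃ ℓ : ℕ, ℓ.Prime ∧ W.IsGoodPrimeFor ℓ ∧ ¬ ℓ ∣ M ∧ ℓ ≠ p ∧ ℓ ≡ 1 [MOD n] ∧
      (¬ ∃ y : ℤ, (ℓ : ℤ) ∣ y ^ p - (q : ℤ)) ∧
      ¬ (p : ℤ) ∣ ((ℓ : ℤ) + 1 - W.apOfModel ℓ) := sorry

end Fermat.Agent.S41x.BridgePrimeSpec
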