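import Mathlib
import Fermat.Prelude.Def_FLTPrelim_GaloisRep
import Fermat.Prelude.Def_FLTPrelim_Modularity
import Fermat.Prelude.Def_FLTPrelim_Ramification
import Fermat.Prelude.Def_EllipticCurve_FrobeniusTrace
import Fermat.Agent.S13x.Smooth2
import Fermat.Agent.S13x.ValQbar
import Fermat.Agent.S05x.Inertia

/-!
# S41 bridge, row BRR (owner helper36): reduction of `p`-torsion at a good prime

`brr_frobenius_fixes_of` : good reduction at `ℓ ≠ p`, `p ∣ #W~(F_ℓ)`  ==>  every element of the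
decomposition group (in particular every Frobenius element) at a valuation subring over `ℓ` fixes a
nonzero `p`-torsion point of `W(Qbar)`.  The two division-polynomial inputs (row BRT) are taken as
hypotheses here; `BridgeReductionFinal.lean` plugs in the BRT file.
-/

set_option autoImplicit false
open WeierstrassCurve WeierstrassCurve.Affine WeierstrassCurve.Affine.Point Polynomial

namespace Fermat.Agent.S41x

/-! ## Roots of integer polynomials with unit leading coefficient -/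

section Roots

variable {K : Type*} [Field K] (A : ValuationSubring K)

/-- a root of an integer polynomial whose leading coefficient is a unit of `A` lies in `A` -/
theorem brr_root_integral (f : ℤ[X])
    (hlead : A.valuation ((f.leadingCoeff : ℤ) : K) = 1) {x : K}
    (hx : (f.map (Int.castRingHom K)).eval x = 0) : A.valuation x ≤ 1 := by
  have haev : aeval x f = 0 := by
    rw [aeval_def, ← eval_map]
    have : algebraMap ℤ K = Int.castRingHom K := Subsingleton.elim _ _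
    rw [this]; exact hx
  have hint : IsIntegral ℤ (f.leadingCoeff • x) := isIntegral_leadingCoeff_smul f x haev
  have hintA : IsIntegral A (f.leadingCoeff • x) := hint.tower_top
  obtain ⟨y, hy⟩ := IsIntegrallyClosed.isIntegral_iff.mp hintA
  have hmem : f.leadingCoeff • x ∈ A := by rw [← hy]; exact y.2
  have hv : A.valuation (f.leadingCoeff • x) ≤ 1 := (A.valuation_le_one_iff _).mpr hmem
  rw [zsmul_eq_mul, map_mul, hlead, one_mul] at hv
  exact hv

/-- **Root lifting.**  If `f(a)` is a non-unit for an integer `a`, some root of `f` in the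
algebraically closed field `K` is congruent to `a`. -/
theorem brr_exists_root_near [IsAlgClosed K] (f : ℤ[X])
    (hlead : A.valuation ((f.leadingCoeff : ℤ) : K) = 1) (a : ℤ)
    (ha : A.valuation (((f.eval a : ℤ)) : K) < 1) :
    ∃ x : K, (f.map (Int.castRingHom K)).eval x = 0 ∧ A.valuation ((a : K) - x) < 1 ∧
      A.valuation x ≤ 1 := by
  set g := f.map (Int.castRingHom K) with hg
  have hl0 : (Int.castRingHom K) f.leadingCoeff ≠ 0 := by
    intro h0
    have : ((f.leadingCoeff : ℤ) : K) = 0 := h0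
    rw [this, _root_.map_zero] at hlead
    exact zero_ne_one hlead
  have hlc : g.leadingCoeff = ((f.leadingCoeff : ℤ) : K) := by
    rw [hg, leadingCoeff_map_of_leadingCoeff_ne_zero _ hl0]; rfl
  have hg0 : g ≠ 0 := by
    intro h0
    rw [h0, leadingCoeff_zero] at hlc
    exact hl0 hlc.symm
  have hsplit : g.Splits := IsAlgClosed.splits g
  have heval : g.eval (a : K) = g.leadingCoeff * (g.roots.map ((a : K) - ·)).prod :=
    hsplit.eval_eq_prod_roots (a : K)
  have hevalZ : g.eval (a : K) = ((f.eval a : ℤ) : K) := by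
    rw [hg]; exact eval_intCast_map (Int.castRingHom K) f a
  have hroot : ∀ r ∈ g.roots, A.valuation r ≤ 1 := fun r hr =>
    brr_root_integral A f hlead ((mem_roots hg0).mp hr)
  by_contra hcon
  push Not at hcon
  have hall : ∀ r ∈ g.roots, A.valuation ((a : K) - r) = 1 := by
    intro r hr
    have hle : A.valuation ((a : K) - r) ≤ 1 :=
      (A.valuation.map_sub _ _).trans (max_le ((A.valuation_le_one_iff _).mpr (intCast_mem A a))
        (hroot r hr))
    have hnot := hcon r ((mem_roots hg0).mp hr)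
    by_contra hne
    exact absurd (hroot r hr) (not_le.mpr (by
      have := hnot (lt_of_le_of_ne hle hne)
      exact this))
  have hprod : A.valuation (g.roots.map ((a : K) - ·)).prod = 1 := by
    rw [map_multiset_prod, Multiset.map_map]
    apply Multiset.prod_eq_one
    intro c hc
    obtain ⟨r, hr, rfl⟩ := Multiset.mem_map.mp hc
    exact hall r hr
  have : A.valuation (g.eval (a : K)) = 1 := by
    rw [heval, map_mul, hprod, hlc, hlead, one_mul]
  rw [hevalZ] at this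
  exact absurd this (ne_of_lt ha)

end Roots

/-! ## Good reduction: integral points reduce to nonsingular points -/

section Good

variable {K : Type*} [Field K] (A : ValuationSubring K) {W : WeierstrassCurve K}

open Fermat.Agent.S13x

/-- a curve through the origin: the discriminant lies in the ideal `(a₃, a₄)` -/
theorem brr_Δ_of_a₆_eq_zero (h6 : W.a₆ = 0) :
    W.Δ = W.a₃ * (W.b₂ ^ 2 * (W.a₁ * W.a₄ - W.a₂ * W.a₃) - 8 * W.a₁ * W.b₄ ^ 2
        - 27 * W.a₃ ^ 3 + 9 * W.b₂ * W.b₄ * W.a₃)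
      + W.a₄ * (W.b₂ ^ 2 * W.a₄ - 16 * W.b₄ ^ 2) := by
  simp only [WeierstrassCurve.Δ, WeierstrassCurve.b₂, WeierstrassCurve.b₄, WeierstrassCurve.b₆,
    WeierstrassCurve.b₈, h6]
  ring

/-- integral curve through the origin with unit discriminant: `a₃` or `a₄` is a unit -/
theorem brr_unit_of_a₆_eq_zero (H : IsIntW A W) (h6 : W.a₆ = 0) (hΔ : A.valuation W.Δ = 1) :
    A.valuation W.a₃ = 1 ∨ A.valuation W.a₄ = 1 := by
  by_contra hcon
  push Not at hcon
  have h3 : A.valuation W.a₃ < 1 := lt_of_le_of_ne H.a₃ hcon.1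
  have h4 : A.valuation W.a₄ < 1 := lt_of_le_of_ne H.a₄ hcon.2
  have hb2 := H.b₂ A
  have hb4 := H.b₄ A
  have h8 : A.valuation (8 : K) ≤ 1 := by
    have : (8 : K) = ((8 : ℕ) : K) := by norm_num
    rw [this]; exact (A.valuation_le_one_iff _).mpr (natCast_mem A 8)
  have h27 : A.valuation (27 : K) ≤ 1 := by
    have : (27 : K) = ((27 : ℕ) : K) := by norm_num
    rw [this]; exact (A.valuation_le_one_iff _).mpr (natCast_mem A 27)
  have h9 : A.valuation (9 : K) ≤ 1 := by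
    have : (9 : K) = ((9 : ℕ) : K) := by norm_num
    rw [this]; exact (A.valuation_le_one_iff _).mpr (natCast_mem A 9)
  have h16 : A.valuation (16 : K) ≤ 1 := by
    have : (16 : K) = ((16 : ℕ) : K) := by norm_num
    rw [this]; exact (A.valuation_le_one_iff _).mpr (natCast_mem A 16)
  have hP : A.valuation (W.b₂ ^ 2 * (W.a₁ * W.a₄ - W.a₂ * W.a₃) - 8 * W.a₁ * W.b₄ ^ 2
        - 27 * W.a₃ ^ 3 + 9 * W.b₂ * W.b₄ * W.a₃) ≤ 1 := by
    refine sm2_le_add A (sm2_le_sub A (sm2_le_sub A ?_ ?_) ?_) ?_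
    · exact sm2_le_mul A (sm2_le_pow A hb2 2)
        (sm2_le_sub A (sm2_le_mul A H.a₁ H.a₄) (sm2_le_mul A H.a₂ H.a₃))
    · exact sm2_le_mul A (sm2_le_mul A h8 H.a₁) (sm2_le_pow A hb4 2)
    · exact sm2_le_mul A h27 (sm2_le_pow A H.a₃ 3)
    · exact sm2_le_mul A (sm2_le_mul A (sm2_le_mul A h9 hb2) hb4) H.a₃
  have hQ : A.valuation (W.b₂ ^ 2 * W.a₄ - 16 * W.b₄ ^ 2) ≤ 1 :=
    sm2_le_sub A (sm2_le_mul A (sm2_le_pow A hb2 2) H.a₄) (sm2_le_mul A h16 (sm2_le_pow A hb4 2))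
  have hlt : A.valuation W.Δ < 1 := by
    rw [brr_Δ_of_a₆_eq_zero h6]
    refine lt_of_le_of_lt (A.valuation.map_add _ _) (max_lt ?_ ?_)
    · rw [map_mul]
      calc A.valuation W.a₃ * _ ≤ A.valuation W.a₃ * 1 := by gcongr
        _ = A.valuation W.a₃ := mul_one _
        _ < 1 := h3
    · rw [map_mul]
      calc A.valuation W.a₄ * _ ≤ A.valuation W.a₄ * 1 := by gcongr
        _ = A.valuation W.a₄ := mul_one _
        _ < 1 := h4
  exact absurd hΔ (ne_of_lt hlt)

/-- **Good reduction.**  On an integral model with unit discriminant, an integral point reduces to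
a nonsingular point: one of the two partial derivatives is a unit. -/
theorem brr_nonsingular_reduction (H : IsIntW A W) (hΔ : A.valuation W.Δ = 1) {x y : K}
    (h : W.toAffine.Equation x y) (hx : A.valuation x ≤ 1) (hy : A.valuation y ≤ 1) :
    A.valuation (2 * y + W.a₁ * x + W.a₃) = 1 ∨
      A.valuation (3 * x ^ 2 + 2 * W.a₂ * x + W.a₄ - W.a₁ * y) = 1 := by
  set C : VariableChange K := ⟨1, x, 0, y⟩ with hC
  have hΔ' : (C • W).Δ = W.Δ := by
    rw [variableChange_Δ]; simp [hC]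
  have h1 : (C • W).a₁ = W.a₁ := by
    rw [variableChange_a₁]; simp [hC]
  have h2 : (C • W).a₂ = W.a₂ + 3 * x := by
    rw [variableChange_a₂]; simp [hC]
  have h3 : (C • W).a₃ = 2 * y + W.a₁ * x + W.a₃ := by
    rw [variableChange_a₃]; simp only [hC, Units.val_one, inv_one, one_pow, one_mul]; ring
  have h4 : (C • W).a₄ = 3 * x ^ 2 + 2 * W.a₂ * x + W.a₄ - W.a₁ * y := by
    rw [variableChange_a₄]; simp only [hC, Units.val_one, inv_one, one_pow, one_mul]; ring
  have h6 : (C • W).a₆ = 0 := by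
    rw [variableChange_a₆]
    simp only [hC, Units.val_one, inv_one, one_pow, one_mul]
    have e := (Affine.equation_iff x y).mp h
    linear_combination -e
  have h2' : A.valuation (2 : K) ≤ 1 := sm2_val_two_le A
  have h3' : A.valuation (3 : K) ≤ 1 := sm2_val_three_le A
  have H' : IsIntW A (C • W) := by
    refine ⟨?_, ?_, ?_, ?_, ?_⟩
    · rw [h1]; exact H.a₁
    · rw [h2]; exact sm2_le_add A H.a₂ (sm2_le_mul A h3' hx)
    · rw [h3]; exact sm2_le_add A (sm2_le_add A (sm2_le_mul A h2' hy) (sm2_le_mul A H.a₁ hx)) H.a₃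
    · rw [h4]
      exact sm2_le_sub A (sm2_le_add A (sm2_le_add A (sm2_le_mul A h3' (sm2_le_pow A hx 2))
        (sm2_le_mul A (sm2_le_mul A h2' H.a₂) hx)) H.a₄) (sm2_le_mul A H.a₁ hy)
    · rw [h6, _root_.map_zero]; exact zero_le_one
  have := brr_unit_of_a₆_eq_zero A H' h6 (by rw [hΔ']; exact hΔ)
  rwa [h3, h4] at this

end Good

/-! ## The curve over `Qbar` attached to an integral model -/

section Model

open Fermat.Agent.S13x Fermat.Agent.S05x

/-- `Qbar` -/
abbrev brrQb := AlgebraicClosure ℚ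
/-- the absolute Galois group of `ℚ` -/
abbrev brrGQ := brrQb ≃ₐ[ℚ] brrQb

variable (W : WeierstrassCurve ℤ)

/-- the base change of the integral model to `Qbar` -/
noncomputable abbrev brrE : WeierstrassCurve brrQb := (W.map (Int.castRingHom ℚ))⁄brrQb

theorem brr_E_eq : brrE W = W.map (Int.castRingHom brrQb) := by
  show (W.map (Int.castRingHom ℚ)).map (algebraMap ℚ brrQb) = _
  rw [WeierstrassCurve.map_map]
  congr 1

theorem brr_E_a₁ : (brrE W).a₁ = ((W.a₁ : ℤ) : brrQb) := by rw [brr_E_eq]; rfl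
theorem brr_E_a₂ : (brrE W).a₂ = ((W.a₂ : ℤ) : brrQb) := by rw [brr_E_eq]; rfl
theorem brr_E_a₃ : (brrE W).a₃ = ((W.a₃ : ℤ) : brrQb) := by rw [brr_E_eq]; rfl
theorem brr_E_a₄ : (brrE W).a₄ = ((W.a₄ : ℤ) : brrQb) := by rw [brr_E_eq]; rfl
theorem brr_E_a₆ : (brrE W).a₆ = ((W.a₆ : ℤ) : brrQb) := by rw [brr_E_eq]; rfl

theorem brr_E_Δ : (brrE W).Δ = ((W.Δ : ℤ) : brrQb) := by
  rw [brr_E_eq, WeierstrassCurve.map_Δ]; rfl

theorem brr_E_preΨ (n : ℤ) : (brrE W).preΨ n = (W.preΨ n).map (Int.castRingHom brrQb) := by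
  rw [brr_E_eq, WeierstrassCurve.map_preΨ]

theorem brr_isIntW (A : ValuationSubring brrQb) : IsIntW A (brrE W) where
  a₁ := by rw [brr_E_a₁]; exact val_int_le_one A _
  a₂ := by rw [brr_E_a₂]; exact val_int_le_one A _
  a₃ := by rw [brr_E_a₃]; exact val_int_le_one A _
  a₄ := by rw [brr_E_a₄]; exact val_int_le_one A _
  a₆ := by rw [brr_E_a₆]; exact val_int_le_one A _

/-- an integer divisible by `ℓ` is a non-unit of `A` -/
theorem brr_val_int_lt_one (A : ValuationSubring brrQb) {ℓ : ℕ} (hℓ : ℓ.Prime)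
    (hA : A.LiesOverPrime ℓ) {z : ℤ} (hz : (ℓ : ℤ) ∣ z) : A.valuation (z : brrQb) < 1 :=
  lt_of_le_of_ne (val_int_le_one A z) fun h => ((val_int_eq_one_iff A hℓ hA z).mp h) hz

end Model

/-! ## The two division-polynomial inputs (row BRT), as hypotheses -/

/-- BRT, part 1: `x`-coordinates of `p`-torsion points are roots of `preΨ p` (any field) -/
def brrHyp1 : Prop :=
  ∀ (F : Type) [Field F] [DecidableEq F] (W : WeierstrassCurve F) (p : ℕ), p.Prime → p ≠ 2 →
    ∀ (x y : F) (h : W.toAffine.Nonsingular x y), p • Point.some x y h = 0 →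
      (W.preΨ (p : ℤ)).eval x = 0

/-- BRT, part 2: over `Qbar` every root of `preΨ p` is the `x`-coordinate of a `p`-torsion point -/
def brrHyp2 : Prop :=
  ∀ (W : WeierstrassCurve ℚ), W.Δ ≠ 0 → ∀ (p : ℕ), p.Prime → p ≠ 2 →
    ∀ (x : brrQb), ((W⁄brrQb).preΨ (p : ℤ)).eval x = 0 →
      ∃ (y : brrQb) (h : (W⁄brrQb).toAffine.Nonsingular x y), p • Point.some x y h = 0

/-! ## Step 1: a point of order `p` on the reduction, lifted to integers -/

section Step1

theorem brr_exists_int_point (h1 : brrHyp1) (W : WeierstrassCurve ℤ) {p ℓ : ℕ} (hp : p.Prime)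
    (hp2 : p ≠ 2) (hℓ : ℓ.Prime) (hdvd : (p : ℤ) ∣ ((ℓ : ℤ) + 1 - W.apOfModel ℓ)) :
    ∃ a b : ℤ, (ℓ : ℤ) ∣ (W.preΨ (p : ℤ)).eval a ∧
      (ℓ : ℤ) ∣ b ^ 2 + W.a₁ * a * b + W.a₃ * b - (a ^ 3 + W.a₂ * a ^ 2 + W.a₄ * a + W.a₆) := by
  have : Fact ℓ.Prime := ⟨hℓ⟩
  have : Fact p.Prime := ⟨hp⟩
  set Wt : WeierstrassCurve (ZMod ℓ) := W.reductionMod ℓ with hWt
  have hcard : ((ℓ : ℤ) + 1 - W.apOfModel ℓ) = (Nat.card Wt.toAffine.Point : ℤ) := by
    simp only [WeierstrassCurve.apOfModel, WeierstrassCurve.traceOfFrobenius,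
      WeierstrassCurve.card, Nat.card_zmod, hWt]
    ring
  rw [hcard] at hdvd
  have hpdvd : p ∣ Nat.card Wt.toAffine.Point := by exact_mod_cast hdvd
  obtain ⟨Q, hQ⟩ := exists_prime_addOrderOf_dvd_card' (G := Wt.toAffine.Point) p hpdvd
  have hQ0 : Q ≠ 0 := by
    rintro rfl
    rw [addOrderOf_zero] at hQ
    exact hp.one_lt.ne hQ
  have hpQ : p • Q = 0 := by rw [← hQ]; exact addOrderOf_nsmul_eq_zero Q
  cases Q with
  | zero => exact absurd rfl hQ0
  | some xt yt ht =>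
    have hroot := h1 (ZMod ℓ) Wt p hp hp2 xt yt ht hpQ
    refine ⟨(xt.val : ℤ), (yt.val : ℤ), ?_, ?_⟩
    · rw [hWt, WeierstrassCurve.reductionMod, WeierstrassCurve.map_preΨ] at hroot
      have hx : (((xt.val : ℤ)) : ZMod ℓ) = xt := by
        rw [Int.cast_natCast, ZMod.natCast_zmod_val]
      rw [← hx] at hroot
      have := eval_intCast_map (Int.castRingHom (ZMod ℓ)) (W.preΨ (p : ℤ)) (xt.val : ℤ)
      rw [this] at hroot
      exact (ZMod.intCast_zmod_eq_zero_iff_dvd _ _).mp hroot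
    · have e := (Affine.equation_iff xt yt).mp ht.1
      have hx : (((xt.val : ℤ)) : ZMod ℓ) = xt := by
        rw [Int.cast_natCast, ZMod.natCast_zmod_val]
      have hy : (((yt.val : ℤ)) : ZMod ℓ) = yt := by
        rw [Int.cast_natCast, ZMod.natCast_zmod_val]
      apply (ZMod.intCast_zmod_eq_zero_iff_dvd _ _).mp
      have ha1 : Wt.a₁ = ((W.a₁ : ℤ) : ZMod ℓ) := rfl
      have ha2 : Wt.a₂ = ((W.a₂ : ℤ) : ZMod ℓ) := rfl
      have ha3 : Wt.a₃ = ((W.a₃ : ℤ) : ZMod ℓ) := rfl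
      have ha4 : Wt.a₄ = ((W.a₄ : ℤ) : ZMod ℓ) := rfl
      have ha6 : Wt.a₆ = ((W.a₆ : ℤ) : ZMod ℓ) := rfl
      push_cast
      simp only [ZMod.natCast_zmod_val]
      rw [ha1, ha2, ha3, ha4, ha6] at e
      linear_combination e

end Step1

/-! ## Step 2: lifting the point to a `p`-torsion point over `Qbar` -/

section Step2

open Fermat.Agent.S13x Fermat.Agent.S05x

theorem brr_val_p_eq_one {p ℓ : ℕ} (hp : p.Prime) (hℓ : ℓ.Prime) (hℓp : ℓ ≠ p)
    (A : ValuationSubring brrQb) (hA : A.LiesOverPrime ℓ) :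
    A.valuation (((p : ℤ) : ℤ) : brrQb) = 1 := by
  rw [val_int_eq_one_iff A hℓ hA]
  intro hdvd
  have : ℓ ∣ p := Int.natCast_dvd_natCast.mp hdvd
  exact hℓp ((Nat.prime_dvd_prime_iff_eq hℓ hp).mp this)

theorem brr_leadingCoeff_preΨ (W : WeierstrassCurve ℤ) {p : ℕ} (hp : p.Prime) (hp2 : p ≠ 2) :
    (W.preΨ (p : ℤ)).leadingCoeff = (p : ℤ) := by
  have hkey := WeierstrassCurve.leadingCoeff_preΨ W (n := (p : ℤ))
    (by simpa using hp.ne_zero)
  rw [hkey]
  have hodd : ¬ Even (p : ℤ) := by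
    rw [Int.even_coe_nat]
    exact Nat.not_even_iff_odd.mpr (hp.odd_of_ne_two hp2)
  rw [if_neg hodd, Int.cast_id]

theorem brr_exists_lift (h2 : brrHyp2) (W : WeierstrassCurve ℤ) {p ℓ : ℕ} (hp : p.Prime)
    (hp2 : p ≠ 2) (hℓ : ℓ.Prime) (hℓp : ℓ ≠ p) (hgood : W.IsGoodPrimeFor ℓ)
    (A : ValuationSubring brrQb) (hA : A.LiesOverPrime ℓ) {a b : ℤ}
    (ha : (ℓ : ℤ) ∣ (W.preΨ (p : ℤ)).eval a)
    (hb : (ℓ : ℤ) ∣ b ^ 2 + W.a₁ * a * b + W.a₃ * b - (a ^ 3 + W.a₂ * a ^ 2 + W.a₄ * a + W.a₆)) :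
    ∃ (x y : brrQb) (h : (brrE W).toAffine.Nonsingular x y), p • Point.some x y h = 0 ∧
      A.valuation x ≤ 1 ∧ A.valuation y ≤ 1 ∧ A.valuation (x - (a : brrQb)) < 1 ∧
      A.valuation (y - (b : brrQb)) < 1 := by
  have H := brr_isIntW W A
  have hlead : A.valuation (((W.preΨ (p : ℤ)).leadingCoeff : ℤ) : brrQb) = 1 := by
    rw [brr_leadingCoeff_preΨ W hp hp2]; exact brr_val_p_eq_one hp hℓ hℓp A hA
  obtain ⟨x, hxroot, hxa, hx⟩ := brr_exists_root_near A (W.preΨ (p : ℤ)) hlead a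
    (brr_val_int_lt_one A hℓ hA ha)
  have hΔ : (W.map (Int.castRingHom ℚ)).Δ ≠ 0 := by
    rw [WeierstrassCurve.map_Δ]
    intro h0
    have : W.Δ = 0 := by
      have : ((W.Δ : ℤ) : ℚ) = 0 := h0
      exact_mod_cast this
    exact hgood (by rw [this]; exact dvd_zero _)
  have hxroot' : ((brrE W).preΨ (p : ℤ)).eval x = 0 := by rw [brr_E_preΨ]; exact hxroot
  obtain ⟨y, h, hpP⟩ := h2 (W.map (Int.castRingHom ℚ)) hΔ p hp hp2 x hxroot'
  have hy : A.valuation y ≤ 1 := sm2_y_integral A H h hx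
  have hxa' : A.valuation (x - (a : brrQb)) < 1 := by rw [Valuation.map_sub_swap]; exact hxa
  have e := (Affine.equation_iff x y).mp h.1
  have e' : y ^ 2 + ((W.a₁ : ℤ) : brrQb) * x * y + ((W.a₃ : ℤ) : brrQb) * y =
      x ^ 3 + ((W.a₂ : ℤ) : brrQb) * x ^ 2 + ((W.a₄ : ℤ) : brrQb) * x + ((W.a₆ : ℤ) : brrQb) := by
    have := e
    rw [show (brrE W).toAffine.a₁ = ((W.a₁ : ℤ) : brrQb) from brr_E_a₁ W,
      show (brrE W).toAffine.a₂ = ((W.a₂ : ℤ) : brrQb) from brr_E_a₂ W,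
      show (brrE W).toAffine.a₃ = ((W.a₃ : ℤ) : brrQb) from brr_E_a₃ W,
      show (brrE W).toAffine.a₄ = ((W.a₄ : ℤ) : brrQb) from brr_E_a₄ W,
      show (brrE W).toAffine.a₆ = ((W.a₆ : ℤ) : brrQb) from brr_E_a₆ W] at this
    exact this
  have hD := brr_val_int_lt_one A hℓ hA hb
  have hva : A.valuation ((a : ℤ) : brrQb) ≤ 1 := val_int_le_one A a
  have hvb : A.valuation ((b : ℤ) : brrQb) ≤ 1 := val_int_le_one A b
  have hv1 : A.valuation ((W.a₁ : ℤ) : brrQb) ≤ 1 := val_int_le_one A _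
  have hv2 : A.valuation ((W.a₂ : ℤ) : brrQb) ≤ 1 := val_int_le_one A _
  have hv3 : A.valuation ((W.a₃ : ℤ) : brrQb) ≤ 1 := val_int_le_one A _
  have hv4 : A.valuation ((W.a₄ : ℤ) : brrQb) ≤ 1 := val_int_le_one A _
  have hprod : (y - (b : brrQb)) * (y + (b : brrQb) + ((W.a₁ : ℤ) : brrQb) * (a : brrQb)
        + ((W.a₃ : ℤ) : brrQb)) =
      (x - (a : brrQb)) * (x ^ 2 + x * (a : brrQb) + (a : brrQb) ^ 2
        + ((W.a₂ : ℤ) : brrQb) * (x + (a : brrQb)) + ((W.a₄ : ℤ) : brrQb)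
        - ((W.a₁ : ℤ) : brrQb) * y)
      - ((b ^ 2 + W.a₁ * a * b + W.a₃ * b - (a ^ 3 + W.a₂ * a ^ 2 + W.a₄ * a + W.a₆) : ℤ) :
          brrQb) := by
    push_cast
    linear_combination e'
  have hT : A.valuation (x ^ 2 + x * (a : brrQb) + (a : brrQb) ^ 2
        + ((W.a₂ : ℤ) : brrQb) * (x + (a : brrQb)) + ((W.a₄ : ℤ) : brrQb)
        - ((W.a₁ : ℤ) : brrQb) * y) ≤ 1 :=
    sm2_le_sub A (sm2_le_add A (sm2_le_add A (sm2_le_add A (sm2_le_add A (sm2_le_pow A hx 2)
      (sm2_le_mul A hx hva)) (sm2_le_pow A hva 2)) (sm2_le_mul A hv2 (sm2_le_add A hx hva))) hv4)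
      (sm2_le_mul A hv1 hy)
  have hprodlt : A.valuation ((y - (b : brrQb)) * (y + (b : brrQb)
      + ((W.a₁ : ℤ) : brrQb) * (a : brrQb) + ((W.a₃ : ℤ) : brrQb))) < 1 := by
    rw [hprod]
    refine lt_of_le_of_lt (A.valuation.map_sub _ _) (max_lt ?_ hD)
    rw [map_mul]
    calc A.valuation (x - (a : brrQb)) * _ ≤ A.valuation (x - (a : brrQb)) * 1 := by gcongr
      _ = A.valuation (x - (a : brrQb)) := mul_one _
      _ < 1 := hxa'
  have hf1 : A.valuation (y - (b : brrQb)) ≤ 1 := sm2_le_sub A hy hvb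
  have hf2 : A.valuation (y + (b : brrQb) + ((W.a₁ : ℤ) : brrQb) * (a : brrQb)
      + ((W.a₃ : ℤ) : brrQb)) ≤ 1 :=
    sm2_le_add A (sm2_le_add A (sm2_le_add A hy hvb) (sm2_le_mul A hv1 hva)) hv3
  by_cases hcase : A.valuation (y - (b : brrQb)) < 1
  · exact ⟨x, y, h, hpP, hx, hy, hxa', hcase⟩
  · have hf1' : A.valuation (y - (b : brrQb)) = 1 := le_antisymm hf1 (not_lt.mp hcase)
    have hf2' : A.valuation (y + (b : brrQb) + ((W.a₁ : ℤ) : brrQb) * (a : brrQb)
        + ((W.a₃ : ℤ) : brrQb)) < 1 := by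
      rw [map_mul, hf1', one_mul] at hprodlt
      exact hprodlt
    obtain ⟨h', hneg⟩ := wg_neg_some h
    have hy' : A.valuation ((brrE W).toAffine.negY x y) ≤ 1 := sm2_y_integral A H h' hx
    refine ⟨x, (brrE W).toAffine.negY x y, h', ?_, hx, hy', hxa', ?_⟩
    · rw [← hneg, neg_nsmul, hpP, _root_.neg_zero]
    · have hny : (brrE W).toAffine.negY x y - (b : brrQb) =
          -(y + (b : brrQb) + ((W.a₁ : ℤ) : brrQb) * (a : brrQb) + ((W.a₃ : ℤ) : brrQb))
            - ((W.a₁ : ℤ) : brrQb) * (x - (a : brrQb)) := by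
        simp only [Affine.negY]
        rw [show (brrE W).toAffine.a₁ = ((W.a₁ : ℤ) : brrQb) from brr_E_a₁ W,
          show (brrE W).toAffine.a₃ = ((W.a₃ : ℤ) : brrQb) from brr_E_a₃ W]
        ring
      rw [hny]
      refine lt_of_le_of_lt (A.valuation.map_sub _ _) (max_lt ?_ ?_)
      · rw [Valuation.map_neg]; exact hf2'
      · rw [map_mul]
        calc A.valuation ((W.a₁ : ℤ) : brrQb) * A.valuation (x - (a : brrQb))
            ≤ 1 * A.valuation (x - (a : brrQb)) := by gcongr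
          _ = A.valuation (x - (a : brrQb)) := one_mul _
          _ < 1 := hxa'

end Step2

/-! ## Step 3: the decomposition group fixes the lifted point -/

section Step3

open Fermat.Agent.S13x Fermat.Agent.S05x

theorem brr_fixed_of_decomp (h1 : brrHyp1) (W : WeierstrassCurve ℤ) {p ℓ : ℕ} (hp : p.Prime)
    (hp2 : p ≠ 2) (hℓ : ℓ.Prime) (hℓp : ℓ ≠ p) (hgood : W.IsGoodPrimeFor ℓ)
    (A : ValuationSubring brrQb) (hA : A.LiesOverPrime ℓ) (σ : brrGQ)
    (hσ : σ ∈ A.decompositionSubgroup ℚ) {a b : ℤ} {x y : brrQb}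
    (h : (brrE W).toAffine.Nonsingular x y) (hpP : p • Point.some x y h = 0)
    (hx : A.valuation x ≤ 1) (hy : A.valuation y ≤ 1)
    (hxa : A.valuation (x - (a : brrQb)) < 1) (hyb : A.valuation (y - (b : brrQb)) < 1) :
    σ • (Point.some x y h : ((W.map (Int.castRingHom ℚ))⁄brrQb).Point) = Point.some x y h := by
  have H := brr_isIntW W A
  have hlead : A.valuation (((W.preΨ (p : ℤ)).leadingCoeff : ℤ) : brrQb) = 1 := by
    rw [brr_leadingCoeff_preΨ W hp hp2]; exact brr_val_p_eq_one hp hℓ hℓp A hA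
  have hΔ : A.valuation (brrE W).Δ = 1 := by
    rw [brr_E_Δ]; exact (val_int_eq_one_iff A hℓ hA _).mpr hgood
  obtain ⟨h', hσP⟩ : ∃ h' : (brrE W).toAffine.Nonsingular (σ x) (σ y),
      σ • (Point.some x y h : ((W.map (Int.castRingHom ℚ))⁄brrQb).Point) =
        Point.some (σ x) (σ y) h' := ⟨_, rfl⟩
  have htors : p • (σ • (Point.some x y h : ((W.map (Int.castRingHom ℚ))⁄brrQb).Point)) = 0 := by
    have : σ • (p • (Point.some x y h : ((W.map (Int.castRingHom ℚ))⁄brrQb).Point)) =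
        p • (σ • (Point.some x y h : ((W.map (Int.castRingHom ℚ))⁄brrQb).Point)) := by
      rw [algEquiv_smul_def, algEquiv_smul_def, map_nsmul]
    rw [← this, hpP]
    rfl
  have hcongr : ∀ (z : brrQb) (c : ℤ), A.valuation (z - (c : brrQb)) < 1 →
      A.valuation (z - σ z) < 1 := by
    intro z c hz
    have halgQ : Algebra.IsAlgebraic ℚ (AlgebraicClosure ℚ) := AlgebraicClosure.isAlgebraic ℚ
    have halg : IsAlgebraic ℚ (z - (c : brrQb)) := halgQ.isAlgebraic _
    have hσz : A.valuation (σ (z - (c : brrQb))) < 1 := by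
      rw [vq_val_decomp hℓ hA hσ _ halg]; exact hz
    have : z - σ z = (z - (c : brrQb)) - σ (z - (c : brrQb)) := by
      rw [map_sub, map_intCast]; ring
    rw [this]
    exact lt_of_le_of_lt (A.valuation.map_sub _ _) (max_lt hz hσz)
  have hns := brr_nonsingular_reduction A H hΔ h.1 hx hy
  have hmem := sm2_sub_mem_E1 A H h h' hx hy (hcongr x a hxa) (hcongr y b hyb) hns
  rw [hσP]
  rcases hmem with h0 | hlt
  · exact (sub_eq_zero.mp h0).symm
  · exfalso
    have hne : Point.some x y h - Point.some (σ x) (σ y) h' ≠ 0 := by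
      intro h0
      rw [h0] at hlt
      simp only [wgX] at hlt
      rw [_root_.map_zero] at hlt
      exact absurd hlt (not_lt.mpr zero_le_one)
    have htorsR : p • (Point.some x y h - Point.some (σ x) (σ y) h') = 0 := by
      rw [nsmul_sub, hpP, ← hσP, htors, sub_zero]
    obtain ⟨xR, yR, hR, hQ⟩ := wg_exists_some hne
    rw [hQ] at htorsR hlt
    rw [wgX_some] at hlt
    have hroot := h1 brrQb (brrE W) p hp hp2 xR yR hR htorsR
    rw [brr_E_preΨ] at hroot
    exact absurd (brr_root_integral A (W.preΨ (p : ℤ)) hlead hroot) (not_le.mpr hlt)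

end Step3

/-! ## Assembly -/

/-- **BR-R** (modulo the two BRT inputs): at a good prime `ℓ ≠ p` with `p ∣ #W~(F_ℓ)`, every
Frobenius element at `ℓ` fixes a nonzero `p`-torsion point of `W(Qbar)`. -/
theorem brr_frobenius_fixes_of (h1 : brrHyp1) (h2 : brrHyp2) (W : WeierstrassCurve ℤ) {p ℓ : ℕ}
    (hp : p.Prime) (hp2 : p ≠ 2) (hℓ : ℓ.Prime) (hℓp : ℓ ≠ p) (hgood : W.IsGoodPrimeFor ℓ)
    (hdvd : (p : ℤ) ∣ ((ℓ : ℤ) + 1 - W.apOfModel ℓ))
    (A : ValuationSubring brrQb) (hA : A.LiesOverPrime ℓ) (φ : brrGQ)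
    (hφ : A.IsFrobeniusAt φ ℓ) :
    ∃ P : ((W.map (Int.castRingHom ℚ))⁄brrQb).Point, P ≠ 0 ∧ p • P = 0 ∧ φ • P = P := by
  obtain ⟨a, b, ha, hb⟩ := brr_exists_int_point h1 W hp hp2 hℓ hdvd
  obtain ⟨x, y, h, hpP, hx, hy, hxa, hyb⟩ := brr_exists_lift h2 W hp hp2 hℓ hℓp hgood A hA ha hb
  refine ⟨Point.some x y h, some_ne_zero h, hpP, ?_⟩
  exact brr_fixed_of_decomp h1 W hp hp2 hℓ hℓp hgood A hA φ hφ.mem_decompositionSubgroup h hpP
    hx hy hxa hyb

end Fermat.Agent.S41x
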