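/-
S41 side project "BRIDGE" (architect helper66):  E[p] irreducible  ==>  the congruence class of f is NOT Eisenstein.

SPEC / STUB FILE: sorry-only interface statements.  NEVER import this file from a real module; copy the statement you
own into your own file `Fermat/Agent/S41x/<Row>.lean` (fresh prefixed names, e.g. `brg_`, `brfd_`, `brt_`, `brr_`)
and prove it there.  Rows are tracked in the team table `s41_plan`.

Mathematical content (no Hasse bound, no Chebotarev, no class field theory):
* BR-G   : an irreducible subgroup of GL_2(F_p) contains an element g of PRIME order r != p without eigenvalue 1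
           (take g in G ∩ SL_2 of prime order r != p: semisimple, det 1, nontrivial => eigenvalues l, 1/l != 1;
            if G ∩ SL_2 is a p-group it has a fixed line or is trivial, and then G is reducible).
* BR-FD  : Frobenius density theorem, PRIME ORDER case only: L/Q finite Galois inside Qbar, g of order r (prime) in
           Gal(L/Q): there are infinitely many l with a Frobenius element phi at l such that phi|L is a NONTRIVIAL
           power of g|L.  Proof: K = L^<g>, [L:K] = r; a degree-one prime v of K, unramified in L, either splits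
           completely in L or is inert (then Frob generates <g>); if almost all were split then
           zeta_K(s) <= A * zeta_L(s)^(1/r) on (1,2], contradicting the simple poles
           (Mathlib `NumberField.tendsto_sub_one_mul_dedekindZeta_nhdsGT`, landed S14x/FIGCoreZeta.fgc_le_of_dedekindZeta,
           S14x/FIEulerBridge3.feb3_dedekindZeta_eq_cexp, template S14x/FIZetaSplit*.lean);
           dictionary number-field primes <-> valuation subrings of Qbar: S14x/DictVal, S54x/FrobExists, S13x/locVS.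
* BR-T   : over Qbar the p-division polynomial preΨ_p of W has exactly the x-coordinates of the nonzero p-torsion points
           as roots ((p^2-1)/2 distinct roots, leading coefficient p)  [S13x tq_card_torsion, S13x/DivSeq
           ds_preΨ_eval_eq_zero_of_prime (p >= 5, any field), S51x/Tor3 (p = 3), Mathlib natDegree_preΨ/leadingCoeff_preΨ].
* BR-R   : good reduction at l != p, p | #W~(F_l)  ==>  every Frobenius element at l fixes a nonzero p-torsion point of
           W(Qbar).  (Cauchy gives Q~ in W~(F_l) of order p; x(Q~) is a root of preΨ_p mod l = p * prod (X - x_i~);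
           lift to P = (x_i, ±y_i); reduction is injective on p-torsion [S13x/Smooth2 sm2_sub_mem_E1 + x-integrality
           of torsion from BR-T]; Frobenius-equivariance of reduction => phi P = P.)  NO homomorphism property of the
           reduction map is needed.
* BR-TOP : the bridge.
-/
import Mathlib
import Fermat.Prelude.Def_FLTPrelim_GaloisRep
import Fermat.Prelude.Def_FLTPrelim_Modularity
import Fermat.Prelude.Def_FLTPrelim_Ramification
import Fermat.Prelude.Def_EllipticCurve_FrobeniusTrace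

set_option autoImplicit false
open WeierstrassCurve WeierstrassCurve.Affine WeierstrassCurve.Affine.Point

namespace Fermat.Agent.S41x.BridgeSpec

abbrev Qb := AlgebraicClosure ℚ
abbrev GQ := Qb ≃ₐ[ℚ] Qb

/-! ## BR-G : group theory (Mathlib only) -/

theorem brg_exists_fixedPointFree {p : ℕ} [Fact p.Prime]
    {G : Type*} [Group G] {V : Type*} [AddCommGroup V] [Module (ZMod p) V]
    [DistribMulAction G V] [SMulCommClass G (ZMod p) V]
    (hcard : Nat.card V = p ^ 2)
    (hirr : ∀ N : Submodule (ZMod p) V, (∀ g : G, ∀ x ∈ N, g • x ∈ N) → N = ⊥ ∨ N = ⊤) :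
    ∃ (g : G) (r : ℕ), r.Prime ∧ r ≠ p ∧ (∀ v : V, g ^ r • v = v) ∧ (∀ v : V, g • v = v → v = 0) := sorry

/-! ## BR-FD : Frobenius density, prime order case -/

theorem brfd_exists_frobenius (L : IntermediateField ℚ Qb) (hfd : FiniteDimensional ℚ L)
    (hnorm : ∀ σ : GQ, ∀ x ∈ L, σ x ∈ L)
    (g : GQ) (r : ℕ) (hr : r.Prime) (hgr : g ^ r ∈ L.fixingSubgroup) (hg : g ∉ L.fixingSubgroup)
    (M : ℕ) (hM : 0 < M) :
    ∃ (ℓ : ℕ) (A : ValuationSubring Qb) (φ : GQ) (k : ℕ), ℓ.Prime ∧ ¬ ℓ ∣ M ∧ A.LiesOverPrime ℓ ∧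
      A.IsFrobeniusAt φ ℓ ∧ ¬ r ∣ k ∧ φ⁻¹ * g ^ k ∈ L.fixingSubgroup := sorry

/-- FD-AN (pure number fields; `Pl`, `plNorm`, `SplitsCompletely` are the LANDED defs of `Fermat.Agent.S14x.Defs`,
restated here so that this stub file has no Agent imports): in a Galois extension `L/K` of number fields of degree
`≥ 2` infinitely many degree-one primes of `K` do NOT split completely.  Proof: otherwise
`ζ_K(s) ≤ A * ζ_L(s)^(1/n)` on `(1,2]` (Euler products, `feb3_dedekindZeta_eq_cexp`), contradicting
`fgc_le_of_dedekindZeta` (simple poles).  -/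
theorem brfd_nf_infinite_nonsplit (K L : Type) [Field K] [NumberField K] [Field L] [NumberField L] [Algebra K L]
    [IsGalois K L] (hdeg : 2 ≤ Module.finrank K L) :
    {v : IsDedekindDomain.HeightOneSpectrum (NumberField.RingOfIntegers K) |
      (Ideal.absNorm v.asIdeal).Prime ∧
      ¬ ∀ w : IsDedekindDomain.HeightOneSpectrum (NumberField.RingOfIntegers L),
        w.asIdeal.under (NumberField.RingOfIntegers K) = v.asIdeal →
          Ideal.ramificationIdx w.asIdeal (NumberField.RingOfIntegers K) = 1 ∧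
          Ideal.inertiaDeg w.asIdeal (NumberField.RingOfIntegers K) = 1}.Infinite := sorry

/-! ## BR-T : p-torsion and the division polynomial over Qbar -/

/-- x-coordinates of p-torsion points are roots of `preΨ p` (any field, any odd prime `p`). -/
theorem brt_preΨ_eval_eq_zero {F : Type*} [Field F] [DecidableEq F] (W : WeierstrassCurve F) {p : ℕ} (hp : p.Prime)
    (hp2 : p ≠ 2) {x y : F} (h : W.toAffine.Nonsingular x y) (hP : p • Point.some x y h = 0) :
    (W.preΨ (p : ℤ)).eval x = 0 := sorry

/-- over `Qbar`: every root of `preΨ p` is the x-coordinate of a nonzero p-torsion point. -/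
theorem brt_exists_point_of_root (W : WeierstrassCurve ℚ) (hΔ : W.Δ ≠ 0) {p : ℕ} (hp : p.Prime) (hp2 : p ≠ 2)
    (x : Qb) (hx : ((W⁄Qb).preΨ (p : ℤ)).eval x = 0) :
    ∃ (y : Qb) (h : (W⁄Qb).toAffine.Nonsingular x y), p • Point.some x y h = 0 := sorry

/-! ## BR-R : reduction -/

theorem brr_frobenius_fixes (W : WeierstrassCurve ℤ) {p ℓ : ℕ} (hp : p.Prime) (hp2 : p ≠ 2) (hℓ : ℓ.Prime)
    (hℓp : ℓ ≠ p) (hℓ6 : ¬ ℓ ∣ 6) (hgood : W.IsGoodPrimeFor ℓ) (hdvd : (p : ℤ) ∣ ((ℓ : ℤ) + 1 - W.apOfModel ℓ))
    (A : ValuationSubring Qb) (hA : A.LiesOverPrime ℓ) (φ : GQ) (hφ : A.IsFrobeniusAt φ ℓ) :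
    ∃ P : ((W.map (Int.castRingHom ℚ))⁄Qb).Point, P ≠ 0 ∧ p • P = 0 ∧ φ • P = P := sorry

/-! ## BR-TOP : the bridge -/

/-- transfer along the variable change: a Frobenius-fixed nonzero p-torsion point on the integral model gives one on `E` -/
theorem brtop_transfer (E : WeierstrassCurve ℚ) {W : WeierstrassCurve ℤ} (hW : W.IsIntegralModelOf E) (p : ℕ) (φ : GQ)
    (h : ∃ P : ((W.map (Int.castRingHom ℚ))⁄Qb).Point, P ≠ 0 ∧ p • P = 0 ∧ φ • P = P) :
    ∃ x : Submodule.torsionBy ℤ (E⁄Qb).Point p, x ≠ 0 ∧ φ • x = x := sorry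

/-- THE BRIDGE: if `E[p]` is irreducible then for every `M` there is a good prime `ℓ ∤ M`, `ℓ ≠ p`, with
`p ∤ #W~(F_ℓ) = ℓ + 1 - a_ℓ(W)`.  (Consumer: if `𝔪` were Eisenstein, `a_ℓ(f) ≡ 1 + ℓ` for all `ℓ ∤ N q'`, then `hcong`
of S41 gives `p ∣ ℓ + 1 - a_ℓ(W)` for all good `ℓ ∤ N q' p` - contradiction.) -/
theorem bridge (E : WeierstrassCurve ℚ) [E.IsElliptic] {W : WeierstrassCurve ℤ} (hW : W.IsIntegralModelOf E)
    {p : ℕ} (hp : p.Prime) (hp2 : p ≠ 2)
    (hirr : GaloisRepIsIrreducible (K := AlgebraicClosure ℚ) ℚ E p) (M : ℕ) (hM : 0 < M) :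
    ∃ ℓ : ℕ, ℓ.Prime ∧ W.IsGoodPrimeFor ℓ ∧ ¬ ℓ ∣ M ∧ ℓ ≠ p ∧
      ¬ (p : ℤ) ∣ ((ℓ : ℤ) + 1 - W.apOfModel ℓ) := sorry

end Fermat.Agent.S41x.BridgeSpec
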