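/-
S41 BRIDGE, row BRT (backup helper40), counting half.  prefix `brtc_`.

Over `Qbar` every root of the `p`-division polynomial `preΨ p` (`p` an odd prime) of an elliptic curve
`W/ℚ` is the `x`-coordinate of a nonzero `p`-torsion point:
`|E[p] \ 0| = p² - 1` (`S13x tq_card_torsion`), the fibres of `P ↦ x(P)` have at most two elements
(`X_eq_iff`), and `natDegree (preΨ p) = (p² - 1)/2`.

Hypothesis form: the statement `hN` ("x-coordinates of p-torsion points are roots") is the other
half of BRT (`brt_preΨ_eval_eq_zero`).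
-/
import Mathlib
import Fermat.Agent.S13x.TorsionQbar

set_option autoImplicit false

open WeierstrassCurve WeierstrassCurve.Affine WeierstrassCurve.Affine.Point

namespace Fermat.Agent.S41x

/-- the `x`-coordinate of a point (junk value `0` at the origin). -/
noncomputable def brtc_x {F : Type*} [Field F] {E : Affine F} : E.Point → F
  | .zero => 0
  | .some x _ _ => x

theorem brtc_x_some {F : Type*} [Field F] {E : Affine F} {x y : F} (h : E.Nonsingular x y) :
    brtc_x (Point.some x y h) = x := rfl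

/-- two nonzero points with the same `x`-coordinate are equal up to sign. -/
theorem brtc_eq_or_eq_neg {F : Type*} [Field F] {E : Affine F} {P Q : E.Point} (hP : P ≠ 0)
    (hQ : Q ≠ 0) (h : brtc_x P = brtc_x Q) : Q = P ∨ Q = -P := by
  rcases P with _ | ⟨x₁, y₁, h₁⟩
  · exact absurd rfl hP
  rcases Q with _ | ⟨x₂, y₂, h₂⟩
  · exact absurd rfl hQ
  have hx : x₂ = x₁ := h.symm
  exact X_eq_iff.mp hx

theorem brtc_exists_point_of_root (W : WeierstrassCurve ℚ) (hΔ : W.Δ ≠ 0) {p : ℕ} (hp : p.Prime)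
    (hp2 : p ≠ 2)
    (hN : ∀ (x y : AlgebraicClosure ℚ) (h : (W⁄(AlgebraicClosure ℚ)).Nonsingular x y),
      p • Point.some x y h = 0 → ((W⁄(AlgebraicClosure ℚ)).preΨ (p : ℤ)).eval x = 0)
    (x : AlgebraicClosure ℚ) (hx : ((W⁄(AlgebraicClosure ℚ)).preΨ (p : ℤ)).eval x = 0) :
    ∃ (y : AlgebraicClosure ℚ) (h : (W⁄(AlgebraicClosure ℚ)).Nonsingular x y),
      p • Point.some x y h = 0 := by
  classical
  set E : Affine (AlgebraicClosure ℚ) := W⁄(AlgebraicClosure ℚ) with hE
  set T := Submodule.torsionBy ℤ E.Point ((p : ℕ) : ℤ) with hT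
  have hcard : Nat.card T = p ^ 2 := Fermat.Agent.S13x.tq_card_torsion W hΔ p hp.one_le
  have hfin : Finite T := Fermat.Agent.S13x.tq_finite_torsion W hΔ p hp.one_le
  let _ : Fintype T := Fintype.ofFinite T
  -- the polynomial
  have hpne : ((((p : ℕ) : ℤ) : ℤ) : AlgebraicClosure ℚ) ≠ 0 := by
    exact_mod_cast hp.ne_zero
  have hodd : Odd p := hp.odd_of_ne_two hp2
  have hnotEven : ¬ Even ((p : ℕ) : ℤ) := by
    rw [Int.not_even_iff_odd]; exact_mod_cast hodd
  have hΨne : E.preΨ (p : ℤ) ≠ 0 := WeierstrassCurve.preΨ_ne_zero E hpne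
  have hdeg : (E.preΨ (p : ℤ)).natDegree = (p ^ 2 - 1) / 2 := by
    rw [WeierstrassCurve.natDegree_preΨ E hpne, if_neg hnotEven, Int.natAbs_natCast]
  set R : Finset (AlgebraicClosure ℚ) := (E.preΨ (p : ℤ)).roots.toFinset with hR
  have hRcard : R.card ≤ (p ^ 2 - 1) / 2 := by
    rw [← hdeg]
    exact (Multiset.toFinset_card_le _).trans (Polynomial.card_roots' _)
  -- the nonzero torsion points
  set S : Finset T := Finset.univ.filter (fun P => P ≠ 0) with hS
  have hScard : S.card = p ^ 2 - 1 := by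
    have h1 : (Finset.univ : Finset T).card = p ^ 2 := by
      rw [Finset.card_univ, ← Nat.card_eq_fintype_card, hcard]
    have h2 : S = Finset.univ.erase (0 : T) := by
      ext P; simp [hS]
    rw [h2, Finset.card_erase_of_mem (Finset.mem_univ _), h1]
  let f : T → AlgebraicClosure ℚ := fun P => brtc_x (P : E.Point)
  -- `f` maps `S` into the roots
  have hmaps : ∀ P ∈ S, f P ∈ R := by
    intro P hP
    have hP0 : P ≠ 0 := (Finset.mem_filter.mp hP).2
    have hP0' : (P : E.Point) ≠ 0 := fun h => hP0 (Subtype.ext h)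
    have hPt : ((p : ℕ) : ℤ) • (P : E.Point) = 0 := (Submodule.mem_torsionBy_iff _ _).mp P.2
    rw [natCast_zsmul] at hPt
    rw [hR, Multiset.mem_toFinset, Polynomial.mem_roots hΨne, Polynomial.IsRoot.def]
    rcases hPP : (P : E.Point) with _ | ⟨x₁, y₁, h₁⟩
    · exact absurd hPP hP0'
    · rw [hPP] at hPt
      show (E.preΨ (p : ℤ)).eval (brtc_x (P : E.Point)) = 0
      rw [hPP]
      exact hN x₁ y₁ h₁ hPt
  -- fibres have at most two elements
  have hfib : ∀ a ∈ S.image f, (S.filter fun P => f P = a).card ≤ 2 := by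
    intro a ha
    obtain ⟨P₀, hP₀S, hP₀a⟩ := Finset.mem_image.mp ha
    have hP₀0 : P₀ ≠ 0 := (Finset.mem_filter.mp hP₀S).2
    have hsub : (S.filter fun P => f P = a) ⊆ ({P₀, -P₀} : Finset T) := by
      intro Q hQ
      obtain ⟨hQS, hQa⟩ := Finset.mem_filter.mp hQ
      have hQ0 : Q ≠ 0 := (Finset.mem_filter.mp hQS).2
      have h1 : (P₀ : E.Point) ≠ 0 := fun h => hP₀0 (Subtype.ext h)
      have h2 : (Q : E.Point) ≠ 0 := fun h => hQ0 (Subtype.ext h)
      have h3 : brtc_x (P₀ : E.Point) = brtc_x (Q : E.Point) := hP₀a.trans hQa.symm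
      rcases brtc_eq_or_eq_neg h1 h2 h3 with h | h
      · rw [Finset.mem_insert]; left; exact Subtype.ext h
      · rw [Finset.mem_insert, Finset.mem_singleton]; right; exact Subtype.ext h
    exact (Finset.card_le_card hsub).trans Finset.card_le_two
  have hle := Finset.card_le_mul_card_image S 2 hfib
  have himg_sub : S.image f ⊆ R := by
    intro a ha
    obtain ⟨P, hP, rfl⟩ := Finset.mem_image.mp ha
    exact hmaps P hP
  have himg_le : (S.image f).card ≤ R.card := Finset.card_le_card himg_sub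
  -- `p² - 1` is even
  have heven : 2 * ((p ^ 2 - 1) / 2) = p ^ 2 - 1 := by
    obtain ⟨k, rfl⟩ := hodd
    have : (2 * k + 1) ^ 2 - 1 = 2 * (2 * k * (k + 1)) := by
      have : (2 * k + 1) ^ 2 = 2 * (2 * k * (k + 1)) + 1 := by ring
      omega
    rw [this, Nat.mul_div_cancel_left _ (by norm_num : 0 < 2)]
  have himg_eq : S.image f = R := by
    apply Finset.eq_of_subset_of_card_le himg_sub
    rw [hScard] at hle
    omega
  -- conclude
  have hxR : x ∈ R := by
    rw [hR, Multiset.mem_toFinset, Polynomial.mem_roots hΨne, Polynomial.IsRoot.def]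
    exact hx
  rw [← himg_eq] at hxR
  obtain ⟨P, hPS, hPx⟩ := Finset.mem_image.mp hxR
  have hP0 : P ≠ 0 := (Finset.mem_filter.mp hPS).2
  have hP0' : (P : E.Point) ≠ 0 := fun h => hP0 (Subtype.ext h)
  have hPt : ((p : ℕ) : ℤ) • (P : E.Point) = 0 := (Submodule.mem_torsionBy_iff _ _).mp P.2
  rw [natCast_zsmul] at hPt
  rcases hPP : (P : E.Point) with _ | ⟨x₁, y₁, h₁⟩
  · exact absurd hPP hP0'
  · have hx1 : x₁ = x := by
      have : brtc_x (P : E.Point) = x := hPx
      rw [hPP] at this
      exact this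
    subst hx1
    rw [hPP] at hPt
    exact ⟨y₁, h₁, hPt⟩

end Fermat.Agent.S41x
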