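/-
S41 BRIDGE, row BRT (backup helper40), second half and the exact Spec statements.  prefix `brtc_`.

* `brtc_preΨ_eval_eq_zero` : x-coordinates of `p`-torsion points are roots of `preΨ p`
  (any field, any odd prime `p`): `p ≥ 5` is `S13x.ds_preΨ_eval_eq_zero_of_prime`; `p = 3` is the
  doubling formula `x(2P) - x(P) = -Ψ₃(x)/η²` (as in `S51x/Tor3.lean`, redone here in `Type*`).
* `brtc_exists_point_of_root_spec` : over `Qbar` every root of `preΨ p` is `x(P)`, `P ∈ E[p] \ 0`.
-/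
import Mathlib
import Fermat.Agent.S13x.DivSeq
import Fermat.Agent.S41x.BridgeTorsionCount

set_option autoImplicit false

open WeierstrassCurve WeierstrassCurve.Affine WeierstrassCurve.Affine.Point Polynomial

namespace Fermat.Agent.S41x

section Tor3

variable {F : Type*} [Field F] (W : WeierstrassCurve F)

theorem brtc_Ψ₃_eval (x : F) :
    W.Ψ₃.eval x = 3 * x ^ 4 + W.b₂ * x ^ 3 + 3 * W.b₄ * x ^ 2 + 3 * W.b₆ * x + W.b₈ := by
  simp [Ψ₃]

theorem brtc_key (x y : F) :
    (3 * x ^ 2 + 2 * W.a₂ * x + W.a₄ - W.a₁ * y) ^ 2 +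
      W.a₁ * (3 * x ^ 2 + 2 * W.a₂ * x + W.a₄ - W.a₁ * y) * (2 * y + W.a₁ * x + W.a₃) -
      (W.a₂ + 3 * x) * (2 * y + W.a₁ * x + W.a₃) ^ 2 + W.Ψ₃.eval x =
    -(12 * x + W.b₂) *
      (y ^ 2 + W.a₁ * x * y + W.a₃ * y - (x ^ 3 + W.a₂ * x ^ 2 + W.a₄ * x + W.a₆)) := by
  rw [brtc_Ψ₃_eval]
  simp only [b₂, b₄, b₆, b₈]
  ring

variable [DecidableEq F]

/-- Doubling formula: `x(2P) - x(P) = -Ψ₃(x)/η²`. -/
theorem brtc_addX_sub {x y : F} (h : W.toAffine.Equation x y)
    (hy : y ≠ W.toAffine.negY x y) :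
    W.toAffine.addX x x (W.toAffine.slope x x y y) - x =
      -(W.Ψ₃.eval x) / (2 * y + W.a₁ * x + W.a₃) ^ 2 := by
  have hη : (2 * y + W.a₁ * x + W.a₃) ≠ 0 := by
    intro h0
    apply hy
    simp only [negY]
    linear_combination h0
  rw [slope_of_Y_ne rfl hy]
  have hden : y - W.toAffine.negY x y = 2 * y + W.a₁ * x + W.a₃ := by
    simp only [negY]; ring
  rw [hden]
  rw [equation_iff] at h
  have key := brtc_key W x y
  rw [eq_div_iff (pow_ne_zero 2 hη)]
  obtain ⟨t, ht⟩ : ∃ t, t = (3 * x ^ 2 + 2 * W.a₂ * x + W.a₄ - W.a₁ * y) /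
      (2 * y + W.a₁ * x + W.a₃) := ⟨_, rfl⟩
  have e1 : t * (2 * y + W.a₁ * x + W.a₃) = 3 * x ^ 2 + 2 * W.a₂ * x + W.a₄ - W.a₁ * y := by
    rw [ht, div_mul_cancel₀ _ hη]
  rw [← ht]
  simp only [addX]
  linear_combination key - (12 * x + W.b₂) * h +
    (t * (2 * y + W.a₁ * x + W.a₃) + (3 * x ^ 2 + 2 * W.a₂ * x + W.a₄ - W.a₁ * y) +
      W.a₁ * (2 * y + W.a₁ * x + W.a₃)) * e1

/-- The x-coordinate of a point of order 3 is a root of `Ψ₃`. -/
theorem brtc_Ψ₃_eval_eq_zero {x y : F} (h : W.toAffine.Nonsingular x y)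
    (h3 : 3 • (Point.some x y h) = 0) : W.Ψ₃.eval x = 0 := by
  have h3' : Point.some x y h + Point.some x y h + Point.some x y h = 0 := by
    rw [← h3]; abel
  have h2 : Point.some x y h + Point.some x y h = -Point.some x y h :=
    eq_neg_of_add_eq_zero_left h3'
  by_cases hy : y = W.toAffine.negY x y
  · rw [add_self_of_Y_eq hy] at h2
    have : Point.some x y h = 0 := by
      have := congrArg Neg.neg h2
      simpa using this.symm
    exact absurd this (some_ne_zero h)
  · rw [add_self_of_Y_ne hy, neg_some] at h2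
    have hx : W.toAffine.addX x x (W.toAffine.slope x x y y) = x := by
      injection h2
    have hsub := brtc_addX_sub W h.1 hy
    rw [hx, sub_self] at hsub
    have hη : (2 * y + W.a₁ * x + W.a₃) ≠ 0 := by
      intro h0
      apply hy
      simp only [negY]
      linear_combination h0
    have := (div_eq_zero_iff.mp hsub.symm).resolve_right (pow_ne_zero 2 hη)
    simpa using this

end Tor3

/-- **BRT, first statement** (exact Spec): x-coordinates of p-torsion points are roots of `preΨ p`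
(any field, any odd prime `p`). -/
theorem brtc_preΨ_eval_eq_zero {F : Type*} [Field F] [DecidableEq F] (W : WeierstrassCurve F)
    {p : ℕ} (hp : p.Prime) (hp2 : p ≠ 2) {x y : F} (h : W.toAffine.Nonsingular x y)
    (hP : p • Point.some x y h = 0) :
    (W.preΨ (p : ℤ)).eval x = 0 := by
  by_cases hp5 : 5 ≤ p
  · exact Fermat.Agent.S13x.ds_preΨ_eval_eq_zero_of_prime h hp hp5 hP
  · have hp3 : p = 3 := by
      have h2 := hp.two_le
      have : p = 2 ∨ p = 3 ∨ p = 4 := by omega
      rcases this with h | h | h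
      · exact absurd h hp2
      · exact h
      · exfalso; rw [h] at hp; exact absurd hp (by decide)
    subst hp3
    have : ((3 : ℕ) : ℤ) = 3 := rfl
    rw [this, WeierstrassCurve.preΨ_three]
    exact brtc_Ψ₃_eval_eq_zero W h hP

/-- **BRT, second statement** (exact Spec): over `Qbar` every root of `preΨ p` is the x-coordinate
of a nonzero p-torsion point. -/
theorem brtc_exists_point_of_root_spec (W : WeierstrassCurve ℚ) (hΔ : W.Δ ≠ 0) {p : ℕ}
    (hp : p.Prime) (hp2 : p ≠ 2) (x : AlgebraicClosure ℚ)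
    (hx : ((W⁄(AlgebraicClosure ℚ)).preΨ (p : ℤ)).eval x = 0) :
    ∃ (y : AlgebraicClosure ℚ) (h : (W⁄(AlgebraicClosure ℚ)).toAffine.Nonsingular x y),
      p • Point.some x y h = 0 := by
  classical
  exact brtc_exists_point_of_root W hΔ hp hp2
    (fun x y h hP => brtc_preΨ_eval_eq_zero (W⁄(AlgebraicClosure ℚ)) hp hp2 h hP) x hx

end Fermat.Agent.S41x
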