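/-
S41 project (level raising), block B0 (abstract layer): COCYCLE CORRESPONDENCES between two groups
and the operators they induce on `Hom(G, B)` (first cohomology with trivial coefficients).
(helper54)

This generalises `S16x.CohDatum` (one group, distinct cosets) to TWO groups and to families with
REPEATED cosets, so that restriction, conjugated restriction, transfer (corestriction), Hecke
operators and ALL their composites are instances of one construction.

Main definitions / results (namespace `Fermat.Agent.S41x`):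
* `corr_Datum G₁ G₂ I` : `perm : G₂ → Perm I`, `elt : G₂ → I → G₁` with the cocycle identities;
* `corr_Datum.op D : (Additive G₁ →+ B) →+ (Additive G₂ →+ B)`, `(op ψ)(g) = ∑ i, ψ (elt g i)`;
* `corr_Datum.comp D D'` (index set `I × J`) with `op (comp D D') = op D' ∘ op D`;
* `corr_Datum.op_eq_of_conj` : COMPARISON LEMMA (cohomologous cocycles give the same operator);
* `corr_triv G I` (`I` copies of the identity), `op = card I • id`, and `corr_Datum.op_eq_card_smul`;
* `corr_ofHom f` (index set `Unit`), `op ψ = ψ ∘ f` (restriction / conjugated restriction).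
-/
import Mathlib

set_option autoImplicit false

namespace Fermat.Agent.S41x

/-- A cocycle correspondence from `G₁` to `G₂` with index set `I`. -/
structure corr_Datum (G₁ G₂ : Type*) [Group G₁] [Group G₂] (I : Type*) where
  /-- the permutation `σ_g` of the index set -/
  perm : G₂ → Equiv.Perm I
  /-- the elements `g'_i ∈ G₁` -/
  elt : G₂ → I → G₁
  perm_mul : ∀ (g h : G₂) (i : I), perm (g * h) i = perm h (perm g i)
  elt_mul : ∀ (g h : G₂) (i : I), elt (g * h) i = elt g i * elt h (perm g i)

namespace corr_Datum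

section basic

variable {G₁ G₂ : Type*} [Group G₁] [Group G₂] {I : Type*} (D : corr_Datum G₁ G₂ I)

@[simp] theorem perm_one (i : I) : D.perm 1 i = i := by
  have h := D.perm_mul 1 1 i
  rw [mul_one] at h
  exact ((D.perm 1).injective h).symm

@[simp] theorem elt_one (i : I) : D.elt 1 i = 1 := by
  have h := D.elt_mul 1 1 i
  rw [mul_one, D.perm_one] at h
  exact (mul_eq_left.mp h.symm)

theorem perm_inv_perm (g : G₂) (i : I) : D.perm g⁻¹ (D.perm g i) = i := by
  rw [← D.perm_mul, mul_inv_cancel, D.perm_one]

theorem perm_perm_inv (g : G₂) (i : I) : D.perm g (D.perm g⁻¹ i) = i := by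
  rw [← D.perm_mul, inv_mul_cancel, D.perm_one]

theorem elt_inv (g : G₂) (i : I) : D.elt g⁻¹ (D.perm g i) = (D.elt g i)⁻¹ := by
  have h := D.elt_mul g g⁻¹ i
  rw [mul_inv_cancel, D.elt_one] at h
  exact (eq_inv_of_mul_eq_one_right h.symm)

theorem perm_pow (g : G₂) (n : ℕ) (i : I) : D.perm (g ^ n) i = ((D.perm g) ^ n) i := by
  induction n generalizing i with
  | zero => simp
  | succ n ih =>
    rw [pow_succ, D.perm_mul, ih, pow_succ', Equiv.Perm.mul_apply]

end basic

section op

variable {G₁ G₂ : Type*} [Group G₁] [Group G₂] {I : Type*} [Fintype I]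
  (D : corr_Datum G₁ G₂ I) {B : Type*} [AddCommGroup B]

/-- the operator `Hom(G₁, B) → Hom(G₂, B)` of a correspondence -/
noncomputable def op : (Additive G₁ →+ B) →+ (Additive G₂ →+ B) where
  toFun ψ := AddMonoidHom.mk' (fun g => ∑ i, ψ (Additive.ofMul (D.elt (Additive.toMul g) i)))
    (by
      intro g h
      simp only [toMul_add, D.elt_mul, ofMul_mul, map_add, Finset.sum_add_distrib]
      congr 1
      exact Equiv.sum_comp (D.perm (Additive.toMul g))
        (fun i => ψ (Additive.ofMul (D.elt (Additive.toMul h) i))))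
  map_zero' := by
    refine AddMonoidHom.ext fun g => ?_
    simp
  map_add' ψ φ := by
    refine AddMonoidHom.ext fun g => ?_
    simp [Finset.sum_add_distrib]

theorem op_apply (ψ : Additive G₁ →+ B) (g : G₂) :
    D.op ψ (Additive.ofMul g) = ∑ i, ψ (Additive.ofMul (D.elt g i)) := rfl

/-- functoriality in the coefficient group -/
theorem op_comp_coeff {B' : Type*} [AddCommGroup B'] (φ : B →+ B') (ψ : Additive G₁ →+ B) :
    D.op (φ.comp ψ) = φ.comp (D.op ψ) := by
  refine AddMonoidHom.ext fun g => ?_
  obtain ⟨g, rfl⟩ := Additive.ofMul.surjective g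
  simp [op_apply]

theorem op_smul {R : Type*} [Semiring R] [Module R B] (c : R) (ψ : Additive G₁ →+ B) :
    D.op (c • ψ) = c • D.op ψ := by
  refine AddMonoidHom.ext fun g => ?_
  obtain ⟨g, rfl⟩ := Additive.ofMul.surjective g
  simp [op_apply, Finset.smul_sum]

/-- the operator as an `R`-linear map -/
noncomputable def opLin (R : Type*) [Semiring R] [Module R B] :
    (Additive G₁ →+ B) →ₗ[R] (Additive G₂ →+ B) where
  toFun := D.op
  map_add' := map_add _
  map_smul' c ψ := D.op_smul c ψ

@[simp] theorem opLin_apply (R : Type*) [Semiring R] [Module R B] (ψ : Additive G₁ →+ B) :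
    D.opLin R ψ = D.op ψ := rfl

/-- COMPARISON LEMMA: cohomologous cocycles (any bijection of the index sets, any conjugating
family `c`) give the same operator. -/
theorem op_eq_of_conj {J : Type*} [Fintype J] (D' : corr_Datum G₁ G₂ J) (e : I ≃ J) (c : I → G₁)
    (h : ∀ (g : G₂) (i : I), D'.elt g (e i) = c i * D.elt g i * (c (D.perm g i))⁻¹) :
    (D'.op : (Additive G₁ →+ B) →+ (Additive G₂ →+ B)) = D.op := by
  refine AddMonoidHom.ext fun ψ => AddMonoidHom.ext fun g => ?_
  obtain ⟨g, rfl⟩ := Additive.ofMul.surjective g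
  rw [op_apply, op_apply, ← Equiv.sum_comp e]
  have h1 : ∀ i, ψ (Additive.ofMul (D'.elt g (e i))) =
      ψ (Additive.ofMul (D.elt g i)) + (ψ (Additive.ofMul (c i)) -
        ψ (Additive.ofMul (c (D.perm g i)))) := by
    intro i
    rw [h g i]
    simp only [ofMul_mul, ofMul_inv, map_add, map_neg]
    abel
  simp only [h1, Finset.sum_add_distrib, Finset.sum_sub_distrib]
  rw [Equiv.sum_comp (D.perm g) (fun i => ψ (Additive.ofMul (c i)))]
  simp

end op

section comp

variable {G₁ G₂ G₃ : Type*} [Group G₁] [Group G₂] [Group G₃] {I J : Type*}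
  (D : corr_Datum G₁ G₂ I) (D' : corr_Datum G₂ G₃ J)

/-- the index map of the composite -/
def compIdx (g : G₃) (x : I × J) : I × J := (D.perm (D'.elt g x.2) x.1, D'.perm g x.2)

theorem compIdx_one (x : I × J) : compIdx D D' 1 x = x := by
  simp [compIdx]

theorem compIdx_mul (g h : G₃) (x : I × J) :
    compIdx D D' (g * h) x = compIdx D D' h (compIdx D D' g x) := by
  simp only [compIdx, D'.elt_mul, D.perm_mul, D'.perm_mul]

/-- the composite of two correspondences (`G₁ → G₂ → G₃`), index set `I × J` -/
def comp : corr_Datum G₁ G₃ (I × J) where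
  perm g :=
    { toFun := compIdx D D' g
      invFun := compIdx D D' g⁻¹
      left_inv := fun x => by rw [← compIdx_mul, mul_inv_cancel, compIdx_one]
      right_inv := fun x => by rw [← compIdx_mul, inv_mul_cancel, compIdx_one] }
  elt g x := D.elt (D'.elt g x.2) x.1
  perm_mul g h x := compIdx_mul D D' g h x
  elt_mul g h x := by
    show D.elt (D'.elt (g * h) x.2) x.1 = D.elt (D'.elt g x.2) x.1 *
      D.elt (D'.elt h (D'.perm g x.2)) (D.perm (D'.elt g x.2) x.1)
    rw [D'.elt_mul, D.elt_mul]

@[simp] theorem comp_elt (g : G₃) (x : I × J) :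
    (comp D D').elt g x = D.elt (D'.elt g x.2) x.1 := rfl

@[simp] theorem comp_perm (g : G₃) (x : I × J) :
    (comp D D').perm g x = (D.perm (D'.elt g x.2) x.1, D'.perm g x.2) := rfl

theorem op_comp [Fintype I] [Fintype J] {B : Type*} [AddCommGroup B] (ψ : Additive G₁ →+ B) :
    (comp D D').op ψ = D'.op (D.op ψ) := by
  refine AddMonoidHom.ext fun g => ?_
  obtain ⟨g, rfl⟩ := Additive.ofMul.surjective g
  rw [op_apply, op_apply, Fintype.sum_prod_type_right]
  refine Finset.sum_congr rfl fun j _ => ?_
  rw [op_apply]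
  rfl

end comp

end corr_Datum

section instances

/-- `I` copies of the identity correspondence -/
def corr_triv (G : Type*) [Group G] (I : Type*) : corr_Datum G G I where
  perm _ := 1
  elt g _ := g
  perm_mul _ _ _ := rfl
  elt_mul _ _ _ := rfl

theorem corr_triv_op {G : Type*} [Group G] {I : Type*} [Fintype I] {B : Type*} [AddCommGroup B]
    (ψ : Additive G →+ B) : (corr_triv G I).op ψ = Fintype.card I • ψ := by
  refine AddMonoidHom.ext fun g => ?_
  obtain ⟨g, rfl⟩ := Additive.ofMul.surjective g
  rw [corr_Datum.op_apply]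
  simp [corr_triv]

/-- if `elt g i = c i * g * (c (σ_g i))⁻¹` for a family `c` in `G`, the operator is
multiplication by the number of indices (e.g. `cores ∘ res = index`). -/
theorem corr_Datum.op_eq_card_smul {G : Type*} [Group G] {I : Type*} [Fintype I]
    (D : corr_Datum G G I) (c : I → G)
    (h : ∀ (g : G) (i : I), D.elt g i = c i * g * (c (D.perm g i))⁻¹)
    {B : Type*} [AddCommGroup B] (ψ : Additive G →+ B) : D.op ψ = Fintype.card I • ψ := by
  have h1 : ((corr_triv G I).op : (Additive G →+ B) →+ (Additive G →+ B)) = D.op := by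
    apply corr_Datum.op_eq_of_conj D (corr_triv G I) (Equiv.refl I) (fun i => (c i)⁻¹)
    intro g i
    rw [h g i]
    simp only [corr_triv, Equiv.refl_apply, inv_inv]
    group
  rw [← h1, corr_triv_op]

/-- the correspondence of a group homomorphism `f : G₂ →* G₁` (index set `Unit`):
its operator is `ψ ↦ ψ ∘ f`. -/
def corr_ofHom {G₁ G₂ : Type*} [Group G₁] [Group G₂] (f : G₂ →* G₁) : corr_Datum G₁ G₂ Unit where
  perm _ := 1
  elt g _ := f g
  perm_mul _ _ _ := rfl
  elt_mul g h _ := map_mul f g h

theorem corr_ofHom_op {G₁ G₂ : Type*} [Group G₁] [Group G₂] (f : G₂ →* G₁) {B : Type*}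
    [AddCommGroup B] (ψ : Additive G₁ →+ B) (g : G₂) :
    (corr_ofHom f).op ψ (Additive.ofMul g) = ψ (Additive.ofMul (f g)) := by
  rw [corr_Datum.op_apply]
  simp [corr_ofHom]

end instances

end Fermat.Agent.S41x
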