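/-
S41 project, block B (COH-LEVEL), row B-UGEN (helper60):
`cohOpGen N ℓ = cohU N ℓ` for a prime `ℓ ∣ N` (the `U_ℓ`-twin of helper54's
`corr_cohOpGen_eq_cohT`, S41x/CorrComm.lean).

* `lrcu_UDatum N ℓ h` : the `U_ℓ` datum on `Γ₀(N)` as a two-group correspondence datum,
  compatible with the family `cohMatFin ℓ` (`lrcu_UDatum_compat`), operator `cohU N ℓ h`
  (`lrcu_UDatum_op`);
* `lrcu_cohOpGen_eq_cohU` : `cohOpGen N ℓ ψ = cohU N ℓ h ψ`;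
* `lrcu_lrT_eq_cohU`     : the same for `lrT N ℓ` (`= cohOpGen N ℓ` by definition);
* `lrcu_lrT_eq_cohT`     : `lrT N ℓ ψ = cohT N ℓ h ψ` for `ℓ ∤ N` (restatement of helper54's lemma).
-/
import Fermat.Agent.S41x.CorrComm
import Fermat.Agent.S41x.LRBase

set_option autoImplicit false

namespace Fermat.Agent.S41x

open scoped MatrixGroups
open CongruenceSubgroup
open Fermat.Agent.S16x

section prelim

variable (N : ℕ) (ℓ : ℕ) [NeZero ℓ]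

/-- the `U_ℓ` datum on `Γ₀(N)` (`ℓ ∣ N`) as a correspondence -/
noncomputable def lrcu_UDatum (hℓN : ℓ ∣ N) :
    corr_Datum (Gamma0 N) (Gamma0 N) (ZMod ℓ) :=
  (corr_ofCohDatum (cohDatumU N ℓ hℓN)).datum

theorem lrcu_UDatum_compat (hℓN : ℓ ∣ N) : corr_Compat (lrcu_UDatum N ℓ hℓN) (cohMatFin ℓ) :=
  (corr_ofCohDatum (cohDatumU N ℓ hℓN)).datum_compat

theorem lrcu_UDatum_op (hℓN : ℓ ∣ N) {B : Type*} [AddCommGroup B]
    (ψ : Additive (Gamma0 N) →+ B) : (lrcu_UDatum N ℓ hℓN).op ψ = cohU N ℓ hℓN ψ :=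
  corr_ofCohDatum_op (cohDatumU N ℓ hℓN) ψ

theorem lrcu_cohMatFin_det_ne (j : ZMod ℓ) : (cohMatFin ℓ j).det ≠ 0 := by
  rw [cohMatFin_det]
  exact_mod_cast NeZero.ne ℓ

theorem lrcu_cohMatFin_distinct (hℓN : ℓ ∣ N) (j j' : ZMod ℓ) (γ : Gamma0 N)
    (h : corr_mat γ * cohMatFin ℓ j' = cohMatFin ℓ j) : j = j' :=
  (cohDatumU N ℓ hℓN).distinct j j' γ h

theorem lrcu_cohMatFin_injective : Function.Injective (cohMatFin ℓ) := by
  intro j j' h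
  have h01 := congrFun (congrFun h 0) 1
  simp only [cohMatFin, Matrix.of_apply, Matrix.cons_val', Matrix.cons_val_one,
    Matrix.cons_val_zero, Matrix.cons_val_fin_one] at h01
  exact ZMod.val_injective ℓ (by exact_mod_cast h01)

end prelim

/-- `cohOpGen N ℓ = cohU N ℓ` for `ℓ ∣ N` -/
theorem lrcu_cohOpGen_eq_cohU (N : ℕ) [NeZero N] (ℓ : Nat.Primes) [NeZero (ℓ : ℕ)]
    (h : (ℓ : ℕ) ∣ N) {B : Type*} [AddCommGroup B] (ψ : Additive (Gamma0 N) →+ B) :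
    cohOpGen N ℓ ψ = cohU N (ℓ : ℕ) h ψ := by
  rw [← corr_cohOpGen_eq, ← lrcu_UDatum_op]
  have hbij : Function.Bijective (fun j : ZMod (ℓ : ℕ) =>
      (⟨cohMatFin (ℓ : ℕ) j, cohMatFin_mem_heckeReps N j⟩ : ↥(heckeReps N (ℓ : ℕ)))) := by
    constructor
    · intro j j' hjj
      exact lrcu_cohMatFin_injective (ℓ : ℕ) (congrArg Subtype.val hjj)
    · rintro ⟨A, hA⟩
      obtain ⟨j, rfl⟩ := coh_mem_heckeReps_U h hA
      exact ⟨j, rfl⟩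
  have h' := corr_Compat.op_eq_of_cosets (lrcu_UDatum_compat N (ℓ : ℕ) h)
    (corr_ofCohDatum (cohDatumGen N ℓ)) (Equiv.ofBijective _ hbij) (fun _ => 1)
    (m := 1) (m' := 1) one_ne_zero (B := B) (by
      intro x
      simp)
  exact congrFun (congrArg DFunLike.coe h') ψ

/-- `lrT N ℓ = cohU N ℓ` for `ℓ ∣ N` -/
theorem lrcu_lrT_eq_cohU (N : ℕ) [NeZero N] (ℓ : Nat.Primes) [NeZero (ℓ : ℕ)]
    (h : (ℓ : ℕ) ∣ N) {B : Type*} [AddCommGroup B] (ψ : Additive (Gamma0 N) →+ B) :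
    lrT N ℓ ψ = cohU N (ℓ : ℕ) h ψ :=
  lrcu_cohOpGen_eq_cohU N ℓ h ψ

/-- `lrT N ℓ = cohT N ℓ` for `ℓ ∤ N` -/
theorem lrcu_lrT_eq_cohT (N : ℕ) [NeZero N] (ℓ : Nat.Primes) [Fact (ℓ : ℕ).Prime]
    (h : ¬ (ℓ : ℕ) ∣ N) {B : Type*} [AddCommGroup B] (ψ : Additive (Gamma0 N) →+ B) :
    lrT N ℓ ψ = cohT N (ℓ : ℕ) h ψ :=
  corr_cohOpGen_eq_cohT N ℓ h ψ

end Fermat.Agent.S41x
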