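/-
S41 project (level raising), block B (COH-LEVEL), abstract part (helper1).

Two-group version of `S16x.CohDatum`: Hecke-type correspondences
`Hom(Γ₂, B) → Hom(Γ₁, B)` attached to a finite family of integer matrices `A i` (nonzero
determinant) whose left cosets `Γ₂ A i` are permuted by right multiplication by `Γ₁`.
Restriction, corestriction (transfer), conjugation by `diag(q,1)`, Atkin–Lehner operators and the
Hecke operators `T_q`, `U_q` are all instances.

Main definitions / results (namespace `Fermat.Agent.S41x`):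
* `CorrDatum Γ₁ Γ₂ I`, `CorrDatum.op D : (Additive Γ₂ →+ B) →+ (Additive Γ₁ →+ B)`,
  `(op ψ)(γ) = ∑ i, ψ (γ'_i)` where `γ'_i * A (σ i) = A i * γ`;
* `CorrDatum.op_apply_of` : computation with ANY relation family;
* `CorrDatum.op_apply_of_family` : computation with any OTHER family of representatives
  `M j = c • (g j * A (e j))` (`g j ∈ Γ₂`, `c ≠ 0` a scalar, `e` a reindexing);
* `CorrDatum.ofCoh` : a `S16x.CohDatum Γ I` is a `CorrDatum Γ Γ I` with the same operator;
* `CorrDatum.op_op_apply` : the composite of two correspondences as a double sum.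
-/
import Fermat.Agent.S16x.CohDatum

set_option autoImplicit false

namespace Fermat.Agent.S41x

open scoped MatrixGroups
open Fermat.Agent.S16x

/-- Data for a correspondence `Hom(Γ₂, B) → Hom(Γ₁, B)`. -/
structure CorrDatum (Γ₁ Γ₂ : Subgroup SL(2, ℤ)) (I : Type) where
  /-- the coset representatives -/
  A : I → Matrix (Fin 2) (Fin 2) ℤ
  det_ne : ∀ i, (A i).det ≠ 0
  rel : ∀ (γ : Γ₁) (i : I), ∃ (i' : I) (γ' : Γ₂), cohMat γ' * A i' = A i * cohMat γ
  distinct : ∀ (i i' : I) (γ' : Γ₂), cohMat γ' * A i' = A i → i = i'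

namespace CorrDatum

variable {Γ₁ Γ₂ : Subgroup SL(2, ℤ)} {I : Type} (D : CorrDatum Γ₁ Γ₂ I)

/-- uniqueness of the pair `(i', γ')` in `rel` -/
theorem unique_rel {γ : Γ₁} {i i₁ i₂ : I} {γ₁ γ₂ : Γ₂}
    (h₁ : cohMat γ₁ * D.A i₁ = D.A i * cohMat γ) (h₂ : cohMat γ₂ * D.A i₂ = D.A i * cohMat γ) :
    i₁ = i₂ ∧ γ₁ = γ₂ := by
  have h : cohMat (γ₂⁻¹ * γ₁) * D.A i₁ = D.A i₂ := by
    rw [cohMat_mul, Matrix.mul_assoc, h₁, ← h₂, ← Matrix.mul_assoc, cohMat_inv_mul, Matrix.one_mul]
  have hi : i₂ = i₁ := D.distinct i₂ i₁ _ h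
  subst hi
  refine ⟨rfl, ?_⟩
  apply cohMat_injective
  exact coh_mul_right_cancel (D.det_ne i₂) (h₁.trans h₂.symm)

/-- the index `σ_γ(i)` -/
noncomputable def idx (γ : Γ₁) (i : I) : I := (D.rel γ i).choose

/-- the element `γ'_i ∈ Γ₂` -/
noncomputable def elt (γ : Γ₁) (i : I) : Γ₂ := (D.rel γ i).choose_spec.choose

theorem elt_spec (γ : Γ₁) (i : I) :
    cohMat (D.elt γ i) * D.A (D.idx γ i) = D.A i * cohMat γ :=
  (D.rel γ i).choose_spec.choose_spec

theorem idx_eq_of {γ : Γ₁} {i i' : I} {γ' : Γ₂} (h : cohMat γ' * D.A i' = D.A i * cohMat γ) :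
    D.idx γ i = i' :=
  (D.unique_rel (D.elt_spec γ i) h).1

theorem elt_eq_of {γ : Γ₁} {i i' : I} {γ' : Γ₂} (h : cohMat γ' * D.A i' = D.A i * cohMat γ) :
    D.elt γ i = γ' :=
  (D.unique_rel (D.elt_spec γ i) h).2

theorem idx_mul (γ δ : Γ₁) (i : I) : D.idx (γ * δ) i = D.idx δ (D.idx γ i) := by
  apply D.idx_eq_of (γ' := D.elt γ i * D.elt δ (D.idx γ i))
  rw [cohMat_mul, Matrix.mul_assoc, D.elt_spec, ← Matrix.mul_assoc, D.elt_spec, Matrix.mul_assoc,
    ← cohMat_mul]

theorem elt_mul (γ δ : Γ₁) (i : I) :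
    D.elt (γ * δ) i = D.elt γ i * D.elt δ (D.idx γ i) := by
  apply D.elt_eq_of (i' := D.idx δ (D.idx γ i))
  rw [cohMat_mul, Matrix.mul_assoc, D.elt_spec, ← Matrix.mul_assoc, D.elt_spec, Matrix.mul_assoc,
    ← cohMat_mul]

@[simp] theorem idx_one (i : I) : D.idx 1 i = i := by
  apply D.idx_eq_of (γ' := 1)
  simp

@[simp] theorem elt_one (i : I) : D.elt 1 i = 1 := by
  apply D.elt_eq_of (i' := i)
  simp

/-- `σ_γ` as a permutation of `I` -/
noncomputable def perm (γ : Γ₁) : Equiv.Perm I where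
  toFun := D.idx γ
  invFun := D.idx γ⁻¹
  left_inv i := by rw [← D.idx_mul, mul_inv_cancel, D.idx_one]
  right_inv i := by rw [← D.idx_mul, inv_mul_cancel, D.idx_one]

@[simp] theorem perm_apply (γ : Γ₁) (i : I) : D.perm γ i = D.idx γ i := rfl

variable [Fintype I] {B : Type*} [AddCommGroup B]

/-- the correspondence on `Hom(-, B)` -/
noncomputable def op : (Additive Γ₂ →+ B) →+ (Additive Γ₁ →+ B) where
  toFun ψ := AddMonoidHom.mk' (fun γ => ∑ i, ψ (Additive.ofMul (D.elt (Additive.toMul γ) i)))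
    (by
      intro γ δ
      simp only [toMul_add, D.elt_mul, ofMul_mul, map_add, Finset.sum_add_distrib]
      congr 1
      exact Equiv.sum_comp (D.perm (Additive.toMul γ))
        (fun i => ψ (Additive.ofMul (D.elt (Additive.toMul δ) i))))
  map_zero' := by
    refine AddMonoidHom.ext fun γ => ?_
    simp
  map_add' ψ φ := by
    refine AddMonoidHom.ext fun γ => ?_
    simp [Finset.sum_add_distrib]

theorem op_apply (ψ : Additive Γ₂ →+ B) (γ : Γ₁) :
    D.op ψ (Additive.ofMul γ) = ∑ i, ψ (Additive.ofMul (D.elt γ i)) := rfl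

/-- COMPUTATION LEMMA: the operator can be computed with any relation family. -/
theorem op_apply_of (ψ : Additive Γ₂ →+ B) {γ : Γ₁} {τ : I → I} {h : I → Γ₂}
    (hrel : ∀ i, cohMat (h i) * D.A (τ i) = D.A i * cohMat γ) :
    D.op ψ (Additive.ofMul γ) = ∑ i, ψ (Additive.ofMul (h i)) := by
  rw [op_apply]
  refine Finset.sum_congr rfl fun i _ => ?_
  rw [D.elt_eq_of (hrel i)]

/-- GENERAL COMPUTATION LEMMA: the operator can be computed with any other family of
representatives `M j = c • (g j * A (e j))` of the same cosets (`g j ∈ Γ₂`, `c ≠ 0`). -/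
theorem op_apply_of_family (ψ : Additive Γ₂ →+ B) {γ : Γ₁} {J : Type} [Fintype J]
    (e : J ≃ I) (g : J → Γ₂) (c : ℤ) (hc : c ≠ 0) (M : J → Matrix (Fin 2) (Fin 2) ℤ)
    (hM : ∀ j, M j = c • (cohMat (g j) * D.A (e j)))
    (τ : J → J) (h : J → Γ₂)
    (hrel : ∀ j, cohMat (h j) * M (τ j) = M j * cohMat γ) :
    D.op ψ (Additive.ofMul γ) = ∑ j, ψ (Additive.ofMul (h j)) := by
  -- the relation for the original representatives
  have key : ∀ j, cohMat ((g j)⁻¹ * h j * g (τ j)) * D.A (e (τ j)) = D.A (e j) * cohMat γ := by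
    intro j
    have h1 := hrel j
    rw [hM, hM, Matrix.mul_smul, Matrix.smul_mul] at h1
    have h2 : cohMat (h j) * (cohMat (g (τ j)) * D.A (e (τ j)))
        = cohMat (g j) * D.A (e j) * cohMat γ := by
      ext a b
      have h3 := congrFun (congrFun h1 a) b
      simp only [Matrix.smul_apply, smul_eq_mul] at h3
      exact mul_left_cancel₀ hc h3
    rw [cohMat_mul, cohMat_mul, Matrix.mul_assoc, Matrix.mul_assoc, h2, ← Matrix.mul_assoc,
      ← Matrix.mul_assoc, cohMat_inv_mul, Matrix.one_mul]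
  have hidx : ∀ j, D.idx γ (e j) = e (τ j) := fun j => D.idx_eq_of (key j)
  have helt : ∀ j, D.elt γ (e j) = (g j)⁻¹ * h j * g (τ j) := fun j => D.elt_eq_of (key j)
  -- `τ` is a bijection
  have hτ : τ = fun j => e.symm (D.idx γ (e j)) := by
    funext j
    rw [hidx, Equiv.symm_apply_apply]
  let τ' : Equiv.Perm J := (e.trans (D.perm γ)).trans e.symm
  have hτ' : ∀ j, τ' j = τ j := by
    intro j
    rw [hτ]
    rfl
  rw [op_apply, ← Equiv.sum_comp e]
  have hsum : ∀ j, ψ (Additive.ofMul (D.elt γ (e j)))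
      = ψ (Additive.ofMul (h j)) + (ψ (Additive.ofMul (g (τ' j))) - ψ (Additive.ofMul (g j))) := by
    intro j
    rw [helt, hτ', ofMul_mul, ofMul_mul, ofMul_inv, map_add, map_add, map_neg]
    abel
  rw [Finset.sum_congr rfl fun j _ => hsum j, Finset.sum_add_distrib, Finset.sum_sub_distrib,
    Equiv.sum_comp τ' (fun j => ψ (Additive.ofMul (g j))), sub_self, add_zero]

/-- functoriality in the coefficient group -/
theorem op_comp {B' : Type*} [AddCommGroup B'] (φ : B →+ B') (ψ : Additive Γ₂ →+ B) :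
    D.op (φ.comp ψ) = φ.comp (D.op ψ) := by
  refine AddMonoidHom.ext fun γ => ?_
  obtain ⟨γ, rfl⟩ := Additive.ofMul.surjective γ
  simp [op_apply]

theorem op_smul {R : Type*} [Semiring R] [Module R B] (c : R) (ψ : Additive Γ₂ →+ B) :
    D.op (c • ψ) = c • D.op ψ := by
  refine AddMonoidHom.ext fun γ => ?_
  obtain ⟨γ, rfl⟩ := Additive.ofMul.surjective γ
  simp [op_apply, Finset.smul_sum]

/-- the operator as an `R`-linear map -/
noncomputable def opLin (R : Type*) [Semiring R] [Module R B] :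
    (Additive Γ₂ →+ B) →ₗ[R] (Additive Γ₁ →+ B) where
  toFun := D.op
  map_add' := map_add _
  map_smul' c ψ := D.op_smul c ψ

@[simp] theorem opLin_apply (R : Type*) [Semiring R] [Module R B] (ψ : Additive Γ₂ →+ B) :
    D.opLin R ψ = D.op ψ := rfl

/-- the composite of two correspondences as a double sum -/
theorem op_op_apply {Γ₃ : Subgroup SL(2, ℤ)} {J : Type} [Fintype J] (E : CorrDatum Γ₂ Γ₃ J)
    (ψ : Additive Γ₃ →+ B) (γ : Γ₁) :
    D.op (E.op ψ) (Additive.ofMul γ)
      = ∑ i, ∑ j, ψ (Additive.ofMul (E.elt (D.elt γ i) j)) := by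
  rw [op_apply]
  refine Finset.sum_congr rfl fun i _ => ?_
  rw [op_apply]

omit [Fintype I] in
/-- the relation satisfied by the elements of the composite -/
theorem op_op_rel {Γ₃ : Subgroup SL(2, ℤ)} {J : Type} (E : CorrDatum Γ₂ Γ₃ J) (γ : Γ₁) (i : I)
    (j : J) :
    cohMat (E.elt (D.elt γ i) j) * (E.A (E.idx (D.elt γ i) j) * D.A (D.idx γ i))
      = (E.A j * D.A i) * cohMat γ := by
  rw [← Matrix.mul_assoc, E.elt_spec, Matrix.mul_assoc, D.elt_spec, Matrix.mul_assoc]

end CorrDatum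

/-- a `S16x.CohDatum` is a `CorrDatum` from the group to itself -/
def CorrDatum.ofCoh {Γ : Subgroup SL(2, ℤ)} {I : Type} (D : CohDatum Γ I) : CorrDatum Γ Γ I where
  A := D.A
  det_ne := D.det_ne
  rel := D.rel
  distinct := D.distinct

theorem CorrDatum.ofCoh_op {Γ : Subgroup SL(2, ℤ)} {I : Type} [Fintype I] {B : Type*}
    [AddCommGroup B] (D : CohDatum Γ I) (ψ : Additive Γ →+ B) :
    (CorrDatum.ofCoh D).op ψ = D.op ψ := by
  refine AddMonoidHom.ext fun γ => ?_
  obtain ⟨γ, rfl⟩ := Additive.ofMul.surjective γ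
  rw [CorrDatum.op_apply, CohDatum.op_apply]
  refine Finset.sum_congr rfl fun i _ => ?_
  rfl

end Fermat.Agent.S41x
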