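/-
S41 project (level raising), block B (COH-LEVEL), concrete data (helper1):
the correspondences between `Hom(Γ₀(N), B)` and `Hom(Γ₀(Nq), B)` (`q ∤ N` prime):

* `cg0_res`   : restriction `Hom(Γ₀(N), B) → Hom(Γ₀(Nq), B)`;
* `cg0_W`     : the Atkin–Lehner operator `W_q` on `Hom(Γ₀(Nq), B)` (matrix `[[qu, -v],[Nq, q]]`,
                `qu + Nv = 1`);
* `cg0_cores` : corestriction (transfer) `Hom(Γ₀(Nq), B) → Hom(Γ₀(N), B)` with representatives
                `1` and `[[u, uj - v],[N, Nj + q]] = q⁻¹ • W * [[1,j],[0,q]]`.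
-/
import Fermat.Agent.S41x.CorrDatum
import Fermat.Agent.S16x.CohGamma0

set_option autoImplicit false

namespace Fermat.Agent.S41x

open scoped MatrixGroups
open CongruenceSubgroup Matrix.SpecialLinearGroup
open Fermat.Agent.S16x

/-! ### generalities -/

/-- an integer matrix `X` with `X * M' = M * γ`, `det M = det M' ≠ 0`, has determinant one -/
theorem cg0_det_eq_one {X M M' : Matrix (Fin 2) (Fin 2) ℤ} {γ : SL(2, ℤ)}
    (hdet : M.det = M'.det) (h0 : M.det ≠ 0)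
    (h : X * M' = M * (γ : Matrix (Fin 2) (Fin 2) ℤ)) : X.det = 1 := by
  have h1 := congrArg Matrix.det h
  rw [Matrix.det_mul, Matrix.det_mul, γ.det_coe, mul_one, ← hdet] at h1
  exact mul_right_cancel₀ h0 (by rw [h1, one_mul])

theorem cg0_mem_Gamma0_iff {M : ℕ} {g : SL(2, ℤ)} : g ∈ Gamma0 M ↔ (M : ℤ) ∣ g 1 0 := by
  rw [Gamma0_mem, ZMod.intCast_zmod_eq_zero_iff_dvd]

theorem cg0_Gamma0_le {N q : ℕ} : Gamma0 (N * q) ≤ Gamma0 N := by
  intro g hg
  rw [cg0_mem_Gamma0_iff] at hg ⊢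
  exact (Dvd.intro _ (by push_cast; rfl)).trans hg

/-- Bezout data for a prime `q ∤ N`. -/
structure cg0_Bez (N q : ℕ) where
  u : ℤ
  v : ℤ
  bez : (q : ℤ) * u + (N : ℤ) * v = 1

theorem cg0_exists_bez {N q : ℕ} (hq : q.Prime) (hqN : ¬ q ∣ N) : Nonempty (cg0_Bez N q) := by
  have hcop : IsCoprime (q : ℤ) (N : ℤ) := by
    rw [Int.isCoprime_iff_gcd_eq_one, Int.gcd_natCast_natCast]
    exact (Nat.Prime.coprime_iff_not_dvd hq).mpr hqN
  obtain ⟨a, b, hab⟩ := hcop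
  exact ⟨⟨a, b, by linear_combination hab⟩⟩

/-- `N q ∣ c` from `N ∣ c` and `q ∣ c` -/
theorem cg0_mul_dvd {N q : ℕ} (bz : cg0_Bez N q) {c : ℤ} (hN : (N : ℤ) ∣ c) (hq : (q : ℤ) ∣ c) :
    ((N * q : ℕ) : ℤ) ∣ c := by
  obtain ⟨c₁, rfl⟩ := hN
  obtain ⟨c₂, h₂⟩ := hq
  refine ⟨bz.u * c₁ + bz.v * c₂, ?_⟩
  push_cast
  linear_combination (-(N : ℤ) * c₁) * bz.bez + ((N : ℤ) * bz.v) * h₂

/-! ### the matrices -/

variable (N q : ℕ) (bz : cg0_Bez N q)

/-- the Atkin–Lehner matrix `[[qu, -v],[Nq, q]]` of determinant `q` -/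
def cg0_Wmat : Matrix (Fin 2) (Fin 2) ℤ := !![(q : ℤ) * bz.u, -bz.v; (N : ℤ) * q, (q : ℤ)]

theorem cg0_Wmat_det : (cg0_Wmat N q bz).det = q := by
  simp only [cg0_Wmat, Matrix.det_fin_two_of]
  linear_combination (q : ℤ) * bz.bez

/-- the representative `[[u, uj - v],[N, Nj + q]]` of `Γ₀(Nq) \ Γ₀(N)` -/
def cg0_repMat (j : ℤ) : Matrix (Fin 2) (Fin 2) ℤ :=
  !![bz.u, bz.u * j - bz.v; (N : ℤ), (N : ℤ) * j + q]

theorem cg0_repMat_det (j : ℤ) : (cg0_repMat N q bz j).det = 1 := by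
  simp only [cg0_repMat, Matrix.det_fin_two_of]
  linear_combination bz.bez

/-- `W * [[1,j],[0,q]] = q • rep j` -/
theorem cg0_Wmat_mul_fin (j : ZMod q) :
    cg0_Wmat N q bz * cohMatFin q j = (q : ℤ) • cg0_repMat N q bz (j.val : ℤ) := by
  ext a b
  fin_cases a <;> fin_cases b <;>
    simp [cg0_Wmat, cg0_repMat, cohMatFin, Matrix.mul_apply, Fin.sum_univ_two] <;> ring

/-- the representatives of `Γ₀(Nq) \ Γ₀(N)` indexed by `P¹(𝔽_q)` -/
def cg0_rep (x : OnePoint (ZMod q)) : Matrix (Fin 2) (Fin 2) ℤ :=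
  x.elim 1 (fun j => cg0_repMat N q bz (j.val : ℤ))

@[simp] theorem cg0_rep_infty : cg0_rep N q bz OnePoint.infty = 1 := rfl

@[simp] theorem cg0_rep_coe (j : ZMod q) :
    cg0_rep N q bz (j : OnePoint (ZMod q)) = cg0_repMat N q bz (j.val : ℤ) := rfl

theorem cg0_rep_det (x : OnePoint (ZMod q)) : (cg0_rep N q bz x).det = 1 := by
  induction x using OnePoint.rec with
  | infty => simp
  | coe j => exact cg0_repMat_det N q bz _

/-! ### a packaging lemma for `rel` -/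

omit bz in
/-- package an explicit integer matrix `X` with `X * M' = M * γ` as an element of `Γ₀(K)` -/
theorem cg0_exists_rel {K : ℕ} {Γ₁ : Subgroup SL(2, ℤ)} (γ : Γ₁)
    {X M M' : Matrix (Fin 2) (Fin 2) ℤ} (hdet : M.det = M'.det) (h0 : M.det ≠ 0)
    (h : X * M' = M * cohMat γ) (hK : (K : ℤ) ∣ X 1 0) :
    ∃ γ' : Gamma0 K, cohMat γ' * M' = M * cohMat γ := by
  have hX : X.det = 1 := cg0_det_eq_one (γ := (γ : SL(2, ℤ))) hdet h0 h
  refine ⟨⟨⟨X, hX⟩, cg0_mem_Gamma0_iff.mpr hK⟩, ?_⟩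
  exact h

omit bz in
/-- `X * M' = M * γ` follows from `det M' • X = M * γ * adj M'` -/
theorem cg0_rel_of_adj {X M M' G : Matrix (Fin 2) (Fin 2) ℤ} {m : ℤ} (hm : m ≠ 0)
    (hdet : M'.det = m) (h : m • X = M * G * M'.adjugate) : X * M' = M * G := by
  have h1 : m • (X * M') = m • (M * G) := by
    rw [← Matrix.smul_mul, h, Matrix.mul_assoc (M * G), Matrix.adjugate_mul, hdet,
      Matrix.mul_smul, Matrix.mul_one]
  ext i j
  have h2 := congrFun (congrFun h1 i) j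
  simp only [Matrix.smul_apply, smul_eq_mul] at h2
  exact mul_left_cancel₀ hm h2

/-! ### the Atkin–Lehner datum -/

/-- the Atkin–Lehner datum `W_q` on `Γ₀(Nq)` -/
noncomputable def cg0_datumW (hq0 : q ≠ 0) : CorrDatum (Gamma0 (N * q)) (Gamma0 (N * q)) Unit where
  A _ := cg0_Wmat N q bz
  det_ne _ := by
    rw [cg0_Wmat_det]
    exact_mod_cast hq0
  rel γ _ := by
    refine ⟨(), ?_⟩
    obtain ⟨c₀, hc₀⟩ := cg0_mem_Gamma0_iff.mp γ.2
    set a := (γ : SL(2, ℤ)) 0 0 with ha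
    set b := (γ : SL(2, ℤ)) 0 1 with hb
    set c := (γ : SL(2, ℤ)) 1 0 with hc
    set d := (γ : SL(2, ℤ)) 1 1 with hd
    have hc' : c = (N : ℤ) * q * c₀ := by rw [hc₀]; push_cast; ring
    have hq0' : (q : ℤ) ≠ 0 := by exact_mod_cast hq0
    refine cg0_exists_rel (K := N * q) γ
      (X := !![(q : ℤ) * bz.u * a - bz.v * c - (N : ℤ) * q * bz.u * b + (N : ℤ) * bz.v * d,
               bz.u * a * bz.v - bz.v ^ 2 * (N : ℤ) * c₀ + (q : ℤ) * bz.u ^ 2 * b - bz.u * bz.v * d;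
               (N : ℤ) * q * (a + (q : ℤ) * c₀ - (N : ℤ) * b - d),
               (N : ℤ) * a * bz.v + c * bz.v + (N : ℤ) * q * b * bz.u + (q : ℤ) * d * bz.u])
      rfl ?_ ?_ ?_
    · rw [cg0_Wmat_det]; exact hq0'
    · refine cg0_rel_of_adj hq0' (cg0_Wmat_det N q bz) ?_
      have hγ : cohMat γ = !![a, b; (N : ℤ) * q * c₀, d] := by
        rw [← hc']
        exact Matrix.eta_fin_two _
      rw [hγ]
      ext i j
      fin_cases i <;> fin_cases j <;>
        simp [cg0_Wmat, Matrix.adjugate_fin_two, Matrix.mul_apply, Fin.sum_univ_two] <;>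
        (try rw [hc']) <;> ring
    · simp only [Matrix.of_apply, Matrix.cons_val', Matrix.cons_val_zero, Matrix.cons_val_one,
        Matrix.empty_val', Matrix.cons_val_fin_one]
      exact ⟨a + (q : ℤ) * c₀ - (N : ℤ) * b - d, by push_cast; ring⟩
  distinct _ _ _ _ := rfl

/-! ### the point of `P¹(𝔽_q)` attached to the bottom row of an integer matrix -/

section point

variable [Fact q.Prime]

omit bz in
/-- the point `(c : d) ↦ d / c` of `P¹(𝔽_q)` attached to the bottom row `(c, d)` -/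
noncomputable def cg0_pt (G : Matrix (Fin 2) (Fin 2) ℤ) : OnePoint (ZMod q) :=
  if ((G 1 0 : ℤ) : ZMod q) = 0 then OnePoint.infty
  else (((G 1 1 : ℤ) : ZMod q) * ((G 1 0 : ℤ) : ZMod q)⁻¹ : ZMod q)

theorem cg0_pt_rep (hqN : ¬ q ∣ N) (x : OnePoint (ZMod q)) : cg0_pt q (cg0_rep N q bz x) = x := by
  have hN : ((N : ℤ) : ZMod q) ≠ 0 := by
    rw [Ne, ZMod.intCast_zmod_eq_zero_iff_dvd]
    exact_mod_cast hqN
  induction x using OnePoint.rec with
  | infty => simp [cg0_pt]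
  | coe j =>
    have h10 : (cg0_rep N q bz (j : OnePoint (ZMod q))) 1 0 = (N : ℤ) := by
      simp [cg0_repMat]
    have h11 : (cg0_rep N q bz (j : OnePoint (ZMod q))) 1 1 = (N : ℤ) * (j.val : ℤ) + q := by
      simp [cg0_repMat]
    rw [cg0_pt, h10, h11, if_neg hN]
    congr 1
    push_cast
    rw [ZMod.natCast_self, add_zero, ZMod.natCast_zmod_val, mul_comm, ← mul_assoc,
      inv_mul_cancel₀ (by simpa using hN), one_mul]

omit bz in
/-- left multiplication by an element of `Γ₀(q)` does not change the point -/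
theorem cg0_pt_mul_left (g : SL(2, ℤ)) (hg : (q : ℤ) ∣ g 1 0) (G : Matrix (Fin 2) (Fin 2) ℤ) :
    cg0_pt q ((g : Matrix (Fin 2) (Fin 2) ℤ) * G) = cg0_pt q G := by
  have hc : ((g 1 0 : ℤ) : ZMod q) = 0 := (ZMod.intCast_zmod_eq_zero_iff_dvd _ _).mpr hg
  have hdet : ((g 0 0 : ℤ) : ZMod q) * ((g 1 1 : ℤ) : ZMod q) = 1 := by
    have h := congrArg (Int.cast : ℤ → ZMod q) (coh_det_eq g)
    push_cast at h
    rw [hc, mul_zero, sub_zero] at h
    exact h
  have hd : ((g 1 1 : ℤ) : ZMod q) ≠ 0 := by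
    intro h0
    rw [h0, mul_zero] at hdet
    exact zero_ne_one hdet
  have e0 : ((((g : Matrix (Fin 2) (Fin 2) ℤ) * G) 1 0 : ℤ) : ZMod q)
      = ((g 1 1 : ℤ) : ZMod q) * ((G 1 0 : ℤ) : ZMod q) := by
    rw [Matrix.mul_apply, Fin.sum_univ_two]
    push_cast
    rw [hc, zero_mul, zero_add]
  have e1 : ((((g : Matrix (Fin 2) (Fin 2) ℤ) * G) 1 1 : ℤ) : ZMod q)
      = ((g 1 1 : ℤ) : ZMod q) * ((G 1 1 : ℤ) : ZMod q) := by
    rw [Matrix.mul_apply, Fin.sum_univ_two]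
    push_cast
    rw [hc, zero_mul, zero_add]
  unfold cg0_pt
  rw [e0, e1]
  by_cases h : ((G 1 0 : ℤ) : ZMod q) = 0
  · rw [if_pos h, if_pos (by rw [h, mul_zero])]
  · rw [if_neg h, if_neg (mul_ne_zero hd h)]
    congr 1
    field_simp

/-- **Lemma A**: `G * adj (rep (pt G))` has lower-left entry divisible by `N q`. -/
theorem cg0_pt_spec (G : Matrix (Fin 2) (Fin 2) ℤ) (hG : (N : ℤ) ∣ G 1 0) :
    ((N * q : ℕ) : ℤ) ∣ (G * (cg0_rep N q bz (cg0_pt q G)).adjugate) 1 0 := by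
  unfold cg0_pt
  by_cases h : ((G 1 0 : ℤ) : ZMod q) = 0
  · rw [if_pos h, cg0_rep_infty, Matrix.adjugate_one, Matrix.mul_one]
    exact cg0_mul_dvd bz hG ((ZMod.intCast_zmod_eq_zero_iff_dvd _ _).mp h)
  · rw [if_neg h, cg0_rep_coe]
    set j : ZMod q := ((G 1 1 : ℤ) : ZMod q) * ((G 1 0 : ℤ) : ZMod q)⁻¹ with hj
    have hval : (G * (cg0_repMat N q bz (j.val : ℤ)).adjugate) 1 0
        = G 1 0 * ((N : ℤ) * (j.val : ℤ) + q) - G 1 1 * (N : ℤ) := by
      simp [cg0_repMat, Matrix.adjugate_fin_two, Matrix.mul_apply, Fin.sum_univ_two]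
      ring
    rw [hval]
    apply cg0_mul_dvd bz
    · obtain ⟨c₁, hc₁⟩ := hG
      exact ⟨c₁ * ((N : ℤ) * (j.val : ℤ) + q) - G 1 1, by rw [hc₁]; ring⟩
    · rw [← ZMod.intCast_zmod_eq_zero_iff_dvd]
      push_cast
      rw [ZMod.natCast_self, add_zero, ZMod.natCast_zmod_val, hj]
      field_simp
      ring

end point

/-! ### the corestriction datum -/

theorem cg0_rep_dvd (x : OnePoint (ZMod q)) : (N : ℤ) ∣ (cg0_rep N q bz x) 1 0 := by
  induction x using OnePoint.rec with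
  | infty => simp
  | coe j => simp [cg0_repMat]

/-- the corestriction (transfer) datum `Hom(Γ₀(Nq), B) → Hom(Γ₀(N), B)` -/
noncomputable def cg0_datumCores [Fact q.Prime] (hqN : ¬ q ∣ N) :
    CorrDatum (Gamma0 N) (Gamma0 (N * q)) (OnePoint (ZMod q)) where
  A := cg0_rep N q bz
  det_ne x := by rw [cg0_rep_det]; exact one_ne_zero
  rel γ x := by
    set G := cg0_rep N q bz x * cohMat γ with hGdef
    have hG : (N : ℤ) ∣ G 1 0 := by
      rw [hGdef, Matrix.mul_apply, Fin.sum_univ_two]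
      exact dvd_add (Dvd.dvd.mul_right (cg0_rep_dvd N q bz x) _)
        (Dvd.dvd.mul_left (cg0_mem_Gamma0_iff.mp γ.2) _)
    refine ⟨cg0_pt q G, ?_⟩
    refine cg0_exists_rel (K := N * q) γ
      (X := G * (cg0_rep N q bz (cg0_pt q G)).adjugate) ?_ ?_ ?_ (cg0_pt_spec N q bz G hG)
    · rw [cg0_rep_det, cg0_rep_det]
    · rw [cg0_rep_det]; exact one_ne_zero
    · rw [Matrix.mul_assoc, Matrix.adjugate_mul, cg0_rep_det, one_smul, Matrix.mul_one]
  distinct x x' γ' h := by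
    have hq : (q : ℤ) ∣ (γ' : SL(2, ℤ)) 1 0 :=
      (Dvd.intro_left _ (by push_cast; rfl)).trans (cg0_mem_Gamma0_iff.mp γ'.2)
    have h1 := cg0_pt_mul_left q (γ' : SL(2, ℤ)) hq (cg0_rep N q bz x')
    have h2 : ((γ' : SL(2, ℤ)) : Matrix (Fin 2) (Fin 2) ℤ) * cg0_rep N q bz x'
        = cg0_rep N q bz x := h
    rw [h2, cg0_pt_rep N q bz hqN, cg0_pt_rep N q bz hqN] at h1
    exact h1

/-- the restriction datum `Hom(Γ₀(N), B) → Hom(Γ₀(Nq), B)` -/
noncomputable def cg0_datumRes : CorrDatum (Gamma0 (N * q)) (Gamma0 N) Unit where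
  A _ := 1
  det_ne _ := by simp
  rel γ _ := ⟨(), ⟨(γ : SL(2, ℤ)), cg0_Gamma0_le γ.2⟩, by simp [cohMat]⟩
  distinct _ _ _ _ := rfl

end Fermat.Agent.S41x
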