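/-
S41 project (level raising), block B (COH-LEVEL), the basic identities (helper1):
with `res`, `cores`, `W = W_q` between `Hom(Γ₀(N), B)` and `Hom(Γ₀(Nq), B)` (`q ∤ N` prime):

* `cg0_cores_res`   : `cores (res φ) = (q + 1) • φ`;
* `cg0_cores_W_res` : `cores (W (res φ)) = T_q φ`   (`T_q = S16x.cohT N q`);
* `cg0_W_W`         : `W (W ψ) = ψ`;
* `cg0_res_cores`   : `res (cores ψ) = ψ + U_q (W ψ)` (`U_q = S16x.cohU (N q) q`).
-/
import Fermat.Agent.S41x.CorrGamma0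

set_option autoImplicit false
set_option linter.unnecessarySeqFocus false

namespace Fermat.Agent.S41x

open scoped MatrixGroups
open CongruenceSubgroup Matrix.SpecialLinearGroup
open Fermat.Agent.S16x

variable (N q : ℕ) (bz : cg0_Bez N q) {B : Type*} [AddCommGroup B]

/-- restriction `Hom(Γ₀(N), B) → Hom(Γ₀(Nq), B)` -/
noncomputable def cg0_res : (Additive (Gamma0 N) →+ B) →+ (Additive (Gamma0 (N * q)) →+ B) :=
  (cg0_datumRes N q).op

/-- corestriction `Hom(Γ₀(Nq), B) → Hom(Γ₀(N), B)` -/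
noncomputable def cg0_cores [Fact q.Prime] (hqN : ¬ q ∣ N) :
    (Additive (Gamma0 (N * q)) →+ B) →+ (Additive (Gamma0 N) →+ B) :=
  (cg0_datumCores N q bz hqN).op

/-- the Atkin–Lehner operator `W_q` on `Hom(Γ₀(Nq), B)` -/
noncomputable def cg0_W (hq0 : q ≠ 0) :
    (Additive (Gamma0 (N * q)) →+ B) →+ (Additive (Gamma0 (N * q)) →+ B) :=
  (cg0_datumW N q bz hq0).op

/-- the inclusion `Γ₀(Nq) → Γ₀(N)` -/
def cg0_incl (γ : Gamma0 (N * q)) : Gamma0 N := ⟨(γ : SL(2, ℤ)), cg0_Gamma0_le γ.2⟩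

@[simp] theorem cg0_cohMat_incl (γ : Gamma0 (N * q)) : cohMat (cg0_incl N q γ) = cohMat γ := rfl

theorem cg0_res_apply (φ : Additive (Gamma0 N) →+ B) (γ : Gamma0 (N * q)) :
    cg0_res N q φ (Additive.ofMul γ) = φ (Additive.ofMul (cg0_incl N q γ)) := by
  unfold cg0_res
  rw [CorrDatum.op_apply_of (cg0_datumRes N q) φ (τ := id) (h := fun _ => cg0_incl N q γ)
    (by intro i; simp [cg0_datumRes])]
  simp

theorem cg0_W_apply (hq0 : q ≠ 0) (ψ : Additive (Gamma0 (N * q)) →+ B) (γ : Gamma0 (N * q)) :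
    cg0_W N q bz hq0 ψ (Additive.ofMul γ)
      = ψ (Additive.ofMul ((cg0_datumW N q bz hq0).elt γ ())) := by
  unfold cg0_W
  rw [CorrDatum.op_apply]
  simp

theorem cg0_W_elt_spec (hq0 : q ≠ 0) (γ : Gamma0 (N * q)) :
    cohMat ((cg0_datumW N q bz hq0).elt γ ()) * cg0_Wmat N q bz = cg0_Wmat N q bz * cohMat γ :=
  (cg0_datumW N q bz hq0).elt_spec γ ()

/-! ### `W ∘ W = id` -/

/-- the matrix `q⁻¹ • W²` -/
def cg0_g1Mat : Matrix (Fin 2) (Fin 2) ℤ :=
  !![(q : ℤ) * bz.u ^ 2 - bz.v * N, -bz.v * (bz.u + 1); (N : ℤ) * q * (bz.u + 1), (q : ℤ) - N * bz.v]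

theorem cg0_g1Mat_det : (cg0_g1Mat N q bz).det = 1 := by
  simp only [cg0_g1Mat, Matrix.det_fin_two_of]
  linear_combination ((q : ℤ) * bz.u + (N : ℤ) * bz.v + 1) * bz.bez

theorem cg0_Wmat_sq : cg0_Wmat N q bz * cg0_Wmat N q bz = (q : ℤ) • cg0_g1Mat N q bz := by
  ext a b
  fin_cases a <;> fin_cases b <;>
    simp [cg0_Wmat, cg0_g1Mat, Matrix.mul_apply, Fin.sum_univ_two] <;> ring

/-- `q⁻¹ • W²` as an element of `Γ₀(Nq)` -/
def cg0_g1 : Gamma0 (N * q) :=
  ⟨⟨cg0_g1Mat N q bz, cg0_g1Mat_det N q bz⟩, cg0_mem_Gamma0_iff.mpr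
    ⟨bz.u + 1, by simp [cg0_g1Mat]⟩⟩

@[simp] theorem cg0_cohMat_g1 : cohMat (cg0_g1 N q bz) = cg0_g1Mat N q bz := rfl

omit bz in
/-- cancellation of a nonzero integer scalar -/
theorem cg0_smul_cancel {m : ℤ} (hm : m ≠ 0) {X Y : Matrix (Fin 2) (Fin 2) ℤ}
    (h : m • X = m • Y) : X = Y := by
  ext i j
  have h2 := congrFun (congrFun h i) j
  simp only [Matrix.smul_apply, smul_eq_mul] at h2
  exact mul_left_cancel₀ hm h2

theorem cg0_W_W (hq0 : q ≠ 0) (ψ : Additive (Gamma0 (N * q)) →+ B) :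
    cg0_W N q bz hq0 (cg0_W N q bz hq0 ψ) = ψ := by
  refine AddMonoidHom.ext fun γ => ?_
  obtain ⟨γ, rfl⟩ := Additive.ofMul.surjective γ
  rw [cg0_W_apply, cg0_W_apply]
  set E₁ := (cg0_datumW N q bz hq0).elt γ () with hE₁
  set E₂ := (cg0_datumW N q bz hq0).elt E₁ () with hE₂
  have h1 : cohMat E₁ * cg0_Wmat N q bz = cg0_Wmat N q bz * cohMat γ :=
    cg0_W_elt_spec N q bz hq0 γ
  have h2 : cohMat E₂ * cg0_Wmat N q bz = cg0_Wmat N q bz * cohMat E₁ :=
    cg0_W_elt_spec N q bz hq0 E₁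
  have hq0' : (q : ℤ) ≠ 0 := by exact_mod_cast hq0
  have h3 : cohMat E₂ * cg0_g1Mat N q bz = cg0_g1Mat N q bz * cohMat γ := by
    apply cg0_smul_cancel hq0'
    rw [← Matrix.mul_smul, ← Matrix.smul_mul, ← cg0_Wmat_sq, ← Matrix.mul_assoc, h2,
      Matrix.mul_assoc, h1, ← Matrix.mul_assoc]
  have h4 : E₂ = cg0_g1 N q bz * γ * (cg0_g1 N q bz)⁻¹ := by
    rw [eq_mul_inv_iff_mul_eq]
    apply cohMat_injective
    rw [cohMat_mul, cohMat_mul, cg0_cohMat_g1, h3]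
  rw [h4, ofMul_mul, ofMul_mul, ofMul_inv, map_add, map_add, map_neg]
  abel

/-! ### `cores ∘ res = q + 1` -/

/-- the representatives of `Γ₀(Nq) \ Γ₀(N)` as elements of `Γ₀(N)` -/
def cg0_repΓ (x : OnePoint (ZMod q)) : Gamma0 N :=
  ⟨⟨cg0_rep N q bz x, cg0_rep_det N q bz x⟩, cg0_mem_Gamma0_iff.mpr (cg0_rep_dvd N q bz x)⟩

@[simp] theorem cg0_cohMat_repΓ (x : OnePoint (ZMod q)) :
    cohMat (cg0_repΓ N q bz x) = cg0_rep N q bz x := rfl

theorem cg0_cores_apply [Fact q.Prime] (hqN : ¬ q ∣ N) (ψ : Additive (Gamma0 (N * q)) →+ B)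
    (γ : Gamma0 N) :
    cg0_cores N q bz hqN ψ (Additive.ofMul γ)
      = ∑ x, ψ (Additive.ofMul ((cg0_datumCores N q bz hqN).elt γ x)) := rfl

theorem cg0_cores_res [Fact q.Prime] (hqN : ¬ q ∣ N) (φ : Additive (Gamma0 N) →+ B) :
    cg0_cores N q bz hqN (cg0_res N q φ) = (q + 1) • φ := by
  refine AddMonoidHom.ext fun γ => ?_
  obtain ⟨γ, rfl⟩ := Additive.ofMul.surjective γ
  set D := cg0_datumCores N q bz hqN with hD
  rw [cg0_cores_apply]
  have hterm : ∀ x, cg0_res N q φ (Additive.ofMul (D.elt γ x))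
      = φ (Additive.ofMul γ) + (φ (Additive.ofMul (cg0_repΓ N q bz x))
          - φ (Additive.ofMul (cg0_repΓ N q bz (D.perm γ x)))) := by
    intro x
    rw [cg0_res_apply]
    have h1 : cg0_incl N q (D.elt γ x)
        = cg0_repΓ N q bz x * γ * (cg0_repΓ N q bz (D.idx γ x))⁻¹ := by
      rw [eq_mul_inv_iff_mul_eq]
      apply cohMat_injective
      rw [cohMat_mul, cohMat_mul, cg0_cohMat_incl, cg0_cohMat_repΓ, cg0_cohMat_repΓ]
      exact D.elt_spec γ x
    rw [h1, ofMul_mul, ofMul_mul, ofMul_inv, map_add, map_add, map_neg, CorrDatum.perm_apply]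
    abel
  rw [Finset.sum_congr rfl fun x _ => hterm x, Finset.sum_add_distrib, Finset.sum_sub_distrib,
    Equiv.sum_comp (D.perm γ) (fun x => φ (Additive.ofMul (cg0_repΓ N q bz x))), sub_self,
    add_zero, Finset.sum_const, Finset.card_univ]
  have hcard : Fintype.card (OnePoint (ZMod q)) = q + 1 := by
    rw [show Fintype.card (OnePoint (ZMod q)) = Fintype.card (Option (ZMod q)) from rfl,
      Fintype.card_option, ZMod.card]
  rw [hcard]
  rfl

/-! ### `res ∘ cores = 1 + U_q ∘ W` -/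

theorem cg0_res_cores [Fact q.Prime] [NeZero q] (hqN : ¬ q ∣ N) (hq0 : q ≠ 0)
    (ψ : Additive (Gamma0 (N * q)) →+ B) :
    cg0_res N q (cg0_cores N q bz hqN ψ)
      = ψ + cohU (N * q) q (Dvd.intro_left N rfl) (cg0_W N q bz hq0 ψ) := by
  refine AddMonoidHom.ext fun γ => ?_
  obtain ⟨γ, rfl⟩ := Additive.ofMul.surjective γ
  set D := cg0_datumCores N q bz hqN with hD
  set DU := cohDatumU (N * q) q (Dvd.intro_left N rfl) with hDU
  set DW := cg0_datumW N q bz hq0 with hDW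
  have hq0' : (q : ℤ) ≠ 0 := by exact_mod_cast hq0
  rw [cg0_res_apply]
  have key := D.op_apply_of_family ψ (γ := cg0_incl N q γ) (J := OnePoint (ZMod q))
    (Equiv.refl _) (fun _ => 1) (q : ℤ) hq0'
    (fun x => x.elim ((q : ℤ) • (1 : Matrix (Fin 2) (Fin 2) ℤ))
      (fun j => cg0_Wmat N q bz * cohMatFin q j))
    (by
      intro x
      induction x using OnePoint.rec with
      | infty => simp [hD, cg0_datumCores]
      | coe j =>
        simp only [OnePoint.elim_some, cohMat_one, Matrix.one_mul, Equiv.refl_apply]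
        exact cg0_Wmat_mul_fin N q bz j)
    (fun x => x.elim OnePoint.infty (fun j => ((DU.idx γ j : ZMod q) : OnePoint (ZMod q))))
    (fun x => x.elim γ (fun j => DW.elt (DU.elt γ j) ()))
    (by
      intro x
      induction x using OnePoint.rec with
      | infty =>
        show cohMat γ * ((q : ℤ) • (1 : Matrix (Fin 2) (Fin 2) ℤ))
          = ((q : ℤ) • (1 : Matrix (Fin 2) (Fin 2) ℤ)) * cohMat (cg0_incl N q γ)
        rw [Matrix.mul_smul, Matrix.smul_mul, Matrix.mul_one, Matrix.one_mul]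
        rfl
      | coe j =>
        simp only [OnePoint.elim_some, cg0_cohMat_incl]
        rw [← Matrix.mul_assoc, cg0_W_elt_spec, Matrix.mul_assoc, Matrix.mul_assoc]
        congr 1
        exact DU.elt_spec γ j)
  unfold cg0_cores
  rw [key, AddMonoidHom.add_apply]
  rw [show (∑ x : OnePoint (ZMod q), ψ (Additive.ofMul (x.elim γ (fun j => DW.elt (DU.elt γ j) ()))))
      = ∑ x : Option (ZMod q), ψ (Additive.ofMul (Option.elim x γ (fun j => DW.elt (DU.elt γ j) ())))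
      from rfl, Fintype.sum_option]
  congr 1
  unfold cohU
  rw [CohDatum.op_apply]
  refine Finset.sum_congr rfl fun j _ => ?_
  rw [cg0_W_apply]
  rfl

/-! ### `cores ∘ W ∘ res = T_q` -/

/-- the matrix `W * diag(q,1)⁻¹ = [[u, -v],[N, q]]` -/
def cg0_g0Mat : Matrix (Fin 2) (Fin 2) ℤ := !![bz.u, -bz.v; (N : ℤ), (q : ℤ)]

theorem cg0_g0Mat_det : (cg0_g0Mat N q bz).det = 1 := by
  simp only [cg0_g0Mat, Matrix.det_fin_two_of]
  linear_combination bz.bez

/-- `[[u, -v],[N, q]]` as an element of `Γ₀(N)` -/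
def cg0_g0 : Gamma0 N :=
  ⟨⟨cg0_g0Mat N q bz, cg0_g0Mat_det N q bz⟩, cg0_mem_Gamma0_iff.mpr ⟨1, by simp [cg0_g0Mat]⟩⟩

@[simp] theorem cg0_cohMat_g0 : cohMat (cg0_g0 N q bz) = cg0_g0Mat N q bz := rfl

theorem cg0_Wmat_eq_g0 : cg0_Wmat N q bz = cg0_g0Mat N q bz * cohMatInf q := by
  ext a b
  fin_cases a <;> fin_cases b <;>
    simp [cg0_Wmat, cg0_g0Mat, cohMatInf, Matrix.mul_apply, Fin.sum_univ_two] <;> ring

theorem cg0_Wmat_mul_rep (hq0 : q ≠ 0) (j : ZMod q) :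
    cg0_Wmat N q bz * cg0_repMat N q bz (j.val : ℤ) = cg0_g1Mat N q bz * cohMatFin q j := by
  have hq0' : (q : ℤ) ≠ 0 := by exact_mod_cast hq0
  apply cg0_smul_cancel hq0'
  rw [← Matrix.mul_smul, ← cg0_Wmat_mul_fin, ← Matrix.smul_mul, ← cg0_Wmat_sq, Matrix.mul_assoc]

theorem cg0_cores_W_res [Fact q.Prime] (hqN : ¬ q ∣ N) (hq0 : q ≠ 0)
    (φ : Additive (Gamma0 N) →+ B) :
    cg0_cores N q bz hqN (cg0_W N q bz hq0 (cg0_res N q φ)) = cohT N q hqN φ := by
  refine AddMonoidHom.ext fun γ => ?_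
  obtain ⟨γ, rfl⟩ := Additive.ofMul.surjective γ
  set Dc := cg0_datumCores N q bz hqN with hDc
  set DW := cg0_datumW N q bz hq0 with hDW
  have key := (CorrDatum.ofCoh (cohDatumT N q hqN)).op_apply_of_family φ (γ := γ)
    (J := OnePoint (ZMod q)) (Equiv.refl _)
    (fun x => x.elim (cg0_g0 N q bz) (fun _ => cg0_incl N q (cg0_g1 N q bz))) 1 one_ne_zero
    (fun x => cg0_Wmat N q bz * cg0_rep N q bz x)
    (by
      intro x
      rw [one_smul]
      induction x using OnePoint.rec with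
      | infty =>
        show cg0_Wmat N q bz * 1 = cg0_g0Mat N q bz * cohMatInf q
        rw [Matrix.mul_one, cg0_Wmat_eq_g0]
      | coe j =>
        show cg0_Wmat N q bz * cg0_repMat N q bz (j.val : ℤ) = cg0_g1Mat N q bz * cohMatFin q j
        exact cg0_Wmat_mul_rep N q bz hq0 j)
    (fun x => Dc.idx γ x)
    (fun x => cg0_incl N q (DW.elt (Dc.elt γ x) ()))
    (by
      intro x
      rw [cg0_cohMat_incl, ← Matrix.mul_assoc, cg0_W_elt_spec, Matrix.mul_assoc, Matrix.mul_assoc]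
      congr 1
      exact Dc.elt_spec γ x)
  rw [CorrDatum.ofCoh_op] at key
  unfold cohT
  rw [key, cg0_cores_apply]
  refine Finset.sum_congr rfl fun x _ => ?_
  rw [cg0_W_apply, cg0_res_apply]

end Fermat.Agent.S41x
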