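/-
S41x/D2pOrbit.lean (helper41).  Mathlib only.

Two representation-independent ingredients of helper74's "D2-prime" (Hecke route to Ihara's lemma):

* `d2p_sum_eq_zero_of_shift` : in a finite group `G`, if `p ∣ orderOf t` (`p` an odd prime) and
  `f : G → ZMod p` satisfies `f (x * t) = f x + 2 * κ`, then `∑ x, f x = 0`
  (each coset of `⟨t⟩` contributes `m f + m (m - 1) κ = 0`).
* `d2p_prime_dvd_orderOf_pow` : Step 4: in a finite cyclic group of order divisible by `p ^ (v + 1)`,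
  an element `x` that is not a `p`-th power satisfies `p ∣ orderOf (x ^ k)` whenever
  `¬ p ^ (v + 1) ∣ k`.
-/
import Mathlib

set_option autoImplicit false

open Finset

namespace Fermat.Agent.S41x

/-- iterating the shift relation -/
theorem d2p_shift_pow {G : Type*} [Group G] {M : Type*} [AddCommGroup M] (t : G) (f : G → M) (c : M)
    (hf : ∀ x, f (x * t) = f x + c) (x : G) (n : ℕ) : f (x * t ^ n) = f x + n • c := by
  induction n with
  | zero => simp
  | succ n ih =>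
    rw [pow_succ, ← mul_assoc, hf, ih, succ_nsmul, add_assoc]

/-- the sum over one coset of `⟨t⟩` -/
theorem d2p_coset_sum {G : Type*} [Group G] [Fintype G] [DecidableEq G] (p : ℕ) [Fact p.Prime]
    (t : G) (ht : p ∣ orderOf t) (f : G → ZMod p) (κ : ZMod p)
    (hf : ∀ x, f (x * t) = f x + 2 * κ) (x : G) :
    ∑ h : Subgroup.zpowers t, f (x * (h : G)) = 0 := by
  classical
  have hfin : IsOfFinOrder t := isOfFinOrder_of_finite t
  rw [← Equiv.sum_comp (finEquivZPowers hfin) (fun h : Subgroup.zpowers t => f (x * (h : G)))]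
  simp only [finEquivZPowers_apply]
  have h1 : ∀ i : Fin (orderOf t), f (x * t ^ (i : ℕ)) = f x + ((i : ℕ) : ZMod p) * (2 * κ) := by
    intro i
    rw [d2p_shift_pow t f (2 * κ) hf x i, nsmul_eq_mul]
  simp only [h1]
  rw [Finset.sum_add_distrib, ← Finset.sum_mul]
  simp only [Finset.sum_const, Finset.card_univ, Fintype.card_fin, nsmul_eq_mul]
  have hm : ((orderOf t : ℕ) : ZMod p) = 0 := by
    rw [ZMod.natCast_eq_zero_iff]; exact ht
  rw [hm, zero_mul, zero_add]
  -- Gauss sum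
  have hg : (∑ i : Fin (orderOf t), ((i : ℕ) : ZMod p)) * 2 = 0 := by
    rw [Fin.sum_univ_eq_sum_range (fun i => ((i : ℕ) : ZMod p)) (orderOf t)]
    rw [← Nat.cast_sum, ← Nat.cast_ofNat (R := ZMod p) (n := 2), ← Nat.cast_mul,
      Finset.sum_range_id_mul_two, Nat.cast_mul, hm, zero_mul]
  calc (∑ i : Fin (orderOf t), ((i : ℕ) : ZMod p)) * (2 * κ)
      = ((∑ i : Fin (orderOf t), ((i : ℕ) : ZMod p)) * 2) * κ := by ring
    _ = 0 := by rw [hg, zero_mul]

/-- the map `(q, h) ↦ q.out * h` is a bijection `(G ⧸ H) × H → G` -/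
theorem d2p_outMul_bijective {G : Type*} [Group G] (H : Subgroup G) :
    Function.Bijective (fun x : (G ⧸ H) × H => Quotient.out x.1 * (x.2 : G)) := by
  constructor
  · rintro ⟨q, h⟩ ⟨q', h'⟩ hqq
    simp only at hqq
    have hq : q = q' := by
      have h1 : ((Quotient.out q * (h : G) : G) : G ⧸ H) = q := by
        rw [QuotientGroup.mk_mul_of_mem _ h.2]; exact QuotientGroup.out_eq' q
      have h2 : ((Quotient.out q' * (h' : G) : G) : G ⧸ H) = q' := by
        rw [QuotientGroup.mk_mul_of_mem _ h'.2]; exact QuotientGroup.out_eq' q'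
      rw [← h1, ← h2, hqq]
    subst hq
    have : (h : G) = h' := mul_left_cancel hqq
    exact Prod.ext rfl (Subtype.ext this)
  · intro g
    have hmem : (Quotient.out (g : G ⧸ H))⁻¹ * g ∈ H := by
      rw [← QuotientGroup.eq]; exact QuotientGroup.out_eq' _
    exact ⟨((g : G ⧸ H), ⟨_, hmem⟩), by simp⟩

/-- **Orbit-sum lemma** (Step 3 of D2-prime).  -/
theorem d2p_sum_eq_zero_of_shift {G : Type*} [Group G] [Fintype G] (p : ℕ) [Fact p.Prime]
    (t : G) (ht : p ∣ orderOf t) (f : G → ZMod p) (κ : ZMod p)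
    (hf : ∀ x, f (x * t) = f x + 2 * κ) : ∑ x, f x = 0 := by
  classical
  rw [← (d2p_outMul_bijective (Subgroup.zpowers t)).sum_comp f, Fintype.sum_prod_type]
  apply Finset.sum_eq_zero
  intro q _
  exact d2p_coset_sum p t ht f κ hf (Quotient.out q)

/-- elementary: `a ∣ n`, `¬ a ∣ n / p`, `p ∣ n`, `p ^ j ∣ n` imply `p ^ j ∣ a` -/
theorem d2p_pow_dvd_of_not_dvd_div {p a n j : ℕ} (hp : p.Prime) (han : a ∣ n) (hpn : p ∣ n)
    (hna : ¬ a ∣ n / p) (hj : p ^ j ∣ n) : p ^ j ∣ a := by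
  obtain ⟨s, rfl⟩ := han
  have hps : ¬ p ∣ s := by
    rintro ⟨s', rfl⟩
    apply hna
    rw [show a * (p * s') = p * (a * s') by ring, Nat.mul_div_cancel_left _ hp.pos]
    exact dvd_mul_right _ _
  have hcop : Nat.Coprime (p ^ j) s := Nat.Coprime.pow_left _ ((Nat.Prime.coprime_iff_not_dvd hp).2 hps)
  exact hcop.dvd_of_dvd_mul_right hj

/-- in a finite cyclic group of order `n`, an element with `x ^ (n / p) = 1` (`p ∣ n`) is a `p`-th
power -/
theorem d2p_exists_pow_eq_of_pow_div_eq_one {C : Type*} [Group C] [Fintype C] [IsCyclic C]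
    {p : ℕ} (hpn : p ∣ Fintype.card C) (hp0 : 0 < p) (x : C) (hx : x ^ (Fintype.card C / p) = 1) :
    ∃ y : C, y ^ p = x := by
  obtain ⟨g, hg⟩ := IsCyclic.exists_generator (α := C)
  obtain ⟨k, rfl⟩ : ∃ k : ℕ, g ^ k = x := by
    have := hg x
    rw [Subgroup.mem_zpowers_iff] at this
    obtain ⟨z, hz⟩ := this
    refine ⟨(z % (orderOf g : ℤ)).toNat, ?_⟩
    have hpos : (0 : ℤ) < orderOf g := by exact_mod_cast orderOf_pos g
    rw [← zpow_natCast, Int.toNat_of_nonneg (Int.emod_nonneg _ hpos.ne'), zpow_mod_orderOf, hz]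
  have hord : orderOf g = Fintype.card C := by
    rw [orderOf_eq_card_of_forall_mem_zpowers hg, Nat.card_eq_fintype_card]
  rw [← pow_mul, ← hord] at hx
  have hdvd : orderOf g ∣ k * (orderOf g / p) := orderOf_dvd_of_pow_eq_one hx
  rw [hord] at hdvd
  obtain ⟨n', hn'⟩ := hpn
  have hn0 : 0 < Fintype.card C := Fintype.card_pos
  rw [hn', Nat.mul_div_cancel_left _ hp0] at hdvd
  -- p * n' ∣ k * n'  ⇒  p ∣ k
  have hn'0 : 0 < n' := by
    rcases Nat.eq_zero_or_pos n' with h | h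
    · rw [h, mul_zero] at hn'; omega
    · exact h
  have hpk : p ∣ k := by
    have : p * n' ∣ k * n' := hdvd
    exact Nat.dvd_of_mul_dvd_mul_right hn'0 this
  obtain ⟨k', rfl⟩ := hpk
  exact ⟨g ^ k', by rw [← pow_mul, mul_comm]⟩

/-- **Step 4 of D2-prime.**  In a finite cyclic group whose order is divisible by `p ^ (v + 1)`,
if `x` is not a `p`-th power and `¬ p ^ (v + 1) ∣ k`, then `p ∣ orderOf (x ^ k)`. -/
theorem d2p_prime_dvd_orderOf_pow {C : Type*} [Group C] [Fintype C] [IsCyclic C]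
    {p : ℕ} [Fact p.Prime] {v : ℕ} (hcard : p ^ (v + 1) ∣ Fintype.card C) (x : C)
    (hx : ¬ ∃ y : C, y ^ p = x) {k : ℕ} (hk : ¬ p ^ (v + 1) ∣ k) : p ∣ orderOf (x ^ k) := by
  have hp : p.Prime := Fact.out
  have hpn : p ∣ Fintype.card C := dvd_trans (dvd_pow_self p (Nat.succ_ne_zero v)) hcard
  by_contra hnd
  -- `a := orderOf x` has full `p`-part
  have ha : orderOf x ∣ Fintype.card C := orderOf_dvd_card
  have hna : ¬ orderOf x ∣ Fintype.card C / p := by
    intro h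
    apply hx
    apply d2p_exists_pow_eq_of_pow_div_eq_one hpn hp.pos x
    exact orderOf_dvd_iff_pow_eq_one.mp h
  have hpa : p ^ (v + 1) ∣ orderOf x := d2p_pow_dvd_of_not_dvd_div hp ha hpn hna hcard
  -- `orderOf x ∣ k * orderOf (x ^ k)`
  have h1 : x ^ (k * orderOf (x ^ k)) = 1 := by rw [pow_mul, pow_orderOf_eq_one]
  have h2 : orderOf x ∣ k * orderOf (x ^ k) := orderOf_dvd_of_pow_eq_one h1
  have h3 : p ^ (v + 1) ∣ k * orderOf (x ^ k) := dvd_trans hpa h2
  have hcop : Nat.Coprime (p ^ (v + 1)) (orderOf (x ^ k)) :=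
    Nat.Coprime.pow_left _ ((Nat.Prime.coprime_iff_not_dvd hp).2 hnd)
  exact hk (hcop.dvd_of_dvd_mul_right h3)

/-- Step 4 in the form used: `(ZMod ℓ)ˣ`, `ℓ ≡ 1 mod p ^ (v + 1)`. -/
theorem d2p_prime_dvd_orderOf_pow_zmod {ℓ p : ℕ} [Fact ℓ.Prime] [Fact p.Prime] {v : ℕ}
    (hℓ : p ^ (v + 1) ∣ ℓ - 1) (x : (ZMod ℓ)ˣ) (hx : ¬ ∃ y : (ZMod ℓ)ˣ, y ^ p = x) {k : ℕ}
    (hk : ¬ p ^ (v + 1) ∣ k) : p ∣ orderOf (x ^ k) := by
  apply d2p_prime_dvd_orderOf_pow (v := v) _ x hx hk
  rw [ZMod.card_units_eq_totient, Nat.totient_prime (Fact.out : ℓ.Prime)]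
  exact hℓ

end Fermat.Agent.S41x
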