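import Fermat.Agent.S41x.DualDictGlue
import Fermat.Agent.S41x.DualFunctL

/-!
# S41x / DualAdj: restriction and transfer are adjoint for `dds_form`

Through the Shapiro dictionary (`dd_theta`), restriction of homs `Γ → R` to `Γ' ≤ Γ` becomes the
pull-back `df_resQ` and the transfer `Γ' → Γ` (computed with ANY system of coset representatives)
becomes the push-forward `df_coresQ`.  Consequently (`das_form_adj`)
`dds_form' (res φ) ψ = dds_form φ (cores ψ)` for `Γ' ≤ Γ ≤ SL(2,ℤ)`.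
-/

set_option autoImplicit false

open ModularGroup ModularCurve.Period
open scoped MatrixGroups

namespace Fermat.Agent.S41x

open Finset

section Sec

variable {R : Type*} [CommRing R]
variable {G : Type*} [Group G] {E' : Type*} [MulAction G E']

/-- The induced cocycle with respect to an arbitrary section `r` of `g ↦ g • x₀'`. -/
noncomputable def da_indS (Γ' : Subgroup G) (r : E' → G) (ψ : Additive Γ' →+ R) (g : G) (x : E') :
    R :=
  dd_ext Γ' ψ ((r x)⁻¹ * g * r (g⁻¹ • x))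

variable (x₀' : E') {Γ' : Subgroup G} (hΓ' : ∀ g : G, g ∈ Γ' ↔ g • x₀' = x₀')
variable (r : E' → G) (hr : ∀ x, r x • x₀' = x)
include hΓ' hr

theorem da_indS_mem (g : G) (x : E') : (r x)⁻¹ * g * r (g⁻¹ • x) ∈ Γ' := by
  rw [hΓ', mul_smul, mul_smul, hr, smul_inv_smul, inv_smul_eq_iff, hr]

theorem da_isCoc_indS (ψ : Additive Γ' →+ R) : dd_IsCoc (da_indS Γ' r ψ) := by
  intro g h x
  simp only [da_indS]
  have e : (r x)⁻¹ * (g * h) * r ((g * h)⁻¹ • x) =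
      ((r x)⁻¹ * g * r (g⁻¹ • x)) * ((r (g⁻¹ • x))⁻¹ * h * r (h⁻¹ • (g⁻¹ • x))) := by
    rw [mul_inv_rev, mul_smul]
    group
  rw [e, dd_ext_mul ψ (da_indS_mem x₀' hΓ' r hr g x) (da_indS_mem x₀' hΓ' r hr h (g⁻¹ • x))]

theorem da_indS_apply_base (ψ : Additive Γ' →+ R) {γ : G} (hγ : γ ∈ Γ') :
    da_indS Γ' r ψ γ x₀' = dd_ext Γ' ψ γ := by
  have h0 : γ⁻¹ • x₀' = x₀' := by rw [inv_smul_eq_iff, ((hΓ' γ).mp hγ)]
  have hr0 : r x₀' ∈ Γ' := by rw [hΓ', hr]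
  simp only [da_indS, h0]
  rw [dd_ext_mul ψ (Γ'.mul_mem (Γ'.inv_mem hr0) hγ) hr0, dd_ext_mul ψ (Γ'.inv_mem hr0) hγ,
    dd_ext_inv ψ hr0]
  ring

end Sec

section Generic

variable {R : Type*} [CommRing R] [IsDomain R] [IsPrincipalIdealRing R]
variable {G : Type*} [Group G]
variable {E : Type*} [MulAction G E] [Fintype E] [DecidableEq E] [MulAction.IsPretransitive G E]
variable {E' : Type*} [MulAction G E'] [Fintype E'] [DecidableEq E']
  [MulAction.IsPretransitive G E']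
variable (Y : dd_Sys G E) (x₀ : E) {Γ : Subgroup G} (hΓ : ∀ g : G, g ∈ Γ ↔ g • x₀ = x₀)
variable (h2 : (2 : R) ≠ 0) (h3 : (3 : R) ≠ 0)

include hΓ h2 h3 in
/-- The class of `φ` is the class of `v` as soon as `φ` is the restriction (at the base point) of
some cocycle represented by `v`. -/
theorem da_theta_of_coc {F : G → E → R} (hF : dd_IsCoc F) {v : E → R} (hrep : dd_Rep Y F v)
    (φ : Additive Γ →+ R) (hφ : ∀ γ (h : γ ∈ Γ), φ (Additive.ofMul ⟨γ, h⟩) = F γ x₀) :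
    dd_theta Y x₀ hΓ h2 h3 φ = Submodule.Quotient.mk v := by
  apply dd_theta_eq
  have e : dd_ind x₀ Γ φ = fun g x => F g x + dd_cob (fun y => F (dd_sec G x₀ y) y) g x := by
    funext g x
    exact dd_ind_of_coc x₀ hΓ hF φ hφ g x
  rw [e]
  exact dd_rep_cob Y hrep _

variable (Y' : dd_Sys G E') (hσ : Y'.σ = Y.σ) (hτ : Y'.τ = Y.τ)
variable (x₀' : E') {Γ' : Subgroup G} (hΓ' : ∀ g : G, g ∈ Γ' ↔ g • x₀' = x₀')
variable (π : E' → E) (hπ : ∀ (g : G) (x : E'), π (g • x) = g • π x)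

/-- The equivariant map of `(s,t)`-sets attached to `π`. -/
def da_Hom : df_Hom (dd_D Y') (dd_D Y) where
  π := π
  hs := fun x => by simp only [dd_D_s, hσ, hπ]
  ht := fun x => by simp only [dd_D_t, hτ, hπ]

omit [IsDomain R] [IsPrincipalIdealRing R] [Fintype E] [DecidableEq E]
  [MulAction.IsPretransitive G E] [Fintype E'] [DecidableEq E']
  [MulAction.IsPretransitive G E'] in
include hπ in
theorem da_isCoc_pull {c : G → E → R} (hc : dd_IsCoc c) :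
    dd_IsCoc (fun g (x' : E') => c g (π x')) := by
  intro g h x
  simp only [hπ]
  exact hc g h (π x)

omit [IsDomain R] [IsPrincipalIdealRing R] [Fintype E] [DecidableEq E]
  [MulAction.IsPretransitive G E] [Fintype E'] [DecidableEq E']
  [MulAction.IsPretransitive G E'] in
include hσ hτ hπ in
theorem da_rep_pull {c : G → E → R} {v : E → R} (h : dd_Rep Y c v) :
    dd_Rep Y' (fun g (x' : E') => c g (π x')) (fun x' => v (π x')) := by
  obtain ⟨a, h1, h2'⟩ := h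
  refine ⟨fun x' => a (π x'), fun x => ?_, fun x => ?_⟩
  · rw [hσ]
    simp only [dd_cob, hπ]
    exact h1 (π x)
  · rw [hτ]
    simp only [dd_cob, hπ]
    exact h2' (π x)

include hσ hτ hπ hΓ hΓ' h2 h3 in
/-- **Restriction = pull-back** through the dictionary. -/
theorem da_theta_res (hx₀ : π x₀' = x₀) (φ : Additive Γ →+ R) (φ' : Additive Γ' →+ R)
    (hφ : ∀ γ (h : γ ∈ Γ') (hG : γ ∈ Γ), φ' (Additive.ofMul ⟨γ, h⟩) = φ (Additive.ofMul ⟨γ, hG⟩)) :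
    dd_theta Y' x₀' hΓ' h2 h3 φ' =
      df_resQ R (da_Hom Y Y' hσ hτ π hπ) (dd_theta Y x₀ hΓ h2 h3 φ) := by
  obtain ⟨v, hv, e⟩ := dd_theta_rep Y x₀ hΓ h2 h3 φ
  rw [e, df_resQ_mk]
  refine da_theta_of_coc Y' x₀' hΓ' h2 h3 (da_isCoc_pull π hπ (dd_isCoc_ind x₀ hΓ φ))
    (da_rep_pull Y Y' hσ hτ π hπ hv) φ' ?_
  intro γ hγ
  have hG : γ ∈ Γ := by
    rw [hΓ, ← hx₀, ← hπ, (hΓ' γ).mp hγ]
  rw [hφ γ hγ hG, hx₀, dd_ind_apply_base x₀ hΓ φ hG, dd_ext_of_mem φ hG]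

omit [IsDomain R] [IsPrincipalIdealRing R] [MulAction.IsPretransitive G E]
  [DecidableEq E'] [MulAction.IsPretransitive G E'] in
/-- Push-forward of cocycles is a cocycle. -/
theorem da_isCoc_push {c' : G → E' → R} (hc : dd_IsCoc c') :
    dd_IsCoc (fun g x => df_push (da_Hom Y Y' hσ hτ π hπ) (c' g) x) := by
  intro g h x
  have e := df_push_comp (R := R) (da_Hom Y Y' hσ hτ π hπ) (MulAction.toPerm g⁻¹)
    (MulAction.toPerm g⁻¹) (fun x' => hπ g⁻¹ x') (c' h) x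
  simp only [MulAction.toPerm_apply] at e
  show df_push _ (c' (g * h)) x = df_push _ (c' g) x + df_push _ (c' h) (g⁻¹ • x)
  rw [e, ← Pi.add_apply, ← map_add]
  refine congrFun (congrArg _ ?_) x
  funext x'
  exact hc g h x'

omit [IsDomain R] [IsPrincipalIdealRing R] [MulAction.IsPretransitive G E]
  [DecidableEq E'] [MulAction.IsPretransitive G E'] in
theorem da_rep_push {c' : G → E' → R} {v' : E' → R} (h : dd_Rep Y' c' v') :
    dd_Rep Y (fun g x => df_push (da_Hom Y Y' hσ hτ π hπ) (c' g) x)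
      (df_push (da_Hom Y Y' hσ hτ π hπ) v') := by
  obtain ⟨a, h1, h2'⟩ := h
  refine ⟨df_push (da_Hom Y Y' hσ hτ π hπ) a, fun x => ?_, fun x => ?_⟩
  · have e := df_push_s (R := R) (da_Hom Y Y' hσ hτ π hπ) a x
    simp only [dd_D_s] at e
    simp only [dd_cob]
    rw [e, ← Pi.sub_apply, ← map_sub]
    refine congrFun (congrArg _ ?_) x
    funext x'
    rw [← hσ, h1 x']
    rfl
  · have e := df_push_t (R := R) (da_Hom Y Y' hσ hτ π hπ) a x
    have e' := df_push_t (R := R) (da_Hom Y Y' hσ hτ π hπ) v' x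
    simp only [dd_D_t] at e e'
    simp only [dd_cob]
    rw [e, e', ← Pi.sub_apply, ← Pi.sub_apply, ← map_sub, ← map_sub, ← Pi.add_apply, ← map_add]
    refine congrFun (congrArg _ ?_) x
    funext x'
    rw [← hτ, h2' x']
    rfl

include hΓ hΓ' h2 h3 in
/-- **Transfer = push-forward** through the dictionary, transfer computed with any section. -/
theorem da_theta_cores_sec (r : E' → G) (hr : ∀ x, r x • x₀' = x)
    (ψ : Additive Γ' →+ R) (χ : Additive Γ →+ R)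
    (hχ : ∀ γ (h : γ ∈ Γ), χ (Additive.ofMul ⟨γ, h⟩) =
      ∑ x' ∈ univ.filter (fun x' => π x' = x₀), da_indS Γ' r ψ γ x') :
    dd_theta Y x₀ hΓ h2 h3 χ =
      df_coresQ R (da_Hom Y Y' hσ hτ π hπ) (dd_theta Y' x₀' hΓ' h2 h3 ψ) := by
  obtain ⟨v', hv', e'⟩ := dd_theta_rep Y' x₀' hΓ' h2 h3 ψ
  rw [e', df_coresQ_mk]
  have hcS := da_isCoc_indS (R := R) x₀' hΓ' r hr ψ
  -- `indS` is represented by `v'`
  have hrepS : dd_Rep Y' (da_indS Γ' r ψ) v' := by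
    have hb := dd_ind_of_coc x₀' hΓ' hcS ψ (fun γ h => by
      rw [da_indS_apply_base x₀' hΓ' r hr ψ h, dd_ext_of_mem ψ h])
    have := dd_rep_cob Y' hv' (fun y => - da_indS Γ' r ψ (dd_sec G x₀' y) y)
    have efun : (fun g x => dd_ind x₀' Γ' ψ g x +
        dd_cob (fun y => - da_indS Γ' r ψ (dd_sec G x₀' y) y) g x) = da_indS Γ' r ψ := by
      funext g x
      rw [hb g x]
      simp only [dd_cob]
      ring
    rw [efun] at this
    exact this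
  exact da_theta_of_coc Y x₀ hΓ h2 h3 (da_isCoc_push Y Y' hσ hτ π hπ hcS)
    (da_rep_push Y Y' hσ hτ π hπ hrepS) χ (fun γ h => by rw [hχ γ h]; rfl)

include hΓ hΓ' h2 h3 in
/-- **Transfer = push-forward**, transfer computed with an indexed system of representatives
`ρ i` of `Γ / Γ'`. -/
theorem da_theta_cores_idx (hx₀ : π x₀' = x₀) {I : Type*} [Fintype I] (ρ : I → G)
    (hρ_mem : ∀ i, ρ i ∈ Γ) (hρ_inj : ∀ i j, (ρ i)⁻¹ * ρ j ∈ Γ' → i = j)
    (hρ_surj : ∀ g ∈ Γ, ∃ i, (ρ i)⁻¹ * g ∈ Γ')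
    (ψ : Additive Γ' →+ R) (χ : Additive Γ →+ R)
    (hχ : ∀ γ (h : γ ∈ Γ), ∃ (τ : I → I) (k : I → Γ'),
      (∀ i, ((k i : Γ') : G) = (ρ i)⁻¹ * γ * ρ (τ i)) ∧
      χ (Additive.ofMul ⟨γ, h⟩) = ∑ i, ψ (Additive.ofMul (k i))) :
    dd_theta Y x₀ hΓ h2 h3 χ =
      df_coresQ R (da_Hom Y Y' hσ hτ π hπ) (dd_theta Y' x₀' hΓ' h2 h3 ψ) := by
  classical
  -- the section built from `ρ`
  have hex : ∀ x : E', ∃ g : G, g • x₀' = x ∧ ((∃ i, ρ i • x₀' = x) → ∃ i, g = ρ i) := by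
    intro x
    by_cases h : ∃ i, ρ i • x₀' = x
    · obtain ⟨i, hi⟩ := h
      exact ⟨ρ i, hi, fun _ => ⟨i, rfl⟩⟩
    · exact ⟨dd_sec G x₀' x, dd_sec_smul x₀' x, fun h' => absurd h' h⟩
  choose r hr hr' using hex
  have hri : ∀ i, r (ρ i • x₀') = ρ i := by
    intro i
    obtain ⟨j, hj⟩ := hr' (ρ i • x₀') ⟨i, rfl⟩
    have h1 := hr (ρ i • x₀')
    rw [hj] at h1
    have : j = i := by
      apply hρ_inj
      rw [hΓ', mul_smul, ← h1, inv_smul_smul]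
    rw [hj, this]
  apply da_theta_cores_sec Y x₀ hΓ h2 h3 Y' hσ hτ x₀' hΓ' π hπ r hr ψ χ
  intro γ hγ
  obtain ⟨τ, k, hk, hsum⟩ := hχ γ hγ
  rw [hsum]
  -- the fibre over `x₀` is `{ρ i • x₀'}`
  have hfix : ∀ i, ρ (τ i) • x₀' = γ⁻¹ • ρ i • x₀' := by
    intro i
    have hm : (ρ i)⁻¹ * γ * ρ (τ i) ∈ Γ' := by rw [← hk i]; exact (k i).2
    have := (hΓ' _).mp hm
    rw [mul_smul, mul_smul, inv_smul_eq_iff] at this
    rw [eq_inv_smul_iff, this]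
  refine Finset.sum_bij (fun i _ => ρ i • x₀') ?_ ?_ ?_ ?_
  · intro i _
    simp only [Finset.mem_filter, Finset.mem_univ, true_and]
    rw [hπ, hx₀, ← hΓ]
    exact hρ_mem i
  · intro i _ j _ hij
    apply hρ_inj
    rw [hΓ', mul_smul, ← hij, inv_smul_smul]
  · intro x' hx'
    simp only [Finset.mem_filter, Finset.mem_univ, true_and] at hx'
    have hrG : r x' ∈ Γ := by
      rw [hΓ, ← hx₀, ← hπ, hr, hx', hx₀]
    obtain ⟨i, hi⟩ := hρ_surj (r x') hrG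
    refine ⟨i, Finset.mem_univ _, ?_⟩
    have := (hΓ' _).mp hi
    rw [mul_smul, inv_smul_eq_iff, hr] at this
    exact this.symm
  · intro i _
    simp only [da_indS]
    rw [← hfix i, hri, hri]
    have hm : (ρ i)⁻¹ * γ * ρ (τ i) ∈ Γ' := by rw [← hk i]; exact (k i).2
    rw [dd_ext_of_mem ψ hm]
    congr 2
    exact Subtype.ext (hk i)

end Generic

section SL2

attribute [local instance] Subgroup.fintypeQuotientOfFiniteIndex
attribute [local instance] Classical.propDecidable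

variable {Γ Γ' : Subgroup SL(2, ℤ)} [Γ.FiniteIndex] [Γ'.FiniteIndex]
variable {R : Type*} [CommRing R] [IsDomain R] [IsPrincipalIdealRing R] [CharZero R]

/-- The projection `SL(2,ℤ)/Γ' → SL(2,ℤ)/Γ`. -/
def das_π (hle : Γ' ≤ Γ) : SL(2, ℤ) ⧸ Γ' → SL(2, ℤ) ⧸ Γ := Subgroup.quotientMapOfLE hle

omit [Γ.FiniteIndex] [Γ'.FiniteIndex] in
theorem das_π_smul (hle : Γ' ≤ Γ) (g : SL(2, ℤ)) (x : SL(2, ℤ) ⧸ Γ') :
    das_π hle (g • x) = g • das_π hle x := by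
  induction x using QuotientGroup.induction_on with
  | H a => rfl

omit [Γ.FiniteIndex] [Γ'.FiniteIndex] in
theorem das_π_x0 (hle : Γ' ≤ Γ) : das_π hle (dds_x0 Γ') = dds_x0 Γ := rfl

/-- The equivariant map of model data attached to `Γ' ≤ Γ`. -/
def das_Hom (hle : Γ' ≤ Γ) (hneg' : (-1 : SL(2, ℤ)) ∈ Γ') (hneg : (-1 : SL(2, ℤ)) ∈ Γ) :
    df_Hom (dd_D (dds_Y hneg')) (dd_D (dds_Y hneg)) :=
  da_Hom (dds_Y hneg) (dds_Y hneg') rfl rfl (das_π hle) (das_π_smul hle)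

/-- **Restriction through the dictionary.** -/
theorem das_equiv_res (hle : Γ' ≤ Γ) (hneg' : (-1 : SL(2, ℤ)) ∈ Γ') (hneg : (-1 : SL(2, ℤ)) ∈ Γ)
    (φ : parabolicHoms R Γ R) (φ' : parabolicHoms R Γ' R)
    (hφ : ∀ γ (h : γ ∈ Γ'), φ'.1 (Additive.ofMul ⟨γ, h⟩) = φ.1 (Additive.ofMul ⟨γ, hle h⟩)) :
    dds_equiv (R := R) hneg' φ' = df_res R (das_Hom hle hneg' hneg) (dds_equiv (R := R) hneg φ) := by
  apply Subtype.ext
  rw [dds_equiv_apply]
  show _ = df_resQ R (das_Hom hle hneg' hneg) (dds_equiv (R := R) hneg φ : _)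
  rw [dds_equiv_apply]
  exact da_theta_res (dds_Y hneg) (dds_x0 Γ) (dds_mem_iff Γ) dds_two_ne dds_three_ne (dds_Y hneg')
    rfl rfl (dds_x0 Γ') (dds_mem_iff Γ') (das_π hle) (das_π_smul hle) (das_π_x0 hle) φ.1 φ'.1
    (fun γ h _ => hφ γ h)

/-- **Transfer through the dictionary**, for any indexed system of representatives of `Γ / Γ'`. -/
theorem das_equiv_cores (hle : Γ' ≤ Γ) (hneg' : (-1 : SL(2, ℤ)) ∈ Γ') (hneg : (-1 : SL(2, ℤ)) ∈ Γ)
    {I : Type*} [Fintype I] (ρ : I → SL(2, ℤ))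
    (hρ_mem : ∀ i, ρ i ∈ Γ) (hρ_inj : ∀ i j, (ρ i)⁻¹ * ρ j ∈ Γ' → i = j)
    (hρ_surj : ∀ g ∈ Γ, ∃ i, (ρ i)⁻¹ * g ∈ Γ')
    (ψ : parabolicHoms R Γ' R) (χ : parabolicHoms R Γ R)
    (hχ : ∀ γ (h : γ ∈ Γ), ∃ (τ : I → I) (k : I → Γ'),
      (∀ i, ((k i : Γ') : SL(2, ℤ)) = (ρ i)⁻¹ * γ * ρ (τ i)) ∧
      χ.1 (Additive.ofMul ⟨γ, h⟩) = ∑ i, ψ.1 (Additive.ofMul (k i))) :
    dds_equiv (R := R) hneg χ = df_cores R (das_Hom hle hneg' hneg) (dds_equiv (R := R) hneg' ψ) := by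
  apply Subtype.ext
  rw [dds_equiv_apply]
  show _ = df_coresQ R (das_Hom hle hneg' hneg) (dds_equiv (R := R) hneg' ψ : _)
  rw [dds_equiv_apply]
  exact da_theta_cores_idx (dds_Y hneg) (dds_x0 Γ) (dds_mem_iff Γ) dds_two_ne dds_three_ne
    (dds_Y hneg') rfl rfl (dds_x0 Γ') (dds_mem_iff Γ') (das_π hle) (das_π_smul hle) (das_π_x0 hle)
    ρ hρ_mem hρ_inj hρ_surj ψ.1 χ.1 hχ

/-- **Adjointness of restriction and transfer** for the perfect forms `dds_form`: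
`⟨res φ, ψ⟩_{Γ'} = ⟨φ, cores ψ⟩_Γ`. -/
theorem das_form_adj (hle : Γ' ≤ Γ) (hneg' : (-1 : SL(2, ℤ)) ∈ Γ') (hneg : (-1 : SL(2, ℤ)) ∈ Γ)
    {I : Type*} [Fintype I] (ρ : I → SL(2, ℤ))
    (hρ_mem : ∀ i, ρ i ∈ Γ) (hρ_inj : ∀ i j, (ρ i)⁻¹ * ρ j ∈ Γ' → i = j)
    (hρ_surj : ∀ g ∈ Γ, ∃ i, (ρ i)⁻¹ * g ∈ Γ')
    (φ : parabolicHoms R Γ R) (φ' : parabolicHoms R Γ' R)
    (hφ : ∀ γ (h : γ ∈ Γ'), φ'.1 (Additive.ofMul ⟨γ, h⟩) = φ.1 (Additive.ofMul ⟨γ, hle h⟩))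
    (ψ : parabolicHoms R Γ' R) (χ : parabolicHoms R Γ R)
    (hχ : ∀ γ (h : γ ∈ Γ), ∃ (τ : I → I) (k : I → Γ'),
      (∀ i, ((k i : Γ') : SL(2, ℤ)) = (ρ i)⁻¹ * γ * ρ (τ i)) ∧
      χ.1 (Additive.ofMul ⟨γ, h⟩) = ∑ i, ψ.1 (Additive.ofMul (k i))) :
    dds_form (R := R) hneg' φ' ψ = dds_form (R := R) hneg φ χ := by
  rw [dds_form_apply, dds_form_apply, das_equiv_res hle hneg' hneg φ φ' hφ,
    das_equiv_cores hle hneg' hneg ρ hρ_mem hρ_inj hρ_surj ψ χ hχ]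
  exact df_pair_adj (das_Hom hle hneg' hneg) dds_two_ne dds_three_ne _ _

end SL2

end Fermat.Agent.S41x
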