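import Fermat.Agent.S41x.DualLattice

/-!
# S41x / DualCob: coboundaries of a permutation on the standard lattice

For a permutation `c` of a finite set `E` and a PID `R`:
`g : E → R` is of the form `w ∘ c - w` iff `g` is orthogonal to all `c`-invariant functions.
(`H^1(ℤ, R^E)` is torsion free.)
-/

namespace Fermat.Agent.S41x

open Finset

variable {R : Type*} [CommRing R]
variable {E : Type*} [Fintype E]

/-- The submodule of coboundaries `w ∘ c - w`. -/
def dc_cob (c : Equiv.Perm E) : Submodule R (E → R) where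
  carrier := {g | ∃ w : E → R, ∀ x, w (c x) - w x = g x}
  add_mem' := by
    rintro g g' ⟨w, hw⟩ ⟨w', hw'⟩
    refine ⟨w + w', fun x => ?_⟩
    simp only [Pi.add_apply, ← hw x, ← hw' x]; ring
  zero_mem' := ⟨0, fun x => by simp⟩
  smul_mem' := by
    rintro r g ⟨w, hw⟩
    refine ⟨r • w, fun x => ?_⟩
    simp only [Pi.smul_apply, smul_eq_mul, ← hw x]; ring

theorem dc_mem_cob (c : Equiv.Perm E) (g : E → R) :
    g ∈ dc_cob (R := R) c ↔ ∃ w : E → R, ∀ x, w (c x) - w x = g x := Iff.rfl

/-- Adjointness of composition with a permutation. -/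
theorem dc_form_comp_left (c : Equiv.Perm E) (f h : E → R) :
    dl_form (fun x => f (c x)) h = dl_form f (fun x => h (c.symm x)) := by
  have := dl_form_comp_perm c f (fun x => h (c.symm x))
  simpa using this

/-- A function orthogonal to all coboundaries is invariant. -/
theorem dc_invariant_of_orth [DecidableEq E] (c : Equiv.Perm E) (P : E → R)
    (hP : ∀ g ∈ dc_cob (R := R) c, dl_form P g = 0) : ∀ x, P (c x) = P x := by
  intro y
  -- use w = δ_{c y}
  have hmem : (fun x => (Pi.single (c y) (1 : R) : E → R) (c x) - (Pi.single (c y) (1 : R) : E → R) x)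
      ∈ dc_cob (R := R) c := ⟨Pi.single (c y) 1, fun x => rfl⟩
  have h := hP _ hmem
  have h1 : dl_form P (fun x => (Pi.single (c y) (1 : R) : E → R) (c x)
      - (Pi.single (c y) (1 : R) : E → R) x)
      = dl_form P (fun x => (Pi.single (c y) (1 : R) : E → R) (c x))
        - dl_form P (Pi.single (c y) (1 : R)) := by
    rw [← dl_form_sub_right]; rfl
  rw [h1] at h
  have h2 : dl_form P (Pi.single (c y) (1 : R)) = P (c y) := by
    rw [dl_form_comm, dl_form_single_left]
  have h3 : dl_form P (fun x => (Pi.single (c y) (1 : R) : E → R) (c x)) = P y := by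
    have : (fun x => (Pi.single (c y) (1 : R) : E → R) (c x)) = Pi.single y (1 : R) := by
      funext x
      by_cases hx : x = y
      · subst hx; simp
      · have : c x ≠ c y := fun h => hx (c.injective h)
        simp [Pi.single_apply, hx, this]
    rw [this, dl_form_comm, dl_form_single_left]
  rw [h2, h3] at h
  exact (sub_eq_zero.mp h).symm

section PID

variable [IsDomain R] [IsPrincipalIdealRing R]

/-- Along a cycle, a function whose coboundary is divisible by `p` is constant mod `p`. -/
theorem dc_dvd_sub_of_sameCycle (c : Equiv.Perm E) (p : R) (w : E → R)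
    (hw : ∀ x, p ∣ w (c x) - w x) {x y : E} (hxy : c.SameCycle x y) : p ∣ w y - w x := by
  obtain ⟨i, rfl⟩ := hxy
  induction i using Int.induction_on with
  | zero => simp
  | succ i ih =>
    have : ((c ^ ((i : ℤ) + 1)) x) = c ((c ^ (i : ℤ)) x) := by
      rw [add_comm, zpow_add, zpow_one, Equiv.Perm.mul_apply]
    rw [this]
    have h1 := hw ((c ^ (i : ℤ)) x)
    have : w (c ((c ^ (i : ℤ)) x)) - w x
        = (w (c ((c ^ (i : ℤ)) x)) - w ((c ^ (i : ℤ)) x)) + (w ((c ^ (i : ℤ)) x) - w x) := by ring
    rw [this]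
    exact dvd_add h1 ih
  | pred i ih =>
    have hc : c ((c ^ (-(i : ℤ) - 1)) x) = (c ^ (-(i : ℤ))) x := by
      rw [← Equiv.Perm.mul_apply, ← zpow_one_add]
      congr 2; ring
    have h1 := hw ((c ^ (-(i : ℤ) - 1)) x)
    rw [hc] at h1
    have : w ((c ^ (-(i : ℤ) - 1)) x) - w x
        = (w ((c ^ (-(i : ℤ))) x) - w x) - (w ((c ^ (-(i : ℤ))) x) - w ((c ^ (-(i : ℤ) - 1)) x)) := by
      ring
    rw [this]
    exact dvd_sub ih h1

theorem dc_cob_sat (c : Equiv.Perm E) : dl_Sat (dc_cob (R := R) c) := by
  classical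
  apply dl_sat_of_prime
  rintro p hp g ⟨w, hw⟩
  have hp0 : p ≠ 0 := hp.ne_zero
  -- w is constant mod p on cycles
  have hdiv : ∀ x, p ∣ w (c x) - w x := fun x => ⟨g x, by rw [hw x]; rfl⟩
  -- representative function
  let rep : E → E := fun x => Quotient.out (Quotient.mk (Equiv.Perm.SameCycle.setoid c) x)
  have hrep_same : ∀ x, c.SameCycle x (rep x) := by
    intro x
    have : (Equiv.Perm.SameCycle.setoid c).r (rep x) x :=
      Quotient.exact (Quotient.out_eq (Quotient.mk (Equiv.Perm.SameCycle.setoid c) x))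
    exact Equiv.Perm.SameCycle.symm this
  have hrep_c : ∀ x, rep (c x) = rep x := by
    intro x
    have : Quotient.mk (Equiv.Perm.SameCycle.setoid c) (c x)
        = Quotient.mk (Equiv.Perm.SameCycle.setoid c) x := by
      apply Quotient.sound
      show c.SameCycle (c x) x
      exact (Equiv.Perm.sameCycle_apply_left).2 (Equiv.Perm.SameCycle.refl c x)
    simp only [rep, this]
  have hdiv2 : ∀ x, p ∣ w x - w (rep x) := by
    intro x
    have := dc_dvd_sub_of_sameCycle c p w hdiv (hrep_same x)
    have h2 : w x - w (rep x) = -(w (rep x) - w x) := by ring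
    rw [h2]; exact (dvd_neg).2 this
  choose w₁ hw₁ using hdiv2
  refine ⟨w₁, fun x => ?_⟩
  apply mul_left_cancel₀ hp0
  have e1 : p * (w₁ (c x) - w₁ x) = (w (c x) - w (rep (c x))) - (w x - w (rep x)) := by
    rw [hw₁ (c x), hw₁ x]; ring
  rw [e1, hrep_c x]
  have := hw x
  simp only [Pi.smul_apply, smul_eq_mul] at this
  rw [← this]; ring

/-- `g` is a coboundary iff it is orthogonal to all `c`-invariant functions. -/
theorem dc_exists_cob [DecidableEq E] (c : Equiv.Perm E) (g : E → R)
    (hg : ∀ u : E → R, (∀ x, u (c x) = u x) → dl_form u g = 0) :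
    ∃ w : E → R, ∀ x, w (c x) - w x = g x := by
  have := dl_mem_of_forall_form (dc_cob (R := R) c) (dc_cob_sat c) g (fun P hP =>
    hg P (dc_invariant_of_orth c P hP))
  exact this

end PID

end Fermat.Agent.S41x
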