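import Fermat.Agent.S41x.DualPairing

/-!
# S41x / DualDictCoc: cocycles on a finite `G`-set with values in `E → R`, induced cocycles

Generic part of the Shapiro dictionary `Hom(Γ, R) ↔ V / (V^s + V^t)`, over any commutative ring `R`
(prefix `dd_`).  `G` acts on the finite set `E`; functions carry the action
`(g • v) x = v (g⁻¹ • x)`; a cocycle is `c : G → E → R` with
`c (g * h) x = c g x + c h (g⁻¹ • x)`.
-/

namespace Fermat.Agent.S41x

open Finset

variable {R : Type*} [CommRing R]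
variable {G : Type*} [Group G] {E : Type*} [MulAction G E]

/-- Cocycles `G → (E → R)`. -/
def dd_IsCoc (c : G → E → R) : Prop := ∀ g h x, c (g * h) x = c g x + c h (g⁻¹ • x)

/-- Coboundaries. -/
def dd_cob (v : E → R) (g : G) (x : E) : R := v (g⁻¹ • x) - v x

theorem dd_isCoc_cob (v : E → R) : dd_IsCoc (G := G) (dd_cob v) := by
  intro g h x
  simp only [dd_cob, mul_inv_rev, mul_smul]
  ring

theorem dd_IsCoc.map_one {c : G → E → R} (hc : dd_IsCoc c) (x : E) : c 1 x = 0 := by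
  have h := hc 1 1 x
  rw [one_mul, inv_one, one_smul] at h
  exact left_eq_add.mp h

theorem dd_IsCoc.map_inv {c : G → E → R} (hc : dd_IsCoc c) (g : G) (x : E) :
    c g⁻¹ x = - c g (g • x) := by
  have h := hc g⁻¹ g x
  rw [inv_mul_cancel, hc.map_one, inv_inv] at h
  linear_combination -h

theorem dd_IsCoc.add {c d : G → E → R} (hc : dd_IsCoc c) (hd : dd_IsCoc d) :
    dd_IsCoc (fun g x => c g x + d g x) := by
  intro g h x
  simp only [hc g h x, hd g h x]; ring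

theorem dd_IsCoc.sub {c d : G → E → R} (hc : dd_IsCoc c) (hd : dd_IsCoc d) :
    dd_IsCoc (fun g x => c g x - d g x) := by
  intro g h x
  simp only [hc g h x, hd g h x]; ring

theorem dd_IsCoc.smul (r : R) {c : G → E → R} (hc : dd_IsCoc c) :
    dd_IsCoc (fun g x => r * c g x) := by
  intro g h x
  simp only [hc g h x]; ring

/-- A cocycle vanishing on a generating set vanishes. -/
theorem dd_IsCoc.eq_zero_of_closure {c : G → E → R} (hc : dd_IsCoc c) (S : Set G)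
    (hS : ∀ g ∈ S, ∀ x, c g x = 0) (hgen : Subgroup.closure S = ⊤) (g : G) (x : E) :
    c g x = 0 := by
  have hg : g ∈ Subgroup.closure S := by rw [hgen]; exact Subgroup.mem_top g
  revert x
  induction hg using Subgroup.closure_induction with
  | mem y hy => exact hS y hy
  | one => exact hc.map_one
  | mul y y' _ _ hy hy' => intro x; rw [hc y y' x, hy, hy', add_zero]
  | inv y _ hy => intro x; rw [hc.map_inv, hy, neg_zero]

/-- Two cocycles agreeing on a generating set agree. -/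
theorem dd_IsCoc.ext_of_closure {c d : G → E → R} (hc : dd_IsCoc c) (hd : dd_IsCoc d) (S : Set G)
    (hS : ∀ g ∈ S, ∀ x, c g x = d g x) (hgen : Subgroup.closure S = ⊤) (g : G) (x : E) :
    c g x = d g x := by
  have := (hc.sub hd).eq_zero_of_closure S (fun g hg x => by rw [hS g hg x, sub_self]) hgen g x
  exact sub_eq_zero.mp this

/-- Powers. -/
theorem dd_IsCoc.map_pow {c : G → E → R} (hc : dd_IsCoc c) (g : G) (n : ℕ) (x : E) :
    c (g ^ n) x = ∑ i ∈ Finset.range n, c g ((g ^ i)⁻¹ • x) := by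
  induction n with
  | zero => simp [hc.map_one]
  | succ n ih => rw [pow_succ, hc, ih, Finset.sum_range_succ]

/-- Value at a conjugate fixing the base point. -/
theorem dd_IsCoc.conj_apply {c : G → E → R} (hc : dd_IsCoc c) (r g : G) (x₀ : E)
    (hfix : g • (r • x₀) = r • x₀) : c (r⁻¹ * g * r) x₀ = c g (r • x₀) := by
  have h1 : g⁻¹ • (r • x₀) = r • x₀ := by rw [inv_smul_eq_iff, hfix]
  rw [mul_assoc, hc, hc, hc.map_inv, inv_inv, h1]
  ring

section Induced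

variable (x₀ : E) (Γ : Subgroup G)

open Classical in
/-- Extension by zero of a homomorphism on `Γ`. -/
noncomputable def dd_ext (φ : Additive Γ →+ R) (g : G) : R :=
  if h : g ∈ Γ then φ (Additive.ofMul ⟨g, h⟩) else 0

variable {Γ}

theorem dd_ext_of_mem (φ : Additive Γ →+ R) {g : G} (h : g ∈ Γ) :
    dd_ext Γ φ g = φ (Additive.ofMul ⟨g, h⟩) := by
  rw [dd_ext, dif_pos h]

theorem dd_ext_mul (φ : Additive Γ →+ R) {a b : G} (ha : a ∈ Γ) (hb : b ∈ Γ) :
    dd_ext Γ φ (a * b) = dd_ext Γ φ a + dd_ext Γ φ b := by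
  rw [dd_ext_of_mem φ ha, dd_ext_of_mem φ hb, dd_ext_of_mem φ (Γ.mul_mem ha hb), ← map_add]
  rfl

theorem dd_ext_one (φ : Additive Γ →+ R) : dd_ext Γ φ 1 = 0 := by
  rw [dd_ext_of_mem φ Γ.one_mem]
  exact map_zero φ

theorem dd_ext_inv (φ : Additive Γ →+ R) {a : G} (ha : a ∈ Γ) :
    dd_ext Γ φ a⁻¹ = - dd_ext Γ φ a := by
  have h := dd_ext_mul φ (Γ.inv_mem ha) ha
  rw [inv_mul_cancel, dd_ext_one] at h
  linear_combination -h

theorem dd_ext_add (φ ψ : Additive Γ →+ R) (g : G) :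
    dd_ext Γ (φ + ψ) g = dd_ext Γ φ g + dd_ext Γ ψ g := by
  by_cases h : g ∈ Γ
  · rw [dd_ext_of_mem _ h, dd_ext_of_mem _ h, dd_ext_of_mem _ h]; rfl
  · simp [dd_ext, h]

theorem dd_ext_smul (a : R) (φ : Additive Γ →+ R) (g : G) :
    dd_ext Γ (a • φ) g = a * dd_ext Γ φ g := by
  by_cases h : g ∈ Γ
  · rw [dd_ext_of_mem _ h, dd_ext_of_mem _ h]; rfl
  · simp [dd_ext, h]

variable [MulAction.IsPretransitive G E]

variable (G) in
/-- A section of the orbit map `g ↦ g • x₀`. -/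
noncomputable def dd_sec (x : E) : G := Classical.choose (MulAction.exists_smul_eq G x₀ x)

theorem dd_sec_smul (x : E) : dd_sec G x₀ x • x₀ = x :=
  Classical.choose_spec (MulAction.exists_smul_eq G x₀ x)

variable (Γ) in
/-- The induced cocycle of `φ`. -/
noncomputable def dd_ind (φ : Additive Γ →+ R) (g : G) (x : E) : R :=
  dd_ext Γ φ ((dd_sec G x₀ x)⁻¹ * g * dd_sec G x₀ (g⁻¹ • x))

variable (hΓ : ∀ g : G, g ∈ Γ ↔ g • x₀ = x₀)
include hΓ

theorem dd_ind_mem (g : G) (x : E) :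
    (dd_sec G x₀ x)⁻¹ * g * dd_sec G x₀ (g⁻¹ • x) ∈ Γ := by
  rw [hΓ, mul_smul, mul_smul, dd_sec_smul, smul_inv_smul, inv_smul_eq_iff, dd_sec_smul]

theorem dd_isCoc_ind (φ : Additive Γ →+ R) : dd_IsCoc (dd_ind x₀ Γ φ) := by
  intro g h x
  simp only [dd_ind]
  have e : (dd_sec G x₀ x)⁻¹ * (g * h) * dd_sec G x₀ ((g * h)⁻¹ • x) =
      ((dd_sec G x₀ x)⁻¹ * g * dd_sec G x₀ (g⁻¹ • x)) *
        ((dd_sec G x₀ (g⁻¹ • x))⁻¹ * h * dd_sec G x₀ (h⁻¹ • (g⁻¹ • x))) := by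
    rw [mul_inv_rev, mul_smul]
    group
  rw [e, dd_ext_mul φ (dd_ind_mem x₀ hΓ g x) (dd_ind_mem x₀ hΓ h (g⁻¹ • x))]

theorem dd_ind_apply_base (φ : Additive Γ →+ R) {γ : G} (hγ : γ ∈ Γ) :
    dd_ind x₀ Γ φ γ x₀ = dd_ext Γ φ γ := by
  have h0 : γ⁻¹ • x₀ = x₀ := by rw [inv_smul_eq_iff, ((hΓ γ).mp hγ)]
  have hr : dd_sec G x₀ x₀ ∈ Γ := by rw [hΓ, dd_sec_smul]
  simp only [dd_ind, h0]
  rw [dd_ext_mul φ (Γ.mul_mem (Γ.inv_mem hr) hγ) hr, dd_ext_mul φ (Γ.inv_mem hr) hγ,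
    dd_ext_inv φ hr]
  ring

omit hΓ in
theorem dd_ind_add (φ ψ : Additive Γ →+ R) (g : G) (x : E) :
    dd_ind x₀ Γ (φ + ψ) g x = dd_ind x₀ Γ φ g x + dd_ind x₀ Γ ψ g x := by
  simp [dd_ind, dd_ext_add]

omit hΓ in
theorem dd_ind_smul (a : R) (φ : Additive Γ →+ R) (g : G) (x : E) :
    dd_ind x₀ Γ (a • φ) g x = a * dd_ind x₀ Γ φ g x := by
  simp [dd_ind, dd_ext_smul]

/-- Shapiro: a cocycle `F` is cohomologous to the induced cocycle of its restriction
`γ ↦ F γ x₀`. -/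
theorem dd_ind_of_coc {F : G → E → R} (hF : dd_IsCoc F) (φ : Additive Γ →+ R)
    (hφ : ∀ γ (h : γ ∈ Γ), φ (Additive.ofMul ⟨γ, h⟩) = F γ x₀) (g : G) (x : E) :
    dd_ind x₀ Γ φ g x = F g x + dd_cob (fun y => F (dd_sec G x₀ y) y) g x := by
  have hm := dd_ind_mem x₀ hΓ g x
  simp only [dd_ind, dd_cob]
  rw [dd_ext_of_mem φ hm, hφ _ hm, mul_assoc, hF, hF, hF.map_inv, inv_inv, dd_sec_smul]
  ring

end Induced

end Fermat.Agent.S41x
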