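import Fermat.Agent.S41x.DualDictTheta

/-!
# S41x / DualDictEquiv: parabolic homs `≃ₗ` parabolic classes of the model (generic part)
-/

namespace Fermat.Agent.S41x

open Finset

variable {R : Type*} [CommRing R] [IsDomain R] [IsPrincipalIdealRing R]
variable {G : Type*} [Group G] {E : Type*} [MulAction G E] [Fintype E] [DecidableEq E]
  [MulAction.IsPretransitive G E]
variable (Y : dd_Sys G E) (x₀ : E) {Γ : Subgroup G} (hΓ : ∀ g : G, g ∈ Γ ↔ g • x₀ = x₀)
variable (h2 : (2 : R) ≠ 0) (h3 : (3 : R) ≠ 0)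

omit [IsDomain R] [IsPrincipalIdealRing R] [DecidableEq E] [MulAction.IsPretransitive G E] in
/-- Invariance under `P⁻¹ •` propagates to all `(P ^ i)⁻¹ •`. -/
theorem dd_inv_pow_invariant (P : G) (u : E → R) (hu : ∀ x, u (P⁻¹ • x) = u x) (i : ℕ) (x : E) :
    u ((P ^ i)⁻¹ • x) = u x := by
  induction i generalizing x with
  | zero => simp
  | succ i ih =>
    rw [pow_succ, mul_inv_rev, mul_smul, hu, ih]

include hΓ in
/-- parabolic ⟹ `(v, w) ∈ dm_Z` for some `w`. -/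
theorem dd_exists_Z_of_par [CharZero R] {φ : Additive Γ →+ R} (hφ : φ ∈ dd_Par (R := R) Y Γ)
    {v : E → R} (hv : dd_Rep Y (dd_ind x₀ Γ φ) v) :
    ∃ w : E → R, (v, w) ∈ dm_Z (R := R) (dd_D Y) := by
  classical
  obtain ⟨a, h1, h2'⟩ := hv
  set P : G := Y.σ * Y.τ with hP
  have hc := dd_isCoc_ind (R := R) x₀ hΓ φ
  -- an exponent killing the action of `P`
  set n : ℕ := orderOf (MulAction.toPermHom G E P) with hn
  have hnpos : 0 < n := orderOf_pos _
  have hPn : ∀ x : E, P ^ n • x = x := by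
    intro x
    have : (MulAction.toPermHom G E P) ^ n = 1 := pow_orderOf_eq_one _
    rw [← map_pow] at this
    have := congrArg (fun f : Equiv.Perm E => f x) this
    simpa using this
  have hPn' : ∀ x : E, (P ^ n)⁻¹ • x = x := fun x => by rw [inv_smul_eq_iff, hPn]
  -- the induced cocycle vanishes at `P ^ n`
  have hind0 : ∀ x, dd_ind x₀ Γ φ (P ^ n) x = 0 := by
    intro x
    simp only [dd_ind, hPn']
    exact hφ (dd_sec G x₀ x) n
  -- `f = c P - ∂a P`
  set f : E → R := fun x => v (P⁻¹ • x) - v (Y.σ⁻¹ • x) with hf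
  have hcP : ∀ x, dd_ind x₀ Γ φ P x = dd_cob a P x + f x := fun x => dd_rep_P Y hc h1 h2' x
  have hsumf : ∀ x, ∑ i ∈ Finset.range n, f ((P ^ i)⁻¹ • x) = 0 := by
    intro x
    have e1 := hc.map_pow P n x
    rw [hind0] at e1
    have e2 := (dd_isCoc_cob (G := G) a).map_pow P n x
    have e3 : dd_cob a (P ^ n) x = 0 := by simp only [dd_cob, hPn', sub_self]
    rw [e3] at e2
    have : ∑ i ∈ Finset.range n, dd_ind x₀ Γ φ P ((P ^ i)⁻¹ • x)
        = ∑ i ∈ Finset.range n, dd_cob a P ((P ^ i)⁻¹ • x)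
          + ∑ i ∈ Finset.range n, f ((P ^ i)⁻¹ • x) := by
      rw [← Finset.sum_add_distrib]
      exact Finset.sum_congr rfl (fun i _ => hcP _)
    rw [this, ← e2, zero_add] at e1
    exact e1.symm
  -- the permutation `x ↦ P⁻¹ • x`
  set c : Equiv.Perm E := MulAction.toPerm P⁻¹ with hcdef
  have key : ∀ u : E → R, (∀ x, u (c x) = u x) → dl_form u (fun x => v x - v (Y.σ⁻¹ • x)) = 0 := by
    intro u hu
    have hu' : ∀ x, u (P⁻¹ • x) = u x := hu
    -- (i)
    have hi : dl_form u (fun x => v (P⁻¹ • x) - v x) = 0 := by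
      have e := dl_form_comp_perm (R := R) c u v
      have : dl_form u (fun x => v (P⁻¹ • x) - v x)
          = dl_form (fun x => u (c x)) (fun x => v (c x)) - dl_form u v := by
        unfold dl_form
        rw [← Finset.sum_sub_distrib]
        apply Finset.sum_congr rfl
        intro x _
        show u x * (v (P⁻¹ • x) - v x) = u (P⁻¹ • x) * v (P⁻¹ • x) - u x * v x
        rw [hu' x]; ring
      rw [this, e, sub_self]
    -- (ii)
    have hii : (n : R) * dl_form u f = 0 := by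
      have e0 : ∑ x, u x * ∑ i ∈ Finset.range n, f ((P ^ i)⁻¹ • x) = 0 := by
        apply Finset.sum_eq_zero
        intro x _
        rw [hsumf x, mul_zero]
      have e1 : ∑ x, u x * ∑ i ∈ Finset.range n, f ((P ^ i)⁻¹ • x)
          = ∑ i ∈ Finset.range n, ∑ x, u x * f ((P ^ i)⁻¹ • x) := by
        simp_rw [Finset.mul_sum]
        exact Finset.sum_comm
      have e2 : ∀ i ∈ Finset.range n, ∑ x, u x * f ((P ^ i)⁻¹ • x) = dl_form u f := by
        intro i _
        have := dl_form_comp_perm (R := R) (MulAction.toPerm (P ^ i)⁻¹) u f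
        rw [← this]
        unfold dl_form
        apply Finset.sum_congr rfl
        intro x _
        show u x * f ((P ^ i)⁻¹ • x) = u ((P ^ i)⁻¹ • x) * f ((P ^ i)⁻¹ • x)
        rw [dd_inv_pow_invariant P u hu' i x]
      rw [e1, Finset.sum_congr rfl e2, Finset.sum_const, Finset.card_range, nsmul_eq_mul] at e0
      exact e0
    have hf0 : dl_form u f = 0 := by
      rcases mul_eq_zero.mp hii with h | h
      · exact absurd h (Nat.cast_ne_zero.mpr hnpos.ne')
      · exact h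
    have : (fun x => v x - v (Y.σ⁻¹ • x)) = f - (fun x => v (P⁻¹ • x) - v x) := by
      funext x; simp only [hf, Pi.sub_apply]; ring
    rw [this, dl_form_sub_right, hf0, hi, sub_zero]
  obtain ⟨w', hw'⟩ := dc_exists_cob c (fun x => v x - v (Y.σ⁻¹ • x)) key
  refine ⟨-w', fun x => ?_⟩
  have := hw' (x)
  have hcx : c x = Y.τ⁻¹ • Y.σ⁻¹ • x := by
    show P⁻¹ • x = _
    rw [hP, mul_inv_rev, mul_smul]
  rw [hcx] at this
  simp only [dd_D_s, dd_D_t, Pi.neg_apply]
  linear_combination -this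

/-- The crossed-hom existence hypothesis: for every `v` there is a cocycle with `F σ = 0`,
`F τ = ∂v τ`. -/
def dd_UP (R : Type*) [CommRing R] (Y : dd_Sys G E) : Prop :=
  ∀ v : E → R, ∃ F : G → E → R, dd_IsCoc F ∧ (∀ x, F Y.σ x = 0) ∧
    (∀ x, F Y.τ x = dd_cob v Y.τ x)

include hΓ in
omit [IsDomain R] [IsPrincipalIdealRing R] [Fintype E] [DecidableEq E] in
/-- Every `v` is the representative of some hom (given crossed-hom existence). -/
theorem dd_exists_hom_of_rep (hUP : dd_UP R Y) (v : E → R) :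
    ∃ φ : Additive Γ →+ R, dd_Rep Y (dd_ind x₀ Γ φ) v := by
  obtain ⟨F, hF, hFσ, hFτ⟩ := hUP v
  have hfix : ∀ γ : Γ, (γ : G)⁻¹ • x₀ = x₀ := fun γ => by
    rw [inv_smul_eq_iff, ((hΓ γ).mp γ.2)]
  let φ : Additive Γ →+ R :=
    { toFun := fun γ => F ((Additive.toMul γ : Γ) : G) x₀
      map_zero' := hF.map_one x₀
      map_add' := fun γ δ => by
        show F (((Additive.toMul γ * Additive.toMul δ : Γ)) : G) x₀ = _
        rw [Subgroup.coe_mul, hF, hfix] }
  refine ⟨φ, fun y => F (dd_sec G x₀ y) y, fun x => ?_, fun x => ?_⟩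
  · rw [dd_ind_of_coc x₀ hΓ hF φ (fun γ h => rfl), hFσ, zero_add]
  · rw [dd_ind_of_coc x₀ hΓ hF φ (fun γ h => rfl), hFτ, add_comm]

/-- The dictionary restricted to parabolic homs, with values in the parabolic classes. -/
noncomputable def dd_parMap [CharZero R] :
    dd_Par (R := R) Y Γ →ₗ[R] dp_Lpar (R := R) (dd_D Y) :=
  LinearMap.codRestrict _ ((dd_thetaL Y x₀ hΓ h2 h3).comp (dd_Par (R := R) Y Γ).subtype) (by
    intro φ
    obtain ⟨v, hv, e⟩ := dd_theta_rep Y x₀ hΓ h2 h3 φ.1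
    obtain ⟨w, hw⟩ := dd_exists_Z_of_par Y x₀ hΓ φ.2 hv
    refine ⟨⟨(v, w), hw⟩, ?_⟩
    rw [dp_q_apply]
    exact e.symm)

theorem dd_parMap_apply [CharZero R] (φ : dd_Par (R := R) Y Γ) :
    ((dd_parMap Y x₀ hΓ h2 h3 φ : dp_Lpar (R := R) (dd_D Y)) : (E → R) ⧸ dm_U (R := R) (dd_D Y))
      = dd_theta Y x₀ hΓ h2 h3 φ.1 := rfl

theorem dd_parMap_injective [CharZero R] : Function.Injective (dd_parMap Y x₀ hΓ h2 h3) := by
  intro φ ψ h
  have := congrArg Subtype.val h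
  rw [dd_parMap_apply, dd_parMap_apply] at this
  exact Subtype.ext (dd_thetaL_injective Y x₀ hΓ h2 h3 this)

theorem dd_parMap_surjective [CharZero R] (hUP : dd_UP R Y) :
    Function.Surjective (dd_parMap Y x₀ hΓ h2 h3) := by
  rintro ⟨y, ⟨⟨v, w⟩, hz⟩, rfl⟩
  obtain ⟨φ, hφ⟩ := dd_exists_hom_of_rep Y x₀ hΓ hUP v
  refine ⟨⟨φ, dd_par_of_rep_Z Y x₀ hΓ hφ hz⟩, ?_⟩
  apply Subtype.ext
  rw [dd_parMap_apply]
  show dd_theta Y x₀ hΓ h2 h3 φ = Submodule.Quotient.mk v
  exact dd_theta_eq Y x₀ hΓ h2 h3 hφ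

/-- **The Shapiro dictionary**: parabolic homs `≃ₗ` parabolic classes of the model. -/
noncomputable def dd_equiv [CharZero R] (hUP : dd_UP R Y) :
    dd_Par (R := R) Y Γ ≃ₗ[R] dp_Lpar (R := R) (dd_D Y) :=
  LinearEquiv.ofBijective (dd_parMap Y x₀ hΓ h2 h3)
    ⟨dd_parMap_injective Y x₀ hΓ h2 h3, dd_parMap_surjective Y x₀ hΓ h2 h3 hUP⟩

theorem dd_equiv_apply [CharZero R] (hUP : dd_UP R Y) (φ : dd_Par (R := R) Y Γ) :
    ((dd_equiv Y x₀ hΓ h2 h3 hUP φ : dp_Lpar (R := R) (dd_D Y)) :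
      (E → R) ⧸ dm_U (R := R) (dd_D Y)) = dd_theta Y x₀ hΓ h2 h3 φ.1 := rfl

omit [IsDomain R] [IsPrincipalIdealRing R] [DecidableEq E] [Fintype E] in
/-- Joint transitivity of `s, t` from transitivity of `G` and generation by `σ, τ`. -/
theorem dd_conn : dm_Conn (dd_D Y) := by
  intro A hA hs ht
  obtain ⟨y, hy⟩ := hA
  have hσi : ∀ x ∈ A, Y.σ⁻¹ • x ∈ A := hs
  have hτi : ∀ x ∈ A, Y.τ⁻¹ • x ∈ A := ht
  have hσ : ∀ x ∈ A, Y.σ • x ∈ A := by
    intro x hx
    have e : Y.σ • x = Y.σ⁻¹ • x := by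
      have : Y.σ = Y.σ⁻¹ * Y.z := by rw [← Y.hσ]; group
      conv_lhs => rw [this, mul_smul, Y.hz]
    rw [e]; exact hσi x hx
  have hτ : ∀ x ∈ A, Y.τ • x ∈ A := by
    intro x hx
    have e : Y.τ • x = Y.τ⁻¹ • Y.τ⁻¹ • x := by
      have : Y.τ = Y.τ⁻¹ * Y.τ⁻¹ * Y.z := by rw [← Y.hτ]; group
      conv_lhs => rw [this, mul_smul, mul_smul, Y.hz]
    rw [e]; exact hτi _ (hτi x hx)
  -- the stabiliser of the set `A`
  let H : Subgroup G :=
    { carrier := {g | ∀ x, g • x ∈ A ↔ x ∈ A}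
      one_mem' := fun x => by rw [one_smul]
      mul_mem' := fun {g h} hg hh x => by rw [mul_smul, hg, hh]
      inv_mem' := fun {g} hg x => by rw [← hg (g⁻¹ • x), smul_inv_smul] }
  have hσH : Y.σ ∈ H := fun x =>
    ⟨fun h => by have := hσi _ h; rwa [inv_smul_smul] at this, hσ x⟩
  have hτH : Y.τ ∈ H := fun x =>
    ⟨fun h => by have := hτi _ h; rwa [inv_smul_smul] at this, hτ x⟩
  have hH : H = ⊤ := by
    rw [eq_top_iff, ← Y.hgen, Subgroup.closure_le]
    rintro g (rfl | rfl)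
    · exact hσH
    · exact hτH
  apply Set.eq_univ_of_forall
  intro x
  obtain ⟨g, rfl⟩ := MulAction.exists_smul_eq G y x
  have hg : g ∈ H := by rw [hH]; exact Subgroup.mem_top g
  exact (hg y).mpr hy

end Fermat.Agent.S41x
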