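import Fermat.Agent.S41x.DualDictCoc

/-!
# S41x / DualDictRep: the Shapiro dictionary `Hom(Γ, R) → V / (V^s + V^t)` (generic part)

`G` a group with elements `σ, τ` generating it, `z = σ² = τ³`, `z² = 1`, `z` acting trivially on the
finite transitive `G`-set `E` with base point `x₀` and stabiliser `Γ`.  The model data is
`s = σ⁻¹ •`, `t = τ⁻¹ •`.  A cocycle `c` is *represented* by `v` (`dd_Rep`) when, for some `a`,
`c - ∂a` vanishes at `σ` and equals `∂v` at `τ`.  This yields a linear injection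
`dd_theta : Hom(Γ, R) → V / dm_U`, which identifies homs vanishing on the conjugates of powers of
`σ τ` with the parabolic classes `dp_Lpar` (bijectively once crossed homs with `F σ = 0`,
`F τ = ∂v τ` exist).
-/

namespace Fermat.Agent.S41x

open Finset

/-- Generators `σ, τ` of `G` with `σ² = τ³ = z`, `z² = 1`, `z` acting trivially on `E`. -/
structure dd_Sys (G : Type*) [Group G] (E : Type*) [MulAction G E] where
  σ : G
  τ : G
  z : G
  hσ : σ * σ = z
  hτ : τ * τ * τ = z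
  hz : ∀ x : E, z • x = x
  hzz : z * z = 1
  hgen : Subgroup.closure {σ, τ} = ⊤

variable {R : Type*} [CommRing R]
variable {G : Type*} [Group G] {E : Type*} [MulAction G E]

theorem dd_Sys.hz_inv (Y : dd_Sys G E) (x : E) : Y.z⁻¹ • x = x := by
  rw [inv_smul_eq_iff, Y.hz]

/-- The model data `s = σ⁻¹ •`, `t = τ⁻¹ •`. -/
def dd_D (Y : dd_Sys G E) : dm_Data E where
  s := MulAction.toPerm Y.σ⁻¹
  t := MulAction.toPerm Y.τ⁻¹
  hs := fun x => by
    show Y.σ⁻¹ • Y.σ⁻¹ • x = x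
    rw [← mul_smul, ← mul_inv_rev, Y.hσ, Y.hz_inv]
  ht := fun x => by
    show Y.τ⁻¹ • Y.τ⁻¹ • Y.τ⁻¹ • x = x
    rw [← mul_smul, ← mul_smul, ← mul_inv_rev, ← mul_inv_rev, ← mul_assoc, Y.hτ, Y.hz_inv]

@[simp] theorem dd_D_s (Y : dd_Sys G E) (x : E) : (dd_D Y).s x = Y.σ⁻¹ • x := rfl
@[simp] theorem dd_D_t (Y : dd_Sys G E) (x : E) : (dd_D Y).t x = Y.τ⁻¹ • x := rfl

/-- `c` is represented by `v`. -/
def dd_Rep (Y : dd_Sys G E) (c : G → E → R) (v : E → R) : Prop :=
  ∃ a : E → R, (∀ x, c Y.σ x = dd_cob a Y.σ x) ∧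
    (∀ x, c Y.τ x = dd_cob a Y.τ x + dd_cob v Y.τ x)

theorem dd_rep_cob (Y : dd_Sys G E) {c : G → E → R} {v : E → R} (h : dd_Rep Y c v) (b : E → R) :
    dd_Rep Y (fun g x => c g x + dd_cob b g x) v := by
  obtain ⟨a, h1, h2⟩ := h
  refine ⟨a + b, fun x => ?_, fun x => ?_⟩
  · simp only [h1 x, dd_cob, Pi.add_apply]; ring
  · simp only [h2 x, dd_cob, Pi.add_apply]; ring

theorem dd_rep_of_cob (Y : dd_Sys G E) (b : E → R) : dd_Rep Y (dd_cob b) (0 : E → R) :=
  ⟨b, fun _ => rfl, fun x => by simp [dd_cob]⟩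

theorem dd_rep_add (Y : dd_Sys G E) {c c' : G → E → R} {v v' : E → R} (h : dd_Rep Y c v)
    (h' : dd_Rep Y c' v') : dd_Rep Y (fun g x => c g x + c' g x) (v + v') := by
  obtain ⟨a, h1, h2⟩ := h
  obtain ⟨a', h1', h2'⟩ := h'
  refine ⟨a + a', fun x => ?_, fun x => ?_⟩
  · simp only [h1 x, h1' x, dd_cob, Pi.add_apply]; ring
  · simp only [h2 x, h2' x, dd_cob, Pi.add_apply]; ring

theorem dd_rep_smul (Y : dd_Sys G E) (r : R) {c : G → E → R} {v : E → R} (h : dd_Rep Y c v) :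
    dd_Rep Y (fun g x => r * c g x) (r • v) := by
  obtain ⟨a, h1, h2⟩ := h
  refine ⟨r • a, fun x => ?_, fun x => ?_⟩
  · simp only [h1 x, dd_cob, Pi.smul_apply, smul_eq_mul]; ring
  · simp only [h2 x, dd_cob, Pi.smul_apply, smul_eq_mul]; ring

/-- Uniqueness of the representative modulo `V^s + V^t`. -/
theorem dd_rep_unique (Y : dd_Sys G E) {c : G → E → R} {v v' : E → R} (h : dd_Rep Y c v)
    (h' : dd_Rep Y c v') : v - v' ∈ dm_U (R := R) (dd_D Y) := by
  obtain ⟨a, h1, h2⟩ := h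
  obtain ⟨a', h1', h2'⟩ := h'
  have hs : a' - a ∈ dm_Vs (R := R) (dd_D Y) := by
    intro x
    have e1 := h1 x
    rw [h1' x] at e1
    simp only [dd_cob] at e1
    simp only [Pi.sub_apply, dd_D_s]
    linear_combination e1
  have ht : (a - a') + (v - v') ∈ dm_Vt (R := R) (dd_D Y) := by
    intro x
    have e1 := h2 x
    rw [h2' x] at e1
    simp only [dd_cob] at e1
    simp only [Pi.add_apply, Pi.sub_apply, dd_D_t]
    linear_combination -e1
  have : v - v' = (a' - a) + ((a - a') + (v - v')) := by abel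
  rw [this]
  exact Submodule.add_mem _ (Submodule.mem_sup_left hs) (Submodule.mem_sup_right ht)

/-- A cocycle represented by an element of `V^s + V^t` is a coboundary. -/
theorem dd_rep_zero (Y : dd_Sys G E) {c : G → E → R} (hc : dd_IsCoc c) {v : E → R}
    (h : dd_Rep Y c v) (hv : v ∈ dm_U (R := R) (dd_D Y)) :
    ∃ b : E → R, ∀ g x, c g x = dd_cob b g x := by
  obtain ⟨a, h1, h2⟩ := h
  obtain ⟨v₁, hv₁, v₂, hv₂, rfl⟩ := Submodule.mem_sup.mp hv
  refine ⟨a + v₁, fun g x => ?_⟩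
  apply hc.ext_of_closure (dd_isCoc_cob (a + v₁)) {Y.σ, Y.τ} ?_ Y.hgen
  rintro g (rfl | rfl) x
  · rw [h1 x]
    have := hv₁ x
    simp only [dd_D_s] at this
    simp only [dd_cob, Pi.add_apply, this]; ring
  · rw [h2 x]
    have := hv₂ x
    simp only [dd_D_t] at this
    simp only [dd_cob, Pi.add_apply, this]; ring

/-- Value at `σ τ` of a represented cocycle. -/
theorem dd_rep_P (Y : dd_Sys G E) {c : G → E → R} (hc : dd_IsCoc c) {a v : E → R}
    (h1 : ∀ x, c Y.σ x = dd_cob a Y.σ x)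
    (h2 : ∀ x, c Y.τ x = dd_cob a Y.τ x + dd_cob v Y.τ x) (x : E) :
    c (Y.σ * Y.τ) x = dd_cob a (Y.σ * Y.τ) x + (v ((Y.σ * Y.τ)⁻¹ • x) - v (Y.σ⁻¹ • x)) := by
  rw [hc, h1, h2]
  simp only [dd_cob, mul_inv_rev, mul_smul]
  ring

section PID

variable [IsDomain R] [IsPrincipalIdealRing R] [Fintype E] [DecidableEq E]

/-- `ker (1 + s) = im (s - 1)`. -/
theorem dd_K1 (h2 : (2 : R) ≠ 0) (D : dm_Data E) (f : E → R) (hf : ∀ x, f x + f (D.s x) = 0) :
    ∃ a : E → R, ∀ x, a (D.s x) - a x = f x := by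
  apply dc_exists_cob D.s f
  intro u hu
  have e := dl_form_comp_perm (R := R) D.s u f
  have e2 : dl_form (fun x => u (D.s x)) (fun x => f (D.s x)) = - dl_form u f := by
    unfold dl_form
    rw [← Finset.sum_neg_distrib]
    apply Finset.sum_congr rfl
    intro x _
    show u (D.s x) * f (D.s x) = -(u x * f x)
    rw [hu x]
    have := hf x
    linear_combination u x * this
  rw [e2] at e
  have h3 : (2 : R) * dl_form u f = 0 := by linear_combination -e
  rcases mul_eq_zero.mp h3 with h | h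
  · exact absurd h h2
  · exact h

/-- `ker (1 + t + t²) = im (t - 1)`. -/
theorem dd_K2 (h3 : (3 : R) ≠ 0) (D : dm_Data E) (f : E → R)
    (hf : ∀ x, f x + f (D.t x) + f (D.t (D.t x)) = 0) :
    ∃ v : E → R, ∀ x, v (D.t x) - v x = f x := by
  apply dc_exists_cob D.t f
  intro u hu
  have e1 := dl_form_comp_perm (R := R) D.t u f
  have e2 := dl_form_comp_perm (R := R) D.t (fun x => u (D.t x)) (fun x => f (D.t x))
  have hsum : dl_form u f + dl_form (fun x => u (D.t x)) (fun x => f (D.t x))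
      + dl_form (fun x => u (D.t (D.t x))) (fun x => f (D.t (D.t x))) = 0 := by
    unfold dl_form
    rw [← Finset.sum_add_distrib, ← Finset.sum_add_distrib]
    apply Finset.sum_eq_zero
    intro x _
    show u x * f x + u (D.t x) * f (D.t x) + u (D.t (D.t x)) * f (D.t (D.t x)) = 0
    rw [hu (D.t x), hu x]
    have := hf x
    linear_combination u x * this
  rw [e2, e1] at hsum
  have h4 : (3 : R) * dl_form u f = 0 := by linear_combination hsum
  rcases mul_eq_zero.mp h4 with h | h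
  · exact absurd h h3
  · exact h

/-- Every cocycle vanishing at `z` is represented. -/
theorem dd_exists_rep (h2 : (2 : R) ≠ 0) (h3 : (3 : R) ≠ 0) (Y : dd_Sys G E) {c : G → E → R}
    (hc : dd_IsCoc c) (hcz : ∀ x, c Y.z x = 0) : ∃ v : E → R, dd_Rep Y c v := by
  -- step 1: `c σ ∈ ker (1 + s)`
  have k1 : ∀ x, c Y.σ x + c Y.σ ((dd_D Y).s x) = 0 := by
    intro x
    have := hc Y.σ Y.σ x
    rw [Y.hσ, hcz] at this
    simp only [dd_D_s]
    linear_combination -this
  obtain ⟨a, ha⟩ := dd_K1 h2 (dd_D Y) (c Y.σ) k1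
  -- the corrected cocycle
  have hc' : dd_IsCoc (fun g x => c g x - dd_cob a g x) := hc.sub (dd_isCoc_cob a)
  have hσ0 : ∀ x, c Y.σ x - dd_cob a Y.σ x = 0 := by
    intro x
    have := ha x
    simp only [dd_D_s] at this
    simp only [dd_cob]
    linear_combination -this
  have hz0 : ∀ x, c Y.z x - dd_cob a Y.z x = 0 := by
    intro x
    simp only [dd_cob, hcz, Y.hz_inv]; ring
  have k2 : ∀ x, (c Y.τ x - dd_cob a Y.τ x)
      + (c Y.τ ((dd_D Y).t x) - dd_cob a Y.τ ((dd_D Y).t x))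
      + (c Y.τ ((dd_D Y).t ((dd_D Y).t x)) - dd_cob a Y.τ ((dd_D Y).t ((dd_D Y).t x))) = 0 := by
    intro x
    have e1 := hc' (Y.τ * Y.τ) Y.τ x
    have e2 := hc' Y.τ Y.τ x
    simp only at e1 e2
    rw [Y.hτ, hz0 x] at e1
    simp only [dd_D_t]
    rw [mul_inv_rev, mul_smul] at e1
    linear_combination -e1 - e2
  obtain ⟨v, hv⟩ := dd_K2 h3 (dd_D Y) (fun x => c Y.τ x - dd_cob a Y.τ x) k2
  refine ⟨v, a, fun x => ?_, fun x => ?_⟩
  · linear_combination hσ0 x
  · have := hv x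
    simp only [dd_D_t, dd_cob] at this
    simp only [dd_cob]
    linear_combination -this

end PID

end Fermat.Agent.S41x
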