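import Fermat.Agent.S41x.DualDictEquiv
import Fermat.Agent.S41x.SL2Presentation
import Fermat.Agent.S21x.Parabolic

/-!
# S41x / DualDictSL2: the Shapiro dictionary for finite-index subgroups of `SL(2, ℤ)`

For `Γ ≤ SL(2,ℤ)` of finite index with `-1 ∈ Γ` and `R` a PID of characteristic zero:
`parabolicHoms R Γ R ≃ₗ dp_Lpar` (model on `E = SL(2,ℤ) ⧸ Γ`, `s = S⁻¹ •`, `t = (S T)⁻¹ •`), and the
resulting perfect alternating form `dds_form` on `parabolicHoms R Γ R`.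
-/

set_option autoImplicit false

open ModularGroup ModularCurve.Period
open scoped MatrixGroups

namespace Fermat.Agent.S41x

attribute [local instance] Subgroup.fintypeQuotientOfFiniteIndex
attribute [local instance] Classical.propDecidable

variable (Γ : Subgroup SL(2, ℤ))

/-- The base coset. -/
def dds_x0 : SL(2, ℤ) ⧸ Γ := ((1 : SL(2, ℤ)) : SL(2, ℤ) ⧸ Γ)

theorem dds_mem_iff (g : SL(2, ℤ)) : g ∈ Γ ↔ g • dds_x0 Γ = dds_x0 Γ := by
  unfold dds_x0
  rw [MulAction.Quotient.smul_mk, eq_comm, QuotientGroup.eq]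
  simp

variable {Γ}

theorem dds_neg_one_smul (hneg : (-1 : SL(2, ℤ)) ∈ Γ) (x : SL(2, ℤ) ⧸ Γ) :
    (-1 : SL(2, ℤ)) • x = x := by
  induction x using QuotientGroup.induction_on with
  | H g =>
    rw [MulAction.Quotient.smul_mk, QuotientGroup.eq]
    have : (((-1 : SL(2, ℤ)) • g)⁻¹ * g) = -1 := by
      rw [smul_eq_mul, mul_inv_rev]
      simp
    rw [this]
    exact hneg

theorem dds_closure : Subgroup.closure ({S, S * T} : Set SL(2, ℤ)) = ⊤ := by
  rw [eq_top_iff, ← SpecialLinearGroup.SL2Z_generators, Subgroup.closure_le]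
  rintro g (rfl | hg)
  · exact Subgroup.subset_closure (by simp)
  · have h1 : (S : SL(2, ℤ)) ∈ Subgroup.closure ({S, S * T} : Set SL(2, ℤ)) :=
      Subgroup.subset_closure (by simp)
    have h2 : (S * T : SL(2, ℤ)) ∈ Subgroup.closure ({S, S * T} : Set SL(2, ℤ)) :=
      Subgroup.subset_closure (by simp)
    have h3 : (S⁻¹ * (S * T) : SL(2, ℤ)) ∈ Subgroup.closure ({S, S * T} : Set SL(2, ℤ)) :=
      Subgroup.mul_mem _ (Subgroup.inv_mem _ h1) h2
    have e : g = S⁻¹ * (S * T) := by rw [Set.mem_singleton_iff.mp hg]; group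
    rw [e]; exact h3

/-- The system `σ = S`, `τ = S T`, `z = -1`. -/
def dds_Y (hneg : (-1 : SL(2, ℤ)) ∈ Γ) : dd_Sys SL(2, ℤ) (SL(2, ℤ) ⧸ Γ) where
  σ := S
  τ := S * T
  z := -1
  hσ := by rw [← pow_two]; exact slp55_S_sq
  hτ := by
    have := slp55_ST_cube
    rw [pow_succ, pow_two] at this
    exact this
  hz := dds_neg_one_smul hneg
  hzz := by simp
  hgen := dds_closure

/-! ### Crossed homs exist -/

/-- Functions on the cosets with the action `(g • v) x = v (g⁻¹ • x)`. -/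
def dds_V (Γ : Subgroup SL(2, ℤ)) (R : Type*) : Type _ := (SL(2, ℤ) ⧸ Γ) → R

instance dds_V_addCommGroup (R : Type*) [CommRing R] : AddCommGroup (dds_V Γ R) :=
  inferInstanceAs (AddCommGroup ((SL(2, ℤ) ⧸ Γ) → R))

instance dds_V_action (R : Type*) [CommRing R] : DistribMulAction SL(2, ℤ) (dds_V Γ R) where
  smul g v := fun x => v (g⁻¹ • x)
  one_smul v := by
    funext x
    show v ((1 : SL(2, ℤ))⁻¹ • x) = v x
    rw [inv_one, one_smul]
  mul_smul g h v := by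
    funext x
    show v ((g * h)⁻¹ • x) = v (h⁻¹ • g⁻¹ • x)
    rw [mul_inv_rev, mul_smul]
  smul_zero g := rfl
  smul_add g v w := rfl

theorem dds_V_smul_apply (R : Type*) [CommRing R] (g : SL(2, ℤ)) (v : dds_V Γ R)
    (x : SL(2, ℤ) ⧸ Γ) : (g • v) x = v (g⁻¹ • x) := rfl

theorem dds_UP (hneg : (-1 : SL(2, ℤ)) ∈ Γ) (R : Type*) [CommRing R] : dd_UP R (dds_Y hneg) := by
  intro v
  have h1 : ∀ w : dds_V Γ R, (-1 : SL(2, ℤ)) • w = w := by
    intro w
    funext x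
    rw [dds_V_smul_apply]
    have : ((-1 : SL(2, ℤ))⁻¹ • x) = x := by
      rw [inv_smul_eq_iff, dds_neg_one_smul hneg]
    rw [this]
  let b : dds_V Γ R := fun x => dd_cob v (S * T : SL(2, ℤ)) x
  have ha : (0 : dds_V Γ R) + (S : SL(2, ℤ)) • (0 : dds_V Γ R) = 0 := by
    rw [smul_zero, add_zero]
  have hb : b + (S * T : SL(2, ℤ)) • b + (S * T : SL(2, ℤ)) • (S * T : SL(2, ℤ)) • b = 0 := by
    funext x
    show b x + b ((S * T : SL(2, ℤ))⁻¹ • x)
      + b ((S * T : SL(2, ℤ))⁻¹ • (S * T : SL(2, ℤ))⁻¹ • x) = 0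
    have h3 := (dd_D (dds_Y hneg)).ht x
    simp only [dd_D_t] at h3
    have h3' : (S * T : SL(2, ℤ))⁻¹ • (S * T : SL(2, ℤ))⁻¹ • (S * T : SL(2, ℤ))⁻¹ • x = x := h3
    simp only [b, dd_cob, h3']
    ring
  obtain ⟨z, hz, hzS, hzST⟩ := slp55_exists_crossedHom (V := dds_V Γ R) h1 0 b ha hb
  refine ⟨z, fun g h x => ?_, fun x => ?_, fun x => ?_⟩
  · have := congrFun (hz g h) x
    exact this
  · have := congrFun hzS x
    exact this
  · have := congrFun hzST x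
    exact this

/-! ### `parabolicHoms = dd_Par` -/

theorem dds_P (hneg : (-1 : SL(2, ℤ)) ∈ Γ) : (dds_Y hneg).σ * (dds_Y hneg).τ = -T := by
  show (S : SL(2, ℤ)) * (S * T) = -T
  rw [← mul_assoc, ← pow_two, slp55_S_sq, neg_one_mul]

theorem dds_trace_conj (r g : SL(2, ℤ)) :
    ((r⁻¹ * g * r : SL(2, ℤ)) : Matrix (Fin 2) (Fin 2) ℤ).trace
      = (g : Matrix (Fin 2) (Fin 2) ℤ).trace := by
  rw [Matrix.SpecialLinearGroup.coe_mul, Matrix.trace_mul_comm,
    ← Matrix.SpecialLinearGroup.coe_mul, mul_inv_cancel_left]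

theorem dds_trace_T_pow (n : ℕ) :
    ((T ^ n : SL(2, ℤ)) : Matrix (Fin 2) (Fin 2) ℤ).trace = 2 := by
  rw [← zpow_natCast, coe_T_zpow, Matrix.trace_fin_two_of]
  norm_num

theorem dds_trace_negT_pow (n : ℕ) :
    (((-T) ^ n : SL(2, ℤ)) : Matrix (Fin 2) (Fin 2) ℤ).trace ^ 2 = 4 := by
  rw [neg_pow]
  rcases neg_one_pow_eq_or SL(2, ℤ) n with h | h
  · rw [h, one_mul, dds_trace_T_pow]; norm_num
  · rw [h, neg_one_mul, Matrix.SpecialLinearGroup.coe_neg, Matrix.trace_neg, dds_trace_T_pow]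
    norm_num

section Par

variable {R : Type*} [CommRing R] [IsDomain R]

theorem dds_ext_neg_one (h2 : (2 : R) ≠ 0) (hneg : (-1 : SL(2, ℤ)) ∈ Γ) (φ : Additive Γ →+ R) :
    dd_ext Γ φ (-1) = 0 := by
  have h := dd_ext_mul φ hneg hneg
  have e : (-1 : SL(2, ℤ)) * -1 = 1 := by simp
  rw [e, dd_ext_one] at h
  have h' : (2 : R) * dd_ext Γ φ (-1) = 0 := by linear_combination -h
  rcases mul_eq_zero.mp h' with h0 | h0
  · exact absurd h0 h2
  · exact h0

theorem dds_ext_neg (h2 : (2 : R) ≠ 0) (hneg : (-1 : SL(2, ℤ)) ∈ Γ) (φ : Additive Γ →+ R)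
    {g : SL(2, ℤ)} (hg : g ∈ Γ) : dd_ext Γ φ (-g) = dd_ext Γ φ g := by
  rw [← neg_one_mul, dd_ext_mul φ hneg hg, dds_ext_neg_one h2 hneg, zero_add]

theorem dds_neg_mem (hneg : (-1 : SL(2, ℤ)) ∈ Γ) {g : SL(2, ℤ)} (hg : -g ∈ Γ) : g ∈ Γ := by
  have := Γ.mul_mem hneg hg
  rwa [neg_one_mul, neg_neg] at this

/-- A hom in `dd_Par` kills `± δ T^n δ⁻¹`. -/
theorem dds_ext_conj_T_pow (h2 : (2 : R) ≠ 0) (hneg : (-1 : SL(2, ℤ)) ∈ Γ)
    {φ : Additive Γ →+ R} (hφ : φ ∈ dd_Par (R := R) (dds_Y hneg) Γ) (δ : SL(2, ℤ)) (n : ℕ) :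
    dd_ext Γ φ (δ * T ^ n * δ⁻¹) = 0 := by
  by_cases hm : δ * T ^ n * δ⁻¹ ∈ Γ
  · have hP := hφ δ⁻¹ n
    rw [dds_P hneg, inv_inv, neg_pow] at hP
    rcases neg_one_pow_eq_or SL(2, ℤ) n with h | h
    · rw [h, one_mul] at hP; exact hP
    · rw [h, neg_one_mul, mul_neg, neg_mul] at hP
      rw [dds_ext_neg h2 hneg φ hm] at hP
      exact hP
  · simp [dd_ext, hm]

theorem dds_par_eq (h2 : (2 : R) ≠ 0) (hneg : (-1 : SL(2, ℤ)) ∈ Γ) :
    parabolicHoms R Γ R = dd_Par (R := R) (dds_Y hneg) Γ := by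
  ext φ
  rw [mem_parabolicHoms_iff, dd_mem_Par]
  constructor
  · intro hφ r n
    by_cases hm : r⁻¹ * ((dds_Y hneg).σ * (dds_Y hneg).τ) ^ n * r ∈ Γ
    · rw [dd_ext_of_mem φ hm]
      apply hφ ⟨_, hm⟩
      show ((r⁻¹ * ((dds_Y hneg).σ * (dds_Y hneg).τ) ^ n * r : SL(2, ℤ)) :
        Matrix (Fin 2) (Fin 2) ℤ).trace ^ 2 = 4
      rw [dds_trace_conj, dds_P hneg, dds_trace_negT_pow]
    · simp [dd_ext, hm]
  · intro hφ γ hγ
    have hφ' : φ ∈ dd_Par (R := R) (dds_Y hneg) Γ := hφ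
    obtain ⟨γ, hγm⟩ := γ
    obtain ⟨δ, m, hδ⟩ := Fermat.Agent.S21x.exists_conj_T_zpow γ hγ
    rw [← dd_ext_of_mem φ hγm]
    -- reduce to natural exponents
    have key : ∀ n : ℕ, ∀ g : SL(2, ℤ), g ∈ Γ →
        (g = δ * T ^ n * δ⁻¹ ∨ g = -(δ * T ^ n * δ⁻¹)) → dd_ext Γ φ g = 0 := by
      intro n g hg hcase
      rcases hcase with e | e
      · rw [e]; exact dds_ext_conj_T_pow h2 hneg hφ' δ n
      · have hm' : δ * T ^ n * δ⁻¹ ∈ Γ := dds_neg_mem hneg (by rw [← e]; exact hg)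
        rw [e, dds_ext_neg h2 hneg φ hm']
        exact dds_ext_conj_T_pow h2 hneg hφ' δ n
    rcases Int.eq_nat_or_neg m with ⟨n, rfl | rfl⟩
    · apply key n γ hγm
      simpa [zpow_natCast] using hδ
    · -- negative exponent: pass to the inverse
      have hinv : γ⁻¹ ∈ Γ := Γ.inv_mem hγm
      have h0 : dd_ext Γ φ γ⁻¹ = 0 := by
        apply key n γ⁻¹ hinv
        rcases hδ with e | e
        · left
          rw [e, zpow_neg, zpow_natCast]
          group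
        · right
          rw [e, zpow_neg, zpow_natCast]
          have : (-(δ * (T ^ n)⁻¹ * δ⁻¹) : SL(2, ℤ))⁻¹ = -((δ * (T ^ n)⁻¹ * δ⁻¹)⁻¹) := by simp
          rw [this]
          congr 1
          group
      have := dd_ext_inv φ hγm
      rw [h0] at this
      linear_combination this

end Par

/-! ### The dictionary and the perfect alternating form on `parabolicHoms` -/

section Form

variable {R : Type*} [CommRing R] [IsDomain R] [IsPrincipalIdealRing R] [CharZero R]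
variable [Γ.FiniteIndex]

omit [IsDomain R] [IsPrincipalIdealRing R] in
theorem dds_two_ne : (2 : R) ≠ 0 := by
  have : ((2 : ℕ) : R) ≠ 0 := Nat.cast_ne_zero.mpr (by norm_num)
  simpa using this

omit [IsDomain R] [IsPrincipalIdealRing R] in
theorem dds_three_ne : (3 : R) ≠ 0 := by
  have : ((3 : ℕ) : R) ≠ 0 := Nat.cast_ne_zero.mpr (by norm_num)
  simpa using this

/-- **Shapiro dictionary for `Γ ≤ SL(2,ℤ)`**: `parabolicHoms R Γ R ≃ₗ dp_Lpar`. -/
noncomputable def dds_equiv (hneg : (-1 : SL(2, ℤ)) ∈ Γ) :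
    parabolicHoms R Γ R ≃ₗ[R] dp_Lpar (R := R) (dd_D (dds_Y hneg)) :=
  (LinearEquiv.ofEq _ _ (dds_par_eq (R := R) dds_two_ne hneg)).trans
    (dd_equiv (dds_Y hneg) (dds_x0 Γ) (dds_mem_iff Γ) dds_two_ne dds_three_ne (dds_UP hneg R))

theorem dds_equiv_apply (hneg : (-1 : SL(2, ℤ)) ∈ Γ) (φ : parabolicHoms R Γ R) :
    ((dds_equiv (R := R) hneg φ : dp_Lpar (R := R) (dd_D (dds_Y hneg))) :
      ((SL(2, ℤ) ⧸ Γ) → R) ⧸ dm_U (R := R) (dd_D (dds_Y hneg)))
      = dd_theta (dds_Y hneg) (dds_x0 Γ) (dds_mem_iff Γ) dds_two_ne dds_three_ne φ.1 := rfl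

/-- The perfect alternating form on `parabolicHoms R Γ R`. -/
noncomputable def dds_form (hneg : (-1 : SL(2, ℤ)) ∈ Γ) :
    parabolicHoms R Γ R →ₗ[R] parabolicHoms R Γ R →ₗ[R] R :=
  (dp_pair (R := R) (dd_D (dds_Y hneg)) dds_two_ne dds_three_ne).compl₁₂
    (dds_equiv (R := R) hneg : parabolicHoms R Γ R →ₗ[R] _)
    (dds_equiv (R := R) hneg : parabolicHoms R Γ R →ₗ[R] _)

theorem dds_form_apply (hneg : (-1 : SL(2, ℤ)) ∈ Γ) (φ ψ : parabolicHoms R Γ R) :
    dds_form (R := R) hneg φ ψ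
      = dp_pair (R := R) (dd_D (dds_Y hneg)) dds_two_ne dds_three_ne
          (dds_equiv (R := R) hneg φ) (dds_equiv (R := R) hneg ψ) := rfl

theorem dds_form_self (hneg : (-1 : SL(2, ℤ)) ∈ Γ) (φ : parabolicHoms R Γ R) :
    dds_form (R := R) hneg φ φ = 0 := by
  rw [dds_form_apply]; exact dp_pair_self _ _ _ _

theorem dds_form_antisymm (hneg : (-1 : SL(2, ℤ)) ∈ Γ) (φ ψ : parabolicHoms R Γ R) :
    dds_form (R := R) hneg φ ψ + dds_form (R := R) hneg ψ φ = 0 := by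
  rw [dds_form_apply, dds_form_apply]; exact dp_pair_antisymm _ _ _ _ _

/-- **Integral Poincaré duality on `parabolicHoms R Γ R`** (every PID of characteristic `0`,
e.g. `ℤ`, `ℤ_(p)` for every `p` including `2, 3`... as long as `2, 3 ≠ 0`): the form is perfect. -/
theorem dds_form_bijective (hneg : (-1 : SL(2, ℤ)) ∈ Γ) :
    Function.Bijective (dds_form (R := R) hneg) := by
  have hb := dp_pair_bijective (R := R) (dd_D (dds_Y hneg)) dds_two_ne dds_three_ne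
    (dd_conn (dds_Y hneg))
  constructor
  · intro φ ψ h
    apply (dds_equiv (R := R) hneg).injective
    apply hb.1
    apply LinearMap.ext
    intro y
    obtain ⟨χ, rfl⟩ := (dds_equiv (R := R) hneg).surjective y
    have := congrArg (fun f : parabolicHoms R Γ R →ₗ[R] R => f χ) h
    simpa [dds_form_apply] using this
  · intro μ
    obtain ⟨y, hy⟩ := hb.2 (μ.comp ((dds_equiv (R := R) hneg).symm : _ →ₗ[R] parabolicHoms R Γ R))
    refine ⟨(dds_equiv (R := R) hneg).symm y, ?_⟩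
    apply LinearMap.ext
    intro χ
    rw [dds_form_apply, LinearEquiv.apply_symm_apply, hy]
    simp

end Form

end Fermat.Agent.S41x
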