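import Fermat.Agent.S41x.DualDictRep

/-!
# S41x / DualDictTheta: the Shapiro dictionary as a linear equivalence (generic part)

`dd_thetaL : Hom(Γ, R) →ₗ V / dm_U` (injective), `dd_Par` = homs vanishing on the conjugates of the
powers of `σ τ`, and `dd_equiv : dd_Par ≃ₗ dp_Lpar` under the crossed-hom existence hypothesis.
-/

namespace Fermat.Agent.S41x

open Finset

variable {R : Type*} [CommRing R] [IsDomain R] [IsPrincipalIdealRing R]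
variable {G : Type*} [Group G] {E : Type*} [MulAction G E] [Fintype E] [DecidableEq E]
  [MulAction.IsPretransitive G E]
variable (Y : dd_Sys G E) (x₀ : E) {Γ : Subgroup G} (hΓ : ∀ g : G, g ∈ Γ ↔ g • x₀ = x₀)
variable (h2 : (2 : R) ≠ 0) (h3 : (3 : R) ≠ 0)

include hΓ h2 in
/-- The induced cocycle vanishes at `z`. -/
theorem dd_ind_z (φ : Additive Γ →+ R) (x : E) : dd_ind x₀ Γ φ Y.z x = 0 := by
  have hm := dd_ind_mem x₀ hΓ Y.z x
  simp only [dd_ind]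
  rw [Y.hz_inv] at hm ⊢
  set e := (dd_sec G x₀ x)⁻¹ * Y.z * dd_sec G x₀ x with he
  have hee : e * e = 1 := by
    rw [he]
    have : (dd_sec G x₀ x)⁻¹ * Y.z * dd_sec G x₀ x * ((dd_sec G x₀ x)⁻¹ * Y.z * dd_sec G x₀ x)
        = (dd_sec G x₀ x)⁻¹ * (Y.z * Y.z) * dd_sec G x₀ x := by group
    rw [this, Y.hzz]; group
  have h := dd_ext_mul φ hm hm
  rw [hee, dd_ext_one] at h
  have h' : (2 : R) * dd_ext Γ φ e = 0 := by linear_combination -h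
  rcases mul_eq_zero.mp h' with h0 | h0
  · exact absurd h0 h2
  · exact h0

/-- The class of `φ` in `V / (V^s + V^t)`. -/
noncomputable def dd_theta (φ : Additive Γ →+ R) : (E → R) ⧸ dm_U (R := R) (dd_D Y) :=
  Submodule.Quotient.mk (Classical.choose
    (dd_exists_rep h2 h3 Y (dd_isCoc_ind x₀ hΓ φ) (dd_ind_z Y x₀ hΓ h2 φ)))

theorem dd_theta_rep (φ : Additive Γ →+ R) :
    ∃ v : E → R, dd_Rep Y (dd_ind x₀ Γ φ) v ∧
      dd_theta Y x₀ hΓ h2 h3 φ = Submodule.Quotient.mk v :=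
  ⟨_, Classical.choose_spec
    (dd_exists_rep h2 h3 Y (dd_isCoc_ind x₀ hΓ φ) (dd_ind_z Y x₀ hΓ h2 φ)), rfl⟩

theorem dd_theta_eq {φ : Additive Γ →+ R} {v : E → R} (h : dd_Rep Y (dd_ind x₀ Γ φ) v) :
    dd_theta Y x₀ hΓ h2 h3 φ = Submodule.Quotient.mk v := by
  obtain ⟨v', hv', e⟩ := dd_theta_rep Y x₀ hΓ h2 h3 φ
  rw [e]
  exact (Submodule.Quotient.eq _).mpr (dd_rep_unique Y hv' h)

/-- `dd_theta` as a linear map. -/
noncomputable def dd_thetaL : (Additive Γ →+ R) →ₗ[R] ((E → R) ⧸ dm_U (R := R) (dd_D Y)) where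
  toFun := dd_theta Y x₀ hΓ h2 h3
  map_add' φ ψ := by
    obtain ⟨v, hv, e⟩ := dd_theta_rep Y x₀ hΓ h2 h3 φ
    obtain ⟨v', hv', e'⟩ := dd_theta_rep Y x₀ hΓ h2 h3 ψ
    rw [e, e', ← Submodule.Quotient.mk_add]
    apply dd_theta_eq
    have := dd_rep_add Y hv hv'
    have hfun : dd_ind x₀ Γ (φ + ψ) = fun g x => dd_ind x₀ Γ φ g x + dd_ind x₀ Γ ψ g x := by
      funext g x; exact dd_ind_add x₀ φ ψ g x
    rw [hfun]; exact this
  map_smul' r φ := by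
    obtain ⟨v, hv, e⟩ := dd_theta_rep Y x₀ hΓ h2 h3 φ
    rw [RingHom.id_apply, e, ← Submodule.Quotient.mk_smul]
    apply dd_theta_eq
    have := dd_rep_smul Y r hv
    have hfun : dd_ind x₀ Γ (r • φ) = fun g x => r * dd_ind x₀ Γ φ g x := by
      funext g x; exact dd_ind_smul x₀ r φ g x
    rw [hfun]; exact this

theorem dd_thetaL_apply (φ : Additive Γ →+ R) :
    dd_thetaL Y x₀ hΓ h2 h3 φ = dd_theta Y x₀ hΓ h2 h3 φ := rfl

/-- Injectivity of the dictionary. -/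
theorem dd_thetaL_injective : Function.Injective (dd_thetaL Y x₀ hΓ h2 h3) := by
  rw [← LinearMap.ker_eq_bot, LinearMap.ker_eq_bot']
  intro φ hφ
  obtain ⟨v, hv, e⟩ := dd_theta_rep Y x₀ hΓ h2 h3 φ
  rw [dd_thetaL_apply, e, Submodule.Quotient.mk_eq_zero] at hφ
  obtain ⟨b, hb⟩ := dd_rep_zero Y (dd_isCoc_ind x₀ hΓ φ) hv hφ
  apply AddMonoidHom.ext
  intro γ
  obtain ⟨γ, hγ⟩ := γ
  have h1 := dd_ind_apply_base x₀ hΓ φ hγ
  rw [hb, dd_ext_of_mem φ hγ] at h1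
  have h0 : γ⁻¹ • x₀ = x₀ := by rw [inv_smul_eq_iff, ((hΓ γ).mp hγ)]
  simp only [dd_cob, h0, sub_self] at h1
  exact h1.symm

/-! ### Parabolic homs -/

/-- Homs vanishing on all conjugates of powers of `σ τ` lying in `Γ`. -/
def dd_Par (Y : dd_Sys G E) (Γ : Subgroup G) : Submodule R (Additive Γ →+ R) where
  carrier := {φ | ∀ (r : G) (n : ℕ), dd_ext Γ φ (r⁻¹ * (Y.σ * Y.τ) ^ n * r) = 0}
  zero_mem' := by
    intro r n
    by_cases h : r⁻¹ * (Y.σ * Y.τ) ^ n * r ∈ Γ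
    · rw [dd_ext_of_mem _ h]; rfl
    · simp [dd_ext, h]
  add_mem' := by
    intro φ ψ hφ hψ r n
    rw [dd_ext_add, hφ r n, hψ r n, add_zero]
  smul_mem' := by
    intro a φ hφ r n
    rw [dd_ext_smul, hφ r n, mul_zero]

omit [IsDomain R] [IsPrincipalIdealRing R] [Fintype E] [DecidableEq E]
  [MulAction.IsPretransitive G E] in
theorem dd_mem_Par (φ : Additive Γ →+ R) : φ ∈ dd_Par (R := R) Y Γ ↔
    ∀ (r : G) (n : ℕ), dd_ext Γ φ (r⁻¹ * (Y.σ * Y.τ) ^ n * r) = 0 := Iff.rfl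

omit [IsDomain R] [IsPrincipalIdealRing R] [Fintype E] [DecidableEq E]
  [MulAction.IsPretransitive G E] in
/-- A represented cocycle with `(v, w) ∈ dm_Z` agrees at `σ τ` with a coboundary. -/
theorem dd_rep_P_of_Z {c : G → E → R} (hc : dd_IsCoc c) {a v w : E → R}
    (h1 : ∀ x, c Y.σ x = dd_cob a Y.σ x)
    (h2' : ∀ x, c Y.τ x = dd_cob a Y.τ x + dd_cob v Y.τ x)
    (hZ : (v, w) ∈ dm_Z (R := R) (dd_D Y)) (x : E) :
    c (Y.σ * Y.τ) x = dd_cob (a + v - w) (Y.σ * Y.τ) x := by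
  rw [dd_rep_P Y hc h1 h2' x]
  have hz := hZ x
  simp only [dd_D_s, dd_D_t] at hz
  simp only [dd_cob, Pi.add_apply, Pi.sub_apply, mul_inv_rev, mul_smul]
  linear_combination hz

omit [IsDomain R] [IsPrincipalIdealRing R] [Fintype E] [DecidableEq E]
  [MulAction.IsPretransitive G E] in
theorem dd_rep_pow_fix {c : G → E → R} (hc : dd_IsCoc c) {a v w : E → R}
    (h1 : ∀ x, c Y.σ x = dd_cob a Y.σ x)
    (h2' : ∀ x, c Y.τ x = dd_cob a Y.τ x + dd_cob v Y.τ x)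
    (hZ : (v, w) ∈ dm_Z (R := R) (dd_D Y)) (n : ℕ) (y : E)
    (hy : (Y.σ * Y.τ) ^ n • y = y) : c ((Y.σ * Y.τ) ^ n) y = 0 := by
  rw [hc.map_pow]
  have e : ∀ i ∈ Finset.range n, c (Y.σ * Y.τ) (((Y.σ * Y.τ) ^ i)⁻¹ • y)
      = dd_cob (a + v - w) (Y.σ * Y.τ) (((Y.σ * Y.τ) ^ i)⁻¹ • y) :=
    fun i _ => dd_rep_P_of_Z Y hc h1 h2' hZ _
  rw [Finset.sum_congr rfl e, ← (dd_isCoc_cob (G := G) (a + v - w)).map_pow]
  have : ((Y.σ * Y.τ) ^ n)⁻¹ • y = y := by rw [inv_smul_eq_iff, hy]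
  simp only [dd_cob, this, sub_self]

include hΓ in
omit [IsDomain R] [IsPrincipalIdealRing R] [Fintype E] [DecidableEq E] in
/-- `(v, w) ∈ dm_Z` ⟹ parabolic. -/
theorem dd_par_of_rep_Z {φ : Additive Γ →+ R} {v w : E → R} (hv : dd_Rep Y (dd_ind x₀ Γ φ) v)
    (hZ : (v, w) ∈ dm_Z (R := R) (dd_D Y)) : φ ∈ dd_Par (R := R) Y Γ := by
  obtain ⟨a, h1, h2'⟩ := hv
  intro r n
  by_cases hm : r⁻¹ * (Y.σ * Y.τ) ^ n * r ∈ Γ
  · have hfix : (Y.σ * Y.τ) ^ n • (r • x₀) = r • x₀ := by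
      have := (hΓ _).mp hm
      rw [mul_smul, mul_smul, inv_smul_eq_iff] at this
      exact this
    rw [← dd_ind_apply_base x₀ hΓ φ hm, (dd_isCoc_ind x₀ hΓ φ).conj_apply r _ x₀ hfix]
    exact dd_rep_pow_fix Y (dd_isCoc_ind x₀ hΓ φ) h1 h2' hZ n _ hfix
  · simp [dd_ext, hm]

end Fermat.Agent.S41x
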