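/-
S41 project (level raising), block C (DUAL), Eta wiring (helper67, prefix `dea_`):
the adjunction `⟨lrResEta x, y⟩_{N q} = ⟨x, lrCoresEta y⟩_N` for the perfect forms `dds_form`, from
* `dtop_iso`     (helper50, DualIso)   : `GL₂⁺(ℚ)`-conjugation isometry, with `θ = deg_theta`, `α = lrEtaMat q`;
* `das_form_adj` (helper52, DualAdj)   : adjointness of restriction and transfer for `Γ'' ≤ Γ₀(N)`,
  `Γ'' = deg_Gam N q = Γ₀(N) ⊓ Γ⁰(q)`, coset representatives `ρ x = (lrl_s N q hqN x)⁻¹`;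
* `deg_*`        (helper36, DualEtaGroup): the group theory.
-/
import Fermat.Agent.S41x.DualAdj
import Fermat.Agent.S41x.DualIso
import Fermat.Agent.S41x.DualEtaGroup
import Fermat.Agent.S41x.CohLevelDefs

set_option autoImplicit false

namespace Fermat.Agent.S41x

open scoped MatrixGroups
open Fermat.Agent.S16x CongruenceSubgroup ModularCurve.Period

section

variable (N q : ℕ) [Fact q.Prime]

local instance dea_neZero_q : NeZero q := ⟨(Fact.out : q.Prime).ne_zero⟩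

/-- `θ` preserves the trace. -/
theorem dea_trace_theta (γ : Gamma0 (N * q)) :
    (((deg_theta N q γ : deg_Gam N q) : SL(2, ℤ)) : Matrix (Fin 2) (Fin 2) ℤ).trace =
      (((γ : SL(2, ℤ))) : Matrix (Fin 2) (Fin 2) ℤ).trace := by
  rw [deg_theta_coe, Matrix.trace_fin_two, Matrix.trace_fin_two]
  show ((lrConjEta N q γ : Gamma0 N) : SL(2, ℤ)) 0 0 + ((lrConjEta N q γ : Gamma0 N) : SL(2, ℤ)) 1 1 = _
  rw [lrConjEta_apply_00, lrConjEta_apply_11]

variable {R : Type*} [CommRing R]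

/-- restriction of a parabolic hom of `Γ₀(N)` to `Γ'' = Γ₀(N) ⊓ Γ⁰(q)` -/
def dea_res (x : parabolicHoms R (Gamma0 N) R) : parabolicHoms R (deg_Gam N q) R :=
  ⟨x.1.comp (MonoidHom.toAdditive (Subgroup.inclusion (deg_le N q))), by
    intro γ hγ
    exact x.2 (Subgroup.inclusion (deg_le N q) γ) hγ⟩

omit [Fact q.Prime] in
theorem dea_res_apply (x : parabolicHoms R (Gamma0 N) R) (γ : deg_Gam N q) :
    (dea_res N q x).1 (Additive.ofMul γ) =
      x.1 (Additive.ofMul (Subgroup.inclusion (deg_le N q) γ)) := rfl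

/-- transport of a parabolic hom of `Γ₀(N q)` to `Γ''` along `θ⁻¹` -/
noncomputable def dea_push (y : parabolicHoms R (Gamma0 (N * q)) R) :
    parabolicHoms R (deg_Gam N q) R :=
  ⟨y.1.comp (MonoidHom.toAdditive (deg_theta N q).symm.toMonoidHom), by
    intro δ hδ
    refine y.2 ((deg_theta N q).symm δ) ?_
    rw [← dea_trace_theta, MulEquiv.apply_symm_apply]
    exact hδ⟩

theorem dea_push_apply (y : parabolicHoms R (Gamma0 (N * q)) R) (δ : deg_Gam N q) :
    (dea_push N q y).1 (Additive.ofMul δ) = y.1 (Additive.ofMul ((deg_theta N q).symm δ)) := rfl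

end

section main

variable (N q : ℕ) [NeZero N] [Fact q.Prime] (hqN : ¬ q ∣ N)
variable {R : Type*} [CommRing R] [IsDomain R] [IsPrincipalIdealRing R] [CharZero R]

local instance dea_neZero_q' : NeZero q := ⟨(Fact.out : q.Prime).ne_zero⟩

local instance dea_neZero_Nq : NeZero (N * q) :=
  ⟨Nat.mul_ne_zero (NeZero.ne N) (Fact.out : q.Prime).ne_zero⟩

/-- Step 1: `⟨lrResEta x, y⟩_{N q} = ⟨x|Γ'', y ∘ θ⁻¹⟩_{Γ''}` (conjugation isometry). -/
theorem dea_step_iso (hnegNq : (-1 : SL(2, ℤ)) ∈ Gamma0 (N * q))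
    (x : parabolicHoms R (Gamma0 N) R) (y : parabolicHoms R (Gamma0 (N * q)) R)
    (hx' : lrResEta N q x.1 ∈ parabolicHoms R (Gamma0 (N * q)) R) :
    dds_form (R := R) hnegNq ⟨lrResEta N q x.1, hx'⟩ y =
      dds_form (R := R) (deg_neg_one_mem N q) (dea_res N q x) (dea_push N q y) := by
  have hα : 0 < (lrEtaMat q).det := by
    rw [lrEtaMat_det]
    exact_mod_cast (Fact.out : q.Prime).pos
  have hθ : ∀ γ : Gamma0 (N * q),
      ((deg_theta N q γ : deg_Gam N q) : SL(2, ℤ)).1 * lrEtaMat q =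
        lrEtaMat q * (γ : SL(2, ℤ)).1 := fun γ => deg_theta_spec N q γ
  have e1 : (dea_res N q x).1.comp (MonoidHom.toAdditive (deg_theta N q).toMonoidHom) =
      lrResEta N q x.1 := by
    refine AddMonoidHom.ext fun γ => ?_
    obtain ⟨γ, rfl⟩ := Additive.ofMul.surjective γ
    rw [lrResEta_apply]
    rfl
  have e2 : (dea_push N q y).1.comp (MonoidHom.toAdditive (deg_theta N q).toMonoidHom) = y.1 := by
    refine AddMonoidHom.ext fun γ => ?_
    obtain ⟨γ, rfl⟩ := Additive.ofMul.surjective γ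
    show y.1 (Additive.ofMul ((deg_theta N q).symm (deg_theta N q γ))) = _
    rw [MulEquiv.symm_apply_apply]
  have hf : (dea_res N q x).1.comp (MonoidHom.toAdditive (deg_theta N q).toMonoidHom) ∈
      parabolicHoms R (Gamma0 (N * q)) R := by rw [e1]; exact hx'
  have hg : (dea_push N q y).1.comp (MonoidHom.toAdditive (deg_theta N q).toMonoidHom) ∈
      parabolicHoms R (Gamma0 (N * q)) R := by rw [e2]; exact y.2
  have h1 := dtop_iso (R := R) hnegNq (deg_neg_one_mem N q) (lrEtaMat q) hα (deg_theta N q) hθ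
    (dea_res N q x) (dea_push N q y) hf hg
  have a1 : (⟨lrResEta N q x.1, hx'⟩ : parabolicHoms R (Gamma0 (N * q)) R) =
      ⟨(dea_res N q x).1.comp (MonoidHom.toAdditive (deg_theta N q).toMonoidHom), hf⟩ :=
    Subtype.ext e1.symm
  have a2 : y =
      ⟨(dea_push N q y).1.comp (MonoidHom.toAdditive (deg_theta N q).toMonoidHom), hg⟩ :=
    Subtype.ext e2.symm
  rw [← h1, a1]
  exact congrArg (fun t => dds_form (R := R) hnegNq
    ⟨(dea_res N q x).1.comp (MonoidHom.toAdditive (deg_theta N q).toMonoidHom), hf⟩ t) a2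

/-- Step 2: `⟨x|Γ'', y ∘ θ⁻¹⟩_{Γ''} = ⟨x, lrCoresEta y⟩_N` (adjointness of restriction and transfer
for `Γ'' ≤ Γ₀(N)` with the coset representatives `s_x⁻¹`). -/
theorem dea_step_adj (hnegN : (-1 : SL(2, ℤ)) ∈ Gamma0 N)
    (x : parabolicHoms R (Gamma0 N) R) (y : parabolicHoms R (Gamma0 (N * q)) R)
    (hy' : lrCoresEta N q hqN y.1 ∈ parabolicHoms R (Gamma0 N) R) :
    dds_form (R := R) (deg_neg_one_mem N q) (dea_res N q x) (dea_push N q y) =
      dds_form (R := R) hnegN x ⟨lrCoresEta N q hqN y.1, hy'⟩ := by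
  refine das_form_adj (R := R) (deg_le N q) (deg_neg_one_mem N q) hnegN
    (fun i : OnePoint (ZMod q) => ((lrl_s N q hqN i : Gamma0 N) : SL(2, ℤ))⁻¹)
    ?_ ?_ ?_ x (dea_res N q x) ?_ (dea_push N q y) ⟨lrCoresEta N q hqN y.1, hy'⟩ ?_
  · -- representatives lie in `Γ₀(N)`
    intro i
    exact inv_mem (lrl_s N q hqN i).2
  · -- distinct cosets
    intro i j h
    rw [inv_inv] at h
    refine deg_s_distinct N q hqN i j ⟨_, h⟩ ?_
    show ((lrl_s N q hqN i : Gamma0 N) : SL(2, ℤ)) * ((lrl_s N q hqN j : Gamma0 N) : SL(2, ℤ))⁻¹ *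
      ((lrl_s N q hqN j : Gamma0 N) : SL(2, ℤ)) = _
    rw [inv_mul_cancel_right]
  · -- the cosets cover `Γ₀(N)`
    intro g hg
    obtain ⟨i, δ, h⟩ := deg_exists_decomp N q hqN (⟨g, hg⟩⁻¹ : Gamma0 N)
    refine ⟨i, ?_⟩
    rw [inv_inv]
    have h2 : (δ : SL(2, ℤ)) * ((lrl_s N q hqN i : Gamma0 N) : SL(2, ℤ)) = g⁻¹ := h
    have h3 : ((lrl_s N q hqN i : Gamma0 N) : SL(2, ℤ)) * g = ((δ⁻¹ : deg_Gam N q) : SL(2, ℤ)) := by
      have h4 : ((lrl_s N q hqN i : Gamma0 N) : SL(2, ℤ)) = (δ : SL(2, ℤ))⁻¹ * g⁻¹ := by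
        rw [← h2, inv_mul_cancel_left]
      rw [h4, mul_assoc, inv_mul_cancel, mul_one]
      rfl
    rw [h3]
    exact Subtype.mem _
  · -- `dea_res x` is the restriction of `x`
    intro γ h
    rfl
  · -- the transfer formula
    intro γ h
    refine ⟨(lrl_coresEta N q hqN).idx ⟨γ, h⟩,
      fun i => deg_theta N q ((lrl_coresEta N q hqN).elt ⟨γ, h⟩ i), fun i => ?_, ?_⟩
    · rw [inv_inv]
      exact deg_theta_elt_eq N q hqN ⟨γ, h⟩ i
    · show (lrl_coresEta N q hqN).op y.1 (Additive.ofMul ⟨γ, h⟩) = _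
      rw [lrc_Corr.op_apply]
      refine Finset.sum_congr rfl fun i _ => ?_
      rw [dea_push_apply, MulEquiv.symm_apply_apply]

/-- **Eta adjunction** for the perfect forms `dds_form`:
`⟨lrResEta x, y⟩_{N q} = ⟨x, lrCoresEta y⟩_N`. -/
theorem dea_form_resEta_coresEta (hnegN : (-1 : SL(2, ℤ)) ∈ Gamma0 N)
    (hnegNq : (-1 : SL(2, ℤ)) ∈ Gamma0 (N * q))
    (x : parabolicHoms R (Gamma0 N) R) (y : parabolicHoms R (Gamma0 (N * q)) R)
    (hx' : lrResEta N q x.1 ∈ parabolicHoms R (Gamma0 (N * q)) R)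
    (hy' : lrCoresEta N q hqN y.1 ∈ parabolicHoms R (Gamma0 N) R) :
    dds_form (R := R) hnegNq ⟨lrResEta N q x.1, hx'⟩ y =
      dds_form (R := R) hnegN x ⟨lrCoresEta N q hqN y.1, hy'⟩ := by
  rw [dea_step_iso N q hnegNq x y hx', dea_step_adj N q hqN hnegN x y hy']

end main

end Fermat.Agent.S41x
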