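import Fermat.Agent.S41x.DualAdj
import Fermat.Agent.S41x.CohLevelDefs

/-!
# S41x / DualFinal1: the pairing `pdPair` on `lrL M` and the adjunction `lrRes ⊣ lrCores`

* `pdPair M : lrL M →ₗ[ℤ] lrL M →ₗ[ℤ] ℤ` (`= dds_form` for `Γ₀(M)` over `ℤ`), alternating, perfect;
* `dfin_adj_of_corr` : every transfer-type correspondence `D : lrc_Corr Γ' Γ I` (`Γ' ≤ Γ`,
  `D.A i = cohMat (g i)`, `g i ∈ Γ` right coset representatives) is adjoint to restriction;
* `pdPair_res_cores` : `⟨lrRes x, y⟩_{N q} = ⟨x, lrCores y⟩_N`.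
-/

set_option autoImplicit false

open ModularGroup ModularCurve.Period CongruenceSubgroup
open scoped MatrixGroups

namespace Fermat.Agent.S41x

open Fermat.Agent.S16x

theorem dfin_neg_one_mem (M : ℕ) : (-1 : SL(2, ℤ)) ∈ Gamma0 M := by
  rw [Gamma0_mem]
  simp

/-- **The intersection pairing on `H¹_par(Γ₀(M), ℤ)`.** -/
noncomputable def pdPair (M : ℕ) [NeZero M] : lrL M →ₗ[ℤ] lrL M →ₗ[ℤ] ℤ :=
  dds_form (R := ℤ) (dfin_neg_one_mem M)

theorem pdPair_self (M : ℕ) [NeZero M] (x : lrL M) : pdPair M x x = 0 :=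
  dds_form_self (R := ℤ) (dfin_neg_one_mem M) x

theorem pdPair_antisymm (M : ℕ) [NeZero M] (x y : lrL M) : pdPair M x y = - pdPair M y x := by
  have := dds_form_antisymm (R := ℤ) (dfin_neg_one_mem M) x y
  unfold pdPair
  linarith

/-- `pdPair` is perfect (unimodular) over `ℤ`. -/
theorem pdPair_bijective (M : ℕ) [NeZero M] : Function.Bijective (pdPair M) :=
  dds_form_bijective (R := ℤ) (dfin_neg_one_mem M)

/-- perfectness in the second variable -/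
theorem pdPair_perfect (M : ℕ) [NeZero M] :
    Function.Bijective (fun y : lrL M => (pdPair M).flip y) := by
  have hb := pdPair_bijective M
  constructor
  · intro y y' h
    apply hb.1
    apply LinearMap.ext
    intro x
    have := congrArg (fun f : lrL M →ₗ[ℤ] ℤ => f x) h
    simp only [LinearMap.flip_apply] at this
    rw [pdPair_antisymm M y x, pdPair_antisymm M y' x, this]
  · intro f
    obtain ⟨y, hy⟩ := hb.2 (-f)
    refine ⟨y, ?_⟩
    apply LinearMap.ext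
    intro x
    rw [LinearMap.flip_apply, pdPair_antisymm M x y, hy]
    simp

section Corr

variable {Γ Γ' : Subgroup SL(2, ℤ)} [Γ.FiniteIndex] [Γ'.FiniteIndex]
variable {R : Type*} [CommRing R] [IsDomain R] [IsPrincipalIdealRing R] [CharZero R]

/-- A transfer-type correspondence is adjoint to restriction for the forms `dds_form`. -/
theorem dfin_adj_of_corr (hle : Γ' ≤ Γ) (hneg' : (-1 : SL(2, ℤ)) ∈ Γ')
    (hneg : (-1 : SL(2, ℤ)) ∈ Γ) {I : Type} [Fintype I] (D : lrc_Corr Γ' Γ I) (g : I → Γ)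
    (hA : ∀ i, D.A i = cohMat (g i))
    (hdec : ∀ M : Γ, ∃ (i : I) (γ' : Γ'), cohMat γ' * D.A i = cohMat M)
    (φ : parabolicHoms R Γ R) (φ' : parabolicHoms R Γ' R)
    (hφ : ∀ γ (h : γ ∈ Γ'), φ'.1 (Additive.ofMul ⟨γ, h⟩) = φ.1 (Additive.ofMul ⟨γ, hle h⟩))
    (ψ : parabolicHoms R Γ' R) (χ : parabolicHoms R Γ R) (hχ : χ.1 = D.op ψ.1) :
    dds_form (R := R) hneg' φ' ψ = dds_form (R := R) hneg φ χ := by
  have key : ∀ {a b c : SL(2, ℤ)},
      (a : Matrix (Fin 2) (Fin 2) ℤ) * (b : Matrix (Fin 2) (Fin 2) ℤ) =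
        (c : Matrix (Fin 2) (Fin 2) ℤ) → a * b = c := by
    intro a b c h
    apply Subtype.ext
    rw [Matrix.SpecialLinearGroup.coe_mul]
    exact h
  refine das_form_adj hle hneg' hneg (fun i => ((g i : Γ) : SL(2, ℤ))⁻¹) ?_ ?_ ?_ φ φ' hφ ψ χ ?_
  · intro i
    exact Γ.inv_mem (g i).2
  · intro i j hij
    rw [inv_inv] at hij
    refine D.distinct i j ⟨_, hij⟩ ?_
    rw [hA, hA]
    show (((g i : Γ) : SL(2, ℤ)) * ((g j : Γ) : SL(2, ℤ))⁻¹ : SL(2, ℤ)).1 * ((g j : Γ) : SL(2, ℤ)).1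
      = ((g i : Γ) : SL(2, ℤ)).1
    rw [← Matrix.SpecialLinearGroup.coe_mul, inv_mul_cancel_right]
  · intro γ hγ
    obtain ⟨i, γ', h⟩ := hdec ⟨γ⁻¹, Γ.inv_mem hγ⟩
    rw [hA] at h
    have h' : (γ' : SL(2, ℤ)) * ((g i : Γ) : SL(2, ℤ)) = γ⁻¹ := key h
    refine ⟨i, ?_⟩
    rw [inv_inv]
    have : ((g i : Γ) : SL(2, ℤ)) * γ = (γ' : SL(2, ℤ))⁻¹ := by
      have e : γ = ((γ' : SL(2, ℤ)) * ((g i : Γ) : SL(2, ℤ)))⁻¹ := by rw [h', inv_inv]
      rw [e]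
      group
    rw [this]
    exact Γ'.inv_mem γ'.2
  · intro γ hγ
    refine ⟨D.idx ⟨γ, hγ⟩, D.elt ⟨γ, hγ⟩, fun i => ?_, ?_⟩
    · have h := D.elt_spec ⟨γ, hγ⟩ i
      rw [hA, hA] at h
      have h' : ((D.elt ⟨γ, hγ⟩ i : Γ') : SL(2, ℤ)) * ((g (D.idx ⟨γ, hγ⟩ i) : Γ) : SL(2, ℤ))
          = ((g i : Γ) : SL(2, ℤ)) * γ := by
        apply Subtype.ext
        rw [Matrix.SpecialLinearGroup.coe_mul, Matrix.SpecialLinearGroup.coe_mul]
        exact h
      rw [inv_inv, ← h', mul_inv_cancel_right]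
    · rw [hχ]
      exact D.op_apply ψ.1 ⟨γ, hγ⟩

end Corr

section Level

variable (N q : ℕ) [NeZero N] [NeZero q] [Fact q.Prime] (hqN : ¬ q ∣ N)

/-- **Adjointness** `⟨lrRes x, y⟩_{N q} = ⟨x, lrCores y⟩_N`. -/
theorem pdPair_res_cores (x : lrL N) (y : lrL (N * q))
    (h1 : lrRes N q x.1 ∈ lrL (N * q)) (h2 : lrCores N q hqN y.1 ∈ lrL N) :
    pdPair (N * q) ⟨lrRes N q x.1, h1⟩ y = pdPair N x ⟨lrCores N q hqN y.1, h2⟩ := by
  refine dfin_adj_of_corr (R := ℤ) (lrl_le N q) (dfin_neg_one_mem (N * q)) (dfin_neg_one_mem N)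
    (lrl_cores N q hqN) (lrl_g N q hqN) (fun _ => rfl) ?_ x ⟨lrRes N q x.1, h1⟩ ?_ y
    ⟨lrCores N q hqN y.1, h2⟩ rfl
  · intro M
    exact lrl_exists_decomp N q hqN M
  · intro γ h
    exact lrRes_apply N q x.1 ⟨γ, h⟩

end Level

end Fermat.Agent.S41x
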