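import Fermat.Agent.S41x.DualPairing

/-!
# S41x / DualFunct: functoriality of the period-polynomial model (restriction / corestriction)

For an equivariant map `π : E' → E` of `(s,t)`-sets (`E' = Γ' \ G → E = Γ \ G`, `Γ' ⊆ Γ`),
pull-back `f ↦ f ∘ π` (= restriction) and push-forward `g ↦ (x ↦ ∑_{π x' = x} g x')`
(= corestriction / transfer) induce maps between the parabolic class modules which are adjoint for
the perfect pairings `dp_pair`.
-/

namespace Fermat.Agent.S41x

open Finset

variable {R : Type*} [CommRing R]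
variable {E : Type*} [Fintype E] {E' : Type*} [Fintype E']

/-- An equivariant map of `(s,t)`-sets. -/
structure df_Hom (D' : dm_Data E') (D : dm_Data E) where
  π : E' → E
  hs : ∀ x, π (D'.s x) = D.s (π x)
  ht : ∀ x, π (D'.t x) = D.t (π x)

variable {D' : dm_Data E'} {D : dm_Data E} (φ : df_Hom D' D)

/-- Pull-back of functions. -/
def df_pull : (E → R) →ₗ[R] (E' → R) where
  toFun f := fun x => f (φ.π x)
  map_add' _ _ := rfl
  map_smul' _ _ := rfl

@[simp] theorem df_pull_apply (f : E → R) (x : E') : df_pull φ f x = f (φ.π x) := rfl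

variable [DecidableEq E]

/-- Push-forward of functions (sum over fibres). -/
def df_push : (E' → R) →ₗ[R] (E → R) where
  toFun g := fun x => ∑ x' ∈ univ.filter (fun x' => φ.π x' = x), g x'
  map_add' g g' := by funext x; simp [Finset.sum_add_distrib]
  map_smul' r g := by funext x; simp [Finset.mul_sum]

theorem df_push_apply (g : E' → R) (x : E) :
    df_push φ g x = ∑ x' ∈ univ.filter (fun x' => φ.π x' = x), g x' := rfl

/-- Adjointness of pull-back and push-forward for the standard forms. -/
theorem df_form_pull_push (f : E → R) (g : E' → R) :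
    dl_form (df_pull φ f) g = dl_form f (df_push φ g) := by
  unfold dl_form
  simp only [df_pull_apply, df_push_apply, Finset.mul_sum]
  rw [← Finset.sum_fiberwise (s := univ) (g := φ.π) (f := fun x' => f (φ.π x') * g x')]
  refine Finset.sum_congr rfl (fun x _ => ?_)
  refine Finset.sum_congr rfl (fun x' hx' => ?_)
  rw [(Finset.mem_filter.1 hx').2]

/-- Push-forward intertwines composition with equivariant permutations. -/
theorem df_push_comp (c' : Equiv.Perm E') (c : Equiv.Perm E)
    (hc : ∀ x, φ.π (c' x) = c (φ.π x)) (g : E' → R) (x : E) :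
    df_push φ g (c x) = df_push φ (fun x' => g (c' x')) x := by
  simp only [df_push_apply]
  symm
  apply Finset.sum_equiv c'
  · intro x'
    simp only [Finset.mem_filter, Finset.mem_univ, true_and]
    rw [hc x']
    exact ⟨fun h => by rw [h], fun h => c.injective h⟩
  · intro x' _; rfl

theorem df_push_s (g : E' → R) (x : E) :
    df_push φ g (D.s x) = df_push φ (fun x' => g (D'.s x')) x :=
  df_push_comp φ D'.s D.s φ.hs g x

theorem df_push_t (g : E' → R) (x : E) :
    df_push φ g (D.t x) = df_push φ (fun x' => g (D'.t x')) x :=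
  df_push_comp φ D'.t D.t φ.ht g x

omit [DecidableEq E] in
theorem df_pull_mem_U {f : E → R} (hf : f ∈ dm_U D) : df_pull φ f ∈ dm_U D' := by
  obtain ⟨a, ha, b, hb, rfl⟩ := Submodule.mem_sup.1 hf
  rw [map_add]
  apply Submodule.add_mem
  · apply Submodule.mem_sup_left
    intro x
    simp only [df_pull_apply, φ.hs, ha (φ.π x)]
  · apply Submodule.mem_sup_right
    intro x
    simp only [df_pull_apply, φ.ht, hb (φ.π x)]

theorem df_push_mem_U {g : E' → R} (hg : g ∈ dm_U D') : df_push φ g ∈ dm_U D := by
  obtain ⟨a, ha, b, hb, rfl⟩ := Submodule.mem_sup.1 hg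
  rw [map_add]
  apply Submodule.add_mem
  · apply Submodule.mem_sup_left
    intro x
    rw [df_push_s]
    have : (fun x' => a (D'.s x')) = a := funext ha
    rw [this]
  · apply Submodule.mem_sup_right
    intro x
    rw [df_push_t]
    have : (fun x' => b (D'.t x')) = b := funext hb
    rw [this]

/-- Pull-back on pairs. -/
def df_pullZ (z : (E → R) × (E → R)) : (E' → R) × (E' → R) := (df_pull φ z.1, df_pull φ z.2)

/-- Push-forward on pairs. -/
def df_pushZ (z : (E' → R) × (E' → R)) : (E → R) × (E → R) := (df_push φ z.1, df_push φ z.2)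

omit [DecidableEq E] in
theorem df_pullZ_mem {z : (E → R) × (E → R)} (hz : z ∈ dm_Z D) : df_pullZ φ z ∈ dm_Z D' := by
  intro x
  simp only [df_pullZ, df_pull_apply, φ.hs, φ.ht]
  exact hz (φ.π x)

theorem df_pushZ_mem {z : (E' → R) × (E' → R)} (hz : z ∈ dm_Z D') : df_pushZ φ z ∈ dm_Z D := by
  intro x
  simp only [df_pushZ]
  rw [df_push_t, df_push_s, df_push_s]
  rw [← sub_eq_zero]
  have e : ∀ (g g' : E' → R), df_push φ g x - df_push φ g' x = df_push φ (g - g') x := by
    intro g g'; rw [map_sub]; rfl
  rw [e, e, e]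
  have : ((fun x' => (fun x' => z.2 (D'.t x')) (D'.s x')) - z.2 - ((fun x' => z.1 (D'.s x')) - z.1))
      = 0 := by
    funext x'
    simp only [Pi.sub_apply, Pi.zero_apply]
    linear_combination hz x'
  rw [this, map_zero]; rfl

omit [DecidableEq E] in
theorem df_P_pull (z : (E → R) × (E → R)) :
    dm_P D' (df_pullZ φ z) = df_pull φ (dm_P D z) := by
  funext x
  simp only [dm_P, df_pullZ, df_pull_apply, φ.ht]

/-- Adjointness `b'(π^* z, z') = b(z, π_* z')`. -/
theorem df_b_adj (z : (E → R) × (E → R)) (z' : (E' → R) × (E' → R)) :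
    dm_b D' (df_pullZ φ z) z' = dm_b D z (df_pushZ φ z') := by
  unfold dm_b
  rw [df_P_pull, df_form_pull_push]
  rfl

/-- `π_* π^* f = (fibre size) • f` when all fibres have the same size. -/
theorem df_push_pull (n : ℕ) (hn : ∀ x : E, (univ.filter (fun x' => φ.π x' = x)).card = n)
    (f : E → R) : df_push φ (df_pull φ f) = (n : R) • f := by
  funext x
  simp only [df_push_apply, df_pull_apply, Pi.smul_apply, smul_eq_mul]
  rw [Finset.sum_congr rfl (fun x' hx' => by rw [(Finset.mem_filter.1 hx').2] :
    ∀ x' ∈ univ.filter (fun x' => φ.π x' = x), f (φ.π x') = f x)]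
  rw [Finset.sum_const, hn x, nsmul_eq_mul]

end Fermat.Agent.S41x
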