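/-
S41 project, block C (duality), row C5 [BRG], official normalisation (helper46).

Same statement as `dint_bridge` of `DualIntrC`, but for crossed homs normalised as in helper50's
`DualShapiro` (`ds50_coc`):  `F S = (S - 1) v`, `F (S * T) = 0`.  Then `F T = (S - 1) v = (T - 1) w`
for `(v, w) ∈ dm_Z`, `κ(τ) = 0`, `2 κ(T) = - n ⟨(S-1)v, (S-1)v'⟩` and the cusp sum of any
`n`-twisted primitive of `(F, F')` is `n * dm_b D z z'`  (`dint_bridge'`).
-/
import Fermat.Agent.S41x.DualIntrC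

set_option autoImplicit false

open scoped MatrixGroups
open ModularGroup

namespace Fermat.Agent.S41x

open Finset

section kappa'

variable {E : Type*} [Fintype E] [MulAction SL(2, ℤ) E] {R : Type*} [CommRing R]
variable {F F' H : SL(2, ℤ) → E → R} {n : R}

theorem dint_kap_mul_of_right (hH : dint_IsTw n F F' H) (g h : SL(2, ℤ))
    (hh : ∀ y, F' h y = 0) : dint_kap H (g * h) = dint_kap H g + dint_kap H h := by
  rw [dint_kap_mul hH]
  have : ∑ y, F g y * F' h (g⁻¹ • y) = 0 := by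
    apply Finset.sum_eq_zero
    intro y _
    rw [hh, mul_zero]
  rw [this]; ring

theorem dint_S_inv_mul_S_inv : (S : SL(2, ℤ))⁻¹ * S⁻¹ = -1 := by
  rw [← mul_inv_rev, dint_S_mul_S]
  apply inv_eq_of_mul_eq_one_right
  exact dint_neg_one_mul_self

variable [IsDomain R]

theorem dint_kap_neg_one' (h2 : (2 : R) ≠ 0) (hF : dint_IsCross F) (hH : dint_IsTw n F F' H)
    (hFneg : ∀ y, F (-1) y = 0) : dint_kap H (-1) = 0 := by
  have h := dint_kap_mul_of_left hH (-1) (-1) hFneg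
  rw [dint_neg_one_mul_self, dint_kap_one hF hH] at h
  have h' : (2 : R) * dint_kap H (-1) = 0 := by linear_combination -h
  exact (mul_eq_zero.mp h').resolve_left h2

/-- if `F τ = 0` and `τ³ = -1` then `κ(τ) = 0`. -/
theorem dint_kap_tau_zero (h2 : (2 : R) ≠ 0) (h3 : (3 : R) ≠ 0)
    (hF : dint_IsCross F) (hH : dint_IsTw n F F' H) (hFneg : ∀ y, F (-1) y = 0)
    (τ : SL(2, ℤ)) (hcube : τ * τ * τ = -1) (hFτ : ∀ y, F τ y = 0) :
    dint_kap H τ = 0 := by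
  have k2 := dint_kap_mul_of_left hH τ τ hFτ
  have hFττ : ∀ y, F (τ * τ) y = 0 := by
    intro y
    rw [hF, hFτ, hFτ, add_zero]
  have k3 := dint_kap_mul_of_left hH (τ * τ) τ hFττ
  rw [hcube, dint_kap_neg_one' h2 hF hH hFneg, k2] at k3
  have h' : (3 : R) * dint_kap H τ = 0 := by linear_combination -k3
  exact (mul_eq_zero.mp h').resolve_left h3

end kappa'

section bridge'

variable {E : Type*} [Fintype E] [MulAction SL(2, ℤ) E] {R : Type*} [CommRing R] [IsDomain R]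
variable {F F' H : SL(2, ℤ) → E → R} {n : R}

omit [Fintype E] [IsDomain R] in
/-- `F S⁻¹ = (S - 1) v` as well. -/
theorem dint_cross_S_inv' (hneg : ∀ y : E, (-1 : SL(2, ℤ)) • y = y)
    (D : dm_Data E) (hDs : ∀ x, D.s x = (S : SL(2, ℤ))⁻¹ • x)
    (hF : dint_IsCross F) (v : E → R)
    (hFS : ∀ y, F S y = v (D.s y) - v y) (y : E) :
    F S⁻¹ y = v (D.s y) - v y := by
  have hS : (S : SL(2, ℤ)) • y = D.s y := by
    rw [hDs, dint_S_inv_smul hneg]
  rw [dint_cross_inv hF, hFS, hS, D.hs]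
  ring

omit [Fintype E] [IsDomain R] in
theorem dint_cross_neg_one' (_hneg : ∀ y : E, (-1 : SL(2, ℤ)) • y = y)
    (D : dm_Data E) (hDs : ∀ x, D.s x = (S : SL(2, ℤ))⁻¹ • x)
    (hF : dint_IsCross F) (v : E → R)
    (hFS : ∀ y, F S y = v (D.s y) - v y) (y : E) :
    F (-1) y = 0 := by
  rw [← dint_S_mul_S, hF, hFS, hFS, ← hDs, D.hs]
  ring

omit [Fintype E] [IsDomain R] in
/-- `F T = (S - 1) v` in the official normalisation. -/
theorem dint_cross_T' (hneg : ∀ y : E, (-1 : SL(2, ℤ)) • y = y)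
    (D : dm_Data E) (hDs : ∀ x, D.s x = (S : SL(2, ℤ))⁻¹ • x)
    (hF : dint_IsCross F) (v : E → R)
    (hFS : ∀ y, F S y = v (D.s y) - v y) (hFτ : ∀ y, F (S * T) y = 0) (y : E) :
    F T y = v (D.s y) - v y := by
  conv_lhs => rw [dint_T_eq]
  rw [hF, hFτ, add_zero, dint_cross_S_inv' hneg D hDs hF v hFS]

omit [Fintype E] [IsDomain R] in
/-- `F T = (T - 1) w` for `(v, w) ∈ dm_Z`. -/
theorem dint_cross_T_eq' (hneg : ∀ y : E, (-1 : SL(2, ℤ)) • y = y)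
    (D : dm_Data E) (hDs : ∀ x, D.s x = (S : SL(2, ℤ))⁻¹ • x)
    (hDt : ∀ x, D.t x = (S * T : SL(2, ℤ))⁻¹ • x)
    (hF : dint_IsCross F) {z : (E → R) × (E → R)} (hz : z ∈ dm_Z D)
    (hFS : ∀ y, F S y = z.1 (D.s y) - z.1 y) (hFτ : ∀ y, F (S * T) y = 0) (y : E) :
    z.2 (dint_sig E y) - z.2 y = F T y := by
  have hσ : dint_sig E y = D.t (D.s y) := by
    rw [dint_sig_eq hneg, hDt, hDs]
  rw [dint_cross_T' hneg D hDs hF z.1 hFS hFτ, hσ]
  exact hz y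

/-- `2 κ(T) = - n ⟨(S-1) v, (S-1) v'⟩`. -/
theorem dint_kap_T' (h2 : (2 : R) ≠ 0) (h3 : (3 : R) ≠ 0)
    (hneg : ∀ y : E, (-1 : SL(2, ℤ)) • y = y)
    (D : dm_Data E) (hDs : ∀ x, D.s x = (S : SL(2, ℤ))⁻¹ • x)
    (hF : dint_IsCross F) (hF' : dint_IsCross F') (hH : dint_IsTw n F F' H) (v v' : E → R)
    (hFS : ∀ y, F S y = v (D.s y) - v y) (hFτ : ∀ y, F (S * T) y = 0)
    (hFS' : ∀ y, F' S y = v' (D.s y) - v' y) (hFτ' : ∀ y, F' (S * T) y = 0) :
    2 * dint_kap H T = - n * ∑ y, (v (D.s y) - v y) * (v' (D.s y) - v' y) := by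
  have hFneg := dint_cross_neg_one' hneg D hDs hF v hFS
  have hcube : (S * T : SL(2, ℤ)) * (S * T) * (S * T) = -1 := by
    rw [← slp55_ST_cube, pow_succ, pow_two]
  have kτ := dint_kap_tau_zero h2 h3 hF hH hFneg (S * T) hcube hFτ
  have kT := dint_kap_mul_of_right hH S⁻¹ (S * T) hFτ'
  rw [← dint_T_eq, kτ, add_zero] at kT
  have kS := dint_kap_mul hH S⁻¹ S⁻¹
  rw [dint_S_inv_mul_S_inv, dint_kap_neg_one' h2 hF hH hFneg] at kS
  have hsum : ∑ y, F S⁻¹ y * F' S⁻¹ ((S : SL(2, ℤ))⁻¹⁻¹ • y)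
      = - ∑ y, (v (D.s y) - v y) * (v' (D.s y) - v' y) := by
    rw [← Finset.sum_neg_distrib]
    apply Finset.sum_congr rfl
    intro y _
    have hS : (S : SL(2, ℤ)) • y = D.s y := by
      rw [hDs, dint_S_inv_smul hneg]
    rw [inv_inv, hS, dint_cross_S_inv' hneg D hDs hF v hFS,
      dint_cross_S_inv' hneg D hDs hF' v' hFS', D.hs]
    ring
  rw [hsum] at kS
  rw [kT]
  linear_combination -kS

omit [MulAction SL(2, ℤ) E] [IsDomain R] in
/-- the algebraic identity (B4) in the official normalisation. -/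
theorem dint_b4' (D : dm_Data E) {z z' : (E → R) × (E → R)} (hz : z ∈ dm_Z D) :
    - ∑ y, (z.1 (D.s y) - z.1 y) * (z'.1 (D.s y) - z'.1 y)
      - 2 * ∑ y, z.2 y * (z'.1 (D.s y) - z'.1 y)
      = 2 * dm_b D z z' := by
  have r1 : ∑ y, z.1 (D.s y) * z'.1 (D.s y) = ∑ y, z.1 y * z'.1 y :=
    Equiv.sum_comp D.s (fun y => z.1 y * z'.1 y)
  have r2 : ∑ y, z.1 y * z'.1 (D.s y) = ∑ y, z.1 (D.s y) * z'.1 y := by
    rw [← Equiv.sum_comp D.s (fun y => z.1 y * z'.1 (D.s y))]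
    apply Finset.sum_congr rfl
    intro y _
    rw [D.hs]
  have r3 : ∑ y, z.2 y * z'.1 (D.s y) = ∑ y, z.2 (D.s y) * z'.1 y := by
    rw [← Equiv.sum_comp D.s (fun y => z.2 y * z'.1 (D.s y))]
    apply Finset.sum_congr rfl
    intro y _
    rw [D.hs]
  have x1 : ∑ y, (z.1 (D.s y) - z.1 y) * (z'.1 (D.s y) - z'.1 y)
      = ∑ y, z.1 (D.s y) * z'.1 (D.s y) - ∑ y, z.1 (D.s y) * z'.1 y
        - ∑ y, z.1 y * z'.1 (D.s y) + ∑ y, z.1 y * z'.1 y := by
    rw [← Finset.sum_sub_distrib, ← Finset.sum_sub_distrib, ← Finset.sum_add_distrib]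
    apply Finset.sum_congr rfl
    intro y _
    ring
  have x2 : ∑ y, z.2 y * (z'.1 (D.s y) - z'.1 y)
      = ∑ y, z.2 y * z'.1 (D.s y) - ∑ y, z.2 y * z'.1 y := by
    rw [← Finset.sum_sub_distrib]
    apply Finset.sum_congr rfl
    intro y _
    ring
  have x3 : dm_b D z z' = ∑ y, z.1 (D.s y) * z'.1 y - ∑ y, z.2 (D.s y) * z'.1 y
      - ∑ y, z.1 y * z'.1 y + ∑ y, z.2 y * z'.1 y := by
    unfold dm_b dl_form
    rw [← Finset.sum_sub_distrib, ← Finset.sum_sub_distrib, ← Finset.sum_add_distrib]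
    apply Finset.sum_congr rfl
    intro y _
    rw [dm_P_eq D hz]
    ring
  rw [x1, x2, x3, r1, r2, r3]
  ring

/-- **total sum**, official normalisation. -/
theorem dint_total' (h2 : (2 : R) ≠ 0) (h3 : (3 : R) ≠ 0)
    (hneg : ∀ y : E, (-1 : SL(2, ℤ)) • y = y)
    (D : dm_Data E) (hDs : ∀ x, D.s x = (S : SL(2, ℤ))⁻¹ • x)
    (hF : dint_IsCross F) (hF' : dint_IsCross F') (hH : dint_IsTw n F F' H)
    {z z' : (E → R) × (E → R)} (hz : z ∈ dm_Z D)
    (hFS : ∀ y, F S y = z.1 (D.s y) - z.1 y) (hFτ : ∀ y, F (S * T) y = 0)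
    (hFS' : ∀ y, F' S y = z'.1 (D.s y) - z'.1 y) (hFτ' : ∀ y, F' (S * T) y = 0) :
    ∑ y, (H T y - n * z.2 y * F' T y) = n * dm_b D z z' := by
  have hk := dint_kap_T' h2 h3 hneg D hDs hF hF' hH z.1 z'.1 hFS hFτ hFS' hFτ'
  unfold dint_kap at hk
  have hb := dint_b4' D (z' := z') hz
  have e1 : ∑ y, (H T y - n * z.2 y * F' T y)
      = ∑ y, H T y - n * ∑ y, z.2 y * (z'.1 (D.s y) - z'.1 y) := by
    rw [Finset.mul_sum, ← Finset.sum_sub_distrib]
    apply Finset.sum_congr rfl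
    intro y _
    rw [dint_cross_T' hneg D hDs hF' z'.1 hFS' hFτ']
    ring
  rw [e1]
  have h' : (2 : R) * (∑ y, H T y - n * ∑ y, z.2 y * (z'.1 (D.s y) - z'.1 y)
      - n * dm_b D z z') = 0 := by
    linear_combination hk + n * hb
  have := (mul_eq_zero.mp h').resolve_left h2
  linear_combination this

/-- **THE BRIDGE**, official normalisation (`F S = (S-1) v`, `F (S T) = 0`). -/
theorem dint_bridge' (h2 : (2 : R) ≠ 0) (h3 : (3 : R) ≠ 0)
    (hneg : ∀ y : E, (-1 : SL(2, ℤ)) • y = y)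
    (D : dm_Data E) (hDs : ∀ x, D.s x = (S : SL(2, ℤ))⁻¹ • x)
    (hDt : ∀ x, D.t x = (S * T : SL(2, ℤ))⁻¹ • x)
    (hF : dint_IsCross F) (hF' : dint_IsCross F') (hH : dint_IsTw n F F' H)
    {z z' : (E → R) × (E → R)} (hz : z ∈ dm_Z D) (hz' : z' ∈ dm_Z D)
    (hFS : ∀ y, F S y = z.1 (D.s y) - z.1 y) (hFτ : ∀ y, F (S * T) y = 0)
    (hFS' : ∀ y, F' S y = z'.1 (D.s y) - z'.1 y) (hFτ' : ∀ y, F' (S * T) y = 0)
    {ι : Type*} [Fintype ι] (xc : ι → E)
    (hrep : ∀ y : E, ∃! i : ι, ∃ k : ℕ, (dint_sig E)^[k] (xc i) = y)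
    (x₀ : E) (gc : ι → SL(2, ℤ)) (hgc : ∀ i, gc i • x₀ = xc i) :
    ∑ i, H ((gc i)⁻¹ * T ^ (Function.minimalPeriod (dint_sig E) (xc i)) * gc i) x₀
      = n * dm_b D z z' := by
  rw [← dint_total' h2 h3 hneg D hDs hF hF' hH hz hFS hFτ hFS' hFτ']
  have hinj : Function.Injective (dint_sig E) := by
    intro a b hab
    unfold dint_sig at hab
    exact (MulAction.injective _) hab
  rw [dint_sum_orbits (dint_sig E) hinj xc hrep (fun y => H T y - n * z.2 y * F' T y)]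
  apply Finset.sum_congr rfl
  intro i _
  exact dint_tw_loop hF hF' hH z.2 z'.2
    (dint_cross_T_eq' hneg D hDs hDt hF hz hFS hFτ)
    (dint_cross_T_eq' hneg D hDs hDt hF' hz' hFS' hFτ')
    (gc i) (hgc i) _ (Function.iterate_minimalPeriod)

end bridge'

end Fermat.Agent.S41x
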