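/-
S41 project, block C (duality), row C5 [EXK] (helper46): EXISTENCE of twisted primitives.

For a crossed hom `F : SL(2,ℤ) → Map(E,R)` and a scalar `n`, the set `Map(E,R) × Map(E,R)` carries
the twisted action `g • (a, b) = (g a, g b - n F(g) · g a)`; a crossed hom into this module is a
pair `(F', H)` with `F'` a crossed hom and `H` an `n`-twisted primitive of `(F, F')`.  By helper55's
presentation theorem (`slp55_exists_crossedHom`) such crossed homs exist with prescribed values on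
`S`, `S T` subject to the two relations.  In the official normalisation (`F (S T) = F' (S T) = 0`)
one can take `n = 2`, `H S = - F S · F' S`, `H (S T) = 0`  (`dint_exists_tw_two`).
-/
import Fermat.Agent.S41x.DualIntrD
import Fermat.Agent.S41x.DualShapiro

set_option autoImplicit false

open scoped MatrixGroups
open ModularGroup

namespace Fermat.Agent.S41x

open Finset

/-- carrier of the twisted module. -/
def dint_TwMod (E R : Type*) : Type _ := (E → R) × (E → R)

instance dint_TwMod_acg (E R : Type*) [CommRing R] : AddCommGroup (dint_TwMod E R) :=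
  inferInstanceAs (AddCommGroup ((E → R) × (E → R)))

section twist

variable {E : Type*} [MulAction SL(2, ℤ) E] {R : Type*} [CommRing R]

/-- the twisted action `g • (a, b) = (g a, g b - n F(g) · g a)`. -/
@[reducible] def dint_twAct (F : SL(2, ℤ) → E → R) (hF : dint_IsCross F) (n : R) :
    DistribMulAction SL(2, ℤ) (dint_TwMod E R) where
  smul g p := ((fun x => p.1 (g⁻¹ • x)),
    (fun x => p.2 (g⁻¹ • x) - n * F g x * p.1 (g⁻¹ • x)))
  one_smul p := by
    show ((fun x => p.1 ((1 : SL(2, ℤ))⁻¹ • x)),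
      (fun x => p.2 ((1 : SL(2, ℤ))⁻¹ • x) - n * F 1 x * p.1 ((1 : SL(2, ℤ))⁻¹ • x))) = p
    apply Prod.ext
    · funext x; simp
    · funext x; simp [dint_cross_one hF]
  mul_smul g h p := by
    show ((fun x => p.1 ((g * h)⁻¹ • x)),
      (fun x => p.2 ((g * h)⁻¹ • x) - n * F (g * h) x * p.1 ((g * h)⁻¹ • x)))
      = ((fun x => p.1 (h⁻¹ • g⁻¹ • x)),
        (fun x => (p.2 (h⁻¹ • g⁻¹ • x) - n * F h (g⁻¹ • x) * p.1 (h⁻¹ • g⁻¹ • x))
          - n * F g x * p.1 (h⁻¹ • g⁻¹ • x)))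
    apply Prod.ext
    · funext x; simp only [mul_inv_rev, mul_smul]
    · funext x
      simp only [mul_inv_rev, mul_smul, hF g h x]
      ring
  smul_zero g := by
    show ((fun x => (0 : dint_TwMod E R).1 (g⁻¹ • x)),
      (fun x => (0 : dint_TwMod E R).2 (g⁻¹ • x) - n * F g x * (0 : dint_TwMod E R).1 (g⁻¹ • x)))
      = 0
    apply Prod.ext
    · funext x; rfl
    · funext x
      show (0 : R) - n * F g x * 0 = 0
      ring
  smul_add g p q := by
    show ((fun x => (p + q).1 (g⁻¹ • x)),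
      (fun x => (p + q).2 (g⁻¹ • x) - n * F g x * (p + q).1 (g⁻¹ • x)))
      = ((fun x => p.1 (g⁻¹ • x)), (fun x => p.2 (g⁻¹ • x) - n * F g x * p.1 (g⁻¹ • x)))
        + ((fun x => q.1 (g⁻¹ • x)), (fun x => q.2 (g⁻¹ • x) - n * F g x * q.1 (g⁻¹ • x)))
    apply Prod.ext
    · funext x; rfl
    · funext x
      show (p.2 (g⁻¹ • x) + q.2 (g⁻¹ • x)) - n * F g x * (p.1 (g⁻¹ • x) + q.1 (g⁻¹ • x))
        = (p.2 (g⁻¹ • x) - n * F g x * p.1 (g⁻¹ • x))
          + (q.2 (g⁻¹ • x) - n * F g x * q.1 (g⁻¹ • x))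
      ring

end twist

section exist

variable {E : Type*} [MulAction SL(2, ℤ) E] {R : Type*} [CommRing R]
variable {F F' : SL(2, ℤ) → E → R}

theorem dint_cross_cube (hF' : dint_IsCross F') (τ : SL(2, ℤ)) (x : E) :
    F' (τ * τ * τ) x = F' τ x + F' τ (τ⁻¹ • x) + F' τ (τ⁻¹ • τ⁻¹ • x) := by
  rw [hF' (τ * τ) τ x, hF' τ τ x, mul_inv_rev, mul_smul]

set_option linter.style.haveILetI false in
/-- **existence of twisted primitives with prescribed values on the generators.** -/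
theorem dint_exists_tw (hneg : ∀ y : E, (-1 : SL(2, ℤ)) • y = y)
    (hF : dint_IsCross F) (hF' : dint_IsCross F')
    (hFneg : ∀ y, F (-1) y = 0) (hFneg' : ∀ y, F' (-1) y = 0) (n : R) (HS Hτ : E → R)
    (hS : ∀ y, HS y + (HS ((S : SL(2, ℤ))⁻¹ • y)
      - n * F S y * F' S ((S : SL(2, ℤ))⁻¹ • y)) = 0)
    (hτ : ∀ y, Hτ y + (Hτ ((S * T : SL(2, ℤ))⁻¹ • y)
        - n * F (S * T) y * F' (S * T) ((S * T : SL(2, ℤ))⁻¹ • y))
      + ((Hτ ((S * T : SL(2, ℤ))⁻¹ • (S * T : SL(2, ℤ))⁻¹ • y)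
          - n * F (S * T) ((S * T : SL(2, ℤ))⁻¹ • y)
            * F' (S * T) ((S * T : SL(2, ℤ))⁻¹ • (S * T : SL(2, ℤ))⁻¹ • y))
        - n * F (S * T) y * F' (S * T) ((S * T : SL(2, ℤ))⁻¹ • (S * T : SL(2, ℤ))⁻¹ • y))
      = 0) :
    ∃ H : SL(2, ℤ) → E → R, dint_IsTw n F F' H ∧ (∀ y, H S y = HS y)
      ∧ (∀ y, H (S * T) y = Hτ y) := by
  letI := dint_twAct F hF n
  have hsm : ∀ (g : SL(2, ℤ)) (p : dint_TwMod E R), g • p
      = ((fun x => p.1 (g⁻¹ • x)), (fun x => p.2 (g⁻¹ • x) - n * F g x * p.1 (g⁻¹ • x))) :=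
    fun _ _ => rfl
  have hinv : ∀ x : E, (-1 : SL(2, ℤ))⁻¹ • x = x := by
    intro x
    rw [inv_smul_eq_iff, hneg]
  have hn : ∀ p : dint_TwMod E R, (-1 : SL(2, ℤ)) • p = p := by
    intro p
    rw [hsm]
    apply Prod.ext
    · funext x
      show p.1 ((-1 : SL(2, ℤ))⁻¹ • x) = p.1 x
      rw [hinv]
    · funext x
      show p.2 ((-1 : SL(2, ℤ))⁻¹ • x) - n * F (-1) x * p.1 ((-1 : SL(2, ℤ))⁻¹ • x) = p.2 x
      rw [hinv, hFneg]
      ring
  have hcube : (S * T : SL(2, ℤ)) * (S * T) * (S * T) = -1 := by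
    rw [← slp55_ST_cube, pow_succ, pow_two]
  obtain ⟨z, hz, hzS, hzτ⟩ := slp55_exists_crossedHom (V := dint_TwMod E R) hn
    ((F' S, HS) : dint_TwMod E R) ((F' (S * T), Hτ) : dint_TwMod E R)
    (by
      apply Prod.ext
      · funext x
        show F' S x + F' S ((S : SL(2, ℤ))⁻¹ • x) = 0
        rw [← hF' S S x, dint_S_mul_S, hFneg']
      · funext x
        exact hS x)
    (by
      apply Prod.ext
      · funext x
        show F' (S * T) x + F' (S * T) ((S * T : SL(2, ℤ))⁻¹ • x)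
          + F' (S * T) ((S * T : SL(2, ℤ))⁻¹ • (S * T : SL(2, ℤ))⁻¹ • x) = 0
        have h1 := dint_cross_cube hF' (S * T) x
        rw [hcube, hFneg'] at h1
        exact h1.symm
      · funext x
        exact hτ x)
  have hz1 : dint_IsCross (fun g => (z g).1) := by
    intro g h x
    show (z (g * h)).1 x = (z g).1 x + (z h).1 (g⁻¹ • x)
    rw [hz g h, hsm]
    rfl
  have e1 : (fun g => (z g).1) = F' := by
    apply ds50_IsCoc.ext (z := fun g => (z g).1) (z' := F') hz1 hF'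
    · intro x
      show (z S).1 x = F' S x
      rw [hzS]
    · intro x
      show (z (S * T)).1 x = F' (S * T) x
      rw [hzτ]
  have e1' : ∀ g, (z g).1 = F' g := fun g => congrFun e1 g
  refine ⟨fun g => (z g).2, ?_, ?_, ?_⟩
  · intro g h x
    show (z (g * h)).2 x = (z g).2 x + (z h).2 (g⁻¹ • x) - n * F g x * F' h (g⁻¹ • x)
    rw [hz g h, hsm, ← e1' h]
    show (z g).2 x + ((z h).2 (g⁻¹ • x) - n * F g x * (z h).1 (g⁻¹ • x)) = _
    ring
  · intro y
    show (z S).2 y = HS y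
    rw [hzS]
  · intro y
    show (z (S * T)).2 y = Hτ y
    rw [hzτ]

/-- in a domain with `2 ≠ 0` every crossed hom vanishes at `-1` (when `-1` acts trivially). -/
theorem dint_cross_neg_one_of_two [IsDomain R] (h2 : (2 : R) ≠ 0)
    (hneg : ∀ y : E, (-1 : SL(2, ℤ)) • y = y) (hF : dint_IsCross F) (y : E) :
    F (-1) y = 0 := by
  have h := hF (-1) (-1) y
  have hinv : (-1 : SL(2, ℤ))⁻¹ • y = y := by rw [inv_smul_eq_iff, hneg]
  rw [dint_neg_one_mul_self, dint_cross_one hF, hinv] at h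
  have h' : (2 : R) * F (-1) y = 0 := by linear_combination -h
  exact (mul_eq_zero.mp h').resolve_left h2

/-- **existence, official normalisation**: if `F (S T) = 0` there is a `2`-twisted
primitive (with `H S = - F S · F' S`, `H (S T) = 0`). -/
theorem dint_exists_tw_two (hneg : ∀ y : E, (-1 : SL(2, ℤ)) • y = y)
    (hF : dint_IsCross F) (hF' : dint_IsCross F')
    (hFneg : ∀ y, F (-1) y = 0) (hFneg' : ∀ y, F' (-1) y = 0)
    (hFτ : ∀ y, F (S * T) y = 0) :
    ∃ H : SL(2, ℤ) → E → R, dint_IsTw 2 F F' H ∧ (∀ y, H S y = - (F S y * F' S y))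
      ∧ (∀ y, H (S * T) y = 0) := by
  apply dint_exists_tw hneg hF hF' hFneg hFneg' 2 (fun y => - (F S y * F' S y)) (fun _ => 0)
  · intro y
    have h1 := hF S S y
    rw [dint_S_mul_S, hFneg] at h1
    have h1' := hF' S S y
    rw [dint_S_mul_S, hFneg'] at h1'
    have e1 : F S ((S : SL(2, ℤ))⁻¹ • y) = - F S y := by linear_combination -h1
    have e1' : F' S ((S : SL(2, ℤ))⁻¹ • y) = - F' S y := by linear_combination -h1'
    show - (F S y * F' S y) + (- (F S ((S : SL(2, ℤ))⁻¹ • y) * F' S ((S : SL(2, ℤ))⁻¹ • y))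
      - 2 * F S y * F' S ((S : SL(2, ℤ))⁻¹ • y)) = 0
    rw [e1, e1']
    ring
  · intro y
    show (0 : R) + (0 - 2 * F (S * T) y * F' (S * T) ((S * T : SL(2, ℤ))⁻¹ • y))
      + ((0 - 2 * F (S * T) ((S * T : SL(2, ℤ))⁻¹ • y)
            * F' (S * T) ((S * T : SL(2, ℤ))⁻¹ • (S * T : SL(2, ℤ))⁻¹ • y))
        - 2 * F (S * T) y * F' (S * T) ((S * T : SL(2, ℤ))⁻¹ • (S * T : SL(2, ℤ))⁻¹ • y)) = 0
    rw [hFτ, hFτ]
    ring

end exist

end Fermat.Agent.S41x
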