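/-
S41 project, block C (duality), row C5, final form against helper50's Shapiro dictionary
(`DualShapiro`: `ds50_coc`, `ds50_Psi`, `ds50_data`)  (helper46).

For `v v' : X → R` (`X` an `SL(2,ℤ)`-set on which `-1` acts trivially, base point `x₀`,
`Γ = Stab x₀`):
* `dint_H hneg v v'` : a `2`-twisted primitive of `(ds50_coc v, ds50_coc v')`;
* `dint_k hneg x₀ v v' : Γ → R`, `γ ↦ dint_H hneg v v' γ x₀`, is a primitive of
  `2 · (Ψ v ∪ Ψ v')` in the sense of `dint_IsPrim` (`dint_k_isPrim`);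
* for `z = (v, w)`, `z' = (v', w') ∈ dm_Z` the sum of `dint_k` over the parabolic loops
  `g_c⁻¹ T^{e_c} g_c` (one for each `T`-orbit on `X`) is `2 * dm_b z z'` (`dint_k_cuspSum`).
-/
import Fermat.Agent.S41x.DualIntrE

set_option autoImplicit false

open scoped MatrixGroups
open ModularGroup

namespace Fermat.Agent.S41x

open Finset

section final

variable {X : Type*} [MulAction SL(2, ℤ) X] {R : Type*} [CommRing R]
variable (hneg : ∀ x : X, (-1 : SL(2, ℤ)) • x = x)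

theorem dint_ds50_cross (v : X → R) : dint_IsCross (ds50_coc hneg v) := ds50_coc_isCoc hneg v

theorem dint_ds50_neg_one (v : X → R) (y : X) : ds50_coc hneg v (-1) y = 0 :=
  dint_cross_neg_one' hneg (ds50_data hneg) (ds50_data_s hneg) (dint_ds50_cross hneg v) v
    (fun y => ds50_coc_S hneg v y) y

theorem dint_exists_H (v v' : X → R) :
    ∃ H : SL(2, ℤ) → X → R, dint_IsTw 2 (ds50_coc hneg v) (ds50_coc hneg v') H :=
  let ⟨H, hH, _, _⟩ := dint_exists_tw_two hneg (dint_ds50_cross hneg v) (dint_ds50_cross hneg v')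
    (dint_ds50_neg_one hneg v) (dint_ds50_neg_one hneg v') (fun y => ds50_coc_ST hneg v y)
  ⟨H, hH⟩

/-- a `2`-twisted primitive of `(ds50_coc v, ds50_coc v')`. -/
noncomputable def dint_H (v v' : X → R) : SL(2, ℤ) → X → R :=
  Classical.choose (dint_exists_H hneg v v')

theorem dint_H_isTw (v v' : X → R) :
    dint_IsTw 2 (ds50_coc hneg v) (ds50_coc hneg v') (dint_H hneg v v') :=
  Classical.choose_spec (dint_exists_H hneg v v')

variable (x₀ : X)

/-- the primitive of `2 · (Ψ v ∪ Ψ v')` on `Γ = Stab x₀`. -/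
noncomputable def dint_k (v v' : X → R) (γ : MulAction.stabilizer SL(2, ℤ) x₀) : R :=
  dint_H hneg v v' (γ : SL(2, ℤ)) x₀

theorem dint_k_isPrim (v v' : X → R) :
    dint_IsPrim 2 (ds50_Psi hneg x₀ v) (ds50_Psi hneg x₀ v') (dint_k hneg x₀ v v') := by
  have h := dint_prim_of_tw (dint_ds50_cross hneg v) (dint_ds50_cross hneg v')
    (dint_H_isTw hneg v v') x₀ (MulAction.stabilizer SL(2, ℤ) x₀) (fun γ hγ => hγ)
  exact h

/-- the parabolic loop `g⁻¹ T^e g` fixes `x₀` if `σ^e (g • x₀) = g • x₀`. -/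
theorem dint_loop_mem (g : SL(2, ℤ)) (e : ℕ) (he : (dint_sig X)^[e] (g • x₀) = g • x₀) :
    g⁻¹ * T ^ e * g ∈ MulAction.stabilizer SL(2, ℤ) x₀ := by
  rw [MulAction.mem_stabilizer_iff, mul_smul, mul_smul, inv_smul_eq_iff]
  have h1 := dint_pow_inv_smul (E := X) e (g • x₀)
  rw [he] at h1
  conv_lhs => rw [← h1]
  rw [smul_inv_smul]

end final

section cusp

variable {X : Type*} [Fintype X] [MulAction SL(2, ℤ) X] {R : Type*} [CommRing R] [IsDomain R]
variable (hneg : ∀ x : X, (-1 : SL(2, ℤ)) • x = x) (x₀ : X)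

/-- **cusp sum of the primitive `dint_k` = `2 * dm_b`.** -/
theorem dint_k_cuspSum (h2 : (2 : R) ≠ 0) (h3 : (3 : R) ≠ 0)
    {z z' : (X → R) × (X → R)} (hz : z ∈ dm_Z (ds50_data hneg)) (hz' : z' ∈ dm_Z (ds50_data hneg))
    {ι : Type*} [Fintype ι] (gc : ι → SL(2, ℤ))
    (hrep : ∀ y : X, ∃! i : ι, ∃ k : ℕ, (dint_sig X)^[k] (gc i • x₀) = y) :
    ∑ i, dint_k hneg x₀ z.1 z'.1
        ⟨(gc i)⁻¹ * T ^ (Function.minimalPeriod (dint_sig X) (gc i • x₀)) * gc i,
          dint_loop_mem x₀ (gc i) _ Function.iterate_minimalPeriod⟩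
      = 2 * dm_b (ds50_data hneg) z z' := by
  exact dint_bridge' h2 h3 hneg (ds50_data hneg) (ds50_data_s hneg) (ds50_data_t hneg)
    (dint_ds50_cross hneg z.1) (dint_ds50_cross hneg z'.1) (dint_H_isTw hneg z.1 z'.1) hz hz'
    (fun y => ds50_coc_S hneg z.1 y) (fun y => ds50_coc_ST hneg z.1 y)
    (fun y => ds50_coc_S hneg z'.1 y) (fun y => ds50_coc_ST hneg z'.1 y)
    (fun i => gc i • x₀) hrep x₀ gc (fun _ => rfl)

end cusp

end Fermat.Agent.S41x
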