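/-
S41 project, block C (duality) (helper46): BALANCEDNESS of the model cusp system.

For ANY crossed hom `F : SL(2,ℤ) → Map(E,R)` (`E` finite, `R` a domain with `2, 3 ≠ 0`) the total
mass `g ↦ ∑_y F g y` is a homomorphism `SL(2,ℤ) → R`, hence zero; therefore the sum of the values
of `F(·)(x₀)` over the parabolic loops `g_c⁻¹ T^{e_c} g_c` (one per `T`-orbit) is
`∑_y F T y = 0`.  Applied to the induced cocycle (`dd_ind`) of a homomorphism `k : Γ → R`
(`Γ` = stabiliser of `x₀`) this gives `∑_c k(t_c) = 0` (`dint_balanced`), which is the hypothesis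
`hbal` of `dint_invariance` / `dint_sum_indep` (independence of the cusp sum from the choice of
the primitive).
-/
import Fermat.Agent.S41x.DualIntrC
import Fermat.Agent.S41x.DualDictCoc

set_option autoImplicit false

open scoped MatrixGroups
open ModularGroup

namespace Fermat.Agent.S41x

open Finset

section mass

variable {E : Type*} [Fintype E] [MulAction SL(2, ℤ) E] {R : Type*} [CommRing R]
variable {F : SL(2, ℤ) → E → R}

/-- total mass of a crossed hom. -/
def dint_mass (F : SL(2, ℤ) → E → R) (g : SL(2, ℤ)) : R := ∑ y, F g y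

theorem dint_mass_mul (hF : dint_IsCross F) (g h : SL(2, ℤ)) :
    dint_mass F (g * h) = dint_mass F g + dint_mass F h := by
  unfold dint_mass
  rw [← dint_sum_smul g⁻¹ (F h), ← Finset.sum_add_distrib]
  apply Finset.sum_congr rfl
  intro y _
  rw [hF]

theorem dint_mass_one (hF : dint_IsCross F) : dint_mass F 1 = 0 := by
  unfold dint_mass
  apply Finset.sum_eq_zero
  intro y _
  exact dint_cross_one hF y

variable [IsDomain R]

theorem dint_mass_neg_one (h2 : (2 : R) ≠ 0) (hF : dint_IsCross F) : dint_mass F (-1) = 0 := by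
  have h := dint_mass_mul hF (-1) (-1)
  rw [dint_neg_one_mul_self, dint_mass_one hF] at h
  have h' : (2 : R) * dint_mass F (-1) = 0 := by linear_combination -h
  exact (mul_eq_zero.mp h').resolve_left h2

theorem dint_mass_S (h2 : (2 : R) ≠ 0) (hF : dint_IsCross F) : dint_mass F S = 0 := by
  have h := dint_mass_mul hF S S
  rw [dint_S_mul_S, dint_mass_neg_one h2 hF] at h
  have h' : (2 : R) * dint_mass F S = 0 := by linear_combination -h
  exact (mul_eq_zero.mp h').resolve_left h2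

theorem dint_mass_ST (h2 : (2 : R) ≠ 0) (h3 : (3 : R) ≠ 0) (hF : dint_IsCross F) :
    dint_mass F (S * T) = 0 := by
  have hcube : (S * T : SL(2, ℤ)) * (S * T) * (S * T) = -1 := by
    rw [← slp55_ST_cube, pow_succ, pow_two]
  have h := dint_mass_mul hF ((S * T) * (S * T)) (S * T)
  rw [hcube, dint_mass_neg_one h2 hF, dint_mass_mul hF (S * T) (S * T)] at h
  have h' : (3 : R) * dint_mass F (S * T) = 0 := by linear_combination -h
  exact (mul_eq_zero.mp h').resolve_left h3

/-- the total mass of `F T` vanishes. -/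
theorem dint_mass_T (h2 : (2 : R) ≠ 0) (h3 : (3 : R) ≠ 0) (hF : dint_IsCross F) :
    ∑ y, F T y = 0 := by
  have hS := dint_mass_mul hF S S⁻¹
  rw [mul_inv_cancel, dint_mass_one hF, dint_mass_S h2 hF, zero_add] at hS
  have h := dint_mass_mul hF S⁻¹ (S * T)
  rw [← dint_T_eq, ← hS, dint_mass_ST h2 h3 hF, add_zero] at h
  exact h

end mass

section loops

variable {E : Type*} [MulAction SL(2, ℤ) E] {R : Type*} [CommRing R]
variable {F : SL(2, ℤ) → E → R}

theorem dint_cross_pow_sum (hF : dint_IsCross F) (k : ℕ) (y : E) :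
    F (T ^ k) y = ∑ i ∈ range k, F T ((dint_sig E)^[i] y) := by
  induction k with
  | zero => simp [dint_cross_one hF]
  | succ k ih => rw [pow_succ, hF, ih, dint_pow_inv_smul, Finset.sum_range_succ]

/-- value of a crossed hom on a parabolic loop: the orbit sum of `F T`. -/
theorem dint_cross_loop_sum (hF : dint_IsCross F) (g : SL(2, ℤ)) {x₀ x : E} (hg : g • x₀ = x)
    (e : ℕ) (hx : (dint_sig E)^[e] x = x) :
    F (g⁻¹ * T ^ e * g) x₀ = ∑ i ∈ range e, F T ((dint_sig E)^[i] x) := by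
  have hτ : ((T : SL(2, ℤ)) ^ e) • x = x := by
    have h1 := dint_pow_inv_smul (E := E) e x
    rw [hx] at h1
    conv_lhs => rw [← h1]
    rw [smul_inv_smul]
  rw [dint_cross_conj hF g (T ^ e) hg hτ, dint_cross_pow_sum hF]

end loops

section balanced

variable {E : Type*} [Fintype E] [MulAction SL(2, ℤ) E] {R : Type*} [CommRing R]
variable {F : SL(2, ℤ) → E → R}

/-- the cusp sum of a crossed hom is its total mass at `T`. -/
theorem dint_cross_cuspSum (hF : dint_IsCross F) {ι : Type*} [Fintype ι] (xc : ι → E)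
    (hrep : ∀ y : E, ∃! i : ι, ∃ k : ℕ, (dint_sig E)^[k] (xc i) = y)
    (x₀ : E) (gc : ι → SL(2, ℤ)) (hgc : ∀ i, gc i • x₀ = xc i) :
    ∑ i, F ((gc i)⁻¹ * T ^ (Function.minimalPeriod (dint_sig E) (xc i)) * gc i) x₀
      = ∑ y, F T y := by
  have hinj : Function.Injective (dint_sig E) := by
    intro a b hab
    unfold dint_sig at hab
    exact (MulAction.injective _) hab
  rw [dint_sum_orbits (dint_sig E) hinj xc hrep (fun y => F T y)]
  apply Finset.sum_congr rfl
  intro i _
  exact dint_cross_loop_sum hF (gc i) (hgc i) _ Function.iterate_minimalPeriod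

variable [IsDomain R]

theorem dint_cross_balanced (h2 : (2 : R) ≠ 0) (h3 : (3 : R) ≠ 0) (hF : dint_IsCross F)
    {ι : Type*} [Fintype ι] (xc : ι → E)
    (hrep : ∀ y : E, ∃! i : ι, ∃ k : ℕ, (dint_sig E)^[k] (xc i) = y)
    (x₀ : E) (gc : ι → SL(2, ℤ)) (hgc : ∀ i, gc i • x₀ = xc i) :
    ∑ i, F ((gc i)⁻¹ * T ^ (Function.minimalPeriod (dint_sig E) (xc i)) * gc i) x₀ = 0 := by
  rw [dint_cross_cuspSum hF xc hrep x₀ gc hgc, dint_mass_T h2 h3 hF]

/-- **BALANCED.**  Every homomorphism `k : Γ → R` (`Γ` the stabiliser of `x₀`) has cusp sum zero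
over the model cusp system. -/
theorem dint_balanced [MulAction.IsPretransitive SL(2, ℤ) E] (h2 : (2 : R) ≠ 0)
    (h3 : (3 : R) ≠ 0) (x₀ : E) {Γ : Subgroup SL(2, ℤ)}
    (hΓ : ∀ g : SL(2, ℤ), g ∈ Γ ↔ g • x₀ = x₀) (k : Additive Γ →+ R)
    {ι : Type*} [Fintype ι] (gc : ι → SL(2, ℤ))
    (hrep : ∀ y : E, ∃! i : ι, ∃ j : ℕ, (dint_sig E)^[j] (gc i • x₀) = y)
    (hmem : ∀ i, (gc i)⁻¹ * T ^ (Function.minimalPeriod (dint_sig E) (gc i • x₀)) * gc i ∈ Γ) :
    ∑ i, k (Additive.ofMul (⟨_, hmem i⟩ : Γ)) = 0 := by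
  have hF : dint_IsCross (dd_ind x₀ Γ k) := dd_isCoc_ind x₀ hΓ k
  rw [← dint_cross_balanced h2 h3 hF (fun i => gc i • x₀) hrep x₀ gc (fun _ => rfl)]
  apply Finset.sum_congr rfl
  intro i _
  rw [dd_ind_apply_base x₀ hΓ k (hmem i), dd_ext_of_mem k (hmem i)]

end balanced

end Fermat.Agent.S41x
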