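/-
S41x/ParCuspsSub.lean (helper99).

Wrapper of S41x/ParCusps.lean for an arbitrary subgroup `Γ ≤ SL(2,ℤ)` presented as a stabiliser
(`hΓ : ∀ g, g ∈ Γ ↔ g • x₀ = x₀`, the shape of `dds_mem_iff` / DualDictGlue), and with the
conjugation relation in the `cohMat` shape of LRBase (`cohMat (θ γ) * α = α * cohMat γ`).

* `pi9_tcS x₀ hΓ xc gc hgc i : Γ` : the model loop `(gc i)⁻¹ * T ^ e_i * gc i` as an element of `Γ`.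
* `pi9_exists_conj_data_sub` : for `θ : Γ₁ ≃* Γ₂` induced by an integral matrix `α` of positive
  determinant, `θ (pi9_tcS₁ i) = x i * pi9_tcS₂ (e i) * (x i)⁻¹` for a bijection `e` and
  conjugators `x i ∈ Γ₂` - the hypothesis of `dint_sum_pull` / `dint_invariance`.
-/
import Fermat.Agent.S41x.ParCusps

set_option autoImplicit false

open Matrix ModularGroup
open scoped MatrixGroups

namespace Fermat.Agent.S41x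

section

variable {E : Type*} [MulAction SL(2, ℤ) E]

/-- The model loop as an element of a subgroup presented as a stabiliser. -/
noncomputable def pi9_tcS (x₀ : E) {Γ : Subgroup SL(2, ℤ)} (hΓ : ∀ g : SL(2, ℤ), g ∈ Γ ↔ g • x₀ = x₀)
    {ι : Type*} (xc : ι → E) (gc : ι → SL(2, ℤ)) (hgc : ∀ i, gc i • x₀ = xc i) (i : ι) : Γ :=
  ⟨(gc i)⁻¹ * T ^ (Function.minimalPeriod (dint_sig E) (xc i)) * gc i,
    (hΓ _).2 (pi9_tc_mem x₀ xc gc hgc i)⟩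

theorem pi9_tcS_coe (x₀ : E) {Γ : Subgroup SL(2, ℤ)} (hΓ : ∀ g : SL(2, ℤ), g ∈ Γ ↔ g • x₀ = x₀)
    {ι : Type*} (xc : ι → E) (gc : ι → SL(2, ℤ)) (hgc : ∀ i, gc i • x₀ = xc i) (i : ι) :
    ((pi9_tcS x₀ hΓ xc gc hgc i : Γ) : SL(2, ℤ))
      = (gc i)⁻¹ * T ^ (Function.minimalPeriod (dint_sig E) (xc i)) * gc i := rfl

theorem pi9_eq_stabilizer (x₀ : E) {Γ : Subgroup SL(2, ℤ)}
    (hΓ : ∀ g : SL(2, ℤ), g ∈ Γ ↔ g • x₀ = x₀) : Γ = MulAction.stabilizer SL(2, ℤ) x₀ := by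
  ext g
  rw [hΓ, MulAction.mem_stabilizer_iff]

/-- The model loops of a subgroup presented as a stabiliser form a cusp system. -/
noncomputable def pi9_modelCuspSysS [Finite E] (hneg : ∀ y : E, (-1 : SL(2, ℤ)) • y = y) (x₀ : E)
    {Γ : Subgroup SL(2, ℤ)} (hΓ : ∀ g : SL(2, ℤ), g ∈ Γ ↔ g • x₀ = x₀)
    {ι : Type*} (xc : ι → E)
    (hrep : ∀ y : E, ∃! i : ι, ∃ k : ℕ, (dint_sig E)^[k] (xc i) = y)
    (gc : ι → SL(2, ℤ)) (hgc : ∀ i, gc i • x₀ = xc i) :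
    { A : pi9_CuspSys (pi9_Ppos Γ) ι // ∀ i, A.t i = pi9_tcS x₀ hΓ xc gc hgc i } := by
  have h := pi9_eq_stabilizer x₀ hΓ
  subst h
  exact ⟨pi9_modelCuspSys hneg x₀ xc hrep gc hgc, fun i => rfl⟩

end

/-- **Conjugation data, subgroup form.**  `Γ₁, Γ₂ ≤ SL(2,ℤ)` presented as stabilisers in finite
`SL(2,ℤ)`-sets on which `-1` acts trivially, `θ : Γ₁ ≃* Γ₂` induced by an integral matrix `α` of
positive determinant.  Then `θ` carries the model loops of `Γ₁` to conjugates of the model loops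
of `Γ₂`. -/
theorem pi9_exists_conj_data_sub {E₁ E₂ : Type*} [MulAction SL(2, ℤ) E₁] [Finite E₁]
    [MulAction SL(2, ℤ) E₂] [Finite E₂]
    (hneg₁ : ∀ y : E₁, (-1 : SL(2, ℤ)) • y = y) (hneg₂ : ∀ y : E₂, (-1 : SL(2, ℤ)) • y = y)
    (x₁ : E₁) (x₂ : E₂) {Γ₁ Γ₂ : Subgroup SL(2, ℤ)}
    (hΓ₁ : ∀ g : SL(2, ℤ), g ∈ Γ₁ ↔ g • x₁ = x₁) (hΓ₂ : ∀ g : SL(2, ℤ), g ∈ Γ₂ ↔ g • x₂ = x₂)
    {ι₁ ι₂ : Type*}
    (xc₁ : ι₁ → E₁) (hrep₁ : ∀ y : E₁, ∃! i : ι₁, ∃ k : ℕ, (dint_sig E₁)^[k] (xc₁ i) = y)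
    (gc₁ : ι₁ → SL(2, ℤ)) (hgc₁ : ∀ i, gc₁ i • x₁ = xc₁ i)
    (xc₂ : ι₂ → E₂) (hrep₂ : ∀ y : E₂, ∃! i : ι₂, ∃ k : ℕ, (dint_sig E₂)^[k] (xc₂ i) = y)
    (gc₂ : ι₂ → SL(2, ℤ)) (hgc₂ : ∀ i, gc₂ i • x₂ = xc₂ i)
    (θ : Γ₁ ≃* Γ₂) (α : Matrix (Fin 2) (Fin 2) ℤ) (hα : 0 < α.det)
    (hθ : ∀ γ : Γ₁, ((θ γ : Γ₂) : SL(2, ℤ)).1 * α = α * (γ : SL(2, ℤ)).1) :
    ∃ (e : ι₁ ≃ ι₂) (x : ι₁ → Γ₂),
      ∀ i, θ (pi9_tcS x₁ hΓ₁ xc₁ gc₁ hgc₁ i)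
        = x i * pi9_tcS x₂ hΓ₂ xc₂ gc₂ hgc₂ (e i) * (x i)⁻¹ := by
  obtain ⟨A₁, hA₁⟩ := pi9_modelCuspSysS hneg₁ x₁ hΓ₁ xc₁ hrep₁ gc₁ hgc₁
  obtain ⟨A₂, hA₂⟩ := pi9_modelCuspSysS hneg₂ x₂ hΓ₂ xc₂ hrep₂ gc₂ hgc₂
  obtain ⟨e, x, hx⟩ := (A₁.map θ (pi9_mem_Ppos_iff θ α hα (fun γ => (hθ γ).symm))).exists_equiv A₂
  refine ⟨e, x, fun i => ?_⟩
  have := hx i
  rw [pi9_CuspSys.map_t, hA₁, hA₂] at this
  exact this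

end Fermat.Agent.S41x
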