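/-
S41 project, block C (duality), C-ISO part (I) (helper46): the MODEL FORMULA for `dds_form`.

For `Γ ≤ SL(2,ℤ)` of finite index with `-1 ∈ Γ`, `R` a PID of characteristic `0`, and parabolic homs
`φ, ψ : Γ → R` there is a primitive `k : Γ → R` of `3 · φ ∪ ψ`
(`k (a b) = k a + k b - 3 φ(a) ψ(b)`) whose sum over the model cusp system
`t_i = g_i⁻¹ T^{e_i} g_i` (one loop per `T`-orbit on `SL(2,ℤ) ⧸ Γ`) equals `3 * dds_form φ ψ`.
-/
import Fermat.Agent.S41x.DualIntrG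
import Fermat.Agent.S41x.DualIntrH
import Fermat.Agent.S41x.DualDictGlue
import Fermat.Agent.S41x.ParCuspsSub

set_option autoImplicit false

open scoped MatrixGroups
open ModularGroup ModularCurve.Period

namespace Fermat.Agent.S41x

open Finset

attribute [local instance] Subgroup.fintypeQuotientOfFiniteIndex
attribute [local instance] Classical.propDecidable

section model

variable {Γ : Subgroup SL(2, ℤ)} [Γ.FiniteIndex]
variable {R : Type*} [CommRing R] [IsDomain R] [IsPrincipalIdealRing R] [CharZero R]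

/-- **model formula for `dds_form`.** -/
theorem dim_model (hneg : (-1 : SL(2, ℤ)) ∈ Γ) (φ ψ : parabolicHoms R Γ R)
    {ι : Type*} [Fintype ι] (gc : ι → SL(2, ℤ))
    (hrep : ∀ y : SL(2, ℤ) ⧸ Γ, ∃! i : ι, ∃ k : ℕ,
      (dint_sig (SL(2, ℤ) ⧸ Γ))^[k] (gc i • dds_x0 Γ) = y) :
    ∃ k : Γ → R, dint_IsPrim 3 φ.1 ψ.1 k ∧
      ∑ i, k (pi9_tcS (dds_x0 Γ) (dds_mem_iff Γ) (fun i => gc i • dds_x0 Γ) gc (fun _ => rfl) i)
        = 3 * dds_form (R := R) hneg φ ψ := by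
  obtain ⟨v, w, F, hz, hF, hFS, hFτ, hφ⟩ := ddg_exists_coc (R := R) hneg φ
  obtain ⟨v', w', F', hz', hF', hFS', hFτ', hψ⟩ := ddg_exists_coc (R := R) hneg ψ
  have hnegE : ∀ y : SL(2, ℤ) ⧸ Γ, (-1 : SL(2, ℤ)) • y = y := dds_neg_one_smul hneg
  have h2 : (2 : R) ≠ 0 := dds_two_ne
  have h3 : (3 : R) ≠ 0 := dds_three_ne
  have hFc : dint_IsCross F := hF
  have hFc' : dint_IsCross F' := hF'
  obtain ⟨H, hH⟩ := dint_exists_tw_three' h2 hnegE hFc hFc' hFS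
  have hfix : ∀ γ ∈ Γ, γ • dds_x0 Γ = dds_x0 Γ := fun γ hγ => (dds_mem_iff Γ γ).1 hγ
  refine ⟨fun γ => H (γ : SL(2, ℤ)) (dds_x0 Γ), ?_, ?_⟩
  · have hp := dint_prim_of_tw hFc hFc' hH (dds_x0 Γ) Γ hfix
    have e1 : dint_homOf F hFc (dds_x0 Γ) Γ hfix = φ.1 := by
      ext γ
      exact (hφ (Additive.toMul γ : Γ).1 (Additive.toMul γ : Γ).2).symm
    have e2 : dint_homOf F' hFc' (dds_x0 Γ) Γ hfix = ψ.1 := by
      ext γ
      exact (hψ (Additive.toMul γ : Γ).1 (Additive.toMul γ : Γ).2).symm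
    rw [e1, e2] at hp
    exact hp
  · rw [ddg_form_eq_b hneg hF hF' hz hz' hFS hFτ hFS' hFτ' φ ψ hφ hψ]
    exact dint_bridge h2 h3 hnegE (dd_D (dds_Y hneg)) (fun _ => rfl) (fun _ => rfl) hFc hFc' hH
      hz hz' hFS hFτ hFS' hFτ' (fun i => gc i • dds_x0 Γ) hrep (dds_x0 Γ) gc (fun _ => rfl)

end model

end Fermat.Agent.S41x
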