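/-
S41 project, block C (duality), C-ISO part (II) (helper46): INVARIANCE of `dds_form` under
isomorphisms `θ : Γ₁ ≃* Γ₂` induced by an integral matrix `α` of positive determinant
(`θ(γ) α = α γ`), e.g. conjugation by `diag(q,1)`.

Proof: model formula `dim_model` on both sides (primitive `k` of `3 φ ∪ ψ` with cusp sum
`3 * dds_form`), independence of the primitive (`dint_balanced`), conjugation invariance of the cusp
sum (`dint_invariance`) and helper99's transport of the model cusp system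
(`pi9_exists_conj_data_sub`); cancel `3`.
-/
import Fermat.Agent.S41x.DualIsoModel

set_option autoImplicit false

open scoped MatrixGroups
open ModularGroup ModularCurve.Period

namespace Fermat.Agent.S41x

open Finset

attribute [local instance] Subgroup.fintypeQuotientOfFiniteIndex
attribute [local instance] Classical.propDecidable

section iso

variable {R : Type*} [CommRing R] [IsDomain R] [IsPrincipalIdealRing R] [CharZero R]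

omit [IsDomain R] [IsPrincipalIdealRing R] [CharZero R] in
/-- a parabolic hom kills the model loops. -/
theorem dim_par_loop {Γ : Subgroup SL(2, ℤ)} (f : parabolicHoms R Γ R) (g : SL(2, ℤ)) (e : ℕ)
    (hmem : g⁻¹ * T ^ e * g ∈ Γ) : f.1 (Additive.ofMul (⟨_, hmem⟩ : Γ)) = 0 := by
  apply f.2
  show ((g⁻¹ * T ^ e * g : SL(2, ℤ)) : Matrix (Fin 2) (Fin 2) ℤ).trace ^ 2 = 4
  rw [dds_trace_conj, dds_trace_T_pow]
  norm_num

/-- **C-ISO.**  `dds_form` is invariant under isomorphisms induced by integral matrices of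
positive determinant. -/
theorem dim_iso {Γ₁ Γ₂ : Subgroup SL(2, ℤ)} [Γ₁.FiniteIndex] [Γ₂.FiniteIndex]
    (h1 : (-1 : SL(2, ℤ)) ∈ Γ₁) (h2 : (-1 : SL(2, ℤ)) ∈ Γ₂)
    (α : Matrix (Fin 2) (Fin 2) ℤ) (hα : 0 < α.det) (θ : Γ₁ ≃* Γ₂)
    (hθ : ∀ γ : Γ₁, ((θ γ : Γ₂) : SL(2, ℤ)).1 * α = α * (γ : SL(2, ℤ)).1)
    (f g : parabolicHoms R Γ₂ R)
    (hf' : f.1.comp (MonoidHom.toAdditive (θ : Γ₁ →* Γ₂)) ∈ parabolicHoms R Γ₁ R)
    (hg' : g.1.comp (MonoidHom.toAdditive (θ : Γ₁ →* Γ₂)) ∈ parabolicHoms R Γ₁ R) :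
    dds_form (R := R) h1 ⟨_, hf'⟩ ⟨_, hg'⟩ = dds_form (R := R) h2 f g := by
  have hthree : (3 : R) ≠ 0 := dds_three_ne
  have htwo : (2 : R) ≠ 0 := dds_two_ne
  obtain ⟨ι₁, _, xc₁, gc₁, hrep₁, hgc₁⟩ :=
    pi9_exists_orbit_data (E := SL(2, ℤ) ⧸ Γ₁) (dds_x0 Γ₁)
  obtain ⟨ι₂, _, xc₂, gc₂, hrep₂, hgc₂⟩ :=
    pi9_exists_orbit_data (E := SL(2, ℤ) ⧸ Γ₂) (dds_x0 Γ₂)
  have hxc₁ : xc₁ = fun i => gc₁ i • dds_x0 Γ₁ := funext fun i => (hgc₁ i).symm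
  have hxc₂ : xc₂ = fun i => gc₂ i • dds_x0 Γ₂ := funext fun i => (hgc₂ i).symm
  subst hxc₁ hxc₂
  obtain ⟨k₁, hk₁, hs₁⟩ := dim_model (R := R) h1 ⟨_, hf'⟩ ⟨_, hg'⟩ gc₁ hrep₁
  obtain ⟨k₂, hk₂, hs₂⟩ := dim_model (R := R) h2 f g gc₂ hrep₂
  obtain ⟨e, x, hconj⟩ := pi9_exists_conj_data_sub (dds_neg_one_smul h1) (dds_neg_one_smul h2)
    (dds_x0 Γ₁) (dds_x0 Γ₂) (dds_mem_iff Γ₁) (dds_mem_iff Γ₂)
    (fun i => gc₁ i • dds_x0 Γ₁) hrep₁ gc₁ (fun _ => rfl)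
    (fun i => gc₂ i • dds_x0 Γ₂) hrep₂ gc₂ (fun _ => rfl) θ α hα hθ
  have key := dint_invariance (θ : Γ₁ →* Γ₂) (n := (3 : R)) (c := (3 : R)) (f := f.1) (g := g.1)
    (pi9_tcS (dds_x0 Γ₁) (dds_mem_iff Γ₁) (fun i => gc₁ i • dds_x0 Γ₁) gc₁ (fun _ => rfl))
    (pi9_tcS (dds_x0 Γ₂) (dds_mem_iff Γ₂) (fun i => gc₂ i • dds_x0 Γ₂) gc₂ (fun _ => rfl))
    e x hconj
    (fun j => dim_par_loop f _ _ _)
    (fun j => dim_par_loop g _ _ _)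
    (fun k => dint_balanced htwo hthree (dds_x0 Γ₁) (dds_mem_iff Γ₁) k gc₁ hrep₁
      (fun i => (pi9_tcS (dds_x0 Γ₁) (dds_mem_iff Γ₁) (fun i => gc₁ i • dds_x0 Γ₁) gc₁
        (fun _ => rfl) i).2))
    (B₁ := dds_form (R := R) h1 ⟨_, hf'⟩ ⟨_, hg'⟩) (B₂ := dds_form (R := R) h2 f g)
    ⟨k₁, hk₁, hs₁⟩ ⟨k₂, hk₂, hs₂⟩
  exact mul_left_cancel₀ hthree key

end iso

end Fermat.Agent.S41x
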