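/-
S41 project, block C (duality), row C-ISO, TWIN / backup (helper59).

The `GL₂⁺(ℚ)`-conjugation isometry for the official pairing `dds_form`:
for finite-index `Gam1 Gam2 ≤ SL(2,ℤ)` containing `-1`, an integral matrix `α` of positive
determinant and `θ : Gam1 ≃* Gam2` with `cohMat (θ γ) * α = α * cohMat γ`,
`dds_form (θ^* f) (θ^* g) = dds_form f g`.

Ingredients (all on main): `ddg_exists_coc`, `ddg_form_eq_b` (helper52), `dint_exists_tw_three'`,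
`dint_bridge`, `dint_prim_of_tw`, `dint_balanced`, `dint_invariance` (helper46),
`pi9_exists_orbit_data`, `pi9_exists_conj_data_sub` (helper99).

* `dit59_model` : for parabolic `φ ψ` on `Γ` there is a primitive `h` of `3 • φ ∪ ψ` whose cusp sum
  over the model cusp system is `3 * dds_form φ ψ`.
* `dit59_iso` : the isometry (any char-0 PID `R`), `dit59_iso_int` : the same over `ℤ`.
-/
import Fermat.Agent.S41x.DualDictGlue
import Fermat.Agent.S41x.DualIntrG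
import Fermat.Agent.S41x.DualIntrH
import Fermat.Agent.S41x.ParCuspsSub
import Fermat.Agent.S16x.CohDatum

set_option autoImplicit false

open ModularGroup ModularCurve.Period
open scoped MatrixGroups

namespace Fermat.Agent.S41x

attribute [local instance] Subgroup.fintypeQuotientOfFiniteIndex
attribute [local instance] Classical.propDecidable

section Model

variable {Γ : Subgroup SL(2, ℤ)} [Γ.FiniteIndex]
variable {R : Type*} [CommRing R] [IsDomain R] [IsPrincipalIdealRing R] [CharZero R]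

/-- **Model formula for `dds_form`**: there is a primitive of `3 • φ ∪ ψ` on `Γ` whose cusp sum over
the model cusp system is `3 * dds_form φ ψ`. -/
theorem dit59_model (hneg : (-1 : SL(2, ℤ)) ∈ Γ) (φ ψ : parabolicHoms R Γ R)
    {ι : Type*} [Fintype ι] (gc : ι → SL(2, ℤ))
    (hrep : ∀ y : SL(2, ℤ) ⧸ Γ, ∃! i : ι, ∃ k : ℕ,
      (dint_sig (SL(2, ℤ) ⧸ Γ))^[k] (gc i • dds_x0 Γ) = y) :
    ∃ h : Γ → R, dint_IsPrim (3 : R) φ.1 ψ.1 h ∧
      ∑ i, h (pi9_tcS (dds_x0 Γ) (dds_mem_iff Γ) (fun i => gc i • dds_x0 Γ) gc (fun _ => rfl) i)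
        = 3 * dds_form (R := R) hneg φ ψ := by
  obtain ⟨v, w, F, hz, hF, hFS, hFτ, hφ⟩ := ddg_exists_coc (R := R) hneg φ
  obtain ⟨v', w', F', hz', hF', hFS', hFτ', hψ⟩ := ddg_exists_coc (R := R) hneg ψ
  have hnegE : ∀ y : SL(2, ℤ) ⧸ Γ, (-1 : SL(2, ℤ)) • y = y := dds_neg_one_smul hneg
  have hFc : dint_IsCross F := hF
  have hFc' : dint_IsCross F' := hF'
  obtain ⟨H, hH⟩ := dint_exists_tw_three' (R := R) dds_two_ne hnegE hFc hFc' hFS
  have hfix : ∀ γ ∈ Γ, γ • dds_x0 Γ = dds_x0 Γ := fun γ hγ => (dds_mem_iff Γ γ).1 hγ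
  refine ⟨fun γ => H (γ : SL(2, ℤ)) (dds_x0 Γ), ?_, ?_⟩
  · have h1 := dint_prim_of_tw hFc hFc' hH (dds_x0 Γ) Γ hfix
    have e1 : dint_homOf F hFc (dds_x0 Γ) Γ hfix = φ.1 := by
      refine AddMonoidHom.ext fun γ => ?_
      obtain ⟨γ, rfl⟩ := Additive.ofMul.surjective γ
      rw [dint_homOf_apply]
      exact (hφ γ.1 γ.2).symm
    have e2 : dint_homOf F' hFc' (dds_x0 Γ) Γ hfix = ψ.1 := by
      refine AddMonoidHom.ext fun γ => ?_
      obtain ⟨γ, rfl⟩ := Additive.ofMul.surjective γ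
      rw [dint_homOf_apply]
      exact (hψ γ.1 γ.2).symm
    rwa [e1, e2] at h1
  · rw [ddg_form_eq_b hneg hF hF' hz hz' hFS hFτ hFS' hFτ' φ ψ hφ hψ]
    exact dint_bridge dds_two_ne dds_three_ne hnegE (dd_D (dds_Y hneg)) (fun _ => rfl)
      (fun _ => rfl) hFc hFc' hH hz hz' hFS (fun y => hFτ y) hFS' (fun y => hFτ' y)
      (fun i => gc i • dds_x0 Γ) hrep (dds_x0 Γ) gc (fun _ => rfl)

end Model

section Iso

variable {R : Type*} [CommRing R] [IsDomain R] [IsPrincipalIdealRing R] [CharZero R]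

omit [IsDomain R] [IsPrincipalIdealRing R] [CharZero R] in
/-- a parabolic hom kills the model loops -/
theorem dit59_par_tc {Γ : Subgroup SL(2, ℤ)} (f : parabolicHoms R Γ R)
    {ι : Type*} (gc : ι → SL(2, ℤ)) (i : ι) :
    f.1 (Additive.ofMul (pi9_tcS (dds_x0 Γ) (dds_mem_iff Γ) (fun i => gc i • dds_x0 Γ) gc
      (fun _ => rfl) i)) = 0 := by
  apply f.2
  rw [pi9_tcS_coe, dds_trace_conj, dds_trace_T_pow]
  norm_num

/-- **C-ISO (twin)**: `GL₂⁺(ℚ)`-conjugation is an isometry for `dds_form`. -/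
theorem dit59_iso {Gam1 Gam2 : Subgroup SL(2, ℤ)} [Gam1.FiniteIndex] [Gam2.FiniteIndex]
    (h1 : (-1 : SL(2, ℤ)) ∈ Gam1) (h2 : (-1 : SL(2, ℤ)) ∈ Gam2)
    (α : Matrix (Fin 2) (Fin 2) ℤ) (hα : 0 < α.det) (θ : Gam1 ≃* Gam2)
    (hθ : ∀ γ : Gam1, Fermat.Agent.S16x.cohMat (θ γ) * α = α * Fermat.Agent.S16x.cohMat γ)
    (f g : parabolicHoms R Gam2 R)
    (hf' : f.1.comp (MonoidHom.toAdditive (θ : Gam1 →* Gam2)) ∈ parabolicHoms R Gam1 R)
    (hg' : g.1.comp (MonoidHom.toAdditive (θ : Gam1 →* Gam2)) ∈ parabolicHoms R Gam1 R) :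
    dds_form (R := R) h1 ⟨_, hf'⟩ ⟨_, hg'⟩ = dds_form (R := R) h2 f g := by
  obtain ⟨ι₁, _, xc₁, gc₁, hrep₁, hgc₁⟩ :=
    pi9_exists_orbit_data (E := SL(2, ℤ) ⧸ Gam1) (dds_x0 Gam1)
  obtain ⟨ι₂, _, xc₂, gc₂, hrep₂, hgc₂⟩ :=
    pi9_exists_orbit_data (E := SL(2, ℤ) ⧸ Gam2) (dds_x0 Gam2)
  obtain rfl : xc₁ = fun i => gc₁ i • dds_x0 Gam1 := funext fun i => (hgc₁ i).symm
  obtain rfl : xc₂ = fun i => gc₂ i • dds_x0 Gam2 := funext fun i => (hgc₂ i).symm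
  have hneg₁ : ∀ y : SL(2, ℤ) ⧸ Gam1, (-1 : SL(2, ℤ)) • y = y := dds_neg_one_smul h1
  have hneg₂ : ∀ y : SL(2, ℤ) ⧸ Gam2, (-1 : SL(2, ℤ)) • y = y := dds_neg_one_smul h2
  obtain ⟨e, x, hconj⟩ := pi9_exists_conj_data_sub hneg₁ hneg₂ (dds_x0 Gam1) (dds_x0 Gam2)
    (dds_mem_iff Gam1) (dds_mem_iff Gam2) (fun i => gc₁ i • dds_x0 Gam1) hrep₁ gc₁ (fun _ => rfl)
    (fun i => gc₂ i • dds_x0 Gam2) hrep₂ gc₂ (fun _ => rfl) θ α hα hθ
  have m₁ := dit59_model (R := R) h1 ⟨_, hf'⟩ ⟨_, hg'⟩ gc₁ hrep₁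
  have m₂ := dit59_model (R := R) h2 f g gc₂ hrep₂
  have hbal : ∀ k : Additive Gam1 →+ R,
      ∑ i, k (Additive.ofMul (pi9_tcS (dds_x0 Gam1) (dds_mem_iff Gam1)
        (fun i => gc₁ i • dds_x0 Gam1) gc₁ (fun _ => rfl) i)) = 0 := by
    intro k
    exact dint_balanced (R := R) dds_two_ne dds_three_ne (dds_x0 Gam1) (dds_mem_iff Gam1) k gc₁
      hrep₁ (fun i => (pi9_tcS (dds_x0 Gam1) (dds_mem_iff Gam1)
        (fun i => gc₁ i • dds_x0 Gam1) gc₁ (fun _ => rfl) i).2)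
  have key := dint_invariance (θ : Gam1 →* Gam2) (n := (3 : R)) (c := (3 : R)) (f := f.1) (g := g.1)
    (fun i => pi9_tcS (dds_x0 Gam1) (dds_mem_iff Gam1) (fun i => gc₁ i • dds_x0 Gam1) gc₁
      (fun _ => rfl) i)
    (fun j => pi9_tcS (dds_x0 Gam2) (dds_mem_iff Gam2) (fun i => gc₂ i • dds_x0 Gam2) gc₂
      (fun _ => rfl) j)
    e x hconj (fun j => dit59_par_tc f gc₂ j) (fun j => dit59_par_tc g gc₂ j) hbal m₁ m₂
  exact mul_left_cancel₀ (dds_three_ne (R := R)) key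

/-- the same over `ℤ`, helper52's final shape -/
theorem dit59_iso_int {Gam1 Gam2 : Subgroup SL(2, ℤ)} [Gam1.FiniteIndex] [Gam2.FiniteIndex]
    (h1 : (-1 : SL(2, ℤ)) ∈ Gam1) (h2 : (-1 : SL(2, ℤ)) ∈ Gam2)
    (α : Matrix (Fin 2) (Fin 2) ℤ) (hα : 0 < α.det) (θ : Gam1 ≃* Gam2)
    (hθ : ∀ γ : Gam1, Fermat.Agent.S16x.cohMat (θ γ) * α = α * Fermat.Agent.S16x.cohMat γ)
    (f g : parabolicHoms ℤ Gam2 ℤ)
    (hf' : f.1.comp (MonoidHom.toAdditive (θ : Gam1 →* Gam2)) ∈ parabolicHoms ℤ Gam1 ℤ)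
    (hg' : g.1.comp (MonoidHom.toAdditive (θ : Gam1 →* Gam2)) ∈ parabolicHoms ℤ Gam1 ℤ) :
    dds_form (R := ℤ) h1 ⟨_, hf'⟩ ⟨_, hg'⟩ = dds_form (R := ℤ) h2 f g :=
  dit59_iso h1 h2 α hα θ hθ f g hf' hg'

end Iso

end Fermat.Agent.S41x
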