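import Mathlib

/-!
# S41x / DualLattice: lattice duality lemmas over a PID

General lemmas on submodules of the standard lattice `E → R` (finite `E`, `R` a PID) with the
standard form `dl_form f h = ∑ x, f x * h x`:

* `dl_sat_of_prime`: saturation can be checked on prime elements;
* `dl_mem_of_forall_form`: a saturated submodule equals its double orthogonal;
* `dl_exists_repr`: every functional on a saturated submodule is represented by a vector.
-/

namespace Fermat.Agent.S41x

open Finset

variable {R : Type*} [CommRing R]
variable {E : Type*} [Fintype E]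

/-- The standard symmetric bilinear form on `E → R`. -/
def dl_form (f h : E → R) : R := ∑ x, f x * h x

theorem dl_form_comm (f h : E → R) : dl_form f h = dl_form h f := by
  unfold dl_form
  exact Finset.sum_congr rfl (fun x _ => mul_comm _ _)

theorem dl_form_add_left (f g h : E → R) : dl_form (f + g) h = dl_form f h + dl_form g h := by
  unfold dl_form
  rw [← Finset.sum_add_distrib]
  exact Finset.sum_congr rfl (fun x _ => by simp [add_mul])

theorem dl_form_add_right (f g h : E → R) : dl_form f (g + h) = dl_form f g + dl_form f h := by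
  rw [dl_form_comm, dl_form_add_left, dl_form_comm g, dl_form_comm h]

theorem dl_form_smul_left (r : R) (f h : E → R) : dl_form (r • f) h = r * dl_form f h := by
  unfold dl_form
  rw [Finset.mul_sum]
  exact Finset.sum_congr rfl (fun x _ => by simp [mul_assoc])

theorem dl_form_smul_right (r : R) (f h : E → R) : dl_form f (r • h) = r * dl_form f h := by
  rw [dl_form_comm, dl_form_smul_left, dl_form_comm]

theorem dl_form_zero_left (h : E → R) : dl_form (0 : E → R) h = 0 := by
  unfold dl_form; simp

theorem dl_form_zero_right (f : E → R) : dl_form f (0 : E → R) = 0 := by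
  unfold dl_form; simp

theorem dl_form_neg_left (f h : E → R) : dl_form (-f) h = - dl_form f h := by
  unfold dl_form
  rw [← Finset.sum_neg_distrib]
  exact Finset.sum_congr rfl (fun x _ => by simp)

theorem dl_form_neg_right (f h : E → R) : dl_form f (-h) = - dl_form f h := by
  rw [dl_form_comm, dl_form_neg_left, dl_form_comm]

theorem dl_form_sub_left (f g h : E → R) : dl_form (f - g) h = dl_form f h - dl_form g h := by
  rw [sub_eq_add_neg, dl_form_add_left, dl_form_neg_left, ← sub_eq_add_neg]

theorem dl_form_sub_right (f g h : E → R) : dl_form f (g - h) = dl_form f g - dl_form f h := by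
  rw [sub_eq_add_neg, dl_form_add_right, dl_form_neg_right, ← sub_eq_add_neg]

/-- Reindexing the form along a permutation. -/
theorem dl_form_comp_perm (c : Equiv.Perm E) (f h : E → R) :
    dl_form (fun x => f (c x)) (fun x => h (c x)) = dl_form f h := by
  unfold dl_form
  exact Equiv.sum_comp c (fun x => f x * h x)

/-- The form as a linear functional in the first variable. -/
def dl_formL (v : E → R) : (E → R) →ₗ[R] R where
  toFun f := dl_form f v
  map_add' f g := dl_form_add_left f g v
  map_smul' r f := by simp [dl_form_smul_left]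

@[simp] theorem dl_formL_apply (v f : E → R) : dl_formL v f = dl_form f v := rfl

theorem dl_form_single_left [DecidableEq E] (x : E) (h : E → R) :
    dl_form (Pi.single x (1 : R)) h = h x := by
  unfold dl_form
  rw [Finset.sum_eq_single x]
  · simp
  · intro y _ hy; simp [Pi.single_apply, hy]
  · intro hx; exact absurd (Finset.mem_univ x) hx

/-- Every functional on `E → R` is represented by a vector. -/
theorem dl_functional_repr [DecidableEq E] (φ : (E → R) →ₗ[R] R) :
    ∀ f : E → R, φ f = dl_form f (fun x => φ (Pi.single x 1)) := by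
  intro f
  have h := LinearMap.pi_apply_eq_sum_univ φ f
  rw [h]
  unfold dl_form
  refine Finset.sum_congr rfl (fun x _ => ?_)
  have hx : (fun j => if x = j then (1 : R) else 0) = Pi.single x 1 := by
    funext j
    by_cases hj : x = j
    · subst hj; simp
    · simp [Pi.single_apply, hj, Ne.symm hj]
  rw [smul_eq_mul, hx]

/-- Saturation of a submodule. -/
def dl_Sat (U : Submodule R (E → R)) : Prop :=
  ∀ (r : R) (v : E → R), r ≠ 0 → r • v ∈ U → v ∈ U

section PID

variable [IsDomain R] [IsPrincipalIdealRing R]

theorem dl_sat_of_prime (U : Submodule R (E → R))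
    (h : ∀ p : R, Prime p → ∀ v : E → R, p • v ∈ U → v ∈ U) : dl_Sat U := by
  intro r
  induction r using UniqueFactorizationMonoid.induction_on_prime with
  | h₁ => intro v h0; exact absurd rfl h0
  | h₂ x hx =>
    intro v _ hv
    obtain ⟨u, rfl⟩ := hx
    have : v = (↑u⁻¹ : R) • ((u : R) • v) := by
      rw [smul_smul, Units.inv_mul, one_smul]
    rw [this]
    exact U.smul_mem _ hv
  | h₃ a p ha hp ih =>
    intro v _ hv
    apply ih v ha
    apply h p hp
    rwa [smul_smul]

theorem dl_mem_of_forall_form [DecidableEq E] (U : Submodule R (E → R)) (hU : dl_Sat U)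
    (v : E → R) (hv : ∀ P : E → R, (∀ u ∈ U, dl_form P u = 0) → dl_form P v = 0) : v ∈ U := by
  classical
  by_contra hvU
  have : NoZeroSMulDivisors R ((E → R) ⧸ U) := by
    refine ⟨fun {r m} hrm => ?_⟩
    by_cases hr : r = 0
    · exact Or.inl hr
    · right
      obtain ⟨w, rfl⟩ := Submodule.Quotient.mk_surjective U m
      rw [← Submodule.Quotient.mk_smul, Submodule.Quotient.mk_eq_zero] at hrm
      rw [Submodule.Quotient.mk_eq_zero]
      exact hU r w hr hrm
  have : Module.Free R ((E → R) ⧸ U) := Module.free_of_finite_type_torsion_free'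
  let b := Module.Free.chooseBasis R ((E → R) ⧸ U)
  have hne : (Submodule.Quotient.mk v : (E → R) ⧸ U) ≠ 0 := by
    rwa [Ne, Submodule.Quotient.mk_eq_zero]
  obtain ⟨i, hi⟩ : ∃ i, b.coord i (Submodule.Quotient.mk v) ≠ 0 := by
    by_contra hall
    push Not at hall
    apply hne
    apply b.repr.injective
    ext i
    simpa using hall i
  let φ : (E → R) →ₗ[R] R := (b.coord i) ∘ₗ U.mkQ
  have hφ := dl_functional_repr φ
  set P : E → R := fun x => φ (Pi.single x 1) with hP
  have h1 : ∀ u ∈ U, dl_form P u = 0 := by
    intro u hu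
    rw [dl_form_comm, ← hφ u]
    show b.coord i (U.mkQ u) = 0
    rw [Submodule.mkQ_apply, (Submodule.Quotient.mk_eq_zero U).2 hu, map_zero]
  have h2 := hv P h1
  rw [dl_form_comm, ← hφ v] at h2
  exact hi h2

theorem dl_exists_repr [DecidableEq E] (W : Submodule R (E → R)) (hW : dl_Sat W)
    (ℓ : W →ₗ[R] R) : ∃ v : E → R, ∀ P : W, ℓ P = dl_form P.1 v := by
  classical
  have : NoZeroSMulDivisors R ((E → R) ⧸ W) := by
    refine ⟨fun {r m} hrm => ?_⟩
    by_cases hr : r = 0
    · exact Or.inl hr
    · right
      obtain ⟨w, rfl⟩ := Submodule.Quotient.mk_surjective W m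
      rw [← Submodule.Quotient.mk_smul, Submodule.Quotient.mk_eq_zero] at hrm
      rw [Submodule.Quotient.mk_eq_zero]
      exact hW r w hr hrm
  have : Module.Free R ((E → R) ⧸ W) := Module.free_of_finite_type_torsion_free'
  obtain ⟨σ, hσ⟩ := Module.projective_lifting_property W.mkQ
    (LinearMap.id : ((E → R) ⧸ W) →ₗ[R] _) (Submodule.mkQ_surjective W)
  let π : (E → R) →ₗ[R] W := LinearMap.codRestrict W (LinearMap.id - σ ∘ₗ W.mkQ) (by
    intro v
    rw [← Submodule.Quotient.mk_eq_zero W]
    have := LinearMap.congr_fun hσ (W.mkQ v)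
    simp only [LinearMap.comp_apply, LinearMap.id_apply, Submodule.mkQ_apply] at this
    simp only [LinearMap.sub_apply, LinearMap.id_apply, LinearMap.comp_apply,
      Submodule.mkQ_apply, Submodule.Quotient.mk_sub, this, sub_self])
  have hπ : ∀ P : W, π P.1 = P := by
    intro P
    apply Subtype.ext
    simp only [π, LinearMap.codRestrict_apply, LinearMap.sub_apply, LinearMap.id_apply,
      LinearMap.comp_apply, Submodule.mkQ_apply]
    rw [(Submodule.Quotient.mk_eq_zero W).2 P.2, map_zero, sub_zero]
  refine ⟨fun x => (ℓ ∘ₗ π) (Pi.single x 1), fun P => ?_⟩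
  have := dl_functional_repr (ℓ ∘ₗ π) P.1
  rw [← this, LinearMap.comp_apply, hπ]

end PID

end Fermat.Agent.S41x
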