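import Fermat.Agent.S41x.DualModel

/-!
# S41x / DualPairing: the perfect alternating pairing on parabolic classes

`dp_Lpar D ⊆ Q = V / (V^s + V^t)` is the submodule of parabolic classes (classes `[v]` with
`(s - 1) v ∈ (T - 1) V`), and `dp_pair D h2 h3 : dp_Lpar D →ₗ dp_Lpar D →ₗ R` is the alternating
form `([v], [v']) ↦ ⟨(1 - t) w, v'⟩` (`(T - 1) w = (s - 1) v`).  It is perfect
(`dp_pair_bijective`).  Under Shapiro, `Q = Hom(Γ, R)`, `dp_Lpar = Hom_par(Γ, R)` and this is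
Poincaré duality on `H^1_par(Γ, R)`; no denominators, valid for every PID with `2, 3 ≠ 0`.
-/

namespace Fermat.Agent.S41x

variable {R : Type*} [CommRing R]
variable {E : Type*} [Fintype E]
variable (D : dm_Data E)

theorem dp_b_add_left (z z' z'' : (E → R) × (E → R)) :
    dm_b D (z + z') z'' = dm_b D z z'' + dm_b D z' z'' := by
  unfold dm_b; rw [dm_P_add, dl_form_add_left]

theorem dp_b_smul_left (r : R) (z z'' : (E → R) × (E → R)) :
    dm_b D (r • z) z'' = r * dm_b D z z'' := by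
  unfold dm_b; rw [dm_P_smul, dl_form_smul_left]

theorem dp_b_add_right (z z' z'' : (E → R) × (E → R)) :
    dm_b D z (z' + z'') = dm_b D z z' + dm_b D z z'' := by
  unfold dm_b; rw [Prod.fst_add, dl_form_add_right]

theorem dp_b_smul_right (r : R) (z z'' : (E → R) × (E → R)) :
    dm_b D z (r • z'') = r * dm_b D z z'' := by
  unfold dm_b; rw [Prod.smul_fst, dl_form_smul_right]

theorem dp_b_sub_left (z z' z'' : (E → R) × (E → R)) :
    dm_b D (z - z') z'' = dm_b D z z'' - dm_b D z' z'' := by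
  have h1 : z - z' = z + (-1 : R) • z' := by rw [neg_one_smul, sub_eq_add_neg]
  rw [h1, dp_b_add_left, dp_b_smul_left]; ring

theorem dp_b_sub_right (z z' z'' : (E → R) × (E → R)) :
    dm_b D z (z' - z'') = dm_b D z z' - dm_b D z z'' := by
  have h1 : z' - z'' = z' + (-1 : R) • z'' := by rw [neg_one_smul, sub_eq_add_neg]
  rw [h1, dp_b_add_right, dp_b_smul_right]; ring

/-- The class map `Z → Q = V / U`, `(v, w) ↦ [v]`. -/
def dp_q (R : Type*) [CommRing R] {E : Type*} [Fintype E] (D : dm_Data E) :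
    dm_Z (R := R) D →ₗ[R] ((E → R) ⧸ dm_U (R := R) D) :=
  (dm_U (R := R) D).mkQ ∘ₗ (LinearMap.fst R (E → R) (E → R)) ∘ₗ (dm_Z (R := R) D).subtype

theorem dp_q_apply (z : dm_Z (R := R) D) :
    dp_q R D z = Submodule.Quotient.mk z.1.1 := rfl

theorem dp_q_eq_zero_iff (z : dm_Z (R := R) D) : dp_q R D z = 0 ↔ z.1.1 ∈ dm_U D := by
  rw [dp_q_apply, Submodule.Quotient.mk_eq_zero]

/-- Parabolic classes. -/
def dp_Lpar : Submodule R ((E → R) ⧸ dm_U (R := R) D) := LinearMap.range (dp_q R D)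

section Dom

variable [IsDomain R]

theorem dp_b_congr (h2 : (2 : R) ≠ 0) (h3 : (3 : R) ≠ 0) {z₁ z₂ z₁' z₂' : dm_Z (R := R) D}
    (h : dp_q R D z₁ = dp_q R D z₂) (h' : dp_q R D z₁' = dp_q R D z₂') :
    dm_b D z₁.1 z₁'.1 = dm_b D z₂.1 z₂'.1 := by
  have e1 : (z₁ - z₂).1.1 ∈ dm_U D := by
    rw [← dp_q_eq_zero_iff, map_sub, h, sub_self]
  have e2 : (z₁' - z₂').1.1 ∈ dm_U D := by
    rw [← dp_q_eq_zero_iff, map_sub, h', sub_self]
  have k1 : dm_b D (z₁ - z₂).1 z₁'.1 = 0 :=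
    dm_b_eq_zero_of_left D h2 h3 (z₁ - z₂).2 z₁'.2 e1
  have k2 : dm_b D z₂.1 (z₁' - z₂').1 = 0 :=
    dm_b_eq_zero_of_right D h2 h3 z₂.2 e2
  have k1' : dm_b D (z₁.1 - z₂.1) z₁'.1 = 0 := k1
  have k2' : dm_b D z₂.1 (z₁'.1 - z₂'.1) = 0 := k2
  rw [dp_b_sub_left] at k1'
  rw [dp_b_sub_right] at k2'
  linear_combination k1' + k2'

/-- A chosen lift of a parabolic class to `Z`. -/
noncomputable def dp_lift (y : dp_Lpar (R := R) D) : dm_Z (R := R) D :=
  Classical.choose y.2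

theorem dp_q_lift (y : dp_Lpar (R := R) D) : dp_q R D (dp_lift D y) = y.1 :=
  Classical.choose_spec y.2

/-- The alternating pairing on parabolic classes. -/
noncomputable def dp_pair (h2 : (2 : R) ≠ 0) (h3 : (3 : R) ≠ 0) :
    dp_Lpar (R := R) D →ₗ[R] dp_Lpar (R := R) D →ₗ[R] R :=
  LinearMap.mk₂ R (fun y y' => dm_b D (dp_lift D y).1 (dp_lift D y').1)
    (by
      intro y₁ y₂ y'
      have : dm_b D (dp_lift D (y₁ + y₂)).1 (dp_lift D y').1
          = dm_b D (dp_lift D y₁ + dp_lift D y₂).1 (dp_lift D y').1 := by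
        apply dp_b_congr D h2 h3 _ rfl
        rw [map_add, dp_q_lift, dp_q_lift, dp_q_lift]; rfl
      rw [this]
      exact dp_b_add_left D _ _ _)
    (by
      intro r y y'
      have : dm_b D (dp_lift D (r • y)).1 (dp_lift D y').1
          = dm_b D (r • dp_lift D y).1 (dp_lift D y').1 := by
        apply dp_b_congr D h2 h3 _ rfl
        rw [map_smul, dp_q_lift, dp_q_lift]; rfl
      rw [this]
      exact dp_b_smul_left D _ _ _)
    (by
      intro y y₁' y₂'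
      have : dm_b D (dp_lift D y).1 (dp_lift D (y₁' + y₂')).1
          = dm_b D (dp_lift D y).1 (dp_lift D y₁' + dp_lift D y₂').1 := by
        apply dp_b_congr D h2 h3 rfl
        rw [map_add, dp_q_lift, dp_q_lift, dp_q_lift]; rfl
      rw [this]
      exact dp_b_add_right D _ _ _)
    (by
      intro r y y'
      have : dm_b D (dp_lift D y).1 (dp_lift D (r • y')).1
          = dm_b D (dp_lift D y).1 (r • dp_lift D y').1 := by
        apply dp_b_congr D h2 h3 rfl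
        rw [map_smul, dp_q_lift, dp_q_lift]; rfl
      rw [this]
      exact dp_b_smul_right D _ _ _)

/-- The pairing computed on arbitrary lifts. -/
theorem dp_pair_q (h2 : (2 : R) ≠ 0) (h3 : (3 : R) ≠ 0) (z z' : dm_Z (R := R) D) :
    dp_pair D h2 h3 ⟨dp_q R D z, ⟨z, rfl⟩⟩ ⟨dp_q R D z', ⟨z', rfl⟩⟩ = dm_b D z.1 z'.1 := by
  show dm_b D (dp_lift D _).1 (dp_lift D _).1 = _
  apply dp_b_congr D h2 h3
  · rw [dp_q_lift]
  · rw [dp_q_lift]

theorem dp_pair_self (h2 : (2 : R) ≠ 0) (h3 : (3 : R) ≠ 0) (y : dp_Lpar (R := R) D) :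
    dp_pair D h2 h3 y y = 0 :=
  dm_b_self D h2 (dp_lift D y).2

theorem dp_pair_antisymm (h2 : (2 : R) ≠ 0) (h3 : (3 : R) ≠ 0) (y y' : dp_Lpar (R := R) D) :
    dp_pair D h2 h3 y y' + dp_pair D h2 h3 y' y = 0 :=
  dm_b_antisymm D h2 (dp_lift D y).2 (dp_lift D y').2

end Dom

section PID

variable [IsDomain R] [IsPrincipalIdealRing R] [DecidableEq E]

/-- **Poincaré duality in the period-polynomial model**: the pairing on parabolic classes is
perfect. -/
theorem dp_pair_bijective (h2 : (2 : R) ≠ 0) (h3 : (3 : R) ≠ 0) (hconn : dm_Conn D) :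
    Function.Bijective (dp_pair (R := R) D h2 h3) := by
  constructor
  · -- injective
    rw [injective_iff_map_eq_zero]
    rintro ⟨y, z', rfl⟩ hy
    apply Subtype.ext
    show dp_q R D z' = 0
    rw [dp_q_eq_zero_iff]
    apply dm_b_nondeg D h2 h3 hconn
    intro z hz
    have h1 := dp_pair_q D h2 h3 z' ⟨z, hz⟩
    have h2' : dp_pair D h2 h3 ⟨dp_q R D z', ⟨z', rfl⟩⟩ ⟨dp_q R D ⟨z, hz⟩, ⟨⟨z, hz⟩, rfl⟩⟩ = 0 := by
      rw [hy]; rfl
    rw [h2'] at h1
    have h3' := dm_b_antisymm D h2 hz z'.2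
    linear_combination h3' + h1
  · -- surjective
    intro μ
    let qr : dm_Z (R := R) D →ₗ[R] dp_Lpar (R := R) D :=
      LinearMap.codRestrict (dp_Lpar (R := R) D) (dp_q R D) (fun z => ⟨z, rfl⟩)
    let lam : dm_Z (R := R) D →ₗ[R] R := μ ∘ₗ qr
    have hlam : ∀ z : dm_Z (R := R) D, z.1.1 ∈ dm_U D → lam z = 0 := by
      intro z hz
      have : qr z = 0 := by
        apply Subtype.ext
        show dp_q R D z = 0
        rwa [dp_q_eq_zero_iff]
      show μ (qr z) = 0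
      rw [this, map_zero]
    obtain ⟨z₀, hz₀, hz₀'⟩ := dm_b_surj D h2 h3 lam hlam
    refine ⟨⟨dp_q R D ⟨z₀, hz₀⟩, ⟨⟨z₀, hz₀⟩, rfl⟩⟩, ?_⟩
    apply LinearMap.ext
    rintro ⟨y', z, rfl⟩
    rw [dp_pair_q D h2 h3 ⟨z₀, hz₀⟩ z, ← hz₀' z]
    rfl

end PID

end Fermat.Agent.S41x
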