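/-
S41 project (level raising), block C (DUAL), row C-TRF (helper91), part 1:
TRANSFER WITH EXPLICIT COSET REPRESENTATIVES, abstractly.

For subgroups `Γ'' ≤ Γ ≤ SL(2,ℤ)`, a system of representatives `S : ctr_Reps Γ'' Γ I` is a family
`s i ∈ Γ` (`i : I`) with `Γ = ⨆ᵢ Γ'' s i` (disjoint).  Then
* `S.pt i := (s i)⁻¹ Γ''` is a bijection of `I` onto the fibre of
  `SL(2,ℤ) ⧸ Γ'' → SL(2,ℤ) ⧸ Γ` over the base coset (`pt_injective`, `pt_proj`, `exists_pt`,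
  `sum_fibre`);
* `γ ∈ Γ` permutes the points: `γ⁻¹ • pt i = pt (idx γ i)`, `s i * γ * (s (idx γ i))⁻¹ ∈ Γ''`;
* `S.tr ψ γ = ∑ i, ψ (s i * γ * (s (idx γ i))⁻¹)` is the transfer.
Block B's transfer `lrl_cores` is `tr` for the representatives `g_x = lrl_g N q x`
(`ctr_cores_op_apply`).
-/
import Fermat.Agent.S41x.CohLevel

set_option autoImplicit false

namespace Fermat.Agent.S41x

open scoped MatrixGroups
open Fermat.Agent.S16x CongruenceSubgroup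

/-- `cohMat` relations are relations in `SL(2,ℤ)` -/
theorem ctr_coe_eq_of_cohMat {Γ' Γ : Subgroup SL(2, ℤ)} {γ' : Γ'} {g M : Γ}
    (h : cohMat γ' * cohMat g = cohMat M) : (γ' : SL(2, ℤ)) * (g : SL(2, ℤ)) = (M : SL(2, ℤ)) := by
  apply Subtype.ext
  rw [Matrix.SpecialLinearGroup.coe_mul]
  exact h

/-- A system of representatives of `Γ'' \ Γ` (right cosets `Γ'' s i`). -/
structure ctr_Reps (Γ'' Γ : Subgroup SL(2, ℤ)) (I : Type) where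
  /-- the representatives -/
  s : I → SL(2, ℤ)
  mem : ∀ i, s i ∈ Γ
  dec : ∀ M ∈ Γ, ∃ i, M * (s i)⁻¹ ∈ Γ''
  dist : ∀ i i', s i * (s i')⁻¹ ∈ Γ'' → i = i'

namespace ctr_Reps

variable {Γ'' Γ : Subgroup SL(2, ℤ)} {I : Type} (S : ctr_Reps Γ'' Γ I)

/-- the point `(s i)⁻¹ Γ''` of `SL(2,ℤ) ⧸ Γ''` -/
def pt (i : I) : SL(2, ℤ) ⧸ Γ'' := (((S.s i)⁻¹ : SL(2, ℤ)) : SL(2, ℤ) ⧸ Γ'')

theorem pt_injective : Function.Injective S.pt := by
  intro i j h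
  unfold pt at h
  rw [QuotientGroup.eq, inv_inv] at h
  exact S.dist i j h

/-- the points `pt i` lie over the base coset of `SL(2,ℤ) ⧸ Γ` -/
theorem pt_proj (hle : Γ'' ≤ Γ) (i : I) :
    Subgroup.quotientMapOfLE hle (S.pt i) = ((1 : SL(2, ℤ)) : SL(2, ℤ) ⧸ Γ) := by
  unfold pt
  rw [Subgroup.quotientMapOfLE_apply_mk, QuotientGroup.eq, inv_inv, mul_one]
  exact S.mem i

/-- every point over the base coset is a `pt i` -/
theorem exists_pt (hle : Γ'' ≤ Γ) (x' : SL(2, ℤ) ⧸ Γ'')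
    (h : Subgroup.quotientMapOfLE hle x' = ((1 : SL(2, ℤ)) : SL(2, ℤ) ⧸ Γ)) :
    ∃ i, S.pt i = x' := by
  induction x' using QuotientGroup.induction_on with
  | H g =>
    rw [Subgroup.quotientMapOfLE_apply_mk, QuotientGroup.eq] at h
    have hg : g⁻¹ ∈ Γ := by simpa using h
    obtain ⟨i, hi⟩ := S.dec g⁻¹ hg
    refine ⟨i, ?_⟩
    unfold pt
    rw [QuotientGroup.eq, inv_inv]
    have := Γ''.inv_mem hi
    simpa using this

/-- SUM OVER THE FIBRE = sum over the index set -/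
theorem sum_fibre (hle : Γ'' ≤ Γ) [Fintype I] [Fintype (SL(2, ℤ) ⧸ Γ'')]
    [DecidablePred fun x' : SL(2, ℤ) ⧸ Γ'' =>
      Subgroup.quotientMapOfLE hle x' = ((1 : SL(2, ℤ)) : SL(2, ℤ) ⧸ Γ)]
    {B : Type*} [AddCommMonoid B] (F : SL(2, ℤ) ⧸ Γ'' → B) :
    ∑ x' ∈ Finset.univ.filter (fun x' : SL(2, ℤ) ⧸ Γ'' =>
      Subgroup.quotientMapOfLE hle x' = ((1 : SL(2, ℤ)) : SL(2, ℤ) ⧸ Γ)), F x'
      = ∑ i, F (S.pt i) := by
  symm
  refine Finset.sum_bij (fun i _ => S.pt i) ?_ ?_ ?_ ?_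
  · intro i _
    rw [Finset.mem_filter]
    exact ⟨Finset.mem_univ _, S.pt_proj hle i⟩
  · intro i _ j _ h
    exact S.pt_injective h
  · intro x' hx'
    rw [Finset.mem_filter] at hx'
    obtain ⟨i, hi⟩ := S.exists_pt hle x' hx'.2
    exact ⟨i, Finset.mem_univ _, hi⟩
  · intro i _
    rfl

theorem exists_idx (γ : Γ) (i : I) : ∃ i', S.s i * (γ : SL(2, ℤ)) * (S.s i')⁻¹ ∈ Γ'' :=
  S.dec _ (Γ.mul_mem (S.mem i) γ.2)

/-- the index `σ_γ(i)` : `s i * γ ∈ Γ'' s (σ_γ i)` -/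
noncomputable def idx (γ : Γ) (i : I) : I := (S.exists_idx γ i).choose

theorem idx_spec (γ : Γ) (i : I) : S.s i * (γ : SL(2, ℤ)) * (S.s (S.idx γ i))⁻¹ ∈ Γ'' :=
  (S.exists_idx γ i).choose_spec

theorem idx_eq_of {γ : Γ} {i i' : I} (h : S.s i * (γ : SL(2, ℤ)) * (S.s i')⁻¹ ∈ Γ'') :
    S.idx γ i = i' := by
  apply S.dist
  have h1 := Γ''.mul_mem (Γ''.inv_mem (S.idx_spec γ i)) h
  have e : (S.s i * (γ : SL(2, ℤ)) * (S.s (S.idx γ i))⁻¹)⁻¹ * (S.s i * (γ : SL(2, ℤ)) * (S.s i')⁻¹)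
      = S.s (S.idx γ i) * (S.s i')⁻¹ := by group
  rwa [e] at h1

/-- the element `s i * γ * (s (σ_γ i))⁻¹` of `Γ''` -/
noncomputable def elt (γ : Γ) (i : I) : Γ'' := ⟨_, S.idx_spec γ i⟩

@[simp] theorem elt_coe (γ : Γ) (i : I) :
    ((S.elt γ i : Γ'') : SL(2, ℤ)) = S.s i * (γ : SL(2, ℤ)) * (S.s (S.idx γ i))⁻¹ := rfl

/-- `γ⁻¹ • pt i = pt (σ_γ i)` -/
theorem smul_pt (γ : Γ) (i : I) :
    ((γ : SL(2, ℤ))⁻¹ : SL(2, ℤ)) • S.pt i = S.pt (S.idx γ i) := by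
  unfold pt
  rw [MulAction.Quotient.smul_mk, QuotientGroup.eq, smul_eq_mul, mul_inv_rev, inv_inv, inv_inv]
  exact S.idx_spec γ i

/-- the TRANSFER with respect to the representatives `s i` -/
noncomputable def tr [Fintype I] {B : Type*} [AddCommMonoid B] (ψ : Additive Γ'' → B) (γ : Γ) : B :=
  ∑ i, ψ (Additive.ofMul (S.elt γ i))

end ctr_Reps

/-! ## block B's transfer `lrl_cores` -/

section cores

variable (N q : ℕ) [Fact q.Prime] (hqN : ¬ q ∣ N)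

/-- the representatives `g_x` of `Γ₀(N q) \ Γ₀(N)` -/
noncomputable def ctr_reps : ctr_Reps (Gamma0 (N * q)) (Gamma0 N) (OnePoint (ZMod q)) where
  s x := ((lrl_g N q hqN x : Gamma0 N) : SL(2, ℤ))
  mem x := (lrl_g N q hqN x).2
  dec M hM := by
    obtain ⟨x, γ', hx⟩ := lrl_exists_decomp N q hqN (⟨M, hM⟩ : Gamma0 N)
    have hx' : (γ' : SL(2, ℤ)) * ((lrl_g N q hqN x : Gamma0 N) : SL(2, ℤ)) = M :=
      ctr_coe_eq_of_cohMat hx
    refine ⟨x, ?_⟩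
    rw [← hx', mul_inv_cancel_right]
    exact γ'.2
  dist x y h := by
    refine lrl_g_distinct N q hqN x y ⟨_, h⟩ ?_
    show ((((lrl_g N q hqN x : Gamma0 N) : SL(2, ℤ)) * ((lrl_g N q hqN y : Gamma0 N) : SL(2, ℤ))⁻¹ :
        SL(2, ℤ)) : Matrix (Fin 2) (Fin 2) ℤ) * (((lrl_g N q hqN y : Gamma0 N) : SL(2, ℤ)) :
        Matrix (Fin 2) (Fin 2) ℤ) = (((lrl_g N q hqN x : Gamma0 N) : SL(2, ℤ)) :
        Matrix (Fin 2) (Fin 2) ℤ)
    rw [← Matrix.SpecialLinearGroup.coe_mul, inv_mul_cancel_right]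

@[simp] theorem ctr_reps_s (x : OnePoint (ZMod q)) :
    (ctr_reps N q hqN).s x = ((lrl_g N q hqN x : Gamma0 N) : SL(2, ℤ)) := rfl

/-- the relation of `lrl_cores` for the abstract `elt`, `idx` -/
theorem ctr_reps_rel (γ : Gamma0 N) (x : OnePoint (ZMod q)) :
    cohMat ((ctr_reps N q hqN).elt γ x) * (lrl_cores N q hqN).A ((ctr_reps N q hqN).idx γ x)
      = (lrl_cores N q hqN).A x * cohMat γ := by
  show ((((ctr_reps N q hqN).elt γ x : Gamma0 (N * q)) : SL(2, ℤ)) : Matrix (Fin 2) (Fin 2) ℤ)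
      * (((lrl_g N q hqN ((ctr_reps N q hqN).idx γ x) : Gamma0 N) : SL(2, ℤ)) :
        Matrix (Fin 2) (Fin 2) ℤ)
      = (((lrl_g N q hqN x : Gamma0 N) : SL(2, ℤ)) : Matrix (Fin 2) (Fin 2) ℤ)
        * ((γ : SL(2, ℤ)) : Matrix (Fin 2) (Fin 2) ℤ)
  rw [← Matrix.SpecialLinearGroup.coe_mul, ← Matrix.SpecialLinearGroup.coe_mul,
    ctr_Reps.elt_coe, ctr_reps_s, ctr_reps_s, inv_mul_cancel_right]

/-- BLOCK B's TRANSFER IS THE TRANSFER WITH REPRESENTATIVES `g_x`. -/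
theorem ctr_cores_op_apply {B : Type*} [AddCommGroup B] (ψ : Additive (Gamma0 (N * q)) →+ B)
    (γ : Gamma0 N) :
    (lrl_cores N q hqN).op ψ (Additive.ofMul γ) = (ctr_reps N q hqN).tr ψ γ :=
  (lrl_cores N q hqN).op_apply_of ψ (fun x => ctr_reps_rel N q hqN γ x)

theorem ctr_reps_idx (γ : Gamma0 N) (x : OnePoint (ZMod q)) :
    (ctr_reps N q hqN).idx γ x = (lrl_cores N q hqN).idx γ x :=
  ((lrl_cores N q hqN).idx_eq_of (ctr_reps_rel N q hqN γ x)).symm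

theorem ctr_reps_elt (γ : Gamma0 N) (x : OnePoint (ZMod q)) :
    (ctr_reps N q hqN).elt γ x = (lrl_cores N q hqN).elt γ x :=
  ((lrl_cores N q hqN).elt_eq_of (ctr_reps_rel N q hqN γ x)).symm

end cores

end Fermat.Agent.S41x
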