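/-
S41 (level raising), block E, row E-LIFT (helper82): LIFTING a mod-`p` eigenvector of a lattice
to a characteristic-zero eigenvector with congruent eigenvalues.

Setting: `K` a finite free `ℤ`-module (e.g. `ker β ⊆ H¹_par(Γ₀(N q'), ℤ)`) with a commuting family
`T i : End_ℤ K`; `V` a complex vector space (e.g. `Hom(Γ₀(N q'), ℂ)`) with `ℂ`-linear `Tc i`;
`emb : K →ₗ[ℤ] V` injective and equivariant.  If `y ∈ K ∖ pK` satisfies `(T i - a i) y ∈ pK` for
`i ∈ S` (`a i ∈ ℤ`), then there are `v ≠ 0` in the `ℂ`-span of `emb K`, algebraic integers `c i`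
and a maximal ideal `𝔪' ∋ p` of `ℤ̄` with `Tc i v = c i • v` for ALL `i` and `c i ≡ a i mod 𝔪'`
for `i ∈ S`.

Proof: `A := Algebra.adjoin ℤ {Tc i |_W}` (`W = span_ℂ (emb K)`) is commutative, preserves the
lattice `emb K`, hence embeds into `End_ℤ K` and is finite over `ℤ`; the ideal
`(p, Tc i - a i : i ∈ S)` is proper since it maps `emb y` into `p • emb K`; take a maximal ideal
above it and apply `S49x.exists_eigen_lift` to the tautological faithful action of `A` on `W`.
-/
import Mathlib
import Fermat.Agent.S49x.EigenLift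

set_option autoImplicit false

namespace Fermat.Agent.S41x

open Module

section abstract

variable {K : Type*} [AddCommGroup K]
  {ι : Type*} (T : ι → Module.End ℤ K)
  {V : Type*} [AddCommGroup V] [Module ℂ V] (Tc : ι → Module.End ℂ V)
  (emb : K →ₗ[ℤ] V)

/-- the complex span of the lattice -/
def elf_W : Submodule ℂ V := Submodule.span ℂ (Set.range emb)

theorem elf_emb_mem (x : K) : emb x ∈ elf_W emb := Submodule.subset_span ⟨x, rfl⟩

variable {T Tc emb}

theorem elf_stab (heq : ∀ i x, emb (T i x) = Tc i (emb x)) (i : ι) :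
    ∀ w ∈ elf_W emb, Tc i w ∈ elf_W emb := by
  intro w hw
  induction hw using Submodule.span_induction with
  | mem x hx =>
    obtain ⟨k, rfl⟩ := hx
    rw [← heq]
    exact elf_emb_mem emb _
  | zero => rw [map_zero]; exact zero_mem _
  | add x y _ _ hx hy => rw [map_add]; exact add_mem hx hy
  | smul c x _ hx => rw [map_smul]; exact Submodule.smul_mem _ c hx

/-- commutation on the span from commutation on the lattice -/
theorem elf_comm_on_W (heq : ∀ i x, emb (T i x) = Tc i (emb x))
    (hcomm : ∀ i j, Commute (T i) (T j)) (i j : ι) :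
    ∀ w ∈ elf_W emb, Tc i (Tc j w) = Tc j (Tc i w) := by
  intro w hw
  induction hw using Submodule.span_induction with
  | mem x hx =>
    obtain ⟨k, rfl⟩ := hx
    rw [← heq, ← heq, ← heq, ← heq]
    have h := congrArg (fun f : Module.End ℤ K => f k) (hcomm i j).eq
    simp only [Module.End.mul_apply] at h
    rw [h]
  | zero => simp
  | add x y _ _ hx hy => simp only [map_add, hx, hy]
  | smul c x _ hx => simp only [map_smul, hx]

/-- conversely: commutation on the lattice from commutation on the span (`emb` injective) -/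
theorem elf_commute_of_emb (hinj : Function.Injective emb)
    (heq : ∀ i x, emb (T i x) = Tc i (emb x))
    (hcommV : ∀ i j, ∀ w ∈ elf_W emb, Tc i (Tc j w) = Tc j (Tc i w)) (i j : ι) :
    Commute (T i) (T j) := by
  refine LinearMap.ext fun k => hinj ?_
  simp only [Module.End.mul_apply]
  rw [heq, heq, heq, heq]
  exact hcommV i j _ (elf_emb_mem emb k)

/-- polynomial identities pass to the span: the case of an involution -/
theorem elf_invol_on_W (heq : ∀ i x, emb (T i x) = Tc i (emb x)) (i : ι)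
    (hsq : ∀ x, T i (T i x) = x) :
    ∀ w ∈ elf_W emb, Tc i (Tc i w) = w := by
  intro w hw
  induction hw using Submodule.span_induction with
  | mem x hx =>
    obtain ⟨k, rfl⟩ := hx
    rw [← heq, ← heq, hsq]
  | zero => simp
  | add x y _ _ hx hy => simp only [map_add, hx, hy]
  | smul c x _ hx => simp only [map_smul, hx]

end abstract


section core

/-- CORE: a commutative ring `A` acting faithfully on a complex vector space `W`, preserving a
finite free lattice `e K` which spans `W`; a set `G ⊆ A` mapping `e y` into `p • e K` for some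
`y ∉ pK`.  Then there are a joint eigenvector with eigencharacter `ψ : A → ℤ̄` and a maximal
ideal `𝔪'` of `ℤ̄` with `ψ G ⊆ 𝔪'`. -/
theorem elf_core {A : Type*} [CommRing A] {W : Type*} [AddCommGroup W] [Module ℂ W]
    {K : Type*} [AddCommGroup K] [Module.Finite ℤ K] [Module.Free ℤ K]
    (ρ : A →+* Module.End ℂ W) (hρ : Function.Injective ρ)
    (e : K →+ W) (he : Function.Injective e) (hspan : Submodule.span ℂ (Set.range e) = ⊤)
    (hlat : ∀ (t : A) (x : K), ∃ z : K, e z = ρ t (e x))
    (p : ℕ) (y : K) (hy : ¬ ∃ u : K, y = p • u)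
    (G : Set A) (hG : ∀ t ∈ G, ∃ u : K, ρ t (e y) = e (p • u)) :
    ∃ (v : W) (ψ : A →+* integralClosure ℤ ℂ) (𝔪' : Ideal (integralClosure ℤ ℂ)),
      v ≠ 0 ∧ (∀ t, ρ t v = ((ψ t : integralClosure ℤ ℂ) : ℂ) • v) ∧ 𝔪'.IsMaximal ∧
        ∀ t ∈ G, ψ t ∈ 𝔪' := by
  classical
  -- the action on the lattice
  choose φ hφ using hlat
  have hφadd : ∀ t x x', φ t (x + x') = φ t x + φ t x' := by
    intro t x x'
    apply he
    rw [hφ, map_add, map_add, map_add, hφ, hφ]
  have hφsmul : ∀ t (n : ℤ) x, φ t (n • x) = n • φ t x := by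
    intro t n x
    apply he
    rw [hφ, map_zsmul, map_zsmul, map_zsmul, hφ]
  let Φ₀ : A → (K →ₗ[ℤ] K) := fun t =>
    { toFun := φ t
      map_add' := hφadd t
      map_smul' := fun n x => by simpa using hφsmul t n x }
  have hΦ₀ : ∀ t x, Φ₀ t x = φ t x := fun _ _ => rfl
  let Φ : A →+ (K →ₗ[ℤ] K) :=
    { toFun := Φ₀
      map_zero' := by
        refine LinearMap.ext fun x => he ?_
        rw [hΦ₀, hφ]; simp
      map_add' := fun t t' => by
        refine LinearMap.ext fun x => he ?_
        rw [LinearMap.add_apply, hΦ₀, hΦ₀, hΦ₀, map_add, hφ, hφ, hφ, map_add, LinearMap.add_apply] }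
  have hΦinj : Function.Injective Φ.toIntLinearMap := by
    intro t t' h
    apply hρ
    have h1 : ∀ x, ρ t (e x) = ρ t' (e x) := by
      intro x
      have h2 : Φ₀ t x = Φ₀ t' x := congrArg (fun f : K →ₗ[ℤ] K => f x) h
      rw [hΦ₀, hΦ₀] at h2
      rw [← hφ, ← hφ, h2]
    refine LinearMap.ext_on_range (v := fun x : K => e x) (by simpa using hspan) h1
  have hfinA : Module.Finite ℤ A := Module.Finite.of_injective Φ.toIntLinearMap hΦinj
  -- the ideal generated by `G`
  have hspanG : ∀ t ∈ Ideal.span G, ∃ u : K, ρ t (e y) = e (p • u) := by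
    intro t ht
    induction ht using Submodule.span_induction with
    | mem t ht => exact hG t ht
    | zero => exact ⟨0, by simp⟩
    | add t t' _ _ h h' =>
      obtain ⟨u, hu⟩ := h
      obtain ⟨u', hu'⟩ := h'
      exact ⟨u + u', by rw [map_add, LinearMap.add_apply, hu, hu', ← map_add, smul_add]⟩
    | smul s t _ h =>
      obtain ⟨u, hu⟩ := h
      refine ⟨φ s u, ?_⟩
      rw [smul_eq_mul, map_mul, Module.End.mul_apply, hu, map_nsmul, map_nsmul, map_nsmul, hφ]
  have hne : Ideal.span G ≠ ⊤ := by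
    intro htop
    have h1 : (1 : A) ∈ Ideal.span G := by rw [htop]; trivial
    obtain ⟨u, hu⟩ := hspanG 1 h1
    rw [map_one, Module.End.one_apply] at hu
    exact hy ⟨u, he hu⟩
  obtain ⟨M, hMmax, hMle⟩ := Ideal.exists_le_maximal _ hne
  have : M.IsPrime := hMmax.isPrime
  obtain ⟨v, ψ, 𝔪', hv0, hv, hmax, hle⟩ := Fermat.Agent.S49x.exists_eigen_lift ρ hρ M
  refine ⟨v, ψ, 𝔪', hv0, hv, hmax, fun t ht => ?_⟩
  exact hle (hMle (Ideal.subset_span ht))

end core

section main

variable {K : Type*} [AddCommGroup K] [Module.Finite ℤ K] [Module.Free ℤ K]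
  {ι : Type*} {T : ι → Module.End ℤ K}
  {V : Type*} [AddCommGroup V] [Module ℂ V] {Tc : ι → Module.End ℂ V}
  {emb : K →ₗ[ℤ] V}

/-- **E-LIFT** (general form, congruences on a subset `S` of the indices). -/
theorem elf_exists_lift_on (hcomm : ∀ i j, Commute (T i) (T j))
    (hinj : Function.Injective emb) (heq : ∀ i x, emb (T i x) = Tc i (emb x))
    (p : ℕ) (S : Set ι) (a : ι → ℤ) (y : K) (hy : ¬ ∃ u : K, y = p • u)
    (hya : ∀ i ∈ S, ∃ u : K, T i y - a i • y = p • u) :
    ∃ (v : V) (c : ι → integralClosure ℤ ℂ) (𝔪' : Ideal (integralClosure ℤ ℂ)),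
      v ≠ 0 ∧ v ∈ elf_W emb ∧ (∀ i, Tc i v = ((c i : integralClosure ℤ ℂ) : ℂ) • v) ∧
        𝔪'.IsMaximal ∧ (p : integralClosure ℤ ℂ) ∈ 𝔪' ∧
        ∀ i ∈ S, c i - (a i : integralClosure ℤ ℂ) ∈ 𝔪' := by
  classical
  -- restricted operators on `W`
  let W : Submodule ℂ V := elf_W emb
  let R : ι → Module.End ℂ W := fun i => (Tc i).restrict (elf_stab heq i)
  have hR : ∀ i (w : W), ((R i w : W) : V) = Tc i (w : V) := fun _ _ => rfl
  have hRcomm : ∀ i j, R i * R j = R j * R i := by
    intro i j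
    refine LinearMap.ext fun w => Subtype.ext ?_
    simp only [Module.End.mul_apply, hR]
    exact elf_comm_on_W heq hcomm i j _ w.2
  let s : Set (Module.End ℂ W) := Set.range R
  have hs : ∀ a ∈ s, ∀ b ∈ s, a * b = b * a := by
    rintro _ ⟨i, rfl⟩ _ ⟨j, rfl⟩
    exact hRcomm i j
  letI : CommRing (Algebra.adjoin ℤ s) := Algebra.adjoinCommRingOfComm ℤ hs
  let ρ : Algebra.adjoin ℤ s →+* Module.End ℂ W := (Algebra.adjoin ℤ s).val.toRingHom
  have hρ : Function.Injective ρ := Subtype.val_injective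
  have hρval : ∀ t : Algebra.adjoin ℤ s, ρ t = (t : Module.End ℂ W) := fun _ => rfl
  -- the lattice inside `W`
  let e : K →+ W :=
    { toFun := fun x => ⟨emb x, elf_emb_mem emb x⟩
      map_zero' := Subtype.ext (map_zero emb)
      map_add' := fun x x' => Subtype.ext (map_add emb x x') }
  have he_val : ∀ x, ((e x : W) : V) = emb x := fun _ => rfl
  have he : Function.Injective e := fun x x' h => hinj (congrArg Subtype.val h)
  have heR : ∀ i x, e (T i x) = R i (e x) := fun i x => Subtype.ext (heq i x)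
  have hspan : Submodule.span ℂ (Set.range e) = ⊤ := by
    rw [eq_top_iff]
    rintro ⟨w, hw⟩ -
    have key : ∀ (w : V) (hw : w ∈ elf_W emb),
        (⟨w, hw⟩ : W) ∈ Submodule.span ℂ (Set.range e) := by
      intro w hw
      induction hw using Submodule.span_induction with
      | mem x hx =>
        obtain ⟨k, rfl⟩ := hx
        exact Submodule.subset_span ⟨k, rfl⟩
      | zero => exact zero_mem _
      | add x x' hx hx' ih ih' => exact add_mem ih ih'
      | smul c x hx ih => exact Submodule.smul_mem _ c ih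
    exact key w hw
  -- lattice preservation
  have hlat : ∀ (t : Algebra.adjoin ℤ s) (x : K), ∃ z : K, e z = ρ t (e x) := by
    rintro ⟨t, ht⟩ x
    rw [hρval]
    show ∃ z : K, e z = t (e x)
    induction ht using Algebra.adjoin_induction generalizing x with
    | mem t ht =>
      obtain ⟨i, rfl⟩ := ht
      exact ⟨T i x, heR i x⟩
    | algebraMap n =>
      refine ⟨n • x, ?_⟩
      rw [map_zsmul, eq_intCast]
      simp
    | add t t' _ _ ih ih' =>
      obtain ⟨z, hz⟩ := ih x
      obtain ⟨z', hz'⟩ := ih' x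
      exact ⟨z + z', by rw [map_add, hz, hz', LinearMap.add_apply]⟩
    | mul t t' _ _ ih ih' =>
      obtain ⟨z', hz'⟩ := ih' x
      obtain ⟨z, hz⟩ := ih z'
      exact ⟨z, by rw [hz, hz', Module.End.mul_apply]⟩
  -- generators
  let gen : ι → Algebra.adjoin ℤ s := fun i => ⟨R i, Algebra.subset_adjoin ⟨i, rfl⟩⟩
  have hgen : ∀ i, ρ (gen i) = R i := fun _ => rfl
  let G : Set (Algebra.adjoin ℤ s) :=
    insert ((p : ℕ) : Algebra.adjoin ℤ s) ((fun i => gen i - ((a i : ℤ) : Algebra.adjoin ℤ s)) '' S)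
  have hG : ∀ t ∈ G, ∃ u : K, ρ t (e y) = e (p • u) := by
    intro t ht
    rcases ht with rfl | ⟨i, hi, rfl⟩
    · refine ⟨y, ?_⟩
      rw [map_natCast, map_nsmul]
      simp
    · obtain ⟨u, hu⟩ := hya i hi
      refine ⟨u, ?_⟩
      rw [← hu, map_sub, map_intCast, hgen, LinearMap.sub_apply, map_sub, heR, map_zsmul]
      simp
  obtain ⟨v, ψ, 𝔪', hv0, hv, hmax, hψG⟩ := elf_core ρ hρ e he hspan hlat p y hy G hG
  refine ⟨(v : V), fun i => ψ (gen i), 𝔪', ?_, v.2, ?_, hmax, ?_, ?_⟩
  · exact fun h => hv0 (Subtype.ext h)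
  · intro i
    have h := congrArg Subtype.val (hv (gen i))
    rw [hgen] at h
    exact h
  · have h := hψG _ (Set.mem_insert _ _)
    rwa [map_natCast] at h
  · intro i hi
    have h := hψG _ (Set.mem_insert_of_mem _ ⟨i, hi, rfl⟩)
    rwa [map_sub, map_intCast] at h

/-- **E-LIFT**: congruences at all indices. -/
theorem elf_exists_lift (hcomm : ∀ i j, Commute (T i) (T j))
    (hinj : Function.Injective emb) (heq : ∀ i x, emb (T i x) = Tc i (emb x))
    (p : ℕ) (a : ι → ℤ) (y : K) (hy : ¬ ∃ u : K, y = p • u)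
    (hya : ∀ i, ∃ u : K, T i y - a i • y = p • u) :
    ∃ (v : V) (c : ι → integralClosure ℤ ℂ) (𝔪' : Ideal (integralClosure ℤ ℂ)),
      v ≠ 0 ∧ v ∈ elf_W emb ∧ (∀ i, Tc i v = ((c i : integralClosure ℤ ℂ) : ℂ) • v) ∧
        𝔪'.IsMaximal ∧ (p : integralClosure ℤ ℂ) ∈ 𝔪' ∧
        ∀ i, c i - (a i : integralClosure ℤ ℂ) ∈ 𝔪' := by
  obtain ⟨v, c, 𝔪', h1, h2, h3, h4, h5, h6⟩ :=
    elf_exists_lift_on hcomm hinj heq p Set.univ a y hy (fun i _ => hya i)
  exact ⟨v, c, 𝔪', h1, h2, h3, h4, h5, fun i => h6 i (Set.mem_univ i)⟩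

omit [Module.Finite ℤ K] [Module.Free ℤ K] in
/-- an involution on the lattice has eigenvalue of square one on the lifted eigenvector -/
theorem elf_sq_eq_one (heq : ∀ i x, emb (T i x) = Tc i (emb x)) (i : ι)
    (hsq : ∀ x, T i (T i x) = x) {v : V} (hv : v ∈ elf_W emb) (hv0 : v ≠ 0)
    {c : integralClosure ℤ ℂ} (hc : Tc i v = ((c : integralClosure ℤ ℂ) : ℂ) • v) :
    c ^ 2 = 1 := by
  have h1 := elf_invol_on_W heq i hsq v hv
  rw [hc, map_smul, hc, smul_smul] at h1
  have h2 : (((c : integralClosure ℤ ℂ) : ℂ) * ((c : integralClosure ℤ ℂ) : ℂ)) • v = (1 : ℂ) • v := by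
    rw [h1, one_smul]
  have h3 := smul_left_injective ℂ hv0 h2
  apply Subtype.ext
  push_cast
  rw [pow_two]
  exact h3

end main

end Fermat.Agent.S41x
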