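import Fermat.Agent.S41x.EigenModP
import Fermat.Agent.S41x.EigenModPSpan

/-!
# S41 block E: rows ABS-E0 and LAT in the exact shapes of the architect's Spec (`LRSpec`)

* `emp_rbe_exists_modp_eigenvector` = `LRSpec.rbe_exists_modp_eigenvector`;
* `emp_lat_finite`, `emp_lat_toC`, `emp_lat_span`, `emp_lat_modp` = `LRSpec.lat_*`.
-/

set_option autoImplicit false

open scoped MatrixGroups
open ModularCurve.Period

namespace Fermat.Agent.S41x

/-- Exact shape of `LRSpec.rbe_exists_modp_eigenvector` (row ABS-E0). -/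
theorem emp_rbe_exists_modp_eigenvector
    {X : Type*} [AddCommGroup X] [Module.Finite ℤ X]
    {V : Type*} [AddCommGroup V] [Module ℂ V]
    (j : X →+ V) (hjinj : Function.Injective j) (hspan : Submodule.span ℂ (Set.range j) = ⊤)
    {ι : Type*} (TX : ι → X →+ X) (TV : ι → Module.End ℂ V)
    (hcomm : ∀ i k, Commute (TV i) (TV k)) (hj : ∀ i x, j (TX i x) = TV i (j x))
    (v : V) (hv : v ≠ 0) (b : ι → integralClosure ℤ ℂ)
    (hev : ∀ i, TV i v = ((b i : integralClosure ℤ ℂ) : ℂ) • v)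
    (𝔪 : Ideal (integralClosure ℤ ℂ)) (h𝔪 : 𝔪.IsMaximal) (p : ℕ) (hp : p.Prime)
    (hpm : (p : integralClosure ℤ ℂ) ∈ 𝔪)
    (a : ι → ℤ) (hab : ∀ i, b i - (a i : integralClosure ℤ ℂ) ∈ 𝔪) :
    ∃ x : X, (¬ ∃ z, x = (p : ℤ) • z) ∧ ∀ i, ∃ z, TX i x - a i • x = (p : ℤ) • z := by
  have hcommX : ∀ i k, (TX i).toIntLinearMap * (TX k).toIntLinearMap =
      (TX k).toIntLinearMap * (TX i).toIntLinearMap := by
    intro i k
    refine LinearMap.ext fun x => hjinj ?_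
    show j (TX i (TX k x)) = j (TX k (TX i x))
    rw [hj, hj, hj, hj]
    exact congrArg (fun T : Module.End ℂ V => T (j x)) (hcomm i k).eq
  exact emp_exists_mod_p_eigen (fun i => (TX i).toIntLinearMap) hcommX TV j
    (fun i x => hj i x) hspan v hv (fun i => ((b i : integralClosure ℤ ℂ) : ℂ)) hev 𝔪
    h𝔪.ne_top hp.ne_zero hpm a (fun i => ⟨b i, rfl, hab i⟩)

section LAT

variable (Γ : Subgroup SL(2, ℤ))

theorem emp_fg_of_finiteIndex [Γ.FiniteIndex] : Group.FG Γ := by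
  have := emp_fg_SL2Z
  exact Subgroup.fg_of_index_ne_zero _

/-- `LRSpec.lat_finite` -/
theorem emp_lat_finite [Γ.FiniteIndex] : Module.Finite ℤ (parabolicHoms ℤ Γ ℤ) := by
  have := emp_fg_of_finiteIndex Γ
  exact emp_finite_parabolicHoms Γ

/-- `LRSpec.lat_toC`: the map `Hom(Γ, ℤ) → Hom(Γ, ℂ)` -/
def emp_lat_toC (x : Additive Γ →+ ℤ) : Additive Γ →+ ℂ := (Int.castAddHom ℂ).comp x

@[simp] theorem emp_lat_toC_apply (x : Additive Γ →+ ℤ) (g : Additive Γ) :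
    emp_lat_toC Γ x g = ((x g : ℤ) : ℂ) := rfl

/-- `LRSpec.lat_span`: `Hom_par(Γ, ℂ)` is spanned over `ℂ` by `Hom_par(Γ, ℤ)` -/
theorem emp_lat_span [Γ.FiniteIndex] (φ : Additive Γ →+ ℂ) (hφ : φ ∈ parabolicHoms ℂ Γ ℂ) :
    φ ∈ Submodule.span ℂ (Set.range fun x : parabolicHoms ℤ Γ ℤ => emp_lat_toC Γ x.1) := by
  classical
  have := emp_fg_of_finiteIndex Γ
  obtain ⟨J, _, lam, φj, hsum, hvan⟩ := emp_exists_integral_decomposition φ
  have hpar : ∀ j, φj j ∈ parabolicHoms ℤ Γ ℤ := fun j γ hγ => hvan _ (hφ γ hγ) j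
  have h : φ = ∑ j, lam j • emp_lat_toC Γ (φj j) := by
    refine DFunLike.ext _ _ fun g => ?_
    rw [hsum g, AddMonoidHom.finsetSum_apply]
    refine Finset.sum_congr rfl fun j _ => ?_
    rw [AddMonoidHom.smul_apply, emp_lat_toC_apply, smul_eq_mul]
  rw [h]
  exact Submodule.sum_mem _ fun j _ =>
    Submodule.smul_mem _ _ (Submodule.subset_span ⟨⟨φj j, hpar j⟩, rfl⟩)

/-- `LRSpec.lat_modp`: `Hom_par(Γ, ℤ)/p ↪ Hom(Γ, ℤ/p)` -/
theorem emp_lat_modp (p : ℕ) (hp : p ≠ 0) (x : Additive Γ →+ ℤ) (hx : x ∈ parabolicHoms ℤ Γ ℤ)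
    (h : ∀ γ, (p : ℤ) ∣ x γ) : ∃ x' ∈ parabolicHoms ℤ Γ ℤ, x = (p : ℤ) • x' := by
  have hp' : (p : ℤ) ≠ 0 := by exact_mod_cast hp
  let x' : Additive Γ →+ ℤ :=
    { toFun := fun γ => x γ / (p : ℤ)
      map_zero' := by simp
      map_add' := fun γ δ => by
        show x (γ + δ) / (p : ℤ) = x γ / (p : ℤ) + x δ / (p : ℤ)
        rw [map_add, Int.add_ediv_of_dvd_left (h γ)] }
  refine ⟨x', fun γ hγ => ?_, ?_⟩
  · show x (Additive.ofMul γ) / (p : ℤ) = 0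
    rw [hx γ hγ, Int.zero_ediv]
  · refine DFunLike.ext _ _ fun γ => ?_
    show x γ = (p : ℤ) • (x γ / (p : ℤ))
    rw [smul_eq_mul, Int.mul_ediv_cancel' (h γ)]

end LAT

end Fermat.Agent.S41x
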