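/-
S41 project (level raising), block E, Eichler–Shimura bridge, OUTPUT side (helper95):
a nonzero parabolic class `φ ∈ Hom(Γ₀(M), ℂ)` which is a common eigenvector of all the
cohomological Hecke operators `S16x.cohOpGen M ℓ` (`= T_ℓ` for `ℓ ∤ M`, `U_ℓ` for `ℓ ∣ M`)
comes from a NORMALISED EIGENFORM `g ∈ S₂(Γ₀(M))` whose prime-indexed `q`-coefficients are the
eigenvalues.

Ingredients: S21 (`periodHomPair` injective with range the parabolic classes),
`S16x.periodHomPair_heckeFormsGen` (Hecke-equivariance), `S49x.normalized_of_eigen`.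
-/
import Fermat.Agent.S21
import Fermat.Agent.S16x.CohEquiv
import Fermat.Agent.S49x.EigenToNormalized

set_option autoImplicit false

namespace Fermat.Agent.S41x

open CongruenceSubgroup ModularFormClass CuspForm ModularCurve
open Fermat.Agent.S16x

/-- the Prelude Hecke generator as `T_ℓ` -/
theorem esb_heckeFormsGen_apply_of_not_dvd (M : ℕ) [NeZero M] {ℓ : ℕ} (hℓ : ℓ.Prime)
    (hℓM : ¬ ℓ ∣ M) (f : CuspForm (Gamma0 M) 2) :
    ((heckeFormsGen M 2 ⟨ℓ, hℓ⟩ : heckeAlgebra M 2 ∅) :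
        Module.End ℂ (CuspForm (Gamma0 M) 2)) f = CuspForm.heckeTLin 2 hℓ hℓM f := by
  rw [heckeFormsGen_of_not_dvd (N := M) (k := 2) (ℓ := ⟨ℓ, hℓ⟩) hℓM]
  rfl

/-- the Prelude Hecke generator as `U_ℓ` -/
theorem esb_heckeFormsGen_apply_of_dvd (M : ℕ) [NeZero M] {ℓ : ℕ} (hℓ : ℓ.Prime)
    (hℓM : ℓ ∣ M) (f : CuspForm (Gamma0 M) 2) :
    ((heckeFormsGen M 2 ⟨ℓ, hℓ⟩ : heckeAlgebra M 2 ∅) :
        Module.End ℂ (CuspForm (Gamma0 M) 2)) f = CuspForm.heckeULin 2 hℓM f := by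
  rw [heckeFormsGen_of_dvd (N := M) (k := 2) (q := ⟨ℓ, hℓ⟩) hℓM]
  rfl

/-- a common eigenvector (for all Prelude Hecke generators) gives a normalised eigenform -/
theorem esb_normalized_of_gen_eigen (M : ℕ) [NeZero M] (f : CuspForm (Gamma0 M) 2) (hf : f ≠ 0)
    (c : ℕ → ℂ)
    (heig : ∀ ℓ : Nat.Primes, ((heckeFormsGen M 2 ℓ : heckeAlgebra M 2 ∅) :
        Module.End ℂ (CuspForm (Gamma0 M) 2)) f = c ℓ • f) :
    ∃ g : CuspForm (Gamma0 M) 2, g.IsNormalizedEigenform ∧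
      ∀ ℓ : ℕ, ℓ.Prime → qCoeff g ℓ = c ℓ := by
  obtain ⟨-, h2, h3⟩ := S49x.normalized_of_eigen f hf c
    (fun ℓ hℓ hℓM => by
      rw [← esb_heckeFormsGen_apply_of_not_dvd M hℓ hℓM f]
      exact heig ⟨ℓ, hℓ⟩)
    (fun q hq hqM => by
      rw [← esb_heckeFormsGen_apply_of_dvd M hq hqM f]
      exact heig ⟨q, hq⟩)
  exact ⟨_, h2, h3⟩

/-- **E-out**: a nonzero parabolic common eigenvector of the cohomological Hecke operators at
level `M` comes from a normalised eigenform with the same eigenvalues. -/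
theorem esb_out (M : ℕ) [NeZero M] (φ : Additive (Gamma0 M) →+ ℂ) (hφ : φ ≠ 0)
    (hpar : ModularCurve.Period.IsParabolicHom (Gamma0 M) φ) (c : ℕ → ℂ)
    (heig : ∀ ℓ : Nat.Primes, cohOpGen M ℓ φ = c ℓ • φ) :
    ∃ g : CuspForm (Gamma0 M) 2, g.IsNormalizedEigenform ∧
      ∀ ℓ : ℕ, ℓ.Prime → qCoeff g ℓ = c ℓ := by
  obtain ⟨hinj, hrange⟩ := Fermat.Agent.S21.result M
  have hmem : φ ∈ LinearMap.range (periodHomPair M) := by
    rw [hrange]
    exact hpar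
  obtain ⟨⟨f₁, f₂⟩, hf⟩ := hmem
  -- equivariance + injectivity: both components are eigenvectors
  have hcomp : ∀ ℓ : Nat.Primes,
      (((heckeFormsGen M 2 ℓ : heckeAlgebra M 2 ∅) :
          Module.End ℂ (CuspForm (Gamma0 M) 2)) f₁,
        ((heckeFormsGen M 2 ℓ : heckeAlgebra M 2 ∅) :
          Module.End ℂ (CuspForm (Gamma0 M) 2)) f₂) = (c ℓ • f₁, c ℓ • f₂) := by
    intro ℓ
    apply hinj
    rw [periodHomPair_heckeFormsGen, hf, heig ℓ, ← hf, ← Prod.smul_mk, map_smul]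
  have hne : f₁ ≠ 0 ∨ f₂ ≠ 0 := by
    by_contra hcon
    rw [not_or, not_not, not_not] at hcon
    apply hφ
    rw [← hf, hcon.1, hcon.2]
    exact map_zero _
  rcases hne with h1 | h2
  · exact esb_normalized_of_gen_eigen M f₁ h1 c (fun ℓ => (Prod.ext_iff.mp (hcomp ℓ)).1)
  · exact esb_normalized_of_gen_eigen M f₂ h2 c (fun ℓ => (Prod.ext_iff.mp (hcomp ℓ)).2)

end Fermat.Agent.S41x
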