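/-
S41 project (level raising), block E, Eichler–Shimura bridge, INPUT side (helper95):

* `esb_isEigensystem_of_isRecursive` : formal converse of `S49x.isRecursive_of_isEigensystem`
  (a multiplicative sequence with the prime-power recursions and `a 0 = 0` satisfies the Hecke
  relation `a (ℓ n) + e ℓ · a (n / ℓ) = a ℓ · a n`);
* `esb_hecke_of_normalized` : a NORMALISED EIGENFORM in the Prelude sense (identities between
  `q`-coefficients) is an eigenvector of every Prelude Hecke generator `heckeFormsGen N 2 ℓ`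
  (`= T_ℓ` for `ℓ ∤ N`, `U_ℓ` for `ℓ ∣ N`) with eigenvalue `qCoeff f ℓ` (`q`-expansion principle);
* `esb_in` : the class `φ := periodHomPair N (f, 0) ∈ Hom(Γ₀(N), ℂ)` is nonzero, parabolic, and
  an eigenvector of every cohomological Hecke operator `S16x.cohOpGen N ℓ` with eigenvalue
  `qCoeff f ℓ`.
-/
import Fermat.Agent.S41x.EsbOut
import Fermat.Prelude.Def_FLTPrelim_ModularRep

set_option autoImplicit false

namespace Fermat.Agent.S41x

open CongruenceSubgroup ModularFormClass CuspForm ModularCurve FormalHecke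
open Fermat.Agent.S16x

/-- formal converse of `S49x.isRecursive_of_isEigensystem` -/
theorem esb_isEigensystem_of_isRecursive {R : Type*} [CommRing R] {e a : ℕ → R}
    (h : IsRecursive e a) (h0 : a 0 = 0) : IsEigensystem e a := by
  obtain ⟨h1, hmul, hrec⟩ := h
  refine ⟨h1, fun ℓ hℓ n => ?_⟩
  rcases Nat.eq_zero_or_pos n with rfl | hn
  · simp [h0]
  obtain ⟨r, m, hm, rfl⟩ := Nat.exists_eq_pow_mul_and_not_dvd hn.ne' ℓ hℓ.ne_one
  have hcop : ∀ k : ℕ, (ℓ ^ k).Coprime m := fun k =>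
    ((Nat.Prime.coprime_iff_not_dvd hℓ).2 hm).pow_left k
  have hfirst : a (ℓ * (ℓ ^ r * m)) = a (ℓ ^ (r + 1)) * a m := by
    rw [← hmul _ _ (hcop (r + 1))]
    congr 1
    ring
  rw [hfirst, hmul _ _ (hcop r)]
  rcases r with _ | s
  · have hnd : ¬ ℓ ∣ ℓ ^ 0 * m := by simpa using hm
    rw [if_neg hnd]
    simp [h1]
  · have hd : ℓ ∣ ℓ ^ (s + 1) * m := Dvd.dvd.mul_right (dvd_pow_self ℓ (Nat.succ_ne_zero s)) m
    have hdiv : ℓ ^ (s + 1) * m / ℓ = ℓ ^ s * m := by
      rw [pow_succ, mul_comm (ℓ ^ s) ℓ, mul_assoc, Nat.mul_div_cancel_left _ hℓ.pos]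
    rw [if_pos hd, hdiv, hmul _ _ (hcop s), hrec ℓ s hℓ]
    ring

variable {N : ℕ}

/-- `q`-coefficients of a difference of cusp forms -/
theorem esb_qCoeff_sub (f g : CuspForm (Gamma0 N) 2) (n : ℕ) :
    qCoeff (⇑(f - g)) n = qCoeff f n - qCoeff g n := by
  have h := ModularForm.qExpansion_sub (h := 1) one_pos
    (CongruenceSubgroup.one_mem_strictPeriods_Gamma0 N) f g
  rw [qCoeff, FunLike.coe_sub, h, qCoeff, qCoeff]
  simp

/-- cusp forms with the same `q`-coefficients are equal -/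
theorem esb_ext_qCoeff (f g : CuspForm (Gamma0 N) 2) (h : ∀ n, qCoeff f n = qCoeff g n) :
    f = g := by
  rw [← sub_eq_zero]
  apply S49x.cuspForm_eq_zero_of_qCoeff
  intro n
  rw [esb_qCoeff_sub, h n, sub_self]

/-- the `q`-coefficients of a normalised eigenform form a formal eigensystem -/
theorem esb_isEigensystem_of_normalized {f : CuspForm (Gamma0 N) 2}
    (hf : f.IsNormalizedEigenform) :
    IsEigensystem (S49x.eLevel N) (fun n => qCoeff f n) := by
  apply esb_isEigensystem_of_isRecursive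
  · refine ⟨hf.qCoeff_one, hf.qCoeff_mul_of_coprime, fun ℓ r hℓ => ?_⟩
    by_cases hd : ℓ ∣ N
    · simp only [S49x.eLevel, if_pos hd, zero_mul, sub_zero]
      exact hf.qCoeff_prime_pow_of_dvd ℓ r hℓ hd
    · simp only [S49x.eLevel, if_neg hd]
      exact hf.qCoeff_prime_pow_of_not_dvd ℓ r hℓ hd
  · exact S49x.qCoeff_zero_cuspForm f

/-- a normalised eigenform is an eigenvector of `T_ℓ`, `ℓ ∤ N` -/
theorem esb_heckeTLin_of_normalized [NeZero N] {f : CuspForm (Gamma0 N) 2}
    (hf : f.IsNormalizedEigenform) {ℓ : ℕ} (hℓ : ℓ.Prime) (hℓN : ¬ ℓ ∣ N) :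
    CuspForm.heckeTLin 2 hℓ hℓN f = qCoeff f ℓ • f := by
  apply esb_ext_qCoeff
  intro n
  have h := (esb_isEigensystem_of_normalized hf).2 ℓ hℓ n
  simp only [S49x.eLevel, if_neg hℓN] at h
  rw [S49x.qCoeff_heckeTLin_two, S49x.qCoeff_smul_cuspForm, ← h, mul_comm n ℓ]
  split_ifs <;> ring

/-- a normalised eigenform is an eigenvector of `U_q`, `q ∣ N` -/
theorem esb_heckeULin_of_normalized [NeZero N] {f : CuspForm (Gamma0 N) 2}
    (hf : f.IsNormalizedEigenform) {q : ℕ} (hq : q.Prime) (hqN : q ∣ N) :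
    CuspForm.heckeULin 2 hqN f = qCoeff f q • f := by
  apply esb_ext_qCoeff
  intro n
  have h := (esb_isEigensystem_of_normalized hf).2 q hq n
  simp only [S49x.eLevel, if_pos hqN, zero_mul, add_zero] at h
  rw [S49x.qCoeff_heckeULin_two f hq, S49x.qCoeff_smul_cuspForm, ← h, mul_comm n q]

/-- **E-in (a)**: a normalised eigenform is an eigenvector of every Prelude Hecke generator. -/
theorem esb_hecke_of_normalized (N : ℕ) [NeZero N] {f : CuspForm (Gamma0 N) 2}
    (hf : f.IsNormalizedEigenform) (ℓ : Nat.Primes) :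
    ((heckeFormsGen N 2 ℓ : heckeAlgebra N 2 ∅) :
        Module.End ℂ (CuspForm (Gamma0 N) 2)) f = qCoeff f (ℓ : ℕ) • f := by
  obtain ⟨ℓ, hℓ⟩ := ℓ
  by_cases hd : ℓ ∣ N
  · rw [esb_heckeFormsGen_apply_of_dvd N hℓ hd]
    exact esb_heckeULin_of_normalized hf hℓ hd
  · rw [esb_heckeFormsGen_apply_of_not_dvd N hℓ hd]
    exact esb_heckeTLin_of_normalized hf hℓ hd

/-- **E-in (b)**: the cohomology class of a normalised eigenform. -/
theorem esb_in (N : ℕ) [NeZero N] {f : CuspForm (Gamma0 N) 2} (hf : f.IsNormalizedEigenform) :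
    periodHomPair N (f, 0) ≠ 0 ∧
      ModularCurve.Period.IsParabolicHom (Gamma0 N) (periodHomPair N (f, 0)) ∧
      ∀ ℓ : Nat.Primes, cohOpGen N ℓ (periodHomPair N (f, 0)) =
        qCoeff f (ℓ : ℕ) • periodHomPair N (f, 0) := by
  obtain ⟨hinj, hrange⟩ := Fermat.Agent.S21.result N
  refine ⟨?_, ?_, fun ℓ => ?_⟩
  · intro h0
    have h : ((f, 0) : CuspForm (Gamma0 N) 2 × CuspForm (Gamma0 N) 2) = 0 :=
      hinj (h0.trans (map_zero _).symm)
    exact hf.ne_zero (Prod.ext_iff.mp h).1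
  · have hmem : periodHomPair N (f, 0) ∈ LinearMap.range (periodHomPair N) := ⟨_, rfl⟩
    rw [hrange] at hmem
    exact hmem
  · rw [← periodHomPair_heckeFormsGen, esb_hecke_of_normalized N hf ℓ, map_zero,
      ← map_smul]
    congr 1
    ext : 1
    · rfl
    · simp

end Fermat.Agent.S41x
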