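/-
S41 BRIDGE side project, row FD-DI (helper92), part 1: abstract Frobenius lifting inside a closed
subgroup.  `G` profinite acting continuously on a discrete ring `B` (integral over `ℤ`), `H ≤ G`
closed, `Q` a maximal ideal of `B` containing the prime number `ℓ`.  If `a ^ ℓ ≡ a (mod Q)` for
every `H`-invariant `a`, then some `h ∈ H` stabilises `Q` and induces `x ↦ x ^ ℓ` on `B ⧸ Q`.
-/
import Mathlib
import Fermat.Agent.S13x.InertiaLift

set_option autoImplicit false

namespace Fermat.Agent.S41x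

open scoped Pointwise
open Fermat.Agent.S13x

section Abstract

variable {B : Type*} [CommRing B]

/-- the Frobenius of a residue field of a ring integral over `ℤ` is bijective -/
theorem fddi_frobenius_bijective [Algebra.IsIntegral ℤ B] (Q : Ideal B) [hQ : Q.IsMaximal]
    (ℓ : ℕ) [Fact ℓ.Prime] [CharP (B ⧸ Q) ℓ] :
    Function.Bijective (frobenius (B ⧸ Q) ℓ) := by
  let _ : Field (B ⧸ Q) := Ideal.Quotient.field Q
  let _ : Algebra (ZMod ℓ) (B ⧸ Q) := ZMod.algebra _ ℓ
  have halg : Algebra.IsAlgebraic (ZMod ℓ) (B ⧸ Q) := by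
    refine ⟨fun x ↦ ?_⟩
    obtain ⟨b, rfl⟩ := Ideal.Quotient.mk_surjective x
    have h1 : IsIntegral ℤ b := Algebra.IsIntegral.isIntegral b
    have h2 : IsIntegral ℤ (Ideal.Quotient.mk Q b) := h1.map (Ideal.Quotient.mkₐ ℤ Q)
    exact (h2.tower_top (A := ZMod ℓ)).isAlgebraic
  have : PerfectField (B ⧸ Q) := Algebra.IsAlgebraic.perfectField (K := ZMod ℓ)
  exact bijective_frobenius (B ⧸ Q) ℓ

variable {G : Type*} [Group G] [MulSemiringAction G B]
  [TopologicalSpace G] [CompactSpace G] [TotallyDisconnectedSpace G] [IsTopologicalGroup G]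
  [TopologicalSpace B] [DiscreteTopology B] [ContinuousSMul G B]

theorem fddi_exists_frob_in [Algebra.IsIntegral ℤ B] (H : Subgroup G) (hH : IsClosed (H : Set G))
    (Q : Ideal B) [hQ : Q.IsMaximal] (ℓ : ℕ) (hℓ : ℓ.Prime) (hℓQ : (ℓ : B) ∈ Q)
    (hfix : ∀ a : B, (∀ n ∈ H, n • a = a) → a ^ ℓ - a ∈ Q) :
    ∃ h ∈ H, h • Q = Q ∧ ∀ b : B, h • b - b ^ ℓ ∈ Q := by
  have : CompactSpace H := isCompact_iff_compactSpace.mp hH.isCompact
  have := il_isInvariant (B := B) H
  have : Fact ℓ.Prime := ⟨hℓ⟩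
  have : CharP (B ⧸ Q) ℓ := by
    rw [CharP.charP_iff_prime_eq_zero hℓ]
    have : ((ℓ : B) : B ⧸ Q) = 0 := Ideal.Quotient.eq_zero_iff_mem.mpr hℓQ
    simpa using this
  let frobHom : (B ⧸ Q) →ₐ[(FixedPoints.subalgebra ℤ B H) ⧸
      (Q.under (FixedPoints.subalgebra ℤ B H))] (B ⧸ Q) :=
    { frobenius (B ⧸ Q) ℓ with
      commutes' := by
        intro x
        obtain ⟨a, rfl⟩ := Ideal.Quotient.mk_surjective x
        have ha : ∀ n ∈ H, n • (a : B) = a := fun n hn ↦ a.2 ⟨n, hn⟩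
        have h1 := hfix a ha
        show (Ideal.Quotient.mk Q (a : B)) ^ ℓ = Ideal.Quotient.mk Q (a : B)
        rw [← map_pow]
        exact Ideal.Quotient.eq.mpr h1 }
  have hbij : Function.Bijective frobHom := fddi_frobenius_bijective Q ℓ
  obtain ⟨⟨h, hhQ⟩, hh⟩ := Ideal.Quotient.stabilizerHom_surjective_of_profinite (G := H)
    (Q.under (FixedPoints.subalgebra ℤ B H)) Q (AlgEquiv.ofBijective frobHom hbij)
  refine ⟨h, h.2, ?_, fun b => ?_⟩
  · exact hhQ
  · have h1 := DFunLike.congr_fun hh (Ideal.Quotient.mk Q b)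
    rw [Ideal.Quotient.stabilizerHom_apply] at h1
    have h3 : Ideal.Quotient.mk Q ((h : G) • b) = (Ideal.Quotient.mk Q b) ^ ℓ := by
      refine Eq.trans ?_ (h1.trans ?_)
      · rfl
      · simp [frobHom, frobenius_def]
    rw [← map_pow] at h3
    exact Ideal.Quotient.eq.mp h3

end Abstract

end Fermat.Agent.S41x
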