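/-
S41 BRIDGE side project, row FD-DI (helper92), part 2: the number field side.
From the statement of row FD-AN (infinitely many degree-one primes of `K` which do not split
completely in the Galois extension `L/K`) we extract a degree-one prime `v` of `K`, prime to a
given integer `M`, and a prime `w` of `L` over it with residue degree `≠ 1`
(finitely many primes ramify: they divide the different).
-/
import Mathlib
import Fermat.Agent.S14x.Defs

set_option autoImplicit false

namespace Fermat.Agent.S41x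

open NumberField IsDedekindDomain
open Fermat.Agent.S14x

/-- the statement of row FD-AN of the S41 bridge (Frobenius density, analytic part) -/
def FddiANStatement : Prop :=
  ∀ (K L : Type) [Field K] [NumberField K] [Field L] [NumberField L] [Algebra K L]
    [IsGalois K L] (_ : 2 ≤ Module.finrank K L),
    {v : HeightOneSpectrum (𝓞 K) | (Ideal.absNorm v.asIdeal).Prime ∧
      ¬ ∀ w : HeightOneSpectrum (𝓞 L), w.asIdeal.under (𝓞 K) = v.asIdeal →
          Ideal.ramificationIdx w.asIdeal (𝓞 K) = 1 ∧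
          Ideal.inertiaDeg w.asIdeal (𝓞 K) = 1}.Infinite

section NF

variable (K L : Type) [Field K] [NumberField K] [Field L] [NumberField L] [Algebra K L]

/-- the prime of `K` under a prime of `L` -/
noncomputable def fddiUnder (w : Pl L) : Pl K :=
  ⟨w.asIdeal.under (𝓞 K), inferInstance, Ideal.under_ne_bot _ w.ne_bot⟩

theorem fddi_finite_dvd (M : ℕ) (hM : 0 < M) : {v : Pl K | (M : 𝓞 K) ∈ v.asIdeal}.Finite := by
  have hM' : Ideal.span {(M : 𝓞 K)} ≠ ⊥ := by
    rw [Ne, Ideal.span_singleton_eq_bot]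
    exact_mod_cast hM.ne'
  refine (Ideal.finite_factors hM').subset ?_
  intro v hv
  simp only [Set.mem_ofPred_eq] at hv ⊢
  rw [Ideal.dvd_span_singleton]
  exact hv

theorem fddi_finite_ramified :
    {v : Pl K | ∃ w : Pl L, w.asIdeal.under (𝓞 K) = v.asIdeal ∧
      Ideal.ramificationIdx w.asIdeal (𝓞 K) ≠ 1}.Finite := by
  have hbadW : {w : Pl L | w.asIdeal ∣ differentIdeal (𝓞 K) (𝓞 L)}.Finite :=
    Ideal.finite_factors differentIdeal_ne_bot
  refine (hbadW.image (fddiUnder K L)).subset ?_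
  rintro v ⟨w, hwv, hw⟩
  refine ⟨w, ?_, ?_⟩
  · simp only [Set.mem_ofPred_eq]
    by_contra hcon
    apply hw
    have h1 : Algebra.IsUnramifiedAt (𝓞 K) w.asIdeal := not_dvd_differentIdeal_iff.mp hcon
    exact Ideal.ramificationIdx_eq_one_of_isUnramifiedAt
  · exact HeightOneSpectrum.ext hwv

theorem fddi_exists_good_prime (hAN : FddiANStatement) [IsGalois K L]
    (hdeg : 2 ≤ Module.finrank K L) (M : ℕ) (hM : 0 < M) :
    ∃ (v : Pl K) (w : Pl L), w.asIdeal.under (𝓞 K) = v.asIdeal ∧
      (Ideal.absNorm v.asIdeal).Prime ∧ ¬ (Ideal.absNorm v.asIdeal) ∣ M ∧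
      Ideal.inertiaDeg w.asIdeal (𝓞 K) ≠ 1 := by
  have hinf := hAN K L hdeg
  obtain ⟨v, hv, hvbad⟩ :=
    (hinf.sdiff ((fddi_finite_dvd K M hM).union (fddi_finite_ramified K L))).nonempty
  obtain ⟨hvprime, hvsplit⟩ := hv
  rw [Set.mem_union, not_or] at hvbad
  obtain ⟨hvM, hvram⟩ := hvbad
  push Not at hvsplit
  obtain ⟨w, hwv, hw⟩ := hvsplit
  refine ⟨v, w, hwv, hvprime, ?_, ?_⟩
  · intro hdvd
    apply hvM
    obtain ⟨c, hc⟩ := hdvd
    show (M : 𝓞 K) ∈ v.asIdeal
    rw [hc, Nat.cast_mul]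
    exact v.asIdeal.mul_mem_right _ (Ideal.absNorm_mem v.asIdeal)
  · intro hf
    have he : Ideal.ramificationIdx w.asIdeal (𝓞 K) = 1 := by
      by_contra hne
      exact hvram ⟨w, hwv, hne⟩
    exact hw he hf

end NF

end Fermat.Agent.S41x
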