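/-
S41 BRIDGE side project, row FD-DI (helper92), part 3: the dictionary.
`L/ℚ` finite Galois inside `ℚ̄`, `g ∈ G_ℚ` with `g ∉ Gal(ℚ̄/L)`, `g ^ r ∈ Gal(ℚ̄/L)`:
there is a prime `ℓ ∤ M`, a valuation subring `A` of `ℚ̄` over `ℓ` and a Frobenius element `φ` at `A`
whose restriction to `L` is `g ^ k` with `r ∤ k`.
(`K = L^{<g>}`; a degree-one prime `v` of `K`, unramified and not split in `L`; `Q` a prime of the
ring of all algebraic integers over a prime `w | v` of `L`; Frobenius lifting inside the closed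
subgroup `Gal(ℚ̄/K)`; `φ|_L ≠ 1` because the residue field of `w` is bigger than `𝔽_ℓ`.)
-/
import Mathlib
import Fermat.Agent.S41x.FDDictAbs
import Fermat.Agent.S41x.FDDictNF
import Fermat.Agent.S14x.DictVal
import Fermat.Agent.S54x.ValSubring

set_option autoImplicit false
set_option linter.unusedSectionVars false

namespace Fermat.Agent.S41x

open NumberField IsDedekindDomain
open scoped Pointwise
open Fermat.Agent.S13x Fermat.Agent.S14x Fermat.Agent.S54x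

noncomputable section

local notation "Ω" => AlgebraicClosure ℚ
local notation "Γ" => (AlgebraicClosure ℚ ≃ₐ[ℚ] AlgebraicClosure ℚ)
local notation "𝓑" => integralClosure ℤ (AlgebraicClosure ℚ)

section Res

variable (Lf : IntermediateField ℚ Ω) [NumberField Lf] [IsGalois ℚ Lf]

/-- restriction to `Lf` -/
def fddiRes : Γ →* (Lf ≃ₐ[ℚ] Lf) := AlgEquiv.restrictNormalHom (F := ℚ) (K₁ := Ω) Lf

theorem fddiRes_coe (σ : Γ) (x : Lf) : ((fddiRes Lf σ x : Lf) : Ω) = σ (x : Ω) :=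
  AlgEquiv.restrictNormal_commutes σ Lf x

theorem fddiRes_eq_one_iff (σ : Γ) : fddiRes Lf σ = 1 ↔ σ ∈ Lf.fixingSubgroup := by
  rw [IntermediateField.mem_fixingSubgroup_iff]
  constructor
  · intro h x hx
    have h1 := fddiRes_coe Lf σ ⟨x, hx⟩
    rw [h] at h1
    exact h1.symm
  · intro h
    apply AlgEquiv.ext
    intro x
    apply Subtype.ext
    rw [fddiRes_coe]
    exact h x x.2

end Res

section Main

variable (Lf : IntermediateField ℚ Ω) [NumberField Lf] [IsGalois ℚ Lf] (g : Γ)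

/-- the fixed field `K` of the restriction of `g` to `Lf` -/
def fddiK : IntermediateField ℚ Lf :=
  IntermediateField.fixedField (Subgroup.zpowers (fddiRes Lf g))

/-- the closed subgroup `Gal(ℚ̄/K)` of `G_ℚ` -/
def fddiH : Subgroup Γ := (Subgroup.zpowers (fddiRes Lf g)).comap (fddiRes Lf)

theorem fddi_fixing_le_H : Lf.fixingSubgroup ≤ fddiH Lf g := by
  intro σ hσ
  show fddiRes Lf σ ∈ Subgroup.zpowers _
  rw [(fddiRes_eq_one_iff Lf σ).mpr hσ]
  exact one_mem _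

theorem fddi_self_mem_H : g ∈ fddiH Lf g := by
  show fddiRes Lf g ∈ Subgroup.zpowers _
  exact Subgroup.mem_zpowers _

theorem fddiH_isClosed : IsClosed (fddiH Lf g : Set Γ) := by
  have hopen : IsOpen (fddiH Lf g : Set Γ) :=
    Subgroup.isOpen_mono (fddi_fixing_le_H Lf g) (IntermediateField.fixingSubgroup_isOpen Lf)
  exact Subgroup.isClosed_of_isOpen _ hopen

theorem fddi_two_le_finrank (hg : g ∉ Lf.fixingSubgroup) :
    2 ≤ Module.finrank (fddiK Lf g) Lf := by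
  have h1 : Module.finrank (fddiK Lf g) Lf = Nat.card (Subgroup.zpowers (fddiRes Lf g)) :=
    IntermediateField.finrank_fixedField_eq_card _
  rw [h1, Nat.card_zpowers]
  have h2 : fddiRes Lf g ≠ 1 := fun h => hg ((fddiRes_eq_one_iff Lf g).mp h)
  have h3 : 0 < orderOf (fddiRes Lf g) := orderOf_pos _
  have h4 : orderOf (fddiRes Lf g) ≠ 1 := fun h => h2 (orderOf_eq_one_iff.mp h)
  omega

/-- Fermat's little theorem modulo a prime of absolute norm `ℓ` -/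
theorem fddi_pow_sub_mem {F : Type} [Field F] [NumberField F] (v : Pl F) (ℓ : ℕ) (hℓ : ℓ.Prime)
    (hv : Ideal.absNorm v.asIdeal = ℓ) (x : 𝓞 F) : x ^ ℓ - x ∈ v.asIdeal := by
  have hmax : v.asIdeal.IsMaximal := v.isMaximal
  let _ : Field (𝓞 F ⧸ v.asIdeal) := Ideal.Quotient.field _
  have hcard : Nat.card (𝓞 F ⧸ v.asIdeal) = ℓ := by
    rw [← hv, Ideal.absNorm_apply, Submodule.cardQuot_apply]
  have : Finite (𝓞 F ⧸ v.asIdeal) := Nat.finite_of_card_ne_zero (by rw [hcard]; exact hℓ.ne_zero)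
  let _ := Fintype.ofFinite (𝓞 F ⧸ v.asIdeal)
  have h := FiniteField.pow_card (Ideal.Quotient.mk v.asIdeal x)
  rw [← Nat.card_eq_fintype_card, hcard, ← map_pow] at h
  exact Ideal.Quotient.eq.mp h

/-- if `y ^ ℓ ≡ y` modulo `w` for all integers `y` of `L`, the residue field of `w` is `𝔽_ℓ` -/
theorem fddi_inertiaDeg_eq_one_of_forall {K L : Type} [Field K] [NumberField K] [Field L]
    [NumberField L] [Algebra K L] (v : Pl K) (w : Pl L) (hwv : w.asIdeal.under (𝓞 K) = v.asIdeal)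
    (ℓ : ℕ) (hℓ : ℓ.Prime) (hv : Ideal.absNorm v.asIdeal = ℓ)
    (hall : ∀ y : 𝓞 L, y ^ ℓ - y ∈ w.asIdeal) :
    Ideal.inertiaDeg w.asIdeal (𝓞 K) = 1 := by
  have hlies : w.asIdeal.LiesOver v.asIdeal := ⟨hwv.symm⟩
  have h1 : Ideal.absNorm v.asIdeal ^ Ideal.inertiaDeg w.asIdeal (𝓞 K) = Ideal.absNorm w.asIdeal :=
    Ideal.absNorm_pow_inertiaDeg v.asIdeal w.asIdeal
  have h2 : Ideal.absNorm w.asIdeal ≤ ℓ := by
    have hmax : w.asIdeal.IsMaximal := w.isMaximal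
    let _ : Field (𝓞 L ⧸ w.asIdeal) := Ideal.Quotient.field _
    have hcard : Nat.card (𝓞 L ⧸ w.asIdeal) = Ideal.absNorm w.asIdeal := by
      rw [Ideal.absNorm_apply, Submodule.cardQuot_apply]
    have hne : Ideal.absNorm w.asIdeal ≠ 0 := by
      rw [Ne, Ideal.absNorm_eq_zero_iff]
      exact w.ne_bot
    have : Finite (𝓞 L ⧸ w.asIdeal) := Nat.finite_of_card_ne_zero (by rw [hcard]; exact hne)
    let _ := Fintype.ofFinite (𝓞 L ⧸ w.asIdeal)
    rw [← hcard, Nat.card_eq_fintype_card]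
    have hp0 : (Polynomial.X ^ ℓ - Polynomial.X : Polynomial (𝓞 L ⧸ w.asIdeal)) ≠ 0 :=
      FiniteField.X_pow_card_sub_X_ne_zero _ hℓ.one_lt
    have hsub : (Finset.univ : Finset (𝓞 L ⧸ w.asIdeal)).val ⊆
        (Polynomial.X ^ ℓ - Polynomial.X : Polynomial (𝓞 L ⧸ w.asIdeal)).roots := by
      intro x _
      rw [Polynomial.mem_roots hp0]
      obtain ⟨y, rfl⟩ := Ideal.Quotient.mk_surjective x
      simp only [Polynomial.IsRoot, Polynomial.eval_sub, Polynomial.eval_pow, Polynomial.eval_X]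
      rw [← map_pow, ← map_sub]
      exact Ideal.Quotient.eq_zero_iff_mem.mpr (hall y)
    have h3 := Polynomial.card_le_degree_of_subset_roots hsub
    rw [FiniteField.X_pow_card_sub_X_natDegree_eq _ hℓ.one_lt] at h3
    exact h3
  rw [hv] at h1
  have hpos : 0 < Ideal.inertiaDeg w.asIdeal (𝓞 K) := Ideal.inertiaDeg_pos _ _
  have h4 : ℓ ^ Ideal.inertiaDeg w.asIdeal (𝓞 K) ≤ ℓ ^ 1 := by rw [h1, pow_one]; exact h2
  have h5 := (Nat.pow_le_pow_iff_right hℓ.one_lt).mp h4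
  omega

theorem fddi_fixed_pow_sub_mem (v : Pl (fddiK Lf g)) (w : Pl Lf)
    (hwv : w.asIdeal.under (𝓞 (fddiK Lf g)) = v.asIdeal)
    (ℓ : ℕ) (hℓ : ℓ.Prime) (hv : Ideal.absNorm v.asIdeal = ℓ) (Q : Ideal 𝓑)
    (hQw : Q.comap (guJ Lf) = w.asIdeal)
    (a : 𝓑) (ha : ∀ n ∈ fddiH Lf g, n • a = a) : a ^ ℓ - a ∈ Q := by
  obtain ⟨N, -, -, hNmem, hNfix⟩ := dictv_fixing_props Lf
  -- `a` comes from `𝓞 Lf`
  have haN : ∀ n ∈ N, n • a = a := by
    intro n hn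
    apply ha n
    apply fddi_fixing_le_H Lf g
    rw [IntermediateField.mem_fixingSubgroup_iff]
    intro x hx
    exact (hNmem n).mp hn ⟨x, hx⟩
  obtain ⟨y, hy⟩ := hNfix a haN
  have hay : ((a : 𝓑) : Ω) = ((y : Lf) : Ω) := by rw [← hy]; rfl
  -- `y` is fixed by the restriction of `g`
  have hgy : fddiRes Lf g (y : Lf) = (y : Lf) := by
    apply Subtype.ext
    rw [fddiRes_coe, ← hay]
    have h1 : g • a = a := ha g (fddi_self_mem_H Lf g)
    exact congrArg Subtype.val h1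
  -- hence `y ∈ K`
  have hyK : (y : Lf) ∈ fddiK Lf g := by
    rw [fddiK, IntermediateField.mem_fixedField_iff]
    intro τ hτ
    have hle : Subgroup.zpowers (fddiRes Lf g) ≤ MulAction.stabilizer (Lf ≃ₐ[ℚ] Lf) (y : Lf) := by
      rw [Subgroup.zpowers_le]
      exact hgy
    exact hle hτ
  have hyint : IsIntegral ℤ (⟨(y : Lf), hyK⟩ : fddiK Lf g) := by
    have h1 : IsIntegral ℤ (y : Lf) := RingOfIntegers.isIntegral_coe y
    exact (isIntegral_algebraMap_iff (algebraMap (fddiK Lf g) Lf).injective).mp h1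
  let y' : 𝓞 (fddiK Lf g) := ⟨⟨(y : Lf), hyK⟩, hyint⟩
  have hy' : algebraMap (𝓞 (fddiK Lf g)) (𝓞 Lf) y' = y := RingOfIntegers.ext rfl
  have hpow : y' ^ ℓ - y' ∈ v.asIdeal := fddi_pow_sub_mem v ℓ hℓ hv y'
  have h5 : y ^ ℓ - y ∈ w.asIdeal := by
    rw [← hy', ← map_pow, ← map_sub]
    have : y' ^ ℓ - y' ∈ w.asIdeal.under (𝓞 (fddiK Lf g)) := by rw [hwv]; exact hpow
    exact this
  have h6 : guJ Lf (y ^ ℓ - y) ∈ Q := by
    have : y ^ ℓ - y ∈ Q.comap (guJ Lf) := by rw [hQw]; exact h5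
    exact this
  rwa [map_sub, map_pow, hy] at h6

/-- FD-DI for a number field `Lf ⊆ ℚ̄` Galois over `ℚ` (instances form) -/
theorem fddi_exists_frobenius_aux (hAN : FddiANStatement) (r : ℕ)
    (hgr : g ^ r ∈ Lf.fixingSubgroup) (hg : g ∉ Lf.fixingSubgroup) (M : ℕ) (hM : 0 < M) :
    ∃ (ℓ : ℕ) (A : ValuationSubring Ω) (φ : Γ) (k : ℕ), ℓ.Prime ∧ ¬ ℓ ∣ M ∧ A.LiesOverPrime ℓ ∧
      A.IsFrobeniusAt φ ℓ ∧ ¬ r ∣ k ∧ φ⁻¹ * g ^ k ∈ Lf.fixingSubgroup := by
  have hgalΩ := isGalois_Qbar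
  obtain ⟨v, w, hwv, hvprime, hvM, hf⟩ :=
    fddi_exists_good_prime (fddiK Lf g) Lf hAN (fddi_two_le_finrank Lf g hg) M hM
  set ℓ := Ideal.absNorm v.asIdeal with hℓdef
  have hℓv : (ℓ : 𝓞 (fddiK Lf g)) ∈ v.asIdeal := Ideal.absNorm_mem v.asIdeal
  have hℓw : (ℓ : 𝓞 Lf) ∈ w.asIdeal :=
    dictv_natCast_mem_of_plOver (fddiK Lf g) Lf w v hwv ℓ hℓv
  obtain ⟨Q, hQprime, hQw, hQP⟩ := dictv_exists_prime_above Lf w ℓ hvprime hℓw
  have hℓQ : (ℓ : 𝓑) ∈ Q := by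
    have : (ℓ : ℤ) ∈ Q.comap (algebraMap ℤ 𝓑) := by
      rw [hQP]; exact Ideal.mem_span_singleton_self _
    simpa using this
  have hℓ' : Prime (ℓ : ℤ) := Nat.prime_iff_prime_int.mp hvprime
  have hPmax : (Ideal.span {(ℓ : ℤ)}).IsMaximal :=
    PrincipalIdealRing.isMaximal_of_irreducible hℓ'.irreducible
  have hQmax : Q.IsMaximal :=
    Ideal.isMaximal_of_isIntegral_of_isMaximal_comap Q (by rw [hQP]; exact hPmax)
  let _ : TopologicalSpace 𝓑 := ⊥
  have : DiscreteTopology 𝓑 := ⟨rfl⟩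
  have : ContinuousSMul Γ 𝓑 := continuousSMul_iff_stabilizer_isOpen.mpr stabilizer_isOpen_B
  have hintB : @Algebra.IsIntegral ℤ 𝓑 _ _ (Ring.toIntAlgebra _) := by
    have h : (Ring.toIntAlgebra 𝓑 : Algebra ℤ 𝓑) = Subalgebra.algebra _ := Subsingleton.elim _ _
    rw [h]
    infer_instance
  obtain ⟨φ, hφH, hφQ, hφ⟩ := fddi_exists_frob_in (G := Γ) (fddiH Lf g) (fddiH_isClosed Lf g) Q ℓ
    hvprime hℓQ (fddi_fixed_pow_sub_mem Lf g v w hwv ℓ hvprime rfl Q hQw)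
  obtain ⟨A, hA, hAfrob⟩ := exists_valuationSubring_isFrobeniusAt ℓ hvprime Q hℓQ
  -- the restriction of `φ` is a power of the restriction of `g`
  have hφH' : fddiRes Lf φ ∈ Subgroup.zpowers (fddiRes Lf g) := hφH
  obtain ⟨k, hk⟩ : ∃ k : ℕ, (fddiRes Lf g) ^ k = fddiRes Lf φ := by
    have hfin : IsOfFinOrder (fddiRes Lf g) := isOfFinOrder_of_finite _
    exact (Submonoid.mem_powers_iff _ _).mp (hfin.mem_powers_iff_mem_zpowers.mpr hφH')
  refine ⟨ℓ, A, φ, k, hvprime, hvM, hA, ?_, ?_, ?_⟩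
  · apply hAfrob
    intro b
    refine ⟨φ • b - b ^ ℓ, hφ b, ?_⟩
    show φ (b : Ω) = (b : Ω) ^ ℓ + (φ (b : Ω) - (b : Ω) ^ ℓ)
    ring
  · rintro ⟨c, rfl⟩
    have h1 : fddiRes Lf φ = 1 := by
      rw [← hk, pow_mul, ← map_pow, (fddiRes_eq_one_iff Lf _).mpr hgr, one_pow]
    have hφN : φ ∈ Lf.fixingSubgroup := (fddiRes_eq_one_iff Lf φ).mp h1
    apply hf
    apply fddi_inertiaDeg_eq_one_of_forall v w hwv ℓ hvprime rfl
    intro y
    have h2 : φ • guJ Lf y = guJ Lf y := by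
      apply Subtype.ext
      show φ ((y : Lf) : Ω) = ((y : Lf) : Ω)
      exact (IntermediateField.mem_fixingSubgroup_iff Lf φ).mp hφN _ (y : Lf).2
    have h3 := hφ (guJ Lf y)
    rw [h2] at h3
    have h4 : guJ Lf (y - y ^ ℓ) ∈ Q := by rwa [map_sub, map_pow]
    have h5 : y - y ^ ℓ ∈ w.asIdeal := by rw [← hQw]; exact h4
    have h6 := w.asIdeal.neg_mem h5
    rwa [neg_sub] at h6
  · rw [← fddiRes_eq_one_iff, map_mul, map_inv, map_pow, hk, inv_mul_cancel]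

end Main

/-- **Row FD-DI**, modulo the statement of row FD-AN. -/
theorem fddi_exists_frobenius_of (hAN : FddiANStatement) (L : IntermediateField ℚ Ω)
    (hfd : FiniteDimensional ℚ L) (hnorm : ∀ σ : Γ, ∀ x ∈ L, σ x ∈ L)
    (g : Γ) (r : ℕ) (hgr : g ^ r ∈ L.fixingSubgroup) (hg : g ∉ L.fixingSubgroup)
    (M : ℕ) (hM : 0 < M) :
    ∃ (ℓ : ℕ) (A : ValuationSubring Ω) (φ : Γ) (k : ℕ), ℓ.Prime ∧ ¬ ℓ ∣ M ∧ A.LiesOverPrime ℓ ∧
      A.IsFrobeniusAt φ ℓ ∧ ¬ r ∣ k ∧ φ⁻¹ * g ^ k ∈ L.fixingSubgroup := by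
  have hgalΩ := isGalois_Qbar
  have hnormΩ : Normal ℚ Ω := hgalΩ.to_normal
  have hnf : NumberField L := { to_charZero := inferInstance, to_finiteDimensional := hfd }
  have hnormal : Normal ℚ L := by
    show @Normal ℚ L _ _ (IntermediateField.algebra' L)
    rw [IntermediateField.normal_iff_forall_map_le']
    rintro σ _ ⟨x, hx, rfl⟩
    exact hnorm σ x hx
  have hgal : IsGalois ℚ L := ⟨⟩
  exact fddi_exists_frobenius_aux L g hAN r hgr hg M hM

end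

end Fermat.Agent.S41x
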