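/-
S41 BRIDGE side project, row FD-DI (helper92), final wiring (spare of helper90's
`FDDictBFinal.lean`): `fddi_exists_frobenius` = the statement of `BridgeSpec.brfd_exists_frobenius`,
unconditional (helper70's `FDAnalytic.brfd_nf_infinite_nonsplit` fed into `FDDict`).
-/
import Fermat.Agent.S41x.FDDict
import Fermat.Agent.S41x.FDAnalytic

set_option autoImplicit false

namespace Fermat.Agent.S41x

theorem fddi_ANStatement_holds : FddiANStatement :=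
  fun K L _ _ _ _ _ _ hdeg => brfd_nf_infinite_nonsplit K L hdeg

theorem fddi_exists_frobenius (L : IntermediateField ℚ (AlgebraicClosure ℚ))
    (hfd : FiniteDimensional ℚ L)
    (hnorm : ∀ σ : AlgebraicClosure ℚ ≃ₐ[ℚ] AlgebraicClosure ℚ, ∀ x ∈ L, σ x ∈ L)
    (g : AlgebraicClosure ℚ ≃ₐ[ℚ] AlgebraicClosure ℚ) (r : ℕ) (_hr : r.Prime)
    (hgr : g ^ r ∈ L.fixingSubgroup) (hg : g ∉ L.fixingSubgroup)
    (M : ℕ) (hM : 0 < M) :
    ∃ (ℓ : ℕ) (A : ValuationSubring (AlgebraicClosure ℚ))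
      (φ : AlgebraicClosure ℚ ≃ₐ[ℚ] AlgebraicClosure ℚ) (k : ℕ), ℓ.Prime ∧ ¬ ℓ ∣ M ∧
      A.LiesOverPrime ℓ ∧ A.IsFrobeniusAt φ ℓ ∧ ¬ r ∣ k ∧ φ⁻¹ * g ^ k ∈ L.fixingSubgroup :=
  fddi_exists_frobenius_of fddi_ANStatement_holds L hfd hnorm g r hgr hg M hM

end Fermat.Agent.S41x
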