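/-
ROUTE S42/S29, block B9 analytic leaf (c) (helper90): REVERSE of `fdan_tsum_ge`.

For a Galois extension `L/K` of number fields of degree `n`:
* `fdnr_split_of_prime_unram` : a prime `w` of `L` of PRIME norm, unramified over `K`, lies over a prime `v` of `K` of the
  same (prime) norm which splits completely in `L`;
* `fdnr_tsum_le` : `∑_w [N w prime, e(w) = 1] N w ^ (-s) ≤ n * ∑_v [N v prime, v splits completely] N v ^ (-s)`;
* `fdnr_finite_ramified` : only finitely many primes of `L` ramify over `K`;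
* `fdnr_tsum_prime_le` : `∑_w [N w prime] N w ^ (-s) ≤ n * ∑_v [N v prime, split] N v ^ (-s) + #{w ramified}` (`0 ≤ s`).
-/
import Mathlib
import Fermat.Agent.S14x.Defs
import Fermat.Agent.S14x.FIZetaSplit
import Fermat.Agent.S41x.FDAnalytic

set_option autoImplicit false

namespace Fermat.Agent.S41x

open NumberField IsDedekindDomain Fermat.Agent.S14x

noncomputable section

variable (K L : Type) [Field K] [NumberField K] [Field L] [NumberField L] [Algebra K L]

open Classical in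
/-- weight upstairs: degree-one primes of `L` unramified over `K`. -/
def fdnrU (s : ℝ) (w : Pl L) : ℝ :=
  if (plNorm w).Prime ∧ Ideal.ramificationIdx w.asIdeal (𝓞 K) = 1 then ((plNorm w : ℕ) : ℝ) ^ (-s) else 0

open Classical in
/-- weight downstairs: degree-one primes of `K` which split completely in `L`. -/
def fdnrD (s : ℝ) (v : Pl K) : ℝ :=
  if (plNorm v).Prime ∧ SplitsCompletely K L v then ((plNorm v : ℕ) : ℝ) ^ (-s) else 0

open Classical in
/-- weight upstairs: all degree-one primes of `L`. -/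
def fdnrP (s : ℝ) (w : Pl L) : ℝ :=
  if (plNorm w).Prime then ((plNorm w : ℕ) : ℝ) ^ (-s) else 0

variable {K L}

omit [NumberField K] in
theorem fdnr_U_nonneg (s : ℝ) (w : Pl L) : 0 ≤ fdnrU K L s w := by
  unfold fdnrU
  split_ifs
  · exact Real.rpow_nonneg (Nat.cast_nonneg _) _
  · exact le_rfl

theorem fdnr_D_nonneg (s : ℝ) (v : Pl K) : 0 ≤ fdnrD K L s v := by
  unfold fdnrD
  split_ifs
  · exact Real.rpow_nonneg (Nat.cast_nonneg _) _
  · exact le_rfl

omit [NumberField K] in
theorem fdnr_U_le (s : ℝ) (w : Pl L) : fdnrU K L s w ≤ ((plNorm w : ℕ) : ℝ) ^ (-s) := by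
  unfold fdnrU
  split_ifs
  · exact le_rfl
  · exact Real.rpow_nonneg (Nat.cast_nonneg _) _

theorem fdnr_D_le (s : ℝ) (v : Pl K) : fdnrD K L s v ≤ ((plNorm v : ℕ) : ℝ) ^ (-s) := by
  unfold fdnrD
  split_ifs
  · exact le_rfl
  · exact Real.rpow_nonneg (Nat.cast_nonneg _) _

variable [IsGalois K L]

/-- a degree-one prime of `L`, unramified over `K`, lies over a degree-one prime which splits completely. -/
theorem fdnr_split_of_prime_unram {v : Pl K} {w : Pl L} (hw : PlOver K L w v)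
    (hprime : (plNorm w).Prime) (he : Ideal.ramificationIdx w.asIdeal (𝓞 K) = 1) :
    plNorm v = plNorm w ∧ SplitsCompletely K L v := by
  have hN := fzs_plNorm_over hw
  obtain ⟨hv, hf⟩ := (Nat.Prime.pow_eq_iff hprime).mp hN.symm
  refine ⟨hv, ?_⟩
  intro w' hw'
  have := fzs_liesOver hw
  have := fzs_liesOver hw'
  have e1 := Ideal.ramificationIdxIn_eq_ramificationIdx v.asIdeal w.asIdeal (L ≃ₐ[K] L)
  have e2 := Ideal.ramificationIdxIn_eq_ramificationIdx v.asIdeal w'.asIdeal (L ≃ₐ[K] L)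
  have f1 := Ideal.inertiaDegIn_eq_inertiaDeg v.asIdeal w.asIdeal (L ≃ₐ[K] L)
  have f2 := Ideal.inertiaDegIn_eq_inertiaDeg v.asIdeal w'.asIdeal (L ≃ₐ[K] L)
  exact ⟨by rw [← e2, e1, he], by rw [← f2, f1, hf]⟩

/-- local upper bound. -/
theorem fdnr_local_le (s : ℝ) (v : Pl K) :
    ∑' w : fzsOver K L v, fdnrU K L s w.1 ≤ (Module.finrank K L : ℝ) * fdnrD K L s v := by
  classical
  by_cases hv : (plNorm v).Prime ∧ SplitsCompletely K L v
  · have hD : fdnrD K L s v = ((plNorm v : ℕ) : ℝ) ^ (-s) := by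
      unfold fdnrD; rw [if_pos hv]
    have h1 : ∀ w : fzsOver K L v, fdnrU K L s w.1 ≤ ((plNorm v : ℕ) : ℝ) ^ (-s) := by
      intro w
      refine (fdnr_U_le s w.1).trans ?_
      rw [fzs_plNorm_over w.2, (hv.2 w.1 w.2).2, pow_one]
    have h2 : ∑' w : fzsOver K L v, fdnrU K L s w.1 ≤
        ∑' _w : fzsOver K L v, ((plNorm v : ℕ) : ℝ) ^ (-s) :=
      Summable.tsum_le_tsum h1 Summable.of_finite Summable.of_finite
    refine h2.trans ?_
    rw [tsum_const, fdan_card_over_of_split hv.2, nsmul_eq_mul, hD]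
  · have hD : fdnrD K L s v = 0 := by
      unfold fdnrD; rw [if_neg hv]
    have h1 : ∀ w : fzsOver K L v, fdnrU K L s w.1 = 0 := by
      intro w
      unfold fdnrU
      rw [if_neg]
      rintro ⟨hp, he⟩
      obtain ⟨hvw, hsp⟩ := fdnr_split_of_prime_unram w.2 hp he
      exact hv ⟨by rw [hvw]; exact hp, hsp⟩
    rw [tsum_congr h1, tsum_zero, hD, mul_zero]

/-- **global upper bound** (reverse of `fdan_tsum_ge`). -/
theorem fdnr_tsum_le {s : ℝ}
    (hKs : Summable (fun v : Pl K => ((plNorm v : ℕ) : ℝ) ^ (-s)))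
    (hLs : Summable (fun w : Pl L => ((plNorm w : ℕ) : ℝ) ^ (-s))) :
    Summable (fdnrU K L s) ∧ Summable (fdnrD K L s) ∧
    ∑' w : Pl L, fdnrU K L s w ≤ (Module.finrank K L : ℝ) * ∑' v : Pl K, fdnrD K L s v := by
  have hU : Summable (fdnrU K L s) :=
    Summable.of_nonneg_of_le (fdnr_U_nonneg s) (fdnr_U_le s) hLs
  have hD : Summable (fdnrD K L s) :=
    Summable.of_nonneg_of_le (fdnr_D_nonneg s) (fdnr_D_le s) hKs
  refine ⟨hU, hD, ?_⟩
  have hloc : ∀ v : Pl K, ∑' w : fzsOver K L v, fdnrU K L s w.1 ≤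
      (Module.finrank K L : ℝ) * fdnrD K L s v := fun v => fdnr_local_le s v
  generalize fdnrU K L s = b at hU hloc ⊢
  generalize fdnrD K L s = c at hD hloc ⊢
  have h1 : ∑' w : Pl L, b w = ∑' x : (Σ v : Pl K, fzsOver K L v), b x.2.1 :=
    ((fzsSigmaEquiv (F := K) (M := L)).symm.tsum_eq b).symm
  have hsum' : Summable (fun x : (Σ v : Pl K, fzsOver K L v) => b x.2.1) :=
    ((fzsSigmaEquiv (F := K) (M := L)).symm.summable_iff).mpr hU
  have h2 : ∑' x : (Σ v : Pl K, fzsOver K L v), b x.2.1 =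
      ∑' v : Pl K, ∑' w : fzsOver K L v, b w.1 :=
    hsum'.tsum_sigma' (fun v => Summable.of_finite)
  have h3 : Summable (fun v : Pl K => ∑' w : fzsOver K L v, b w.1) := hsum'.sigma
  have h4 : Summable (fun v : Pl K => (Module.finrank K L : ℝ) * c v) := hD.mul_left _
  have h5 : ∑' v : Pl K, ∑' w : fzsOver K L v, b w.1 ≤
      ∑' v : Pl K, (Module.finrank K L : ℝ) * c v :=
    Summable.tsum_le_tsum hloc h3 h4
  rw [h1, h2]
  refine h5.trans (le_of_eq ?_)
  exact tsum_mul_left

omit [IsGalois K L] in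
/-- only finitely many primes of `L` ramify over `K`. -/
theorem fdnr_finite_ramified :
    {w : Pl L | Ideal.ramificationIdx w.asIdeal (𝓞 K) ≠ 1}.Finite := by
  have hbadW : {w : Pl L | w.asIdeal ∣ differentIdeal (𝓞 K) (𝓞 L)}.Finite :=
    Ideal.finite_factors differentIdeal_ne_bot
  refine hbadW.subset ?_
  intro w hw
  simp only [Set.mem_ofPred_eq] at hw ⊢
  by_contra hcon
  apply hw
  have h1 : Algebra.IsUnramifiedAt (𝓞 K) w.asIdeal := not_dvd_differentIdeal_iff.mp hcon
  exact Ideal.ramificationIdx_eq_one_of_isUnramifiedAt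

omit [IsGalois K L] [NumberField K] in
theorem fdnr_P_le (s : ℝ) (hs : 0 ≤ s) (w : Pl L) :
    fdnrP L s w ≤ fdnrU K L s w +
      {w : Pl L | Ideal.ramificationIdx w.asIdeal (𝓞 K) ≠ 1}.indicator (fun _ => (1 : ℝ)) w := by
  classical
  unfold fdnrP fdnrU
  by_cases hp : (plNorm w).Prime
  · by_cases he : Ideal.ramificationIdx w.asIdeal (𝓞 K) = 1
    · rw [if_pos hp, if_pos ⟨hp, he⟩, Set.indicator_of_notMem (by simpa using he)]
      simp
    · rw [if_pos hp, if_neg (fun h => he h.2), Set.indicator_of_mem (by simpa using he), zero_add]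
      exact fzs_rpow_neg_le_one w hs
  · rw [if_neg hp, if_neg (fun h => hp h.1)]
    rw [zero_add]
    exact Set.indicator_nonneg (fun _ _ => zero_le_one) w

/-- **degree-one prime sum of `L` vs split degree-one prime sum of `K`**. -/
theorem fdnr_tsum_prime_le {s : ℝ} (hs : 0 ≤ s)
    (hKs : Summable (fun v : Pl K => ((plNorm v : ℕ) : ℝ) ^ (-s)))
    (hLs : Summable (fun w : Pl L => ((plNorm w : ℕ) : ℝ) ^ (-s))) :
    Summable (fdnrP L s) ∧
    ∑' w : Pl L, fdnrP L s w ≤ (Module.finrank K L : ℝ) * ∑' v : Pl K, fdnrD K L s v +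
      (Nat.card {w : Pl L | Ideal.ramificationIdx w.asIdeal (𝓞 K) ≠ 1} : ℝ) := by
  classical
  obtain ⟨hU, hD, hle⟩ := fdnr_tsum_le (K := K) (L := L) hKs hLs
  have hfin := fdnr_finite_ramified (K := K) (L := L)
  have hP : Summable (fdnrP L s) := by
    refine Summable.of_nonneg_of_le (fun w => ?_) (fun w => ?_) hLs
    · unfold fdnrP; split_ifs
      · exact Real.rpow_nonneg (Nat.cast_nonneg _) _
      · exact le_rfl
    · unfold fdnrP; split_ifs
      · exact le_rfl
      · exact Real.rpow_nonneg (Nat.cast_nonneg _) _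
  refine ⟨hP, ?_⟩
  set R : Set (Pl L) := {w : Pl L | Ideal.ramificationIdx w.asIdeal (𝓞 K) ≠ 1} with hR
  have hI : Summable (R.indicator (fun _ => (1 : ℝ))) := by
    apply summable_of_hasFiniteSupport
    exact hfin.subset (fun w hw => by
      by_contra h
      exact hw (Set.indicator_of_notMem h _))
  have h1 : ∑' w : Pl L, fdnrP L s w ≤ ∑' w : Pl L, (fdnrU K L s w + R.indicator (fun _ => (1 : ℝ)) w) :=
    Summable.tsum_le_tsum (fun w => fdnr_P_le (K := K) s hs w) hP (hU.add hI)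
  rw [Summable.tsum_add hU hI] at h1
  have h2 : ∑' w : Pl L, R.indicator (fun _ => (1 : ℝ)) w = (Nat.card R : ℝ) := by
    have := hfin.fintype
    rw [← tsum_subtype R (fun _ => (1 : ℝ)), tsum_fintype, Finset.sum_const, nsmul_eq_mul, mul_one,
      Finset.card_univ, Nat.card_eq_fintype_card]
  rw [h2] at h1
  linarith

end

end Fermat.Agent.S41x
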