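/-
S41 project, block E (forms end), leaf F2 (helper26, prefix `lrf26_`).

From a nonzero parabolic class `y ∈ Hom_par(Γ₀(M), ℂ)` which is an eigenvector of the
cohomological Hecke operators `cohOpGen M ℓ` for the primes `ℓ` in an ARBITRARY set `S` and which
satisfies `U_q² y = y` for one further prime `q`, we produce a normalised eigenform `g` of level
`M` with `a_ℓ(g) = lam ℓ` for `ℓ ∈ S` and `a_q(g)² = 1`.

Compared with the Spec row EIG-2 (`eig_exists_eigenform`, eigenvector of ALL `cohOpGen M ℓ`), no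
information on the operators outside `S ∪ {q}` is needed (in particular no stability of `ker β`
under `U_ℓ`, `ℓ ∣ N`): the common eigenvector of the remaining operators is chosen on the side of
cusp forms, where the Prelude Hecke operators commute.

Proof: S21 (`periodHomPair M` is injective with range the parabolic classes),
`S16x.periodHomPair_heckeFormsGen`, `S49x.exists_common_eigenvector_aux`,
`S49x.isNormalizedEigenform_of_common_eigenvector`.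
-/
import Fermat.Agent.S41x.FormsComm
import Fermat.Agent.S49x.EigenLift

set_option autoImplicit false

open CongruenceSubgroup ModularFormClass UpperHalfPlane ModularCurve ModularCurve.Period CuspForm

namespace Fermat.Agent.S41x

/-- abbreviation: the Prelude Hecke generator as an endomorphism of `S₂(Γ₀(M))` -/
noncomputable def lrf26_H (M : ℕ) [NeZero M] (ℓ : Nat.Primes) :
    Module.End ℂ (CuspForm (Gamma0 M) 2) :=
  ((heckeFormsGen M 2 ℓ : heckeAlgebra M 2 ∅) : Module.End ℂ (CuspForm (Gamma0 M) 2))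

theorem lrf26_H_comm (M : ℕ) [NeZero M] (ℓ ℓ' : Nat.Primes) (f : CuspForm (Gamma0 M) 2) :
    lrf26_H M ℓ (lrf26_H M ℓ' f) = lrf26_H M ℓ' (lrf26_H M ℓ f) :=
  lrf26_heckeFormsGen_comm_apply M ℓ ℓ' f

theorem lrf26_periodHomPair_H (M : ℕ) [NeZero M] (ℓ : Nat.Primes) (f g : CuspForm (Gamma0 M) 2) :
    periodHomPair M (lrf26_H M ℓ f, lrf26_H M ℓ g) = S16x.cohOpGen M ℓ (periodHomPair M (f, g)) :=
  S16x.periodHomPair_heckeFormsGen M ℓ f g

/-- transport of an eigen-equation from cohomology to forms -/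
theorem lrf26_H_eq_of_cohOpGen_eq (M : ℕ) [NeZero M] (ℓ : Nat.Primes) (c : ℂ)
    (f g : CuspForm (Gamma0 M) 2)
    (h : S16x.cohOpGen M ℓ (periodHomPair M (f, g)) = c • periodHomPair M (f, g)) :
    lrf26_H M ℓ f = c • f ∧ lrf26_H M ℓ g = c • g := by
  rw [← lrf26_periodHomPair_H, ← map_smul] at h
  have h2 := (Fermat.Agent.S21.result M).1 h
  exact ⟨congrArg Prod.fst h2, congrArg Prod.snd h2⟩

/-- transport of `U² = 1` from cohomology to forms -/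
theorem lrf26_H_H_eq_of_cohOpGen (M : ℕ) [NeZero M] (q : Nat.Primes)
    (f g : CuspForm (Gamma0 M) 2)
    (h : S16x.cohOpGen M q (S16x.cohOpGen M q (periodHomPair M (f, g))) = periodHomPair M (f, g)) :
    lrf26_H M q (lrf26_H M q f) = f ∧ lrf26_H M q (lrf26_H M q g) = g := by
  rw [← lrf26_periodHomPair_H, ← lrf26_periodHomPair_H] at h
  have h2 := (Fermat.Agent.S21.result M).1 h
  exact ⟨congrArg Prod.fst h2, congrArg Prod.snd h2⟩

/-- the space of forms with the prescribed eigenvalues on `S` and `U_q² = 1` -/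
noncomputable def lrf26_W (M : ℕ) [NeZero M] (q : Nat.Primes) (S : Set Nat.Primes)
    (lam : Nat.Primes → ℂ) : Submodule ℂ (CuspForm (Gamma0 M) 2) where
  carrier := {f | (∀ ℓ ∈ S, lrf26_H M ℓ f = lam ℓ • f) ∧ lrf26_H M q (lrf26_H M q f) = f}
  zero_mem' := by
    refine ⟨fun ℓ _ => ?_, ?_⟩
    · rw [map_zero, smul_zero]
    · rw [map_zero, map_zero]
  add_mem' := by
    rintro f g ⟨hf1, hf2⟩ ⟨hg1, hg2⟩
    refine ⟨fun ℓ hℓ => ?_, ?_⟩
    · rw [map_add, hf1 ℓ hℓ, hg1 ℓ hℓ, smul_add]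
    · rw [map_add, map_add, hf2, hg2]
  smul_mem' := by
    rintro c f ⟨hf1, hf2⟩
    refine ⟨fun ℓ hℓ => ?_, ?_⟩
    · rw [map_smul, hf1 ℓ hℓ, smul_comm]
    · rw [map_smul, map_smul, hf2]

theorem lrf26_mem_W {M : ℕ} [NeZero M] {q : Nat.Primes} {S : Set Nat.Primes}
    {lam : Nat.Primes → ℂ} {f : CuspForm (Gamma0 M) 2} :
    f ∈ lrf26_W M q S lam ↔
      (∀ ℓ ∈ S, lrf26_H M ℓ f = lam ℓ • f) ∧ lrf26_H M q (lrf26_H M q f) = f := Iff.rfl

theorem lrf26_W_stable (M : ℕ) [NeZero M] (q : Nat.Primes) (S : Set Nat.Primes)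
    (lam : Nat.Primes → ℂ) (ℓ' : Nat.Primes) (f : CuspForm (Gamma0 M) 2)
    (hf : f ∈ lrf26_W M q S lam) : lrf26_H M ℓ' f ∈ lrf26_W M q S lam := by
  obtain ⟨hf1, hf2⟩ := hf
  refine ⟨fun ℓ hℓ => ?_, ?_⟩
  · rw [lrf26_H_comm, hf1 ℓ hℓ, map_smul]
  · rw [lrf26_H_comm M q ℓ', lrf26_H_comm M q ℓ', hf2]

/-- forms version: a nonzero form with the prescribed eigenvalues on `S` and `U_q² = 1` gives a
normalised eigenform with the same properties. -/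
theorem lrf26_exists_eigenform_of_mem_W (M : ℕ) [NeZero M] (q : Nat.Primes) (S : Set Nat.Primes)
    (lam : Nat.Primes → ℂ) (f : CuspForm (Gamma0 M) 2) (hf : f ∈ lrf26_W M q S lam)
    (hf0 : f ≠ 0) :
    ∃ g : CuspForm (Gamma0 M) 2, g.IsNormalizedEigenform ∧
      (∀ ℓ ∈ S, qCoeff g (ℓ : ℕ) = lam ℓ) ∧ qCoeff g (q : ℕ) ^ 2 = 1 := by
  have hfd : FiniteDimensional ℂ (CuspForm (Gamma0 M) 2) := S21x.finiteDimensional_cuspForm M
  have hWne : lrf26_W M q S lam ≠ ⊥ := fun h => hf0 (by simpa [h] using hf)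
  obtain ⟨v, hvW, hv0, hv⟩ := S49x.exists_common_eigenvector_aux
    (Set.range (lrf26_H M))
    (by
      rintro _ ⟨ℓ, rfl⟩ _ ⟨ℓ', rfl⟩
      exact lrf26_heckeFormsGen_commute M ℓ ℓ')
    _ (lrf26_W M q S lam) inferInstance rfl hWne
    (by
      rintro _ ⟨ℓ', rfl⟩ w hw
      exact lrf26_W_stable M q S lam ℓ' w hw)
  have hμ : ∀ ℓ : Nat.Primes, ∃ μ : ℂ, lrf26_H M ℓ v = μ • v := fun ℓ => hv _ ⟨ℓ, rfl⟩
  choose μ hμ using hμ
  classical
  let lam' : ℕ → ℂ := fun n => if h : n.Prime then μ ⟨n, h⟩ else 0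
  have hlam' : ∀ ℓ : Nat.Primes, lam' (ℓ : ℕ) = μ ℓ := fun ℓ => by
    simp only [lam', dif_pos ℓ.2]
    rfl
  have hT : ∀ (ℓ : ℕ) (hℓ : ℓ.Prime) (hℓN : ¬ ℓ ∣ M),
      CuspForm.heckeTLin 2 hℓ hℓN v = lam' ℓ • v := by
    intro ℓ hℓ hℓN
    have h := hμ ⟨ℓ, hℓ⟩
    rw [lrf26_H, heckeFormsGen_of_not_dvd (show ¬ ((⟨ℓ, hℓ⟩ : Nat.Primes) : ℕ) ∣ M from hℓN),
      heckeAlgebra.coe_T] at h
    rw [show lam' ℓ = μ ⟨ℓ, hℓ⟩ from hlam' ⟨ℓ, hℓ⟩]
    exact h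
  have hU : ∀ (r : ℕ) (_ : r.Prime) (hrN : r ∣ M), CuspForm.heckeULin 2 hrN v = lam' r • v := by
    intro r hr hrN
    have h := hμ ⟨r, hr⟩
    rw [lrf26_H, heckeFormsGen_of_dvd (show ((⟨r, hr⟩ : Nat.Primes) : ℕ) ∣ M from hrN),
      heckeAlgebra.coe_U] at h
    rw [show lam' r = μ ⟨r, hr⟩ from hlam' ⟨r, hr⟩]
    exact h
  obtain ⟨-, hnorm, hcoeff⟩ := S49x.isNormalizedEigenform_of_common_eigenvector v hv0 lam' hT hU
  refine ⟨_, hnorm, fun ℓ hℓ => ?_, ?_⟩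
  · rw [hcoeff ℓ ℓ.2, hlam']
    have h1 := (lrf26_mem_W.mp hvW).1 ℓ hℓ
    rw [hμ ℓ] at h1
    exact smul_left_injective ℂ hv0 h1
  · rw [hcoeff q q.2, hlam']
    have h1 := (lrf26_mem_W.mp hvW).2
    rw [hμ q, map_smul, hμ q, smul_smul, ← sq] at h1
    have h2 : (μ q ^ 2) • v = (1 : ℂ) • v := by rw [h1, one_smul]
    exact smul_left_injective ℂ hv0 h2

/-- **B2 + end of E**: a nonzero parabolic class which is an eigenvector of `cohOpGen M ℓ` for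
`ℓ ∈ S` and satisfies `U_q² y = y` comes with a normalised eigenform of level `M` with
`a_ℓ = lam ℓ` (`ℓ ∈ S`) and `a_q² = 1`. -/
theorem lrf26_exists_eigenform (M : ℕ) [NeZero M] (q : Nat.Primes) (S : Set Nat.Primes)
    (lam : Nat.Primes → ℂ) (y : Additive (Gamma0 M) →+ ℂ)
    (hy : y ∈ parabolicHoms ℂ (Gamma0 M) ℂ) (hy0 : y ≠ 0)
    (hT : ∀ ℓ ∈ S, S16x.cohOpGen M ℓ y = lam ℓ • y)
    (hU : S16x.cohOpGen M q (S16x.cohOpGen M q y) = y) :
    ∃ g : CuspForm (Gamma0 M) 2, g.IsNormalizedEigenform ∧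
      (∀ ℓ ∈ S, qCoeff g (ℓ : ℕ) = lam ℓ) ∧ qCoeff g (q : ℕ) ^ 2 = 1 := by
  rw [← (Fermat.Agent.S21.result M).2] at hy
  obtain ⟨⟨f₁, f₂⟩, rfl⟩ := hy
  have h1 : f₁ ∈ lrf26_W M q S lam ∧ f₂ ∈ lrf26_W M q S lam := by
    have hUU := lrf26_H_H_eq_of_cohOpGen M q f₁ f₂ hU
    refine ⟨⟨fun ℓ hℓ => (lrf26_H_eq_of_cohOpGen_eq M ℓ (lam ℓ) f₁ f₂ (hT ℓ hℓ)).1, hUU.1⟩,
      ⟨fun ℓ hℓ => (lrf26_H_eq_of_cohOpGen_eq M ℓ (lam ℓ) f₁ f₂ (hT ℓ hℓ)).2, hUU.2⟩⟩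
  by_cases hf₁ : f₁ = 0
  · have hf₂ : f₂ ≠ 0 := by
      rintro rfl
      apply hy0
      rw [hf₁]
      exact map_zero _
    exact lrf26_exists_eigenform_of_mem_W M q S lam f₂ h1.2 hf₂
  · exact lrf26_exists_eigenform_of_mem_W M q S lam f₁ h1.1 hf₁

end Fermat.Agent.S41x
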