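import Mathlib

set_option autoImplicit false

namespace Fermat.Agent.S41x

/-- in a finite cyclic group, an element whose order is not divisible by `p ^ j ∣ card` is a
`p`-th power. -/
theorem ihknt_exists_pow_of_not_dvd {A : Type*} [Group A] [Fintype A] [IsCyclic A] {p j : ℕ}
    (hp : p.Prime) (hcard : p ^ j ∣ Fintype.card A) (u : A)
    (hu : ¬ p ^ j ∣ orderOf u) :
    ∃ y : A, y ^ p = u := by
  obtain ⟨g, hg⟩ := IsCyclic.exists_generator (α := A)
  obtain ⟨t, rfl⟩ : ∃ t : ℕ, g ^ t = u := by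
    have := hg u
    rw [Subgroup.mem_zpowers_iff] at this
    obtain ⟨z, hz⟩ := this
    refine ⟨(z % (orderOf g : ℤ)).toNat, ?_⟩
    rw [← hz, ← zpow_natCast, Int.toNat_of_nonneg (Int.emod_nonneg _
      (by exact_mod_cast (orderOf_pos g).ne')), zpow_mod_orderOf]
  have hog : orderOf g = Fintype.card A := by
    rw [← Nat.card_eq_fintype_card]
    exact orderOf_eq_card_of_forall_mem_zpowers hg
  by_cases hpt : p ∣ t
  · obtain ⟨s, rfl⟩ := hpt
    exact ⟨g ^ s, by rw [← pow_mul, mul_comm]⟩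
  · exfalso
    apply hu
    rw [orderOf_pow, hog]
    have hcop : Nat.Coprime (p ^ j) (Nat.gcd (Fintype.card A) t) := by
      apply Nat.Coprime.pow_left
      rw [Nat.Prime.coprime_iff_not_dvd hp]
      intro h
      exact hpt (dvd_trans h (Nat.gcd_dvd_right _ _))
    have h1 : p ^ j ∣ Fintype.card A / Nat.gcd (Fintype.card A) t * Nat.gcd (Fintype.card A) t := by
      rw [Nat.div_mul_cancel (Nat.gcd_dvd_left _ _)]
      exact hcard
    exact hcop.dvd_of_dvd_mul_right h1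

theorem ihknt_dvd_orderOf {p ℓ q o : ℕ} (hp : p.Prime) [Fact ℓ.Prime] (ho : 0 < o)
    (hℓ : ℓ ≡ 1 [MOD p ^ (padicValNat p (2 * o) + 1)])
    (hq : ¬ ∃ y : ZMod ℓ, y ^ p = (q : ZMod ℓ)) (u : (ZMod ℓ)ˣ) (hu : (u : ZMod ℓ) = (q : ZMod ℓ)) :
    p ∣ orderOf ((u ^ o) ^ 2) := by
  have hℓp : ℓ.Prime := Fact.out
  set v := padicValNat p (2 * o) with hv
  have hcard : p ^ (v + 1) ∣ Fintype.card (ZMod ℓ)ˣ := by
    rw [ZMod.card_units]
    exact (Nat.modEq_iff_dvd' hℓp.one_le).mp hℓ.symm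
  -- `p ^ (v+1) ∣ orderOf u`
  have h1 : p ^ (v + 1) ∣ orderOf u := by
    by_contra hnd
    obtain ⟨y, hy⟩ := ihknt_exists_pow_of_not_dvd hp hcard u hnd
    apply hq
    refine ⟨(y : ZMod ℓ), ?_⟩
    rw [← hu, ← hy, Units.val_pow_eq_pow_val]
  -- `orderOf u ∣ 2 * o * m`
  set m := orderOf ((u ^ o) ^ 2) with hm
  have h2 : orderOf u ∣ 2 * o * m := by
    apply orderOf_dvd_of_pow_eq_one
    have := pow_orderOf_eq_one ((u ^ o) ^ 2)
    rw [← hm, ← pow_mul, ← pow_mul] at this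
    rw [← this]
    congr 1
    ring
  have h3 : p ^ (v + 1) ∣ 2 * o * m := dvd_trans h1 h2
  by_contra hpm
  have hcop : Nat.Coprime (p ^ (v + 1)) m := by
    apply Nat.Coprime.pow_left
    rwa [Nat.Prime.coprime_iff_not_dvd hp]
  have h4 : p ^ (v + 1) ∣ 2 * o := hcop.dvd_of_dvd_mul_right h3
  have : Fact p.Prime := ⟨hp⟩
  exact pow_succ_padicValNat_not_dvd (p := p) (by omega : 2 * o ≠ 0) h4

end Fermat.Agent.S41x
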