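import Mathlib
import Fermat.Agent.S41x.IharaHeckeLocal
import Fermat.Agent.S41x.IharaHeckeNT

set_option autoImplicit false

namespace Fermat.Agent.S41x

section Loc

variable {R : Type*} [CommRing R] [Algebra ℤ R] (q : ℕ) [IsLocalization.Away (q : ℤ) R]

theorem ihk_isUnit_q : IsUnit ((q : ℕ) : R) := by
  have h := IsLocalization.Away.algebraMap_isUnit (S := R) (q : ℤ)
  rwa [eq_intCast (algebraMap ℤ R), Int.cast_natCast] at h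

/-- reduction modulo `ℓ` on `ℤ[1/q]`. -/
noncomputable def ihkPi (R : Type*) [CommRing R] [Algebra ℤ R] (q : ℕ) [IsLocalization.Away (q : ℤ) R]
    (ℓ : ℕ) (h : IsUnit (Int.castRingHom (ZMod ℓ) (q : ℤ))) : R →+* ZMod ℓ :=
  IsLocalization.Away.lift (q : ℤ) (g := Int.castRingHom (ZMod ℓ)) h

theorem ihkPi_ker {ℓ : ℕ} (h : IsUnit (Int.castRingHom (ZMod ℓ) (q : ℤ))) (x : R)
    (hx : ihkPi R q ℓ h x = 0) : (ℓ : R) ∣ x := by
  obtain ⟨n, a, hna⟩ := IsLocalization.Away.surj (q : ℤ) x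
  have h1 : ihkPi R q ℓ h (x * algebraMap ℤ R (q : ℤ) ^ n) = ihkPi R q ℓ h (algebraMap ℤ R a) := by
    rw [hna]
  rw [map_mul, hx, zero_mul, ihkPi, IsLocalization.Away.lift_eq] at h1
  have h2 : ((a : ℤ) : ZMod ℓ) = 0 := by
    simpa using h1.symm
  rw [ZMod.intCast_zmod_eq_zero_iff_dvd] at h2
  obtain ⟨a', rfl⟩ := h2
  obtain ⟨v, hv⟩ := (ihk_isUnit_q (R := R) q).pow n
  refine ⟨(a' : R) * ((v⁻¹ : Rˣ) : R), ?_⟩
  have h3 : x * (v : R) = (ℓ : R) * (a' : R) := by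
    rw [hv]
    rw [eq_intCast (algebraMap ℤ R), eq_intCast (algebraMap ℤ R), Int.cast_natCast] at hna
    rw [hna]
    push_cast
    ring
  calc x = x * (v : R) * ((v⁻¹ : Rˣ) : R) := by rw [mul_assoc, Units.mul_inv, mul_one]
    _ = (ℓ : R) * ((a' : R) * ((v⁻¹ : Rˣ) : R)) := by rw [h3]; ring

theorem ihkPi_natCast {ℓ : ℕ} (h : IsUnit (Int.castRingHom (ZMod ℓ) (q : ℤ))) (m : ℕ) :
    ihkPi R q ℓ h (m : R) = (m : ZMod ℓ) := map_natCast _ m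

/-- a nonzero element of `ℤ[1/q]` divides a positive integer prime to `q`. -/
theorem ihk_exists_c0 (hq : q.Prime) (c : R) (hc : c ≠ 0) :
    ∃ c0 : ℕ, 0 < c0 ∧ Nat.Coprime q c0 ∧ c ∣ (c0 : R) := by
  obtain ⟨n, a, hna⟩ := IsLocalization.Away.surj (q : ℤ) c
  rw [eq_intCast (algebraMap ℤ R), eq_intCast (algebraMap ℤ R), Int.cast_natCast] at hna
  have hu := (ihk_isUnit_q (R := R) q).pow n
  have ha : a ≠ 0 := by
    rintro rfl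
    rw [Int.cast_zero] at hna
    exact hc ((hu.mul_left_eq_zero).mp hna)
  have ha' : a.natAbs ≠ 0 := Int.natAbs_ne_zero.mpr ha
  refine ⟨ordCompl[q] a.natAbs, Nat.ordCompl_pos q ha', Nat.coprime_ordCompl hq ha', ?_⟩
  have hmul : q ^ a.natAbs.factorization q * (ordCompl[q] a.natAbs) = a.natAbs :=
    Nat.ordProj_mul_ordCompl_eq_self _ _
  have h1 : (q : R) ^ a.natAbs.factorization q * ((ordCompl[q] a.natAbs : ℕ) : R) =
      (a.natAbs : R) := by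
    conv_rhs => rw [← hmul]
    push_cast
    ring
  have h2 : c ∣ (a.natAbs : R) := by
    rcases Int.natAbs_eq a with h | h
    · refine ⟨(q : R) ^ n, ?_⟩
      rw [hna]
      conv_rhs => rw [h]
      simp
    · refine ⟨-(q : R) ^ n, ?_⟩
      rw [mul_neg, hna]
      conv_rhs => rw [h]
      simp
  rw [← h1] at h2
  have hu2 : IsUnit ((q : R) ^ a.natAbs.factorization q) := (ihk_isUnit_q (R := R) q).pow _
  exact (hu2.dvd_mul_left).mp h2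

/-- **D2-prime**: a nonzero parabolic-at-`∞` class on `Γ₀(N)(ℤ[1/q])` has `T_ℓ`-eigenvalue `2`
for every prime `ℓ ≡ 1 [MOD n]` modulo which `q` is not a `p`-th power. -/
theorem ihk_main {k : Type*} [Field k] {p : ℕ} [CharP k p] (hp : p.Prime) (hp2 : p ≠ 2)
    (hq : q.Prime) {Nn : R} {φ : IhkSL R → k} (hφ : IhkAdd Nn φ) (hU : ∀ x : R, φ (ihkU x) = 0)
    {γ : IhkSL R} (hγ : γ ∈ ihkDelta Nn) (hc : γ.1 1 0 ≠ 0) (hne : φ γ ≠ 0) :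
    ∃ n : ℕ, 0 < n ∧ p ∣ n ∧ ∀ (ℓ : ℕ) [Fact ℓ.Prime] (lam : k), ℓ ≠ q → ℓ ≡ 1 [MOD n] →
      (¬ ∃ y : ZMod ℓ, y ^ p = (q : ZMod ℓ)) → IhkEigen Nn φ ℓ lam → lam = 2 := by
  obtain ⟨c0, hc0, hcop, hdvd⟩ := ihk_exists_c0 q hq (γ.1 1 0) hc
  set o := Nat.totient c0 with ho
  have ho0 : 0 < o := Nat.totient_pos.mpr hc0
  set v := padicValNat p (2 * o) with hv
  have hppos : 0 < p := hp.pos
  refine ⟨c0 * p ^ (v + 1), by positivity,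
    Dvd.dvd.mul_left (dvd_pow_self p (Nat.succ_ne_zero v)) _, ?_⟩
  intro ℓ _ lam hℓq hℓ1 hqp hT
  have hℓ : ℓ.Prime := Fact.out
  have hunit : IsUnit (Int.castRingHom (ZMod ℓ) (q : ℤ)) := by
    rw [eq_intCast, Int.cast_natCast, isUnit_iff_ne_zero]
    intro h
    rw [ZMod.natCast_eq_zero_iff] at h
    exact hℓq ((Nat.prime_dvd_prime_iff_eq hℓ hq).mp h)
  have hπ := ihkPi_ker (R := R) q hunit
  have hn : c0 * p ^ (v + 1) ∣ ℓ - 1 := (Nat.modEq_iff_dvd' hℓ.one_le).mp hℓ1.symm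
  have hc0ℓ : c0 ∣ ℓ - 1 := dvd_trans (dvd_mul_right _ _) hn
  have hpℓ : ℓ ≡ 1 [MOD p ^ (v + 1)] := hℓ1.of_mul_left c0
  have hπc0 : ihkPi R q ℓ hunit (c0 : R) ≠ 0 := by
    rw [ihkPi_natCast]
    intro h
    rw [ZMod.natCast_eq_zero_iff] at h
    have h6 := Nat.le_of_dvd (Nat.sub_pos_of_lt hℓ.one_lt) (dvd_trans h hc0ℓ)
    have h7 := hℓ.two_le
    omega
  have hπc : ihkPi R q ℓ hunit (γ.1 1 0) ≠ 0 := by
    intro h
    obtain ⟨t, ht⟩ := hdvd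
    apply hπc0
    rw [ht, map_mul, h, zero_mul]
  have h1 : γ.1 1 0 ∣ (ℓ : R) - 1 := by
    refine dvd_trans hdvd ?_
    obtain ⟨t, ht⟩ := hc0ℓ
    refine ⟨(t : R), ?_⟩
    have : (ℓ : R) = ((ℓ - 1 + 1 : ℕ) : R) := by rw [Nat.sub_add_cancel hℓ.one_le]
    rw [this, ht]
    push_cast
    ring
  obtain ⟨w0, hw0⟩ := ihk_isUnit_q (R := R) q
  have h2 : γ.1 1 0 ∣ ((w0 ^ o : Rˣ) : R) - 1 := by
    refine dvd_trans hdvd ?_
    have hmod : q ^ o ≡ 1 [MOD c0] := Nat.ModEq.pow_totient hcop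
    have hd : c0 ∣ q ^ o - 1 := (Nat.modEq_iff_dvd' (Nat.one_le_pow _ _ hq.pos)).mp hmod.symm
    obtain ⟨t, ht⟩ := hd
    refine ⟨(t : R), ?_⟩
    have e : ((w0 ^ o : Rˣ) : R) = ((q ^ o - 1 + 1 : ℕ) : R) := by
      rw [Nat.sub_add_cancel (Nat.one_le_pow _ _ hq.pos)]
      simp [hw0]
    rw [e, ht]
    push_cast
    ring
  have h3 : p ∣ orderOf (Units.map (ihkPi R q ℓ hunit : R →* ZMod ℓ) (w0 ^ o) ^ 2) := by
    have h4 := ihknt_dvd_orderOf (q := q) hp ho0 hpℓ hqp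
      (Units.map (ihkPi R q ℓ hunit : R →* ZMod ℓ) w0) ?_
    · rwa [← map_pow] at h4
    · rw [Units.coe_map, hw0]
      exact ihkPi_natCast q hunit q
  have h5 := ihk_local hp hp2 hφ hU hT (ihkPi R q ℓ hunit) hπ hγ hπc h1 (w0 ^ o) h2 h3
  exact mul_right_cancel₀ hne h5

/-- `ihk_main` with the Kummer condition in the integer form used by BRIDGE-prime. -/
theorem ihk_main_int {k : Type*} [Field k] {p : ℕ} [CharP k p] (hp : p.Prime) (hp2 : p ≠ 2)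
    (hq : q.Prime) {Nn : R} {φ : IhkSL R → k} (hφ : IhkAdd Nn φ) (hU : ∀ x : R, φ (ihkU x) = 0)
    {γ : IhkSL R} (hγ : γ ∈ ihkDelta Nn) (hc : γ.1 1 0 ≠ 0) (hne : φ γ ≠ 0) :
    ∃ n : ℕ, 0 < n ∧ p ∣ n ∧ ∀ (ℓ : ℕ) [Fact ℓ.Prime] (lam : k), ℓ ≠ q → ℓ ≡ 1 [MOD n] →
      (¬ ∃ y : ℤ, (ℓ : ℤ) ∣ y ^ p - (q : ℤ)) → IhkEigen Nn φ ℓ lam → lam = 2 := by
  obtain ⟨n, hn, hpn, h⟩ := ihk_main q hp hp2 hq hφ hU hγ hc hne
  refine ⟨n, hn, hpn, ?_⟩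
  intro ℓ _ lam hℓq hℓ1 hK hT
  refine h ℓ lam hℓq hℓ1 ?_ hT
  rintro ⟨y, hy⟩
  apply hK
  refine ⟨(y.val : ℤ), ?_⟩
  rw [← ZMod.intCast_zmod_eq_zero_iff_dvd]
  push_cast
  rw [ZMod.natCast_zmod_val, hy, sub_self]

end Loc

end Fermat.Agent.S41x
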