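import Mathlib
import Fermat.Agent.S41x.IharaHeckeMain

set_option autoImplicit false

namespace Fermat.Agent.S41x

open Matrix Finset

section Cusp

variable {R : Type*} [CommRing R] {k : Type*} [Field k] {Nn : R} {φ : IhkSL R → k}

theorem ihkc_U_add (x y : R) : ihkU x * ihkU y = ihkU (x + y) := by
  apply Subtype.ext
  rw [Matrix.SpecialLinearGroup.coe_mul]
  ext i j
  fin_cases i <;> fin_cases j <;> simp [ihkU, Matrix.mul_apply, Fin.sum_univ_two, add_comm]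

theorem ihkc_phiU_add (hφ : IhkAdd Nn φ) (x y : R) : φ (ihkU (x + y)) = φ (ihkU x) + φ (ihkU y) := by
  rw [← ihkc_U_add, hφ _ (ihkU_mem Nn x) _ (ihkU_mem Nn y)]

theorem ihkc_phiU_zero' (hφ : IhkAdd Nn φ) : φ (ihkU (0 : R)) = 0 := by
  have := ihkc_phiU_add hφ (0 : R) 0
  rw [add_zero] at this
  linear_combination -this

theorem ihkc_phiU_nat (hφ : IhkAdd Nn φ) (n : ℕ) : φ (ihkU (n : R)) = n * φ (ihkU (1 : R)) := by
  induction n with
  | zero => simp [ihkc_phiU_zero' hφ]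
  | succ n ih =>
    rw [Nat.cast_succ, ihkc_phiU_add hφ, ih]
    push_cast
    ring

theorem ihkc_phiU_neg (hφ : IhkAdd Nn φ) (x : R) : φ (ihkU (-x)) = -φ (ihkU x) := by
  have := ihkc_phiU_add hφ x (-x)
  rw [add_neg_cancel, ihkc_phiU_zero' hφ] at this
  linear_combination -this

theorem ihkc_phiU_int (hφ : IhkAdd Nn φ) (n : ℤ) : φ (ihkU (n : R)) = n * φ (ihkU (1 : R)) := by
  rcases Int.eq_nat_or_neg n with ⟨m, rfl | rfl⟩
  · simpa using ihkc_phiU_nat hφ m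
  · rw [Int.cast_neg, ihkc_phiU_neg hφ, Int.cast_natCast, ihkc_phiU_nat hφ]
    push_cast
    ring

/-- `T_ℓ` acts as `ℓ + 1` on the restriction to the cusp `∞`. -/
theorem ihkc_phiU_one {ℓ : ℕ} [Fact ℓ.Prime] {lam : k} (hφ : IhkAdd Nn φ)
    (hT : IhkEigen Nn φ ℓ lam) (hlam : lam ≠ (ℓ : k) + 1) : φ (ihkU (1 : R)) = 0 := by
  classical
  have hℓ : ℓ.Prime := Fact.out
  set σ : Option (ZMod ℓ) → Option (ZMod ℓ) := fun i => i.map (· + 1) with hσ
  set γ' : Option (ZMod ℓ) → IhkSL R := fun i =>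
    match i with
    | none => ihkU (ℓ : R)
    | some j => if j.val + 1 < ℓ then ihkU 0 else ihkU 1 with hγ'
  have h := hT (ihkU 1) (ihkU_mem Nn 1) σ γ' ?_ ?_
  · rw [Fintype.sum_option] at h
    simp only [hγ'] at h
    have hsum : ∑ j : ZMod ℓ, φ (if j.val + 1 < ℓ then ihkU (0 : R) else ihkU 1) = φ (ihkU (1 : R)) := by
      rw [Finset.sum_eq_single_of_mem (-1 : ZMod ℓ) (Finset.mem_univ _)]
      · rw [if_neg]
        intro hlt
        have h1 : ((-1 : ZMod ℓ) + 1).val = (-1 : ZMod ℓ).val + (1 : ZMod ℓ).val :=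
          ZMod.val_add_of_lt (by rwa [ZMod.val_one])
        rw [neg_add_cancel, ZMod.val_zero, ZMod.val_one] at h1
        omega
      · intro j _ hj
        rw [if_pos, ihkc_phiU_zero' hφ]
        by_contra hlt
        apply hj
        have h2 : j.val + 1 = ℓ := by
          have := ZMod.val_lt j
          omega
        have h3 : j + 1 = 0 := by
          have : ((j.val + 1 : ℕ) : ZMod ℓ) = 0 := by rw [h2, ZMod.natCast_self]
          rwa [Nat.cast_add, ZMod.natCast_zmod_val, Nat.cast_one] at this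
        exact eq_neg_of_add_eq_zero_left h3
    rw [hsum, ihkc_phiU_nat hφ] at h
    have h4 : ((ℓ : k) + 1 - lam) * φ (ihkU (1 : R)) = 0 := by linear_combination h
    rcases mul_eq_zero.mp h4 with h5 | h5
    · exact absurd (by linear_combination -h5 : lam = (ℓ : k) + 1) hlam
    · exact h5
  · intro i
    rcases i with _ | j
    · exact ihkU_mem Nn _
    · simp only [hγ']
      split_ifs <;> exact ihkU_mem Nn _
  · intro i
    rcases i with _ | j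
    · simp only [hσ, hγ', Option.map_none]
      ext a b
      fin_cases a <;> fin_cases b <;> simp [ihkAlpha, ihkU, Matrix.mul_apply, Fin.sum_univ_two]
    · simp only [hσ, hγ', Option.map_some]
      have hj := ZMod.val_lt j
      by_cases hlt : j.val + 1 < ℓ
      · rw [if_pos hlt]
        have h1 : (j + 1).val = j.val + 1 := by
          rw [ZMod.val_add_of_lt (by rwa [ZMod.val_one]), ZMod.val_one]
        ext a b
        fin_cases a <;> fin_cases b <;>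
          simp [ihkAlpha, ihkU, Matrix.mul_apply, Fin.sum_univ_two, -ZMod.natCast_val, h1]
        ring
      · rw [if_neg hlt]
        have h2 : j.val + 1 = ℓ := by omega
        have h3 : j + 1 = 0 := by
          have : ((j.val + 1 : ℕ) : ZMod ℓ) = 0 := by rw [h2, ZMod.natCast_self]
          rwa [Nat.cast_add, ZMod.natCast_zmod_val, Nat.cast_one] at this
        have h4 : ((j.val : ℕ) : R) + 1 = (ℓ : R) := by
          have : ((j.val + 1 : ℕ) : R) = ((ℓ : ℕ) : R) := congrArg _ h2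
          rw [← this]
          push_cast
          ring
        ext a b
        fin_cases a <;> fin_cases b <;>
          simp [ihkAlpha, ihkU, Matrix.mul_apply, Fin.sum_univ_two, -ZMod.natCast_val, h3]
        linear_combination h4

theorem ihkc_D_mul_inv (w : Rˣ) : ihkD w * ihkD w⁻¹ = (1 : IhkSL R) := by
  apply Subtype.ext
  rw [Matrix.SpecialLinearGroup.coe_mul]
  ext i j
  fin_cases i <;> fin_cases j <;> simp [ihkD, Matrix.mul_apply, Fin.sum_univ_two]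

theorem ihkc_D_conj_U (w : Rˣ) (x : R) :
    ihkD w * ihkU x * ihkD w⁻¹ = ihkU ((w : R) ^ 2 * x) := by
  apply Subtype.ext
  rw [Matrix.SpecialLinearGroup.coe_mul, Matrix.SpecialLinearGroup.coe_mul]
  ext i j
  fin_cases i <;> fin_cases j <;> simp [ihkD, ihkU, Matrix.mul_apply, Fin.sum_univ_two]
  ring

theorem ihkc_phiU_conj (hφ : IhkAdd Nn φ) (w : Rˣ) (x : R) :
    φ (ihkU ((w : R) ^ 2 * x)) = φ (ihkU x) := by
  rw [← ihkc_D_conj_U, hφ _ (mul_mem (ihkD_mem Nn _) (ihkU_mem Nn _)) _ (ihkD_mem Nn _),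
    hφ _ (ihkD_mem Nn _) _ (ihkU_mem Nn _)]
  have h1 := hφ _ (ihkD_mem Nn w) _ (ihkD_mem Nn w⁻¹)
  rw [ihkc_D_mul_inv, ihk_phi_one hφ] at h1
  linear_combination -h1

/-- **Step 0**: an eigenclass with `lam ≠ ℓ + 1` kills all upper unipotents of `Γ₀(N)(ℤ[1/q])`. -/
theorem ihkc_phiU_zero [Algebra ℤ R] (q : ℕ) [IsLocalization.Away (q : ℤ) R]
    {ℓ : ℕ} [Fact ℓ.Prime] {lam : k} (hφ : IhkAdd Nn φ)
    (hT : IhkEigen Nn φ ℓ lam) (hlam : lam ≠ (ℓ : k) + 1) (x : R) : φ (ihkU x) = 0 := by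
  have h1 := ihkc_phiU_one hφ hT hlam
  obtain ⟨n, a, hna⟩ := IsLocalization.Away.surj (q : ℤ) x
  rw [eq_intCast (algebraMap ℤ R), eq_intCast (algebraMap ℤ R), Int.cast_natCast] at hna
  obtain ⟨w0, hw0⟩ := ihk_isUnit_q (R := R) q
  have h2 := ihkc_phiU_conj hφ (w0 ^ n) x
  have h3 : (((w0 ^ n : Rˣ) : R)) ^ 2 * x = (((q : ℤ) ^ n * a : ℤ) : R) := by
    rw [Units.val_pow_eq_pow_val, hw0]
    push_cast
    rw [← hna]
    ring
  rw [h3, ihkc_phiU_int hφ, h1, mul_zero] at h2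
  exact h2.symm

/-- a nonzero class is nonzero on some element with `c ≠ 0`. -/
theorem ihkc_exists_c_ne_zero (hφ : IhkAdd Nn φ) (hN : Nn ≠ 0) {γ : IhkSL R}
    (hγ : γ ∈ ihkDelta Nn) (hne : φ γ ≠ 0) :
    ∃ γ' : IhkSL R, γ' ∈ ihkDelta Nn ∧ γ'.1 1 0 ≠ 0 ∧ φ γ' ≠ 0 := by
  by_cases hc : γ.1 1 0 = 0
  · set L : IhkSL R := ⟨!![1, 0; Nn, 1], by simp [Matrix.det_fin_two_of]⟩ with hL
    have hLmem : L ∈ ihkDelta Nn := by
      change Nn ∣ _
      simp [hL]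
    have hL10 : L.1 1 0 = Nn := by simp [hL]
    have hdet := ihk_det γ
    rw [hc, mul_zero, sub_zero] at hdet
    have hγL : (γ * L).1 1 0 = γ.1 1 1 * Nn := by
      rw [Matrix.SpecialLinearGroup.coe_mul, Matrix.mul_apply, Fin.sum_univ_two]
      simp [hL, hc]
    have hγLne : (γ * L).1 1 0 ≠ 0 := by
      rw [hγL]
      intro h
      apply hN
      have : γ.1 0 0 * (γ.1 1 1 * Nn) = 0 := by rw [h, mul_zero]
      rw [← mul_assoc, hdet, one_mul] at this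
      exact this
    by_cases h1 : φ (γ * L) = 0
    · refine ⟨L, hLmem, by rw [hL10]; exact hN, ?_⟩
      intro h2
      apply hne
      have := hφ γ hγ L hLmem
      rw [h1, h2] at this
      linear_combination -this
    · exact ⟨γ * L, mul_mem hγ hLmem, hγLne, h1⟩
  · exact ⟨γ, hγ, hc, hne⟩

/-- **Ihara's lemma, Hecke form** (D2-prime + BRIDGE-prime): a class on `Γ₀(N)(ℤ[1/q])` which is a
`T_ℓ`-eigenvector with eigenvalue `a ℓ` for all good `ℓ ∤ M0` vanishes, provided BRIDGE-prime holds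
for `(good, a)`. -/
theorem ihk_vanish [Algebra ℤ R] (q : ℕ) [IsLocalization.Away (q : ℤ) R] {p : ℕ} [CharP k p]
    (hp : p.Prime) (hp2 : p ≠ 2) (hq : q.Prime) (hN : Nn ≠ 0) (hφ : IhkAdd Nn φ)
    (good : ℕ → Prop) (a : ℕ → ℤ) (M0 : ℕ) (hM0 : 0 < M0)
    (hT : ∀ (ℓ : ℕ) [Fact ℓ.Prime], good ℓ → ¬ ℓ ∣ M0 → IhkEigen Nn φ ℓ ((a ℓ : ℤ) : k))
    (hB : ∀ n : ℕ, 0 < n → p ∣ n → ∀ M : ℕ, 0 < M →
      ∃ ℓ : ℕ, ℓ.Prime ∧ good ℓ ∧ ¬ ℓ ∣ M ∧ ℓ ≠ p ∧ ℓ ≡ 1 [MOD n] ∧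
        (¬ ∃ y : ℤ, (ℓ : ℤ) ∣ y ^ p - (q : ℤ)) ∧ ¬ (p : ℤ) ∣ ((ℓ : ℤ) + 1 - a ℓ))
    {γ : IhkSL R} (hγ : γ ∈ ihkDelta Nn) : φ γ = 0 := by
  -- the eigenvalue at a prime `ℓ ≡ 1 [MOD p]` given by BRIDGE-prime is not `ℓ + 1`
  have hkey : ∀ ℓ : ℕ, ℓ ≡ 1 [MOD p] → ¬ (p : ℤ) ∣ ((ℓ : ℤ) + 1 - a ℓ) → ((a ℓ : ℤ) : k) ≠ 2 := by
    intro ℓ hℓ1 hnd h2
    apply hnd
    rw [← CharP.intCast_eq_zero_iff k p]
    have hℓk : ((ℓ : ℕ) : k) = 1 := by
      have := (CharP.natCast_eq_natCast k p).mpr hℓ1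
      simpa using this
    push_cast
    rw [hℓk, h2]
    ring
  -- Step 0
  have hU : ∀ x : R, φ (ihkU x) = 0 := by
    obtain ⟨ℓ, hℓ, hgood, hℓM, -, hℓ1, -, hnd⟩ := hB p hp.pos dvd_rfl M0 hM0
    have : Fact ℓ.Prime := ⟨hℓ⟩
    have hℓk : ((ℓ : ℕ) : k) = 1 := by
      have := (CharP.natCast_eq_natCast k p).mpr hℓ1
      simpa using this
    refine ihkc_phiU_zero q hφ (hT ℓ hgood hℓM) ?_
    rw [hℓk]
    have := hkey ℓ hℓ1 hnd
    intro h
    apply this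
    rw [h]
    ring
  by_contra hne
  obtain ⟨γ', hγ', hc, hne'⟩ := ihkc_exists_c_ne_zero hφ hN hγ hne
  obtain ⟨n, hn, hpn, hmain⟩ := ihk_main_int q hp hp2 hq hφ hU hγ' hc hne'
  obtain ⟨ℓ, hℓ, hgood, hℓM, -, hℓ1, hK, hnd⟩ := hB n hn hpn (M0 * q) (Nat.mul_pos hM0 hq.pos)
  have : Fact ℓ.Prime := ⟨hℓ⟩
  have hℓM0 : ¬ ℓ ∣ M0 := fun h => hℓM (Dvd.dvd.mul_right h q)
  have hℓq : ℓ ≠ q := by
    rintro rfl
    exact hℓM (dvd_mul_left _ _)
  have h2 := hmain ℓ ((a ℓ : ℤ) : k) hℓq hℓ1 hK (hT ℓ hgood hℓM0)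
  exact hkey ℓ (hℓ1.of_dvd hpn) hnd h2

end Cusp

end Fermat.Agent.S41x
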