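import Mathlib
import Fermat.Agent.S41x.IharaHeckeFinal
import Fermat.Agent.S41x.Amg55Main

set_option autoImplicit false

namespace Fermat.Agent.S41x

open Matrix

/-- the subring `ℤ[1/q]` of `ℚ`. -/
def ihkZq (q : ℕ) : Subring ℚ where
  carrier := {x | ∃ (m : ℤ) (e : ℕ), x * (q : ℚ) ^ e = (m : ℚ)}
  mul_mem' := by
    rintro x y ⟨m, e, hm⟩ ⟨m', e', hm'⟩
    refine ⟨m * m', e + e', ?_⟩
    push_cast
    rw [← hm, ← hm', pow_add]
    ring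
  one_mem' := ⟨1, 0, by simp⟩
  add_mem' := by
    rintro x y ⟨m, e, hm⟩ ⟨m', e', hm'⟩
    refine ⟨m * (q : ℤ) ^ e' + m' * (q : ℤ) ^ e, e + e', ?_⟩
    push_cast
    rw [← hm, ← hm', pow_add]
    ring
  zero_mem' := ⟨0, 0, by simp⟩
  neg_mem' := by
    rintro x ⟨m, e, hm⟩
    refine ⟨-m, e, ?_⟩
    push_cast
    rw [← hm]
    ring

theorem ihk_mem_Zq {q : ℕ} {x : ℚ} :
    x ∈ ihkZq q ↔ ∃ (m : ℤ) (e : ℕ), x * (q : ℚ) ^ e = (m : ℚ) := Iff.rfl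

theorem ihk_mem_Zq_iff_div {q : ℕ} (hq : q ≠ 0) {x : ℚ} :
    x ∈ ihkZq q ↔ ∃ (m : ℤ) (e : ℕ), x = (m : ℚ) / (q : ℚ) ^ e := by
  have hq' : (q : ℚ) ≠ 0 := by exact_mod_cast hq
  constructor
  · rintro ⟨m, e, h⟩
    exact ⟨m, e, by rw [← h]; field_simp⟩
  · rintro ⟨m, e, rfl⟩
    exact ⟨m, e, by field_simp⟩

theorem ihk_inv_pow_mem_Zq (q : ℕ) (hq : q ≠ 0) (e : ℕ) : ((q : ℚ) ^ e)⁻¹ ∈ ihkZq q := by
  have hq' : (q : ℚ) ≠ 0 := by exact_mod_cast hq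
  exact ⟨1, e, by field_simp; simp⟩

instance ihk_isLocalization_Zq (q : ℕ) [NeZero q] : IsLocalization.Away (q : ℤ) (ihkZq q) := by
  have hq : q ≠ 0 := NeZero.ne q
  have hq' : (q : ℚ) ≠ 0 := by exact_mod_cast hq
  rw [IsLocalization.Away, isLocalization_iff]
  refine ⟨?_, ?_, ?_⟩
  · rintro ⟨y, n, rfl⟩
    refine ⟨⟨algebraMap ℤ (ihkZq q) ((q : ℤ) ^ n), ⟨((q : ℚ) ^ n)⁻¹, ihk_inv_pow_mem_Zq q hq n⟩, ?_, ?_⟩, rfl⟩
    · apply Subtype.ext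
      simp
    · apply Subtype.ext
      simp
  · rintro ⟨z, m, e, h⟩
    refine ⟨(m, ⟨(q : ℤ) ^ e, e, rfl⟩), ?_⟩
    apply Subtype.ext
    simpa using h
  · intro x y h
    refine ⟨1, ?_⟩
    have h1 := congrArg Subtype.val h
    simp at h1
    rw [h1]

/-- `SL₂(ℤ[1/q]) → SL₂(ℚ)`. -/
def ihkToQ (q : ℕ) : IhkSL (ihkZq q) →* Matrix.SpecialLinearGroup (Fin 2) ℚ :=
  Matrix.SpecialLinearGroup.map (ihkZq q).subtype

@[simp] theorem ihkToQ_apply (q : ℕ) (γ : IhkSL (ihkZq q)) (i j : Fin 2) :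
    (ihkToQ q γ).1 i j = ((γ.1 i j : ihkZq q) : ℚ) := rfl

theorem ihkToQ_injective (q : ℕ) : Function.Injective (ihkToQ q) := by
  intro γ γ' h
  apply Subtype.ext
  ext i j
  have := congrArg (fun g : Matrix.SpecialLinearGroup (Fin 2) ℚ => g.1 i j) h
  simpa using this

/-- an element of `SL₂(ℚ)` with entries in `ℤ[1/q]` comes from `SL₂(ℤ[1/q])`. -/
theorem ihkToQ_surj_on (q : ℕ) (g : Matrix.SpecialLinearGroup (Fin 2) ℚ)
    (hg : ∀ i j, g.1 i j ∈ ihkZq q) : ∃ γ : IhkSL (ihkZq q), ihkToQ q γ = g := by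
  refine ⟨⟨Matrix.of fun i j => (⟨g.1 i j, hg i j⟩ : ihkZq q), ?_⟩, ?_⟩
  · have h := g.2
    rw [Matrix.det_fin_two] at h ⊢
    apply Subtype.ext
    simpa using h
  · apply Subtype.ext
    ext i j
    rfl

/-- `Γ₀(N)(ℤ[1/q])` inside `SL₂(ℚ)`, described by entries. -/
theorem ihkToQ_mem_delta_iff (q N : ℕ) (γ : IhkSL (ihkZq q)) :
    γ ∈ ihkDelta ((N : ℕ) : ihkZq q) ↔
      ∃ x : ℚ, x ∈ ihkZq q ∧ (ihkToQ q γ).1 1 0 = (N : ℚ) * x := by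
  rw [ihk_mem_delta]
  constructor
  · rintro ⟨x, hx⟩
    refine ⟨(x : ℚ), x.2, ?_⟩
    rw [ihkToQ_apply, hx]
    simp
  · rintro ⟨x, hx, h⟩
    refine ⟨⟨x, hx⟩, ?_⟩
    apply Subtype.ext
    rw [ihkToQ_apply] at h
    rw [h]
    simp

/-- the image of `Γ₀(N)(ℤ[1/q]) ⊆ SL₂(ℤ[1/q])` in `SL₂(ℚ)` is `amg55_Delta N q`. -/
theorem ihk_map_delta (q N : ℕ) (hq : q ≠ 0) :
    (ihkDelta ((N : ℕ) : ihkZq q)).map (ihkToQ q) = amg55_Delta N q := by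
  have hq' : (q : ℚ) ≠ 0 := by exact_mod_cast hq
  ext g
  rw [Subgroup.mem_map]
  constructor
  · rintro ⟨γ, hγ, rfl⟩
    obtain ⟨x, ⟨m, e, hx⟩, h⟩ := (ihkToQ_mem_delta_iff q N γ).mp hγ
    obtain ⟨m00, e00, h00⟩ := (γ.1 0 0).2
    obtain ⟨m01, e01, h01⟩ := (γ.1 0 1).2
    obtain ⟨m11, e11, h11⟩ := (γ.1 1 1).2
    refine ⟨e00 + e01 + e11 + e, m00 * (q : ℤ) ^ (e01 + e11 + e), m01 * (q : ℤ) ^ (e00 + e11 + e),
      (N : ℤ) * m * (q : ℤ) ^ (e00 + e01 + e11), m11 * (q : ℤ) ^ (e00 + e01 + e), ?_, ?_, ?_, ?_, ?_⟩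
    · change (q : ℚ) ^ _ * (ihkToQ q γ).1 0 0 = _
      rw [ihkToQ_apply]
      push_cast
      rw [← h00]
      simp only [pow_add]
      ring
    · change (q : ℚ) ^ _ * (ihkToQ q γ).1 0 1 = _
      rw [ihkToQ_apply]
      push_cast
      rw [← h01]
      simp only [pow_add]
      ring
    · change (q : ℚ) ^ _ * (ihkToQ q γ).1 1 0 = _
      rw [h]
      push_cast
      rw [← hx]
      simp only [pow_add]
      ring
    · change (q : ℚ) ^ _ * (ihkToQ q γ).1 1 1 = _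
      rw [ihkToQ_apply]
      push_cast
      rw [← h11]
      simp only [pow_add]
      ring
    · exact Dvd.dvd.mul_right (Dvd.dvd.mul_right dvd_rfl _) _
  · rintro ⟨k, m00, m01, m10, m11, h00, h01, h10, h11, ⟨m, rfl⟩⟩
    have hent : ∀ i j, g.1 i j ∈ ihkZq q := by
      intro i j
      fin_cases i <;> fin_cases j
      · exact ⟨m00, k, by rw [← h00]; exact mul_comm _ _⟩
      · exact ⟨m01, k, by rw [← h01]; exact mul_comm _ _⟩
      · exact ⟨(N : ℤ) * m, k, by rw [← h10]; exact mul_comm _ _⟩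
      · exact ⟨m11, k, by rw [← h11]; exact mul_comm _ _⟩
    obtain ⟨γ, rfl⟩ := ihkToQ_surj_on q g hent
    refine ⟨γ, (ihkToQ_mem_delta_iff q N γ).mpr ⟨(m : ℚ) / (q : ℚ) ^ k, ⟨m, k, by field_simp⟩, ?_⟩,
      rfl⟩
    have h10' : (q : ℚ) ^ k * (ihkToQ q γ).1 1 0 = (((N : ℤ) * m : ℤ) : ℚ) := h10
    have hqk : (q : ℚ) ^ k ≠ 0 := pow_ne_zero _ hq'
    field_simp
    rw [mul_comm, h10']
    push_cast
    ring

theorem ihkToQ_mem_Delta55 (q N : ℕ) (hq : q ≠ 0) {γ : IhkSL (ihkZq q)}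
    (hγ : γ ∈ ihkDelta ((N : ℕ) : ihkZq q)) : ihkToQ q γ ∈ amg55_Delta N q := by
  rw [← ihk_map_delta q N hq]
  exact Subgroup.mem_map_of_mem _ hγ

/-- generation transfers from `SL₂(ℚ)` to `SL₂(ℤ[1/q])`. -/
theorem ihk_closure_of_Q (q N : ℕ) (hq : q ≠ 0) (X : Set (Matrix.SpecialLinearGroup (Fin 2) ℚ))
    (hX : X ⊆ (amg55_Delta N q : Set _)) (hgen : amg55_Delta N q ≤ Subgroup.closure X) :
    ihkDelta ((N : ℕ) : ihkZq q) = Subgroup.closure (ihkToQ q ⁻¹' X) := by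
  apply Subgroup.map_injective (ihkToQ_injective q)
  rw [ihk_map_delta q N hq, MonoidHom.map_closure]
  have himg : ihkToQ q '' (ihkToQ q ⁻¹' X) = X := by
    rw [Set.image_preimage_eq_iff]
    intro g hg
    have := hX hg
    rw [SetLike.mem_coe, ← ihk_map_delta q N hq] at this
    obtain ⟨γ, -, rfl⟩ := this
    exact ⟨γ, rfl⟩
  rw [himg]
  exact le_antisymm hgen ((Subgroup.closure_le _).mpr hX)

/-- `Γ₀(N)(ℤ[1/q])` is generated by (the preimages of) the two vertex groups. -/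
theorem ihk_delta_eq_closure {N q : ℕ} [Fact q.Prime] (hNq : Nat.Coprime N q) :
    ihkDelta ((N : ℕ) : ihkZq q) =
      Subgroup.closure (ihkToQ q ⁻¹' ((amg55_S N q false : Set _) ∪ (amg55_S N q true : Set _))) := by
  have hq : q ≠ 0 := (Fact.out : q.Prime).ne_zero
  apply ihk_closure_of_Q q N hq
  · rw [amg55_Delta_eq_sup hNq]
    intro g hg
    rcases hg with hg | hg
    · exact (le_sup_left : amg55_S N q false ≤ _) hg
    · exact (le_sup_right : amg55_S N q true ≤ _) hg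
  · rw [amg55_Delta_eq_sup hNq]
    refine sup_le ?_ ?_
    · exact fun g hg => Subgroup.subset_closure (Or.inl hg)
    · exact fun g hg => Subgroup.subset_closure (Or.inr hg)

/-- additivity transfers. -/
theorem ihk_add_of_Q {k : Type*} [Field k] (q N : ℕ) (hq : q ≠ 0)
    (φQ : Matrix.SpecialLinearGroup (Fin 2) ℚ → k)
    (hφQ : ∀ g ∈ amg55_Delta N q, ∀ h ∈ amg55_Delta N q, φQ (g * h) = φQ g + φQ h) :
    IhkAdd ((N : ℕ) : ihkZq q) (fun γ => φQ (ihkToQ q γ)) := by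
  intro g hg h hh
  simp only [map_mul]
  exact hφQ _ (ihkToQ_mem_Delta55 q N hq hg) _ (ihkToQ_mem_Delta55 q N hq hh)

end Fermat.Agent.S41x
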