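/-
S41x/GlueModel (helper45): the D-GLUE step of S41 in the official model `R = ihkZq q = ℤ[1/q] ⊆ ℚ`
(helper74's `IharaHeckeModel`) and helper55's amalgam vocabulary (`amg55_iota`, `amg55_eta`).

`glm_eigen`: if `φQ : SL₂(ℚ) → k` is additive on `amg55_Delta N q`, restricts to `ψ₁` on `ι Γ₀(N)` and to `ψ₂` on
`η ι Γ₀(N)`, and `ψ₁, ψ₂` are `T_ℓ`-eigenvectors (`cohOpGen`) with eigenvalue `lam` (`ℓ ∤ N q`), then
`IhkEigen (N : ihkZq q) (φQ ∘ ihkToQ q) ℓ lam`.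
-/
import Fermat.Agent.S41x.IharaHeckeModel
import Fermat.Agent.S41x.GlueTwist

set_option autoImplicit false

namespace Fermat.Agent.S41x

open Matrix Finset CongruenceSubgroup Fermat.Agent.S16x
open scoped MatrixGroups

/-- `q` as a unit of `ℤ[1/q]`. -/
def glmQ (q : ℕ) [NeZero q] : (ihkZq q)ˣ where
  val := ⟨(q : ℚ), ⟨(q : ℤ), 0, by simp⟩⟩
  inv := ⟨(q : ℚ)⁻¹, by simpa using ihk_inv_pow_mem_Zq q (NeZero.ne q) 1⟩
  val_inv := by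
    apply Subtype.ext
    have hq' : (q : ℚ) ≠ 0 := by exact_mod_cast NeZero.ne q
    simp [hq']
  inv_val := by
    apply Subtype.ext
    have hq' : (q : ℚ) ≠ 0 := by exact_mod_cast NeZero.ne q
    simp [hq']

theorem glmQ_coe (q : ℕ) [NeZero q] : (((glmQ q : (ihkZq q)ˣ) : ihkZq q) : ℚ) = (q : ℚ) := rfl

theorem glmQ_inv_coe (q : ℕ) [NeZero q] :
    ((((glmQ q)⁻¹ : (ihkZq q)ˣ) : ihkZq q) : ℚ) = (q : ℚ)⁻¹ := rfl

theorem glm_toQ_iota (q : ℕ) (g : SL(2, ℤ)) :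
    ihkToQ q (gleIota (ihkZq q) g) = amg55_iota g := by
  apply amg55_ext <;>
    simp [amg55_iota_apply, gleIota_coe]

theorem glm_toQ_tw (q : ℕ) [Fact q.Prime] [NeZero q] (g : SL(2, ℤ)) :
    ihkToQ q (gleTw (glmQ q) g) = amg55_eta q (amg55_iota g) := by
  apply amg55_ext
  · show (ihkToQ q (gleTw (glmQ q) g)).1 0 0 = _
    rw [ihkToQ_apply, gleTw_coe, amg55_eta_00, amg55_iota_apply]
    simp
  · show (ihkToQ q (gleTw (glmQ q) g)).1 0 1 = _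
    rw [ihkToQ_apply, gleTw_coe, amg55_eta_01, amg55_iota_apply]
    simp [glmQ_inv_coe, div_eq_mul_inv]
  · show (ihkToQ q (gleTw (glmQ q) g)).1 1 0 = _
    rw [ihkToQ_apply, gleTw_coe, amg55_eta_10, amg55_iota_apply]
    simp [glmQ_coe]
  · show (ihkToQ q (gleTw (glmQ q) g)).1 1 1 = _
    rw [ihkToQ_apply, gleTw_coe, amg55_eta_11, amg55_iota_apply]
    simp

/-- `ℓ` is a non-zero-divisor of `ℤ[1/q]`. -/
theorem glm_nzd (q ℓ : ℕ) (hℓ : ℓ ≠ 0) (x : ihkZq q) (h : ((ℓ : ℕ) : ihkZq q) * x = 0) : x = 0 := by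
  have h1 := congrArg (Subtype.val : ihkZq q → ℚ) h
  simp only [Subring.coe_mul, Subring.coe_natCast, Subring.coe_zero] at h1
  have hℓ' : (ℓ : ℚ) ≠ 0 := by exact_mod_cast hℓ
  apply Subtype.ext
  simpa [hℓ'] using h1

theorem glm_isUnit_cast (q ℓ : ℕ) [Fact q.Prime] [Fact ℓ.Prime] (hℓq : ℓ ≠ q) :
    IsUnit (Int.castRingHom (ZMod ℓ) (q : ℤ)) := by
  have hq : q.Prime := Fact.out
  have hℓ : ℓ.Prime := Fact.out
  rw [eq_intCast, Int.cast_natCast]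
  apply (ZMod.isUnit_iff_coprime q ℓ).mpr
  exact (Nat.coprime_primes hq hℓ).mpr (Ne.symm hℓq)

/-- **D-GLUE in the official model.** -/
theorem glm_eigen (N q : ℕ) [NeZero N] [hq : Fact q.Prime] (hNq : Nat.Coprime N q)
    (ℓ : ℕ) [hℓ : Fact ℓ.Prime] (hℓN : ¬ ℓ ∣ N) (hℓq : ℓ ≠ q)
    {k : Type*} [Field k] (φQ : SL(2, ℚ) → k)
    (hφQ : ∀ g ∈ amg55_Delta N q, ∀ h ∈ amg55_Delta N q, φQ (g * h) = φQ g + φQ h)
    (ψ₁ ψ₂ : Additive (Gamma0 N) →+ k)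
    (h₁ : ∀ g : Gamma0 N, φQ (amg55_iota (g : SL(2, ℤ))) = ψ₁ (Additive.ofMul g))
    (h₂ : ∀ g : Gamma0 N, φQ (amg55_eta q (amg55_iota (g : SL(2, ℤ)))) = ψ₂ (Additive.ofMul g))
    (lam : k)
    (heig₁ : ∀ g : Gamma0 N,
      cohOpGen N ⟨ℓ, hℓ.out⟩ ψ₁ (Additive.ofMul g) = lam * ψ₁ (Additive.ofMul g))
    (heig₂ : ∀ g : Gamma0 N,
      cohOpGen N ⟨ℓ, hℓ.out⟩ ψ₂ (Additive.ofMul g) = lam * ψ₂ (Additive.ofMul g)) :
    IhkEigen ((N : ℕ) : ihkZq q) (fun γ => φQ (ihkToQ q γ)) ℓ lam := by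
  have hq0 : q ≠ 0 := hq.out.ne_zero
  have : NeZero q := ⟨hq0⟩
  have hu := glm_isUnit_cast q ℓ hℓq
  set π : ihkZq q →+* ZMod ℓ := ihkPi (ihkZq q) q ℓ hu with hπdef
  have hπ : ∀ x : ihkZq q, π x = 0 → ((ℓ : ℕ) : ihkZq q) ∣ x := fun x hx => ihkPi_ker q hu x hx
  have hadd : IhkAdd ((N : ℕ) : ihkZq q) (fun γ => φQ (ihkToQ q γ)) := ihk_add_of_Q q N hq0 φQ hφQ
  have hcl := ihk_delta_eq_closure (N := N) (q := q) hNq
  set X : Set (IhkSL (ihkZq q)) :=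
    ihkToQ q ⁻¹' ((amg55_S N q false : Set _) ∪ (amg55_S N q true : Set _)) with hX
  have hgood : ∀ γ ∈ X, GleGood ((N : ℕ) : ihkZq q) (fun γ => φQ (ihkToQ q γ)) ℓ lam γ := by
    rintro γ (hγ | hγ)
    · obtain ⟨g, hg, hgγ⟩ := hγ
      have e : γ = gleIota (ihkZq q) g := by
        apply ihkToQ_injective q
        rw [glm_toQ_iota]
        exact hgγ.symm
      rw [e]
      exact gle_good_gamma0 N ℓ hℓN (fun γ => φQ (ihkToQ q γ)) ψ₁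
        (fun g' => by rw [glm_toQ_iota]; exact h₁ g') lam heig₁ ⟨g, hg⟩
    · obtain ⟨g, hg, hgγ⟩ := hγ
      have e : γ = gleTw (glmQ q) g := by
        apply ihkToQ_injective q
        rw [glm_toQ_tw]
        exact hgγ.symm
      rw [e]
      exact gle_good_twist N ℓ hℓN π hπ (glmQ q) (fun γ => φQ (ihkToQ q γ)) hadd ψ₂
        (fun g' => by rw [glm_toQ_tw]; exact h₂ g') lam heig₂ ⟨g, hg⟩
  have hXΔ : X ⊆ (ihkDelta ((N : ℕ) : ihkZq q) : Set (IhkSL (ihkZq q))) := by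
    rw [hcl]
    exact Subgroup.subset_closure
  have hgen : (ihkDelta ((N : ℕ) : ihkZq q) : Set (IhkSL (ihkZq q))) ⊆ Subgroup.closure X := by
    rw [hcl]
  exact gle_eigen_of_closure π (glm_nzd q ℓ hℓ.out.ne_zero) hadd X hXΔ hgen hgood

end Fermat.Agent.S41x
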