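import Fermat.Agent.S41x.IharaFinal

set_option autoImplicit false

namespace Fermat.Agent.S41x

open scoped MatrixGroups
open CongruenceSubgroup Fermat.Agent.S16x ModularCurve ModularCurve.Period
open WeierstrassCurve WeierstrassCurve.Affine WeierstrassCurve.Affine.Point

section ModP

/-- a parabolic integral class all of whose values are divisible by `p` is `p` times a parabolic
integral class. -/
theorem ihl_div_p {Γ : Subgroup SL(2, ℤ)} (p : ℕ) (hp : p ≠ 0) (x : Additive Γ →+ ℤ)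
    (hx : x ∈ parabolicHoms ℤ Γ ℤ) (h : ∀ γ, (p : ℤ) ∣ x γ) :
    ∃ x' ∈ parabolicHoms ℤ Γ ℤ, x = (p : ℤ) • x' := by
  have hp' : (p : ℤ) ≠ 0 := by exact_mod_cast hp
  let x' : Additive Γ →+ ℤ :=
    { toFun := fun γ => x γ / (p : ℤ)
      map_zero' := by simp
      map_add' := by
        intro a b
        obtain ⟨u, hu⟩ := h a
        obtain ⟨v, hv⟩ := h b
        rw [map_add, hu, hv, ← mul_add, Int.mul_ediv_cancel_left _ hp',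
          Int.mul_ediv_cancel_left _ hp', Int.mul_ediv_cancel_left _ hp'] }
  have hx' : ∀ γ, x γ = (p : ℤ) * x' γ := by
    intro γ
    obtain ⟨u, hu⟩ := h γ
    show x γ = (p : ℤ) * (x γ / (p : ℤ))
    rw [hu, Int.mul_ediv_cancel_left _ hp']
  refine ⟨x', ?_, ?_⟩
  · intro γ hγ
    have h1 := hx γ hγ
    rw [hx'] at h1
    exact (mul_eq_zero.mp h1).resolve_left hp'
  · refine DFunLike.ext _ _ fun γ => ?_
    rw [AddMonoidHom.smul_apply, smul_eq_mul]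
    exact hx' γ

/-- reduction modulo `p` of an integral class. -/
def ihlRed {Γ : Subgroup SL(2, ℤ)} (p : ℕ) (x : Additive Γ →+ ℤ) : Additive Γ →+ ZMod p :=
  (Int.castAddHom (ZMod p)).comp x

theorem ihlRed_apply {Γ : Subgroup SL(2, ℤ)} (p : ℕ) (x : Additive Γ →+ ℤ) (γ : Additive Γ) :
    ihlRed p x γ = ((x γ : ℤ) : ZMod p) := rfl

theorem ihlRed_eq_zero_iff {Γ : Subgroup SL(2, ℤ)} (p : ℕ) (x : Additive Γ →+ ℤ) :
    ihlRed p x = 0 ↔ ∀ γ, (p : ℤ) ∣ x γ := by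
  constructor
  · intro h γ
    have := DFunLike.congr_fun h γ
    rw [ihlRed_apply, AddMonoidHom.zero_apply, ZMod.intCast_zmod_eq_zero_iff_dvd] at this
    exact this
  · intro h
    refine DFunLike.ext _ _ fun γ => ?_
    rw [ihlRed_apply, AddMonoidHom.zero_apply, ZMod.intCast_zmod_eq_zero_iff_dvd]
    exact h γ

end ModP

section Lattice

variable {N q p : ℕ}

theorem ihlRed_res [NeZero q] (x : Additive (Gamma0 N) →+ ℤ) :
    lrRes N q (ihlRed p x) = ihlRed p (lrRes N q x) := rfl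

theorem ihlRed_resEta [NeZero q] (x : Additive (Gamma0 N) →+ ℤ) :
    lrResEta N q (ihlRed p x) = ihlRed p (lrResEta N q x) := rfl

theorem ihlRed_T [NeZero N] (ℓ : Nat.Primes) (x : Additive (Gamma0 N) →+ ℤ) :
    lrT N ℓ (ihlRed p x) = ihlRed p (lrT N ℓ x) :=
  (cohOpGen_comp N ℓ (Int.castAddHom (ZMod p)) x).symm

/-- **Ihara's lemma, lattice form** (the hypothesis `hIhara` of the abstract Ribet lemma):
for `x₁ x₂ ∈ H¹_par(Γ₀(N), ℤ)` which are eigen mod `p` for the `T_ℓ` (good `ℓ ∤ N q p`) with the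
eigenvalues `a_ℓ(W)`, if `α(x₁,x₂) = res x₁ + resEta x₂ ∈ p Hom(Γ₀(N q), ℤ)` then `x₁, x₂ ∈ p H¹_par`. -/
theorem ihl_ihara_lattice (E : WeierstrassCurve ℚ) [E.IsElliptic] {W : WeierstrassCurve ℤ}
    (hW : W.IsIntegralModelOf E) (hp : p.Prime) (hp2 : p ≠ 2) [NeZero N] [NeZero q] (hq : q.Prime)
    (hqN : ¬ q ∣ N)
    (hirr : GaloisRepIsIrreducible (K := AlgebraicClosure ℚ) ℚ E p)
    (x₁ x₂ : Additive (Gamma0 N) →+ ℤ)
    (hx₁ : x₁ ∈ parabolicHoms ℤ (Gamma0 N) ℤ) (hx₂ : x₂ ∈ parabolicHoms ℤ (Gamma0 N) ℤ)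
    (h₁ : ∀ ℓ : Nat.Primes, W.IsGoodPrimeFor ℓ → ¬ (ℓ : ℕ) ∣ N * q → (ℓ : ℕ) ≠ p →
      ∃ z : Additive (Gamma0 N) →+ ℤ, lrT N ℓ x₁ - (W.apOfModel ℓ : ℤ) • x₁ = (p : ℤ) • z)
    (h₂ : ∀ ℓ : Nat.Primes, W.IsGoodPrimeFor ℓ → ¬ (ℓ : ℕ) ∣ N * q → (ℓ : ℕ) ≠ p →
      ∃ z : Additive (Gamma0 N) →+ ℤ, lrT N ℓ x₂ - (W.apOfModel ℓ : ℤ) • x₂ = (p : ℤ) • z)
    (hker : ∃ y : Additive (Gamma0 (N * q)) →+ ℤ, lrRes N q x₁ + lrResEta N q x₂ = (p : ℤ) • y) :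
    (∃ z ∈ parabolicHoms ℤ (Gamma0 N) ℤ, x₁ = (p : ℤ) • z) ∧
      (∃ z ∈ parabolicHoms ℤ (Gamma0 N) ℤ, x₂ = (p : ℤ) • z) := by
  have hred_smul : ∀ {Γ : Subgroup SL(2, ℤ)} (z : Additive Γ →+ ℤ), ihlRed p ((p : ℤ) • z) = 0 := by
    intro Γ z
    rw [ihlRed_eq_zero_iff]
    intro γ
    rw [AddMonoidHom.smul_apply, smul_eq_mul]
    exact dvd_mul_right _ _
  have hred_add : ∀ {Γ : Subgroup SL(2, ℤ)} (u v : Additive Γ →+ ℤ),
      ihlRed p (u + v) = ihlRed p u + ihlRed p v := by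
    intro Γ u v
    exact AddMonoidHom.comp_add _ _ _
  have hkey : ∀ (x : Additive (Gamma0 N) →+ ℤ), (∀ ℓ : Nat.Primes, W.IsGoodPrimeFor ℓ →
      ¬ (ℓ : ℕ) ∣ N * q → (ℓ : ℕ) ≠ p →
      ∃ z : Additive (Gamma0 N) →+ ℤ, lrT N ℓ x - (W.apOfModel ℓ : ℤ) • x = (p : ℤ) • z) →
      ∀ ℓ : Nat.Primes, W.IsGoodPrimeFor ℓ → ¬ (ℓ : ℕ) ∣ N * q → (ℓ : ℕ) ≠ p →
      lrT N ℓ (ihlRed p x) = ((W.apOfModel ℓ : ℤ) : ZMod p) • ihlRed p x := by
    intro x hx ℓ hg hℓ hℓp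
    obtain ⟨z, hz⟩ := hx ℓ hg hℓ hℓp
    rw [ihlRed_T]
    have h3 : lrT N ℓ x = (W.apOfModel ℓ : ℤ) • x + (p : ℤ) • z := by
      rw [← hz]; abel
    rw [h3, hred_add, hred_smul, add_zero]
    refine DFunLike.ext _ _ fun γ => ?_
    rw [ihlRed_apply, AddMonoidHom.smul_apply, AddMonoidHom.smul_apply, ihlRed_apply, smul_eq_mul,
      smul_eq_mul]
    push_cast
    rfl
  have hker' : lrRes N q (ihlRed p x₁) + lrResEta N q (ihlRed p x₂) = 0 := by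
    obtain ⟨y, hy⟩ := hker
    rw [ihlRed_res, ihlRed_resEta, ← hred_add, hy, hred_smul]
  obtain ⟨e1, e2⟩ := ihara_main E hW hp hp2 hq hqN hirr (ihlRed p x₁) (ihlRed p x₂) hker'
    (hkey x₁ h₁) (hkey x₂ h₂)
  exact ⟨ihl_div_p p hp.ne_zero x₁ hx₁ ((ihlRed_eq_zero_iff p x₁).mp e1),
    ihl_div_p p hp.ne_zero x₂ hx₂ ((ihlRed_eq_zero_iff p x₂).mp e2)⟩

end Lattice

end Fermat.Agent.S41x
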