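/-
S41x/IharaTransfer (helper41, block D of S41, row D-TRANSFER): the concrete model `ℤ[1/q] ⊆ ℚ` linking
helper74's abstract `IhkSL R` / `ihkDelta` / `ihk_vanish` (S41x/IharaHecke*.lean, `R` any model of `ℤ[1/q]`)
with helper67's `amg_Delta N q ⊆ SL(2,ℚ)` (S41x/AmalgamDefs.lean) and helper64's generation theorem
(S41x/AmalgamGen.lean).

* `iht_R q hq : Subring ℚ`               : `ℤ[1/q]`, with `IsLocalization.Away (q : ℤ) (iht_R q hq)`;
* `iht_incl q hq : IhkSL (iht_R q hq) →* AmgSL` : the (injective) inclusion `SL₂(ℤ[1/q]) → SL₂(ℚ)`;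
* `iht_incl_mem_Delta_iff`                : `iht_incl g ∈ amg_Delta N q ↔ g ∈ ihkDelta (N : ℤ[1/q])`;
* `iht_exists_of_mem_Delta`               : `amg_Delta N q` is the image of `ihkDelta (N : ℤ[1/q])`;
* `iht_Delta_eq`                          : `amg_Delta N q = amgg_Delta N q` (helper67's = helper64's `Δ`);
* `iht_closure_eq`                        : `⟨amg_Gam N, amg_GamE N q⟩ = amg_Delta N q` (helper67's conventions:
                                            `amg_GamE = η⁻¹ Γ η = {[[a, b/q],[q c, d]]}`);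
* `iht_gen`                               : generation of `ihkDelta (N : ℤ[1/q])` by the preimages of `Γ`, `η⁻¹ Γ η`;
* `iht_IhkAdd`, `iht_IhkEigen`, `iht_vanish` : helper74's `ihk_vanish` for a function `φ : SL(2,ℚ) → k`.
-/
import Mathlib
import Fermat.Agent.S41x.IharaHeckeFinal
import Fermat.Agent.S41x.AmalgamDefs
import Fermat.Agent.S41x.AmalgamGen

set_option autoImplicit false

namespace Fermat.Agent.S41x

open Matrix

/-- the subring `ℤ[1/q]` of `ℚ`. -/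
def iht_R (q : ℕ) (hq : q ≠ 0) : Subring ℚ where
  carrier := {x | amg_isR q x}
  mul_mem' := fun hx hy => amg_isR_mul hx hy
  one_mem' := amg_isR_one q
  add_mem' := fun hx hy => amg_isR_add hq hx hy
  zero_mem' := amg_isR_zero q
  neg_mem' := fun hx => amg_isR_neg hx

theorem iht_mem_R {q : ℕ} (hq : q ≠ 0) (x : ℚ) : x ∈ iht_R q hq ↔ amg_isR q x := Iff.rfl

theorem iht_coe_intCast {q : ℕ} (hq : q ≠ 0) (m : ℤ) : (((m : ℤ) : iht_R q hq) : ℚ) = (m : ℚ) := by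
  simp

theorem iht_coe_natCast {q : ℕ} (hq : q ≠ 0) (m : ℕ) : (((m : ℕ) : iht_R q hq) : ℚ) = (m : ℚ) := by
  simp

theorem iht_coe_algebraMap {q : ℕ} (hq : q ≠ 0) (m : ℤ) :
    ((algebraMap ℤ (iht_R q hq) m : iht_R q hq) : ℚ) = (m : ℚ) := by
  rw [eq_intCast]; simp

instance iht_isLocalization (q : ℕ) (hq : q ≠ 0) : IsLocalization.Away (q : ℤ) (iht_R q hq) := by
  have hq' : (q : ℚ) ≠ 0 := by exact_mod_cast hq
  rw [IsLocalization.Away, isLocalization_iff]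
  refine ⟨?_, ?_, ?_⟩
  · rintro ⟨y, n, rfl⟩
    rw [isUnit_iff_exists_inv]
    refine ⟨⟨((q : ℚ) ^ n)⁻¹, amg_isR_inv_pow q n⟩, ?_⟩
    apply Subtype.ext
    rw [Subring.coe_mul, iht_coe_algebraMap]
    simp only [Subring.coe_one]
    push_cast
    field_simp
  · rintro ⟨z, m, e, rfl⟩
    refine ⟨(m, ⟨(q : ℤ) ^ e, e, rfl⟩), ?_⟩
    apply Subtype.ext
    rw [Subring.coe_mul, iht_coe_algebraMap, iht_coe_algebraMap]
    push_cast
    field_simp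
  · intro x y hxy
    refine ⟨1, ?_⟩
    have := congrArg (fun z : iht_R q hq => (z : ℚ)) hxy
    simp only [iht_coe_algebraMap] at this
    have hxy' : x = y := by exact_mod_cast this
    rw [hxy']

/-- the inclusion `SL₂(ℤ[1/q]) → SL₂(ℚ)`. -/
def iht_incl (q : ℕ) (hq : q ≠ 0) : IhkSL (iht_R q hq) →* AmgSL :=
  Matrix.SpecialLinearGroup.map (iht_R q hq).subtype

@[simp] theorem iht_incl_apply {q : ℕ} (hq : q ≠ 0) (g : IhkSL (iht_R q hq)) (i j : Fin 2) :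
    (iht_incl q hq g).1 i j = ((g.1 i j : iht_R q hq) : ℚ) := rfl

theorem iht_incl_injective {q : ℕ} (hq : q ≠ 0) : Function.Injective (iht_incl q hq) := by
  intro g h hgh
  apply Subtype.ext
  ext i j
  have := congrArg (fun x : AmgSL => x.1 i j) hgh
  simp only [iht_incl_apply] at this
  exact this

/-! ### `Δ` -/

theorem iht_incl_mem_Delta_iff {N q : ℕ} (hq : q ≠ 0) (g : IhkSL (iht_R q hq)) :
    iht_incl q hq g ∈ amg_Delta N q hq ↔ g ∈ ihkDelta ((N : ℕ) : iht_R q hq) := by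
  rw [amg_mem_Delta_iff, ihk_mem_delta]
  constructor
  · rintro ⟨-, x, hx, hgx⟩
    refine ⟨⟨x, hx⟩, ?_⟩
    apply Subtype.ext
    rw [Subring.coe_mul, iht_coe_natCast]
    exact hgx
  · rintro ⟨y, hy⟩
    refine ⟨fun i j => (g.1 i j).2, (y : ℚ), y.2, ?_⟩
    rw [iht_incl_apply, hy, Subring.coe_mul, iht_coe_natCast]

/-- `amg_Delta N q` is the image of `ihkDelta (N : ℤ[1/q])`. -/
theorem iht_exists_of_mem_Delta {N q : ℕ} (hq : q ≠ 0) {g : AmgSL} (hg : g ∈ amg_Delta N q hq) :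
    ∃ g' : IhkSL (iht_R q hq), g' ∈ ihkDelta ((N : ℕ) : iht_R q hq) ∧ iht_incl q hq g' = g := by
  have hent := hg.1
  have hdet : Matrix.det (Matrix.of fun i j => (⟨g.1 i j, hent i j⟩ : iht_R q hq)) = 1 := by
    have h := g.2
    rw [Matrix.det_fin_two] at h ⊢
    apply Subtype.ext
    push_cast
    simp only [Matrix.of_apply]
    exact h
  let g' : IhkSL (iht_R q hq) := ⟨Matrix.of fun i j => (⟨g.1 i j, hent i j⟩ : iht_R q hq), hdet⟩
  have hg' : iht_incl q hq g' = g := by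
    apply Subtype.ext
    ext i j
    rfl
  refine ⟨g', ?_, hg'⟩
  rw [← iht_incl_mem_Delta_iff hq, hg']
  exact hg

/-! ### helper67's `amg_Delta` = helper64's `amgg_Delta` -/

theorem iht_isR_common {q : ℕ} (hq : q ≠ 0) {x : ℚ} (hx : amg_isR q x) :
    ∃ e0 : ℕ, ∀ e : ℕ, e0 ≤ e → ∃ m : ℤ, x = (m : ℚ) / (q : ℚ) ^ e := by
  have hq' : (q : ℚ) ≠ 0 := by exact_mod_cast hq
  obtain ⟨m, e0, rfl⟩ := hx
  refine ⟨e0, fun e he => ⟨m * (q : ℤ) ^ (e - e0), ?_⟩⟩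
  obtain ⟨d, rfl⟩ := Nat.exists_eq_add_of_le he
  rw [Nat.add_sub_cancel_left, pow_add]
  push_cast
  field_simp

theorem iht_Delta_eq (N q : ℕ) (hq : q ≠ 0) : amg_Delta N q hq = amgg_Delta N q hq := by
  have hq' : (q : ℚ) ≠ 0 := by exact_mod_cast hq
  ext g
  rw [amg_mem_Delta_iff, amgg_mem_Delta_iff]
  constructor
  · rintro ⟨hent, x, hx, hgx⟩
    obtain ⟨e00, h00⟩ := iht_isR_common hq (hent 0 0)
    obtain ⟨e01, h01⟩ := iht_isR_common hq (hent 0 1)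
    obtain ⟨e10, h10⟩ := iht_isR_common hq hx
    obtain ⟨e11, h11⟩ := iht_isR_common hq (hent 1 1)
    set e := e00 + e01 + e10 + e11 with he
    obtain ⟨A, hA⟩ := h00 e (by omega)
    obtain ⟨B, hB⟩ := h01 e (by omega)
    obtain ⟨C, hC⟩ := h10 e (by omega)
    obtain ⟨D, hD⟩ := h11 e (by omega)
    refine ⟨e, A, B, (N : ℤ) * C, D, Dvd.intro _ rfl, hA, hB, ?_, hD⟩
    show g.1 1 0 = _
    rw [hgx, hC]
    push_cast
    ring
  · rintro ⟨e, A, B, C, D, ⟨C', rfl⟩, h00, h01, h10, h11⟩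
    refine ⟨fun i j => ?_, (C' : ℚ) / (q : ℚ) ^ e, ⟨C', e, rfl⟩, ?_⟩
    · fin_cases i <;> fin_cases j
      · exact ⟨A, e, h00⟩
      · exact ⟨B, e, h01⟩
      · exact ⟨(N : ℤ) * C', e, h10⟩
      · exact ⟨D, e, h11⟩
    · show g 1 0 = _
      rw [h10]
      push_cast
      ring

/-! ### generation, in helper67's conventions -/

theorem iht_tw_mem_Delta {N q : ℕ} (hq : q ≠ 0) {g : AmgSL} (hg : g ∈ amg_Delta N q hq) :
    amg_tw (q : ℚ)⁻¹ (inv_ne_zero (by exact_mod_cast hq)) g ∈ amg_Delta N q hq := by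
  have hq' : (q : ℚ) ≠ 0 := by exact_mod_cast hq
  obtain ⟨hent, x, hx, hgx⟩ := hg
  have hinv : amg_isR q ((q : ℚ)⁻¹) := by
    have := amg_isR_inv_pow q 1
    simpa using this
  refine ⟨fun i j => ?_, (q : ℚ)⁻¹ * x, amg_isR_mul hinv hx, ?_⟩
  · fin_cases i <;> fin_cases j
    · exact hent 0 0
    · show amg_isR q (g.1 0 1 / (q : ℚ)⁻¹)
      rw [div_inv_eq_mul]
      exact amg_isR_mul (hent 0 1) (amg_isR_natCast q q)
    · show amg_isR q ((q : ℚ)⁻¹ * g.1 1 0)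
      exact amg_isR_mul hinv (hent 1 0)
    · exact hent 1 1
  · show (q : ℚ)⁻¹ * g.1 1 0 = _
    rw [hgx]
    ring

/-- **GENERATION** in helper67's conventions: `⟨Γ₀(N), η⁻¹ Γ₀(N) η⟩ = Γ₀(N)(ℤ[1/q])`. -/
theorem iht_closure_eq {N q : ℕ} (hq : q.Prime) (hNq : Nat.Coprime N q) :
    Subgroup.closure ((amg_Gam N : Set AmgSL) ∪
      (amg_GamE N q (by exact_mod_cast hq.ne_zero) : Set AmgSL)) = amg_Delta N q hq.ne_zero := by
  have hq0 : q ≠ 0 := hq.ne_zero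
  have hq' : (q : ℚ) ≠ 0 := by exact_mod_cast hq0
  apply le_antisymm
  · rw [Subgroup.closure_le]
    rintro x (hx | hx)
    · exact amg_Gam_le_Delta N q hq0 hx
    · exact amg_GamE_le_Delta N q hq0 hx
  · intro g hg
    have h1 : amg_tw (q : ℚ)⁻¹ (inv_ne_zero hq') g ∈ amgg_H N q := by
      rw [amgg_H_eq_Delta hq hNq, ← iht_Delta_eq]
      exact iht_tw_mem_Delta hq0 hg
    have h2 : amg_tw (q : ℚ) hq' (amg_tw (q : ℚ)⁻¹ (inv_ne_zero hq') g) ∈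
        (amgg_H N q).map (amg_tw (q : ℚ) hq') := Subgroup.mem_map_of_mem _ h1
    rw [amg_tw_tw_inv, amgg_H, MonoidHom.map_closure] at h2
    refine (Subgroup.closure_mono ?_) h2
    rintro _ ⟨x, hx, rfl⟩
    rcases hx with ⟨a, b, c, d, hc, h00, h01, h10, h11⟩ | ⟨a, b, c, d, hc, h00, h01, h10, h11⟩
    · -- `x ∈ Γ`, so `tw x ∈ η⁻¹ Γ η`
      right
      refine ⟨x, ?_, rfl⟩
      show x ∈ amg_Gam N
      rw [amg_mem_Gam_iff]
      obtain ⟨c', rfl⟩ := hc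
      refine ⟨fun i j => ?_, c', ?_⟩
      · fin_cases i <;> fin_cases j
        · exact ⟨a, h00⟩
        · exact ⟨b, h01⟩
        · exact ⟨_, h10⟩
        · exact ⟨d, h11⟩
      · show x 1 0 = _
        rw [h10]
        push_cast
        ring
    · -- `x ∈ η Γ η⁻¹`, so `tw x ∈ Γ`
      left
      show amg_tw (q : ℚ) hq' x ∈ amg_Gam N
      rw [amg_mem_Gam_iff]
      obtain ⟨c', rfl⟩ := hc
      refine ⟨fun i j => ?_, c', ?_⟩
      · fin_cases i <;> fin_cases j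
        · exact ⟨a, h00⟩
        · refine ⟨b, ?_⟩
          show x.1 0 1 / (q : ℚ) = _
          have : x.1 0 1 = (q : ℚ) * b := h01
          rw [this]
          field_simp
        · refine ⟨(N : ℤ) * c', ?_⟩
          show (q : ℚ) * x.1 1 0 = _
          have : x.1 1 0 = (((N : ℤ) * c' : ℤ) : ℚ) / q := h10
          rw [this]
          field_simp
        · exact ⟨d, h11⟩
      · show (q : ℚ) * x.1 1 0 = _
        have : x.1 1 0 = (((N : ℤ) * c' : ℤ) : ℚ) / q := h10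
        rw [this]
        push_cast
        field_simp

/-- pull-back of a generation statement along an injective homomorphism. -/
theorem iht_mem_closure_preimage {G H : Type*} [Group G] [Group H] (f : G →* H)
    (hf : Function.Injective f) (S : Set H) (hS : S ⊆ Set.range f) (g : G)
    (hg : f g ∈ Subgroup.closure S) : g ∈ Subgroup.closure (f ⁻¹' S) := by
  have h1 : Subgroup.closure S = (Subgroup.closure (f ⁻¹' S)).map f := by
    rw [MonoidHom.map_closure, Set.image_preimage_eq_of_subset hS]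
  rw [h1] at hg
  obtain ⟨g', hg', hgg'⟩ := hg
  rw [← hf hgg']
  exact hg'

/-- **GENERATION** inside `SL₂(ℤ[1/q])`, in the shape of `hgen` of `gle_eigen_of_closure`. -/
theorem iht_gen {N q : ℕ} (hq : q.Prime) (hNq : Nat.Coprime N q) :
    (ihkDelta ((N : ℕ) : iht_R q hq.ne_zero) : Set (IhkSL (iht_R q hq.ne_zero))) ⊆
      Subgroup.closure {g | iht_incl q hq.ne_zero g ∈ amg_Gam N ∨
        iht_incl q hq.ne_zero g ∈ amg_GamE N q (by exact_mod_cast hq.ne_zero)} := by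
  intro g hg
  have hq0 : q ≠ 0 := hq.ne_zero
  have hq' : (q : ℚ) ≠ 0 := by exact_mod_cast hq0
  have h1 : iht_incl q hq0 g ∈ amg_Delta N q hq0 :=
    (iht_incl_mem_Delta_iff hq0 g).mpr hg
  rw [← iht_closure_eq hq hNq] at h1
  have hS : ((amg_Gam N : Set AmgSL) ∪ (amg_GamE N q hq' : Set AmgSL)) ⊆
      Set.range (iht_incl q hq0) := by
    rintro x (hx | hx)
    · obtain ⟨g', -, hg'⟩ := iht_exists_of_mem_Delta hq0 (amg_Gam_le_Delta N q hq0 hx)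
      exact ⟨g', hg'⟩
    · obtain ⟨g', -, hg'⟩ := iht_exists_of_mem_Delta hq0 (amg_GamE_le_Delta N q hq0 hx)
      exact ⟨g', hg'⟩
  have h2 := iht_mem_closure_preimage (iht_incl q hq0) (iht_incl_injective hq0) _ hS g h1
  refine Subgroup.closure_mono ?_ h2
  rintro x (hx | hx)
  · exact Or.inl hx
  · exact Or.inr hx

/-- the generating set of `iht_gen` lies in `Δ`. -/
theorem iht_gen_subset {N q : ℕ} (hq : q ≠ 0) :
    {g | iht_incl q hq g ∈ amg_Gam N ∨ iht_incl q hq g ∈ amg_GamE N q (by exact_mod_cast hq)} ⊆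
      (ihkDelta ((N : ℕ) : iht_R q hq) : Set (IhkSL (iht_R q hq))) := by
  rintro g (hg | hg)
  · exact (iht_incl_mem_Delta_iff hq g).mp (amg_Gam_le_Delta N q hq hg)
  · exact (iht_incl_mem_Delta_iff hq g).mp (amg_GamE_le_Delta N q hq hg)

/-! ### transfer of functions `SL(2,ℚ) → k` -/

section Transfer

variable {k : Type*} [Field k] {N q : ℕ} (hq : q ≠ 0) (φ : AmgSL → k)

/-- additivity on `amg_Delta` gives helper74's `IhkAdd` for the restriction to `SL₂(ℤ[1/q])`. -/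
theorem iht_IhkAdd
    (hφ : ∀ g ∈ amg_Delta N q hq, ∀ h ∈ amg_Delta N q hq, φ (g * h) = φ g + φ h) :
    IhkAdd ((N : ℕ) : iht_R q hq) (φ ∘ iht_incl q hq) := by
  intro g hg h hh
  show φ (iht_incl q hq (g * h)) = φ (iht_incl q hq g) + φ (iht_incl q hq h)
  rw [map_mul]
  exact hφ _ ((iht_incl_mem_Delta_iff hq g).mpr hg) _ ((iht_incl_mem_Delta_iff hq h).mpr hh)

theorem iht_alpha_map (ℓ : ℕ) (i : Option (ZMod ℓ)) :
    (ihkAlpha (iht_R q hq) ℓ i).map (iht_R q hq).subtype = ihkAlpha ℚ ℓ i := by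
  rcases i with _ | j
  · ext a b
    fin_cases a <;> fin_cases b <;> simp [ihkAlpha]
  · ext a b
    fin_cases a <;> fin_cases b <;> simp [ihkAlpha]

theorem iht_incl_coe (g : IhkSL (iht_R q hq)) :
    (iht_incl q hq g).1 = g.1.map (iht_R q hq).subtype := rfl

/-- the `T_ℓ`-eigen-equation for `φ : SL(2,ℚ) → k` on `amg_Delta N q`, with matrices over `ℚ`. -/
def IhtEigen (N q : ℕ) (hq : q ≠ 0) (φ : AmgSL → k) (ℓ : ℕ) [NeZero ℓ] (lam : k) : Prop :=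
  ∀ γ ∈ amg_Delta N q hq, ∀ (σ : Option (ZMod ℓ) → Option (ZMod ℓ))
    (γ' : Option (ZMod ℓ) → AmgSL), (∀ i, γ' i ∈ amg_Delta N q hq) →
    (∀ i, ihkAlpha ℚ ℓ i * γ.1 = (γ' i).1 * ihkAlpha ℚ ℓ (σ i)) →
    ∑ i, φ (γ' i) = lam * φ γ

theorem iht_IhkEigen {ℓ : ℕ} [NeZero ℓ] {lam : k} (h : IhtEigen N q hq φ ℓ lam) :
    IhkEigen ((N : ℕ) : iht_R q hq) (φ ∘ iht_incl q hq) ℓ lam := by
  intro γ hγ σ γ' hm hrel
  refine h (iht_incl q hq γ) ((iht_incl_mem_Delta_iff hq γ).mpr hγ) σ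
    (fun i => iht_incl q hq (γ' i)) (fun i => (iht_incl_mem_Delta_iff hq _).mpr (hm i)) ?_
  intro i
  rw [iht_incl_coe, iht_incl_coe, ← iht_alpha_map hq ℓ i, ← iht_alpha_map hq ℓ (σ i),
    ← Matrix.map_mul, ← Matrix.map_mul, hrel i]

theorem iht_IhtEigen {ℓ : ℕ} [NeZero ℓ] {lam : k}
    (h : IhkEigen ((N : ℕ) : iht_R q hq) (φ ∘ iht_incl q hq) ℓ lam) : IhtEigen N q hq φ ℓ lam := by
  intro γ hγ σ γ' hm hrel
  obtain ⟨γ₀, hγ₀, rfl⟩ := iht_exists_of_mem_Delta hq hγ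
  have hex : ∀ i, ∃ g' : IhkSL (iht_R q hq), g' ∈ ihkDelta ((N : ℕ) : iht_R q hq) ∧
      iht_incl q hq g' = γ' i := fun i => iht_exists_of_mem_Delta hq (hm i)
  choose γ₁ hγ₁ hγ₁' using hex
  have := h γ₀ hγ₀ σ γ₁ hγ₁ ?_
  · simp only [Function.comp_apply, hγ₁'] at this
    exact this
  · intro i
    have h2 := hrel i
    rw [← hγ₁' i, iht_incl_coe, iht_incl_coe, ← iht_alpha_map hq ℓ i, ← iht_alpha_map hq ℓ (σ i),
      ← Matrix.map_mul, ← Matrix.map_mul] at h2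
    exact Matrix.map_injective (Subtype.val_injective) h2

end Transfer

/-- **Ihara's lemma, Hecke form, over `ℚ`** (= helper74's `ihk_vanish` for the model `ℤ[1/q] ⊆ ℚ`):
a function `φ : SL(2,ℚ) → k` (`char k = p` odd) which is additive on `Δ = Γ₀(N)(ℤ[1/q])` and is a
`T_ℓ`-eigenvector on `Δ` with eigenvalue `a ℓ` for all good `ℓ ∤ M0` vanishes on `Δ`, provided
BRIDGE-prime holds for `(good, a)`. -/
theorem iht_vanish {k : Type*} [Field k] {p : ℕ} [CharP k p] (hp : p.Prime) (hp2 : p ≠ 2)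
    {N q : ℕ} (hq : q.Prime) (hN : N ≠ 0) (φ : AmgSL → k)
    (hφ : ∀ g ∈ amg_Delta N q hq.ne_zero, ∀ h ∈ amg_Delta N q hq.ne_zero, φ (g * h) = φ g + φ h)
    (good : ℕ → Prop) (a : ℕ → ℤ) (M0 : ℕ) (hM0 : 0 < M0)
    (hT : ∀ (ℓ : ℕ) [Fact ℓ.Prime], good ℓ → ¬ ℓ ∣ M0 →
      IhkEigen ((N : ℕ) : iht_R q hq.ne_zero) (φ ∘ iht_incl q hq.ne_zero) ℓ ((a ℓ : ℤ) : k))
    (hB : ∀ n : ℕ, 0 < n → p ∣ n → ∀ M : ℕ, 0 < M →
      ∃ ℓ : ℕ, ℓ.Prime ∧ good ℓ ∧ ¬ ℓ ∣ M ∧ ℓ ≠ p ∧ ℓ ≡ 1 [MOD n] ∧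
        (¬ ∃ y : ℤ, (ℓ : ℤ) ∣ y ^ p - (q : ℤ)) ∧ ¬ (p : ℤ) ∣ ((ℓ : ℤ) + 1 - a ℓ))
    {γ : AmgSL} (hγ : γ ∈ amg_Delta N q hq.ne_zero) : φ γ = 0 := by
  obtain ⟨γ₀, hγ₀, rfl⟩ := iht_exists_of_mem_Delta hq.ne_zero hγ
  have hN' : ((N : ℕ) : iht_R q hq.ne_zero) ≠ 0 := by
    intro h
    have := congrArg (fun z : iht_R q hq.ne_zero => (z : ℚ)) h
    simp only [iht_coe_natCast, ZeroMemClass.coe_zero] at this
    exact hN (by exact_mod_cast this)
  exact ihk_vanish (R := iht_R q hq.ne_zero) q hp hp2 hq hN' (iht_IhkAdd hq.ne_zero φ hφ) good a M0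
    hM0 hT hB hγ₀

/-- `iht_vanish` with the eigen-equations written with matrices over `ℚ`. -/
theorem iht_vanish' {k : Type*} [Field k] {p : ℕ} [CharP k p] (hp : p.Prime) (hp2 : p ≠ 2)
    {N q : ℕ} (hq : q.Prime) (hN : N ≠ 0) (φ : AmgSL → k)
    (hφ : ∀ g ∈ amg_Delta N q hq.ne_zero, ∀ h ∈ amg_Delta N q hq.ne_zero, φ (g * h) = φ g + φ h)
    (good : ℕ → Prop) (a : ℕ → ℤ) (M0 : ℕ) (hM0 : 0 < M0)
    (hT : ∀ (ℓ : ℕ) [Fact ℓ.Prime], good ℓ → ¬ ℓ ∣ M0 →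
      IhtEigen N q hq.ne_zero φ ℓ ((a ℓ : ℤ) : k))
    (hB : ∀ n : ℕ, 0 < n → p ∣ n → ∀ M : ℕ, 0 < M →
      ∃ ℓ : ℕ, ℓ.Prime ∧ good ℓ ∧ ¬ ℓ ∣ M ∧ ℓ ≠ p ∧ ℓ ≡ 1 [MOD n] ∧
        (¬ ∃ y : ℤ, (ℓ : ℤ) ∣ y ^ p - (q : ℤ)) ∧ ¬ (p : ℤ) ∣ ((ℓ : ℤ) + 1 - a ℓ))
    {γ : AmgSL} (hγ : γ ∈ amg_Delta N q hq.ne_zero) : φ γ = 0 :=
  iht_vanish hp hp2 hq hN φ hφ good a M0 hM0
    (fun ℓ _ hg hℓ => iht_IhkEigen hq.ne_zero φ (hT ℓ hg hℓ)) hB hγ

end Fermat.Agent.S41x
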