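/-
S41 (level raising, Ribet): ARCHITECT'S SPEC (helper20).  SORRY-ONLY.  NEVER IMPORT THIS FILE.
Each real module re-states its row under ITS OWN fresh prefixed names, sorry-free, in a NEW file.
The names below (namespace `Fermat.Agent.S41x.LRSpec`) are placeholders that fix the SHAPES.

Base definitions (real, importable): `Fermat/Agent/S41x/LRBase.lean`
  lrIncl, lrConjEta, lrRes, lrResEta, lrT M ℓ (= S16x.cohOpGen M ℓ), lrL M (= parabolicHoms ℤ Γ₀(M) ℤ).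

BLOCKS.  B = COH-LEVEL (captain helper27) | C = DUAL (captain helper52) | D = IHARA (captain helper74)
         A' = BRIDGE-prime (captain helper66, consumed by D) | E = RIBET + TOP (captain helper20).

PROOF OF S41 FROM THE ROWS (informal; `q = q'`, `X = lrL N`, `Y = lrL (N q)`, `S` = good primes ∤ N q p):
 1. EIG-1: `x_f = periodHomPair N (f,0) ≠ 0` is an eigenvector of all `lrT N ℓ` with eigenvalue `a_ℓ(f)`.
 2. LAT + ABS-E0 (index set `Option S`): `v ∈ X ∖ pX`, `T_ℓ v ≡ a_ℓ(W) v`, `T_q v ≡ ε(q+1) v (mod pX)`.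
 3. E-ABS with `α = (lrRes, lrResEta)`, `β = (lrCores, lrCoresEta)`, B1, B2, B4, C-exports (T_ℓ selfadjoint
    on Y from B1 + C at level (N q, ℓ)), Ihara hypothesis from D (`ihara_main`, reduce mod p by LAT-modp):
    `y ∈ K = ker β ⊆ Y`, `y ∉ pK`, `T_ℓ y ≡ a_ℓ(W) y (mod pK)`.
 4. ABS-E2 on `K` with ALL operators `lrT (N q) m` (B2 for m ≠ q, B3 for m = q give stability of `K`):
    `w ∈ ℂ·K`, `w ≠ 0`, `lrT (N q) m w = μ_m w`, `μ_ℓ ≡ a_ℓ(W) (mod 𝔪')`, `p ∈ 𝔪'`.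
 5. B3 over ℂ: `U_q² w = w`, so `μ_q² = 1`.  EIG-2: normalised eigenform `g` of level `N q` with
    `a_m(g) = μ_m` for all primes `m`.  Done: `g.IsNewAt q`, congruences mod `𝔪'`.
-/
import Fermat.Agent.S41x.LRBase
import Fermat.Agent.S21
import Fermat.Prelude.Def_FLTPrelim_ModularRep
import Fermat.Prelude.Def_FreyPackage_LevelRaising

set_option autoImplicit false

namespace Fermat.Agent.S41x.LRSpec

open scoped MatrixGroups
open CongruenceSubgroup ModularCurve ModularCurve.Period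
open Fermat.Agent.S41x

/-! ## BLOCK B exports (captain helper27).  For ALL `N q` with `q` prime, `¬ q ∣ N`. -/
section B
variable (N q : ℕ) [NeZero N] [NeZero q] {B : Type*} [AddCommGroup B]

instance : NeZero (N * q) := ⟨Nat.mul_ne_zero (NeZero.ne N) (NeZero.ne q)⟩

/-- transfer `Hom(Γ₀(N q), B) → Hom(Γ₀(N), B)` -/
def lrCores : (Additive (Gamma0 (N * q)) →+ B) →+ (Additive (Gamma0 N) →+ B) := sorry
/-- `[Γ₀(N q) diag(1,q) Γ₀(N)]` : the transpose of `lrResEta` -/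
def lrCoresEta : (Additive (Gamma0 (N * q)) →+ B) →+ (Additive (Gamma0 N) →+ B) := sorry

theorem lrCores_comp_coeff {B' : Type*} [AddCommGroup B'] (φ : B →+ B')
    (χ : Additive (Gamma0 (N * q)) →+ B) : lrCores N q (φ.comp χ) = φ.comp (lrCores N q χ) := sorry
theorem lrCoresEta_comp_coeff {B' : Type*} [AddCommGroup B'] (φ : B →+ B')
    (χ : Additive (Gamma0 (N * q)) →+ B) : lrCoresEta N q (φ.comp χ) = φ.comp (lrCoresEta N q χ) := sorry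
theorem lrCores_smul {R : Type*} [Semiring R] [Module R B] (c : R)
    (χ : Additive (Gamma0 (N * q)) →+ B) : lrCores N q (c • χ) = c • lrCores N q χ := sorry
theorem lrCoresEta_smul {R : Type*} [Semiring R] [Module R B] (c : R)
    (χ : Additive (Gamma0 (N * q)) →+ B) : lrCoresEta N q (c • χ) = c • lrCoresEta N q χ := sorry

variable (hq : q.Prime) (hqN : ¬ q ∣ N)
include hq hqN

/-- (B1) -/
theorem B1_cores_res (ψ : Additive (Gamma0 N) →+ B) :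
    lrCores N q (lrRes N q ψ) = ((q : ℤ) + 1) • ψ := sorry
theorem B1_coresEta_resEta (ψ : Additive (Gamma0 N) →+ B) :
    lrCoresEta N q (lrResEta N q ψ) = ((q : ℤ) + 1) • ψ := sorry
theorem B1_cores_resEta (ψ : Additive (Gamma0 N) →+ B) :
    lrCores N q (lrResEta N q ψ) = lrT N ⟨q, hq⟩ ψ := sorry
theorem B1_coresEta_res (ψ : Additive (Gamma0 N) →+ B) :
    lrCoresEta N q (lrRes N q ψ) = lrT N ⟨q, hq⟩ ψ := sorry

/-- (B2) for every prime `ℓ ≠ q` (dividing `N` or not) -/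
theorem B2_res (ℓ : Nat.Primes) (hℓ : (ℓ : ℕ) ≠ q) (ψ : Additive (Gamma0 N) →+ B) :
    lrRes N q (lrT N ℓ ψ) = lrT (N * q) ℓ (lrRes N q ψ) := sorry
theorem B2_resEta (ℓ : Nat.Primes) (hℓ : (ℓ : ℕ) ≠ q) (ψ : Additive (Gamma0 N) →+ B) :
    lrResEta N q (lrT N ℓ ψ) = lrT (N * q) ℓ (lrResEta N q ψ) := sorry
theorem B2_cores (ℓ : Nat.Primes) (hℓ : (ℓ : ℕ) ≠ q) (χ : Additive (Gamma0 (N * q)) →+ B) :
    lrCores N q (lrT (N * q) ℓ χ) = lrT N ℓ (lrCores N q χ) := sorry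
theorem B2_coresEta (ℓ : Nat.Primes) (hℓ : (ℓ : ℕ) ≠ q) (χ : Additive (Gamma0 (N * q)) →+ B) :
    lrCoresEta N q (lrT (N * q) ℓ χ) = lrT N ℓ (lrCoresEta N q χ) := sorry

/-- (B3) `U_q² = 1` on `ker β`, and `ker β` is `U_q`-stable -/
theorem B3 (χ : Additive (Gamma0 (N * q)) →+ B) (h1 : lrCores N q χ = 0) (h2 : lrCoresEta N q χ = 0) :
    lrT (N * q) ⟨q, hq⟩ (lrT (N * q) ⟨q, hq⟩ χ) = χ ∧
      lrCores N q (lrT (N * q) ⟨q, hq⟩ χ) = 0 ∧ lrCoresEta N q (lrT (N * q) ⟨q, hq⟩ χ) = 0 := sorry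

/-- (B4) parabolic stability (any coefficient group `B`, `R` any semiring acting) -/
theorem B4_res {R : Type*} [Semiring R] [Module R B] (ψ : Additive (Gamma0 N) →+ B)
    (h : ψ ∈ parabolicHoms R (Gamma0 N) B) : lrRes N q ψ ∈ parabolicHoms R (Gamma0 (N * q)) B := sorry
theorem B4_resEta {R : Type*} [Semiring R] [Module R B] (ψ : Additive (Gamma0 N) →+ B)
    (h : ψ ∈ parabolicHoms R (Gamma0 N) B) : lrResEta N q ψ ∈ parabolicHoms R (Gamma0 (N * q)) B := sorry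
theorem B4_cores {R : Type*} [Semiring R] [Module R B] (χ : Additive (Gamma0 (N * q)) →+ B)
    (h : χ ∈ parabolicHoms R (Gamma0 (N * q)) B) : lrCores N q χ ∈ parabolicHoms R (Gamma0 N) B := sorry
theorem B4_coresEta {R : Type*} [Semiring R] [Module R B] (χ : Additive (Gamma0 (N * q)) →+ B)
    (h : χ ∈ parabolicHoms R (Gamma0 (N * q)) B) : lrCoresEta N q χ ∈ parabolicHoms R (Gamma0 N) B := sorry
omit hq hqN in
theorem B4_T {R : Type*} [Semiring R] [Module R B] (ℓ : Nat.Primes) (ψ : Additive (Gamma0 N) →+ B)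
    (h : ψ ∈ parabolicHoms R (Gamma0 N) B) : lrT N ℓ ψ ∈ parabolicHoms R (Gamma0 N) B := sorry

end B

/-! ## BLOCK C exports (captain helper52). -/
section C
variable (M : ℕ) [NeZero M]

/-- the intersection (cup product) pairing on `H¹_par(Γ₀(M), ℤ)` -/
def pdPair : lrL M →ₗ[ℤ] lrL M →ₗ[ℤ] ℤ := sorry

theorem pdPair_antisymm (x y : lrL M) : pdPair M x y = - pdPair M y x := sorry

/-- PERFECT over `ℤ` (unimodular) -/
theorem pdPair_perfect : Function.Bijective (fun y : lrL M => (pdPair M).flip y) := sorry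

variable (N q : ℕ) [NeZero N] [NeZero q] (hq : q.Prime) (hqN : ¬ q ∣ N)
include hq hqN

/-- adjointness `⟨res x, y⟩_{N q} = ⟨x, cores y⟩_N` (membership proofs = block B (B4)) -/
theorem pdPair_res_cores (x : lrL N) (y : lrL (N * q)) :
    pdPair (N * q) ⟨lrRes N q x.1, B4_res N q hq hqN x.1 x.2⟩ y =
      pdPair N x ⟨lrCores N q y.1, B4_cores N q hq hqN y.1 y.2⟩ := sorry

theorem pdPair_resEta_coresEta (x : lrL N) (y : lrL (N * q)) :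
    pdPair (N * q) ⟨lrResEta N q x.1, B4_resEta N q hq hqN x.1 x.2⟩ y =
      pdPair N x ⟨lrCoresEta N q y.1, B4_coresEta N q hq hqN y.1 y.2⟩ := sorry

end C

/-! ## BLOCK D export (captain helper74): Ihara's lemma for Hecke eigen-pairs. -/
section D
open WeierstrassCurve WeierstrassCurve.Affine WeierstrassCurve.Affine.Point

theorem ihara_main (E : WeierstrassCurve ℚ) [E.IsElliptic] {W : WeierstrassCurve ℤ}
    (hW : W.IsIntegralModelOf E) {p N q : ℕ} [NeZero N] [NeZero q] (hp : p.Prime) (hp2 : p ≠ 2)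
    (hq : q.Prime) (hqN : ¬ q ∣ N)
    (hirr : GaloisRepIsIrreducible (K := AlgebraicClosure ℚ) ℚ E p)
    (ψ₁ ψ₂ : Additive (Gamma0 N) →+ ZMod p)
    (hker : lrRes N q ψ₁ + lrResEta N q ψ₂ = 0)
    (h₁ : ∀ ℓ : Nat.Primes, W.IsGoodPrimeFor ℓ → ¬ (ℓ : ℕ) ∣ N * q → (ℓ : ℕ) ≠ p →
      lrT N ℓ ψ₁ = ((W.apOfModel ℓ : ℤ) : ZMod p) • ψ₁)
    (h₂ : ∀ ℓ : Nat.Primes, W.IsGoodPrimeFor ℓ → ¬ (ℓ : ℕ) ∣ N * q → (ℓ : ℕ) ≠ p →
      lrT N ℓ ψ₂ = ((W.apOfModel ℓ : ℤ) : ZMod p) • ψ₂) :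
    ψ₁ = 0 ∧ ψ₂ = 0 := sorry

end D

/-! ## BLOCK E rows (captain helper20). -/

/-! ### LAT (file S41x/LatticeHoms.lean, prefix `lat_`): the lattice of parabolic homs. -/
section LAT
variable (Γ : Subgroup SL(2, ℤ)) [Γ.FiniteIndex]

theorem lat_finite : Module.Finite ℤ (parabolicHoms ℤ Γ ℤ) := sorry

/-- the map `Hom(Γ, ℤ) → Hom(Γ, ℂ)` -/
def lat_toC (x : Additive Γ →+ ℤ) : Additive Γ →+ ℂ := (Int.castAddHom ℂ).comp x

/-- `Hom_par(Γ, ℂ)` is spanned over `ℂ` by `Hom_par(Γ, ℤ)` -/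
theorem lat_span (φ : Additive Γ →+ ℂ) (hφ : φ ∈ parabolicHoms ℂ Γ ℂ) :
    φ ∈ Submodule.span ℂ (Set.range fun x : parabolicHoms ℤ Γ ℤ => lat_toC Γ x.1) := sorry

omit [Γ.FiniteIndex] in
/-- `Hom_par(Γ, ℤ)/p ↪ Hom(Γ, ℤ/p)` -/
theorem lat_modp (p : ℕ) (hp : p ≠ 0) (x : Additive Γ →+ ℤ) (hx : x ∈ parabolicHoms ℤ Γ ℤ)
    (h : ∀ γ, (p : ℤ) ∣ x γ) : ∃ x' ∈ parabolicHoms ℤ Γ ℤ, x = (p : ℤ) • x' := sorry

end LAT

/-! ### EIG (file S41x/EigenDict.lean, prefix `eig_`): forms ↔ cohomology dictionary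
(S21 + S16x.periodHomPair_heckeFormsGen + S49x). -/
section EIG
variable (M : ℕ) [NeZero M]

/-- EIG-1 -/
theorem eig_of_eigenform (f : CuspForm (Gamma0 M) 2) (hf : f.IsNormalizedEigenform) :
    periodHomPair M (f, 0) ≠ 0 ∧ periodHomPair M (f, 0) ∈ parabolicHoms ℂ (Gamma0 M) ℂ ∧
    ∀ ℓ : Nat.Primes, lrT M ℓ (periodHomPair M (f, 0)) =
      ModularFormClass.qCoeff f ℓ • periodHomPair M (f, 0) := sorry

/-- EIG-2 -/
theorem eig_exists_eigenform (w : Additive (Gamma0 M) →+ ℂ) (hw : w ∈ parabolicHoms ℂ (Gamma0 M) ℂ)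
    (hw0 : w ≠ 0) (μ : Nat.Primes → ℂ) (hμ : ∀ ℓ : Nat.Primes, lrT M ℓ w = μ ℓ • w) :
    ∃ g : CuspForm (Gamma0 M) 2, g.IsNormalizedEigenform ∧
      ∀ ℓ : Nat.Primes, ModularFormClass.qCoeff g ℓ = μ ℓ := sorry

/-- COMM: the operators `lrT M ℓ` commute on `Hom_par(Γ₀(M), ℂ)` -/
theorem eig_comm (ℓ ℓ' : Nat.Primes) (w : Additive (Gamma0 M) →+ ℂ)
    (hw : w ∈ parabolicHoms ℂ (Gamma0 M) ℂ) :
    lrT M ℓ (lrT M ℓ' w) = lrT M ℓ' (lrT M ℓ w) := sorry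

end EIG

/-! ### CORE / LemT (file S41x/RibetCore.lean, prefix `rbc_`, Mathlib only). -/
section CORE

/-- a finite module whose annihilator lies in the maximal ideal `𝔞` has a nonzero element killed
by `𝔞` (minimal primes over the annihilator are associated; in a finite ring primes are maximal;
cf. the proof of `S49x.exists_eigen_lift`). -/
theorem rbc_exists_killed {R : Type*} [CommRing R] {M : Type*} [AddCommGroup M] [Module R M]
    [Finite M] (𝔞 : Ideal R) [𝔞.IsMaximal] (hann : Module.annihilator R M ≤ 𝔞) :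
    ∃ m : M, m ≠ 0 ∧ ∀ r ∈ 𝔞, r • m = 0 := sorry

/-- LemT -/
theorem rbc_exists_smul_eq {R : Type*} [CommRing R] {M : Type*} [AddCommGroup M] [Module R M]
    [Finite M] (𝔞 : Ideal R) [𝔞.IsMaximal] (hno : ∀ m : M, (∀ r ∈ 𝔞, r • m = 0) → m = 0) :
    ∃ t ∈ 𝔞, ∀ m : M, t • m = m := sorry

end CORE

/-! ### ABS-E0 (file S41x/RibetEigenModP.lean, prefix `rbe_`, Mathlib + CORE). -/
section E0

/-- from a characteristic-0 eigenvector with integral eigenvalues `b i ≡ a i (mod 𝔪)` to an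
eigenvector in `X / pX`.  (𝕋 = ℤ-subalgebra of `End_ℂ V` generated by the `TV i` is finite over ℤ
since it embeds into `End_ℤ X`; `λ : 𝕋 → ℤ̄` eigencharacter of `v`; `𝔫 = λ⁻¹(𝔪)`;
`Ann_𝕋(X/pX) ≤ 𝔫` by Nakayama + faithfulness; then `rbc_exists_killed`.) -/
theorem rbe_exists_modp_eigenvector
    {X : Type*} [AddCommGroup X] [Module.Finite ℤ X]
    {V : Type*} [AddCommGroup V] [Module ℂ V]
    (j : X →+ V) (hjinj : Function.Injective j) (hspan : Submodule.span ℂ (Set.range j) = ⊤)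
    {ι : Type*} (TX : ι → X →+ X) (TV : ι → Module.End ℂ V)
    (hcomm : ∀ i k, Commute (TV i) (TV k)) (hj : ∀ i x, j (TX i x) = TV i (j x))
    (v : V) (hv : v ≠ 0) (b : ι → integralClosure ℤ ℂ) (hev : ∀ i, TV i v = ((b i : integralClosure ℤ ℂ) : ℂ) • v)
    (𝔪 : Ideal (integralClosure ℤ ℂ)) (h𝔪 : 𝔪.IsMaximal) (p : ℕ) (hp : p.Prime)
    (hpm : (p : integralClosure ℤ ℂ) ∈ 𝔪)
    (a : ι → ℤ) (hab : ∀ i, b i - (a i : integralClosure ℤ ℂ) ∈ 𝔪) :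
    ∃ x : X, (¬ ∃ z, x = (p : ℤ) • z) ∧ ∀ i, ∃ z, TX i x - a i • x = (p : ℤ) • z := sorry

end E0

/-! ### E-ABS (file S41x/RibetAbstract.lean, prefix `rba_`, Mathlib + CORE): the abstract Ribet lemma.
Proof (all details in the header of this Spec / doc `S41_architecture_helper20`):
`w = (v, -ε v)`, `y₀ = α₁ v - ε α₂ v ∉ pY` (Ihara), `β y₀ ∈ pX²`, `τ_i y₀ ≡ a_i y₀`;
`𝔞 = (p, τ_i - a_i) ⊆ R` is maximal or `⊤` (`hgen`); LemT on `M = ker(ᾱ : (X/p)² → Y/p)` (no vector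
killed by `𝔞`, by Ihara) gives `t ∈ 𝔞` with `(1-t) = 0` on `M`; induction: `p^k s ∈ αX² ⇒ (1-t)^k s ∈ αX²`;
so `BY s y₀ ≡ BY ((1-t)^k s) y₀ = BX x'' (β y₀) ≡ 0 (mod p)` for `s` in the saturation `S'` of `αX²`
(`hself`); `Y/S'` is torsion free, hence free, `S'` is a direct summand, so the functional
`BY(·,y₀)|S' / p` extends to `Y`; by perfectness get `z` with `BY s (y₀ - p z) = 0` on `S'`;
`y = y₀ - p z ∈ (αX²)^⊥ = ker β` (`hadj`, `hBX`). -/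
section EABS

theorem rba_main
    {R : Type*} [CommRing R]
    {X Y : Type*} [AddCommGroup X] [AddCommGroup Y] [Module R X] [Module R Y]
    [Module.Finite ℤ X] [Module.Free ℤ X] [Module.Finite ℤ Y] [Module.Free ℤ Y]
    {ι : Type*} (τ : ι → R) (hgen : Algebra.adjoin ℤ (Set.range τ) = ⊤)
    (α₁ α₂ : X →ₗ[R] Y) (β₁ β₂ : Y →ₗ[R] X) (Tq : X →ₗ[R] X) (q : ℕ)
    (h11 : ∀ x, β₁ (α₁ x) = ((q : ℤ) + 1) • x) (h22 : ∀ x, β₂ (α₂ x) = ((q : ℤ) + 1) • x)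
    (h12 : ∀ x, β₁ (α₂ x) = Tq x) (h21 : ∀ x, β₂ (α₁ x) = Tq x)
    (BX : X →ₗ[ℤ] X →ₗ[ℤ] ℤ) (BY : Y →ₗ[ℤ] Y →ₗ[ℤ] ℤ)
    (hBX : ∀ x, (∀ x', BX x' x = 0) → x = 0)
    (hBY : Function.Bijective (fun y : Y => BY.flip y))
    (hadj₁ : ∀ x y, BY (α₁ x) y = BX x (β₁ y)) (hadj₂ : ∀ x y, BY (α₂ x) y = BX x (β₂ y))
    (hself : ∀ i y y', BY (τ i • y) y' = BY y (τ i • y'))
    (p : ℕ) (hp : p.Prime) (a : ι → ℤ) (ε : ℤ) (hε : ε = 1 ∨ ε = -1)
    (hIhara : ∀ x₁ x₂ : X, (∀ i, ∃ z, τ i • x₁ - a i • x₁ = (p : ℤ) • z) →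
        (∀ i, ∃ z, τ i • x₂ - a i • x₂ = (p : ℤ) • z) → (∃ y, α₁ x₁ + α₂ x₂ = (p : ℤ) • y) →
        (∃ z, x₁ = (p : ℤ) • z) ∧ (∃ z, x₂ = (p : ℤ) • z))
    (v : X) (hv : ¬ ∃ z, v = (p : ℤ) • z) (hvT : ∀ i, ∃ z, τ i • v - a i • v = (p : ℤ) • z)
    (hvq : ∃ z, Tq v - (ε * ((q : ℤ) + 1)) • v = (p : ℤ) • z) :
    ∃ y : Y, β₁ y = 0 ∧ β₂ y = 0 ∧ (¬ ∃ z, y = (p : ℤ) • z) ∧
      ∀ i, ∃ z, β₁ z = 0 ∧ β₂ z = 0 ∧ τ i • y - a i • y = (p : ℤ) • z := sorry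

end EABS

/-! ### ABS-E2 (file S41x/RibetLift.lean, prefix `rbl_`, Mathlib + S49x.exists_eigen_lift). -/
section E2

/-- Deligne–Serre lifting on a lattice: `W = ℂ·j(K)`, `𝕋 = ℤ[SV m | W] ⊆ End_ℂ W` (commutative by
`hcomm`, finite over ℤ as it embeds in `End_ℤ K`), `𝔫` = a maximal ideal containing `Ann_𝕋(ȳ)`,
`ȳ ∈ K/pK`; apply `S49x.exists_eigen_lift`. -/
theorem rbl_exists_lift
    {K : Type*} [AddCommGroup K] [Module.Finite ℤ K]
    {V : Type*} [AddCommGroup V] [Module ℂ V]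
    (j : K →+ V) (hj : Function.Injective j)
    {κ : Type*} (SK : κ → K →+ K) (SV : κ → Module.End ℂ V)
    (hcomm : ∀ m n, ∀ w ∈ Submodule.span ℂ (Set.range j), SV m (SV n w) = SV n (SV m w))
    (hjS : ∀ m x, j (SK m x) = SV m (j x))
    (p : ℕ) (hp : p.Prime) {ι : Type*} (e : ι → κ) (a : ι → ℤ)
    (y : K) (hy : ¬ ∃ z, y = (p : ℤ) • z) (hyT : ∀ i, ∃ z, SK (e i) y - a i • y = (p : ℤ) • z) :
    ∃ (w : V) (μ : κ → integralClosure ℤ ℂ) (𝔪' : Ideal (integralClosure ℤ ℂ)),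
      w ∈ Submodule.span ℂ (Set.range j) ∧ w ≠ 0 ∧
      (∀ m, SV m w = ((μ m : integralClosure ℤ ℂ) : ℂ) • w) ∧ 𝔪'.IsMaximal ∧
      (p : integralClosure ℤ ℂ) ∈ 𝔪' ∧ ∀ i, μ (e i) - (a i : integralClosure ℤ ℂ) ∈ 𝔪' := sorry

end E2

end Fermat.Agent.S41x.LRSpec
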