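/-
S41 E-TOP (helper20): SPEC of the three TOP steps.  SORRY-ONLY.  NEVER IMPORT THIS FILE.
Real base (importable): `Fermat/Agent/S41x/LRTopDefs.lean` (lrtRes, lrtResEta, lrtCores, lrtCoresEta : the level
raising maps as ℤ-linear maps between the lattices `lrL N`, `lrL (N*q)`; `lrtT M ℓ : Module.End ℤ (lrL M)`;
`lrtToC M : lrL M →+ (Additive (Gamma0 M) →+ ℂ)`; `lrt_dvd_of_values`).

  STEP 1-2 (helper92, S41x/EigenLRVec.lean, emq_)   : frozen hypotheses ⟹ `v`        [shape `top_step12`]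
  STEP 3   (helper67, S41x/TopKernelVec.lean, tkv_) : `v` + C + D      ⟹ `y ∈ ker β` [shape `top_step3`]
  STEP 4-5 (helper73, S41x/TopOut.lean, tpo_)       : `y`              ⟹ conclusion  [shape `top_step45`]
  S41.lean (helper20) = composition.
-/
import Fermat.Agent.S41x.LRTopDefs
import Fermat.Prelude.Def_FLTPrelim_ModularRep
import Fermat.Prelude.Def_FreyPackage_LevelRaising

set_option autoImplicit false

namespace Fermat.Agent.S41x.LRTopSpec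

open scoped MatrixGroups
open CongruenceSubgroup ModularCurve ModularCurve.Period
open WeierstrassCurve WeierstrassCurve.Affine WeierstrassCurve.Affine.Point
open Fermat.Agent.S41x

/-- the good primes for the pair `(W, level M)` away from `p` -/
def topGood (W : WeierstrassCurve ℤ) (M p : ℕ) (ℓ : Nat.Primes) : Prop :=
  W.IsGoodPrimeFor ℓ ∧ ¬ (ℓ : ℕ) ∣ M ∧ (ℓ : ℕ) ≠ p

/-- STEP 1-2 : the level raising vector (all hypotheses = frozen S41 hypotheses). -/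
theorem top_step12 {W : WeierstrassCurve ℤ}
    {p N q : ℕ} [NeZero N] [Fact q.Prime] (hp : p.Prime)
    (f : CuspForm (Gamma0 N) 2) (𝔪 : Ideal (integralClosure ℤ ℂ))
    (hf : f.IsNormalizedEigenform) (hmax : 𝔪.IsMaximal) (hpm : (p : integralClosure ℤ ℂ) ∈ 𝔪)
    (hcong : ∀ ℓ : ℕ, ℓ.Prime → W.IsGoodPrimeFor ℓ → ¬ ℓ ∣ N → ℓ ≠ p →
      ∃ a : integralClosure ℤ ℂ, (a : ℂ) = ModularFormClass.qCoeff f ℓ ∧
        a - ((W.apOfModel ℓ : ℤ) : integralClosure ℤ ℂ) ∈ 𝔪)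
    (hLR : ∃ a : integralClosure ℤ ℂ, (a : ℂ) = ModularFormClass.qCoeff f q ∧
      a ^ 2 - ((q : integralClosure ℤ ℂ) + 1) ^ 2 ∈ 𝔪) :
    ∃ (ε : ℤ) (v : lrL N), (ε = 1 ∨ ε = -1) ∧ (¬ ∃ w : lrL N, v = (p : ℤ) • w) ∧
      (∀ ℓ : Nat.Primes, topGood W (N * q) p ℓ →
        ∃ w : lrL N, lrtT N ℓ v - (W.apOfModel ℓ : ℤ) • v = (p : ℤ) • w) ∧
      ∃ w : lrL N, lrtT N (lrPrime q) v - (ε * ((q : ℤ) + 1)) • v = (p : ℤ) • w := sorry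

/-- STEP 3 : Ribet's lemma.  `pd`, `hanti`, `hperf`, `hadjRes`, `hadjEta` = block C export (C-FIN);
`hIhara` = block D export in lattice form (helper41 `tih_ihara`). -/
theorem top_step3 {W : WeierstrassCurve ℤ} {p N q : ℕ} [NeZero N] [Fact q.Prime] (hp : p.Prime)
    (hqN : ¬ q ∣ N)
    (pd : ∀ (M : ℕ) [NeZero M], lrL M →ₗ[ℤ] lrL M →ₗ[ℤ] ℤ)
    (hanti : ∀ (M : ℕ) [NeZero M] (x y : lrL M), pd M x y = - pd M y x)
    (hperf : ∀ (M : ℕ) [NeZero M], Function.Bijective (fun y : lrL M => (pd M).flip y))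
    (hadjRes : ∀ (M ℓ : ℕ) [NeZero M] [Fact ℓ.Prime] (hℓM : ¬ ℓ ∣ M) (x : lrL M) (y : lrL (M * ℓ)),
      pd (M * ℓ) (lrtRes M ℓ x) y = pd M x (lrtCores M ℓ hℓM y))
    (hadjEta : ∀ (M ℓ : ℕ) [NeZero M] [Fact ℓ.Prime] (hℓM : ¬ ℓ ∣ M) (x : lrL M) (y : lrL (M * ℓ)),
      pd (M * ℓ) (lrtResEta M ℓ x) y = pd M x (lrtCoresEta M ℓ hℓM y))
    (hIhara : ∀ x₁ x₂ : lrL N,
      (∀ ℓ : Nat.Primes, topGood W (N * q) p ℓ →
        ∃ z : lrL N, lrtT N ℓ x₁ - (W.apOfModel ℓ : ℤ) • x₁ = (p : ℤ) • z) →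
      (∀ ℓ : Nat.Primes, topGood W (N * q) p ℓ →
        ∃ z : lrL N, lrtT N ℓ x₂ - (W.apOfModel ℓ : ℤ) • x₂ = (p : ℤ) • z) →
      (∃ y : lrL (N * q), lrtRes N q x₁ + lrtResEta N q x₂ = (p : ℤ) • y) →
      (∃ z : lrL N, x₁ = (p : ℤ) • z) ∧ (∃ z : lrL N, x₂ = (p : ℤ) • z))
    (ε : ℤ) (v : lrL N) (hε : ε = 1 ∨ ε = -1) (hv : ¬ ∃ w : lrL N, v = (p : ℤ) • w)
    (hvT : ∀ ℓ : Nat.Primes, topGood W (N * q) p ℓ →
        ∃ w : lrL N, lrtT N ℓ v - (W.apOfModel ℓ : ℤ) • v = (p : ℤ) • w)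
    (hvq : ∃ w : lrL N, lrtT N (lrPrime q) v - (ε * ((q : ℤ) + 1)) • v = (p : ℤ) • w) :
    ∃ y : lrL (N * q), lrtCores N q hqN y = 0 ∧ lrtCoresEta N q hqN y = 0 ∧
      (¬ ∃ z : lrL (N * q), y = (p : ℤ) • z) ∧
      ∀ ℓ : Nat.Primes, topGood W (N * q) p ℓ →
        ∃ z : lrL (N * q), lrtCores N q hqN z = 0 ∧ lrtCoresEta N q hqN z = 0 ∧
          lrtT (N * q) ℓ y - (W.apOfModel ℓ : ℤ) • y = (p : ℤ) • z := sorry

/-- STEP 4-5 : Deligne–Serre lift on `ker β` + `U_q² = 1` + Eichler–Shimura back to forms. -/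
theorem top_step45 {W : WeierstrassCurve ℤ} {p N q : ℕ} [NeZero N] [Fact q.Prime] (hp : p.Prime)
    (hqN : ¬ q ∣ N)
    (y : lrL (N * q)) (hy1 : lrtCores N q hqN y = 0) (hy2 : lrtCoresEta N q hqN y = 0)
    (hy : ¬ ∃ z : lrL (N * q), y = (p : ℤ) • z)
    (hyT : ∀ ℓ : Nat.Primes, topGood W (N * q) p ℓ →
        ∃ z : lrL (N * q), lrtCores N q hqN z = 0 ∧ lrtCoresEta N q hqN z = 0 ∧
          lrtT (N * q) ℓ y - (W.apOfModel ℓ : ℤ) • y = (p : ℤ) • z) :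
    ∃ (g : CuspForm (Gamma0 (N * q)) 2) (𝔪' : Ideal (integralClosure ℤ ℂ)),
      g.IsNormalizedEigenform ∧ 𝔪'.IsMaximal ∧ (p : integralClosure ℤ ℂ) ∈ 𝔪' ∧
      (∀ ℓ : ℕ, ℓ.Prime → W.IsGoodPrimeFor ℓ → ¬ ℓ ∣ N * q → ℓ ≠ p →
        ∃ a : integralClosure ℤ ℂ, (a : ℂ) = ModularFormClass.qCoeff g ℓ ∧
          a - ((W.apOfModel ℓ : ℤ) : integralClosure ℤ ℂ) ∈ 𝔪') ∧
      g.IsNewAt q := sorry

end Fermat.Agent.S41x.LRTopSpec
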