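/-
S41 block E, row LAT (helper14).  Statements = `LRSpec` section LAT (exact shapes), prefix `lat_`.
Mathlib + Prelude only.

* `lat_finite` : `Hom_par(Γ, ℤ)` is a finitely generated `ℤ`-module (`Γ` of finite index in `SL(2,ℤ)`).
* `lat_span`   : `Hom_par(Γ, ℂ)` is spanned over `ℂ` by `Hom_par(Γ, ℤ)`.
* `lat_modp`   : `Hom_par(Γ, ℤ)/p ↪ Hom(Γ, ℤ/p)` (a parabolic hom with all values divisible by `p`
                 is `p` times a parabolic hom).
-/
import Mathlib
import Fermat.Prelude.Def_ModularCurve_PeriodMap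

set_option autoImplicit false

namespace Fermat.Agent.S41x

open scoped MatrixGroups
open ModularCurve.Period

section LAT

variable (Γ : Subgroup SL(2, ℤ))

/-- the map `Hom(Γ, ℤ) → Hom(Γ, ℂ)` -/
def lat_toC (x : Additive Γ →+ ℤ) : Additive Γ →+ ℂ := (Int.castAddHom ℂ).comp x

@[simp] theorem lat_toC_apply (x : Additive Γ →+ ℤ) (γ : Additive Γ) :
    lat_toC Γ x γ = ((x γ : ℤ) : ℂ) := rfl

/-- `SL(2,ℤ)` is finitely generated. -/
theorem lat_fg_SL2Z : Group.FG SL(2, ℤ) := by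
  rw [Group.fg_iff]
  refine ⟨{ModularGroup.S, ModularGroup.T}, SpecialLinearGroup.SL2Z_generators, ?_⟩
  exact Set.toFinite _

/-- a finite-index subgroup of `SL(2,ℤ)` is finitely generated. -/
theorem lat_fg [Γ.FiniteIndex] : Group.FG Γ := by
  have := lat_fg_SL2Z
  exact Subgroup.fg_of_index_ne_zero Γ

variable {Γ}

/-- a subset of `Additive Γ` closed under `0`, `+`, `-` and containing a generating set is everything. -/
theorem lat_closure_induction {S : Set Γ} (hS : Subgroup.closure S = ⊤) (P : Additive Γ → Prop)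
    (h0 : P 0) (hadd : ∀ x y, P x → P y → P (x + y)) (hneg : ∀ x, P x → P (-x))
    (hgen : ∀ s ∈ S, P (Additive.ofMul s)) : ∀ γ : Additive Γ, P γ := by
  have key : ∀ γ : Γ, P (Additive.ofMul γ) := by
    intro γ
    have hγ : γ ∈ Subgroup.closure S := by rw [hS]; trivial
    induction hγ using Subgroup.closure_induction with
    | mem x hx => exact hgen x hx
    | one => exact h0
    | mul x y _ _ hx hy => exact hadd _ _ hx hy
    | inv x _ hx => exact hneg _ hx
  intro γ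
  exact key (Additive.toMul γ)

/-- two additive homs out of `Additive Γ` agreeing on a generating set of `Γ` agree. -/
theorem lat_ext_of_closure {A : Type*} [AddCommGroup A] {S : Set Γ}
    (hS : Subgroup.closure S = ⊤) {φ ψ : Additive Γ →+ A}
    (h : ∀ s ∈ S, φ (Additive.ofMul s) = ψ (Additive.ofMul s)) : φ = ψ := by
  refine AddMonoidHom.ext fun γ => ?_
  refine lat_closure_induction hS (fun γ => φ γ = ψ γ) (by simp) ?_ ?_ h γ
  · intro x y hx hy; simp only [map_add, hx, hy]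
  · intro x hx; simp only [map_neg, hx]

variable (Γ)

/-- evaluation of homs on a set of elements of `Γ`. -/
def lat_ev (S : Set Γ) : (Additive Γ →+ ℤ) →ₗ[ℤ] (S → ℤ) where
  toFun φ s := φ (Additive.ofMul s.1)
  map_add' φ ψ := by ext s; simp
  map_smul' c φ := by ext s; simp

theorem lat_ev_injective {S : Set Γ} (hS : Subgroup.closure S = ⊤) :
    Function.Injective (lat_ev Γ S) := by
  intro φ ψ h
  refine lat_ext_of_closure hS ?_
  intro s hs
  exact congrFun h ⟨s, hs⟩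

/-- `Hom(Γ, ℤ)` is a finitely generated `ℤ`-module. -/
theorem lat_finite_hom [Γ.FiniteIndex] : Module.Finite ℤ (Additive Γ →+ ℤ) := by
  obtain ⟨S, hS, hfin⟩ := Group.fg_iff.mp (lat_fg Γ)
  have : Finite S := hfin.to_subtype
  exact Module.Finite.of_injective (lat_ev Γ S) (lat_ev_injective Γ hS)

/-- LAT-1: `Hom_par(Γ, ℤ)` is a finitely generated `ℤ`-module. -/
theorem lat_finite [Γ.FiniteIndex] : Module.Finite ℤ (parabolicHoms ℤ Γ ℤ) := by
  obtain ⟨S, hS, hfin⟩ := Group.fg_iff.mp (lat_fg Γ)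
  have : Finite S := hfin.to_subtype
  refine Module.Finite.of_injective ((lat_ev Γ S).comp (parabolicHoms ℤ Γ ℤ).subtype) ?_
  exact (lat_ev_injective Γ hS).comp (Submodule.injective_subtype _)

/-- LAT-3: `Hom_par(Γ, ℤ)/p ↪ Hom(Γ, ℤ/p)`. -/
theorem lat_modp (p : ℕ) (hp : p ≠ 0) (x : Additive Γ →+ ℤ) (hx : x ∈ parabolicHoms ℤ Γ ℤ)
    (h : ∀ γ, (p : ℤ) ∣ x γ) : ∃ x' ∈ parabolicHoms ℤ Γ ℤ, x = (p : ℤ) • x' := by
  have hp' : (p : ℤ) ≠ 0 := by exact_mod_cast hp
  let x' : Additive Γ →+ ℤ :=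
    { toFun := fun γ => x γ / (p : ℤ)
      map_zero' := by simp
      map_add' := fun a b => by
        rw [map_add]
        exact Int.add_ediv_of_dvd_left (h a) }
  refine ⟨x', ?_, ?_⟩
  · intro γ hγ
    show x (Additive.ofMul γ) / (p : ℤ) = 0
    rw [hx γ hγ]; simp
  · refine AddMonoidHom.ext fun γ => ?_
    show x γ = (p : ℤ) • (x γ / (p : ℤ))
    rw [smul_eq_mul, Int.mul_ediv_cancel' (h γ)]

/-- a hom from a finitely generated `Γ` to `ℚ` has a common denominator. -/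
theorem lat_exists_int_multiple [Γ.FiniteIndex] (ψ : Additive Γ →+ ℚ) :
    ∃ (D : ℕ) (ψ' : Additive Γ →+ ℤ), D ≠ 0 ∧ ∀ γ, ((ψ' γ : ℤ) : ℚ) = (D : ℚ) * ψ γ := by
  obtain ⟨S, hS, hfin⟩ := Group.fg_iff.mp (lat_fg Γ)
  let D : ℕ := ∏ s ∈ hfin.toFinset, (ψ (Additive.ofMul s)).den
  have hD : D ≠ 0 := Finset.prod_ne_zero_iff.mpr (fun s _ => (ψ (Additive.ofMul s)).den_nz)
  have hint : ∀ γ : Additive Γ, ∃ n : ℤ, (n : ℚ) = (D : ℚ) * ψ γ := by
    refine lat_closure_induction hS (fun γ => ∃ n : ℤ, (n : ℚ) = (D : ℚ) * ψ γ) ⟨0, by simp⟩ ?_ ?_ ?_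
    · rintro x y ⟨n, hn⟩ ⟨m, hm⟩
      exact ⟨n + m, by rw [map_add, mul_add, ← hn, ← hm]; push_cast; ring⟩
    · rintro x ⟨n, hn⟩
      exact ⟨-n, by rw [map_neg, mul_neg, ← hn]; push_cast; ring⟩
    · intro s hs
      have hmem : s ∈ hfin.toFinset := hfin.mem_toFinset.mpr hs
      obtain ⟨k, hk⟩ : (ψ (Additive.ofMul s)).den ∣ D := Finset.dvd_prod_of_mem _ hmem
      refine ⟨(k : ℤ) * (ψ (Additive.ofMul s)).num, ?_⟩
      have h1 : ((ψ (Additive.ofMul s)).den : ℚ) * ψ (Additive.ofMul s)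
          = ((ψ (Additive.ofMul s)).num : ℚ) := by
        rw [mul_comm]; exact Rat.mul_den_eq_num _
      rw [hk]; push_cast
      rw [mul_comm ((ψ (Additive.ofMul s)).den : ℚ) (k : ℚ), mul_assoc, h1]
  choose n hn using hint
  let ψ' : Additive Γ →+ ℤ :=
    { toFun := n
      map_zero' := by
        have := hn 0
        rw [map_zero, mul_zero] at this
        exact_mod_cast this
      map_add' := fun a b => by
        have h1 := hn (a + b)
        rw [map_add, mul_add, ← hn a, ← hn b] at h1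
        exact_mod_cast h1 }
  exact ⟨D, ψ', hD, fun γ => hn γ⟩

/-- LAT-2: `Hom_par(Γ, ℂ)` is spanned over `ℂ` by `Hom_par(Γ, ℤ)`. -/
theorem lat_span [Γ.FiniteIndex] (φ : Additive Γ →+ ℂ) (hφ : φ ∈ parabolicHoms ℂ Γ ℂ) :
    φ ∈ Submodule.span ℂ (Set.range fun x : parabolicHoms ℤ Γ ℤ => lat_toC Γ x.1) := by
  obtain ⟨S, hS, hfin⟩ := Group.fg_iff.mp (lat_fg Γ)
  have : Finite S := hfin.to_subtype
  -- the finite-dimensional `ℚ`-subspace of `ℂ` spanned by the values on generators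
  let V : Submodule ℚ ℂ := Submodule.span ℚ (Set.range fun s : S => φ (Additive.ofMul s.1))
  have : FiniteDimensional ℚ V := FiniteDimensional.span_of_finite ℚ (Set.finite_range _)
  have hmem : ∀ γ : Additive Γ, φ γ ∈ V := by
    refine lat_closure_induction hS (fun γ => φ γ ∈ V) (by simp) ?_ ?_ ?_
    · intro x y hx hy; rw [map_add]; exact V.add_mem hx hy
    · intro x hx; rw [map_neg]; exact V.neg_mem hx
    · intro s hs; exact Submodule.subset_span ⟨⟨s, hs⟩, rfl⟩
  let b := Module.finBasis ℚ V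
  let φV : Additive Γ →+ V := φ.codRestrict V hmem
  let c : Fin (Module.finrank ℚ V) → (Additive Γ →+ ℚ) := fun i =>
    ((b.coord i : V →ₗ[ℚ] ℚ).toAddMonoidHom).comp φV
  have hc : ∀ i γ, c i γ = b.repr (φV γ) i := fun i γ => rfl
  choose D ψ' hD hψ' using fun i => lat_exists_int_multiple Γ (c i)
  -- each `ψ' i` is parabolic
  have hpar : ∀ i, ψ' i ∈ parabolicHoms ℤ Γ ℤ := by
    intro i γ hγ
    have h0 : φV (Additive.ofMul γ) = 0 := by
      apply Subtype.ext
      show φ (Additive.ofMul γ) = 0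
      exact hφ γ hγ
    have h1 := hψ' i (Additive.ofMul γ)
    rw [hc, h0, map_zero, Finsupp.zero_apply, mul_zero] at h1
    exact_mod_cast h1
  -- the decomposition
  have hdecomp : φ = ∑ i, (((b i : V) : ℂ) / (D i : ℂ)) • lat_toC Γ (ψ' i) := by
    refine AddMonoidHom.ext fun γ => ?_
    have hsum : (φV γ : V) = ∑ i, b.repr (φV γ) i • b i := (b.sum_repr (φV γ)).symm
    have hsum' : φ γ = ∑ i, ((b.repr (φV γ) i : ℚ) : ℂ) * ((b i : V) : ℂ) := by
      have : ((φV γ : V) : ℂ) = ((∑ i, b.repr (φV γ) i • b i : V) : ℂ) := by rw [← hsum]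
      rw [Submodule.coe_sum] at this
      rw [show φ γ = ((φV γ : V) : ℂ) from rfl, this]
      refine Finset.sum_congr rfl (fun i _ => ?_)
      rw [Submodule.coe_smul, Rat.smul_def]
    rw [hsum', AddMonoidHom.finsetSum_apply]
    refine Finset.sum_congr rfl (fun i _ => ?_)
    rw [AddMonoidHom.smul_apply, lat_toC_apply, smul_eq_mul]
    have hDi : ((D i : ℕ) : ℂ) ≠ 0 := by exact_mod_cast hD i
    have h1 : ((ψ' i γ : ℤ) : ℂ) = (D i : ℂ) * ((b.repr (φV γ) i : ℚ) : ℂ) := by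
      have := hψ' i γ
      rw [hc] at this
      have h2 : (((ψ' i γ : ℤ) : ℚ) : ℂ) = (((D i : ℚ) * b.repr (φV γ) i : ℚ) : ℂ) := by rw [this]
      push_cast at h2
      exact h2
    rw [h1]
    field_simp
  rw [hdecomp]
  refine Submodule.sum_mem _ (fun i _ => ?_)
  refine Submodule.smul_mem _ _ (Submodule.subset_span ?_)
  exact ⟨⟨ψ' i, hpar i⟩, rfl⟩

end LAT

end Fermat.Agent.S41x
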