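import Fermat.Agent.S41x.RibetAlgModm

/-!
# S41 block E, row E-RBA: the abstract Ribet lemma in the shape of `LRSpec.rba_main`

`rbp_main` is `LRSpec.rba_main` verbatim (same binders, same order, same conclusion) with ONE extra
hypothesis `hBXperf : Function.Bijective (fun x : X => BX.flip x)` inserted right after `hBX`
(perfectness of the pairing on `X`; block C exports it at every level).

Proof: wiring of `rbm_ribet_main` with `O = ℤ`, `𝔪 = (p)`, `M₁ = X`, `M₂ = Y`,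
`α = α₁ ∘ fst + α₂ ∘ snd`, `β = (β₁, β₂)`, `BP = BX ⊕ BX`, `B2 = BY`.  Self-adjointness of the
`τ i` on `X` is derived from `hself`, `h11`, `hadj₁` (`q + 1 ≠ 0`), and the eigen-property lands in
`ker β` because `X` is torsion free.
-/

set_option autoImplicit false

namespace Fermat.Agent.S41x

open Module

/-- membership in `(p) • ⊤` for abelian groups -/
theorem rbp_mem_iff {M : Type*} [AddCommGroup M] (p : ℤ) (x : M) :
    x ∈ (Ideal.span {p} : Ideal ℤ) • (⊤ : Submodule ℤ M) ↔ ∃ z, x = p • z := by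
  rw [Submodule.ideal_span_singleton_smul, Submodule.mem_smul_pointwise_iff_exists]
  constructor
  · rintro ⟨b, -, rfl⟩; exact ⟨b, rfl⟩
  · rintro ⟨z, rfl⟩; exact ⟨z, Submodule.mem_top, rfl⟩

/-- a perfect pairing (in the second variable) on a finite free `ℤ`-module is bijective in the
first variable -/
theorem rbp_bijective_of_flip {X : Type*} [AddCommGroup X] [Module.Finite ℤ X] [Module.Free ℤ X]
    (BX : X →ₗ[ℤ] X →ₗ[ℤ] ℤ) (h : Function.Bijective (fun x : X => BX.flip x)) :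
    Function.Bijective BX := by
  have h' : Function.Bijective BX.flip := h
  have := LinearMap.IsPerfPair.of_bijective BX.flip h'
  have h2 := LinearMap.IsPerfPair.bijective_right BX.flip
  simpa using h2

/-- **Abstract Ribet lemma** (`LRSpec.rba_main` + perfectness of `BX`). -/
theorem rbp_main
    {R : Type*} [CommRing R]
    {X Y : Type*} [AddCommGroup X] [AddCommGroup Y] [Module R X] [Module R Y]
    [Module.Finite ℤ X] [Module.Free ℤ X] [Module.Finite ℤ Y] [Module.Free ℤ Y]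
    {ι : Type*} (τ : ι → R) (hgen : Algebra.adjoin ℤ (Set.range τ) = ⊤)
    (α₁ α₂ : X →ₗ[R] Y) (β₁ β₂ : Y →ₗ[R] X) (Tq : X →ₗ[R] X) (q : ℕ)
    (h11 : ∀ x, β₁ (α₁ x) = ((q : ℤ) + 1) • x) (h22 : ∀ x, β₂ (α₂ x) = ((q : ℤ) + 1) • x)
    (h12 : ∀ x, β₁ (α₂ x) = Tq x) (h21 : ∀ x, β₂ (α₁ x) = Tq x)
    (BX : X →ₗ[ℤ] X →ₗ[ℤ] ℤ) (BY : Y →ₗ[ℤ] Y →ₗ[ℤ] ℤ)
    (hBX : ∀ x, (∀ x', BX x' x = 0) → x = 0)
    (hBXperf : Function.Bijective (fun x : X => BX.flip x))
    (hBY : Function.Bijective (fun y : Y => BY.flip y))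
    (hadj₁ : ∀ x y, BY (α₁ x) y = BX x (β₁ y)) (hadj₂ : ∀ x y, BY (α₂ x) y = BX x (β₂ y))
    (hself : ∀ i y y', BY (τ i • y) y' = BY y (τ i • y'))
    (p : ℕ) (hp : p.Prime) (a : ι → ℤ) (ε : ℤ) (hε : ε = 1 ∨ ε = -1)
    (hIhara : ∀ x₁ x₂ : X, (∀ i, ∃ z, τ i • x₁ - a i • x₁ = (p : ℤ) • z) →
        (∀ i, ∃ z, τ i • x₂ - a i • x₂ = (p : ℤ) • z) → (∃ y, α₁ x₁ + α₂ x₂ = (p : ℤ) • y) →
        (∃ z, x₁ = (p : ℤ) • z) ∧ (∃ z, x₂ = (p : ℤ) • z))
    (v : X) (hv : ¬ ∃ z, v = (p : ℤ) • z) (hvT : ∀ i, ∃ z, τ i • v - a i • v = (p : ℤ) • z)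
    (hvq : ∃ z, Tq v - (ε * ((q : ℤ) + 1)) • v = (p : ℤ) • z) :
    ∃ y : Y, β₁ y = 0 ∧ β₂ y = 0 ∧ (¬ ∃ z, y = (p : ℤ) • z) ∧
      ∀ i, ∃ z, β₁ z = 0 ∧ β₂ z = 0 ∧ τ i • y - a i • y = (p : ℤ) • z := by
  classical
  have _ := hgen
  have _ := hBX
  have hp0 : (p : ℤ) ≠ 0 := by exact_mod_cast hp.ne_zero
  have hq1 : ((q : ℤ) + 1) ≠ 0 := by positivity
  -- the maximal ideal
  set 𝔪 : Ideal ℤ := Ideal.span {(p : ℤ)} with h𝔪
  have : 𝔪.IsMaximal :=
    PrincipalIdealRing.isMaximal_of_irreducible (Nat.prime_iff_prime_int.mp hp).irreducible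
  -- `ℤ`-linear versions of the maps
  let T₁ : ι → Module.End ℤ X := fun i => (DistribSMul.toAddMonoidHom X (τ i)).toIntLinearMap
  let T₂ : ι → Module.End ℤ Y := fun i => (DistribSMul.toAddMonoidHom Y (τ i)).toIntLinearMap
  have hT₁ : ∀ i x, T₁ i x = τ i • x := fun i x => rfl
  have hT₂ : ∀ i y, T₂ i y = τ i • y := fun i y => rfl
  let U : Module.End ℤ X := Tq.toAddMonoidHom.toIntLinearMap
  have hU : ∀ x, U x = Tq x := fun x => rfl
  let a₁ : X →ₗ[ℤ] Y := α₁.toAddMonoidHom.toIntLinearMap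
  let a₂ : X →ₗ[ℤ] Y := α₂.toAddMonoidHom.toIntLinearMap
  let b₁ : Y →ₗ[ℤ] X := β₁.toAddMonoidHom.toIntLinearMap
  let b₂ : Y →ₗ[ℤ] X := β₂.toAddMonoidHom.toIntLinearMap
  let α : X × X →ₗ[ℤ] Y := a₁.coprod a₂
  let β : Y →ₗ[ℤ] X × X := b₁.prod b₂
  have hαdef : ∀ x : X × X, α x = α₁ x.1 + α₂ x.2 := fun x => rfl
  have hβdef : ∀ y : Y, β y = (β₁ y, β₂ y) := fun y => rfl
  -- the pairing on `X × X`
  let BP : (X × X) →ₗ[ℤ] (X × X) →ₗ[ℤ] ℤ :=
    BX.compl₁₂ (LinearMap.fst ℤ X X) (LinearMap.fst ℤ X X) +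
      BX.compl₁₂ (LinearMap.snd ℤ X X) (LinearMap.snd ℤ X X)
  have hBPdef : ∀ x c : X × X, BP x c = BX x.1 c.1 + BX x.2 c.2 := fun x c => rfl
  -- bijectivity in the first variable
  have hBXl : Function.Bijective BX := rbp_bijective_of_flip BX hBXperf
  have hBYl : Function.Bijective BY := rbp_bijective_of_flip BY hBY
  -- self-adjointness on `X`
  have hsaX : ∀ i x x', BX (τ i • x) x' = BX x (τ i • x') := by
    intro i x x'
    have e1 : ((q : ℤ) + 1) * BX (τ i • x) x' = BY (α₁ (τ i • x)) (α₁ x') := by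
      rw [hadj₁, h11, (BX (τ i • x)).map_smul, smul_eq_mul]
    have e2 : ((q : ℤ) + 1) * BX x (τ i • x') = BY (α₁ x) (α₁ (τ i • x')) := by
      rw [hadj₁, h11, (BX x).map_smul, smul_eq_mul]
    have e3 : BY (α₁ (τ i • x)) (α₁ x') = BY (α₁ x) (α₁ (τ i • x')) := by
      rw [α₁.map_smul, α₁.map_smul, hself]
    exact mul_left_cancel₀ hq1 (by rw [e1, e2, e3])
  -- apply the abstract theorem
  obtain ⟨z, hz1, hz2, hz3⟩ := rbm_ribet_main (O := ℤ) (M₁ := X) (M₂ := Y) 𝔪 T₁ T₂ U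
    (by
      intro i j
      apply LinearMap.ext
      intro x
      simp only [Module.End.mul_apply, hT₁, smul_smul, mul_comm])
    α β
    (by
      intro i x
      rw [hαdef, hαdef, hT₁, hT₁, hT₂, map_smul, map_smul, smul_add])
    (by
      intro i y
      rw [hβdef, hβdef, hT₁, hT₁, hT₂, map_smul, map_smul])
    ((q : ℤ))
    (by
      intro x
      rw [hβdef, hαdef, map_add, map_add, h11, h12, h21, h22, hU, hU])
    a (ε * ((q : ℤ) + 1)) v
    (by
      intro i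
      rw [hT₁, h𝔪, rbp_mem_iff]
      exact hvT i)
    (by
      rw [hU, h𝔪, rbp_mem_iff]
      exact hvq)
    (by
      have : (ε * ((q : ℤ) + 1)) ^ 2 - ((q : ℤ) + 1) ^ 2 = 0 := by
        rcases hε with rfl | rfl <;> ring
      rw [this]
      exact 𝔪.zero_mem)
    (by
      rw [h𝔪, rbp_mem_iff]
      exact hv)
    (by
      intro x hx hαx
      have h1 : ∀ i, ∃ z, τ i • x.1 - a i • x.1 = (p : ℤ) • z := by
        intro i
        have := rbm_map_mem 𝔪 (LinearMap.fst ℤ X X) (hx i)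
        rw [h𝔪, rbp_mem_iff] at this
        exact this
      have h2 : ∀ i, ∃ z, τ i • x.2 - a i • x.2 = (p : ℤ) • z := by
        intro i
        have := rbm_map_mem 𝔪 (LinearMap.snd ℤ X X) (hx i)
        rw [h𝔪, rbp_mem_iff] at this
        exact this
      have h3 : ∃ y, α₁ x.1 + α₂ x.2 = (p : ℤ) • y := by
        rw [h𝔪, rbp_mem_iff] at hαx
        exact hαx
      obtain ⟨⟨z1, hz1⟩, ⟨z2, hz2⟩⟩ := hIhara x.1 x.2 h1 h2 h3
      have : x = (x.1, x.2) := rfl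
      rw [this]
      refine rbm_pair_mem 𝔪 ?_ ?_
      · rw [h𝔪, rbp_mem_iff]; exact ⟨z1, hz1⟩
      · rw [h𝔪, rbp_mem_iff]; exact ⟨z2, hz2⟩)
    BP BY
    (by
      intro x y
      rw [hαdef, hBPdef, hβdef, map_add, LinearMap.add_apply, hadj₁, hadj₂])
    (by
      intro i x c
      rw [hBPdef, hBPdef]
      simp only [LinearMap.prodMap_apply, hT₁, hsaX])
    (by
      intro f
      obtain ⟨x1, hx1⟩ := rba_perf_of_bijective 𝔪 BX hBXl (f ∘ₗ LinearMap.inl ℤ X X)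
      obtain ⟨x2, hx2⟩ := rba_perf_of_bijective 𝔪 BX hBXl (f ∘ₗ LinearMap.inr ℤ X X)
      refine ⟨(x1, x2), fun c => ?_⟩
      have hc : c = LinearMap.inl ℤ X X c.1 + LinearMap.inr ℤ X X c.2 := by
        simp
      have e1 := hx1 c.1
      have e2 := hx2 c.2
      rw [LinearMap.comp_apply] at e1 e2
      rw [hBPdef, map_add, ← e1, ← e2, ← map_add, ← hc])
    (by
      intro u hu
      exact rba_nondeg_of_bijective 𝔪 BY hBYl u hu)
    (by
      intro x hx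
      have h1 : x.1 ∈ 𝔪 • (⊤ : Submodule ℤ X) := by
        refine rba_nondeg_of_bijective 𝔪 BX hBXl x.1 (fun c => ?_)
        have := hx (c, 0)
        rw [hBPdef] at this
        simpa using this
      have h2 : x.2 ∈ 𝔪 • (⊤ : Submodule ℤ X) := by
        refine rba_nondeg_of_bijective 𝔪 BX hBXl x.2 (fun c => ?_)
        have := hx (0, c)
        rw [hBPdef] at this
        simpa using this
      have : x = (x.1, x.2) := rfl
      rw [this]
      exact rbm_pair_mem 𝔪 h1 h2)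
  -- unpack the conclusion
  rw [hβdef, Prod.mk_eq_zero] at hz1
  refine ⟨z, hz1.1, hz1.2, ?_, fun i => ?_⟩
  · rw [h𝔪, rbp_mem_iff] at hz2
    exact hz2
  · have h := hz3 i
    rw [hT₂, h𝔪, rbp_mem_iff] at h
    obtain ⟨z', hz'⟩ := h
    have htf : ∀ c : X, (p : ℤ) • c = 0 → c = 0 := by
      intro c hc
      rcases smul_eq_zero.mp hc with h | h
      · exact absurd h hp0
      · exact h
    refine ⟨z', htf _ ?_, htf _ ?_, hz'⟩
    · rw [← map_zsmul, ← hz', map_sub, map_smul, map_zsmul, hz1.1, smul_zero, smul_zero, sub_zero]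
    · rw [← map_zsmul, ← hz', map_sub, map_smul, map_zsmul, hz1.2, smul_zero, smul_zero, sub_zero]

end Fermat.Agent.S41x
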