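/-
Row E-ABSZ of `s41_plan` (helper98).  The abstract Ribet level-raising lemma over
`ℤ`-lattices with mod-`p` eigenvectors, in the exact shape of the Spec statement
`rba_main` (section EABS of the S41 specification file).  Mathlib only.

Contents (all names carry the prefix `rbz_`):
* `rbz_lemT`      : a finite module `M` over a commutative ring with no nonzero element
                    killed by an ideal `𝔞` admits `t ∈ 𝔞` acting as the identity on `M`.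
* `rbz_lemT_sub`  : the same, in elementwise form for a subquotient `N / N₀`.
* `rbz_correct`   : lattice lemma: a vector `y₀` whose pairing with the saturation of a
                    sublattice `S` is divisible by `P` can be corrected by an element of `P • Y`
                    to become orthogonal to `S` (perfect pairing).
* `rbz_selfadj`   : self-adjointness of generators extends to the whole ring.
* `rbz_div`       : the key divisibility statement.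
* `rbz_main`      : the abstract level raising statement.
-/
import Mathlib

namespace Fermat.Agent.S41x

open Pointwise

theorem rbz_lemT {R : Type*} [CommRing R] {M : Type*} [AddCommGroup M] [Module R M] [Finite M]
    (𝔞 : Ideal R) (hno : ∀ m : M, (∀ s ∈ 𝔞, s • m = 0) → m = 0) :
    ∃ t ∈ 𝔞, ∀ m : M, t • m = m := by
  classical
  have : IsArtinian R M := isArtinian_of_finite
  let f : ℕ →o (Submodule R M)ᵒᵈ :=
    ⟨fun n => OrderDual.toDual (𝔞 ^ n • (⊤ : Submodule R M)), by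
      intro a b hab
      show 𝔞 ^ b • (⊤ : Submodule R M) ≤ 𝔞 ^ a • (⊤ : Submodule R M)
      exact Submodule.smul_mono_left (Ideal.pow_le_pow_right hab)⟩
  obtain ⟨n, hn⟩ := IsArtinian.monotone_stabilizes f
  have h2 : 𝔞 ^ n • (⊤ : Submodule R M) = 𝔞 ^ (n+1) • (⊤ : Submodule R M) :=
    congrArg OrderDual.ofDual (hn (n+1) (Nat.le_succ n))
  have hstab : 𝔞 ^ n • (⊤ : Submodule R M) ≤ 𝔞 • (𝔞 ^ n • (⊤ : Submodule R M)) := by
    rw [← Submodule.mul_smul, ← pow_succ', ← h2]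
  have hfg : (𝔞 ^ n • (⊤ : Submodule R M)).FG := by
    have : IsNoetherian R M := inferInstance
    exact IsNoetherian.noetherian _
  obtain ⟨r, hr1, hr0⟩ :=
    Submodule.exists_sub_one_mem_and_smul_eq_zero_of_fg_of_le_smul 𝔞 _ hfg hstab
  have hkill : ∀ k : ℕ, ∀ m : M, (∀ s ∈ 𝔞 ^ k, s • m = 0) → m = 0 := by
    intro k
    induction k with
    | zero => intro m h; simpa using h 1 (by simp)
    | succ k ih =>
      intro m h
      apply ih
      intro s hs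
      apply hno
      intro s' hs'
      rw [smul_smul]
      exact h (s' * s) (by rw [pow_succ']; exact Ideal.mul_mem_mul hs' hs)
  have hr : ∀ m : M, r • m = 0 := by
    intro m
    apply hkill n
    intro s hs
    rw [smul_comm]
    apply hr0
    exact Submodule.smul_mem_smul hs Submodule.mem_top
  refine ⟨1 - r, ?_, ?_⟩
  · have : 1 - r = -(r - 1) := by ring
    rw [this]; exact 𝔞.neg_mem hr1
  · intro m; rw [sub_smul, one_smul, hr m, sub_zero]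

theorem rbz_lemT_sub {R : Type*} [CommRing R] {Z : Type*} [AddCommGroup Z] [Module R Z]
    (N₀ N : Submodule R Z) [Finite (Z ⧸ N₀)] (𝔞 : Ideal R)
    (hno : ∀ x ∈ N, (∀ s ∈ 𝔞, s • x ∈ N₀) → x ∈ N₀) :
    ∃ t ∈ 𝔞, ∀ x ∈ N, x - t • x ∈ N₀ := by
  classical
  have hfin : Finite ↥(N.map N₀.mkQ) := inferInstance
  obtain ⟨t, ht, htm⟩ := rbz_lemT (R := R) (M := ↥(N.map N₀.mkQ)) 𝔞 (by
    rintro ⟨m, hm⟩ h
    obtain ⟨x, hx, rfl⟩ := Submodule.mem_map.mp hm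
    have hx0 : x ∈ N₀ := by
      apply hno x hx
      intro s hs
      have h1 := h s hs
      have h2 : s • (N₀.mkQ x) = 0 := by
        have := congrArg Subtype.val h1
        simpa using this
      rw [← map_smul, Submodule.mkQ_apply, Submodule.Quotient.mk_eq_zero] at h2
      exact h2
    apply Subtype.ext
    simpa [Submodule.Quotient.mk_eq_zero] using hx0)
  refine ⟨t, ht, ?_⟩
  intro x hx
  have h1 := htm ⟨N₀.mkQ x, Submodule.mem_map_of_mem hx⟩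
  have h2 : t • (N₀.mkQ x) = N₀.mkQ x := by
    have := congrArg Subtype.val h1
    simpa using this
  rw [← Submodule.Quotient.mk_eq_zero N₀, Submodule.Quotient.mk_sub, sub_eq_zero]
  rw [← map_smul] at h2
  exact h2.symm

theorem rbz_correct {Y : Type*} [AddCommGroup Y] [Module.Finite ℤ Y] [Module.Free ℤ Y]
    (BY : Y →ₗ[ℤ] Y →ₗ[ℤ] ℤ) (hBY : Function.Surjective (fun y : Y => BY.flip y))
    (S : Submodule ℤ Y) (y₀ : Y) (P : ℤ)
    (hdiv : ∀ s : Y, ∀ n : ℤ, n ≠ 0 → n • s ∈ S → P ∣ BY s y₀) :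
    ∃ z : Y, ∀ s ∈ S, BY s (y₀ - P • z) = 0 := by
  classical
  -- saturation
  let S' : Submodule ℤ Y :=
    { carrier := {s | ∃ n : ℤ, n ≠ 0 ∧ n • s ∈ S}
      add_mem' := by
        rintro a b ⟨n, hn, ha⟩ ⟨m, hm, hb⟩
        refine ⟨n * m, mul_ne_zero hn hm, ?_⟩
        rw [smul_add]
        refine S.add_mem ?_ ?_
        · rw [mul_comm, mul_smul]; exact S.smul_mem m ha
        · rw [mul_smul]; exact S.smul_mem n hb
      zero_mem' := ⟨1, one_ne_zero, by simp⟩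
      smul_mem' := by
        rintro c a ⟨n, hn, ha⟩
        refine ⟨n, hn, ?_⟩
        rw [smul_comm]; exact S.smul_mem c ha }
  have hS'mem : ∀ s, s ∈ S' ↔ ∃ n : ℤ, n ≠ 0 ∧ n • s ∈ S := fun s => Iff.rfl
  have hSS' : S ≤ S' := fun s hs => ⟨1, one_ne_zero, by simpa using hs⟩
  -- quotient torsion-free
  have : Module.IsTorsionFree ℤ (Y ⧸ S') := by
    apply Module.IsTorsionFree.of_smul_eq_zero
    intro r m h
    by_cases hr : r = 0
    · exact Or.inl hr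
    · right
      obtain ⟨y, rfl⟩ := Submodule.Quotient.mk_surjective S' m
      rw [← Submodule.Quotient.mk_smul, Submodule.Quotient.mk_eq_zero, hS'mem] at h
      obtain ⟨n, hn, hy⟩ := h
      rw [Submodule.Quotient.mk_eq_zero, hS'mem]
      exact ⟨n * r, mul_ne_zero hn hr, by rwa [mul_smul]⟩
  have : Module.Free ℤ (Y ⧸ S') := Module.free_of_finite_type_torsion_free'
  obtain ⟨σ, hσ⟩ := Module.projective_lifting_property S'.mkQ LinearMap.id S'.mkQ_surjective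
  have hσ' : ∀ w, S'.mkQ (σ w) = w := fun w => LinearMap.congr_fun hσ w
  -- retraction
  let r : Y →ₗ[ℤ] Y := LinearMap.id - σ ∘ₗ S'.mkQ
  have hr_apply : ∀ y, r y = y - σ (S'.mkQ y) := fun y => rfl
  have hr_mem : ∀ y, r y ∈ S' := by
    intro y
    rw [← Submodule.Quotient.mk_eq_zero S', ← Submodule.mkQ_apply, hr_apply, map_sub, hσ', sub_self]
  have hr_id : ∀ s ∈ S', r s = s := by
    intro s hs
    rw [hr_apply, Submodule.mkQ_apply, (Submodule.Quotient.mk_eq_zero S').mpr hs, map_zero, sub_zero]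
  -- φ
  let φ : Y →ₗ[ℤ] ℤ := (BY.flip y₀) ∘ₗ r
  have hφ_apply : ∀ y, φ y = BY (r y) y₀ := fun y => rfl
  have hφ : ∀ y, P ∣ φ y := by
    intro y
    obtain ⟨n, hn, h⟩ := (hS'mem _).mp (hr_mem y)
    exact hdiv (r y) n hn h
  -- ψ = φ / P
  let ψ : Y →ₗ[ℤ] ℤ :=
    { toFun := fun y => φ y / P
      map_add' := by
        intro a b
        rw [map_add, Int.add_ediv_of_dvd_left (hφ a)]
      map_smul' := by
        intro c a
        rw [map_smul, smul_eq_mul, Int.mul_ediv_assoc _ (hφ a)]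
        rfl }
  have hψ_apply : ∀ y, ψ y = φ y / P := fun y => rfl
  obtain ⟨z, hz⟩ := hBY ψ
  refine ⟨z, ?_⟩
  intro s hs
  have h1 : BY s z = ψ s := by
    have := LinearMap.congr_fun hz s
    simpa using this
  rw [map_sub, map_smul, h1, smul_eq_mul, hψ_apply, Int.mul_ediv_cancel' (hφ s), hφ_apply,
    hr_id s (hSS' hs), sub_self]

theorem rbz_selfadj {R : Type*} [CommRing R] {Y : Type*} [AddCommGroup Y] [Module R Y]
    {ι : Type*} (τ : ι → R) (hgen : Algebra.adjoin ℤ (Set.range τ) = ⊤)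
    (BY : Y →ₗ[ℤ] Y →ₗ[ℤ] ℤ)
    (hself : ∀ i y y', BY (τ i • y) y' = BY y (τ i • y')) (r : R) (y y' : Y) :
    BY (r • y) y' = BY y (r • y') := by
  have hr : r ∈ Algebra.adjoin ℤ (Set.range τ) := by rw [hgen]; trivial
  induction hr using Algebra.adjoin_induction generalizing y y' with
  | mem x hx => obtain ⟨i, rfl⟩ := hx; exact hself i y y'
  | algebraMap n =>
      rw [algebraMap_int_eq, eq_intCast, Int.cast_smul_eq_zsmul, Int.cast_smul_eq_zsmul,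
        map_zsmul, map_zsmul, LinearMap.smul_apply]
  | add a b _ _ ha hb => rw [add_smul, add_smul, map_add, LinearMap.add_apply, map_add, ha, hb]
  | mul a b _ _ ha hb => rw [mul_smul, ha, hb, ← mul_smul, mul_comm]

theorem rbz_finite_quot {R : Type*} [CommRing R] {Z : Type*} [AddCommGroup Z] [Module R Z]
    [Module.Finite ℤ Z] (P : ℤ) (hP0 : P ≠ 0) (N₀ : Submodule R Z)
    (hN₀ : ∀ z : Z, P • z ∈ N₀) : Finite (Z ⧸ N₀) := by
  let g : Z →ₗ[ℤ] (Z ⧸ N₀) := (N₀.mkQ).toAddMonoidHom.toIntLinearMap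
  have hg : Function.Surjective g := N₀.mkQ_surjective
  have : Module.Finite ℤ (Z ⧸ N₀) := Module.Finite.of_surjective g hg
  apply Module.finite_of_fg_torsion
  intro x
  refine ⟨⟨P, mem_nonZeroDivisors_of_ne_zero hP0⟩, ?_⟩
  obtain ⟨x', rfl⟩ := N₀.mkQ_surjective x
  show P • N₀.mkQ x' = 0
  rw [← map_zsmul, Submodule.mkQ_apply, Submodule.Quotient.mk_eq_zero]
  exact hN₀ x'

theorem rbz_cast {R : Type*} [CommRing R] {M : Type*} [AddCommGroup M] [Module R M]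
    (p : ℕ) (m : M) : (p : R) • m = (p : ℤ) • m := by
  rw [Nat.cast_smul_eq_nsmul, natCast_zsmul]

theorem rbz_alg {R : Type*} [CommRing R] {M : Type*} [AddCommGroup M] [Module R M]
    (r : R) (n : ℤ) (m : M) : (r - algebraMap ℤ R n) • m = r • m - n • m := by
  rw [sub_smul, algebraMap_int_eq, eq_intCast, Int.cast_smul_eq_zsmul]

/-- The divisibility statement: core of the argument. -/
theorem rbz_div
    {R : Type*} [CommRing R]
    {X Y : Type*} [AddCommGroup X] [AddCommGroup Y] [Module R X] [Module R Y]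
    [Module.Finite ℤ X] [Module.Free ℤ X] [Module.Finite ℤ Y] [Module.Free ℤ Y]
    {ι : Type*} (τ : ι → R) (hgen : Algebra.adjoin ℤ (Set.range τ) = ⊤)
    (α₁ α₂ : X →ₗ[R] Y) (β₁ β₂ : Y →ₗ[R] X)
    (BX : X →ₗ[ℤ] X →ₗ[ℤ] ℤ) (BY : Y →ₗ[ℤ] Y →ₗ[ℤ] ℤ)
    (hadj₁ : ∀ x y, BY (α₁ x) y = BX x (β₁ y)) (hadj₂ : ∀ x y, BY (α₂ x) y = BX x (β₂ y))
    (hself : ∀ i y y', BY (τ i • y) y' = BY y (τ i • y'))
    (p : ℕ) (hp : p.Prime) (a : ι → ℤ)
    (hIhara : ∀ x₁ x₂ : X, (∀ i, ∃ z, τ i • x₁ - a i • x₁ = (p : ℤ) • z) →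
        (∀ i, ∃ z, τ i • x₂ - a i • x₂ = (p : ℤ) • z) → (∃ y, α₁ x₁ + α₂ x₂ = (p : ℤ) • y) →
        (∃ z, x₁ = (p : ℤ) • z) ∧ (∃ z, x₂ = (p : ℤ) • z))
    (y₀ : Y) (hy₀T : ∀ i, ∃ z, τ i • y₀ - a i • y₀ = (p : ℤ) • z)
    (hβ₁ : ∃ z, β₁ y₀ = (p : ℤ) • z) (hβ₂ : ∃ z, β₂ y₀ = (p : ℤ) • z)
    (s : Y) (n : ℤ) (hn : n ≠ 0) (x₁ x₂ : X) (hs : n • s = α₁ x₁ + α₂ x₂) :
    (p : ℤ) ∣ BY s y₀ := by
  classical
  have hP0 : (p : ℤ) ≠ 0 := by exact_mod_cast hp.ne_zero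
  have hPprime : Prime (p : ℤ) := Nat.prime_iff_prime_int.mp hp
  have hsa : ∀ (r : R) (y y' : Y), BY (r • y) y' = BY y (r • y') :=
    rbz_selfadj τ hgen BY hself
  -- the set-up for LemT
  let α : X × X →ₗ[R] Y := α₁.coprod α₂
  have hα : ∀ x : X × X, α x = α₁ x.1 + α₂ x.2 := fun x => LinearMap.coprod_apply α₁ α₂ x
  let N₀ : Submodule R (X × X) := LinearMap.range (LinearMap.lsmul R (X × X) (p : R))
  have hN₀ : ∀ x : X × X, x ∈ N₀ ↔ ∃ z : X × X, x = (p : ℤ) • z := by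
    intro x
    constructor
    · rintro ⟨z, hz⟩
      exact ⟨z, by rw [← hz, LinearMap.lsmul_apply, rbz_cast]⟩
    · rintro ⟨z, rfl⟩
      exact ⟨z, by rw [LinearMap.lsmul_apply, rbz_cast]⟩
  let NY : Submodule R Y := LinearMap.range (LinearMap.lsmul R Y (p : R))
  have hNY : ∀ y : Y, y ∈ NY ↔ ∃ z : Y, y = (p : ℤ) • z := by
    intro y
    constructor
    · rintro ⟨z, hz⟩
      exact ⟨z, by rw [← hz, LinearMap.lsmul_apply, rbz_cast]⟩
    · rintro ⟨z, rfl⟩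
      exact ⟨z, by rw [LinearMap.lsmul_apply, rbz_cast]⟩
  let N : Submodule R (X × X) := NY.comap α
  let 𝔞 : Ideal R := Ideal.span (Set.range fun i => τ i - algebraMap ℤ R (a i))
  have : Finite ((X × X) ⧸ N₀) :=
    rbz_finite_quot (p : ℤ) hP0 N₀ (fun z => (hN₀ _).mpr ⟨z, rfl⟩)
  have hno : ∀ x ∈ N, (∀ r ∈ 𝔞, r • x ∈ N₀) → x ∈ N₀ := by
    intro x hx h
    have hx' : ∃ y, α₁ x.1 + α₂ x.2 = (p : ℤ) • y := by
      obtain ⟨y, hy⟩ := (hNY _).mp hx
      exact ⟨y, by rw [← hα, hy]⟩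
    have h1 : ∀ i, ∃ z, τ i • x.1 - a i • x.1 = (p : ℤ) • z := by
      intro i
      obtain ⟨z, hz⟩ := (hN₀ _).mp (h _ (Ideal.subset_span ⟨i, rfl⟩))
      refine ⟨z.1, ?_⟩
      have := congrArg Prod.fst hz
      rw [rbz_alg] at this
      simpa using this
    have h2 : ∀ i, ∃ z, τ i • x.2 - a i • x.2 = (p : ℤ) • z := by
      intro i
      obtain ⟨z, hz⟩ := (hN₀ _).mp (h _ (Ideal.subset_span ⟨i, rfl⟩))
      refine ⟨z.2, ?_⟩
      have := congrArg Prod.snd hz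
      rw [rbz_alg] at this
      simpa using this
    obtain ⟨⟨z₁, hz₁⟩, ⟨z₂, hz₂⟩⟩ := hIhara x.1 x.2 h1 h2 hx'
    refine (hN₀ _).mpr ⟨(z₁, z₂), ?_⟩
    ext
    · simpa using hz₁
    · simpa using hz₂
  obtain ⟨t, ht, htN⟩ := rbz_lemT_sub N₀ N 𝔞 hno
  -- (E1)
  have hE1 : ∀ s' : Y, (∃ x : X × X, (p : ℤ) • s' = α x) → ∃ x' : X × X, (1 - t) • s' = α x' := by
    rintro s' ⟨x, hx⟩
    have hxN : x ∈ N := by
      show α x ∈ NY
      rw [← hx]; exact (hNY _).mpr ⟨s', rfl⟩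
    obtain ⟨x', hx'⟩ := (hN₀ _).mp (htN x hxN)
    refine ⟨x', ?_⟩
    apply smul_right_injective Y hP0
    show (p : ℤ) • ((1 - t) • s') = (p : ℤ) • α x'
    rw [smul_comm, hx, ← map_smul, sub_smul, one_smul, hx', map_zsmul]
  -- (F2)
  have hF2 : ∃ w : Y, t • y₀ = (p : ℤ) • w := by
    let J : Ideal R := NY.comap (LinearMap.toSpanSingleton R Y y₀)
    have hJ : 𝔞 ≤ J := by
      apply Ideal.span_le.mpr
      rintro _ ⟨i, rfl⟩
      show (τ i - algebraMap ℤ R (a i)) • y₀ ∈ NY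
      rw [rbz_alg]
      exact (hNY _).mpr (hy₀T i)
    exact (hNY _).mp (hJ ht)
  obtain ⟨wt, hwt⟩ := hF2
  obtain ⟨u₁, hu₁⟩ := hβ₁
  obtain ⟨u₂, hu₂⟩ := hβ₂
  -- the induction
  have key : ∀ (k : ℕ) (n : ℤ) (s : Y), n.natAbs = k → n ≠ 0 → (∃ x : X × X, n • s = α x) →
      (p : ℤ) ∣ BY s y₀ := by
    intro k
    induction k using Nat.strong_induction_on with
    | _ k ih =>
      intro n s hk hn hx
      by_cases hdvd : (p : ℤ) ∣ n
      · obtain ⟨n', rfl⟩ := hdvd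
        have hn' : n' ≠ 0 := by
          rintro rfl; exact hn (mul_zero _)
        have hlt : n'.natAbs < k := by
          rw [← hk, Int.natAbs_mul, Int.natAbs_natCast]
          have h1 : 0 < n'.natAbs := Int.natAbs_pos.mpr hn'
          have h2 : 2 ≤ p := hp.two_le
          nlinarith
        obtain ⟨x, hx⟩ := hx
        obtain ⟨x', hx'⟩ := hE1 (n' • s) ⟨x, by rw [← hx, mul_smul]⟩
        have h3 : (p : ℤ) ∣ BY ((1 - t) • s) y₀ :=
          ih n'.natAbs hlt n' ((1 - t) • s) rfl hn' ⟨x', by rw [← hx', smul_comm]⟩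
        rw [hsa, sub_smul, one_smul, map_sub, hwt, map_zsmul, smul_eq_mul] at h3
        have h6 : (p : ℤ) ∣ (BY s y₀ - (p : ℤ) * BY s wt) + (p : ℤ) * BY s wt :=
          dvd_add h3 (dvd_mul_right _ _)
        rwa [sub_add_cancel] at h6
      · obtain ⟨x, hx⟩ := hx
        have h4 : n * BY s y₀ = (p : ℤ) * (BX x.1 u₁ + BX x.2 u₂) := by
          rw [← smul_eq_mul, ← LinearMap.smul_apply, ← map_zsmul, hx, hα, map_add,
            LinearMap.add_apply, hadj₁, hadj₂, hu₁, hu₂, map_zsmul, map_zsmul, smul_eq_mul,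
            smul_eq_mul, mul_add]
        have h5 : (p : ℤ) ∣ n * BY s y₀ := ⟨_, h4⟩
        exact (hPprime.dvd_or_dvd h5).resolve_left hdvd
  exact key n.natAbs n s rfl hn ⟨(x₁, x₂), by rw [hs, hα]⟩

theorem rbz_main
    {R : Type*} [CommRing R]
    {X Y : Type*} [AddCommGroup X] [AddCommGroup Y] [Module R X] [Module R Y]
    [Module.Finite ℤ X] [Module.Free ℤ X] [Module.Finite ℤ Y] [Module.Free ℤ Y]
    {ι : Type*} (τ : ι → R) (hgen : Algebra.adjoin ℤ (Set.range τ) = ⊤)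
    (α₁ α₂ : X →ₗ[R] Y) (β₁ β₂ : Y →ₗ[R] X) (Tq : X →ₗ[R] X) (q : ℕ)
    (h11 : ∀ x, β₁ (α₁ x) = ((q : ℤ) + 1) • x) (h22 : ∀ x, β₂ (α₂ x) = ((q : ℤ) + 1) • x)
    (h12 : ∀ x, β₁ (α₂ x) = Tq x) (h21 : ∀ x, β₂ (α₁ x) = Tq x)
    (BX : X →ₗ[ℤ] X →ₗ[ℤ] ℤ) (BY : Y →ₗ[ℤ] Y →ₗ[ℤ] ℤ)
    (hBX : ∀ x, (∀ x', BX x' x = 0) → x = 0)
    (hBY : Function.Bijective (fun y : Y => BY.flip y))
    (hadj₁ : ∀ x y, BY (α₁ x) y = BX x (β₁ y)) (hadj₂ : ∀ x y, BY (α₂ x) y = BX x (β₂ y))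
    (hself : ∀ i y y', BY (τ i • y) y' = BY y (τ i • y'))
    (p : ℕ) (hp : p.Prime) (a : ι → ℤ) (ε : ℤ) (hε : ε = 1 ∨ ε = -1)
    (hIhara : ∀ x₁ x₂ : X, (∀ i, ∃ z, τ i • x₁ - a i • x₁ = (p : ℤ) • z) →
        (∀ i, ∃ z, τ i • x₂ - a i • x₂ = (p : ℤ) • z) → (∃ y, α₁ x₁ + α₂ x₂ = (p : ℤ) • y) →
        (∃ z, x₁ = (p : ℤ) • z) ∧ (∃ z, x₂ = (p : ℤ) • z))
    (v : X) (hv : ¬ ∃ z, v = (p : ℤ) • z) (hvT : ∀ i, ∃ z, τ i • v - a i • v = (p : ℤ) • z)
    (hvq : ∃ z, Tq v - (ε * ((q : ℤ) + 1)) • v = (p : ℤ) • z) :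
    ∃ y : Y, β₁ y = 0 ∧ β₂ y = 0 ∧ (¬ ∃ z, y = (p : ℤ) • z) ∧
      ∀ i, ∃ z, β₁ z = 0 ∧ β₂ z = 0 ∧ τ i • y - a i • y = (p : ℤ) • z := by
  classical
  have hP0 : (p : ℤ) ≠ 0 := by exact_mod_cast hp.ne_zero
  have hεε : ε * ε = 1 := by rcases hε with rfl | rfl <;> norm_num
  obtain ⟨zq, hzq⟩ := hvq
  choose zT hzT using hvT
  obtain ⟨γ, hγ⟩ : ∃ γ : X →ₗ[R] Y, ∀ x, γ x = α₁ x - ε • α₂ x :=
    ⟨α₁ - ε • α₂, fun x => rfl⟩
  have hγτ : ∀ i x, τ i • γ x - a i • γ x = γ (τ i • x - a i • x) := by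
    intro i x
    rw [map_sub, map_smul γ (τ i) x, map_zsmul γ (a i) x]
  have hγP : ∀ x, γ ((p : ℤ) • x) = (p : ℤ) • γ x := fun x => map_zsmul γ _ x
  have hy₀T : ∀ i, τ i • γ v - a i • γ v = (p : ℤ) • γ (zT i) := by
    intro i; rw [hγτ, hzT, hγP]
  have hTq : Tq v = (ε * ((q : ℤ) + 1)) • v + (p : ℤ) • zq := by rw [← hzq]; abel
  have hβ₁y₀ : β₁ (γ v) = (p : ℤ) • (-(ε • zq)) := by
    rw [hγ, map_sub, map_zsmul, h11, h12, hTq, smul_add, smul_smul, ← mul_assoc, hεε, one_mul,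
      smul_neg, smul_comm ε]
    abel
  have hβ₂y₀ : β₂ (γ v) = (p : ℤ) • zq := by
    rw [hγ, map_sub, map_zsmul, h21, h22, smul_smul, hzq]
  -- `y₀ ∉ pY`
  have hy₀not : ¬ ∃ z, γ v = (p : ℤ) • z := by
    rintro ⟨z, hz⟩
    have hx₂ : ∀ i, ∃ z', τ i • (-(ε • v)) - a i • (-(ε • v)) = (p : ℤ) • z' := by
      intro i
      refine ⟨-(ε • zT i), ?_⟩
      calc τ i • (-(ε • v)) - a i • (-(ε • v)) = -(ε • (τ i • v - a i • v)) := by
            rw [smul_neg, smul_neg, smul_sub, smul_comm (τ i) ε v, smul_comm (a i) ε v]; abel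
        _ = (p : ℤ) • (-(ε • zT i)) := by rw [hzT, smul_neg, smul_comm ε]
    have h := hIhara v (-(ε • v)) (fun i => ⟨zT i, hzT i⟩) hx₂
      ⟨z, by rw [← hz, hγ, map_neg, map_zsmul]; abel⟩
    exact hv h.1
  -- divisibility on the saturation
  let S : Submodule ℤ Y := (LinearMap.range (α₁.coprod α₂)).restrictScalars ℤ
  have hdiv : ∀ s : Y, ∀ n : ℤ, n ≠ 0 → n • s ∈ S → (p : ℤ) ∣ BY s (γ v) := by
    intro s n hn hmem
    obtain ⟨x, hx⟩ := hmem
    exact rbz_div τ hgen α₁ α₂ β₁ β₂ BX BY hadj₁ hadj₂ hself p hp a hIhara (γ v)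
      (fun i => ⟨_, hy₀T i⟩) ⟨_, hβ₁y₀⟩ ⟨_, hβ₂y₀⟩ s n hn x.1 x.2
      (by rw [← hx, LinearMap.coprod_apply])
  obtain ⟨z, hz⟩ := rbz_correct BY hBY.2 S (γ v) (p : ℤ) hdiv
  have hβ₁y : β₁ (γ v - (p : ℤ) • z) = 0 := by
    apply hBX
    intro x'
    rw [← hadj₁]
    exact hz (α₁ x') ⟨(x', 0), by simp⟩
  have hβ₂y : β₂ (γ v - (p : ℤ) • z) = 0 := by
    apply hBX
    intro x'
    rw [← hadj₂]
    exact hz (α₂ x') ⟨(0, x'), by simp⟩
  refine ⟨γ v - (p : ℤ) • z, hβ₁y, hβ₂y, ?_, ?_⟩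
  · rintro ⟨z', hz'⟩
    apply hy₀not
    exact ⟨z' + z, by rw [smul_add, ← hz']; abel⟩
  · intro i
    have hw : τ i • (γ v - (p : ℤ) • z) - a i • (γ v - (p : ℤ) • z)
        = (p : ℤ) • (γ (zT i) - (τ i • z - a i • z)) := by
      have h1 : τ i • (γ v - (p : ℤ) • z) - a i • (γ v - (p : ℤ) • z)
          = (τ i • γ v - a i • γ v) - ((p : ℤ) • (τ i • z) - (p : ℤ) • (a i • z)) := by
        rw [smul_sub (τ i) (γ v), smul_sub (a i) (γ v), smul_comm (τ i) (p : ℤ) z,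
          smul_comm (a i) (p : ℤ) z]
        abel
      rw [h1, hy₀T, ← smul_sub, ← smul_sub]
    refine ⟨γ (zT i) - (τ i • z - a i • z), ?_, ?_, hw⟩
    · apply smul_right_injective X hP0
      show (p : ℤ) • β₁ _ = (p : ℤ) • 0
      rw [smul_zero, ← map_zsmul, ← hw, map_sub, map_smul, map_zsmul, hβ₁y, smul_zero, smul_zero,
        sub_zero]
    · apply smul_right_injective X hP0
      show (p : ℤ) • β₂ _ = (p : ℤ) • 0
      rw [smul_zero, ← map_zsmul, ← hw, map_sub, map_smul, map_zsmul, hβ₂y, smul_zero, smul_zero,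
        sub_zero]

end Fermat.Agent.S41x
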