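import Mathlib

/-!
# S41 block E: the abstract "congruence module" core of Ribet's level raising argument

Everything is phrased ELEMENTWISE (no localisation, no Hecke algebra as a ring, no `ℤ_p`):
for a commutative ring `R` acting on modules and a prime ideal `n` of `R`, "a statement holds
after localising at `n`" is spelled out as "... after multiplying by some `s ∉ n`".

Main result `lre_core`:  `α : X → Y`, `β : Y → X` `R`-linear, `X` finitely generated over `R`,
`(p : R) ∈ n`.  If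
* (Ihara)  `α` is injective mod `p` at `n`          (`lre_InjAt`),
* (dual)   `β` is surjective mod `p` at `n`         (`lre_SurjAt`),
* (cong)   `β ∘ α` is NOT injective mod `p` at `n`  (`lre_NotInjAt`),
then `ker β / p ker β` is NOT trivial at `n`         (`¬ lre_TrivAt`).
-/

set_option autoImplicit false

namespace Fermat.Agent.S41x

variable {R : Type*} [CommRing R]

/-- `M / pM` vanishes after localising at `n`, for the submodule `M` of `Y`. -/
def lre_TrivAt (n : Ideal R) (p : ℕ) {Y : Type*} [AddCommGroup Y] [Module R Y]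
    (M : Submodule R Y) : Prop :=
  ∃ s : R, s ∉ n ∧ ∀ k ∈ M, ∃ k' ∈ M, s • k = (p : R) • k'

/-- `α` is injective modulo `p` after localising at `n`. -/
def lre_InjAt (n : Ideal R) (p : ℕ) {X Y : Type*} [AddCommGroup X] [Module R X]
    [AddCommGroup Y] [Module R Y] (α : X →ₗ[R] Y) : Prop :=
  ∃ s : R, s ∉ n ∧ ∀ x : X, (∃ y : Y, α x = (p : R) • y) → ∃ x' : X, s • x = (p : R) • x'

/-- `β` is surjective modulo `p` after localising at `n`. -/
def lre_SurjAt (n : Ideal R) (p : ℕ) {X Y : Type*} [AddCommGroup X] [Module R X]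
    [AddCommGroup Y] [Module R Y] (β : Y →ₗ[R] X) : Prop :=
  ∃ s : R, s ∉ n ∧ ∀ x : X, ∃ (y : Y) (x' : X), s • x = β y + (p : R) • x'

/-- `A` is not injective modulo `p` after localising at `n`: some `x`, nonzero in
`(X/pX)_n`, is killed by `A` in `(X/pX)_n`. -/
def lre_NotInjAt (n : Ideal R) (p : ℕ) {X : Type*} [AddCommGroup X] [Module R X]
    (A : X →ₗ[R] X) : Prop :=
  ∃ x : X, (∀ s : R, s ∉ n → ¬ ∃ x' : X, s • x = (p : R) • x') ∧
    ∃ s : R, s ∉ n ∧ ∃ x' : X, s • A x = (p : R) • x'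

/-- Elementwise Nakayama: if `s X ⊆ N + p X` with `s ∉ n`, `p ∈ n`, `n` prime (hence `s` is
invertible modulo the maximal ideal ... we only need: `n` maximal), `X` finitely generated,
then `r X ⊆ N` for some `r ∉ n`. -/
theorem lre_nakayama (n : Ideal R) [hn : n.IsMaximal] (p : ℕ) (hp : (p : R) ∈ n)
    {X : Type*} [AddCommGroup X] [Module R X] [Module.Finite R X] (N : Submodule R X)
    (s : R) (hs : s ∉ n) (h : ∀ x : X, ∃ y ∈ N, ∃ x' : X, s • x = y + (p : R) • x') :
    ∃ r : R, r ∉ n ∧ ∀ x : X, r • x ∈ N := by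
  classical
  -- `s` is invertible modulo `n`
  obtain ⟨s', hs'⟩ := hn.exists_inv hs
  -- hs' : ∃ i ∈ n, s' * s + i = 1  (shape depends on Mathlib version)
  obtain ⟨i, hi, hsi⟩ := hs'
  -- the quotient module `X ⧸ N` satisfies `⊤ ≤ n • ⊤`
  have key : (⊤ : Submodule R (X ⧸ N)) ≤ n • (⊤ : Submodule R (X ⧸ N)) := by
    intro z _
    obtain ⟨x, rfl⟩ := N.mkQ_surjective z
    obtain ⟨y, hy, x', hx'⟩ := h x
    -- x = (s' * s + i) • x = s' • (y + p x') + i • x
    have hx : x = s' • y + ((p : R) * s') • x' + i • x := by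
      have h1 : x = (s' * s + i) • x := by rw [hsi, one_smul]
      rw [add_smul, mul_smul, hx', smul_add, smul_smul] at h1
      rw [mul_comm] at h1
      exact h1
    rw [hx]
    simp only [map_add, map_smul]
    have hy0 : N.mkQ y = 0 := by simpa using hy
    rw [hy0, smul_zero, zero_add]
    refine Submodule.add_mem _ ?_ ?_
    · exact Submodule.smul_mem_smul (n.mul_mem_right _ hp) Submodule.mem_top
    · exact Submodule.smul_mem_smul hi Submodule.mem_top
  obtain ⟨r, hr1, hr0⟩ :=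
    Submodule.exists_sub_one_mem_and_smul_eq_zero_of_fg_of_le_smul n
      (⊤ : Submodule R (X ⧸ N)) (Module.Finite.fg_top) key
  refine ⟨r, ?_, ?_⟩
  · intro hrn
    apply hn.ne_top
    rw [Ideal.eq_top_iff_one]
    have : (1 : R) = r - (r - 1) := by ring
    rw [this]
    exact n.sub_mem hrn hr1
  · intro x
    have := hr0 (N.mkQ x) Submodule.mem_top
    rw [← map_smul, Submodule.mkQ_apply, Submodule.Quotient.mk_eq_zero] at this
    exact this

/-- **E-core.**  See the module docstring. -/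
theorem lre_core (n : Ideal R) [hn : n.IsMaximal] (p : ℕ) (hp : (p : R) ∈ n)
    {X Y : Type*} [AddCommGroup X] [Module R X] [Module.Finite R X]
    [AddCommGroup Y] [Module R Y] (α : X →ₗ[R] Y) (β : Y →ₗ[R] X)
    (hα : lre_InjAt n p α) (hβ : lre_SurjAt n p β) (hA : lre_NotInjAt n p (β ∘ₗ α)) :
    ¬ lre_TrivAt n p (LinearMap.ker β) := by
  rintro ⟨s₀, hs₀, hK⟩
  obtain ⟨s₂, hs₂, hinj⟩ := hα
  obtain ⟨s₃, hs₃, hsurj⟩ := hβ
  obtain ⟨x, hx, s₁, hs₁, x', hx'⟩ := hA
  obtain ⟨r, hr, hrX⟩ := lre_nakayama n p hp (LinearMap.range β) s₃ hs₃ (by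
    intro x
    obtain ⟨y, x', h⟩ := hsurj x
    exact ⟨β y, ⟨y, rfl⟩, x', h⟩)
  obtain ⟨y', hy'⟩ := hrX x'
  -- k := r s₁ α x - p y' ∈ ker β
  have hk : (r * s₁) • α x - (p : R) • y' ∈ LinearMap.ker β := by
    rw [LinearMap.mem_ker, map_sub, map_smul, map_smul, hy', mul_smul]
    have : s₁ • β (α x) = (p : R) • x' := hx'
    rw [this, smul_comm r (p : R) x', sub_self]
  obtain ⟨k', _, hk'⟩ := hK _ hk
  -- s₀ r s₁ α x = p (s₀ y' + k')
  have h1 : α ((s₀ * (r * s₁)) • x) = (p : R) • (s₀ • y' + k') := by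
    rw [map_smul, mul_smul, smul_add, ← hk', smul_sub, smul_comm s₀ (p : R) y']
    abel
  obtain ⟨x'', hx''⟩ := hinj _ ⟨_, h1⟩
  refine hx (s₂ * (s₀ * (r * s₁))) ?_ ⟨x'', by rw [mul_smul]; exact hx''⟩
  have hprime := hn.isPrime
  intro hmem
  rcases hprime.mem_or_mem hmem with h | h
  · exact hs₂ h
  rcases hprime.mem_or_mem h with h | h
  · exact hs₀ h
  rcases hprime.mem_or_mem h with h | h
  · exact hr h
  · exact hs₁ h

end Fermat.Agent.S41x
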