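import Fermat.Agent.S41x.RibetAlgNak

/-!
# S41 block E (abstract algebra core, part 2): Ribet's level-raising argument for lattices

`O` a commutative ring, `𝔪` a prime ideal, `M₁`, `M₂` `O`-modules with commuting families
`T₁ i`, `T₂ i`; `α : M₁ × M₁ → M₂`, `β : M₂ → M₁ × M₁` equivariant with
`β ∘ α = [[q+1, U],[U, q+1]]`.  Given an exact `Θ`-eigenvector `v ∈ M₁` with `U v = a v`,
`a² ≡ (q+1)²` mod `𝔪`, `v ∉ 𝔪 M₁`, Ihara's lemma (`ker (α mod 𝔪)` has no `Θ`-eigenvector) and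
the dual statement (`coker (β mod 𝔪)` has no `Θ`-coinvariants), there is `z ∈ ker β`,
`z ∉ 𝔪 M₂`, which is a `Θ`-eigenvector modulo `𝔪`.
-/

set_option autoImplicit false

namespace Fermat.Agent.S41x

open Module

section Core

variable {ι : Type*} {O : Type*} [CommRing O]
variable {M₁ M₂ : Type*} [AddCommGroup M₁] [Module O M₁] [AddCommGroup M₂] [Module O M₂]

/-- `v ∈ 𝔪 M₁` as soon as `(v, w) ∈ 𝔪 (M₁ × M₁)`. -/
theorem rba_fst_mem (𝔪 : Ideal O) {x : M₁ × M₁}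
    (hx : x ∈ 𝔪 • (⊤ : Submodule O (M₁ × M₁))) : x.1 ∈ 𝔪 • (⊤ : Submodule O M₁) := by
  refine Submodule.smul_induction_on hx (fun r hr n _ => ?_) (fun a b ha hb => ?_)
  · exact Submodule.smul_mem_smul hr Submodule.mem_top
  · exact Submodule.add_mem _ ha hb

theorem rba_smul_mem_smul_top {M : Type*} [AddCommGroup M] [Module O M] (𝔪 : Ideal O)
    {r : O} (hr : r ∈ 𝔪) (y : M) : r • y ∈ 𝔪 • (⊤ : Submodule O M) :=
  Submodule.smul_mem_smul hr Submodule.mem_top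

/-- **Ribet's lattice argument**, abstract form. -/
theorem rba_ribet_core [Module.Finite O M₁]
    (𝔪 : Ideal O) [𝔪.IsPrime]
    (T₁ : ι → Module.End O M₁) (T₂ : ι → Module.End O M₂) (U : Module.End O M₁)
    (hcomm : ∀ i j, T₁ i * T₁ j = T₁ j * T₁ i)
    (α : M₁ × M₁ →ₗ[O] M₂) (β : M₂ →ₗ[O] M₁ × M₁)
    (hα : ∀ i (x : M₁ × M₁), α (T₁ i x.1, T₁ i x.2) = T₂ i (α x))
    (hβ : ∀ i (y : M₂), β (T₂ i y) = (T₁ i (β y).1, T₁ i (β y).2))
    (q : O)
    (hβα : ∀ x : M₁ × M₁, β (α x) = ((q + 1) • x.1 + U x.2, U x.1 + (q + 1) • x.2))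
    (Θ : ι → O) (a : O) (v : M₁) (hv : ∀ i, T₁ i v = Θ i • v) (hUv : U v = a • v)
    (ha : a ^ 2 - (q + 1) ^ 2 ∈ 𝔪) (hv0 : v ∉ 𝔪 • (⊤ : Submodule O M₁))
    -- Ihara: no `Θ`-eigenvector in the kernel of `α` modulo `𝔪`
    (hI : ∀ x : M₁ × M₁, (∀ i, (T₁ i).prodMap (T₁ i) x - Θ i • x ∈
        𝔪 • (⊤ : Submodule O (M₁ × M₁))) →
      α x ∈ 𝔪 • (⊤ : Submodule O M₂) → x ∈ 𝔪 • (⊤ : Submodule O (M₁ × M₁)))
    -- dual statement: the cokernel of `β` modulo `𝔪` has no `Θ`-coinvariants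
    (hC : ∀ c : M₁ × M₁, c ∈ 𝔪 • (⊤ : Submodule O (M₁ × M₁)) ⊔ LinearMap.range β ⊔
      ⨆ i, LinearMap.range ((T₁ i).prodMap (T₁ i) - Θ i • (1 : Module.End O (M₁ × M₁)))) :
    ∃ z : M₂, β z = 0 ∧ z ∉ 𝔪 • (⊤ : Submodule O M₂) ∧
      ∀ i, T₂ i z - Θ i • z ∈ 𝔪 • (⊤ : Submodule O M₂) := by
  classical
  -- choice of sign
  have hfac : (a - (q + 1)) * (a + (q + 1)) ∈ 𝔪 := by
    have : (a - (q + 1)) * (a + (q + 1)) = a ^ 2 - (q + 1) ^ 2 := by ring
    rw [this]; exact ha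
  obtain ⟨ε, hε, hlam⟩ : ∃ ε : O, ε * ε = 1 ∧ (q + 1) + ε * a ∈ 𝔪 := by
    rcases Ideal.IsPrime.mem_or_mem ‹𝔪.IsPrime› hfac with h | h
    · refine ⟨-1, by ring, ?_⟩
      have : (q + 1) + -1 * a = -(a - (q + 1)) := by ring
      rw [this]; exact 𝔪.neg_mem h
    · refine ⟨1, by ring, ?_⟩
      have : (q + 1) + 1 * a = a + (q + 1) := by ring
      rw [this]; exact h
  obtain ⟨lam, hlamdef⟩ : ∃ lam : O, lam = (q + 1) + ε * a := ⟨_, rfl⟩
  rw [← hlamdef] at hlam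
  have hsc : lam * ε = a + (q + 1) * ε := by
    rw [hlamdef]; linear_combination a * hε
  obtain ⟨x, hxdef⟩ : ∃ x : M₁ × M₁, x = (v, ε • v) := ⟨_, rfl⟩
  have hx1 : x.1 = v := by rw [hxdef]
  have hx2 : x.2 = ε • v := by rw [hxdef]
  -- x is an eigenvector of the product operators
  have hTx1 : ∀ i, T₁ i x.1 = Θ i • x.1 := fun i => by rw [hx1, hv i]
  have hTx2 : ∀ i, T₁ i x.2 = Θ i • x.2 := fun i => by
    rw [hx2, map_smul, hv i, smul_comm]
  have hTx : ∀ i, (T₁ i).prodMap (T₁ i) x = Θ i • x := by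
    intro i
    rw [LinearMap.prodMap_apply]
    exact Prod.ext (hTx1 i) (hTx2 i)
  have hβαx : β (α x) = lam • x := by
    rw [hβα]
    refine Prod.ext ?_ ?_
    · show (q + 1) • x.1 + U x.2 = lam • x.1
      rw [hx1, hx2, map_smul, hUv, hlamdef]
      module
    · show U x.1 + (q + 1) • x.2 = lam • x.2
      rw [hx1, hx2, hUv, smul_smul, smul_smul, hsc]
      module
  obtain ⟨y, hydef⟩ : ∃ y : M₂, y = α x := ⟨_, rfl⟩
  have hTy : ∀ i, T₂ i y = Θ i • y := by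
    intro i
    have h1 := hα i x
    rw [hydef, ← h1, hTx1 i, hTx2 i, ← map_smul]
    rfl
  -- Nakayama
  have hstab : ∀ i, ∀ b ∈ LinearMap.range β, (T₁ i).prodMap (T₁ i) b ∈ LinearMap.range β := by
    rintro i _ ⟨w, rfl⟩
    exact ⟨T₂ i w, by rw [hβ i w, LinearMap.prodMap_apply]⟩
  have hcommP : ∀ i j, (T₁ i).prodMap (T₁ i) * (T₁ j).prodMap (T₁ j)
      = (T₁ j).prodMap (T₁ j) * (T₁ i).prodMap (T₁ i) := by
    intro i j
    apply LinearMap.ext
    rintro ⟨u, w⟩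
    have h := hcomm i j
    have hu := congrArg (fun f => f u) h
    have hw := congrArg (fun f => f w) h
    simp only [Module.End.mul_apply] at hu hw
    simp [Module.End.mul_apply, hu, hw]
  obtain ⟨s, hs, w, hw⟩ := rba_exists_smul_mem 𝔪 (fun i => (T₁ i).prodMap (T₁ i)) hcommP Θ
    (LinearMap.range β) hstab hC x hTx
  -- the new vector
  refine ⟨s • y - lam • w, ?_, ?_, ?_⟩
  · rw [map_sub, map_smul, map_smul, hw, hydef, hβαx, smul_smul, smul_smul, mul_comm, sub_self]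
  · intro hz
    have h1 : s • y ∈ 𝔪 • (⊤ : Submodule O M₂) := by
      have : s • y = (s • y - lam • w) + lam • w := by abel
      rw [this]
      exact Submodule.add_mem _ hz (rba_smul_mem_smul_top 𝔪 hlam w)
    have h2 : y ∈ 𝔪 • (⊤ : Submodule O M₂) := by
      have : y = s • y - (s - 1) • y := by rw [sub_smul, one_smul]; abel
      rw [this]
      exact Submodule.sub_mem _ h1 (rba_smul_mem_smul_top 𝔪 hs y)
    have h3 := hI x (fun i => by rw [hTx i, sub_self]; exact Submodule.zero_mem _) (hydef ▸ h2)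
    exact hv0 (hx1 ▸ rba_fst_mem 𝔪 h3)
  · intro i
    have : T₂ i (s • y - lam • w) - Θ i • (s • y - lam • w)
        = - (lam • (T₂ i w - Θ i • w)) := by
      rw [map_sub, map_smul, map_smul, hTy i]
      simp only [smul_sub, smul_smul]
      rw [mul_comm s (Θ i), mul_comm lam (Θ i)]
      abel
    rw [this]
    exact Submodule.neg_mem _ (rba_smul_mem_smul_top 𝔪 hlam _)

/-- Consequence used for Deligne–Serre lifting: an operator polynomial killing `z` is killed by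
the eigencharacter modulo `𝔪`.  Abstract form: `H` any commutative ring acting on `M₂` through `ρ`,
`χ : H →+* O` with `ρ h z ≡ χ h • z` modulo `𝔪`. -/
theorem rba_char_mem_of_kills {H : Type*} [CommRing H] (𝔪 : Ideal O) [𝔪.IsMaximal]
    (ρ : H →+* Module.End O M₂) (χ : H →+* O) (z : M₂)
    (hz0 : z ∉ 𝔪 • (⊤ : Submodule O M₂))
    (hz : ∀ h : H, ρ h z - χ h • z ∈ 𝔪 • (⊤ : Submodule O M₂))
    (h : H) (hh : ρ h z = 0) : χ h ∈ 𝔪 := by
  by_contra hχ
  obtain ⟨u, hu⟩ := Ideal.Quotient.exists_inv (I := 𝔪)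
    (a := Ideal.Quotient.mk 𝔪 (χ h)) (by
      rw [Ne, Ideal.Quotient.eq_zero_iff_mem]; exact hχ)
  obtain ⟨u, rfl⟩ := Ideal.Quotient.mk_surjective u
  have hu' : χ h * u - 1 ∈ 𝔪 := by
    rw [← Ideal.Quotient.eq_zero_iff_mem, map_sub, map_mul, hu, map_one, sub_self]
  have h1 : χ h • z ∈ 𝔪 • (⊤ : Submodule O M₂) := by
    have := hz h
    rw [hh, zero_sub] at this
    simpa using Submodule.neg_mem _ this
  apply hz0
  have : z = u • (χ h • z) - (χ h * u - 1) • z := by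
    rw [sub_smul, one_smul, smul_smul, mul_comm u]; abel
  rw [this]
  exact Submodule.sub_mem _ (Submodule.smul_mem _ u h1) (rba_smul_mem_smul_top 𝔪 hu' z)

end Core

end Fermat.Agent.S41x
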