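import Mathlib

/-!
# S41 block E (abstract algebra core, part 3): duality gives the cokernel hypothesis

If `β` is adjoint to `α` for pairings that are perfect modulo the maximal ideal `𝔪`, the
operators `T i` are self-adjoint, and the kernel of `α` modulo `𝔪` contains no `Θ`-eigenvector
(Ihara's lemma), then the cokernel of `β` modulo `𝔪` has no `Θ`-coinvariants, in the exact form
required by `rba_ribet_core` / `rba_exists_smul_mem`.
-/

set_option autoImplicit false

namespace Fermat.Agent.S41x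

open Module

section Dual

variable {ι : Type*} {O : Type*} [CommRing O]
variable {P M₂ : Type*} [AddCommGroup P] [Module O P] [AddCommGroup M₂] [Module O M₂]

/-- A bilinear form sends `𝔪 P × P` into `𝔪`. -/
theorem rba_form_mem_of_mem_smul_top (𝔪 : Ideal O) (BP : P →ₗ[O] P →ₗ[O] O) {x : P}
    (hx : x ∈ 𝔪 • (⊤ : Submodule O P)) (c : P) : BP x c ∈ 𝔪 := by
  refine Submodule.smul_induction_on hx (fun r hr n _ => ?_) (fun a b ha hb => ?_)
  · rw [map_smul, LinearMap.smul_apply, smul_eq_mul]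
    exact 𝔪.mul_mem_right _ hr
  · rw [map_add, LinearMap.add_apply]
    exact 𝔪.add_mem ha hb

theorem rba_coker_of_duality (𝔪 : Ideal O) [h𝔪 : 𝔪.IsMaximal]
    (T : ι → Module.End O P) (α : P →ₗ[O] M₂) (β : M₂ →ₗ[O] P)
    (BP : P →ₗ[O] P →ₗ[O] O) (B2 : M₂ →ₗ[O] M₂ →ₗ[O] O)
    (hadj : ∀ x y, B2 (α x) y = BP x (β y))
    (hsa : ∀ i x c, BP (T i x) c = BP x (T i c))
    (hperf : ∀ f : P →ₗ[O] (O ⧸ 𝔪), ∃ x : P, ∀ c, f c = Ideal.Quotient.mk 𝔪 (BP x c))
    (hnd2 : ∀ u : M₂, (∀ y, B2 u y ∈ 𝔪) → u ∈ 𝔪 • (⊤ : Submodule O M₂))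
    (hndP : ∀ x : P, (∀ c, BP x c ∈ 𝔪) → x ∈ 𝔪 • (⊤ : Submodule O P))
    (Θ : ι → O)
    (hI : ∀ x : P, (∀ i, T i x - Θ i • x ∈ 𝔪 • (⊤ : Submodule O P)) →
      α x ∈ 𝔪 • (⊤ : Submodule O M₂) → x ∈ 𝔪 • (⊤ : Submodule O P)) :
    ∀ c : P, c ∈ 𝔪 • (⊤ : Submodule O P) ⊔ LinearMap.range β ⊔
      ⨆ i, LinearMap.range (T i - Θ i • (1 : Module.End O P)) := by
  classical
  intro c
  by_contra hc
  set W : Submodule O P := 𝔪 • (⊤ : Submodule O P) ⊔ LinearMap.range β ⊔
      ⨆ i, LinearMap.range (T i - Θ i • (1 : Module.End O P)) with hW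
  have h1W : 𝔪 • (⊤ : Submodule O P) ≤ W := le_sup_of_le_left le_sup_left
  have h2W : LinearMap.range β ≤ W := le_sup_of_le_left le_sup_right
  have h3W : ∀ i, LinearMap.range (T i - Θ i • (1 : Module.End O P)) ≤ W :=
    fun i => le_sup_of_le_right (le_iSup (fun i => LinearMap.range (T i - Θ i • (1 : Module.End O P))) i)
  -- the quotient is a vector space over O ⧸ 𝔪
  have htors : Module.IsTorsionBySet O (P ⧸ W) (𝔪 : Set O) := by
    rintro x ⟨a, ha⟩
    obtain ⟨p, rfl⟩ := Submodule.Quotient.mk_surjective W x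
    show a • Submodule.Quotient.mk p = 0
    rw [← Submodule.Quotient.mk_smul, Submodule.Quotient.mk_eq_zero]
    exact h1W (Submodule.smul_mem_smul ha Submodule.mem_top)
  let _ : Field (O ⧸ 𝔪) := Ideal.Quotient.field 𝔪
  let _ : Module (O ⧸ 𝔪) (P ⧸ W) := htors.module
  have hcne : (Submodule.Quotient.mk c : P ⧸ W) ≠ 0 := by
    rw [Ne, Submodule.Quotient.mk_eq_zero]; exact hc
  obtain ⟨φ, hφ⟩ := Module.Projective.exists_dual_ne_zero (O ⧸ 𝔪) hcne
  -- the functional on P
  let f : P →ₗ[O] (O ⧸ 𝔪) :=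
    { toFun := fun p => φ (Submodule.Quotient.mk p)
      map_add' := fun p p' => by rw [Submodule.Quotient.mk_add, map_add]
      map_smul' := fun o p => by
        rw [Submodule.Quotient.mk_smul]
        have : (o • (Submodule.Quotient.mk p : P ⧸ W)) =
            (Ideal.Quotient.mk 𝔪 o) • (Submodule.Quotient.mk p : P ⧸ W) := rfl
        rw [this, map_smul, RingHom.id_apply]
        rfl }
  have hfW : ∀ w ∈ W, f w = 0 := by
    intro w hw
    show φ (Submodule.Quotient.mk w) = 0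
    rw [(Submodule.Quotient.mk_eq_zero W).mpr hw, map_zero]
  obtain ⟨x, hx⟩ := hperf f
  have hmem : ∀ w ∈ W, BP x w ∈ 𝔪 := by
    intro w hw
    rw [← Ideal.Quotient.eq_zero_iff_mem, ← hx w, hfW w hw]
  -- x is an eigenvector mod 𝔪 in the kernel of α mod 𝔪
  have hαx : α x ∈ 𝔪 • (⊤ : Submodule O M₂) := by
    apply hnd2
    intro y
    rw [hadj]
    exact hmem _ (h2W ⟨y, rfl⟩)
  have hTx : ∀ i, T i x - Θ i • x ∈ 𝔪 • (⊤ : Submodule O P) := by
    intro i
    apply hndP
    intro c'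
    have : BP (T i x - Θ i • x) c' = BP x ((T i - Θ i • (1 : Module.End O P)) c') := by
      rw [map_sub, LinearMap.sub_apply, map_smul, LinearMap.smul_apply, hsa,
        LinearMap.sub_apply, LinearMap.smul_apply, Module.End.one_apply, map_sub, map_smul]
    rw [this]
    exact hmem _ (h3W i ⟨c', rfl⟩)
  have hx0 := hI x hTx hαx
  apply hφ
  have : f c = 0 := by
    rw [hx c, Ideal.Quotient.eq_zero_iff_mem]
    exact rba_form_mem_of_mem_smul_top 𝔪 BP hx0 c
  exact this

/-- For a finite free module with a perfect pairing, the pairing is nondegenerate modulo any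
ideal. -/
theorem rba_nondeg_of_bijective [Module.Free O P] [Module.Finite O P] (𝔪 : Ideal O)
    (BP : P →ₗ[O] P →ₗ[O] O) (hB : Function.Bijective BP)
    (x : P) (hx : ∀ c, BP x c ∈ 𝔪) : x ∈ 𝔪 • (⊤ : Submodule O P) := by
  classical
  let b := Module.Free.chooseBasis O P
  choose y hy using fun j => hB.2 (b.coord j)
  have : BP (∑ j, BP x (b j) • y j) = BP x := by
    apply b.ext
    intro k
    rw [map_sum, LinearMap.sum_apply]
    simp only [map_smul, hy, LinearMap.smul_apply, Module.Basis.coord_apply,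
      Module.Basis.repr_self, smul_eq_mul]
    rw [Finset.sum_eq_single k]
    · simp
    · intro j _ hjk
      simp [hjk.symm]
    · intro hk; exact absurd (Finset.mem_univ k) hk
  rw [← hB.1 this]
  exact Submodule.sum_mem _ fun j _ => Submodule.smul_mem_smul (hx (b j)) Submodule.mem_top

/-- For a finite free module with a perfect pairing, every functional modulo `𝔪` is
represented. -/
theorem rba_perf_of_bijective [Module.Free O P] [Module.Finite O P] (𝔪 : Ideal O)
    (BP : P →ₗ[O] P →ₗ[O] O) (hB : Function.Bijective BP)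
    (f : P →ₗ[O] (O ⧸ 𝔪)) : ∃ x : P, ∀ c, f c = Ideal.Quotient.mk 𝔪 (BP x c) := by
  classical
  let b := Module.Free.chooseBasis O P
  choose g hg using fun j => Ideal.Quotient.mk_surjective (I := 𝔪) (f (b j))
  obtain ⟨x, hx⟩ := hB.2 (b.constr O g)
  refine ⟨x, fun c => ?_⟩
  have : f = (Ideal.Quotient.mkₐ O 𝔪).toLinearMap ∘ₗ (BP x) := by
    apply b.ext
    intro j
    rw [hx, LinearMap.comp_apply, Module.Basis.constr_basis]
    exact (hg j).symm
  rw [this]
  rfl

end Dual

end Fermat.Agent.S41x
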