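import Fermat.Agent.S41x.RibetAlgNakOp
import Fermat.Agent.S41x.RibetAlgDual

/-!
# S41 block E (abstract algebra core): Ribet's lattice argument, eigenvectors modulo `𝔪`

Same as `rba_ribet_core` / `rba_ribet_main`, but the given eigenvector `v` is only required to be
an eigenvector **modulo `𝔪`** (`T₁ i v - Θ i • v ∈ 𝔪 M₁`, `U v - a • v ∈ 𝔪 M₁`).  In particular
the theorem applies with `O = ℤ`, `𝔪 = (p)`, `Θ i = a_ℓ(W)`, and lattices `M₁ = L(N)`,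
`M₂ = L(N q)`: no eigenvector in characteristic `0` is needed, and the output `z` lies in the
honest kernel of `β` on the lattice.
-/

set_option autoImplicit false

namespace Fermat.Agent.S41x

open Module

section CoreMod

variable {ι : Type*} {O : Type*} [CommRing O]
variable {M₁ M₂ : Type*} [AddCommGroup M₁] [Module O M₁] [AddCommGroup M₂] [Module O M₂]

/-- A linear map sends `𝔪 M` into `𝔪 M'`. -/
theorem rba_map_mem_smul_top {M M' : Type*} [AddCommGroup M] [Module O M] [AddCommGroup M']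
    [Module O M'] (𝔪 : Ideal O) (g : M →ₗ[O] M') {x : M}
    (hx : x ∈ 𝔪 • (⊤ : Submodule O M)) : g x ∈ 𝔪 • (⊤ : Submodule O M') := by
  refine Submodule.smul_induction_on hx (fun r hr n _ => ?_) (fun a b ha hb => ?_)
  · rw [map_smul]; exact Submodule.smul_mem_smul hr Submodule.mem_top
  · rw [map_add]; exact Submodule.add_mem _ ha hb

theorem rba_prod_mem_smul_top (𝔪 : Ideal O) {u w : M₁}
    (hu : u ∈ 𝔪 • (⊤ : Submodule O M₁)) (hw : w ∈ 𝔪 • (⊤ : Submodule O M₁)) :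
    ((u, w) : M₁ × M₁) ∈ 𝔪 • (⊤ : Submodule O (M₁ × M₁)) := by
  have h1 := rba_map_mem_smul_top 𝔪 (LinearMap.inl O M₁ M₁) hu
  have h2 := rba_map_mem_smul_top 𝔪 (LinearMap.inr O M₁ M₁) hw
  have : ((u, w) : M₁ × M₁) = LinearMap.inl O M₁ M₁ u + LinearMap.inr O M₁ M₁ w := by
    simp
  rw [this]
  exact Submodule.add_mem _ h1 h2

theorem rba_fst_mem_smul_top (𝔪 : Ideal O) {x : M₁ × M₁}
    (hx : x ∈ 𝔪 • (⊤ : Submodule O (M₁ × M₁))) : x.1 ∈ 𝔪 • (⊤ : Submodule O M₁) :=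
  rba_map_mem_smul_top 𝔪 (LinearMap.fst O M₁ M₁) hx

/-- **Ribet's lattice argument**, abstract form, with an eigenvector modulo `𝔪`. -/
theorem rba_ribet_core_mod [Module.Finite O M₁]
    (𝔪 : Ideal O) [𝔪.IsPrime]
    (T₁ : ι → Module.End O M₁) (T₂ : ι → Module.End O M₂) (U : Module.End O M₁)
    (hcomm : ∀ i j, T₁ i * T₁ j = T₁ j * T₁ i)
    (α : M₁ × M₁ →ₗ[O] M₂) (β : M₂ →ₗ[O] M₁ × M₁)
    (hα : ∀ i (x : M₁ × M₁), α (T₁ i x.1, T₁ i x.2) = T₂ i (α x))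
    (hβ : ∀ i (y : M₂), β (T₂ i y) = (T₁ i (β y).1, T₁ i (β y).2))
    (q : O)
    (hβα : ∀ x : M₁ × M₁, β (α x) = ((q + 1) • x.1 + U x.2, U x.1 + (q + 1) • x.2))
    (Θ : ι → O) (a : O) (v : M₁)
    (hv : ∀ i, T₁ i v - Θ i • v ∈ 𝔪 • (⊤ : Submodule O M₁))
    (hUv : U v - a • v ∈ 𝔪 • (⊤ : Submodule O M₁))
    (ha : a ^ 2 - (q + 1) ^ 2 ∈ 𝔪) (hv0 : v ∉ 𝔪 • (⊤ : Submodule O M₁))
    (hI : ∀ x : M₁ × M₁, (∀ i, (T₁ i).prodMap (T₁ i) x - Θ i • x ∈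
        𝔪 • (⊤ : Submodule O (M₁ × M₁))) →
      α x ∈ 𝔪 • (⊤ : Submodule O M₂) → x ∈ 𝔪 • (⊤ : Submodule O (M₁ × M₁)))
    (hC : ∀ c : M₁ × M₁, c ∈ 𝔪 • (⊤ : Submodule O (M₁ × M₁)) ⊔ LinearMap.range β ⊔
      ⨆ i, LinearMap.range ((T₁ i).prodMap (T₁ i) - Θ i • (1 : Module.End O (M₁ × M₁)))) :
    ∃ z : M₂, β z = 0 ∧ z ∉ 𝔪 • (⊤ : Submodule O M₂) ∧
      ∀ i, T₂ i z - Θ i • z ∈ 𝔪 • (⊤ : Submodule O M₂) := by
  classical
  -- notation
  obtain ⟨TP, hTP⟩ : ∃ TP : ι → Module.End O (M₁ × M₁), TP = fun i => (T₁ i).prodMap (T₁ i) :=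
    ⟨_, rfl⟩
  have hTPa : ∀ i (x : M₁ × M₁), TP i x = (T₁ i x.1, T₁ i x.2) := by
    intro i x; rw [hTP]; rfl
  have hI' : ∀ x : M₁ × M₁, (∀ i, TP i x - Θ i • x ∈ 𝔪 • (⊤ : Submodule O (M₁ × M₁))) →
      α x ∈ 𝔪 • (⊤ : Submodule O M₂) → x ∈ 𝔪 • (⊤ : Submodule O (M₁ × M₁)) := by
    rw [hTP]; exact hI
  have hC' : ∀ c : M₁ × M₁, c ∈ 𝔪 • (⊤ : Submodule O (M₁ × M₁)) ⊔ LinearMap.range β ⊔
      ⨆ i, LinearMap.range (TP i - Θ i • (1 : Module.End O (M₁ × M₁))) := by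
    rw [hTP]; exact hC
  -- choice of sign
  have hfac : (a - (q + 1)) * (a + (q + 1)) ∈ 𝔪 := by
    have : (a - (q + 1)) * (a + (q + 1)) = a ^ 2 - (q + 1) ^ 2 := by ring
    rw [this]; exact ha
  obtain ⟨ε, hε, hlam⟩ : ∃ ε : O, ε * ε = 1 ∧ (q + 1) + ε * a ∈ 𝔪 := by
    rcases Ideal.IsPrime.mem_or_mem ‹𝔪.IsPrime› hfac with h | h
    · refine ⟨-1, by ring, ?_⟩
      have : (q + 1) + -1 * a = -(a - (q + 1)) := by ring
      rw [this]; exact 𝔪.neg_mem h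
    · refine ⟨1, by ring, ?_⟩
      have : (q + 1) + 1 * a = a + (q + 1) := by ring
      rw [this]; exact h
  obtain ⟨lam, hlamdef⟩ : ∃ lam : O, lam = (q + 1) + ε * a := ⟨_, rfl⟩
  rw [← hlamdef] at hlam
  have hsc : lam * ε = a + (q + 1) * ε := by
    rw [hlamdef]; linear_combination a * hε
  obtain ⟨x, hxdef⟩ : ∃ x : M₁ × M₁, x = (v, ε • v) := ⟨_, rfl⟩
  have hx1 : x.1 = v := by rw [hxdef]
  have hx2 : x.2 = ε • v := by rw [hxdef]
  -- x is an eigenvector modulo 𝔪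
  have hTx : ∀ i, TP i x - Θ i • x ∈ 𝔪 • (⊤ : Submodule O (M₁ × M₁)) := by
    intro i
    have e : TP i x - Θ i • x = (T₁ i v - Θ i • v, ε • (T₁ i v - Θ i • v)) := by
      rw [hTPa]
      refine Prod.ext ?_ ?_
      · show T₁ i x.1 - Θ i • x.1 = _
        rw [hx1]
      · show T₁ i x.2 - Θ i • x.2 = _
        rw [hx2, map_smul, smul_sub, smul_comm]
    rw [e]
    exact rba_prod_mem_smul_top 𝔪 (hv i) (Submodule.smul_mem _ _ (hv i))
  -- β α x ≡ 0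
  have hgx : β (α x) ∈ 𝔪 • (⊤ : Submodule O (M₁ × M₁)) := by
    rw [hβα, hx1, hx2]
    have e1 : (q + 1) • v + U (ε • v) = lam • v + ε • (U v - a • v) := by
      rw [map_smul, hlamdef]; module
    have e2 : U v + (q + 1) • ε • v = (lam * ε) • v + (U v - a • v) := by
      rw [hsc]; module
    rw [e1, e2]
    refine rba_prod_mem_smul_top 𝔪 ?_ ?_
    · exact Submodule.add_mem _ (Submodule.smul_mem_smul hlam Submodule.mem_top)
        (Submodule.smul_mem _ _ hUv)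
    · exact Submodule.add_mem _
        (Submodule.smul_mem_smul (𝔪.mul_mem_right _ hlam) Submodule.mem_top) hUv
  -- the Nakayama operator
  have hstab : ∀ i, ∀ b ∈ LinearMap.range β, TP i b ∈ LinearMap.range β := by
    rintro i _ ⟨w, rfl⟩
    exact ⟨T₂ i w, by rw [hβ i w, hTPa]⟩
  have hcommP : ∀ i j, TP i * TP j = TP j * TP i := by
    intro i j
    apply LinearMap.ext
    rintro ⟨u, w⟩
    have h := hcomm i j
    have hu := congrArg (fun f => f u) h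
    have hw := congrArg (fun f => f w) h
    simp only [Module.End.mul_apply] at hu hw
    simp only [Module.End.mul_apply, hTPa]
    rw [hu, hw]
  obtain ⟨t, htS, htB, hte⟩ := rba_exists_operator 𝔪 TP hcommP Θ (LinearMap.range β) hstab hC'
  -- g = β ∘ α commutes with t
  let g : Module.End O (M₁ × M₁) := β ∘ₗ α
  have hgT : ∀ i, g * TP i = TP i * g := by
    intro i
    apply LinearMap.ext
    intro c
    show β (α (TP i c)) = TP i (β (α c))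
    rw [hTPa, hα, hβ, hTPa]
  have hgt : g * t = t * g := rba_commute_of_mem_adjoin TP g hgT htS
  -- eigenvectors modulo 𝔪 are stable under congruence
  have hcong : ∀ e e' : M₁ × M₁, (∀ i, TP i e - Θ i • e ∈ 𝔪 • (⊤ : Submodule O (M₁ × M₁))) →
      e' - e ∈ 𝔪 • (⊤ : Submodule O (M₁ × M₁)) →
      ∀ i, TP i e' - Θ i • e' ∈ 𝔪 • (⊤ : Submodule O (M₁ × M₁)) := by
    intro e e' he hee i
    have : TP i e' - Θ i • e' = (TP i e - Θ i • e) + (TP i (e' - e) - Θ i • (e' - e)) := by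
      rw [map_sub, smul_sub]; abel
    rw [this]
    exact Submodule.add_mem _ (he i) (Submodule.sub_mem _ (rba_end_apply_mem_smul_top 𝔪 _ hee)
      (Submodule.smul_mem _ _ hee))
  -- x₂ = t x, x₃ = t x₂
  have h2 : t x - x ∈ 𝔪 • (⊤ : Submodule O (M₁ × M₁)) := hte x hTx
  have hTx2 := hcong x (t x) hTx h2
  have h3 : t (t x) - t x ∈ 𝔪 • (⊤ : Submodule O (M₁ × M₁)) := hte (t x) hTx2
  have h3' : t (t x) - x ∈ 𝔪 • (⊤ : Submodule O (M₁ × M₁)) := by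
    have : t (t x) - x = (t (t x) - t x) + (t x - x) := by abel
    rw [this]; exact Submodule.add_mem _ h3 h2
  have hTx3 := hcong x (t (t x)) hTx h3'
  -- g (t x) ∈ 𝔪 P
  have hg2 : g (t x) ∈ 𝔪 • (⊤ : Submodule O (M₁ × M₁)) := by
    have : g (t x) = g x + g (t x - x) := by rw [map_sub]; abel
    rw [this]
    exact Submodule.add_mem _ hgx (rba_end_apply_mem_smul_top 𝔪 g h2)
  -- t maps 𝔪 P into β (𝔪 M₂)
  have hlift : ∀ e ∈ 𝔪 • (⊤ : Submodule O (M₁ × M₁)),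
      ∃ w ∈ 𝔪 • (⊤ : Submodule O M₂), β w = t e := by
    intro e he
    refine Submodule.smul_induction_on he (fun r hr n _ => ?_) (fun a b ha hb => ?_)
    · obtain ⟨w, hw⟩ := htB n
      exact ⟨r • w, Submodule.smul_mem_smul hr Submodule.mem_top, by
        rw [map_smul, map_smul, hw]⟩
    · obtain ⟨wa, hwa, ha'⟩ := ha
      obtain ⟨wb, hwb, hb'⟩ := hb
      exact ⟨wa + wb, Submodule.add_mem _ hwa hwb, by rw [map_add, map_add, ha', hb']⟩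
  obtain ⟨w, hw𝔪, hw⟩ := hlift _ hg2
  -- the new vector
  refine ⟨α (t (t x)) - w, ?_, ?_, ?_⟩
  · have : β (α (t (t x))) = t (g (t x)) := by
      have := congrArg (fun f => f (t x)) hgt
      simpa [Module.End.mul_apply, g] using this
    rw [map_sub, this, hw, sub_self]
  · intro hz
    have hy : α (t (t x)) ∈ 𝔪 • (⊤ : Submodule O M₂) := by
      have : α (t (t x)) = (α (t (t x)) - w) + w := by abel
      rw [this]; exact Submodule.add_mem _ hz hw𝔪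
    have hαx : α x ∈ 𝔪 • (⊤ : Submodule O M₂) := by
      have : α x = α (t (t x)) - α (t (t x) - x) := by rw [map_sub]; abel
      rw [this]
      exact Submodule.sub_mem _ hy (rba_map_mem_smul_top 𝔪 α h3')
    have := hI' x hTx hαx
    exact hv0 (hx1 ▸ rba_fst_mem_smul_top 𝔪 this)
  · intro i
    have e : T₂ i (α (t (t x)) - w) - Θ i • (α (t (t x)) - w)
        = α (TP i (t (t x)) - Θ i • t (t x)) - (T₂ i w - Θ i • w) := by
      rw [map_sub, map_sub, map_smul, ← hα i (t (t x)), ← hTPa, smul_sub]; abel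
    rw [e]
    exact Submodule.sub_mem _ (rba_map_mem_smul_top 𝔪 α (hTx3 i))
      (Submodule.sub_mem _ (rba_end_apply_mem_smul_top 𝔪 _ hw𝔪) (Submodule.smul_mem _ _ hw𝔪))

/-- **Ribet's lattice argument from Ihara + duality**, eigenvector modulo `𝔪`. -/
theorem rba_ribet_main_mod [Module.Finite O M₁]
    (𝔪 : Ideal O) [𝔪.IsMaximal]
    (T₁ : ι → Module.End O M₁) (T₂ : ι → Module.End O M₂) (U : Module.End O M₁)
    (hcomm : ∀ i j, T₁ i * T₁ j = T₁ j * T₁ i)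
    (α : M₁ × M₁ →ₗ[O] M₂) (β : M₂ →ₗ[O] M₁ × M₁)
    (hα : ∀ i (x : M₁ × M₁), α (T₁ i x.1, T₁ i x.2) = T₂ i (α x))
    (hβ : ∀ i (y : M₂), β (T₂ i y) = (T₁ i (β y).1, T₁ i (β y).2))
    (q : O)
    (hβα : ∀ x : M₁ × M₁, β (α x) = ((q + 1) • x.1 + U x.2, U x.1 + (q + 1) • x.2))
    (Θ : ι → O) (a : O) (v : M₁)
    (hv : ∀ i, T₁ i v - Θ i • v ∈ 𝔪 • (⊤ : Submodule O M₁))
    (hUv : U v - a • v ∈ 𝔪 • (⊤ : Submodule O M₁))
    (ha : a ^ 2 - (q + 1) ^ 2 ∈ 𝔪) (hv0 : v ∉ 𝔪 • (⊤ : Submodule O M₁))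
    (hI : ∀ x : M₁ × M₁, (∀ i, (T₁ i).prodMap (T₁ i) x - Θ i • x ∈
        𝔪 • (⊤ : Submodule O (M₁ × M₁))) →
      α x ∈ 𝔪 • (⊤ : Submodule O M₂) → x ∈ 𝔪 • (⊤ : Submodule O (M₁ × M₁)))
    (BP : (M₁ × M₁) →ₗ[O] (M₁ × M₁) →ₗ[O] O) (B2 : M₂ →ₗ[O] M₂ →ₗ[O] O)
    (hadj : ∀ x y, B2 (α x) y = BP x (β y))
    (hsa : ∀ i x c, BP ((T₁ i).prodMap (T₁ i) x) c = BP x ((T₁ i).prodMap (T₁ i) c))
    (hperf : ∀ f : (M₁ × M₁) →ₗ[O] (O ⧸ 𝔪), ∃ x, ∀ c, f c = Ideal.Quotient.mk 𝔪 (BP x c))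
    (hnd2 : ∀ u : M₂, (∀ y, B2 u y ∈ 𝔪) → u ∈ 𝔪 • (⊤ : Submodule O M₂))
    (hndP : ∀ x : M₁ × M₁, (∀ c, BP x c ∈ 𝔪) → x ∈ 𝔪 • (⊤ : Submodule O (M₁ × M₁))) :
    ∃ z : M₂, β z = 0 ∧ z ∉ 𝔪 • (⊤ : Submodule O M₂) ∧
      ∀ i, T₂ i z - Θ i • z ∈ 𝔪 • (⊤ : Submodule O M₂) :=
  have : 𝔪.IsPrime := Ideal.IsMaximal.isPrime ‹_›
  rba_ribet_core_mod 𝔪 T₁ T₂ U hcomm α β hα hβ q hβα Θ a v hv hUv ha hv0 hI
    (rba_coker_of_duality 𝔪 (fun i => (T₁ i).prodMap (T₁ i)) α β BP B2 hadj hsa hperf hnd2 hndP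
      Θ hI)

end CoreMod

end Fermat.Agent.S41x
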