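import Fermat.Agent.S41x.RibetAlgCore
import Fermat.Agent.S41x.RibetAlgDual

/-!
# S41 block E (abstract algebra core, part 4): Ribet's argument from Ihara + duality

Combination of `rba_ribet_core` and `rba_coker_of_duality`: the only inputs are
* equivariant maps `α : M₁ × M₁ → M₂`, `β : M₂ → M₁ × M₁` with `β α = [[q+1,U],[U,q+1]]`,
* pairings on `M₁ × M₁` and `M₂`, perfect modulo `𝔪`, with `β = α†` and `T i` self-adjoint,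
* Ihara's lemma modulo `𝔪` at the eigensystem `Θ`,
* an exact `Θ`-eigenvector `v ∈ M₁`, nonzero modulo `𝔪`, with `U v = a v`, `a² ≡ (q+1)²`.
Output: `z ∈ ker β`, nonzero modulo `𝔪`, `Θ`-eigenvector modulo `𝔪`.
-/

set_option autoImplicit false

namespace Fermat.Agent.S41x

open Module

variable {ι : Type*} {O : Type*} [CommRing O]
variable {M₁ M₂ : Type*} [AddCommGroup M₁] [Module O M₁] [AddCommGroup M₂] [Module O M₂]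

theorem rba_ribet_main [Module.Finite O M₁]
    (𝔪 : Ideal O) [𝔪.IsMaximal]
    (T₁ : ι → Module.End O M₁) (T₂ : ι → Module.End O M₂) (U : Module.End O M₁)
    (hcomm : ∀ i j, T₁ i * T₁ j = T₁ j * T₁ i)
    (α : M₁ × M₁ →ₗ[O] M₂) (β : M₂ →ₗ[O] M₁ × M₁)
    (hα : ∀ i (x : M₁ × M₁), α (T₁ i x.1, T₁ i x.2) = T₂ i (α x))
    (hβ : ∀ i (y : M₂), β (T₂ i y) = (T₁ i (β y).1, T₁ i (β y).2))
    (q : O)
    (hβα : ∀ x : M₁ × M₁, β (α x) = ((q + 1) • x.1 + U x.2, U x.1 + (q + 1) • x.2))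
    (Θ : ι → O) (a : O) (v : M₁) (hv : ∀ i, T₁ i v = Θ i • v) (hUv : U v = a • v)
    (ha : a ^ 2 - (q + 1) ^ 2 ∈ 𝔪) (hv0 : v ∉ 𝔪 • (⊤ : Submodule O M₁))
    (hI : ∀ x : M₁ × M₁, (∀ i, (T₁ i).prodMap (T₁ i) x - Θ i • x ∈
        𝔪 • (⊤ : Submodule O (M₁ × M₁))) →
      α x ∈ 𝔪 • (⊤ : Submodule O M₂) → x ∈ 𝔪 • (⊤ : Submodule O (M₁ × M₁)))
    (BP : (M₁ × M₁) →ₗ[O] (M₁ × M₁) →ₗ[O] O) (B2 : M₂ →ₗ[O] M₂ →ₗ[O] O)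
    (hadj : ∀ x y, B2 (α x) y = BP x (β y))
    (hsa : ∀ i x c, BP ((T₁ i).prodMap (T₁ i) x) c = BP x ((T₁ i).prodMap (T₁ i) c))
    (hperf : ∀ f : (M₁ × M₁) →ₗ[O] (O ⧸ 𝔪), ∃ x, ∀ c, f c = Ideal.Quotient.mk 𝔪 (BP x c))
    (hnd2 : ∀ u : M₂, (∀ y, B2 u y ∈ 𝔪) → u ∈ 𝔪 • (⊤ : Submodule O M₂))
    (hndP : ∀ x : M₁ × M₁, (∀ c, BP x c ∈ 𝔪) → x ∈ 𝔪 • (⊤ : Submodule O (M₁ × M₁))) :
    ∃ z : M₂, β z = 0 ∧ z ∉ 𝔪 • (⊤ : Submodule O M₂) ∧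
      ∀ i, T₂ i z - Θ i • z ∈ 𝔪 • (⊤ : Submodule O M₂) :=
  have : 𝔪.IsPrime := Ideal.IsMaximal.isPrime ‹_›
  rba_ribet_core 𝔪 T₁ T₂ U hcomm α β hα hβ q hβα Θ a v hv hUv ha hv0 hI
    (rba_coker_of_duality 𝔪 (fun i => (T₁ i).prodMap (T₁ i)) α β BP B2 hadj hsa hperf hnd2 hndP
      Θ hI)

end Fermat.Agent.S41x
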