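import Fermat.Agent.S41x.RibetAlgMain

/-!
# S41 block E (abstract algebra core, part 5): Ribet's argument with a mod-`𝔪` eigenvector

`rba_ribet_core` / `rba_ribet_main` (helper88) take an *exact* `Θ`-eigenvector `v ∈ M₁`.
Here the same statements are proved when `v` is only an eigenvector *modulo* `𝔪`:
`T₁ i v - Θ i • v ∈ 𝔪 M₁` and `U v - a • v ∈ 𝔪 M₁`.  This is the shape needed when everything is
done over `O = ℤ`, `𝔪 = (p)` with the integer eigenvalues `a_ℓ(E)`.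

* `rbm_map_mem` : linear maps preserve `𝔪 • ⊤`.
* `rbm_nak` : Nakayama with operators, intertwined form: an operator `s` in the algebra generated
  by the `T i`, with an intertwiner `s₂` on `M₂`, such that `s P ⊆ range β` and `s x ≡ x` modulo
  `𝔪` on eigenvectors modulo `𝔪`.
* `rbm_ribet_core`, `rbm_ribet_main` : Ribet's lattice argument.
-/

set_option autoImplicit false

namespace Fermat.Agent.S41x

open Module

section Modm

variable {ι : Type*} {O : Type*} [CommRing O]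

/-- Linear maps preserve `𝔪 • ⊤`. -/
theorem rbm_map_mem {M M' : Type*} [AddCommGroup M] [Module O M] [AddCommGroup M'] [Module O M']
    (𝔪 : Ideal O) (f : M →ₗ[O] M') {x : M} (hx : x ∈ 𝔪 • (⊤ : Submodule O M)) :
    f x ∈ 𝔪 • (⊤ : Submodule O M') := by
  refine Submodule.smul_induction_on hx (fun r hr n _ => ?_) (fun a b ha hb => ?_)
  · rw [map_smul]
    exact Submodule.smul_mem_smul hr Submodule.mem_top
  · rw [map_add]
    exact Submodule.add_mem _ ha hb

/-- A pair with both components in `𝔪 • ⊤` lies in `𝔪 • ⊤`. -/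
theorem rbm_pair_mem {M : Type*} [AddCommGroup M] [Module O M] (𝔪 : Ideal O) {a b : M}
    (ha : a ∈ 𝔪 • (⊤ : Submodule O M)) (hb : b ∈ 𝔪 • (⊤ : Submodule O M)) :
    ((a, b) : M × M) ∈ 𝔪 • (⊤ : Submodule O (M × M)) := by
  have h1 := rbm_map_mem 𝔪 (LinearMap.inl O M M) ha
  have h2 := rbm_map_mem 𝔪 (LinearMap.inr O M M) hb
  have : ((a, b) : M × M) = LinearMap.inl O M M a + LinearMap.inr O M M b := by
    simp
  rw [this]
  exact Submodule.add_mem _ h1 h2

variable {P M₂ : Type*} [AddCommGroup P] [Module O P] [AddCommGroup M₂] [Module O M₂]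

open scoped IsMulCommutative in
/-- **Nakayama with a commuting family of operators, intertwined form.** -/
theorem rbm_nak [Module.Finite O P]
    (𝔪 : Ideal O) (T : ι → Module.End O P) (hcomm : ∀ i j, T i * T j = T j * T i)
    (T₂ : ι → Module.End O M₂) (α : P →ₗ[O] M₂) (β : M₂ →ₗ[O] P)
    (hα : ∀ i x, α (T i x) = T₂ i (α x)) (hβ : ∀ i y, β (T₂ i y) = T i (β y))
    (Θ : ι → O)
    (hC : ∀ c : P, c ∈ 𝔪 • (⊤ : Submodule O P) ⊔ LinearMap.range β ⊔
      ⨆ i, LinearMap.range (T i - Θ i • (1 : Module.End O P))) :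
    ∃ (s : Module.End O P) (s₂ : Module.End O M₂),
      (∀ x, α (s x) = s₂ (α x)) ∧ (∀ y, β (s₂ y) = s (β y)) ∧
      (∀ i x, s (T i x) = T i (s x)) ∧ (∀ x, s x ∈ LinearMap.range β) ∧
      (∀ x, (∀ i, T i x - Θ i • x ∈ 𝔪 • (⊤ : Submodule O P)) →
        s x - x ∈ 𝔪 • (⊤ : Submodule O P)) := by
  classical
  have hcomm' : ∀ a ∈ Set.range T, ∀ b ∈ Set.range T, a * b = b * a := by
    rintro _ ⟨i, rfl⟩ _ ⟨j, rfl⟩
    exact hcomm i j
  have := Algebra.isMulCommutative_adjoin O hcomm'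
  let S : Subalgebra O (Module.End O P) := Algebra.adjoin O (Set.range T)
  let t : ι → S := fun i => ⟨T i, Algebra.subset_adjoin ⟨i, rfl⟩⟩
  have hsmul : ∀ (s : S) (p : P), s • p = (s : Module.End O P) p := fun s p => rfl
  -- intertwiners
  have hint : ∀ s : S, ∃ s₂ : Module.End O M₂,
      (∀ x, α ((s : Module.End O P) x) = s₂ (α x)) ∧
      (∀ y, β (s₂ y) = (s : Module.End O P) (β y)) := by
    rintro ⟨s, hs⟩
    induction hs using Algebra.adjoin_induction with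
    | mem a ha =>
      obtain ⟨i, rfl⟩ := ha
      exact ⟨T₂ i, fun x => hα i x, fun y => hβ i y⟩
    | algebraMap r =>
      refine ⟨r • (1 : Module.End O M₂), fun x => ?_, fun y => ?_⟩
      · simp [Module.algebraMap_end_apply]
      · simp [Module.algebraMap_end_apply]
    | add a b _ _ iha ihb =>
      obtain ⟨a₂, ha1, ha2⟩ := iha
      obtain ⟨b₂, hb1, hb2⟩ := ihb
      refine ⟨a₂ + b₂, fun x => ?_, fun y => ?_⟩
      · have h1 := ha1 x
        have h2 := hb1 x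
        simp only at h1 h2
        simp only [LinearMap.add_apply, map_add, h1, h2]
      · have h1 := ha2 y
        have h2 := hb2 y
        simp only at h1 h2
        simp only [LinearMap.add_apply, map_add, h1, h2]
    | mul a b _ _ iha ihb =>
      obtain ⟨a₂, ha1, ha2⟩ := iha
      obtain ⟨b₂, hb1, hb2⟩ := ihb
      refine ⟨a₂ * b₂, fun x => ?_, fun y => ?_⟩
      · have h1 := ha1 (b x)
        have h2 := hb1 x
        simp only at h1 h2
        simp only [Module.End.mul_apply, h1, h2]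
      · have h1 := ha2 (b₂ y)
        have h2 := hb2 y
        simp only at h1 h2
        simp only [Module.End.mul_apply, h1, h2]
  -- range β as an S-submodule
  have hBS : ∀ (s : S), ∀ b ∈ LinearMap.range β, s • b ∈ LinearMap.range β := by
    rintro s _ ⟨w, rfl⟩
    obtain ⟨s₂, -, h2⟩ := hint s
    exact ⟨s₂ w, by rw [h2 w, hsmul]⟩
  let BS : Submodule S P :=
    { carrier := LinearMap.range β
      add_mem' := fun ha hb => (LinearMap.range β).add_mem ha hb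
      zero_mem' := (LinearMap.range β).zero_mem
      smul_mem' := fun s b hb => hBS s b hb }
  -- the ideal
  let IS : Ideal S := Ideal.span ((algebraMap O S) '' (𝔪 : Set O) ∪
    Set.range (fun i => t i - algebraMap O S (Θ i)))
  -- elements of IS move eigenvectors mod 𝔪 into 𝔪 P
  have hIS : ∀ x : P, (∀ i, T i x - Θ i • x ∈ 𝔪 • (⊤ : Submodule O P)) →
      ∀ s ∈ IS, s • x ∈ 𝔪 • (⊤ : Submodule O P) := by
    intro x hx s hs
    induction hs using Submodule.span_induction with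
    | mem a ha =>
      rcases ha with ⟨m, hm, rfl⟩ | ⟨i, rfl⟩
      · rw [hsmul]
        have : ((algebraMap O S m : S) : Module.End O P) x = m • x := by
          simp [Module.algebraMap_end_apply]
        rw [this]
        exact Submodule.smul_mem_smul hm Submodule.mem_top
      · rw [hsmul]
        have : ((t i - algebraMap O S (Θ i) : S) : Module.End O P) x = T i x - Θ i • x := by
          simp [t, Module.algebraMap_end_apply]
        rw [this]
        exact hx i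
    | zero => rw [zero_smul]; exact Submodule.zero_mem _
    | add a b _ _ iha ihb => rw [add_smul]; exact Submodule.add_mem _ iha ihb
    | smul c a _ iha =>
      rw [smul_eq_mul, mul_smul, hsmul c]
      exact rbm_map_mem 𝔪 (c : Module.End O P) iha
  -- finite generation over S
  have : Module.Finite S P := Module.Finite.of_restrictScalars_finite O S P
  have hfg : (⊤ : Submodule S P).FG := Module.Finite.fg_top
  -- the Nakayama hypothesis
  have hle : (⊤ : Submodule S P) ≤ BS ⊔ IS • (⊤ : Submodule S P) := by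
    intro c _
    have h1 : ∀ p ∈ 𝔪 • (⊤ : Submodule O P), p ∈ IS • (⊤ : Submodule S P) := by
      intro p hp
      refine Submodule.smul_induction_on hp (fun r hr n _ => ?_)
        (fun a b iha ihb => Submodule.add_mem _ iha ihb)
      have : r • n = (algebraMap O S r) • n := by
        rw [hsmul]; simp [Module.algebraMap_end_apply]
      rw [this]
      exact Submodule.smul_mem_smul (Ideal.subset_span (Or.inl ⟨r, hr, rfl⟩)) Submodule.mem_top
    have h2 : ∀ p ∈ (⨆ i, LinearMap.range (T i - Θ i • (1 : Module.End O P))),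
        p ∈ IS • (⊤ : Submodule S P) := by
      intro p hp
      induction hp using Submodule.iSup_induction' with
      | mem i y hy =>
        obtain ⟨p', rfl⟩ := hy
        have : (T i - Θ i • (1 : Module.End O P)) p' = (t i - algebraMap O S (Θ i)) • p' := by
          rw [hsmul]
          simp [t, Module.algebraMap_end_apply]
        rw [this]
        exact Submodule.smul_mem_smul (Ideal.subset_span (Or.inr ⟨i, rfl⟩)) Submodule.mem_top
      | zero => exact Submodule.zero_mem _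
      | add a b _ _ iha ihb => exact Submodule.add_mem _ iha ihb
    obtain ⟨u, hu, w, hw, rfl⟩ := Submodule.mem_sup.mp (hC c)
    obtain ⟨u1, hu1, u2, hu2, rfl⟩ := Submodule.mem_sup.mp hu
    have e : u1 + u2 + w = u2 + (u1 + w) := by abel
    rw [e]
    exact Submodule.add_mem_sup (show u2 ∈ BS from hu2) (Submodule.add_mem _ (h1 u1 hu1) (h2 w hw))
  obtain ⟨r, hr1, hr⟩ := Submodule.exists_sub_one_mem_and_smul_le_of_fg_of_le_sup
    (N := BS) (N' := ⊤) (P := ⊤) hfg le_rfl hle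
  obtain ⟨s₂, hs1, hs2⟩ := hint r
  refine ⟨(r : Module.End O P), s₂, hs1, hs2, fun i x => ?_, fun x => ?_, fun x hx => ?_⟩
  · have h : r * t i = t i * r := mul_comm _ _
    have h' := congrArg (fun e : S => (e : Module.End O P) x) h
    simpa [t, Module.End.mul_apply] using h'
  · have hrx : r • x ∈ BS := hr (Submodule.smul_mem_pointwise_smul x r ⊤ Submodule.mem_top)
    exact hrx
  · have h := hIS x hx (r - 1) hr1
    rw [hsmul] at h
    have : ((r - 1 : S) : Module.End O P) x = (r : Module.End O P) x - x := by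
      simp
    rw [this] at h
    exact h

variable {M₁ : Type*} [AddCommGroup M₁] [Module O M₁]

/-- **Ribet's lattice argument**, abstract form, with an eigenvector modulo `𝔪`. -/
theorem rbm_ribet_core [Module.Finite O M₁]
    (𝔪 : Ideal O) [𝔪.IsPrime]
    (T₁ : ι → Module.End O M₁) (T₂ : ι → Module.End O M₂) (U : Module.End O M₁)
    (hcomm : ∀ i j, T₁ i * T₁ j = T₁ j * T₁ i)
    (α : M₁ × M₁ →ₗ[O] M₂) (β : M₂ →ₗ[O] M₁ × M₁)
    (hα : ∀ i (x : M₁ × M₁), α (T₁ i x.1, T₁ i x.2) = T₂ i (α x))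
    (hβ : ∀ i (y : M₂), β (T₂ i y) = (T₁ i (β y).1, T₁ i (β y).2))
    (q : O)
    (hβα : ∀ x : M₁ × M₁, β (α x) = ((q + 1) • x.1 + U x.2, U x.1 + (q + 1) • x.2))
    (Θ : ι → O) (a : O) (v : M₁)
    (hv : ∀ i, T₁ i v - Θ i • v ∈ 𝔪 • (⊤ : Submodule O M₁))
    (hUv : U v - a • v ∈ 𝔪 • (⊤ : Submodule O M₁))
    (ha : a ^ 2 - (q + 1) ^ 2 ∈ 𝔪) (hv0 : v ∉ 𝔪 • (⊤ : Submodule O M₁))
    -- Ihara: no `Θ`-eigenvector in the kernel of `α` modulo `𝔪`
    (hI : ∀ x : M₁ × M₁, (∀ i, (T₁ i).prodMap (T₁ i) x - Θ i • x ∈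
        𝔪 • (⊤ : Submodule O (M₁ × M₁))) →
      α x ∈ 𝔪 • (⊤ : Submodule O M₂) → x ∈ 𝔪 • (⊤ : Submodule O (M₁ × M₁)))
    -- dual statement: the cokernel of `β` modulo `𝔪` has no `Θ`-coinvariants
    (hC : ∀ c : M₁ × M₁, c ∈ 𝔪 • (⊤ : Submodule O (M₁ × M₁)) ⊔ LinearMap.range β ⊔
      ⨆ i, LinearMap.range ((T₁ i).prodMap (T₁ i) - Θ i • (1 : Module.End O (M₁ × M₁)))) :
    ∃ z : M₂, β z = 0 ∧ z ∉ 𝔪 • (⊤ : Submodule O M₂) ∧
      ∀ i, T₂ i z - Θ i • z ∈ 𝔪 • (⊤ : Submodule O M₂) := by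
  classical
  -- choice of sign
  have hfac : (a - (q + 1)) * (a + (q + 1)) ∈ 𝔪 := by
    have : (a - (q + 1)) * (a + (q + 1)) = a ^ 2 - (q + 1) ^ 2 := by ring
    rw [this]; exact ha
  obtain ⟨ε, hε, hlam⟩ : ∃ ε : O, ε * ε = 1 ∧ (q + 1) + ε * a ∈ 𝔪 := by
    rcases Ideal.IsPrime.mem_or_mem ‹𝔪.IsPrime› hfac with h | h
    · refine ⟨-1, by ring, ?_⟩
      have : (q + 1) + -1 * a = -(a - (q + 1)) := by ring
      rw [this]; exact 𝔪.neg_mem h
    · refine ⟨1, by ring, ?_⟩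
      have : (q + 1) + 1 * a = a + (q + 1) := by ring
      rw [this]; exact h
  obtain ⟨lam, hlamdef⟩ : ∃ lam : O, lam = (q + 1) + ε * a := ⟨_, rfl⟩
  rw [← hlamdef] at hlam
  have hsc : lam * ε = a + (q + 1) * ε := by
    rw [hlamdef]; linear_combination a * hε
  obtain ⟨dU, hdU⟩ : ∃ dU : M₁, dU = U v - a • v := ⟨_, rfl⟩
  have hdUm : dU ∈ 𝔪 • (⊤ : Submodule O M₁) := hdU ▸ hUv
  have hUv' : U v = a • v + dU := by rw [hdU]; abel
  obtain ⟨x, hxdef⟩ : ∃ x : M₁ × M₁, x = (v, ε • v) := ⟨_, rfl⟩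
  have hx1 : x.1 = v := by rw [hxdef]
  have hx2 : x.2 = ε • v := by rw [hxdef]
  set Tp : ι → Module.End O (M₁ × M₁) := fun i => (T₁ i).prodMap (T₁ i) with hTp
  -- x is an eigenvector of the product operators modulo 𝔪
  have hTx : ∀ i, Tp i x - Θ i • x ∈ 𝔪 • (⊤ : Submodule O (M₁ × M₁)) := by
    intro i
    have h1 : Tp i x - Θ i • x = (T₁ i v - Θ i • v, ε • (T₁ i v - Θ i • v)) := by
      rw [hTp]
      simp only [LinearMap.prodMap_apply]
      refine Prod.ext ?_ ?_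
      · show T₁ i x.1 - Θ i • x.1 = _
        rw [hx1]
      · show T₁ i x.2 - Θ i • x.2 = _
        rw [hx2, map_smul, smul_sub, smul_comm]
    rw [h1]
    exact rbm_pair_mem 𝔪 (hv i) (Submodule.smul_mem _ ε (hv i))
  -- β α x lies in 𝔪 P
  have hβαx : β (α x) ∈ 𝔪 • (⊤ : Submodule O (M₁ × M₁)) := by
    rw [hβα]
    have e1 : (q + 1) • x.1 + U x.2 = lam • v + ε • dU := by
      rw [hx1, hx2, map_smul, hUv', hlamdef]
      module
    have e2 : U x.1 + (q + 1) • x.2 = (lam * ε) • v + dU := by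
      rw [hx1, hx2, hUv', hsc]
      module
    rw [e1, e2]
    refine rbm_pair_mem 𝔪 ?_ ?_
    · exact Submodule.add_mem _ (rba_smul_mem_smul_top 𝔪 hlam v) (Submodule.smul_mem _ ε hdUm)
    · exact Submodule.add_mem _ (rba_smul_mem_smul_top 𝔪 (𝔪.mul_mem_right ε hlam) v) hdUm
  -- Nakayama
  have hcommP : ∀ i j, Tp i * Tp j = Tp j * Tp i := by
    intro i j
    apply LinearMap.ext
    rintro ⟨u, w⟩
    have h := hcomm i j
    have hu := congrArg (fun f => f u) h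
    have hw := congrArg (fun f => f w) h
    simp only [Module.End.mul_apply] at hu hw
    simp [hTp, Module.End.mul_apply, hu, hw]
  have hα' : ∀ i x, α (Tp i x) = T₂ i (α x) := fun i x => hα i x
  have hβ' : ∀ i y, β (T₂ i y) = Tp i (β y) := fun i y => hβ i y
  obtain ⟨s, s₂, hs1, hs2, hsT, hsβ, hsx⟩ := rbm_nak 𝔪 Tp hcommP T₂ α β hα' hβ' Θ hC
  -- s maps 𝔪 P into β (𝔪 M₂)
  have hsm : ∀ u ∈ 𝔪 • (⊤ : Submodule O (M₁ × M₁)),
      ∃ w ∈ 𝔪 • (⊤ : Submodule O M₂), s u = β w := by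
    intro u hu
    refine Submodule.smul_induction_on hu (fun r hr n _ => ?_) (fun a b iha ihb => ?_)
    · obtain ⟨wn, hwn⟩ := hsβ n
      exact ⟨r • wn, Submodule.smul_mem_smul hr Submodule.mem_top, by
        rw [map_smul, map_smul, hwn]⟩
    · obtain ⟨wa, hwa, ha'⟩ := iha
      obtain ⟨wb, hwb, hb'⟩ := ihb
      exact ⟨wa + wb, Submodule.add_mem _ hwa hwb, by rw [map_add, map_add, ha', hb']⟩
  obtain ⟨w', hw'm, hw'⟩ := hsm _ hβαx
  -- s x is again an eigenvector modulo 𝔪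
  have hTsx : ∀ i, Tp i (s x) - Θ i • s x ∈ 𝔪 • (⊤ : Submodule O (M₁ × M₁)) := by
    intro i
    have : Tp i (s x) - Θ i • s x = s (Tp i x - Θ i • x) := by
      rw [map_sub, map_smul, hsT i x]
    rw [this]
    exact rbm_map_mem 𝔪 s (hTx i)
  -- the new vector
  refine ⟨s₂ (α x) - w', ?_, ?_, ?_⟩
  · rw [map_sub, hs2, hw', sub_self]
  · intro hz
    have h1 : α (s x) ∈ 𝔪 • (⊤ : Submodule O M₂) := by
      rw [hs1]
      have : s₂ (α x) = (s₂ (α x) - w') + w' := by abel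
      rw [this]
      exact Submodule.add_mem _ hz hw'm
    have h2 : s x ∈ 𝔪 • (⊤ : Submodule O (M₁ × M₁)) := hI (s x) hTsx h1
    have h3 : x ∈ 𝔪 • (⊤ : Submodule O (M₁ × M₁)) := by
      have : x = s x - (s x - x) := by abel
      rw [this]
      exact Submodule.sub_mem _ h2 (hsx x hTx)
    exact hv0 (hx1 ▸ rba_fst_mem 𝔪 h3)
  · intro i
    have e : T₂ i (s₂ (α x) - w') - Θ i • (s₂ (α x) - w')
        = α (Tp i (s x) - Θ i • s x) - (T₂ i w' - Θ i • w') := by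
      rw [← hs1, map_sub, map_sub, map_smul, hα' i (s x), smul_sub]
      abel
    rw [e]
    refine Submodule.sub_mem _ (rbm_map_mem 𝔪 α (hTsx i)) ?_
    exact Submodule.sub_mem _ (rbm_map_mem 𝔪 (T₂ i) hw'm) (Submodule.smul_mem _ _ hw'm)

/-- **Ribet's argument from Ihara + duality**, with an eigenvector modulo `𝔪`
(`rba_ribet_main` with `hv`, `hUv` weakened). -/
theorem rbm_ribet_main [Module.Finite O M₁]
    (𝔪 : Ideal O) [𝔪.IsMaximal]
    (T₁ : ι → Module.End O M₁) (T₂ : ι → Module.End O M₂) (U : Module.End O M₁)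
    (hcomm : ∀ i j, T₁ i * T₁ j = T₁ j * T₁ i)
    (α : M₁ × M₁ →ₗ[O] M₂) (β : M₂ →ₗ[O] M₁ × M₁)
    (hα : ∀ i (x : M₁ × M₁), α (T₁ i x.1, T₁ i x.2) = T₂ i (α x))
    (hβ : ∀ i (y : M₂), β (T₂ i y) = (T₁ i (β y).1, T₁ i (β y).2))
    (q : O)
    (hβα : ∀ x : M₁ × M₁, β (α x) = ((q + 1) • x.1 + U x.2, U x.1 + (q + 1) • x.2))
    (Θ : ι → O) (a : O) (v : M₁)
    (hv : ∀ i, T₁ i v - Θ i • v ∈ 𝔪 • (⊤ : Submodule O M₁))
    (hUv : U v - a • v ∈ 𝔪 • (⊤ : Submodule O M₁))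
    (ha : a ^ 2 - (q + 1) ^ 2 ∈ 𝔪) (hv0 : v ∉ 𝔪 • (⊤ : Submodule O M₁))
    (hI : ∀ x : M₁ × M₁, (∀ i, (T₁ i).prodMap (T₁ i) x - Θ i • x ∈
        𝔪 • (⊤ : Submodule O (M₁ × M₁))) →
      α x ∈ 𝔪 • (⊤ : Submodule O M₂) → x ∈ 𝔪 • (⊤ : Submodule O (M₁ × M₁)))
    (BP : (M₁ × M₁) →ₗ[O] (M₁ × M₁) →ₗ[O] O) (B2 : M₂ →ₗ[O] M₂ →ₗ[O] O)
    (hadj : ∀ x y, B2 (α x) y = BP x (β y))
    (hsa : ∀ i x c, BP ((T₁ i).prodMap (T₁ i) x) c = BP x ((T₁ i).prodMap (T₁ i) c))
    (hperf : ∀ f : (M₁ × M₁) →ₗ[O] (O ⧸ 𝔪), ∃ x, ∀ c, f c = Ideal.Quotient.mk 𝔪 (BP x c))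
    (hnd2 : ∀ u : M₂, (∀ y, B2 u y ∈ 𝔪) → u ∈ 𝔪 • (⊤ : Submodule O M₂))
    (hndP : ∀ x : M₁ × M₁, (∀ c, BP x c ∈ 𝔪) → x ∈ 𝔪 • (⊤ : Submodule O (M₁ × M₁))) :
    ∃ z : M₂, β z = 0 ∧ z ∉ 𝔪 • (⊤ : Submodule O M₂) ∧
      ∀ i, T₂ i z - Θ i • z ∈ 𝔪 • (⊤ : Submodule O M₂) :=
  have : 𝔪.IsPrime := Ideal.IsMaximal.isPrime ‹_›
  rbm_ribet_core 𝔪 T₁ T₂ U hcomm α β hα hβ q hβα Θ a v hv hUv ha hv0 hI
    (rba_coker_of_duality 𝔪 (fun i => (T₁ i).prodMap (T₁ i)) α β BP B2 hadj hsa hperf hnd2 hndP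
      Θ hI)

end Modm

end Fermat.Agent.S41x
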