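import Mathlib

/-!
# S41 block E (abstract algebra core, part 1): Nakayama with a commuting family of operators

`rba_exists_smul_mem` : let `P` be a finitely generated module over a commutative ring `O`,
`T i` a commuting family of `O`-linear endomorphisms, `B` a `T`-stable submodule, `𝔪` an ideal
of `O`, `Θ : ι → O`.  If `P = 𝔪 P + B + ∑ (T i - Θ i) P` (i.e. the quotient `P / (𝔪 P + B)` has no
`Θ`-coinvariants), then every exact `Θ`-eigenvector `x` satisfies `s • x ∈ B` for some
`s ∈ 1 + 𝔪`.
-/

set_option autoImplicit false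

namespace Fermat.Agent.S41x

open Module

section Nak

variable {ι : Type*} {O : Type*} [CommRing O]
variable {P : Type*} [AddCommGroup P] [Module O P]

open scoped IsMulCommutative in
theorem rba_exists_smul_mem [Module.Finite O P]
    (𝔪 : Ideal O) (T : ι → Module.End O P) (hcomm : ∀ i j, T i * T j = T j * T i)
    (Θ : ι → O) (B : Submodule O P) (hB : ∀ i, ∀ b ∈ B, T i b ∈ B)
    (hC : ∀ c : P, c ∈ 𝔪 • (⊤ : Submodule O P) ⊔ B ⊔
      ⨆ i, LinearMap.range (T i - Θ i • (1 : Module.End O P)))
    (x : P) (hx : ∀ i, T i x = Θ i • x) :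
    ∃ s : O, s - 1 ∈ 𝔪 ∧ s • x ∈ B := by
  classical
  -- the commutative ring generated by the operators
  have hcomm' : ∀ a ∈ Set.range T, ∀ b ∈ Set.range T, a * b = b * a := by
    rintro _ ⟨i, rfl⟩ _ ⟨j, rfl⟩
    exact hcomm i j
  have := Algebra.isMulCommutative_adjoin O hcomm'
  let S : Subalgebra O (Module.End O P) := Algebra.adjoin O (Set.range T)
  let t : ι → S := fun i => ⟨T i, Algebra.subset_adjoin ⟨i, rfl⟩⟩
  have hsmul : ∀ (s : S) (p : P), s • p = (s : Module.End O P) p := fun s p => rfl
  -- every element of S acts on x as a scalar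
  have hscal : ∀ s : S, ∃ o : O, s • x = o • x := by
    rintro ⟨s, hs⟩
    induction hs using Algebra.adjoin_induction with
    | mem a ha =>
      obtain ⟨i, rfl⟩ := ha
      exact ⟨Θ i, hx i⟩
    | algebraMap r =>
      refine ⟨r, ?_⟩
      rw [hsmul]
      simp [Module.algebraMap_end_apply]
    | add a b _ _ iha ihb =>
      obtain ⟨oa, hoa⟩ := iha
      obtain ⟨ob, hob⟩ := ihb
      refine ⟨oa + ob, ?_⟩
      rw [hsmul] at hoa hob ⊢
      simp only [LinearMap.add_apply] at hoa hob ⊢
      rw [hoa, hob, add_smul]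
    | mul a b _ _ iha ihb =>
      obtain ⟨oa, hoa⟩ := iha
      obtain ⟨ob, hob⟩ := ihb
      refine ⟨oa * ob, ?_⟩
      rw [hsmul] at hoa hob ⊢
      simp only [Module.End.mul_apply] at hoa hob ⊢
      rw [hob, map_smul, hoa, smul_smul, mul_comm]
  -- B as an S-submodule
  have hBS : ∀ (s : S), ∀ b ∈ B, s • b ∈ B := by
    rintro ⟨s, hs⟩
    induction hs using Algebra.adjoin_induction with
    | mem a ha =>
      obtain ⟨i, rfl⟩ := ha
      intro b hb
      exact hB i b hb
    | algebraMap r =>
      intro b hb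
      rw [hsmul]
      simpa [Module.algebraMap_end_apply] using B.smul_mem r hb
    | add a b _ _ iha ihb =>
      intro c hc
      exact B.add_mem (iha c hc) (ihb c hc)
    | mul a b _ _ iha ihb =>
      intro c hc
      exact iha _ (ihb c hc)
  let BS : Submodule S P :=
    { carrier := B
      add_mem' := fun ha hb => B.add_mem ha hb
      zero_mem' := B.zero_mem
      smul_mem' := fun s b hb => hBS s b hb }
  -- the ideal
  let IS : Ideal S := Ideal.span ((algebraMap O S) '' (𝔪 : Set O) ∪
    Set.range (fun i => t i - algebraMap O S (Θ i)))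
  -- elements of IS act on x through 𝔪
  have hIS : ∀ s ∈ IS, ∃ o ∈ 𝔪, s • x = o • x := by
    intro s hs
    induction hs using Submodule.span_induction with
    | mem a ha =>
      rcases ha with ⟨m, hm, rfl⟩ | ⟨i, rfl⟩
      · refine ⟨m, hm, ?_⟩
        rw [hsmul]
        simp [Module.algebraMap_end_apply]
      · refine ⟨0, 𝔪.zero_mem, ?_⟩
        rw [hsmul]
        simp [t, Module.algebraMap_end_apply, hx i]
    | zero => exact ⟨0, 𝔪.zero_mem, by simp⟩
    | add a b _ _ iha ihb =>
      obtain ⟨oa, hoam, hoa⟩ := iha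
      obtain ⟨ob, hobm, hob⟩ := ihb
      exact ⟨oa + ob, 𝔪.add_mem hoam hobm, by rw [add_smul, hoa, hob, add_smul]⟩
    | smul c a _ iha =>
      obtain ⟨oa, hoam, hoa⟩ := iha
      obtain ⟨oc, hoc⟩ := hscal c
      refine ⟨oa * oc, 𝔪.mul_mem_right _ hoam, ?_⟩
      rw [smul_eq_mul, mul_smul, hoa, hsmul, map_smul, ← hsmul, hoc, smul_smul]
  -- finite generation over S
  have : Module.Finite S P := Module.Finite.of_restrictScalars_finite O S P
  have hfg : (⊤ : Submodule S P).FG := Module.Finite.fg_top
  -- the Nakayama hypothesis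
  have hle : (⊤ : Submodule S P) ≤ BS ⊔ IS • (⊤ : Submodule S P) := by
    intro c _
    have h1 : ∀ p ∈ 𝔪 • (⊤ : Submodule O P), p ∈ IS • (⊤ : Submodule S P) := by
      intro p hp
      refine Submodule.smul_induction_on hp (fun r hr n _ => ?_)
        (fun a b iha ihb => Submodule.add_mem _ iha ihb)
      have : r • n = (algebraMap O S r) • n := by
        rw [hsmul]; simp [Module.algebraMap_end_apply]
      rw [this]
      exact Submodule.smul_mem_smul (Ideal.subset_span (Or.inl ⟨r, hr, rfl⟩)) Submodule.mem_top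
    have h2 : ∀ p ∈ (⨆ i, LinearMap.range (T i - Θ i • (1 : Module.End O P))),
        p ∈ IS • (⊤ : Submodule S P) := by
      intro p hp
      induction hp using Submodule.iSup_induction' with
      | mem i y hy =>
        obtain ⟨p', rfl⟩ := hy
        have : (T i - Θ i • (1 : Module.End O P)) p' = (t i - algebraMap O S (Θ i)) • p' := by
          rw [hsmul]
          simp [t, Module.algebraMap_end_apply]
        rw [this]
        exact Submodule.smul_mem_smul (Ideal.subset_span (Or.inr ⟨i, rfl⟩)) Submodule.mem_top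
      | zero => exact Submodule.zero_mem _
      | add a b _ _ iha ihb => exact Submodule.add_mem _ iha ihb
    obtain ⟨u, hu, w, hw, rfl⟩ := Submodule.mem_sup.mp (hC c)
    obtain ⟨u1, hu1, u2, hu2, rfl⟩ := Submodule.mem_sup.mp hu
    have e : u1 + u2 + w = u2 + (u1 + w) := by abel
    rw [e]
    exact Submodule.add_mem_sup (show u2 ∈ BS from hu2) (Submodule.add_mem _ (h1 u1 hu1) (h2 w hw))
  obtain ⟨r, hr1, hr⟩ := Submodule.exists_sub_one_mem_and_smul_le_of_fg_of_le_sup
    (N := BS) (N' := ⊤) (P := ⊤) hfg le_rfl hle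
  obtain ⟨μ, hμ, hμx⟩ := hIS (r - 1) hr1
  refine ⟨1 + μ, by simpa using hμ, ?_⟩
  have hrx : r • x ∈ BS := hr (Submodule.smul_mem_pointwise_smul x r ⊤ Submodule.mem_top)
  have : (1 + μ) • x = r • x := by
    rw [add_smul, one_smul, ← hμx, sub_smul, one_smul]; abel
  rw [this]
  exact hrx

end Nak

end Fermat.Agent.S41x
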