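import Mathlib

/-!
# S41 block E (abstract algebra core): Nakayama with operators, operator form

`rba_exists_operator` : in the situation of `rba_exists_smul_mem` there is an operator `t` in the
commutative `O`-algebra generated by the `T i` such that `t P ⊆ B` and `t e ≡ e` modulo `𝔪 P` for
every `e` which is a `Θ`-eigenvector modulo `𝔪`.
-/

set_option autoImplicit false

namespace Fermat.Agent.S41x

open Module

section NakOp

variable {ι : Type*} {O : Type*} [CommRing O]
variable {P : Type*} [AddCommGroup P] [Module O P]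

/-- An `O`-linear endomorphism preserves `𝔪 P`. -/
theorem rba_end_apply_mem_smul_top (𝔪 : Ideal O) (g : Module.End O P) {x : P}
    (hx : x ∈ 𝔪 • (⊤ : Submodule O P)) : g x ∈ 𝔪 • (⊤ : Submodule O P) := by
  refine Submodule.smul_induction_on hx (fun r hr n _ => ?_) (fun a b ha hb => ?_)
  · rw [map_smul]; exact Submodule.smul_mem_smul hr Submodule.mem_top
  · rw [map_add]; exact Submodule.add_mem _ ha hb

/-- Elements of the algebra generated by the `T i` commute with everything commuting with all
`T i`. -/
theorem rba_commute_of_mem_adjoin (T : ι → Module.End O P) (g : Module.End O P)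
    (hg : ∀ i, g * T i = T i * g) {t : Module.End O P}
    (ht : t ∈ Algebra.adjoin O (Set.range T)) : g * t = t * g := by
  induction ht using Algebra.adjoin_induction with
  | mem a ha => obtain ⟨i, rfl⟩ := ha; exact hg i
  | algebraMap r => exact (Algebra.commutes r g).symm
  | add a b _ _ iha ihb => rw [mul_add, add_mul, iha, ihb]
  | mul a b _ _ iha ihb => rw [← mul_assoc, iha, mul_assoc, ihb, ← mul_assoc]

open scoped IsMulCommutative in
theorem rba_exists_operator [Module.Finite O P]
    (𝔪 : Ideal O) (T : ι → Module.End O P) (hcomm : ∀ i j, T i * T j = T j * T i)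
    (Θ : ι → O) (B : Submodule O P) (hB : ∀ i, ∀ b ∈ B, T i b ∈ B)
    (hC : ∀ c : P, c ∈ 𝔪 • (⊤ : Submodule O P) ⊔ B ⊔
      ⨆ i, LinearMap.range (T i - Θ i • (1 : Module.End O P))) :
    ∃ t : Module.End O P, t ∈ Algebra.adjoin O (Set.range T) ∧ (∀ c, t c ∈ B) ∧
      ∀ e : P, (∀ i, T i e - Θ i • e ∈ 𝔪 • (⊤ : Submodule O P)) →
        t e - e ∈ 𝔪 • (⊤ : Submodule O P) := by
  classical
  have hcomm' : ∀ a ∈ Set.range T, ∀ b ∈ Set.range T, a * b = b * a := by
    rintro _ ⟨i, rfl⟩ _ ⟨j, rfl⟩
    exact hcomm i j
  have := Algebra.isMulCommutative_adjoin O hcomm'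
  let S : Subalgebra O (Module.End O P) := Algebra.adjoin O (Set.range T)
  let t : ι → S := fun i => ⟨T i, Algebra.subset_adjoin ⟨i, rfl⟩⟩
  have hsmul : ∀ (s : S) (p : P), s • p = (s : Module.End O P) p := fun s p => rfl
  -- B as an S-submodule
  have hBS : ∀ (s : S), ∀ b ∈ B, s • b ∈ B := by
    rintro ⟨s, hs⟩
    induction hs using Algebra.adjoin_induction with
    | mem a ha =>
      obtain ⟨i, rfl⟩ := ha
      intro b hb
      exact hB i b hb
    | algebraMap r =>
      intro b hb
      rw [hsmul]
      simpa [Module.algebraMap_end_apply] using B.smul_mem r hb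
    | add a b _ _ iha ihb =>
      intro c hc
      exact B.add_mem (iha c hc) (ihb c hc)
    | mul a b _ _ iha ihb =>
      intro c hc
      exact iha _ (ihb c hc)
  let BS : Submodule S P :=
    { carrier := B
      add_mem' := fun ha hb => B.add_mem ha hb
      zero_mem' := B.zero_mem
      smul_mem' := fun s b hb => hBS s b hb }
  let IS : Ideal S := Ideal.span ((algebraMap O S) '' (𝔪 : Set O) ∪
    Set.range (fun i => t i - algebraMap O S (Θ i)))
  -- elements of IS send eigenvectors mod 𝔪 into 𝔪 P
  have hIS : ∀ s ∈ IS, ∀ e : P, (∀ i, T i e - Θ i • e ∈ 𝔪 • (⊤ : Submodule O P)) →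
      s • e ∈ 𝔪 • (⊤ : Submodule O P) := by
    intro s hs e he
    induction hs using Submodule.span_induction with
    | mem a ha =>
      rcases ha with ⟨m, hm, rfl⟩ | ⟨i, rfl⟩
      · rw [hsmul]
        have : ((algebraMap O S m : S) : Module.End O P) e = m • e := by
          simp [Module.algebraMap_end_apply]
        rw [this]
        exact Submodule.smul_mem_smul hm Submodule.mem_top
      · rw [hsmul]
        have : ((t i - algebraMap O S (Θ i) : S) : Module.End O P) e = T i e - Θ i • e := by
          simp [t, Module.algebraMap_end_apply]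
        rw [this]
        exact he i
    | zero => rw [zero_smul]; exact Submodule.zero_mem _
    | add a b _ _ iha ihb => rw [add_smul]; exact Submodule.add_mem _ iha ihb
    | smul c a _ iha =>
      rw [smul_eq_mul, mul_smul, hsmul c]
      exact rba_end_apply_mem_smul_top 𝔪 _ iha
  have : Module.Finite S P := Module.Finite.of_restrictScalars_finite O S P
  have hfg : (⊤ : Submodule S P).FG := Module.Finite.fg_top
  have hle : (⊤ : Submodule S P) ≤ BS ⊔ IS • (⊤ : Submodule S P) := by
    intro c _
    have h1 : ∀ p ∈ 𝔪 • (⊤ : Submodule O P), p ∈ IS • (⊤ : Submodule S P) := by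
      intro p hp
      refine Submodule.smul_induction_on hp (fun r hr n _ => ?_)
        (fun a b iha ihb => Submodule.add_mem _ iha ihb)
      have : r • n = (algebraMap O S r) • n := by
        rw [hsmul]; simp [Module.algebraMap_end_apply]
      rw [this]
      exact Submodule.smul_mem_smul (Ideal.subset_span (Or.inl ⟨r, hr, rfl⟩)) Submodule.mem_top
    have h2 : ∀ p ∈ (⨆ i, LinearMap.range (T i - Θ i • (1 : Module.End O P))),
        p ∈ IS • (⊤ : Submodule S P) := by
      intro p hp
      induction hp using Submodule.iSup_induction' with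
      | mem i y hy =>
        obtain ⟨p', rfl⟩ := hy
        have : (T i - Θ i • (1 : Module.End O P)) p' = (t i - algebraMap O S (Θ i)) • p' := by
          rw [hsmul]
          simp [t, Module.algebraMap_end_apply]
        rw [this]
        exact Submodule.smul_mem_smul (Ideal.subset_span (Or.inr ⟨i, rfl⟩)) Submodule.mem_top
      | zero => exact Submodule.zero_mem _
      | add a b _ _ iha ihb => exact Submodule.add_mem _ iha ihb
    obtain ⟨u, hu, w, hw, rfl⟩ := Submodule.mem_sup.mp (hC c)
    obtain ⟨u1, hu1, u2, hu2, rfl⟩ := Submodule.mem_sup.mp hu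
    have e : u1 + u2 + w = u2 + (u1 + w) := by abel
    rw [e]
    exact Submodule.add_mem_sup (show u2 ∈ BS from hu2) (Submodule.add_mem _ (h1 u1 hu1) (h2 w hw))
  obtain ⟨r, hr1, hr⟩ := Submodule.exists_sub_one_mem_and_smul_le_of_fg_of_le_sup
    (N := BS) (N' := ⊤) (P := ⊤) hfg le_rfl hle
  refine ⟨(r : Module.End O P), r.2, fun c => ?_, fun e he => ?_⟩
  · have : r • c ∈ BS := hr (Submodule.smul_mem_pointwise_smul c r ⊤ Submodule.mem_top)
    exact this
  · have h := hIS (r - 1) hr1 e he
    rw [sub_smul, one_smul] at h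
    exact h

end NakOp

end Fermat.Agent.S41x
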