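import Mathlib

/-!
# S41 block E (abstract algebra core): output adapters

* `rba_span_ne_top` : if a commutative ring `R` acts `O`-linearly on `K`, `z ∈ K` is not in `𝔪 K`
  and every generator `g ∈ G` satisfies `g • z ∈ 𝔪 K`, then the ideal of `R` generated by `G` and
  the image of `𝔪` is proper; hence (`rba_exists_maximal`) it is contained in a maximal ideal.
  With `R` = the Hecke ring acting on `K = ker β`, `G = {T_ℓ - a_ℓ(W)}` this produces the maximal
  ideal fed to the Deligne–Serre lifting lemma.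
* `rba_ker_saturated` : `ker β ∩ p M₂ = p ker β` when the target of `β` has no `p`-torsion.
-/

set_option autoImplicit false

namespace Fermat.Agent.S41x

open Module

section Out

variable {O : Type*} [CommRing O]

theorem rba_span_ne_top {R K : Type*} [CommRing R] [Algebra O R] [AddCommGroup K] [Module O K]
    [Module R K] [IsScalarTower O R K] (𝔪 : Ideal O) (G : Set R) (z : K)
    (hz0 : z ∉ 𝔪 • (⊤ : Submodule O K))
    (hG : ∀ g ∈ G, g • z ∈ 𝔪 • (⊤ : Submodule O K)) :
    Ideal.span (G ∪ (algebraMap O R) '' (𝔪 : Set O)) ≠ ⊤ := by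
  classical
  -- `R` preserves `𝔪 K`
  have hstab : ∀ (s : R) (y : K), y ∈ 𝔪 • (⊤ : Submodule O K) →
      s • y ∈ 𝔪 • (⊤ : Submodule O K) := by
    intro s y hy
    refine Submodule.smul_induction_on hy (fun r hr n _ => ?_) (fun a b ha hb => ?_)
    · rw [smul_comm]; exact Submodule.smul_mem_smul hr Submodule.mem_top
    · rw [smul_add]; exact Submodule.add_mem _ ha hb
  let N : Ideal R :=
    { carrier := {r | r • z ∈ 𝔪 • (⊤ : Submodule O K)}
      add_mem' := fun {a b} ha hb => by
        simp only [Set.mem_ofPred_eq] at ha hb ⊢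
        rw [add_smul]; exact Submodule.add_mem _ ha hb
      zero_mem' := by
        simp only [Set.mem_ofPred_eq]
        rw [zero_smul]; exact Submodule.zero_mem _
      smul_mem' := fun c a ha => by
        simp only [Set.mem_ofPred_eq] at ha ⊢
        rw [smul_eq_mul, mul_smul]; exact hstab c _ ha }
  have hN : ∀ r : R, r ∈ N ↔ r • z ∈ 𝔪 • (⊤ : Submodule O K) := fun r => Iff.rfl
  have hle : Ideal.span (G ∪ (algebraMap O R) '' (𝔪 : Set O)) ≤ N := by
    rw [Ideal.span_le]
    rintro r (hr | ⟨m, hm, rfl⟩)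
    · exact (hN r).mpr (hG r hr)
    · refine (hN _).mpr ?_
      rw [algebraMap_smul]
      exact Submodule.smul_mem_smul hm Submodule.mem_top
  intro htop
  have h1 : (1 : R) ∈ N := hle (htop ▸ Submodule.mem_top)
  have := (hN 1).mp h1
  rw [one_smul] at this
  exact hz0 this

theorem rba_exists_maximal {R K : Type*} [CommRing R] [Algebra O R] [AddCommGroup K] [Module O K]
    [Module R K] [IsScalarTower O R K] (𝔪 : Ideal O) (G : Set R) (z : K)
    (hz0 : z ∉ 𝔪 • (⊤ : Submodule O K))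
    (hG : ∀ g ∈ G, g • z ∈ 𝔪 • (⊤ : Submodule O K)) :
    ∃ 𝔫 : Ideal R, 𝔫.IsMaximal ∧ G ⊆ 𝔫 ∧ ∀ m ∈ 𝔪, algebraMap O R m ∈ 𝔫 := by
  obtain ⟨𝔫, h𝔫, hle⟩ := Ideal.exists_le_maximal _ (rba_span_ne_top 𝔪 G z hz0 hG)
  refine ⟨𝔫, h𝔫, fun g hg => hle (Ideal.subset_span (Or.inl hg)), fun m hm => ?_⟩
  exact hle (Ideal.subset_span (Or.inr ⟨m, hm, rfl⟩))

/-- The kernel of a map into a `p`-torsion-free module is `p`-saturated. -/
theorem rba_ker_saturated {M₂ P : Type*} [AddCommGroup M₂] [Module O M₂] [AddCommGroup P]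
    [Module O P] (p : O) (β : M₂ →ₗ[O] P) (hP : ∀ c : P, p • c = 0 → c = 0)
    (k : LinearMap.ker β) (hk : (k : M₂) ∈ Ideal.span {p} • (⊤ : Submodule O M₂)) :
    k ∈ Ideal.span {p} • (⊤ : Submodule O (LinearMap.ker β)) := by
  rw [Submodule.ideal_span_singleton_smul] at hk ⊢
  obtain ⟨m, -, hm⟩ := hk
  have hm' : p • m = (k : M₂) := hm
  have hmk : m ∈ LinearMap.ker β := by
    rw [LinearMap.mem_ker]
    apply hP
    rw [← map_smul, hm']
    exact k.2
  refine ⟨⟨m, hmk⟩, Submodule.mem_top, ?_⟩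
  apply Subtype.ext
  exact hm'

end Out

end Fermat.Agent.S41x
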