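/-
S41 (level raising), block E, row ABS-E0 (helper90): EXACT statement of `LRSpec.rbe_exists_modp_eigenvector`
(from a characteristic-0 eigenvector with integral eigenvalues `b i ≡ a i (mod 𝔪)` to an eigenvector in `X / pX`),
plus the CORE lemmas in the Spec shapes as by-products:
* `rbe_exists_killed'`  : a finite module whose annihilator lies in a PROPER ideal `𝔞` has a nonzero element killed by
                          `𝔞` (no maximality needed; chain `𝔞^k M` stabilises + Nakayama);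
* `rbe_exists_killed`   : Spec shape `rbc_exists_killed` (maximal ideal);
* `rbe_exists_smul_eq`  : Spec shape `rbc_exists_smul_eq` (LemT);
* `rbe_char_mem_of_smul_mem` : determinant trick (`r X ⊆ p X` ⇒ `lam r ∈ 𝔪`; weakly Eisenstein polynomial);
* `rbe_abstract`        : abstract form (commutative ring `R` acting on `X`, character `lam : R → O`);
* `rbe_exists_modp_eigenvector` : the Spec row; `𝕋 := Algebra.adjoin ℤ {(TX i, TV i)} ⊆ End_ℤ X × End_ℂ V`.
Mathlib only.  Sorry-free.
-/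
import Mathlib

set_option autoImplicit false

namespace Fermat.Agent.S41x

open Polynomial

/-- descending induction step: a nonzero vector killed by `𝔞 ^ k` produces a nonzero vector killed by `𝔞`. -/
theorem rbe_killed_of_pow {R : Type*} [CommRing R] {M : Type*} [AddCommGroup M] [Module R M]
    (𝔞 : Ideal R) (k : ℕ) (m : M) (hm : m ≠ 0) (hk : ∀ s ∈ 𝔞 ^ k, s • m = 0) :
    ∃ m' : M, m' ≠ 0 ∧ ∀ r ∈ 𝔞, r • m' = 0 := by
  induction k generalizing m with
  | zero =>
    exfalso
    apply hm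
    have := hk 1 (by simp)
    simpa using this
  | succ k ih =>
    by_cases h : ∀ r ∈ 𝔞, r • m = 0
    · exact ⟨m, hm, h⟩
    · push Not at h
      obtain ⟨s, hs, hsm⟩ := h
      refine ih (s • m) hsm ?_
      intro s' hs'
      rw [smul_smul]
      apply hk
      rw [pow_succ]
      exact Ideal.mul_mem_mul hs' hs

/-- **CORE (killed vector)**: a finite module whose annihilator lies in a proper ideal `𝔞` has a nonzero
element killed by `𝔞` (no maximality needed). -/
theorem rbe_exists_killed' {R : Type*} [CommRing R] {M : Type*} [AddCommGroup M] [Module R M]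
    [Finite M] (𝔞 : Ideal R) (h𝔞 : 𝔞 ≠ ⊤) (hann : Module.annihilator R M ≤ 𝔞) :
    ∃ m : M, m ≠ 0 ∧ ∀ r ∈ 𝔞, r • m = 0 := by
  classical
  -- the chain `𝔞 ^ k • ⊤` stabilises
  let f : ℕ →o (Submodule R M)ᵒᵈ :=
    { toFun := fun k => OrderDual.toDual (𝔞 ^ k • (⊤ : Submodule R M))
      monotone' := by
        intro k l hkl
        show 𝔞 ^ l • (⊤ : Submodule R M) ≤ 𝔞 ^ k • (⊤ : Submodule R M)
        exact Submodule.smul_mono_left (Ideal.pow_le_pow_right hkl) }
  obtain ⟨k, hk⟩ := IsArtinian.monotone_stabilizes f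
  have hstab : 𝔞 ^ k • (⊤ : Submodule R M) = 𝔞 ^ (k + 1) • (⊤ : Submodule R M) := by
    have := hk (k + 1) (Nat.le_succ k)
    exact congrArg OrderDual.ofDual this
  set M' : Submodule R M := 𝔞 ^ k • (⊤ : Submodule R M) with hM'
  have hle : M' ≤ 𝔞 • M' := by
    rw [hM', ← Submodule.mul_smul, ← pow_succ', ← hstab]
  have hfg : M'.FG := IsNoetherian.noetherian M'
  obtain ⟨r, hr1, hr0⟩ :=
    Submodule.exists_sub_one_mem_and_smul_eq_zero_of_fg_of_le_smul 𝔞 M' hfg hle
  -- `r ∉ Ann M`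
  have hrann : r ∉ Module.annihilator R M := by
    intro hr
    apply h𝔞
    rw [Ideal.eq_top_iff_one]
    have h1 : r ∈ 𝔞 := hann hr
    have : (1 : R) = r - (r - 1) := by ring
    rw [this]
    exact 𝔞.sub_mem h1 hr1
  rw [Module.mem_annihilator] at hrann
  push Not at hrann
  obtain ⟨m₀, hm₀⟩ := hrann
  refine rbe_killed_of_pow 𝔞 k (r • m₀) hm₀ ?_
  intro s hs
  rw [smul_comm]
  apply hr0
  exact Submodule.smul_mem_smul hs Submodule.mem_top

/-- Spec shape `rbc_exists_killed` (with a maximal ideal). -/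
theorem rbe_exists_killed {R : Type*} [CommRing R] {M : Type*} [AddCommGroup M] [Module R M]
    [Finite M] (𝔞 : Ideal R) [h : 𝔞.IsMaximal] (hann : Module.annihilator R M ≤ 𝔞) :
    ∃ m : M, m ≠ 0 ∧ ∀ r ∈ 𝔞, r • m = 0 :=
  rbe_exists_killed' 𝔞 h.ne_top hann

/-- **LemT** (Spec shape `rbc_exists_smul_eq`). -/
theorem rbe_exists_smul_eq {R : Type*} [CommRing R] {M : Type*} [AddCommGroup M] [Module R M]
    [Finite M] (𝔞 : Ideal R) [h𝔞 : 𝔞.IsMaximal] (hno : ∀ m : M, (∀ r ∈ 𝔞, r • m = 0) → m = 0) :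
    ∃ t ∈ 𝔞, ∀ m : M, t • m = m := by
  by_cases h : Module.annihilator R M ≤ 𝔞
  · obtain ⟨m, hm, hk⟩ := rbe_exists_killed 𝔞 h
    exact absurd (hno m hk) hm
  · rw [SetLike.not_le_iff_exists] at h
    obtain ⟨s, hs, hs𝔞⟩ := h
    obtain ⟨y, i, hi, hyi⟩ := h𝔞.exists_inv hs𝔞
    refine ⟨i, hi, fun m => ?_⟩
    rw [Module.mem_annihilator] at hs
    have : i = 1 - y * s := by rw [← hyi]; ring
    rw [this, sub_smul, one_smul, mul_smul, hs m, smul_zero, sub_zero]

/-- **determinant trick**: if `r X ⊆ p X` (`X` a finitely generated abelian group with an action of the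
commutative ring `R`), and the character `lam : R → O` factors through the image of `R` in `End X`,
then `lam r` lies in every prime ideal of `O` containing `p`. -/
theorem rbe_char_mem_of_smul_mem {R : Type*} [CommRing R] {O : Type*} [CommRing O]
    {X : Type*} [AddCommGroup X] [Module.Finite ℤ X] [Module R X]
    (lam : R →+* O) (hfaith : ∀ r : R, (∀ x : X, r • x = 0) → lam r = 0)
    (𝔪 : Ideal O) [h𝔪 : 𝔪.IsPrime] (p : ℕ) (hpm : (p : O) ∈ 𝔪)
    (r : R) (hr : ∀ x : X, ∃ z : X, r • x = (p : ℤ) • z) : lam r ∈ 𝔪 := by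
  classical
  -- the endomorphism `x ↦ r • x`
  let φ : R →ₐ[ℤ] Module.End ℤ X := (Module.toModuleEnd ℤ (S := R) X).toIntAlgHom
  have hφ : ∀ (s : R) (x : X), φ s x = s • x := fun s x => rfl
  have hrange : LinearMap.range (φ r) ≤ (Ideal.span {(p : ℤ)}) • (⊤ : Submodule ℤ X) := by
    rintro _ ⟨x, rfl⟩
    obtain ⟨z, hz⟩ := hr x
    rw [hφ, hz]
    exact Submodule.smul_mem_smul (Ideal.mem_span_singleton_self _) Submodule.mem_top
  obtain ⟨P, hPmonic, -, hPcoeff, hPaeval⟩ :=
    LinearMap.exists_monic_and_natDegree_eq_and_coeff_mem_pow_and_aeval_eq_zero ℤ (φ r)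
      (Ideal.span {(p : ℤ)}) hrange
  -- `P(r)` acts as zero on `X`
  have h1 : ∀ x : X, (aeval r P) • x = 0 := by
    intro x
    have := Polynomial.aeval_algHom_apply φ r P
    rw [hPaeval] at this
    rw [← hφ, ← this]
    rfl
  have h2 : lam (aeval r P) = 0 := hfaith _ h1
  have h3 : aeval (lam r) P = 0 := by
    have := Polynomial.aeval_algHom_apply lam.toIntAlgHom r P
    rw [RingHom.toIntAlgHom_apply, RingHom.toIntAlgHom_apply] at this
    rw [this, h2]
  -- weakly Eisenstein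
  have hroot : (P.map (algebraMap ℤ O)).IsRoot (lam r) := by
    rw [Polynomial.IsRoot, Polynomial.eval_map_algebraMap, h3]
  have hmon : (P.map (algebraMap ℤ O)).Monic := hPmonic.map _
  have hW : (P.map (algebraMap ℤ O)).IsWeaklyEisensteinAt 𝔪 := by
    refine ⟨fun {n} hn => ?_⟩
    have hn' : n < P.natDegree := lt_of_lt_of_le hn (Polynomial.natDegree_map_le)
    rw [Polynomial.coeff_map]
    have hc := hPcoeff n
    have hc' : P.coeff n ∈ Ideal.span {(p : ℤ)} :=
      Ideal.pow_le_self (by omega) hc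
    rw [Ideal.mem_span_singleton] at hc'
    obtain ⟨c, hc⟩ := hc'
    rw [hc, map_mul]
    apply 𝔪.mul_mem_right
    simpa using hpm
  have := hW.pow_natDegree_le_of_root_of_monic_mem hroot hmon _ le_rfl
  exact h𝔪.mem_of_pow_mem _ this

/-- abstract form of ABS-E0: `R` a commutative ring acting on the finitely generated abelian group `X`,
`lam : R → O` a character factoring through the image of `R` in `End X`, `𝔪` a maximal ideal of `O` containing `p`:
there is `x ∈ X ∖ pX` with `r x ∈ pX` whenever `lam r ∈ 𝔪`. -/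
theorem rbe_abstract {R : Type*} [CommRing R] {O : Type*} [CommRing O]
    {X : Type*} [AddCommGroup X] [Module.Finite ℤ X] [Module R X]
    (lam : R →+* O) (hfaith : ∀ r : R, (∀ x : X, r • x = 0) → lam r = 0)
    (𝔪 : Ideal O) [h𝔪 : 𝔪.IsPrime] (p : ℕ) (hp : p ≠ 0) (hpm : (p : O) ∈ 𝔪) :
    ∃ x : X, (¬ ∃ z, x = (p : ℤ) • z) ∧ ∀ r : R, lam r ∈ 𝔪 → ∃ z, r • x = (p : ℤ) • z := by
  classical
  -- the submodule `pX`
  let N : Submodule R X :=
    { carrier := {x | ∃ z, x = (p : ℤ) • z}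
      zero_mem' := ⟨0, by simp⟩
      add_mem' := by
        rintro _ _ ⟨z, rfl⟩ ⟨z', rfl⟩
        exact ⟨z + z', by rw [smul_add]⟩
      smul_mem' := by
        rintro r _ ⟨z, rfl⟩
        exact ⟨r • z, by rw [smul_comm]⟩ }
  have hN : ∀ x : X, x ∈ N ↔ ∃ z, x = (p : ℤ) • z := fun x => Iff.rfl
  -- the quotient is finite
  have hfg : AddGroup.FG (X ⧸ N) := by
    have h1 : AddGroup.FG X := Module.Finite.iff_addGroup_fg.mp inferInstance
    exact AddGroup.fg_of_surjective (f := N.mkQ.toAddMonoidHom) N.mkQ_surjective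
  have htors : IsAddTorsion (X ⧸ N) := by
    intro q
    obtain ⟨x, rfl⟩ := N.mkQ_surjective q
    rw [isOfFinAddOrder_iff_nsmul_eq_zero]
    refine ⟨p, Nat.pos_of_ne_zero hp, ?_⟩
    rw [← map_nsmul, Submodule.mkQ_apply, Submodule.Quotient.mk_eq_zero, hN]
    exact ⟨x, by rw [natCast_zsmul]⟩
  have hfin : Finite (X ⧸ N) := AddCommGroup.finite_of_fg_isAddTorsion _ htors
  -- the ideal
  have h𝔞 : Ideal.comap lam 𝔪 ≠ ⊤ := Ideal.comap_ne_top lam h𝔪.ne_top
  have hann : Module.annihilator R (X ⧸ N) ≤ Ideal.comap lam 𝔪 := by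
    intro r hr
    rw [Module.mem_annihilator] at hr
    rw [Ideal.mem_comap]
    refine rbe_char_mem_of_smul_mem lam hfaith 𝔪 p hpm r ?_
    intro x
    have := hr (N.mkQ x)
    rw [← map_smul, Submodule.mkQ_apply, Submodule.Quotient.mk_eq_zero, hN] at this
    exact this
  obtain ⟨q, hq0, hq⟩ := rbe_exists_killed' (Ideal.comap lam 𝔪) h𝔞 hann
  obtain ⟨x, rfl⟩ := N.mkQ_surjective q
  refine ⟨x, ?_, ?_⟩
  · intro hx
    apply hq0
    rw [Submodule.mkQ_apply, Submodule.Quotient.mk_eq_zero, hN]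
    exact hx
  · intro r hr
    have := hq r (Ideal.mem_comap.mpr hr)
    rw [← map_smul, Submodule.mkQ_apply, Submodule.Quotient.mk_eq_zero, hN] at this
    exact this

open scoped IsMulCommutative in
theorem rbe_exists_modp_eigenvector
    {X : Type*} [AddCommGroup X] [Module.Finite ℤ X]
    {V : Type*} [AddCommGroup V] [Module ℂ V]
    (j : X →+ V) (hjinj : Function.Injective j) (hspan : Submodule.span ℂ (Set.range j) = ⊤)
    {ι : Type*} (TX : ι → X →+ X) (TV : ι → Module.End ℂ V)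
    (hcomm : ∀ i k, Commute (TV i) (TV k)) (hj : ∀ i x, j (TX i x) = TV i (j x))
    (v : V) (hv : v ≠ 0) (b : ι → integralClosure ℤ ℂ)
    (hev : ∀ i, TV i v = ((b i : integralClosure ℤ ℂ) : ℂ) • v)
    (𝔪 : Ideal (integralClosure ℤ ℂ)) (h𝔪 : 𝔪.IsMaximal) (p : ℕ) (hp : p.Prime)
    (hpm : (p : integralClosure ℤ ℂ) ∈ 𝔪)
    (a : ι → ℤ) (hab : ∀ i, b i - (a i : integralClosure ℤ ℂ) ∈ 𝔪) :
    ∃ x : X, (¬ ∃ z, x = (p : ℤ) • z) ∧ ∀ i, ∃ z, TX i x - a i • x = (p : ℤ) • z := by
  classical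
  have hTXcomm : ∀ i k x, TX i (TX k x) = TX k (TX i x) := by
    intro i k x
    apply hjinj
    rw [hj, hj, hj, hj]
    exact congrArg (fun f => f (j x)) (hcomm i k).eq
  let gen : ι → Module.End ℤ X × Module.End ℂ V := fun i => ((TX i).toIntLinearMap, TV i)
  have hS : ∀ a ∈ Set.range gen, ∀ b ∈ Set.range gen, a * b = b * a := by
    rintro _ ⟨i, rfl⟩ _ ⟨k, rfl⟩
    refine Prod.ext ?_ ?_
    · apply LinearMap.ext
      intro x
      exact hTXcomm i k x
    · exact (hcomm i k).eq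
  have hcommT : IsMulCommutative (Algebra.adjoin ℤ (Set.range gen)) :=
    Algebra.isMulCommutative_adjoin ℤ hS
  -- invariants
  have hinv : ∀ t ∈ Algebra.adjoin ℤ (Set.range gen), (∀ x, j (t.1 x) = t.2 (j x)) ∧
      ∃ c : integralClosure ℤ ℂ, t.2 v = (c : ℂ) • v := by
    intro t ht
    induction ht using Algebra.adjoin_induction with
    | mem t ht =>
      obtain ⟨i, rfl⟩ := ht
      exact ⟨fun x => hj i x, b i, hev i⟩
    | algebraMap n =>
      refine ⟨fun x => ?_, (n : integralClosure ℤ ℂ), ?_⟩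
      · simp
      · simp
        exact (Int.cast_smul_eq_zsmul ℂ n v).symm
    | add s t _ _ hs ht =>
      obtain ⟨hs1, c, hc⟩ := hs
      obtain ⟨ht1, d, hd⟩ := ht
      refine ⟨fun x => ?_, c + d, ?_⟩
      · simp [hs1, ht1]
      · simp [hc, hd, add_smul]
    | mul s t _ _ hs ht =>
      obtain ⟨hs1, c, hc⟩ := hs
      obtain ⟨ht1, d, hd⟩ := ht
      refine ⟨fun x => ?_, c * d, ?_⟩
      · simp [hs1, ht1]
      · simp [hc, hd, mul_smul, smul_comm (c : ℂ) (d : ℂ)]
  -- uniqueness of the eigenvalue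
  have huniq : ∀ c d : integralClosure ℤ ℂ, (c : ℂ) • v = (d : ℂ) • v → c = d := by
    intro c d h
    have h' : ((c : ℂ) - (d : ℂ)) • v = 0 := by rw [sub_smul, h, sub_self]
    rcases smul_eq_zero.mp h' with h0 | h0
    · exact Subtype.ext (sub_eq_zero.mp h0)
    · exact absurd h0 hv
  -- the eigencharacter
  let lamf : Algebra.adjoin ℤ (Set.range gen) → integralClosure ℤ ℂ :=
    fun t => (hinv t.1 t.2).2.choose
  have hlamf : ∀ t : Algebra.adjoin ℤ (Set.range gen), t.1.2 v = ((lamf t : integralClosure ℤ ℂ) : ℂ) • v :=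
    fun t => (hinv t.1 t.2).2.choose_spec
  let lam : Algebra.adjoin ℤ (Set.range gen) →+* integralClosure ℤ ℂ :=
    { toFun := lamf
      map_one' := by
        apply huniq
        rw [← hlamf]
        simp
      map_mul' := by
        intro s t
        apply huniq
        rw [← hlamf]
        simp [hlamf s, hlamf t, mul_smul, smul_comm ((lamf s : integralClosure ℤ ℂ) : ℂ)]
      map_zero' := by
        apply huniq
        rw [← hlamf]
        simp
      map_add' := by
        intro s t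
        apply huniq
        rw [← hlamf]
        simp [hlamf s, hlamf t, add_smul] }
  -- module structure on `X`
  let ρ : Algebra.adjoin ℤ (Set.range gen) →+* Module.End ℤ X :=
    (RingHom.fst (Module.End ℤ X) (Module.End ℂ V)).comp
      (Algebra.adjoin ℤ (Set.range gen)).val.toRingHom
  let _ : Module (Algebra.adjoin ℤ (Set.range gen)) X := Module.compHom X ρ
  have hsmul : ∀ (t : Algebra.adjoin ℤ (Set.range gen)) (x : X), t • x = t.1.1 x := fun _ _ => rfl
  have hfaith : ∀ t : Algebra.adjoin ℤ (Set.range gen), (∀ x : X, t • x = 0) → lam t = 0 := by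
    intro t ht
    have h0 : ∀ w ∈ Submodule.span ℂ (Set.range j), t.1.2 w = 0 := by
      intro w hw
      induction hw using Submodule.span_induction with
      | mem w hw =>
        obtain ⟨x, rfl⟩ := hw
        rw [← (hinv t.1 t.2).1, ← hsmul, ht, map_zero]
      | zero => simp
      | add _ _ _ _ h1 h2 => rw [map_add, h1, h2, add_zero]
      | smul c _ _ h1 => rw [map_smul, h1, smul_zero]
    have h1 : t.1.2 v = 0 := h0 v (by rw [hspan]; exact Submodule.mem_top)
    apply huniq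
    show ((lamf t : integralClosure ℤ ℂ) : ℂ) • v = _
    rw [← hlamf, h1]
    simp
  have : 𝔪.IsPrime := h𝔪.isPrime
  obtain ⟨x, hx, hker⟩ := rbe_abstract lam hfaith 𝔪 p hp.ne_zero hpm
  refine ⟨x, hx, fun i => ?_⟩
  have hgi : gen i ∈ Algebra.adjoin ℤ (Set.range gen) := Algebra.subset_adjoin ⟨i, rfl⟩
  have hlg : lam ⟨gen i, hgi⟩ = b i := by
    apply huniq
    show ((lamf ⟨gen i, hgi⟩ : integralClosure ℤ ℂ) : ℂ) • v = _
    rw [← hlamf]
    exact hev i
  have hmem : lam (⟨gen i, hgi⟩ - algebraMap ℤ _ (a i)) ∈ 𝔪 := by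
    rw [map_sub, hlg, eq_intCast, map_intCast]
    exact hab i
  obtain ⟨z, hz⟩ := hker _ hmem
  refine ⟨z, ?_⟩
  rw [← hz, hsmul]
  simp [gen]

end Fermat.Agent.S41x
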