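/-
S41 project, block E, row ABS-E2 (helper49): Deligne–Serre lifting on a lattice.
`rble_exists_lift` is the exact shape of `LRSpec.rbl_exists_lift`.
Proof: `W = ℂ·j(K)`; `𝕋` = the ℤ-subalgebra of `End_ℤ K × End_ℂ W` generated by the pairs
`(SK m, SV m|W)`; it is commutative, embeds into `End_ℤ K` (hence is finite over `ℤ`) and into
`End_ℂ W` (faithful action); the elements `t` with `t y ∈ pK` form a proper ideal containing `p`
and `t_{e i} - a i`; apply `S49x.exists_eigen_lift` to a maximal ideal above it.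
-/
import Mathlib
import Fermat.Agent.S49x.EigenLift

set_option autoImplicit false

namespace Fermat.Agent.S41x

/-- endomorphisms of a finitely generated abelian group form a finitely generated abelian group -/
theorem rble_finite_end (K : Type*) [AddCommGroup K] [Module.Finite ℤ K] :
    Module.Finite ℤ (Module.End ℤ K) := by
  obtain ⟨n, s, hs⟩ := Module.Finite.exists_fin (R := ℤ) (M := K)
  have hnoeth : IsNoetherian ℤ K := isNoetherian_of_isNoetherianRing_of_finite ℤ K
  let Φ : Module.End ℤ K →ₗ[ℤ] (Fin n → K) :=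
    { toFun := fun f i => f (s i)
      map_add' := fun f g => by ext i; simp
      map_smul' := fun c f => by ext i; simp }
  have hΦ : Function.Injective Φ := by
    intro f g hfg
    apply LinearMap.ext_on_range hs
    intro i
    exact congrFun hfg i
  exact Module.Finite.of_injective Φ hΦ

section

variable {K : Type*} [AddCommGroup K] [Module.Finite ℤ K]
  {V : Type*} [AddCommGroup V] [Module ℂ V]

/-- ABS-E2 (exact shape of `LRSpec.rbl_exists_lift`). -/
theorem rble_exists_lift
    (j : K →+ V) (hj : Function.Injective j)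
    {κ : Type*} (SK : κ → K →+ K) (SV : κ → Module.End ℂ V)
    (hcomm : ∀ m n, ∀ w ∈ Submodule.span ℂ (Set.range j), SV m (SV n w) = SV n (SV m w))
    (hjS : ∀ m x, j (SK m x) = SV m (j x))
    (p : ℕ) (hp : p.Prime) {ι : Type*} (e : ι → κ) (a : ι → ℤ)
    (y : K) (hy : ¬ ∃ z, y = (p : ℤ) • z) (hyT : ∀ i, ∃ z, SK (e i) y - a i • y = (p : ℤ) • z) :
    ∃ (w : V) (μ : κ → integralClosure ℤ ℂ) (𝔪' : Ideal (integralClosure ℤ ℂ)),
      w ∈ Submodule.span ℂ (Set.range j) ∧ w ≠ 0 ∧
      (∀ m, SV m w = ((μ m : integralClosure ℤ ℂ) : ℂ) • w) ∧ 𝔪'.IsMaximal ∧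
      (p : integralClosure ℤ ℂ) ∈ 𝔪' ∧ ∀ i, μ (e i) - (a i : integralClosure ℤ ℂ) ∈ 𝔪' := by
  classical
  set W : Submodule ℂ V := Submodule.span ℂ (Set.range j) with hWdef
  have hjW : ∀ x, j x ∈ W := fun x => Submodule.subset_span ⟨x, rfl⟩
  -- `W` is stable under the operators
  have hW : ∀ m, ∀ w ∈ W, SV m w ∈ W := by
    intro m w hw
    induction hw using Submodule.span_induction with
    | mem v hv =>
      obtain ⟨x, rfl⟩ := hv
      rw [← hjS]; exact hjW _
    | zero => rw [map_zero]; exact W.zero_mem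
    | add u v _ _ hu hv => rw [map_add]; exact W.add_mem hu hv
    | smul c v _ hv => rw [map_smul]; exact W.smul_mem c hv
  let SW : κ → Module.End ℂ W := fun m => (SV m).restrict (hW m)
  have hSW : ∀ m (w : W), ((SW m w : W) : V) = SV m (w : V) := fun m w => rfl
  let jW : K → W := fun x => ⟨j x, hjW x⟩
  have hjW_inj : Function.Injective jW := by
    intro x x' h
    exact hj (congrArg Subtype.val h)
  -- every `ℂ`-linear endomorphism of `W` vanishing on `j(K)` vanishes
  have hspanW : ∀ B : Module.End ℂ W, (∀ x, B (jW x) = 0) → B = 0 := by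
    intro B hB
    have key : ∀ v (hv : v ∈ W), B ⟨v, hv⟩ = 0 := by
      intro v hv
      induction hv using Submodule.span_induction with
      | mem v hv =>
        obtain ⟨x, rfl⟩ := hv
        exact hB x
      | zero => exact map_zero B
      | add u v hu hv hu' hv' =>
        have : (⟨u + v, W.add_mem hu hv⟩ : W) = ⟨u, hu⟩ + ⟨v, hv⟩ := rfl
        rw [this, map_add, hu', hv', add_zero]
      | smul c v hv hv' =>
        have : (⟨c • v, W.smul_mem c hv⟩ : W) = c • ⟨v, hv⟩ := rfl
        rw [this, map_smul, hv', smul_zero]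
    ext w
    rw [key w.1 w.2]; rfl
  -- the product ring and the generators
  let Pr := Module.End ℤ K × Module.End ℂ W
  let g : κ → Pr := fun m => ((SK m).toIntLinearMap, SW m)
  have hg1 : ∀ m x, (g m).1 x = SK m x := fun m x => rfl
  have hg2 : ∀ m w, (g m).2 w = SW m w := fun m w => rfl
  -- the generators commute
  have hgcomm : ∀ t ∈ Set.range g, ∀ t' ∈ Set.range g, t * t' = t' * t := by
    rintro _ ⟨m, rfl⟩ _ ⟨n, rfl⟩
    refine Prod.ext ?_ ?_
    · apply LinearMap.ext
      intro x
      show (g m).1 ((g n).1 x) = (g n).1 ((g m).1 x)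
      rw [hg1, hg1, hg1, hg1]
      apply hj
      rw [hjS, hjS, hjS, hjS]
      exact hcomm m n _ (hjW x)
    · apply LinearMap.ext
      intro w
      show (g m).2 ((g n).2 w) = (g n).2 ((g m).2 w)
      rw [hg2, hg2, hg2, hg2]
      apply Subtype.ext
      rw [hSW, hSW, hSW, hSW]
      exact hcomm m n _ w.2
  let S : Subalgebra ℤ Pr := Algebra.adjoin ℤ (Set.range g)
  let _instS : CommRing S := Algebra.adjoinCommRingOfComm ℤ hgcomm
  -- the intertwining property
  have hInter : ∀ t ∈ S, ∀ x, jW (t.1 x) = t.2 (jW x) := by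
    intro t ht
    induction ht using Algebra.adjoin_induction with
    | mem t ht =>
      obtain ⟨m, rfl⟩ := ht
      intro x
      apply Subtype.ext
      show j ((g m).1 x) = ((g m).2 (jW x) : V)
      rw [hg1, hg2, hSW, hjS]
    | algebraMap r =>
      intro x
      apply Subtype.ext
      have h0 : algebraMap ℤ Pr r = ((r : ℤ) : Pr) := eq_intCast _ r
      have h1 : ((algebraMap ℤ Pr r).1) x = r • x := by
        rw [h0, Prod.fst_intCast, Module.End.intCast_apply]
      have h2 : ((algebraMap ℤ Pr r).2) (jW x) = r • jW x := by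
        rw [h0, Prod.snd_intCast, Module.End.intCast_apply]
      rw [h1, h2]
      show j (r • x) = ((r • jW x : W) : V)
      rw [map_zsmul]; rfl
    | add t t' _ _ ht ht' =>
      intro x
      have h1 : (t + t').1 x = t.1 x + t'.1 x := rfl
      have h2 : (t + t').2 (jW x) = t.2 (jW x) + t'.2 (jW x) := rfl
      rw [h1, h2, ← ht x, ← ht' x]
      apply Subtype.ext
      show j (t.1 x + t'.1 x) = j (t.1 x) + j (t'.1 x)
      rw [map_add]
    | mul t t' _ _ ht ht' =>
      intro x
      have h1 : (t * t').1 x = t.1 (t'.1 x) := rfl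
      have h2 : (t * t').2 (jW x) = t.2 (t'.2 (jW x)) := rfl
      rw [h1, h2, ht, ht']
  -- the two projections are injective on `S`
  have hfst_inj : ∀ t : S, (t : Pr).1 = 0 → t = 0 := by
    intro t ht
    apply Subtype.ext
    refine Prod.ext ht ?_
    apply hspanW
    intro x
    rw [← hInter t.1 t.2 x, ht]
    apply Subtype.ext
    show j 0 = 0
    exact map_zero j
  have hsnd_inj : ∀ t : S, (t : Pr).2 = 0 → t = 0 := by
    intro t ht
    apply Subtype.ext
    refine Prod.ext ?_ ht
    apply LinearMap.ext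
    intro x
    apply hjW_inj
    rw [hInter t.1 t.2 x, ht]
    apply Subtype.ext
    show (0 : V) = j 0
    exact (map_zero j).symm
  -- `S` is finite over `ℤ`
  have hEndFin : Module.Finite ℤ (Module.End ℤ K) := rble_finite_end K
  have hEndNoeth : IsNoetherian ℤ (Module.End ℤ K) :=
    isNoetherian_of_isNoetherianRing_of_finite ℤ _
  let π₁ : S →+ Module.End ℤ K :=
    { toFun := fun t => (t : Pr).1
      map_zero' := rfl
      map_add' := fun _ _ => rfl }
  have hSfin : Module.Finite ℤ S := by
    refine Module.Finite.of_injective π₁.toIntLinearMap ?_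
    intro t t' h
    have h' : ((t - t' : S) : Pr).1 = 0 := by
      have : (t : Pr).1 = (t' : Pr).1 := h
      show (t : Pr).1 - (t' : Pr).1 = 0
      rw [this, sub_self]
    exact sub_eq_zero.mp (hfst_inj _ h')
  -- the faithful action on `W`
  let ρ : S →+* Module.End ℂ W :=
    { toFun := fun t => (t : Pr).2
      map_one' := rfl
      map_mul' := fun _ _ => rfl
      map_zero' := rfl
      map_add' := fun _ _ => rfl }
  have hρ : Function.Injective ρ := by
    intro t t' h
    have h' : ((t - t' : S) : Pr).2 = 0 := by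
      have : (t : Pr).2 = (t' : Pr).2 := h
      show (t : Pr).2 - (t' : Pr).2 = 0
      rw [this, sub_self]
    exact sub_eq_zero.mp (hsnd_inj _ h')
  -- the ideal of elements sending `y` into `pK`
  let J : Ideal S :=
    { carrier := {t | ∃ z, (t : Pr).1 y = (p : ℤ) • z}
      add_mem' := by
        rintro t t' ⟨z, hz⟩ ⟨z', hz'⟩
        refine ⟨z + z', ?_⟩
        show (t : Pr).1 y + (t' : Pr).1 y = _
        rw [hz, hz', smul_add]
      zero_mem' := ⟨0, by simp⟩
      smul_mem' := by
        rintro s t ⟨z, hz⟩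
        refine ⟨(s : Pr).1 z, ?_⟩
        show (s : Pr).1 ((t : Pr).1 y) = _
        rw [hz, map_zsmul] }
  have hJmem : ∀ t : S, t ∈ J ↔ ∃ z, (t : Pr).1 y = (p : ℤ) • z := fun t => Iff.rfl
  have hJne : J ≠ ⊤ := by
    intro htop
    have h1 : (1 : S) ∈ J := by rw [htop]; trivial
    obtain ⟨z, hz⟩ := (hJmem 1).mp h1
    exact hy ⟨z, hz⟩
  obtain ⟨𝔫, h𝔫max, hJ𝔫⟩ := Ideal.exists_le_maximal J hJne
  have : 𝔫.IsPrime := h𝔫max.isPrime
  obtain ⟨v, ψ, 𝔪', hv0, hψ, h𝔪', hle⟩ := Fermat.Agent.S49x.exists_eigen_lift ρ hρ 𝔫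
  -- the generators as elements of `S`
  let tg : κ → S := fun m => ⟨g m, Algebra.subset_adjoin ⟨m, rfl⟩⟩
  -- integers in `S`
  have hint1 : ∀ (n : ℤ) (x : K), (((n : S) : S) : Pr).1 x = n • x := by
    intro n x
    have : (((n : S) : S) : Pr) = (n : Pr) := rfl
    rw [this, Prod.fst_intCast, Module.End.intCast_apply]
  refine ⟨(v : V), fun m => ψ (tg m), 𝔪', v.2, ?_, ?_, h𝔪', ?_, ?_⟩
  · intro h0
    exact hv0 (Subtype.ext h0)
  · intro m
    have h := hψ (tg m)
    have h2 : ρ (tg m) v = SW m v := rfl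
    rw [h2] at h
    have h3 := congrArg (Subtype.val) h
    rw [hSW] at h3
    rw [h3]; rfl
  · -- `p ∈ 𝔪'`
    have hpJ : ((p : ℤ) : S) ∈ J := by
      rw [hJmem]
      exact ⟨y, hint1 _ y⟩
    have := hle (hJ𝔫 hpJ)
    rw [Ideal.mem_comap, map_intCast] at this
    exact_mod_cast this
  · intro i
    have hiJ : tg (e i) - ((a i : ℤ) : S) ∈ J := by
      rw [hJmem]
      obtain ⟨z, hz⟩ := hyT i
      refine ⟨z, ?_⟩
      show (tg (e i) : Pr).1 y - (((a i : ℤ) : S) : Pr).1 y = _
      rw [hint1]
      exact hz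
    have := hle (hJ𝔫 hiJ)
    rw [Ideal.mem_comap, map_sub, map_intCast] at this
    exact this

end

end Fermat.Agent.S41x
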