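/-
S41 project, block E / TOP: INSURANCE TWIN of the final assembly (helper92; prefix `tas_`).
NOT the official S41.lean (helper20 lands that).  This file composes the three TOP steps

  STEP 1-2  `emq_top_step12`  (S41x/EigenLRVec.lean, helper92)
  STEP 3    = hypothesis `tas_Step3` below (exact shape of `LRTopSpec.top_step3`; to be discharged by
              helper99 `ts3_…` / helper67 `tkv_…` when landed)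
  STEP 4-5  `tpo_step45`      (S41x/TopOutFinal.lean, helper73)
  C-package `pdPair_package`  (S41x/DualFinal.lean, helper52)
  hIhara    `tas_hIhara`      (below, from helper74 `ihl_ihara_lattice`, S41x/IharaLattice.lean)

into the frozen S41 statement:  `tas_result_of_step3 : tas_Step3 → (frozen statement of S41)`.
-/
import Fermat.Agent.S41x.EigenLRVec
import Fermat.Agent.S41x.TopOutFinal
import Fermat.Agent.S41x.DualFinal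
import Fermat.Agent.S41x.IharaLattice

set_option autoImplicit false

namespace Fermat.Agent.S41x

open scoped MatrixGroups
open CongruenceSubgroup ModularCurve ModularCurve.Period
open WeierstrassCurve WeierstrassCurve.Affine WeierstrassCurve.Affine.Point

/-- **hIhara in the exact shape of `LRTopSpec.top_step3`** (`topGood` unfolded). -/
theorem tas_hIhara (E : WeierstrassCurve ℚ) [E.IsElliptic] {W : WeierstrassCurve ℤ}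
    (hW : W.IsIntegralModelOf E) {p N q : ℕ} [NeZero N] [Fact q.Prime] (hp : p.Prime) (hp2 : p ≠ 2)
    (hqN : ¬ q ∣ N) (hirr : GaloisRepIsIrreducible (K := AlgebraicClosure ℚ) ℚ E p)
    (x₁ x₂ : lrL N)
    (h₁ : ∀ ℓ : Nat.Primes, (W.IsGoodPrimeFor ℓ ∧ ¬ (ℓ : ℕ) ∣ N * q ∧ (ℓ : ℕ) ≠ p) →
      ∃ z : lrL N, lrtT N ℓ x₁ - (W.apOfModel ℓ : ℤ) • x₁ = (p : ℤ) • z)
    (h₂ : ∀ ℓ : Nat.Primes, (W.IsGoodPrimeFor ℓ ∧ ¬ (ℓ : ℕ) ∣ N * q ∧ (ℓ : ℕ) ≠ p) →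
      ∃ z : lrL N, lrtT N ℓ x₂ - (W.apOfModel ℓ : ℤ) • x₂ = (p : ℤ) • z)
    (hker : ∃ y : lrL (N * q), lrtRes N q x₁ + lrtResEta N q x₂ = (p : ℤ) • y) :
    (∃ z : lrL N, x₁ = (p : ℤ) • z) ∧ (∃ z : lrL N, x₂ = (p : ℤ) • z) := by
  have hq : q.Prime := Fact.out
  obtain ⟨⟨z₁, hz₁m, hz₁⟩, ⟨z₂, hz₂m, hz₂⟩⟩ :=
    ihl_ihara_lattice E hW hp hp2 hq hqN hirr x₁.1 x₂.1 x₁.2 x₂.2
      (fun ℓ hg hd hℓp => by
        obtain ⟨z, hz⟩ := h₁ ℓ ⟨hg, hd, hℓp⟩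
        exact ⟨z.1, congrArg Subtype.val hz⟩)
      (fun ℓ hg hd hℓp => by
        obtain ⟨z, hz⟩ := h₂ ℓ ⟨hg, hd, hℓp⟩
        exact ⟨z.1, congrArg Subtype.val hz⟩)
      (by
        obtain ⟨y, hy⟩ := hker
        exact ⟨y.1, congrArg Subtype.val hy⟩)
  exact ⟨⟨⟨z₁, hz₁m⟩, Subtype.ext hz₁⟩, ⟨⟨z₂, hz₂m⟩, Subtype.ext hz₂⟩⟩

/-- the statement of STEP 3 (exact shape of `LRTopSpec.top_step3`, `topGood` unfolded) -/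
def tas_Step3 : Prop :=
  ∀ {W : WeierstrassCurve ℤ} {p N q : ℕ} [NeZero N] [Fact q.Prime] (_ : p.Prime)
    (hqN : ¬ q ∣ N)
    (pd : ∀ (M : ℕ) [NeZero M], lrL M →ₗ[ℤ] lrL M →ₗ[ℤ] ℤ)
    (_ : ∀ (M : ℕ) [NeZero M] (x y : lrL M), pd M x y = - pd M y x)
    (_ : ∀ (M : ℕ) [NeZero M], Function.Bijective (fun y : lrL M => (pd M).flip y))
    (_ : ∀ (M ℓ : ℕ) [NeZero M] [Fact ℓ.Prime] (hℓM : ¬ ℓ ∣ M) (x : lrL M) (y : lrL (M * ℓ)),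
      pd (M * ℓ) (lrtRes M ℓ x) y = pd M x (lrtCores M ℓ hℓM y))
    (_ : ∀ (M ℓ : ℕ) [NeZero M] [Fact ℓ.Prime] (hℓM : ¬ ℓ ∣ M) (x : lrL M) (y : lrL (M * ℓ)),
      pd (M * ℓ) (lrtResEta M ℓ x) y = pd M x (lrtCoresEta M ℓ hℓM y))
    (_ : ∀ x₁ x₂ : lrL N,
      (∀ ℓ : Nat.Primes, (W.IsGoodPrimeFor ℓ ∧ ¬ (ℓ : ℕ) ∣ N * q ∧ (ℓ : ℕ) ≠ p) →
        ∃ z : lrL N, lrtT N ℓ x₁ - (W.apOfModel ℓ : ℤ) • x₁ = (p : ℤ) • z) →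
      (∀ ℓ : Nat.Primes, (W.IsGoodPrimeFor ℓ ∧ ¬ (ℓ : ℕ) ∣ N * q ∧ (ℓ : ℕ) ≠ p) →
        ∃ z : lrL N, lrtT N ℓ x₂ - (W.apOfModel ℓ : ℤ) • x₂ = (p : ℤ) • z) →
      (∃ y : lrL (N * q), lrtRes N q x₁ + lrtResEta N q x₂ = (p : ℤ) • y) →
      (∃ z : lrL N, x₁ = (p : ℤ) • z) ∧ (∃ z : lrL N, x₂ = (p : ℤ) • z))
    (ε : ℤ) (v : lrL N) (_ : ε = 1 ∨ ε = -1) (_ : ¬ ∃ w : lrL N, v = (p : ℤ) • w)
    (_ : ∀ ℓ : Nat.Primes, (W.IsGoodPrimeFor ℓ ∧ ¬ (ℓ : ℕ) ∣ N * q ∧ (ℓ : ℕ) ≠ p) →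
        ∃ w : lrL N, lrtT N ℓ v - (W.apOfModel ℓ : ℤ) • v = (p : ℤ) • w)
    (_ : ∃ w : lrL N, lrtT N (lrPrime q) v - (ε * ((q : ℤ) + 1)) • v = (p : ℤ) • w),
    ∃ y : lrL (N * q), lrtCores N q hqN y = 0 ∧ lrtCoresEta N q hqN y = 0 ∧
      (¬ ∃ z : lrL (N * q), y = (p : ℤ) • z) ∧
      ∀ ℓ : Nat.Primes, (W.IsGoodPrimeFor ℓ ∧ ¬ (ℓ : ℕ) ∣ N * q ∧ (ℓ : ℕ) ≠ p) →
        ∃ z : lrL (N * q), lrtCores N q hqN z = 0 ∧ lrtCoresEta N q hqN z = 0 ∧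
          lrtT (N * q) ℓ y - (W.apOfModel ℓ : ℤ) • y = (p : ℤ) • z

/-- **The frozen statement of S41 from STEP 3.** -/
theorem tas_result_of_step3 (h3 : tas_Step3)
    (E : WeierstrassCurve ℚ) [E.IsElliptic] {W : WeierstrassCurve ℤ} (hW : W.IsIntegralModelOf E)
    {p N q' : ℕ} (hp : p.Prime) (hp2 : p ≠ 2) (hN : 0 < N) (hq' : q'.Prime) (hq'N : ¬ q' ∣ N)
    (_hq'p : q' ≠ p)
    (hirr : GaloisRepIsIrreducible (K := AlgebraicClosure ℚ) ℚ E p)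
    (f : CuspForm (CongruenceSubgroup.Gamma0 N) 2) (𝔪 : Ideal (integralClosure ℤ ℂ))
    (hf : f.IsNormalizedEigenform) (hmax : 𝔪.IsMaximal) (hpm : (p : integralClosure ℤ ℂ) ∈ 𝔪)
    (hcong : ∀ ℓ : ℕ, ℓ.Prime → W.IsGoodPrimeFor ℓ → ¬ ℓ ∣ N → ℓ ≠ p →
      ∃ a : integralClosure ℤ ℂ, (a : ℂ) = ModularFormClass.qCoeff f ℓ ∧
        a - ((W.apOfModel ℓ : ℤ) : integralClosure ℤ ℂ) ∈ 𝔪)
    (hLR : ∃ a : integralClosure ℤ ℂ, (a : ℂ) = ModularFormClass.qCoeff f q' ∧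
      a ^ 2 - ((q' : integralClosure ℤ ℂ) + 1) ^ 2 ∈ 𝔪) :
    ∃ (g : CuspForm (CongruenceSubgroup.Gamma0 (N * q')) 2) (𝔪' : Ideal (integralClosure ℤ ℂ)),
      g.IsNormalizedEigenform ∧ 𝔪'.IsMaximal ∧ (p : integralClosure ℤ ℂ) ∈ 𝔪' ∧
      (∀ ℓ : ℕ, ℓ.Prime → W.IsGoodPrimeFor ℓ → ¬ ℓ ∣ N * q' → ℓ ≠ p →
        ∃ a : integralClosure ℤ ℂ, (a : ℂ) = ModularFormClass.qCoeff g ℓ ∧
          a - ((W.apOfModel ℓ : ℤ) : integralClosure ℤ ℂ) ∈ 𝔪') ∧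
      g.IsNewAt q' := by
  have : NeZero N := ⟨hN.ne'⟩
  have : Fact q'.Prime := ⟨hq'⟩
  obtain ⟨ε, v, hε, hv0, hvT, hvq⟩ := emq_top_step12 hp f 𝔪 hf hmax hpm hcong hLR
  obtain ⟨hanti, hperf, hadjRes, hadjEta⟩ := pdPair_package
  obtain ⟨y, hy1, hy2, hy0, hyT⟩ :=
    h3 hp hq'N (fun M _ => pdPair M) hanti hperf hadjRes hadjEta
      (fun x₁ x₂ h₁ h₂ hker => tas_hIhara E hW hp hp2 hq'N hirr x₁ x₂ h₁ h₂ hker)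
      ε v hε hv0 hvT hvq
  exact tpo_step45 hp hq'N y hy1 hy2 hy0 hyT

end Fermat.Agent.S41x
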