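/-
S41 project (level raising), block E, row E-DUAL (helper65):
specialisation of helper88's `rba_coker_of_duality` (S41x/RibetAlgDual.lean) to `O = ℤ`,
`𝔪 = (p)`, `P = X × X`, in the explicit shape consumed by the architect's TOP file.

* `tdu_mem_smul_top_iff`  : `v ∈ (p) • ⊤ ↔ ∃ z, v = p • z`;
* `tdu_bijective_of_flip` : for finite free modules, `B.flip` bijective ⇒ `B` bijective;
* `tdu_exists_finset_sum` : explicit form of membership in `⨆ i, range (D i)`;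
* `tdu_coker`             : the cokernel statement.
-/
import Fermat.Agent.S41x.RibetAlgDual

set_option autoImplicit false

namespace Fermat.Agent.S41x

open Module

section aux

variable {M : Type*} [AddCommGroup M]

/-- membership in `(p) • ⊤` is divisibility by `p` -/
theorem tdu_mem_smul_top_iff (p : ℤ) (v : M) :
    v ∈ (Ideal.span {p} : Ideal ℤ) • (⊤ : Submodule ℤ M) ↔ ∃ z : M, v = p • z := by
  rw [Submodule.ideal_span_singleton_smul, Submodule.mem_smul_pointwise_iff_exists]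
  constructor
  · rintro ⟨z, -, rfl⟩
    exact ⟨z, rfl⟩
  · rintro ⟨z, rfl⟩
    exact ⟨z, Submodule.mem_top, rfl⟩

/-- for finite free modules: if `x ↦ B(·, x)` is bijective then so is `x ↦ B(x, ·)` -/
theorem tdu_bijective_of_flip {N : Type*} [AddCommGroup N] [Module.Free ℤ M] [Module.Finite ℤ M]
    (B : M →ₗ[ℤ] N →ₗ[ℤ] ℤ) (h : Function.Bijective B.flip) : Function.Bijective B := by
  have h2 : B.flip.IsPerfPair := LinearMap.IsPerfPair.of_bijective B.flip h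
  have h3 := LinearMap.IsPerfPair.bijective_right B.flip
  rwa [LinearMap.flip_flip] at h3

/-- explicit form of membership in a supremum of ranges -/
theorem tdu_exists_finset_sum {ι : Type*} (D : ι → M →ₗ[ℤ] M) {t : M}
    (ht : t ∈ ⨆ i, LinearMap.range (D i)) :
    ∃ (s : Finset ι) (u : ι → M), t = ∑ i ∈ s, D i (u i) := by
  classical
  refine Submodule.iSup_induction (fun i => LinearMap.range (D i))
    (motive := fun t => ∃ (s : Finset ι) (u : ι → M), t = ∑ i ∈ s, D i (u i)) ht ?_ ?_ ?_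
  · rintro i x ⟨v, rfl⟩
    exact ⟨{i}, fun _ => v, by simp⟩
  · exact ⟨∅, fun _ => 0, by simp⟩
  · rintro x y ⟨s, u, rfl⟩ ⟨s', u', rfl⟩
    refine ⟨s ∪ s', fun i => (if i ∈ s then u i else 0) + (if i ∈ s' then u' i else 0), ?_⟩
    simp only [map_add, Finset.sum_add_distrib]
    congr 1
    · rw [← Finset.sum_subset (Finset.subset_union_left (s₁ := s) (s₂ := s'))]
      · exact Finset.sum_congr rfl fun i hi => by rw [if_pos hi]
      · intro i _ hi
        rw [if_neg hi, map_zero]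
    · rw [← Finset.sum_subset (Finset.subset_union_right (s₁ := s) (s₂ := s'))]
      · exact Finset.sum_congr rfl fun i hi => by rw [if_pos hi]
      · intro i _ hi
        rw [if_neg hi, map_zero]

end aux

section main

variable {X Y : Type*} [AddCommGroup X] [AddCommGroup Y]

/-- the orthogonal sum of a pairing with itself on `X × X` -/
def tdu_BP (BX : X →ₗ[ℤ] X →ₗ[ℤ] ℤ) : (X × X) →ₗ[ℤ] (X × X) →ₗ[ℤ] ℤ :=
  BX.compl₁₂ (LinearMap.fst ℤ X X) (LinearMap.fst ℤ X X) +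
    BX.compl₁₂ (LinearMap.snd ℤ X X) (LinearMap.snd ℤ X X)

@[simp] theorem tdu_BP_apply (BX : X →ₗ[ℤ] X →ₗ[ℤ] ℤ) (x c : X × X) :
    tdu_BP BX x c = BX x.1 c.1 + BX x.2 c.2 := rfl

theorem tdu_BP_bijective (BX : X →ₗ[ℤ] X →ₗ[ℤ] ℤ) (h : Function.Bijective BX) :
    Function.Bijective (tdu_BP BX) := by
  constructor
  · intro x x' hxx'
    have h1 : BX x.1 = BX x'.1 := by
      ext c
      have := congrArg (fun f : (X × X) →ₗ[ℤ] ℤ => f (c, 0)) hxx'
      simpa using this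
    have h2 : BX x.2 = BX x'.2 := by
      ext c
      have := congrArg (fun f : (X × X) →ₗ[ℤ] ℤ => f (0, c)) hxx'
      simpa using this
    exact Prod.ext (h.1 h1) (h.1 h2)
  · intro f
    obtain ⟨x₁, hx₁⟩ := h.2 (f ∘ₗ LinearMap.inl ℤ X X)
    obtain ⟨x₂, hx₂⟩ := h.2 (f ∘ₗ LinearMap.inr ℤ X X)
    refine ⟨(x₁, x₂), ?_⟩
    ext c
    · simp [hx₁]
    · simp [hx₂]

/-- E-DUAL: duality + Ihara ⇒ the cokernel of `β = (β₁, β₂)` modulo `p` has no `a`-coinvariants. -/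
theorem tdu_coker [Module.Free ℤ X] [Module.Finite ℤ X] [Module.Free ℤ Y] [Module.Finite ℤ Y]
    {ι : Type*} (TX : ι → Module.End ℤ X) (α₁ α₂ : X →ₗ[ℤ] Y) (β₁ β₂ : Y →ₗ[ℤ] X)
    (BX : X →ₗ[ℤ] X →ₗ[ℤ] ℤ) (BY : Y →ₗ[ℤ] Y →ₗ[ℤ] ℤ)
    (hBX : Function.Bijective (fun x : X => BX.flip x))
    (hBY : Function.Bijective (fun y : Y => BY.flip y))
    (hadj₁ : ∀ x y, BY (α₁ x) y = BX x (β₁ y)) (hadj₂ : ∀ x y, BY (α₂ x) y = BX x (β₂ y))
    (hsa : ∀ i x x', BX (TX i x) x' = BX x (TX i x'))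
    (p : ℕ) (hp : p.Prime) (a : ι → ℤ)
    (hIhara : ∀ x₁ x₂ : X, (∀ i, ∃ z, TX i x₁ - a i • x₁ = (p : ℤ) • z) →
      (∀ i, ∃ z, TX i x₂ - a i • x₂ = (p : ℤ) • z) → (∃ y, α₁ x₁ + α₂ x₂ = (p : ℤ) • y) →
      (∃ z, x₁ = (p : ℤ) • z) ∧ (∃ z, x₂ = (p : ℤ) • z)) :
    ∀ c : X × X, ∃ (w : X × X) (y : Y) (s : Finset ι) (u : ι → X × X),
      c = (p : ℤ) • w + (β₁ y, β₂ y) +
        ∑ i ∈ s, ((TX i (u i).1, TX i (u i).2) - a i • u i) := by
  classical
  intro c
  have hpZ : Prime (p : ℤ) := Nat.prime_iff_prime_int.mp hp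
  have h𝔪 : (Ideal.span {(p : ℤ)} : Ideal ℤ).IsMaximal :=
    PrincipalIdealRing.isMaximal_of_irreducible hpZ.irreducible
  have hBX' : Function.Bijective BX := tdu_bijective_of_flip BX hBX
  have hBY' : Function.Bijective BY := tdu_bijective_of_flip BY hBY
  have hBP : Function.Bijective (tdu_BP BX) := tdu_BP_bijective BX hBX'
  have key := rba_coker_of_duality (Ideal.span {(p : ℤ)})
    (fun i => (TX i).prodMap (TX i)) (α₁.coprod α₂) (β₁.prod β₂) (tdu_BP BX) BY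
    (fun x y => by
      show BY (α₁ x.1 + α₂ x.2) y = BX x.1 (β₁ y) + BX x.2 (β₂ y)
      rw [map_add, LinearMap.add_apply, hadj₁, hadj₂])
    (fun i x c => by
      simp only [tdu_BP_apply, LinearMap.prodMap_apply, hsa])
    (rba_perf_of_bijective _ (tdu_BP BX) hBP)
    (rba_nondeg_of_bijective _ BY hBY')
    (rba_nondeg_of_bijective _ (tdu_BP BX) hBP)
    a
    (fun x hT hα => by
      rw [tdu_mem_smul_top_iff] at hα ⊢
      have h1 : ∀ i, ∃ z, TX i x.1 - a i • x.1 = (p : ℤ) • z := by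
        intro i
        obtain ⟨z, hz⟩ := (tdu_mem_smul_top_iff _ _).mp (hT i)
        exact ⟨z.1, by simpa using congrArg Prod.fst hz⟩
      have h2 : ∀ i, ∃ z, TX i x.2 - a i • x.2 = (p : ℤ) • z := by
        intro i
        obtain ⟨z, hz⟩ := (tdu_mem_smul_top_iff _ _).mp (hT i)
        exact ⟨z.2, by simpa using congrArg Prod.snd hz⟩
      obtain ⟨⟨z₁, hz₁⟩, ⟨z₂, hz₂⟩⟩ := hIhara x.1 x.2 h1 h2 (by simpa using hα)
      exact ⟨(z₁, z₂), Prod.ext (by simpa using hz₁) (by simpa using hz₂)⟩)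
    c
  obtain ⟨mb, hmb, t, ht, rfl⟩ := Submodule.mem_sup.mp key
  obtain ⟨m, hm, b, ⟨y, rfl⟩, rfl⟩ := Submodule.mem_sup.mp hmb
  obtain ⟨w, rfl⟩ := (tdu_mem_smul_top_iff _ _).mp hm
  obtain ⟨s, u, rfl⟩ := tdu_exists_finset_sum
    (fun i => ((TX i).prodMap (TX i) - a i • (1 : Module.End ℤ (X × X)))) ht
  exact ⟨w, y, s, u, rfl⟩

end main

end Fermat.Agent.S41x
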