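/-
S41 (level raising), block E, row E-POLY — insurance TWIN (helper82), prefix `tpb_`.
`MvPolynomial ι ℤ` acting on an abelian group `X` through a commuting family
`T : ι → Module.End ℤ X`.  Mathlib only.  Same statements as helper20's E-POLY contract
(`tpa_*` of helper6), under the prefix `tpb_`.
-/
import Mathlib

set_option autoImplicit false

namespace Fermat.Agent.S41x


section action

variable {X : Type*} [AddCommGroup X] {ι : Type*} (T : ι → Module.End ℤ X)
  (hcomm : ∀ i j, Commute (T i) (T j))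

/-- the commutative subalgebra generated by the family -/
abbrev tpb_alg : Subalgebra ℤ (Module.End ℤ X) := Algebra.adjoin ℤ (Set.range T)

include hcomm in
theorem tpb_comm_range : ∀ a ∈ Set.range T, ∀ b ∈ Set.range T, a * b = b * a := by
  rintro _ ⟨i, rfl⟩ _ ⟨j, rfl⟩
  exact (hcomm i j).eq

/-- the generators inside the subalgebra -/
def tpb_gen (i : ι) : tpb_alg T := ⟨T i, Algebra.subset_adjoin ⟨i, rfl⟩⟩

/-- `MvPolynomial ι ℤ → End_ℤ X`, `X_i ↦ T i` -/
noncomputable def tpb_ringHom : MvPolynomial ι ℤ →+* Module.End ℤ X :=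
  letI : CommRing (tpb_alg T) := Algebra.adjoinCommRingOfComm ℤ (tpb_comm_range T hcomm)
  (tpb_alg T).val.toRingHom.comp (MvPolynomial.aeval (tpb_gen T)).toRingHom

theorem tpb_ringHom_X (i : ι) : tpb_ringHom T hcomm (MvPolynomial.X i) = T i := by
  letI : CommRing (tpb_alg T) := Algebra.adjoinCommRingOfComm ℤ (tpb_comm_range T hcomm)
  show ((MvPolynomial.aeval (tpb_gen T) (MvPolynomial.X i : MvPolynomial ι ℤ) : tpb_alg T) : Module.End ℤ X) = T i
  rw [MvPolynomial.aeval_X]
  rfl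

theorem tpb_ringHom_C (n : ℤ) : tpb_ringHom T hcomm (MvPolynomial.C n) = n • (1 : Module.End ℤ X) := by
  rw [← Int.cast_smul_eq_zsmul ℤ n (1 : Module.End ℤ X)]
  have h : (MvPolynomial.C n : MvPolynomial ι ℤ) = ((n : ℤ) : MvPolynomial ι ℤ) := by simp
  rw [h, map_intCast]
  simp

theorem tpb_ringHom_X_apply (i : ι) (x : X) : tpb_ringHom T hcomm (MvPolynomial.X i) x = T i x := by
  rw [tpb_ringHom_X]

theorem tpb_ringHom_C_apply (n : ℤ) (x : X) : tpb_ringHom T hcomm (MvPolynomial.C n) x = n • x := by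
  rw [tpb_ringHom_C]
  simp

end action

section lemmas

variable {X : Type*} [AddCommGroup X] {ι : Type*} (T : ι → Module.End ℤ X)
  (hcomm : ∀ i j, Commute (T i) (T j))

theorem tpb_ringHom_mul_X_apply (P : MvPolynomial ι ℤ) (i : ι) (x : X) :
    tpb_ringHom T hcomm (P * MvPolynomial.X i) x = tpb_ringHom T hcomm P (T i x) := by
  rw [map_mul, Module.End.mul_apply, tpb_ringHom_X]

theorem tpb_ringHom_X_mul_apply (P : MvPolynomial ι ℤ) (i : ι) (x : X) :
    tpb_ringHom T hcomm (P * MvPolynomial.X i) x = T i (tpb_ringHom T hcomm P x) := by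
  rw [mul_comm, map_mul, Module.End.mul_apply, tpb_ringHom_X]

/-- the generators commute with everything -/
theorem tpb_comm_apply (P : MvPolynomial ι ℤ) (i : ι) (x : X) :
    T i (tpb_ringHom T hcomm P x) = tpb_ringHom T hcomm P (T i x) := by
  rw [← tpb_ringHom_X_mul_apply, tpb_ringHom_mul_X_apply]

/-- intertwining maps intertwine the polynomial actions -/
theorem tpb_intertwine {Y : Type*} [AddCommGroup Y] (TY : ι → Module.End ℤ Y)
    (hcommY : ∀ i j, Commute (TY i) (TY j)) (f : X →ₗ[ℤ] Y)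
    (hf : ∀ i x, f (T i x) = TY i (f x)) (P : MvPolynomial ι ℤ) (x : X) :
    f (tpb_ringHom T hcomm P x) = tpb_ringHom TY hcommY P (f x) := by
  induction P using MvPolynomial.induction_on generalizing x with
  | C n => rw [tpb_ringHom_C_apply, tpb_ringHom_C_apply, map_zsmul]
  | add P Q hP hQ => rw [map_add, map_add, LinearMap.add_apply, LinearMap.add_apply, map_add, hP, hQ]
  | mul_X P i hP =>
    rw [tpb_ringHom_mul_X_apply, tpb_ringHom_mul_X_apply, hP, hf]

/-- a mod-`p` eigenvector for the generators is a mod-`p` eigenvector for every polynomial -/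
theorem tpb_eigen_mod (p : ℕ) (a : ι → ℤ) (z : X)
    (hz : ∀ i, ∃ w, T i z - a i • z = (p : ℤ) • w) (P : MvPolynomial ι ℤ) :
    ∃ w, tpb_ringHom T hcomm P z - (MvPolynomial.eval a P) • z = (p : ℤ) • w := by
  induction P using MvPolynomial.induction_on with
  | C n =>
    refine ⟨0, ?_⟩
    rw [tpb_ringHom_C_apply, MvPolynomial.eval_C, sub_self, smul_zero]
  | add P Q hP hQ =>
    obtain ⟨w, hw⟩ := hP
    obtain ⟨w', hw'⟩ := hQ
    refine ⟨w + w', ?_⟩
    rw [map_add, LinearMap.add_apply, map_add, add_smul, smul_add, ← hw, ← hw']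
    abel
  | mul_X P i hP =>
    obtain ⟨w, hw⟩ := hP
    obtain ⟨wi, hwi⟩ := hz i
    refine ⟨a i • w + tpb_ringHom T hcomm P wi, ?_⟩
    have h1 : T i z = a i • z + (p : ℤ) • wi := by rw [← hwi]; abel
    have h2 : tpb_ringHom T hcomm P z = (MvPolynomial.eval a P) • z + (p : ℤ) • w := by
      rw [← hw]; abel
    rw [tpb_ringHom_mul_X_apply, h1, map_add, map_zsmul, map_zsmul, h2, map_mul,
      MvPolynomial.eval_X, smul_add, smul_add, mul_smul, smul_comm (a i) (p : ℤ) w,
      smul_comm (a i) (MvPolynomial.eval a P) z]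
    abel

/-- self-adjointness passes to polynomials -/
theorem tpb_selfadjoint (B : X →ₗ[ℤ] X →ₗ[ℤ] ℤ) (h : ∀ i x y, B (T i x) y = B x (T i y))
    (P : MvPolynomial ι ℤ) (x y : X) :
    B (tpb_ringHom T hcomm P x) y = B x (tpb_ringHom T hcomm P y) := by
  induction P using MvPolynomial.induction_on generalizing x y with
  | C n =>
    rw [tpb_ringHom_C_apply, tpb_ringHom_C_apply, map_zsmul, map_zsmul, LinearMap.smul_apply]
  | add P Q hP hQ =>
    rw [map_add, LinearMap.add_apply, LinearMap.add_apply, map_add, map_add, LinearMap.add_apply,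
      hP, hQ]
  | mul_X P i hP =>
    rw [tpb_ringHom_mul_X_apply, hP, h, tpb_comm_apply, ← tpb_ringHom_mul_X_apply]

/-- stable submodules are stable under polynomials -/
theorem tpb_ker_stable {K : Submodule ℤ X} (hK : ∀ i, ∀ x ∈ K, T i x ∈ K)
    (P : MvPolynomial ι ℤ) : ∀ x ∈ K, tpb_ringHom T hcomm P x ∈ K := by
  induction P using MvPolynomial.induction_on with
  | C n =>
    intro x hx
    rw [tpb_ringHom_C_apply]
    exact K.smul_mem n hx
  | add P Q hP hQ =>
    intro x hx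
    rw [map_add, LinearMap.add_apply]
    exact K.add_mem (hP x hx) (hQ x hx)
  | mul_X P i hP =>
    intro x hx
    rw [tpb_ringHom_mul_X_apply]
    exact hP _ (hK i x hx)

/-- the module structure over the polynomial ring -/
noncomputable abbrev tpb_module : Module (MvPolynomial ι ℤ) X :=
  Module.compHom X (tpb_ringHom T hcomm)

theorem tpb_smul_def (P : MvPolynomial ι ℤ) (x : X) :
    letI := tpb_module T hcomm
    P • x = tpb_ringHom T hcomm P x := rfl

end lemmas

section modp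

variable {ι : Type*}

/-- evaluation at `a` modulo `p` -/
noncomputable def tpb_evalModP (p : ℕ) (a : ι → ℤ) : MvPolynomial ι ℤ →+* ZMod p :=
  MvPolynomial.eval₂Hom (Int.castRingHom (ZMod p)) (fun i => ((a i : ℤ) : ZMod p))

theorem tpb_evalModP_eq (p : ℕ) (a : ι → ℤ) (P : MvPolynomial ι ℤ) :
    tpb_evalModP p a P = ((MvPolynomial.eval a P : ℤ) : ZMod p) := by
  have h := MvPolynomial.eval₂_comp_left (Int.castRingHom (ZMod p)) (RingHom.id ℤ) a P
  simp only [RingHom.comp_id] at h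
  show MvPolynomial.eval₂ (Int.castRingHom (ZMod p)) (fun i => ((a i : ℤ) : ZMod p)) P = _
  rw [show ((MvPolynomial.eval a P : ℤ) : ZMod p) =
    Int.castRingHom (ZMod p) (MvPolynomial.eval₂ (RingHom.id ℤ) a P) from rfl, h]
  rfl

theorem tpb_mem_ker_iff (p : ℕ) (a : ι → ℤ) (P : MvPolynomial ι ℤ) :
    P ∈ RingHom.ker (tpb_evalModP p a) ↔ (p : ℤ) ∣ MvPolynomial.eval a P := by
  rw [RingHom.mem_ker, tpb_evalModP_eq, ZMod.intCast_zmod_eq_zero_iff_dvd]

theorem tpb_evalModP_surjective (p : ℕ) (a : ι → ℤ) :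
    Function.Surjective (tpb_evalModP (ι := ι) p a) := by
  intro c
  obtain ⟨n, rfl⟩ := ZMod.intCast_surjective c
  refine ⟨MvPolynomial.C n, ?_⟩
  rw [tpb_evalModP_eq, MvPolynomial.eval_C]

theorem tpb_ker_isMaximal (p : ℕ) [Fact p.Prime] (a : ι → ℤ) :
    (RingHom.ker (tpb_evalModP (ι := ι) p a)).IsMaximal :=
  RingHom.ker_isMaximal_of_surjective _ (tpb_evalModP_surjective p a)

theorem tpb_p_mem_ker (p : ℕ) (a : ι → ℤ) :
    ((p : ℕ) : MvPolynomial ι ℤ) ∈ RingHom.ker (tpb_evalModP (ι := ι) p a) := by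
  rw [RingHom.mem_ker, map_natCast, ZMod.natCast_self]

theorem tpb_X_sub_C_mem_ker (p : ℕ) (a : ι → ℤ) (i : ι) :
    (MvPolynomial.X i - MvPolynomial.C (a i) : MvPolynomial ι ℤ) ∈
      RingHom.ker (tpb_evalModP (ι := ι) p a) := by
  rw [tpb_mem_ker_iff, map_sub, MvPolynomial.eval_X, MvPolynomial.eval_C, sub_self]
  exact dvd_zero _

variable {X : Type*} [AddCommGroup X] (T : ι → Module.End ℤ X)
  (hcomm : ∀ i j, Commute (T i) (T j))

/-- the kernel of evaluation mod `p` maps a mod-`p` eigenvector into `p X` -/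
theorem tpb_ker_smul (p : ℕ) (a : ι → ℤ) (z : X)
    (hz : ∀ i, ∃ w, T i z - a i • z = (p : ℤ) • w) (P : MvPolynomial ι ℤ)
    (hP : P ∈ RingHom.ker (tpb_evalModP p a)) :
    ∃ w, tpb_ringHom T hcomm P z = (p : ℤ) • w := by
  obtain ⟨w, hw⟩ := tpb_eigen_mod T hcomm p a z hz P
  obtain ⟨k, hk⟩ := (tpb_mem_ker_iff p a P).mp hP
  refine ⟨k • z + w, ?_⟩
  have h : tpb_ringHom T hcomm P z = (MvPolynomial.eval a P) • z + (p : ℤ) • w := by
    rw [← hw]; abel
  rw [h, hk, mul_smul, smul_add]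

/-- conversely -/
theorem tpb_eigen_of_ker (p : ℕ) (a : ι → ℤ) (z : X)
    (h : ∀ P ∈ RingHom.ker (tpb_evalModP (ι := ι) p a), ∃ w, tpb_ringHom T hcomm P z = (p : ℤ) • w) :
    ∀ i, ∃ w, T i z - a i • z = (p : ℤ) • w := by
  intro i
  obtain ⟨w, hw⟩ := h _ (tpb_X_sub_C_mem_ker p a i)
  refine ⟨w, ?_⟩
  rw [← hw, map_sub, LinearMap.sub_apply, tpb_ringHom_X_apply, tpb_ringHom_C_apply]

end modp

end Fermat.Agent.S41x
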