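/-
S41 project (level raising), block E / TOP, STEP 3 (helper67, prefix `tkv_`):
instantiation of the abstract Ribet lemma `rba_main_perfect` (helper88, RibetAlgZ) with
`X = lrL N`, `Y = lrL (N q)`, `R = MvPolynomial ι ℤ` acting through the good Hecke operators
(`tpb_module`, helper82), `α = (lrtRes, lrtResEta)`, `β = (lrtCores, lrtCoresEta)`, `Tq = lrtT N q`.
The C-package (`pd`, `hanti`, `hperf`, `hadjRes`, `hadjEta`) and `hIhara` are ARGUMENTS, exactly as in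
`LRTopSpec.top_step3` (with `topGood W (N * q) p ℓ` unfolded to
`W.IsGoodPrimeFor ℓ ∧ ¬ (ℓ : ℕ) ∣ N * q ∧ (ℓ : ℕ) ≠ p`).
-/
import Fermat.Agent.S41x.LRTopDefs
import Fermat.Agent.S41x.RibetAlgZ
import Fermat.Agent.S41x.TopPolyActionB
import Fermat.Agent.S41x.TopSelfAdj
import Fermat.Agent.S41x.LatHomBase
import Fermat.Agent.S41x.CohLevelB2
import Fermat.Prelude.Def_FLTPrelim_ModularRep

set_option autoImplicit false
set_option linter.style.haveILetI false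
set_option linter.unusedSectionVars false

namespace Fermat.Agent.S41x

open scoped MatrixGroups
open CongruenceSubgroup ModularCurve ModularCurve.Period
open WeierstrassCurve

section setup

variable (N q : ℕ) [NeZero N] [Fact q.Prime] (hqN : ¬ q ∣ N)

theorem tkv_ne_of_not_dvd_mul {ℓ : ℕ} (h : ¬ ℓ ∣ N * q) : ℓ ≠ q := by
  rintro rfl
  exact h (Dvd.intro_left _ rfl)

/-- (B2) on the lattices -/
theorem tkv_res_T (ℓ : Nat.Primes) (hℓ : (ℓ : ℕ) ≠ q) (x : lrL N) :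
    lrtRes N q (lrtT N ℓ x) = lrtT (N * q) ℓ (lrtRes N q x) :=
  Subtype.ext (lrb2_res N q ℓ hℓ x.1)

theorem tkv_resEta_T (ℓ : Nat.Primes) (hℓ : (ℓ : ℕ) ≠ q) (x : lrL N) :
    lrtResEta N q (lrtT N ℓ x) = lrtT (N * q) ℓ (lrtResEta N q x) :=
  Subtype.ext (lrb2_resEta N q ℓ hℓ x.1)

theorem tkv_cores_T (ℓ : Nat.Primes) (hℓ : (ℓ : ℕ) ≠ q) (y : lrL (N * q)) :
    lrtCores N q hqN (lrtT (N * q) ℓ y) = lrtT N ℓ (lrtCores N q hqN y) :=
  Subtype.ext (lrb2_cores N q hqN ℓ hℓ y.1)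

theorem tkv_coresEta_T (ℓ : Nat.Primes) (hℓ : (ℓ : ℕ) ≠ q) (y : lrL (N * q)) :
    lrtCoresEta N q hqN (lrtT (N * q) ℓ y) = lrtT N ℓ (lrtCoresEta N q hqN y) :=
  Subtype.ext (lrb2_coresEta N q hqN ℓ hℓ y.1)

/-- (B1) on the lattices -/
theorem tkv_cores_res (x : lrL N) :
    lrtCores N q hqN (lrtRes N q x) = ((q : ℤ) + 1) • x := by
  apply Subtype.ext
  rw [lrtCores_coe, lrtRes_coe, lrCores_lrRes]
  have : ((q : ℤ) + 1) = ((q + 1 : ℕ) : ℤ) := by push_cast; ring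
  rw [this, natCast_zsmul]
  rfl

theorem tkv_coresEta_resEta (x : lrL N) :
    lrtCoresEta N q hqN (lrtResEta N q x) = ((q : ℤ) + 1) • x := by
  apply Subtype.ext
  rw [lrtCoresEta_coe, lrtResEta_coe, lrCoresEta_lrResEta]
  have : ((q : ℤ) + 1) = ((q + 1 : ℕ) : ℤ) := by push_cast; ring
  rw [this, natCast_zsmul]
  rfl

theorem tkv_cores_resEta (x : lrL N) :
    lrtCores N q hqN (lrtResEta N q x) = lrtT N (lrPrime q) x :=
  Subtype.ext (lrCores_lrResEta N q hqN x.1)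

theorem tkv_coresEta_res (x : lrL N) :
    lrtCoresEta N q hqN (lrtRes N q x) = lrtT N (lrPrime q) x :=
  Subtype.ext (lrCoresEta_lrRes N q hqN x.1)

end setup

section main

set_option maxHeartbeats 1600000 in
/-- **STEP 3** of the proof of S41 (`LRTopSpec.top_step3`): Ribet's lemma on the lattices
`lrL N`, `lrL (N q)`. -/
theorem tkv_step3 {W : WeierstrassCurve ℤ} {p N q : ℕ} [NeZero N] [Fact q.Prime] (hp : p.Prime)
    (hqN : ¬ q ∣ N)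
    (pd : ∀ (M : ℕ) [NeZero M], lrL M →ₗ[ℤ] lrL M →ₗ[ℤ] ℤ)
    (hanti : ∀ (M : ℕ) [NeZero M] (x y : lrL M), pd M x y = - pd M y x)
    (hperf : ∀ (M : ℕ) [NeZero M], Function.Bijective (fun y : lrL M => (pd M).flip y))
    (hadjRes : ∀ (M ℓ : ℕ) [NeZero M] [Fact ℓ.Prime] (hℓM : ¬ ℓ ∣ M) (x : lrL M) (y : lrL (M * ℓ)),
      pd (M * ℓ) (lrtRes M ℓ x) y = pd M x (lrtCores M ℓ hℓM y))
    (hadjEta : ∀ (M ℓ : ℕ) [NeZero M] [Fact ℓ.Prime] (hℓM : ¬ ℓ ∣ M) (x : lrL M) (y : lrL (M * ℓ)),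
      pd (M * ℓ) (lrtResEta M ℓ x) y = pd M x (lrtCoresEta M ℓ hℓM y))
    (hIhara : ∀ x₁ x₂ : lrL N,
      (∀ ℓ : Nat.Primes, (W.IsGoodPrimeFor ℓ ∧ ¬ (ℓ : ℕ) ∣ N * q ∧ (ℓ : ℕ) ≠ p) →
        ∃ z : lrL N, lrtT N ℓ x₁ - (W.apOfModel ℓ : ℤ) • x₁ = (p : ℤ) • z) →
      (∀ ℓ : Nat.Primes, (W.IsGoodPrimeFor ℓ ∧ ¬ (ℓ : ℕ) ∣ N * q ∧ (ℓ : ℕ) ≠ p) →
        ∃ z : lrL N, lrtT N ℓ x₂ - (W.apOfModel ℓ : ℤ) • x₂ = (p : ℤ) • z) →
      (∃ y : lrL (N * q), lrtRes N q x₁ + lrtResEta N q x₂ = (p : ℤ) • y) →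
      (∃ z : lrL N, x₁ = (p : ℤ) • z) ∧ (∃ z : lrL N, x₂ = (p : ℤ) • z))
    (ε : ℤ) (v : lrL N) (hε : ε = 1 ∨ ε = -1) (hv : ¬ ∃ w : lrL N, v = (p : ℤ) • w)
    (hvT : ∀ ℓ : Nat.Primes, (W.IsGoodPrimeFor ℓ ∧ ¬ (ℓ : ℕ) ∣ N * q ∧ (ℓ : ℕ) ≠ p) →
        ∃ w : lrL N, lrtT N ℓ v - (W.apOfModel ℓ : ℤ) • v = (p : ℤ) • w)
    (hvq : ∃ w : lrL N, lrtT N (lrPrime q) v - (ε * ((q : ℤ) + 1)) • v = (p : ℤ) • w) :
    ∃ y : lrL (N * q), lrtCores N q hqN y = 0 ∧ lrtCoresEta N q hqN y = 0 ∧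
      (¬ ∃ z : lrL (N * q), y = (p : ℤ) • z) ∧
      ∀ ℓ : Nat.Primes, (W.IsGoodPrimeFor ℓ ∧ ¬ (ℓ : ℕ) ∣ N * q ∧ (ℓ : ℕ) ≠ p) →
        ∃ z : lrL (N * q), lrtCores N q hqN z = 0 ∧ lrtCoresEta N q hqN z = 0 ∧
          lrtT (N * q) ℓ y - (W.apOfModel ℓ : ℤ) • y = (p : ℤ) • z := by
  classical
  -- the index set of good primes and the two commuting families
  let ι : Type := {ℓ : Nat.Primes // W.IsGoodPrimeFor ℓ ∧ ¬ (ℓ : ℕ) ∣ N * q ∧ (ℓ : ℕ) ≠ p}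
  let TX : ι → Module.End ℤ (lrL N) := fun i => lrtT N i.1
  let TY : ι → Module.End ℤ (lrL (N * q)) := fun i => lrtT (N * q) i.1
  have hcX : ∀ i j, Commute (TX i) (TX j) := fun i j => lrtT_comm N i.1 j.1
  have hcY : ∀ i j, Commute (TY i) (TY j) := fun i j => lrtT_comm (N * q) i.1 j.1
  have hiq : ∀ i : ι, ((i.1 : Nat.Primes) : ℕ) ≠ q := fun i => tkv_ne_of_not_dvd_mul N q i.2.2.1
  letI mX : Module (MvPolynomial ι ℤ) (lrL N) := tpb_module TX hcX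
  letI mY : Module (MvPolynomial ι ℤ) (lrL (N * q)) := tpb_module TY hcY
  haveI : Module.Finite ℤ (lrL N) := lhb_finite_par (Gamma0 N)
  haveI : Module.Free ℤ (lrL N) := lhb_free_par (Gamma0 N)
  haveI : Module.Finite ℤ (lrL (N * q)) := lhb_finite_par (Gamma0 (N * q))
  haveI : Module.Free ℤ (lrL (N * q)) := lhb_free_par (Gamma0 (N * q))
  have hsX : ∀ (P : MvPolynomial ι ℤ) (x : lrL N), P • x = tpb_ringHom TX hcX P x := fun _ _ => rfl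
  have hsY : ∀ (P : MvPolynomial ι ℤ) (y : lrL (N * q)), P • y = tpb_ringHom TY hcY P y :=
    fun _ _ => rfl
  have hXi : ∀ (i : ι) (x : lrL N), (MvPolynomial.X i : MvPolynomial ι ℤ) • x = lrtT N i.1 x :=
    fun i x => by rw [hsX, tpb_ringHom_X_apply]
  have hYi : ∀ (i : ι) (y : lrL (N * q)),
      (MvPolynomial.X i : MvPolynomial ι ℤ) • y = lrtT (N * q) i.1 y :=
    fun i y => by rw [hsY, tpb_ringHom_X_apply]
  -- the linear maps over the polynomial ring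
  let α₁ : lrL N →ₗ[MvPolynomial ι ℤ] lrL (N * q) :=
    { toFun := lrtRes N q
      map_add' := map_add _
      map_smul' := fun P x => by
        rw [hsX, hsY]
        exact tpb_intertwine TX hcX TY hcY (lrtRes N q)
          (fun i x => tkv_res_T N q i.1 (hiq i) x) P x }
  let α₂ : lrL N →ₗ[MvPolynomial ι ℤ] lrL (N * q) :=
    { toFun := lrtResEta N q
      map_add' := map_add _
      map_smul' := fun P x => by
        rw [hsX, hsY]
        exact tpb_intertwine TX hcX TY hcY (lrtResEta N q)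
          (fun i x => tkv_resEta_T N q i.1 (hiq i) x) P x }
  let β₁ : lrL (N * q) →ₗ[MvPolynomial ι ℤ] lrL N :=
    { toFun := lrtCores N q hqN
      map_add' := map_add _
      map_smul' := fun P y => by
        rw [hsX, hsY]
        exact tpb_intertwine TY hcY TX hcX (lrtCores N q hqN)
          (fun i y => tkv_cores_T N q hqN i.1 (hiq i) y) P y }
  let β₂ : lrL (N * q) →ₗ[MvPolynomial ι ℤ] lrL N :=
    { toFun := lrtCoresEta N q hqN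
      map_add' := map_add _
      map_smul' := fun P y => by
        rw [hsX, hsY]
        exact tpb_intertwine TY hcY TX hcX (lrtCoresEta N q hqN)
          (fun i y => tkv_coresEta_T N q hqN i.1 (hiq i) y) P y }
  let Tq : lrL N →ₗ[MvPolynomial ι ℤ] lrL N :=
    { toFun := lrtT N (lrPrime q)
      map_add' := map_add _
      map_smul' := fun P x => by
        rw [hsX, hsX]
        exact tpb_intertwine TX hcX TX hcX (lrtT N (lrPrime q))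
          (fun i x => by
            have := lrtT_comm N (lrPrime q) i.1
            exact LinearMap.congr_fun this x) P x }
  -- self-adjointness of the good Hecke operators on `Y`
  have hself : ∀ (i : ι) (y y' : lrL (N * q)),
      pd (N * q) ((MvPolynomial.X i : MvPolynomial ι ℤ) • y) y' =
        pd (N * q) y ((MvPolynomial.X i : MvPolynomial ι ℤ) • y') := by
    intro i y y'
    rw [hYi, hYi]
    haveI : Fact ((i.1 : Nat.Primes) : ℕ).Prime := ⟨i.1.2⟩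
    have hℓM : ¬ ((i.1 : Nat.Primes) : ℕ) ∣ N * q := i.2.2.1
    have h := tsa_lrT_selfadj (N * q) ((i.1 : Nat.Primes) : ℕ) hℓM
      (fun a b => pd (N * q) a b) (fun a b => pd (N * q * ((i.1 : Nat.Primes) : ℕ)) a b)
      (fun a b => hanti (N * q) a b) (fun a b => hanti (N * q * ((i.1 : Nat.Primes) : ℕ)) a b)
      (fun a b => hadjRes (N * q) ((i.1 : Nat.Primes) : ℕ) hℓM a b)
      (fun a b => hadjEta (N * q) ((i.1 : Nat.Primes) : ℕ) hℓM a b) y y'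
    have e : lrPrime ((i.1 : Nat.Primes) : ℕ) = i.1 := Subtype.ext rfl
    rw [e] at h
    exact h
  -- apply the abstract Ribet lemma
  have h11 : ∀ x, β₁ (α₁ x) = ((q : ℤ) + 1) • x := fun x => tkv_cores_res N q hqN x
  have h22 : ∀ x, β₂ (α₂ x) = ((q : ℤ) + 1) • x := fun x => tkv_coresEta_resEta N q hqN x
  have h12 : ∀ x, β₁ (α₂ x) = Tq x := fun x => tkv_cores_resEta N q hqN x
  have h21 : ∀ x, β₂ (α₁ x) = Tq x := fun x => tkv_coresEta_res N q hqN x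
  have hadj₁ : ∀ x y, pd (N * q) (α₁ x) y = pd N x (β₁ y) := fun x y => hadjRes N q hqN x y
  have hadj₂ : ∀ x y, pd (N * q) (α₂ x) y = pd N x (β₂ y) := fun x y => hadjEta N q hqN x y
  have hI : ∀ x₁ x₂ : lrL N,
      (∀ i : ι, ∃ z, (MvPolynomial.X i : MvPolynomial ι ℤ) • x₁ - (W.apOfModel i.1 : ℤ) • x₁ =
        (p : ℤ) • z) →
      (∀ i : ι, ∃ z, (MvPolynomial.X i : MvPolynomial ι ℤ) • x₂ - (W.apOfModel i.1 : ℤ) • x₂ =
        (p : ℤ) • z) →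
      (∃ y, α₁ x₁ + α₂ x₂ = (p : ℤ) • y) →
      (∃ z, x₁ = (p : ℤ) • z) ∧ (∃ z, x₂ = (p : ℤ) • z) := by
    intro x₁ x₂ h₁ h₂ h₃
    refine hIhara x₁ x₂ (fun ℓ hℓ => ?_) (fun ℓ hℓ => ?_) h₃
    · obtain ⟨z, hz⟩ := h₁ ⟨ℓ, hℓ⟩
      exact ⟨z, by rw [← hz, hXi]⟩
    · obtain ⟨z, hz⟩ := h₂ ⟨ℓ, hℓ⟩
      exact ⟨z, by rw [← hz, hXi]⟩
  have hvT' : ∀ i : ι, ∃ z, (MvPolynomial.X i : MvPolynomial ι ℤ) • v - (W.apOfModel i.1 : ℤ) • v =
      (p : ℤ) • z := by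
    intro i
    obtain ⟨w, hw⟩ := hvT i.1 i.2
    exact ⟨w, by rw [hXi]; exact hw⟩
  have hvq' : ∃ z, Tq v - (ε * ((q : ℤ) + 1)) • v = (p : ℤ) • z := hvq
  obtain ⟨y, hy1, hy2, hy3, hy4⟩ := rba_main_perfect
    (R := MvPolynomial ι ℤ) (X := lrL N) (Y := lrL (N * q))
    (fun i : ι => (MvPolynomial.X i : MvPolynomial ι ℤ)) α₁ α₂ β₁ β₂ Tq q
    h11 h22 h12 h21 (pd N) (pd (N * q)) (hperf N) (hperf (N * q)) hadj₁ hadj₂
    hself p hp (fun i : ι => (W.apOfModel i.1 : ℤ)) ε hε hI v hv hvT' hvq'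
  refine ⟨y, hy1, hy2, hy3, fun ℓ hℓ => ?_⟩
  obtain ⟨z, hz1, hz2, hz3⟩ := hy4 ⟨ℓ, hℓ⟩
  exact ⟨z, hz1, hz2, by rw [← hz3, hYi]⟩

end main

end Fermat.Agent.S41x
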