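import Fermat.Agent.S41x.LRBase
import Fermat.Agent.S41x.EsbOut
import Fermat.Agent.S41x.FormsComm
import Fermat.Agent.S41x.EigenModPSpan

/-!
# S41 block E, TOP: steps 4 + 5 of the architect's proof, independent of block B

`tpo_out_of_lift`: let `K ≤ lrL M = Hom_par(Γ₀(M), ℤ)` be a sublattice stable under all Hecke
operators `lrT M m` on which `U_q² = 1`.  If `y ∈ K ∖ pK` satisfies `T_ℓ y ≡ a ℓ • y (mod pK)` for
`ℓ ∈ S`, then there is a normalised eigenform `g` of level `M` and a maximal ideal `𝔪' ∋ p` of the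
algebraic integers with `a_ℓ(g) ≡ a ℓ (mod 𝔪')` for `ℓ ∈ S` and `a_q(g)² = 1`.

The Deligne–Serre lifting step is taken in the shape of `LRSpec.rbl_exists_lift`
(`tpo_LiftProp`, row E-LIFT).
-/

set_option autoImplicit false

open scoped MatrixGroups
open CongruenceSubgroup ModularCurve ModularCurve.Period ModularFormClass

namespace Fermat.Agent.S41x

/-- The statement of `LRSpec.rbl_exists_lift` (row ABS-E2 / E-LIFT), for types in `Type`. -/
def tpo_LiftProp : Prop :=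
  ∀ (K : Type) [AddCommGroup K] [Module.Finite ℤ K]
    (V : Type) [AddCommGroup V] [Module ℂ V]
    (j : K →+ V) (_ : Function.Injective j)
    (κ : Type) (SK : κ → K →+ K) (SV : κ → Module.End ℂ V)
    (_ : ∀ m n, ∀ w ∈ Submodule.span ℂ (Set.range j), SV m (SV n w) = SV n (SV m w))
    (_ : ∀ m x, j (SK m x) = SV m (j x))
    (p : ℕ) (_ : p.Prime) (ι : Type) (e : ι → κ) (a : ι → ℤ)
    (y : K) (_ : ¬ ∃ z, y = (p : ℤ) • z) (_ : ∀ i, ∃ z, SK (e i) y - a i • y = (p : ℤ) • z),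
    ∃ (w : V) (μ : κ → integralClosure ℤ ℂ) (𝔪' : Ideal (integralClosure ℤ ℂ)),
      w ∈ Submodule.span ℂ (Set.range j) ∧ w ≠ 0 ∧
      (∀ m, SV m w = ((μ m : integralClosure ℤ ℂ) : ℂ) • w) ∧ 𝔪'.IsMaximal ∧
      (p : integralClosure ℤ ℂ) ∈ 𝔪' ∧ ∀ i, μ (e i) - (a i : integralClosure ℤ ℂ) ∈ 𝔪'

section

variable (M : ℕ) [NeZero M]

/-- the `ℂ`-linear Hecke operator on `Hom(Γ₀(M), ℂ)` -/
noncomputable def tpo_TC (m : Nat.Primes) : Module.End ℂ (Additive (Gamma0 M) →+ ℂ) :=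
  (Fermat.Agent.S16x.cohDatumGen M m).opLin ℂ

@[simp] theorem tpo_TC_apply (m : Nat.Primes) (w : Additive (Gamma0 M) →+ ℂ) :
    tpo_TC M m w = lrT M m w := rfl

theorem tpo_out_of_lift (hlift : tpo_LiftProp)
    (K : Submodule ℤ (Additive (Gamma0 M) →+ ℤ)) (hK : K ≤ lrL M)
    (hstab : ∀ m : Nat.Primes, ∀ x ∈ K, lrT M m x ∈ K)
    (q : Nat.Primes) (hU : ∀ x ∈ K, lrT M q (lrT M q x) = x)
    (p : ℕ) (hp : p.Prime) (S : Set Nat.Primes) (a : Nat.Primes → ℤ)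
    (y : Additive (Gamma0 M) →+ ℤ) (hyK : y ∈ K)
    (hy : ¬ ∃ z ∈ K, y = (p : ℤ) • z)
    (hyT : ∀ ℓ ∈ S, ∃ z ∈ K, lrT M ℓ y - a ℓ • y = (p : ℤ) • z) :
    ∃ (g : CuspForm (Gamma0 M) 2) (𝔪' : Ideal (integralClosure ℤ ℂ)),
      g.IsNormalizedEigenform ∧ 𝔪'.IsMaximal ∧ (p : integralClosure ℤ ℂ) ∈ 𝔪' ∧
      (∀ ℓ ∈ S, ∃ c : integralClosure ℤ ℂ, (c : ℂ) = qCoeff g (ℓ : ℕ) ∧
        c - (a ℓ : integralClosure ℤ ℂ) ∈ 𝔪') ∧
      qCoeff g (q : ℕ) ^ 2 = 1 := by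
  classical
  have hfg : Group.FG (Gamma0 M) := emp_fg_Gamma0 M
  have hnoeth : IsNoetherian ℤ (Additive (Gamma0 M) →+ ℤ) := emp_isNoetherian_hom
  have hfin : Module.Finite ℤ K := inferInstance
  -- the data
  let j : K →+ (Additive (Gamma0 M) →+ ℂ) :=
    { toFun := fun x => lrf26_toC x.1
      map_zero' := by
        refine DFunLike.ext _ _ fun g => ?_
        simp
      map_add' := fun x x' => by
        refine DFunLike.ext _ _ fun g => ?_
        simp }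
  have hj_apply : ∀ x : K, j x = lrf26_toC x.1 := fun _ => rfl
  have hjinj : Function.Injective j := by
    intro x x' h
    exact Subtype.ext (lrf26_toC_injective h)
  let SK : Nat.Primes → K →+ K := fun m =>
    { toFun := fun x => ⟨lrT M m x.1, hstab m x.1 x.2⟩
      map_zero' := by
        apply Subtype.ext
        simp
      map_add' := fun x x' => by
        apply Subtype.ext
        simp }
  have hSK : ∀ m (x : K), ((SK m x : K) : Additive (Gamma0 M) →+ ℤ) = lrT M m x.1 := fun _ _ => rfl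
  have hjS : ∀ m x, j (SK m x) = tpo_TC M m (j x) := by
    intro m x
    rw [hj_apply, hj_apply, hSK, tpo_TC_apply]
    exact lrf26_toC_cohOpGen M m x.1
  have hjpar : ∀ x : K, j x ∈ parabolicHoms ℂ (Gamma0 M) ℂ := fun x => lrf26_toC_mem (hK x.2)
  have hspanpar : Submodule.span ℂ (Set.range j) ≤ parabolicHoms ℂ (Gamma0 M) ℂ := by
    rw [Submodule.span_le]
    rintro _ ⟨x, rfl⟩
    exact hjpar x
  have hcomm : ∀ m n, ∀ w ∈ Submodule.span ℂ (Set.range j),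
      tpo_TC M m (tpo_TC M n w) = tpo_TC M n (tpo_TC M m w) := by
    intro m n w hw
    exact lrf26_comm_C M m n w (hspanpar hw)
  have hUall : ∀ w ∈ Submodule.span ℂ (Set.range j), tpo_TC M q (tpo_TC M q w) = w := by
    intro w hw
    induction hw using Submodule.span_induction with
    | mem x hx =>
      obtain ⟨x, rfl⟩ := hx
      rw [← hjS, ← hjS]
      congr 1
      apply Subtype.ext
      rw [hSK, hSK]
      exact hU x.1 x.2
    | zero => simp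
    | add x x' _ _ hx hx' => rw [map_add, map_add, hx, hx']
    | smul c x _ hx => rw [map_smul, map_smul, hx]
  -- `y` as an element of `K`
  have hy' : ¬ ∃ z : K, (⟨y, hyK⟩ : K) = (p : ℤ) • z := by
    rintro ⟨z, hz⟩
    exact hy ⟨z.1, z.2, congrArg Subtype.val hz⟩
  have hyT' : ∀ i : S, ∃ z : K, SK i.1 ⟨y, hyK⟩ - a i.1 • (⟨y, hyK⟩ : K) = (p : ℤ) • z := by
    intro i
    obtain ⟨z, hzK, hz⟩ := hyT i.1 i.2
    exact ⟨⟨z, hzK⟩, Subtype.ext hz⟩
  obtain ⟨w, μ, 𝔪', hwspan, hw0, hweig, hmax, hpm, hcong⟩ :=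
    hlift K (Additive (Gamma0 M) →+ ℂ) j hjinj Nat.Primes SK (tpo_TC M) hcomm hjS p hp S
      (fun i => i.1) (fun i => a i.1) ⟨y, hyK⟩ hy' hyT'
  -- `U_q² = 1` on the span
  have hUw : tpo_TC M q (tpo_TC M q w) = w := hUall w hwspan
  have hμq : ((μ q : integralClosure ℤ ℂ) : ℂ) ^ 2 = 1 := by
    rw [hweig q, map_smul, hweig q, smul_smul] at hUw
    have h1 : (((μ q : integralClosure ℤ ℂ) : ℂ) * ((μ q : integralClosure ℤ ℂ) : ℂ) - 1) • w = 0 := by
      rw [sub_smul, hUw, one_smul, sub_self]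
    rcases smul_eq_zero.mp h1 with h | h
    · rw [pow_two]
      exact sub_eq_zero.mp h
    · exact absurd h hw0
  -- the eigenform
  let c : ℕ → ℂ := fun n => if h : n.Prime then ((μ ⟨n, h⟩ : integralClosure ℤ ℂ) : ℂ) else 0
  have hc : ∀ ℓ : Nat.Primes, c (ℓ : ℕ) = ((μ ℓ : integralClosure ℤ ℂ) : ℂ) := by
    intro ℓ
    simp only [c, dif_pos ℓ.2]
    rfl
  obtain ⟨g, hg, hgc⟩ := esb_out M w hw0 (hspanpar hwspan) c (fun ℓ => by
    rw [hc ℓ]
    exact hweig ℓ)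
  refine ⟨g, 𝔪', hg, hmax, hpm, fun ℓ hℓ => ?_, ?_⟩
  · refine ⟨μ ℓ, ?_, hcong ⟨ℓ, hℓ⟩⟩
    rw [hgc ℓ ℓ.2, hc ℓ]
  · rw [hgc q q.2, hc q, hμq]

end

end Fermat.Agent.S41x
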