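/-
S41 project (level raising), block E, TOP STEP 4-5 (helper95, twin of helper73's TopOut.lean).
EXACT shape of `LRTopSpec.top_step45`: `tpo95_step45`.

INPUT  = the output of the abstract Ribet lemma (`rbm_ribet_main`, `O = ℤ`, `𝔪 = (p)`,
         `M₂ = lrL (N q)`): an integral parabolic class `z` of level `N q` killed by both
         transfers, not divisible by `p`, which is an eigenvector modulo `p` of the `T_ℓ`,
         `ℓ ∈ S`, with integer eigenvalues `a ℓ`;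
OUTPUT = a normalised eigenform `g` of level `N q`, a maximal ideal `𝔪' ∋ p` of `ℤ̄`, with
         `a_ℓ(g) ≡ a ℓ (mod 𝔪')` for `ℓ ∈ S` and `a_q(g)² = 1`.

Route: `K = ker β ⊆ lrL (N q)` is a finite free `ℤ`-module stable under the `T_ℓ` (B2);
`elf_exists_lift` (Deligne–Serre on the lattice, helper82) gives `w ≠ 0` in the `ℂ`-span of `K`,
an eigenvector of the `T_ℓ` with eigenvalues `≡ a ℓ`; `w` is parabolic and killed by both
transfers, so `U_q² w = w` (B3, helper1); `lrf26_exists_eigenform` (helper26) concludes.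
-/
import Fermat.Agent.S41x.EigenLiftLattice
import Fermat.Agent.S41x.CohLevelB2
import Fermat.Agent.S41x.CohLevelB3
import Fermat.Agent.S41x.LatHomBase
import Fermat.Agent.S41x.FormsNew
import Fermat.Agent.S41x.FormsComm
import Fermat.Agent.S41x.LRTopDefs
import Fermat.Prelude.Def_FLTPrelim_ModularRep
import Fermat.Prelude.Def_FreyPackage_LevelRaising

set_option autoImplicit false

namespace Fermat.Agent.S41x

open scoped MatrixGroups
open CongruenceSubgroup ModularFormClass CuspForm ModularCurve ModularCurve.Period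
open Fermat.Agent.S16x

section

variable (N q : ℕ) [NeZero N] [NeZero (N * q)] [Fact q.Prime] (hqN : ¬ q ∣ N)

/-- `cohOpGen` commutes with complex scalars -/
theorem tpo95_cohOpGen_smul (M : ℕ) [NeZero M] (ℓ : Nat.Primes) (c : ℂ)
    (w : Additive (Gamma0 M) →+ ℂ) : cohOpGen M ℓ (c • w) = c • cohOpGen M ℓ w := by
  have h := cohOpGen_comp M ℓ (AddMonoidHom.mulLeft c) w
  have h1 : (AddMonoidHom.mulLeft c).comp w = c • w := by
    refine AddMonoidHom.ext fun a => ?_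
    simp
  have h2 : (AddMonoidHom.mulLeft c).comp (cohOpGen M ℓ w) = c • cohOpGen M ℓ w := by
    refine AddMonoidHom.ext fun a => ?_
    simp
  rw [h1, h2] at h
  exact h.symm

/-- the Hecke operator as a `ℂ`-linear endomorphism of `Hom(Γ₀(M), ℂ)` -/
noncomputable def tpo95_Tc (M : ℕ) [NeZero M] (ℓ : Nat.Primes) :
    Module.End ℂ (Additive (Gamma0 M) →+ ℂ) where
  toFun w := cohOpGen M ℓ w
  map_add' w₁ w₂ := map_add _ w₁ w₂
  map_smul' c w := tpo95_cohOpGen_smul M ℓ c w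

@[simp] theorem tpo95_Tc_apply (M : ℕ) [NeZero M] (ℓ : Nat.Primes) (w : Additive (Gamma0 M) →+ ℂ) :
    tpo95_Tc M ℓ w = cohOpGen M ℓ w := rfl

/-- the lattice `K = ker β ⊆ H¹_par(Γ₀(N q), ℤ)` -/
def tpo95_K : Submodule ℤ (Additive (Gamma0 (N * q)) →+ ℤ) where
  carrier := {x | x ∈ lrL (N * q) ∧ lrCores N q hqN x = 0 ∧ lrCoresEta N q hqN x = 0}
  zero_mem' := ⟨zero_mem _, map_zero _, map_zero _⟩
  add_mem' := by
    rintro x y ⟨hx, hx1, hx2⟩ ⟨hy, hy1, hy2⟩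
    refine ⟨add_mem hx hy, ?_, ?_⟩
    · rw [map_add, hx1, hy1, add_zero]
    · rw [map_add, hx2, hy2, add_zero]
  smul_mem' := by
    rintro c x ⟨hx, hx1, hx2⟩
    refine ⟨Submodule.smul_mem _ c hx, ?_, ?_⟩
    · rw [lrCores_smul, hx1, smul_zero]
    · rw [lrCoresEta_smul, hx2, smul_zero]

omit [NeZero N] [NeZero (N * q)] in
theorem tpo95_mem_K {x : Additive (Gamma0 (N * q)) →+ ℤ} :
    x ∈ tpo95_K N q hqN ↔
      x ∈ lrL (N * q) ∧ lrCores N q hqN x = 0 ∧ lrCoresEta N q hqN x = 0 := Iff.rfl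

/-- `K` is stable under `T_ℓ`, `ℓ ≠ q` -/
theorem tpo95_K_stable (ℓ : Nat.Primes) (hℓq : (ℓ : ℕ) ≠ q)
    {x : Additive (Gamma0 (N * q)) →+ ℤ} (hx : x ∈ tpo95_K N q hqN) :
    lrT (N * q) ℓ x ∈ tpo95_K N q hqN := by
  obtain ⟨hx0, hx1, hx2⟩ := hx
  obtain ⟨h1, h2⟩ := lrb2_ker_stable N q hqN ℓ hℓq x hx1 hx2
  exact ⟨lrT_isParabolicHom (N * q) ℓ hx0, h1, h2⟩

omit [NeZero N] [NeZero (N * q)] in
/-- `K` is saturated: `n • u ∈ K`, `n ≠ 0`, `u` integral ⇒ `u ∈ K` -/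
theorem tpo95_K_saturated (n : ℤ) (hn : n ≠ 0) {u : Additive (Gamma0 (N * q)) →+ ℤ}
    (hu : n • u ∈ tpo95_K N q hqN) : u ∈ tpo95_K N q hqN := by
  obtain ⟨h0, h1, h2⟩ := hu
  have key : ∀ {G : Type} [AddZeroClass G] (ψ : G →+ ℤ), n • ψ = 0 → ψ = 0 := by
    intro G _ ψ h
    refine AddMonoidHom.ext fun a => ?_
    have := DFunLike.congr_fun h a
    simp only [AddMonoidHom.smul_apply, smul_eq_mul, AddMonoidHom.zero_apply, mul_eq_zero] at this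
    exact this.resolve_left hn
  refine ⟨?_, ?_, ?_⟩
  · intro γ hγ
    have := h0 γ hγ
    simp only [AddMonoidHom.smul_apply, smul_eq_mul, mul_eq_zero] at this
    exact this.resolve_left hn
  · apply key
    rw [← lrCores_smul, h1]
  · apply key
    rw [← lrCoresEta_smul, h2]

/-- **TOP, second half** (abstract index set `S` of primes `≠ q`, integer eigenvalues `a`). -/
theorem tpo95_main (p : ℕ) (S : Set Nat.Primes) (hSq : ∀ ℓ ∈ S, (ℓ : ℕ) ≠ q) (a : Nat.Primes → ℤ)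
    (z : Additive (Gamma0 (N * q)) →+ ℤ) (hz : z ∈ lrL (N * q))
    (hz1 : lrCores N q hqN z = 0) (hz2 : lrCoresEta N q hqN z = 0)
    (hz0 : ¬ ∃ u : Additive (Gamma0 (N * q)) →+ ℤ, z = (p : ℤ) • u)
    (hp0 : p ≠ 0)
    (hza : ∀ ℓ ∈ S, ∃ u : Additive (Gamma0 (N * q)) →+ ℤ,
      lrT (N * q) ℓ z - a ℓ • z = (p : ℤ) • u) :
    ∃ (g : CuspForm (Gamma0 (N * q)) 2) (𝔪' : Ideal (integralClosure ℤ ℂ)),
      g.IsNormalizedEigenform ∧ 𝔪'.IsMaximal ∧ (p : integralClosure ℤ ℂ) ∈ 𝔪' ∧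
      (∀ ℓ ∈ S, ∃ c : integralClosure ℤ ℂ, (c : ℂ) = qCoeff g (ℓ : ℕ) ∧
        c - (a ℓ : integralClosure ℤ ℂ) ∈ 𝔪') ∧
      qCoeff g q ^ 2 = 1 := by
  classical
  -- the lattice
  haveI hfg : Group.FG (Gamma0 (N * q)) := lhb_fg_of_finiteIndex (Gamma0 (N * q))
  haveI : Module.Finite ℤ (tpo95_K N q hqN) := lhb_finite _
  haveI : Module.Free ℤ (tpo95_K N q hqN) := lhb_free _
  -- operators on the lattice
  let T : S → Module.End ℤ (tpo95_K N q hqN) := fun i =>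
    { toFun := fun x => ⟨lrT (N * q) i.1 x.1, tpo95_K_stable N q hqN i.1 (hSq i.1 i.2) x.2⟩
      map_add' := fun x y => Subtype.ext (map_add _ x.1 y.1)
      map_smul' := fun c x => Subtype.ext (by
        show lrT (N * q) i.1 (c • x.1) = c • lrT (N * q) i.1 x.1
        exact map_zsmul _ c x.1) }
  have hT : ∀ (i : S) (x : tpo95_K N q hqN), ((T i x : tpo95_K N q hqN) :
      Additive (Gamma0 (N * q)) →+ ℤ) = lrT (N * q) i.1 x.1 := fun _ _ => rfl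
  let Tc : S → Module.End ℂ (Additive (Gamma0 (N * q)) →+ ℂ) := fun i => tpo95_Tc (N * q) i.1
  let emb : tpo95_K N q hqN →ₗ[ℤ] (Additive (Gamma0 (N * q)) →+ ℂ) :=
    (lhb_cast ℂ).comp (tpo95_K N q hqN).subtype
  have hemb : ∀ x : tpo95_K N q hqN, emb x = lhb_cast ℂ x.1 := fun _ => rfl
  have hinj : Function.Injective emb := fun x y h =>
    Subtype.ext (lhb_cast_injective ℂ h)
  have heq : ∀ (i : S) (x : tpo95_K N q hqN), emb (T i x) = Tc i (emb x) := by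
    intro i x
    show lhb_cast ℂ (lrT (N * q) i.1 x.1) = cohOpGen (N * q) i.1 (lhb_cast ℂ x.1)
    exact cohOpGen_comp (N * q) i.1 (Int.castAddHom ℂ) x.1
  have hcomm : ∀ i j : S, Commute (T i) (T j) := by
    intro i j
    refine LinearMap.ext fun x => Subtype.ext ?_
    show lrT (N * q) i.1 (lrT (N * q) j.1 x.1) = lrT (N * q) j.1 (lrT (N * q) i.1 x.1)
    exact lrf26_comm_Z (N * q) i.1 j.1 x.1 x.2.1
  -- the vector
  let y : tpo95_K N q hqN := ⟨z, hz, hz1, hz2⟩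
  have hy : ¬ ∃ u : tpo95_K N q hqN, y = p • u := by
    rintro ⟨u, hu⟩
    apply hz0
    refine ⟨u.1, ?_⟩
    have h := congrArg Subtype.val hu
    rw [natCast_zsmul]
    exact h.trans (by simp)
  have hpZ : (p : ℤ) ≠ 0 := by exact_mod_cast hp0
  have hya : ∀ i : S, ∃ u : tpo95_K N q hqN, T i y - a i.1 • y = p • u := by
    intro i
    obtain ⟨u, hu⟩ := hza i.1 i.2
    have hmem : (p : ℤ) • u ∈ tpo95_K N q hqN := by
      rw [← hu]
      exact Submodule.sub_mem _ (tpo95_K_stable N q hqN i.1 (hSq i.1 i.2) y.2)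
        (Submodule.smul_mem _ _ y.2)
    refine ⟨⟨u, tpo95_K_saturated N q hqN (p : ℤ) hpZ hmem⟩, ?_⟩
    apply Subtype.ext
    show lrT (N * q) i.1 z - a i.1 • z = _
    rw [hu, natCast_zsmul]
    simp
  obtain ⟨v, c, 𝔪', hv0, hvW, hvc, hmax, hpm, hcong⟩ :=
    elf_exists_lift (T := T) (Tc := Tc) (emb := emb) hcomm hinj heq p (fun i => a i.1) y hy hya
  -- `v` is parabolic and killed by both transfers
  have hvpar : v ∈ parabolicHoms ℂ (Gamma0 (N * q)) ℂ := by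
    refine (Submodule.span_le.mpr ?_) hvW
    rintro _ ⟨x, rfl⟩
    exact lhb_cast_mem_par (Gamma0 (N * q)) ℂ x.2.1
  have hker : ∀ w ∈ elf_W emb, lrCores N q hqN w = 0 ∧ lrCoresEta N q hqN w = 0 := by
    intro w hw
    induction hw using Submodule.span_induction with
    | mem w hw =>
      obtain ⟨x, rfl⟩ := hw
      constructor
      · show lrCores N q hqN ((Int.castAddHom ℂ).comp x.1) = 0
        rw [lrCores_comp_coeff, x.2.2.1, AddMonoidHom.comp_zero]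
      · show lrCoresEta N q hqN ((Int.castAddHom ℂ).comp x.1) = 0
        rw [lrCoresEta_comp_coeff, x.2.2.2, AddMonoidHom.comp_zero]
    | zero => exact ⟨map_zero _, map_zero _⟩
    | add w w' _ _ ih ih' =>
      exact ⟨by rw [map_add, ih.1, ih'.1, add_zero], by rw [map_add, ih.2, ih'.2, add_zero]⟩
    | smul k w _ ih =>
      exact ⟨by rw [lrCores_smul, ih.1, smul_zero], by rw [lrCoresEta_smul, ih.2, smul_zero]⟩
  have hvker := hker v hvW
  -- `U_q² v = v`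
  have hU := (lb3_main N q hqN v hvker.1 hvker.2).1
  -- the eigenform
  let lam : Nat.Primes → ℂ := fun ℓ => if h : ℓ ∈ S then ((c ⟨ℓ, h⟩ : integralClosure ℤ ℂ) : ℂ) else 0
  obtain ⟨g, hg, hgS, hgq⟩ := lrf26_exists_eigenform (N * q) (lrPrime q) S lam v hvpar hv0
    (fun ℓ hℓ => by
      have := hvc ⟨ℓ, hℓ⟩
      simp only [lam, dif_pos hℓ]
      exact this)
    hU
  refine ⟨g, 𝔪', hg, hmax, hpm, fun ℓ hℓ => ⟨c ⟨ℓ, hℓ⟩, ?_, hcong ⟨ℓ, hℓ⟩⟩, hgq⟩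
  rw [hgS ℓ hℓ]
  simp only [lam, dif_pos hℓ]

end

/-- **STEP 4-5 of TOP, EXACT shape `LRTopSpec.top_step45`** (with `topGood W (N*q) p ℓ` unfolded to
`W.IsGoodPrimeFor ℓ ∧ ¬ (ℓ : ℕ) ∣ N * q ∧ (ℓ : ℕ) ≠ p`). -/
theorem tpo95_step45 {W : WeierstrassCurve ℤ} {p N q : ℕ} [NeZero N] [Fact q.Prime] (hp : p.Prime)
    (hqN : ¬ q ∣ N)
    (y : lrL (N * q)) (hy1 : lrtCores N q hqN y = 0) (hy2 : lrtCoresEta N q hqN y = 0)
    (hy : ¬ ∃ z : lrL (N * q), y = (p : ℤ) • z)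
    (hyT : ∀ ℓ : Nat.Primes, (W.IsGoodPrimeFor ℓ ∧ ¬ (ℓ : ℕ) ∣ N * q ∧ (ℓ : ℕ) ≠ p) →
        ∃ z : lrL (N * q), lrtCores N q hqN z = 0 ∧ lrtCoresEta N q hqN z = 0 ∧
          lrtT (N * q) ℓ y - (W.apOfModel ℓ : ℤ) • y = (p : ℤ) • z) :
    ∃ (g : CuspForm (Gamma0 (N * q)) 2) (𝔪' : Ideal (integralClosure ℤ ℂ)),
      g.IsNormalizedEigenform ∧ 𝔪'.IsMaximal ∧ (p : integralClosure ℤ ℂ) ∈ 𝔪' ∧
      (∀ ℓ : ℕ, ℓ.Prime → W.IsGoodPrimeFor ℓ → ¬ ℓ ∣ N * q → ℓ ≠ p →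
        ∃ a : integralClosure ℤ ℂ, (a : ℂ) = ModularFormClass.qCoeff g ℓ ∧
          a - ((W.apOfModel ℓ : ℤ) : integralClosure ℤ ℂ) ∈ 𝔪') ∧
      g.IsNewAt q := by
  let S : Set Nat.Primes := {ℓ | W.IsGoodPrimeFor ℓ ∧ ¬ (ℓ : ℕ) ∣ N * q ∧ (ℓ : ℕ) ≠ p}
  have hSq : ∀ ℓ ∈ S, (ℓ : ℕ) ≠ q := by
    rintro ℓ ⟨-, h, -⟩ rfl
    exact h (Dvd.intro_left N rfl)
  have hz0 : ¬ ∃ u : Additive (Gamma0 (N * q)) →+ ℤ, y.1 = (p : ℤ) • u := by
    rintro ⟨u, hu⟩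
    apply hy
    apply lrt_dvd_of_values (N * q) p hp.ne_zero y
    intro γ
    rw [hu]
    exact ⟨u γ, rfl⟩
  obtain ⟨g, 𝔪', hg, hmax, hpm, hcong, hnew⟩ :=
    tpo95_main N q hqN p S hSq (fun ℓ => (W.apOfModel ℓ : ℤ)) y.1 y.2
      (congrArg Subtype.val hy1) (congrArg Subtype.val hy2) hz0 hp.ne_zero
      (fun ℓ hℓ => by
        obtain ⟨z, -, -, hz⟩ := hyT ℓ hℓ
        exact ⟨z.1, congrArg Subtype.val hz⟩)
  refine ⟨g, 𝔪', hg, hmax, hpm, fun ℓ hℓ hgood hdvd hne => ?_, hnew⟩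
  exact hcong ⟨ℓ, hℓ⟩ ⟨hgood, hdvd, hne⟩

end Fermat.Agent.S41x
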