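import Mathlib

/-!
# S41 block E, row E-POLY: `MvPolynomial ι ℤ` acting through a commuting family

`TT := MvPolynomial ι ℤ` acts on an abelian group `X` through a commuting family
`T : ι → Module.End ℤ X`.  This lets the abstract Ribet lemma (commutative ring `TT`,
maximal ideal `𝔫 = ker (TT → ZMod p, X i ↦ a i)`) be instantiated on lattices of parabolic homs.

Everything is Mathlib only.  Prefix `tpa_`.
-/

set_option autoImplicit false

namespace Fermat.Agent.S41x

open MvPolynomial

section Action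

variable {X : Type*} [AddCommGroup X] {ι : Type*} (T : ι → Module.End ℤ X)
  (hcomm : ∀ i j, Commute (T i) (T j))

/-- The subalgebra generated by a commuting family is a commutative ring. -/
@[reducible] noncomputable def tpa_commRing : CommRing (Algebra.adjoin ℤ (Set.range T)) :=
  Algebra.adjoinCommRingOfComm ℤ (by
    rintro _ ⟨i, rfl⟩ _ ⟨j, rfl⟩
    exact (hcomm i j).eq)

/-- The generators, as elements of the adjoin. -/
noncomputable def tpa_gen (i : ι) : Algebra.adjoin ℤ (Set.range T) :=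
  ⟨T i, Algebra.subset_adjoin ⟨i, rfl⟩⟩

/-- `MvPolynomial ι ℤ` acts through the commuting family `T`. -/
noncomputable def tpa_ringHom : MvPolynomial ι ℤ →+* Module.End ℤ X :=
  letI := tpa_commRing T hcomm
  (Algebra.adjoin ℤ (Set.range T)).val.toRingHom.comp
    (MvPolynomial.aeval (R := ℤ) (tpa_gen T)).toRingHom

theorem tpa_ringHom_X (i : ι) : tpa_ringHom T hcomm (MvPolynomial.X i) = T i := by
  letI := tpa_commRing T hcomm
  simp [tpa_ringHom, tpa_gen]

theorem tpa_ringHom_C (n : ℤ) :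
    tpa_ringHom T hcomm (MvPolynomial.C n) = n • (1 : Module.End ℤ X) := by
  letI := tpa_commRing T hcomm
  simp [tpa_ringHom]

theorem tpa_ringHom_C_apply (n : ℤ) (x : X) :
    tpa_ringHom T hcomm (MvPolynomial.C n) x = n • x := by
  rw [tpa_ringHom_C]
  simp

theorem tpa_ringHom_mul_X_apply (P : MvPolynomial ι ℤ) (i : ι) (x : X) :
    tpa_ringHom T hcomm (P * MvPolynomial.X i) x = tpa_ringHom T hcomm P (T i x) := by
  rw [map_mul, tpa_ringHom_X, Module.End.mul_apply]

theorem tpa_ringHom_X_mul_apply (P : MvPolynomial ι ℤ) (i : ι) (x : X) :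
    tpa_ringHom T hcomm (MvPolynomial.X i * P) x = T i (tpa_ringHom T hcomm P x) := by
  rw [map_mul, tpa_ringHom_X, Module.End.mul_apply]

theorem tpa_ringHom_add_apply (P Q : MvPolynomial ι ℤ) (x : X) :
    tpa_ringHom T hcomm (P + Q) x = tpa_ringHom T hcomm P x + tpa_ringHom T hcomm Q x := by
  rw [map_add, LinearMap.add_apply]

/-- Equivariant maps intertwine the polynomial actions. -/
theorem tpa_intertwine {Y : Type*} [AddCommGroup Y] (TY : ι → Module.End ℤ Y)
    (hcommY : ∀ i j, Commute (TY i) (TY j)) (f : X →ₗ[ℤ] Y)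
    (hf : ∀ i x, f (T i x) = TY i (f x)) (P : MvPolynomial ι ℤ) (x : X) :
    f (tpa_ringHom T hcomm P x) = tpa_ringHom TY hcommY P (f x) := by
  induction P using MvPolynomial.induction_on generalizing x with
  | C n => rw [tpa_ringHom_C_apply, tpa_ringHom_C_apply, map_zsmul]
  | add P Q hP hQ => rw [tpa_ringHom_add_apply, tpa_ringHom_add_apply, map_add, hP, hQ]
  | mul_X P i hP =>
    rw [tpa_ringHom_mul_X_apply, tpa_ringHom_mul_X_apply, hP, hf]

/-- A mod-`p` eigenvector for the family is a mod-`p` eigenvector for every polynomial, with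
eigenvalue the evaluation of the polynomial. -/
theorem tpa_eigen_mod (p : ℕ) (a : ι → ℤ) (z : X)
    (hz : ∀ i, ∃ w, T i z - a i • z = (p : ℤ) • w) (P : MvPolynomial ι ℤ) :
    ∃ w, tpa_ringHom T hcomm P z - (MvPolynomial.eval a P) • z = (p : ℤ) • w := by
  induction P using MvPolynomial.induction_on with
  | C n =>
    refine ⟨0, ?_⟩
    rw [tpa_ringHom_C_apply, MvPolynomial.eval_C, sub_self, smul_zero]
  | add P Q hP hQ =>
    obtain ⟨w₁, h₁⟩ := hP
    obtain ⟨w₂, h₂⟩ := hQ
    refine ⟨w₁ + w₂, ?_⟩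
    rw [tpa_ringHom_add_apply, map_add, add_smul, smul_add, ← h₁, ← h₂]
    abel
  | mul_X P i hP =>
    obtain ⟨w₁, h₁⟩ := hP
    obtain ⟨w₂, h₂⟩ := hz i
    refine ⟨a i • w₁ + tpa_ringHom T hcomm P w₂, ?_⟩
    have e1 : T i z = a i • z + (p : ℤ) • w₂ := by rw [← h₂]; abel
    have e2 : tpa_ringHom T hcomm P z = (MvPolynomial.eval a P) • z + (p : ℤ) • w₁ := by
      rw [← h₁]; abel
    rw [tpa_ringHom_mul_X_apply, e1, map_add, map_zsmul, map_zsmul, e2, map_mul,
      MvPolynomial.eval_X, smul_add, smul_add, smul_smul, smul_smul, smul_smul,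
      mul_comm (a i) (MvPolynomial.eval a P), mul_comm (a i) (p : ℤ)]
    abel

/-- Self-adjointness propagates from the generators to all polynomials. -/
theorem tpa_selfadjoint (B : X →ₗ[ℤ] X →ₗ[ℤ] ℤ) (h : ∀ i x y, B (T i x) y = B x (T i y))
    (P : MvPolynomial ι ℤ) (x y : X) :
    B (tpa_ringHom T hcomm P x) y = B x (tpa_ringHom T hcomm P y) := by
  induction P using MvPolynomial.induction_on generalizing x y with
  | C n =>
    rw [tpa_ringHom_C_apply, tpa_ringHom_C_apply, map_zsmul, map_zsmul, LinearMap.smul_apply]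
  | add P Q hP hQ =>
    rw [tpa_ringHom_add_apply, tpa_ringHom_add_apply, map_add, map_add, LinearMap.add_apply,
      hP, hQ]
  | mul_X P i hP =>
    rw [tpa_ringHom_mul_X_apply, hP, h, ← tpa_ringHom_X_mul_apply, mul_comm]

/-- Stability of a submodule propagates from the generators to all polynomials. -/
theorem tpa_ker_stable {K : Submodule ℤ X} (hK : ∀ i, ∀ x ∈ K, T i x ∈ K)
    (P : MvPolynomial ι ℤ) : ∀ x ∈ K, tpa_ringHom T hcomm P x ∈ K := by
  induction P using MvPolynomial.induction_on with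
  | C n =>
    intro x hx
    rw [tpa_ringHom_C_apply]
    exact K.smul_mem n hx
  | add P Q hP hQ =>
    intro x hx
    rw [tpa_ringHom_add_apply]
    exact K.add_mem (hP x hx) (hQ x hx)
  | mul_X P i hP =>
    intro x hx
    rw [tpa_ringHom_mul_X_apply]
    exact hP _ (hK i x hx)

end Action

section Eval

variable {ι : Type*}

/-- The character `TT → ZMod p`, `X i ↦ a i`. -/
noncomputable def tpa_evalModP (p : ℕ) (a : ι → ℤ) : MvPolynomial ι ℤ →+* ZMod p :=
  MvPolynomial.eval₂Hom (Int.castRingHom (ZMod p)) (fun i => ((a i : ℤ) : ZMod p))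

theorem tpa_evalModP_apply (p : ℕ) (a : ι → ℤ) (P : MvPolynomial ι ℤ) :
    tpa_evalModP p a P = ((MvPolynomial.eval a P : ℤ) : ZMod p) := by
  induction P using MvPolynomial.induction_on with
  | C n => simp [tpa_evalModP]
  | add P Q hP hQ => rw [map_add, map_add, hP, hQ, Int.cast_add]
  | mul_X P i hP =>
    rw [map_mul, map_mul, hP, Int.cast_mul]
    simp [tpa_evalModP]

theorem tpa_evalModP_surjective (p : ℕ) (a : ι → ℤ) :
    Function.Surjective (tpa_evalModP (ι := ι) p a) := by
  intro c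
  obtain ⟨n, rfl⟩ := ZMod.intCast_surjective c
  exact ⟨MvPolynomial.C n, by rw [tpa_evalModP_apply, MvPolynomial.eval_C]⟩

theorem tpa_ker_isMaximal (p : ℕ) [Fact p.Prime] (a : ι → ℤ) :
    (RingHom.ker (tpa_evalModP (ι := ι) p a)).IsMaximal :=
  RingHom.ker_isMaximal_of_surjective _ (tpa_evalModP_surjective p a)

theorem tpa_p_mem_ker (p : ℕ) (a : ι → ℤ) :
    ((p : ℕ) : MvPolynomial ι ℤ) ∈ RingHom.ker (tpa_evalModP (ι := ι) p a) := by
  rw [RingHom.mem_ker, map_natCast, ZMod.natCast_self]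

theorem tpa_X_sub_C_mem_ker (p : ℕ) (a : ι → ℤ) (i : ι) :
    MvPolynomial.X i - MvPolynomial.C (a i) ∈ RingHom.ker (tpa_evalModP (ι := ι) p a) := by
  rw [RingHom.mem_ker, tpa_evalModP_apply, map_sub, MvPolynomial.eval_X, MvPolynomial.eval_C,
    sub_self, Int.cast_zero]

theorem tpa_mem_ker_iff (p : ℕ) (a : ι → ℤ) (P : MvPolynomial ι ℤ) :
    P ∈ RingHom.ker (tpa_evalModP (ι := ι) p a) ↔ (p : ℤ) ∣ MvPolynomial.eval a P := by
  rw [RingHom.mem_ker, tpa_evalModP_apply, ZMod.intCast_zmod_eq_zero_iff_dvd]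

end Eval

section KerAction

variable {X : Type*} [AddCommGroup X] {ι : Type*} (T : ι → Module.End ℤ X)
  (hcomm : ∀ i j, Commute (T i) (T j))

/-- Elements of the kernel of the character kill a mod-`p` eigenvector modulo `p`. -/
theorem tpa_ker_smul (p : ℕ) (a : ι → ℤ) (z : X)
    (hz : ∀ i, ∃ w, T i z - a i • z = (p : ℤ) • w) (P : MvPolynomial ι ℤ)
    (hP : P ∈ RingHom.ker (tpa_evalModP (ι := ι) p a)) :
    ∃ w, tpa_ringHom T hcomm P z = (p : ℤ) • w := by
  obtain ⟨w, hw⟩ := tpa_eigen_mod T hcomm p a z hz P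
  obtain ⟨c, hc⟩ := (tpa_mem_ker_iff p a P).mp hP
  refine ⟨c • z + w, ?_⟩
  have : tpa_ringHom T hcomm P z = (MvPolynomial.eval a P) • z + (p : ℤ) • w := by
    rw [← hw]; abel
  rw [this, hc, smul_add, smul_smul]

/-- Conversely, a vector killed modulo `p` by the kernel of the character is a mod-`p`
eigenvector. -/
theorem tpa_eigen_of_ker (p : ℕ) (a : ι → ℤ) (z : X)
    (h : ∀ P ∈ RingHom.ker (tpa_evalModP (ι := ι) p a),
      ∃ w, tpa_ringHom T hcomm P z = (p : ℤ) • w) :
    ∀ i, ∃ w, T i z - a i • z = (p : ℤ) • w := by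
  intro i
  obtain ⟨w, hw⟩ := h _ (tpa_X_sub_C_mem_ker p a i)
  refine ⟨w, ?_⟩
  rw [← hw, map_sub, tpa_ringHom_X, LinearMap.sub_apply, tpa_ringHom_C_apply]

end KerAction

/-! ### Bonus: the module structure and `TT`-linear maps (for instantiating `[Module R X]`) -/
section ModuleStructure

variable {X : Type*} [AddCommGroup X] {ι : Type*} (T : ι → Module.End ℤ X)
  (hcomm : ∀ i j, Commute (T i) (T j))

/-- `X` as a module over `MvPolynomial ι ℤ` (NOT an instance; use `letI`). -/
@[reducible] noncomputable def tpa_module : Module (MvPolynomial ι ℤ) X :=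
  Module.compHom X (tpa_ringHom T hcomm)

theorem tpa_smul_def (P : MvPolynomial ι ℤ) (x : X) :
    letI := tpa_module T hcomm
    P • x = tpa_ringHom T hcomm P x := rfl

theorem tpa_X_smul (i : ι) (x : X) :
    letI := tpa_module T hcomm
    (MvPolynomial.X i : MvPolynomial ι ℤ) • x = T i x := by
  show tpa_ringHom T hcomm (MvPolynomial.X i) x = T i x
  rw [tpa_ringHom_X]

theorem tpa_C_smul (n : ℤ) (x : X) :
    letI := tpa_module T hcomm
    (MvPolynomial.C n : MvPolynomial ι ℤ) • x = n • x :=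
  tpa_ringHom_C_apply T hcomm n x

/-- An equivariant `ℤ`-linear map is linear over `MvPolynomial ι ℤ`. -/
noncomputable def tpa_linearMap {Y : Type*} [AddCommGroup Y] (TY : ι → Module.End ℤ Y)
    (hcommY : ∀ i j, Commute (TY i) (TY j)) (f : X →ₗ[ℤ] Y)
    (hf : ∀ i x, f (T i x) = TY i (f x)) :
    @LinearMap (MvPolynomial ι ℤ) (MvPolynomial ι ℤ) _ _ (RingHom.id _) X Y _ _
      (tpa_module T hcomm) (tpa_module TY hcommY) :=
  letI := tpa_module T hcomm
  letI := tpa_module TY hcommY
  { toFun := f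
    map_add' := f.map_add
    map_smul' := fun P x => tpa_intertwine T hcomm TY hcommY f hf P x }

theorem tpa_linearMap_apply {Y : Type*} [AddCommGroup Y] (TY : ι → Module.End ℤ Y)
    (hcommY : ∀ i j, Commute (TY i) (TY j)) (f : X →ₗ[ℤ] Y)
    (hf : ∀ i x, f (T i x) = TY i (f x)) (x : X) :
    tpa_linearMap T hcomm TY hcommY f hf x = f x := rfl

/-- A lattice finite over `ℤ` is finite over `MvPolynomial ι ℤ`. -/
theorem tpa_module_finite [Module.Finite ℤ X] :
    @Module.Finite (MvPolynomial ι ℤ) X _ _ (tpa_module T hcomm) :=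
  letI := tpa_module T hcomm
  Module.Finite.of_restrictScalars_finite ℤ (MvPolynomial ι ℤ) X

/-- The variables generate `MvPolynomial ι ℤ` as a ring. -/
theorem tpa_adjoin_X :
    Algebra.adjoin ℤ (Set.range (MvPolynomial.X : ι → MvPolynomial ι ℤ)) = ⊤ :=
  MvPolynomial.adjoin_range_X

end ModuleStructure

end Fermat.Agent.S41x
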